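import Mathlib
import Fermat.Prelude.Def_ModularCurve_HeckeOperator
import Fermat.Prelude.Def_ModularCurve_ArithmeticGalois
import Fermat.Prelude.Thm_ModularCurve_coeffMap_qExpand
import Fermat.Agent.S37.h49_Swap

/-!
# S34: hygiene for the Atkin–Lehner swap `w = W_ℓ` on the function field of level `N ℓ`

`h49_swapF` (S37) is a ring endomorphism of `laurentBaseChange K (modularFunctionFieldFull (N * ℓ))`
exchanging `heckeAlphaBar` and `heckeBetaBar`.  Here:

* `h49_swap_unique`  : the images of `heckeAlphaBar` and `heckeBetaBar` generate the field, so two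
  ring homomorphisms agreeing on both images are equal;
* `h49_swapF_swapF`  : `w (w x) = x`; `h49_swapEquiv` : `w` as a ring automorphism;
* `h49_swapF_const`  : `w` fixes the constants;
* `h49_swapF_galois` : `w` commutes with the coefficientwise Galois action `arithmeticRingAut`;
* `h49_swapF_indep`  : `w` does not depend on the Bezout data nor on the embedding into `ℂ`.
-/

set_option autoImplicit false

noncomputable section

open ModularCurve UpperHalfPlane
open scoped MatrixGroups

namespace Fermat.Agent.S34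

open Fermat.Agent.S24 Fermat.Agent.S37

variable {N ℓ : ℕ} [NeZero ℓ] [NeZero N]
variable {K : Type*} [Field K] [Algebra ℚ K]

/-- The images of `heckeAlphaBar` and `heckeBetaBar` generate the function field of level `N ℓ`:
two ring homomorphisms that agree on both images are equal. -/
theorem h49_swap_unique (hℓp : ℓ.Prime) {R : Type*} [Semiring R]
    (φ ψ : laurentBaseChange K (modularFunctionFieldFull (N * ℓ)) →+* R)
    (hα : ∀ y : laurentBaseChange K (modularFunctionFieldFull N),
      φ (heckeAlphaBar K N ℓ y) = ψ (heckeAlphaBar K N ℓ y))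
    (hβ : ∀ y : laurentBaseChange K (modularFunctionFieldFull N),
      φ (heckeBetaBar K N ℓ y) = ψ (heckeBetaBar K N ℓ y)) : φ = ψ := by
  apply IsLocalization.ringHom_ext (nonZeroDivisors (h78_AN K (N * ℓ)))
  refine RingHom.ext ?_
  rintro ⟨x, hx⟩
  show φ (algebraMap (h78_AN K (N * ℓ)) (laurentBaseChange K (modularFunctionFieldFull (N * ℓ)))
      ⟨x, hx⟩)
    = ψ (algebraMap (h78_AN K (N * ℓ)) (laurentBaseChange K (modularFunctionFieldFull (N * ℓ)))
      ⟨x, hx⟩)
  induction hx using Algebra.adjoin_induction with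
  | mem x hx =>
    obtain ⟨d, hd, hdN, rfl⟩ := hx
    have := hd
    by_cases hdN' : d ∣ N
    · have e1 : (heckeAlphaBar K N ℓ).toRingHom (algebraMap (h78_AN K N)
          (laurentBaseChange K (modularFunctionFieldFull N))
            ⟨coeffEmb K (qExpand ℚ d jq), Algebra.subset_adjoin ⟨d, hd, hdN', rfl⟩⟩)
          = algebraMap (h78_AN K (N * ℓ))
            (laurentBaseChange K (modularFunctionFieldFull (N * ℓ)))
              ⟨coeffEmb K (qExpand ℚ d jq), Algebra.subset_adjoin ⟨d, hd, hdN, rfl⟩⟩ :=
        Subtype.ext rfl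
      rw [← e1]
      exact hα _
    · have hℓd : ℓ ∣ d := by
        rcases Nat.coprime_or_dvd_of_prime hℓp d with hc | hc
        · exact absurd (Nat.Coprime.dvd_of_dvd_mul_right hc.symm hdN) hdN'
        · exact hc
      obtain ⟨d', rfl⟩ := hℓd
      have hd'N : d' ∣ N :=
        Nat.dvd_of_mul_dvd_mul_left hℓp.pos (by rwa [mul_comm N ℓ] at hdN)
      have hd' : NeZero d' := ⟨fun h0 => by subst h0; exact NeZero.ne (ℓ * 0) (by simp)⟩
      have e2 : (heckeBetaBar K N ℓ).toRingHom (algebraMap (h78_AN K N)
          (laurentBaseChange K (modularFunctionFieldFull N))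
            ⟨coeffEmb K (qExpand ℚ d' jq), Algebra.subset_adjoin ⟨d', hd', hd'N, rfl⟩⟩)
          = algebraMap (h78_AN K (N * ℓ))
            (laurentBaseChange K (modularFunctionFieldFull (N * ℓ)))
              ⟨coeffEmb K (qExpand ℚ (ℓ * d') jq), Algebra.subset_adjoin ⟨ℓ * d', hd, hdN, rfl⟩⟩ := by
        apply Subtype.ext
        show qExpand K ℓ (coeffEmb K (qExpand ℚ d' jq)) = coeffEmb K (qExpand ℚ (ℓ * d') jq)
        rw [← qExpand_qExpand d' ℓ jq]
        exact (coeffMap_qExpand _ ℓ _).symm
      rw [← e2]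
      exact hβ _
  | algebraMap c =>
    have e1 : (heckeAlphaBar K N ℓ).toRingHom (algebraMap (h78_AN K N)
        (laurentBaseChange K (modularFunctionFieldFull N))
          ⟨algebraMap K (LaurentSeries K) c, Subalgebra.algebraMap_mem _ c⟩)
        = algebraMap (h78_AN K (N * ℓ))
          (laurentBaseChange K (modularFunctionFieldFull (N * ℓ)))
            ⟨algebraMap K (LaurentSeries K) c, Subalgebra.algebraMap_mem _ c⟩ :=
      Subtype.ext rfl
    rw [← e1]
    exact hα _
  | add x y hx hy ihx ihy =>
    have e : (⟨x + y, add_mem hx hy⟩ : h78_AN K (N * ℓ)) = ⟨x, hx⟩ + ⟨y, hy⟩ := rfl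
    rw [e, map_add, map_add, map_add, ihx, ihy]
  | mul x y hx hy ihx ihy =>
    have e : (⟨x * y, mul_mem hx hy⟩ : h78_AN K (N * ℓ)) = ⟨x, hx⟩ * ⟨y, hy⟩ := rfl
    rw [e, map_mul, map_mul, map_mul, ihx, ihy]

section Swap

variable {a b : ℤ} (h : (ℓ : ℤ) * a - (N : ℤ) * b = 1) (ι : K →+* ℂ)

/-- The swap is an involution. -/
theorem h49_swapF_swapF (hℓp : ℓ.Prime)
    (x : laurentBaseChange K (modularFunctionFieldFull (N * ℓ))) :
    h49_swapF h ι hℓp (h49_swapF h ι hℓp x) = x := by
  have key : (h49_swapF h ι hℓp).comp (h49_swapF h ι hℓp)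
      = RingHom.id (laurentBaseChange K (modularFunctionFieldFull (N * ℓ))) := by
    apply h49_swap_unique hℓp
    · intro y
      rw [RingHom.comp_apply, h49_swapF_alpha, h49_swapF_beta, RingHom.id_apply]
    · intro y
      rw [RingHom.comp_apply, h49_swapF_beta, h49_swapF_alpha, RingHom.id_apply]
  exact DFunLike.congr_fun key x

/-- The swap as a ring automorphism of the function field of level `N ℓ`. -/
def h49_swapEquiv (hℓp : ℓ.Prime) :
    laurentBaseChange K (modularFunctionFieldFull (N * ℓ)) ≃+*
      laurentBaseChange K (modularFunctionFieldFull (N * ℓ)) :=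
  RingEquiv.ofRingHom (h49_swapF h ι hℓp) (h49_swapF h ι hℓp)
    (RingHom.ext fun x => h49_swapF_swapF h ι hℓp x)
    (RingHom.ext fun x => h49_swapF_swapF h ι hℓp x)

@[simp] theorem h49_swapEquiv_apply (hℓp : ℓ.Prime)
    (x : laurentBaseChange K (modularFunctionFieldFull (N * ℓ))) :
    h49_swapEquiv h ι hℓp x = h49_swapF h ι hℓp x := rfl

@[simp] theorem h49_swapEquiv_symm_apply (hℓp : ℓ.Prime)
    (x : laurentBaseChange K (modularFunctionFieldFull (N * ℓ))) :
    (h49_swapEquiv h ι hℓp).symm x = h49_swapF h ι hℓp x := rfl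

theorem h49_swapF_bijective (hℓp : ℓ.Prime) : Function.Bijective (h49_swapF h ι hℓp) :=
  (h49_swapEquiv h ι hℓp).bijective

/-- The swap fixes the constants. -/
theorem h49_swapF_const (hℓp : ℓ.Prime) (c : K) :
    h49_swapF h ι hℓp (algebraMap K (laurentBaseChange K (modularFunctionFieldFull (N * ℓ))) c)
      = algebraMap K (laurentBaseChange K (modularFunctionFieldFull (N * ℓ))) c := by
  have e1 : heckeAlphaBar K N ℓ
      (algebraMap K (laurentBaseChange K (modularFunctionFieldFull N)) c)
      = algebraMap K (laurentBaseChange K (modularFunctionFieldFull (N * ℓ))) c :=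
    (heckeAlphaBar K N ℓ).commutes c
  have e2 : heckeBetaBar K N ℓ
      (algebraMap K (laurentBaseChange K (modularFunctionFieldFull N)) c)
      = algebraMap K (laurentBaseChange K (modularFunctionFieldFull (N * ℓ))) c :=
    (heckeBetaBar K N ℓ).commutes c
  calc h49_swapF h ι hℓp
        (algebraMap K (laurentBaseChange K (modularFunctionFieldFull (N * ℓ))) c)
      = h49_swapF h ι hℓp (heckeAlphaBar K N ℓ
          (algebraMap K (laurentBaseChange K (modularFunctionFieldFull N)) c)) := by rw [e1]
    _ = heckeBetaBar K N ℓ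
          (algebraMap K (laurentBaseChange K (modularFunctionFieldFull N)) c) :=
        h49_swapF_alpha h ι hℓp _
    _ = algebraMap K (laurentBaseChange K (modularFunctionFieldFull (N * ℓ))) c := e2

/-- The swap as a `K`-algebra automorphism. -/
def h49_swapAlgEquiv (hℓp : ℓ.Prime) :
    laurentBaseChange K (modularFunctionFieldFull (N * ℓ)) ≃ₐ[K]
      laurentBaseChange K (modularFunctionFieldFull (N * ℓ)) :=
  { h49_swapEquiv h ι hℓp with
    commutes' := fun c => h49_swapF_const h ι hℓp c }

@[simp] theorem h49_swapAlgEquiv_apply (hℓp : ℓ.Prime)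
    (x : laurentBaseChange K (modularFunctionFieldFull (N * ℓ))) :
    h49_swapAlgEquiv h ι hℓp x = h49_swapF h ι hℓp x := rfl

/-- `heckeAlphaBar` commutes with the coefficientwise Galois action. -/
theorem h49_alpha_galois (σ : K ≃ₐ[ℚ] K) (y : laurentBaseChange K (modularFunctionFieldFull N)) :
    heckeAlphaBar K N ℓ (arithmeticRingAut (modularFunctionFieldFull N) σ y)
      = arithmeticRingAut (modularFunctionFieldFull (N * ℓ)) σ (heckeAlphaBar K N ℓ y) := by
  apply Subtype.ext
  rw [coe_heckeAlphaBar, coe_arithmeticRingAut_apply, coe_arithmeticRingAut_apply,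
    coe_heckeAlphaBar]

omit [NeZero N] in
/-- `heckeBetaBar` commutes with the coefficientwise Galois action. -/
theorem h49_beta_galois (σ : K ≃ₐ[ℚ] K) (y : laurentBaseChange K (modularFunctionFieldFull N)) :
    heckeBetaBar K N ℓ (arithmeticRingAut (modularFunctionFieldFull N) σ y)
      = arithmeticRingAut (modularFunctionFieldFull (N * ℓ)) σ (heckeBetaBar K N ℓ y) := by
  apply Subtype.ext
  rw [coe_heckeBetaBar, coe_arithmeticRingAut_apply, coe_arithmeticRingAut_apply,
    coe_heckeBetaBar]
  exact (coeffMap_qExpand _ ℓ _).symm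

/-- The swap commutes with the coefficientwise Galois action. -/
theorem h49_swapF_galois (hℓp : ℓ.Prime) (σ : K ≃ₐ[ℚ] K)
    (x : laurentBaseChange K (modularFunctionFieldFull (N * ℓ))) :
    h49_swapF h ι hℓp (arithmeticRingAut (modularFunctionFieldFull (N * ℓ)) σ x)
      = arithmeticRingAut (modularFunctionFieldFull (N * ℓ)) σ (h49_swapF h ι hℓp x) := by
  have key : (h49_swapF h ι hℓp).comp
        (arithmeticRingAut (modularFunctionFieldFull (N * ℓ)) σ).toRingHom
      = (arithmeticRingAut (modularFunctionFieldFull (N * ℓ)) σ).toRingHom.comp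
        (h49_swapF h ι hℓp) := by
    apply h49_swap_unique hℓp
    · intro y
      show h49_swapF h ι hℓp (arithmeticRingAut (modularFunctionFieldFull (N * ℓ)) σ
          (heckeAlphaBar K N ℓ y))
        = arithmeticRingAut (modularFunctionFieldFull (N * ℓ)) σ
          (h49_swapF h ι hℓp (heckeAlphaBar K N ℓ y))
      rw [← h49_alpha_galois, h49_swapF_alpha, h49_swapF_alpha, h49_beta_galois]
    · intro y
      show h49_swapF h ι hℓp (arithmeticRingAut (modularFunctionFieldFull (N * ℓ)) σ
          (heckeBetaBar K N ℓ y))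
        = arithmeticRingAut (modularFunctionFieldFull (N * ℓ)) σ
          (h49_swapF h ι hℓp (heckeBetaBar K N ℓ y))
      rw [← h49_beta_galois, h49_swapF_beta, h49_swapF_beta, h49_alpha_galois]
  exact DFunLike.congr_fun key x

/-- The swap commutes with the semilinear Galois action `arithmeticGalois`. -/
theorem h49_swapF_arithmeticGalois (hℓp : ℓ.Prime) (σ : K ≃ₐ[ℚ] K)
    (x : laurentBaseChange K (modularFunctionFieldFull (N * ℓ))) :
    h49_swapF h ι hℓp (arithmeticGalois (modularFunctionFieldFull (N * ℓ)) σ • x)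
      = arithmeticGalois (modularFunctionFieldFull (N * ℓ)) σ • (h49_swapF h ι hℓp x) :=
  h49_swapF_galois h ι hℓp σ x

/-- The swap does not depend on the Bezout data nor on the complex embedding: it is THE ring
endomorphism exchanging `heckeAlphaBar` and `heckeBetaBar`. -/
theorem h49_swapF_eq_of_swaps (hℓp : ℓ.Prime)
    (φ : laurentBaseChange K (modularFunctionFieldFull (N * ℓ)) →+*
      laurentBaseChange K (modularFunctionFieldFull (N * ℓ)))
    (hα : ∀ y, φ (heckeAlphaBar K N ℓ y) = heckeBetaBar K N ℓ y)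
    (hβ : ∀ y, φ (heckeBetaBar K N ℓ y) = heckeAlphaBar K N ℓ y) :
    φ = h49_swapF h ι hℓp := by
  apply h49_swap_unique hℓp
  · intro y; rw [hα, h49_swapF_alpha]
  · intro y; rw [hβ, h49_swapF_beta]

theorem h49_swapF_indep (hℓp : ℓ.Prime) {a' b' : ℤ} (h' : (ℓ : ℤ) * a' - (N : ℤ) * b' = 1)
    (ι' : K →+* ℂ) : h49_swapF h' ι' hℓp = h49_swapF h ι hℓp :=
  h49_swapF_eq_of_swaps h ι hℓp _ (fun y => h49_swapF_alpha h' ι' hℓp y)
    (fun y => h49_swapF_beta h' ι' hℓp y)

end Swap

end Fermat.Agent.S34
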