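import Mathlib
import Fermat.Agent.S37.h87_Frob
import Fermat.Prelude.Def_ModularCurve_X0ModL

/-!
# S34, modular foundation (helper60): the kernel lemma for series in characteristic `ℓ`

`k` a field of characteristic `ℓ`, `j̄ = jqModC k`.

* `h60_linInd` : `1, j̄, …, j̄^(ℓ-1)` are linearly independent over `k((q^ℓ))`;
* `h60_ker_series` : for series `r₀, …, r_ℓ`: if `∑ rᵢ · j̄(q^ℓ)^i = 0` and
  `∑ rᵢ(q^ℓ) · j̄^i = 0` then all `rᵢ = 0`.
  (The two conditions are the vanishing of the two reductions of `∑ α(aᵢ) j_ℓ^i`.)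
-/

set_option autoImplicit false
set_option synthInstance.maxHeartbeats 400000

noncomputable section

open ModularCurve

namespace Fermat.Agent.S34

open Fermat.Agent.S37

section KerSer

variable (k : Type*) [Field k] (ℓ : ℕ) [Fact ℓ.Prime] [NeZero ℓ] [CharP k ℓ]

omit [NeZero ℓ] in
theorem h60_not_dvd_neg_one : ¬ (ℓ : ℤ) ∣ (-1 : ℤ) := by
  intro hdvd
  have h1 : (ℓ : ℤ) ∣ 1 := (dvd_neg.mp hdvd)
  have h2 : ℓ ∣ 1 := by exact_mod_cast h1
  exact (Fact.out : ℓ.Prime).one_lt.ne' (Nat.dvd_one.mp h2)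

/-- `j̄^ℓ = j̄(q^ℓ)`. -/
theorem h60_jq_pow : jqModC k ^ ℓ = qExpand k ℓ (jqModC k) := by
  rw [h87_pow_char k ℓ, coeffMap_jqModC]

omit [CharP k ℓ] in
/-- `j̄` is not a series in `q^ℓ`. -/
theorem h60_qExpand_ne_jq (x : LaurentSeries k) : qExpand k ℓ x ≠ jqModC k := by
  intro h
  have h1 : (qExpand k ℓ x).coeff (-1) = (jqModC k).coeff (-1) := by rw [h]
  rw [qExpand_coeff_of_not_dvd ℓ _ (h60_not_dvd_neg_one ℓ), coeff_jqModC_neg_one] at h1
  exact zero_ne_one h1

/-- `1, j̄, …, j̄^(ℓ-1)` are linearly independent over `k((q^ℓ))`. -/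
theorem h60_linInd (c : Fin ℓ → LaurentSeries k)
    (h : ∑ i, qExpand k ℓ (c i) * jqModC k ^ (i : ℕ) = 0) : ∀ i, c i = 0 := by
  classical
  set L0 : Subfield (LaurentSeries k) := (qExpand k ℓ).fieldRange with hL0
  set j := jqModC k with hj
  have hjq : j ^ ℓ = qExpand k ℓ j := h60_jq_pow k ℓ
  let a0 : L0 := ⟨qExpand k ℓ j, RingHom.mem_fieldRange_self _ _⟩
  have hirr : Irreducible (Polynomial.X ^ ℓ - Polynomial.C a0 : Polynomial L0) := by
    apply X_pow_sub_C_irreducible_of_prime (Fact.out : ℓ.Prime)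
    intro b hb
    obtain ⟨x, hx⟩ := RingHom.mem_fieldRange.mp b.2
    have h1 : (b : LaurentSeries k) ^ ℓ = j ^ ℓ := by
      rw [hjq]
      exact congrArg Subtype.val hb
    have h2 : coeffMap (frobenius k ℓ) (b : LaurentSeries k) = coeffMap (frobenius k ℓ) j :=
      qExpand_injective (R := k) ℓ (by rw [← h87_pow_char, ← h87_pow_char, h1])
    have h3 : (b : LaurentSeries k) = j := by
      ext n
      apply frobenius_inj k ℓ
      have h4 := congrArg (fun f : LaurentSeries k => f.coeff n) h2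
      simpa only [coeffMap_coeff] using h4
    exact h60_qExpand_ne_jq k ℓ x (hx.trans h3)
  have hroot : Polynomial.aeval j (Polynomial.X ^ ℓ - Polynomial.C a0 : Polynomial L0) = 0 := by
    rw [map_sub, map_pow, Polynomial.aeval_X, Polynomial.aeval_C, hjq]
    exact sub_self _
  have hmonic : (Polynomial.X ^ ℓ - Polynomial.C a0 : Polynomial L0).Monic :=
    Polynomial.monic_X_pow_sub_C a0 (NeZero.ne ℓ)
  have hmin : minpoly L0 j = Polynomial.X ^ ℓ - Polynomial.C a0 :=
    (minpoly.eq_of_irreducible_of_monic hirr hroot hmonic).symm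
  have hdeg : (minpoly L0 j).natDegree = ℓ := by
    rw [hmin, Polynomial.natDegree_X_pow_sub_C]
  have hli := linearIndependent_pow (K := L0) j
  have hli' : LinearIndependent L0 (fun i : Fin ℓ => j ^ (i : ℕ)) :=
    hli.comp (Fin.cast hdeg.symm) (Fin.cast_injective _)
  rw [Fintype.linearIndependent_iff] at hli'
  have h5 := hli' (fun i => ⟨qExpand k ℓ (c i), RingHom.mem_fieldRange_self _ _⟩)
    (by simpa only [Subfield.smul_def, smul_eq_mul] using h)
  intro i
  have hi := h5 i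
  exact qExpand_injective (R := k) ℓ (by rw [map_zero]; exact congrArg Subtype.val hi)

/-- **The kernel lemma.** -/
theorem h60_ker_series (r : Fin (ℓ + 1) → LaurentSeries k)
    (h1 : ∑ i, r i * qExpand k ℓ (jqModC k) ^ (i : ℕ) = 0)
    (h2 : ∑ i, qExpand k ℓ (r i) * jqModC k ^ (i : ℕ) = 0) : ∀ i, r i = 0 := by
  classical
  set j := jqModC k with hj
  have hjq : j ^ ℓ = qExpand k ℓ j := h60_jq_pow k ℓ
  have hℓ : 0 < ℓ := Nat.pos_of_ne_zero (NeZero.ne ℓ)
  set i0 : Fin ℓ := ⟨0, hℓ⟩ with hi0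
  let c : Fin ℓ → LaurentSeries k := fun i =>
    r (Fin.castSucc i) + if i = i0 then r (Fin.last ℓ) * j else 0
  have hc : ∑ i, qExpand k ℓ (c i) * j ^ (i : ℕ) = 0 := by
    rw [Fin.sum_univ_castSucc] at h2
    simp only [Fin.val_castSucc, Fin.val_last] at h2
    have h3 : ∑ i, qExpand k ℓ (c i) * j ^ (i : ℕ)
        = ∑ i : Fin ℓ, qExpand k ℓ (r (Fin.castSucc i)) * j ^ (i : ℕ)
          + qExpand k ℓ (r (Fin.last ℓ)) * j ^ ℓ := by
      simp only [c, map_add, add_mul, Finset.sum_add_distrib]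
      congr 1
      rw [Finset.sum_eq_single i0]
      · rw [if_pos rfl, map_mul, hjq, hi0]
        simp
      · intro b _ hb
        rw [if_neg hb, map_zero, zero_mul]
      · intro h
        exact absurd (Finset.mem_univ _) h
    rw [h3]
    exact h2
  have hc0 := h60_linInd k ℓ c hc
  have hmid : ∀ i : Fin ℓ, i ≠ i0 → r (Fin.castSucc i) = 0 := by
    intro i hi
    have h3 := hc0 i
    simpa only [c, if_neg hi, add_zero] using h3
  have h0 : r (Fin.castSucc i0) + r (Fin.last ℓ) * j = 0 := by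
    have h3 := hc0 i0
    simpa only [c, if_pos] using h3
  rw [Fin.sum_univ_castSucc] at h1
  simp only [Fin.val_castSucc, Fin.val_last] at h1
  rw [Finset.sum_eq_single i0 (fun b _ hb => by rw [hmid b hb, zero_mul])
    (fun h => absurd (Finset.mem_univ _) h)] at h1
  have hlast : r (Fin.last ℓ) = 0 := by
    have h3 : r (Fin.last ℓ) * (qExpand k ℓ j ^ ℓ - j) = 0 := by
      have e : r (Fin.castSucc i0) = - (r (Fin.last ℓ) * j) := eq_neg_of_add_eq_zero_left h0
      rw [e] at h1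
      have e2 : ((i0 : Fin ℓ) : ℕ) = 0 := rfl
      rw [e2, pow_zero, mul_one] at h1
      linear_combination h1
    rcases mul_eq_zero.mp h3 with h | h
    · exact h
    · exfalso
      have h4 : qExpand k ℓ j ^ ℓ = qExpand k ℓ (qExpand k ℓ j) := by rw [← map_pow, hjq]
      rw [h4, sub_eq_zero] at h
      exact h60_qExpand_ne_jq k ℓ _ h
  have hz : r (Fin.castSucc i0) = 0 := by
    rw [hlast, zero_mul, add_zero] at h0
    exact h0
  intro i
  refine Fin.lastCases hlast (fun i' => ?_) i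
  by_cases hi : i' = i0
  · rw [hi]
    exact hz
  · exact hmid i' hi

end KerSer

end Fermat.Agent.S34

end
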