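import Mathlib
import Fermat.Agent.S18.h19_RedAbs
import Fermat.Agent.S37.h87_Twist
import Fermat.Agent.S37.h87_Kron
import Fermat.Agent.S37.h87_Frob

/-!
# S34, modular foundation (helper60): reduction of ratios of integral Laurent series

`K` a field, `A` a valuation subring with residue field `k`.

* `h60_Os A` : the subring of `K((q))` of ratios `y₁ / y₂` of `A`-integral series with `ȳ₂ ≠ 0`;
* `h60_rs A : h60_Os A →+* k((q))` : the coefficientwise reduction `ȳ₁ / ȳ₂`;
* compatibility with integral series, constants, inverses, `q ↦ q^n` and twists by roots of unity;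
* `h60_descent` : if `g(q^ℓ)` is such a ratio then so is `g` (`ℓ` the residue characteristic);
* `h60_adj` : if `g(q^ℓ) = ∏_{b<ℓ} s(ζ^b q)` with `s ∈ h60_Os A`, then `g ∈ h60_Os A` and
  `ḡ = Frob_coeff(s̄)`.
-/

set_option autoImplicit false
set_option synthInstance.maxHeartbeats 400000

noncomputable section

open ModularCurve

namespace Fermat.Agent.S34

open Fermat.Agent.S18 Fermat.Agent.S37

section Ser

variable {K : Type*} [Field K] (A : ValuationSubring K)

/-- Ratios `y₁ / y₂` of `A`-integral Laurent series with `ȳ₂ ≠ 0`, as a subring of `K((q))`. -/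
def h60_Os : Subring (LaurentSeries K) where
  carrier := {f | h19_InO A f}
  mul_mem' := fun hf hg => h19_InO_mul hf hg
  one_mem' := h19_InO_one
  add_mem' := fun hf hg => h19_InO_add hf hg
  zero_mem' := h19_InO_zero
  neg_mem' := fun hf => h19_InO_neg hf

theorem h60_mem_Os {f : LaurentSeries K} : f ∈ h60_Os A ↔ h19_InO A f := Iff.rfl

/-- The coefficientwise reduction `ȳ₁ / ȳ₂`. -/
def h60_rs : h60_Os A →+* LaurentSeries (IsLocalRing.ResidueField A) where
  toFun f := h19_redFun (f : LaurentSeries K) f.2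
  map_one' := h19_redFun_one _
  map_mul' f g := h19_redFun_mul _ _ f.2 g.2 _
  map_zero' := h19_redFun_zero _
  map_add' f g := h19_redFun_add _ _ f.2 g.2 _

theorem h60_rs_spec (f : h60_Os A) (z₁ z₂ : LaurentSeries A)
    (hz : (f : LaurentSeries K) * coeffMap A.subtype z₂ = coeffMap A.subtype z₁) :
    h60_rs A f * coeffMap (IsLocalRing.residue A) z₂ = coeffMap (IsLocalRing.residue A) z₁ :=
  h19_redFun_spec _ f.2 z₁ z₂ hz

theorem h60_rs_eq (f : h60_Os A) (z₁ z₂ : LaurentSeries A)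
    (hz₂ : coeffMap (IsLocalRing.residue A) z₂ ≠ 0)
    (hz : (f : LaurentSeries K) * coeffMap A.subtype z₂ = coeffMap A.subtype z₁)
    (g : LaurentSeries (IsLocalRing.ResidueField A))
    (hg : g * coeffMap (IsLocalRing.residue A) z₂ = coeffMap (IsLocalRing.residue A) z₁) :
    h60_rs A f = g :=
  h19_redFun_eq _ f.2 z₁ z₂ hz₂ hz g hg

theorem h60_ne_zero_of_rs {f : h60_Os A} (hf : h60_rs A f ≠ 0) : (f : LaurentSeries K) ≠ 0 := by
  intro h0
  apply hf
  have : f = 0 := Subtype.ext h0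
  rw [this, map_zero]

/-- Integral series. -/
theorem h60_int_mem (y : LaurentSeries A) : coeffMap A.subtype y ∈ h60_Os A :=
  ⟨y, 1, by rw [map_one]; exact one_ne_zero, by rw [map_one, mul_one]⟩

theorem h60_rs_int (y : LaurentSeries A) :
    h60_rs A ⟨coeffMap A.subtype y, h60_int_mem A y⟩ = coeffMap (IsLocalRing.residue A) y :=
  h60_rs_eq A _ y 1 (by rw [map_one]; exact one_ne_zero) (by rw [map_one, mul_one]) _
    (by rw [map_one, mul_one])

/-- Constants of `A`. -/
theorem h60_const_mem {a : K} (ha : a ∈ A) : algebraMap K (LaurentSeries K) a ∈ h60_Os A :=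
  h19_InO_const ha

theorem h60_rs_const {a : K} (ha : a ∈ A) :
    h60_rs A ⟨algebraMap K (LaurentSeries K) a, h60_const_mem A ha⟩ =
      algebraMap (IsLocalRing.ResidueField A) (LaurentSeries (IsLocalRing.ResidueField A))
        (IsLocalRing.residue A ⟨a, ha⟩) :=
  h19_redFun_const ha _

/-- Elements with nonzero reduction are units. -/
theorem h60_inv_mem (f : h60_Os A) (hf : h60_rs A f ≠ 0) : (f : LaurentSeries K)⁻¹ ∈ h60_Os A := by
  obtain ⟨y₁, y₂, hy, hfy⟩ := f.2
  have h1 := h60_rs_spec A f y₁ y₂ hfy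
  have hy1 : coeffMap (IsLocalRing.residue A) y₁ ≠ 0 := by
    rw [← h1]
    exact mul_ne_zero hf hy
  have hf0 := h60_ne_zero_of_rs A hf
  refine ⟨y₂, y₁, hy1, ?_⟩
  rw [← hfy, inv_mul_cancel_left₀ hf0]

theorem h60_rs_inv (f : h60_Os A) (hf : h60_rs A f ≠ 0) :
    h60_rs A ⟨(f : LaurentSeries K)⁻¹, h60_inv_mem A f hf⟩ = (h60_rs A f)⁻¹ := by
  have hf0 := h60_ne_zero_of_rs A hf
  have h1 : f * ⟨(f : LaurentSeries K)⁻¹, h60_inv_mem A f hf⟩ = 1 :=
    Subtype.ext (mul_inv_cancel₀ hf0)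
  have h2 := congrArg (h60_rs A) h1
  rw [map_mul, map_one] at h2
  exact eq_inv_of_mul_eq_one_right h2

/-- If `u = c f` with `f, u` in the ring and `ū ≠ 0`, then `c⁻¹ ∈ A`. -/
theorem h60_inv_mem_A_of_scale {c : K} (f u : h60_Os A) (hu : h60_rs A u ≠ 0)
    (h : (u : LaurentSeries K) = algebraMap K (LaurentSeries K) c * (f : LaurentSeries K)) :
    c⁻¹ ∈ A := by
  by_contra hc
  have hcA : c ∈ A := (A.mem_or_inv_mem c).resolve_right hc
  have hnu : ¬ IsUnit (⟨c, hcA⟩ : A) := by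
    rintro ⟨v, hv⟩
    apply hc
    have h1 : c * ((v⁻¹ : Aˣ) : K) = 1 := by
      have h2 : ((v : A) : K) = c := congrArg Subtype.val hv
      rw [← h2]
      have h3 : (v : A) * ((v⁻¹ : Aˣ) : A) = 1 := Units.mul_inv v
      exact_mod_cast congrArg Subtype.val h3
    have h4 : c⁻¹ = ((v⁻¹ : Aˣ) : K) := inv_eq_of_mul_eq_one_right h1
    rw [h4]
    exact ((v⁻¹ : Aˣ) : A).2
  have hres : IsLocalRing.residue A ⟨c, hcA⟩ = 0 := by
    rw [IsLocalRing.residue_eq_zero_iff, IsLocalRing.mem_maximalIdeal]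
    exact hnu
  apply hu
  have h1 : u = ⟨algebraMap K (LaurentSeries K) c, h60_const_mem A hcA⟩ * f := Subtype.ext h
  rw [h1, map_mul, h60_rs_const A hcA, hres, map_zero, zero_mul]

/-- `q ↦ q^n`. -/
theorem h60_qExpand_mem (n : ℕ) [NeZero n] {f : LaurentSeries K} (hf : f ∈ h60_Os A) :
    qExpand K n f ∈ h60_Os A := by
  obtain ⟨y₁, y₂, hy, hfy⟩ := hf
  refine ⟨qExpand A n y₁, qExpand A n y₂, ?_, ?_⟩
  · rw [coeffMap_qExpand]
    intro h
    exact hy (qExpand_injective (R := IsLocalRing.ResidueField A) n (by rw [h, map_zero]))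
  · rw [coeffMap_qExpand, coeffMap_qExpand, ← hfy, map_mul]

theorem h60_rs_qExpand (n : ℕ) [NeZero n] (f : h60_Os A) :
    h60_rs A ⟨qExpand K n (f : LaurentSeries K), h60_qExpand_mem A n f.2⟩
      = qExpand (IsLocalRing.ResidueField A) n (h60_rs A f) := by
  obtain ⟨y₁, y₂, hy, hfy⟩ := f.2
  refine h60_rs_eq A _ (qExpand A n y₁) (qExpand A n y₂) ?_ ?_ _ ?_
  · rw [coeffMap_qExpand]
    intro h
    exact hy (qExpand_injective (R := IsLocalRing.ResidueField A) n (by rw [h, map_zero]))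
  · show qExpand K n (f : LaurentSeries K) * coeffMap A.subtype (qExpand A n y₂)
      = coeffMap A.subtype (qExpand A n y₁)
    rw [coeffMap_qExpand, coeffMap_qExpand, ← hfy, map_mul]
  · rw [coeffMap_qExpand, coeffMap_qExpand, ← map_mul, h60_rs_spec A f y₁ y₂ hfy]

/-- Twists by units of `A`. -/
theorem h60_twist_mem (ζ : Aˣ) {f : LaurentSeries K} (hf : f ∈ h60_Os A) :
    h87_twist (Units.map ((A.subtype : A →+* K) : A →* K) ζ) f ∈ h60_Os A := by
  obtain ⟨y₁, y₂, hy, hfy⟩ := hf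
  refine ⟨h87_twist ζ y₁, h87_twist ζ y₂, ?_, ?_⟩
  · rw [h87_coeffMap_twist]
    intro h
    apply hy
    have h2 := congrArg (h87_twist (Units.map ((IsLocalRing.residue A : A →+* _) : A →* _) ζ)⁻¹) h
    rw [← h87_twist_mul, inv_mul_cancel, h87_twist_one, map_zero] at h2
    exact h2
  · rw [h87_coeffMap_twist, h87_coeffMap_twist, ← hfy, map_mul]

theorem h60_rs_twist (ζ : Aˣ)
    (hζ : Units.map ((IsLocalRing.residue A : A →+* IsLocalRing.ResidueField A) :
      A →* IsLocalRing.ResidueField A) ζ = 1) (f : h60_Os A) :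
    h60_rs A ⟨h87_twist (Units.map ((A.subtype : A →+* K) : A →* K) ζ) (f : LaurentSeries K),
      h60_twist_mem A ζ f.2⟩ = h60_rs A f := by
  obtain ⟨y₁, y₂, hy, hfy⟩ := f.2
  refine h60_rs_eq A _ (h87_twist ζ y₁) (h87_twist ζ y₂) ?_ ?_ _ ?_
  · rw [h87_coeffMap_twist, hζ, h87_twist_one]
    exact hy
  · show h87_twist (Units.map ((A.subtype : A →+* K) : A →* K) ζ) (f : LaurentSeries K) *
      coeffMap A.subtype (h87_twist ζ y₂) = coeffMap A.subtype (h87_twist ζ y₁)
    rw [h87_coeffMap_twist, h87_coeffMap_twist, ← hfy, map_mul]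
  · rw [h87_coeffMap_twist, h87_coeffMap_twist, hζ, h87_twist_one, h87_twist_one]
    exact h60_rs_spec A f y₁ y₂ hfy

/-- A root of unity of order the residue characteristic reduces to `1`. -/
theorem h60_units_map_residue (ℓ : ℕ) [Fact ℓ.Prime] [CharP (IsLocalRing.ResidueField A) ℓ]
    (ζ : Aˣ) (hζ : ζ ^ ℓ = 1) :
    Units.map ((IsLocalRing.residue A : A →+* IsLocalRing.ResidueField A) :
      A →* IsLocalRing.ResidueField A) ζ = 1 := by
  set π : A →+* IsLocalRing.ResidueField A := IsLocalRing.residue A with hπ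
  have h2 : (Units.map (π : A →* IsLocalRing.ResidueField A) ζ) ^ ℓ = 1 := by
    rw [← map_pow, hζ, map_one]
  have h3 : (((Units.map (π : A →* IsLocalRing.ResidueField A) ζ :
      (IsLocalRing.ResidueField A)ˣ) : IsLocalRing.ResidueField A) - 1) ^ ℓ = 0 := by
    rw [sub_pow_char, one_pow, ← Units.val_pow_eq_pow_val, h2, Units.val_one, sub_self]
  exact Units.ext (by
    simpa using sub_eq_zero.mp (pow_eq_zero_iff (Fact.out : ℓ.Prime).ne_zero |>.mp h3))

end Ser

/-- The product of all twists by powers of a root of unity is twist-invariant. -/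
theorem h60_twist_prod_invariant {R : Type*} [CommRing R] (n : ℕ) (c : Rˣ) (hc : c ^ (n + 1) = 1)
    (f : LaurentSeries R) :
    h87_twist c (∏ b ∈ Finset.range (n + 1), h87_twist (c ^ b) f)
      = ∏ b ∈ Finset.range (n + 1), h87_twist (c ^ b) f := by
  rw [map_prod]
  have h1 : ∀ b, h87_twist c (h87_twist (c ^ b) f) = h87_twist (c ^ (b + 1)) f := fun b => by
    rw [← h87_twist_mul, ← pow_succ']
  rw [Finset.prod_congr rfl fun b _ => h1 b,
    Finset.prod_range_succ (fun b => h87_twist (c ^ (b + 1)) f) n, hc,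
    Finset.prod_range_succ' (fun b => h87_twist (c ^ b) f) n, pow_zero]

section Descent

variable {K : Type*} [Field K] (A : ValuationSubring K) (ℓ : ℕ) [Fact ℓ.Prime] [NeZero ℓ]
  [CharP (IsLocalRing.ResidueField A) ℓ]

/-- **Descent along `q ↦ q^ℓ`**: if `g(q^ℓ)` is a ratio of integral series with nonzero reduced
denominator, so is `g`. -/
theorem h60_descent (ζ : Aˣ) (hζ : IsPrimitiveRoot ζ ℓ) (g : LaurentSeries K)
    (hg : qExpand K ℓ g ∈ h60_Os A) : g ∈ h60_Os A := by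
  obtain ⟨y₁, y₂, hy, hgy⟩ := hg
  obtain ⟨n, hn⟩ : ∃ n, ℓ = n + 1 := Nat.exists_eq_succ_of_ne_zero (NeZero.ne ℓ)
  set T : LaurentSeries A := ∏ b ∈ Finset.range n, h87_twist (ζ ^ (b + 1)) y₂ with hT
  have hW : ∏ b ∈ Finset.range ℓ, h87_twist (ζ ^ b) y₂ = T * y₂ := by
    rw [hn, Finset.prod_range_succ' (fun b => h87_twist (ζ ^ b) y₂) n, pow_zero, h87_twist_one]
  have hinv : h87_twist ζ (T * y₂) = T * y₂ := by
    rw [← hW]
    have h1 : ζ ^ (n + 1) = 1 := by rw [← hn]; exact hζ.pow_eq_one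
    have h2 := h60_twist_prod_invariant n ζ h1 y₂
    rw [← hn] at h2
    exact h2
  have hc : ∀ m : ℤ, ¬ (ℓ : ℤ) ∣ m → ∀ r : A, (((ζ ^ m : Aˣ) : A) - 1) * r = 0 → r = 0 := by
    intro m hm r hr
    rcases mul_eq_zero.mp hr with h | h
    · exfalso
      have h1 : ζ ^ m = 1 := Units.ext (by rw [Units.val_one]; exact sub_eq_zero.mp h)
      exact hm ((hζ.zpow_eq_one_iff_dvd m).mp h1)
    · exact h
  obtain ⟨Z₂, hZ₂⟩ := h87_exists_qExpand_of_twist_eq ℓ ζ hc (T * y₂) hinv
  have hK : qExpand K ℓ g * coeffMap A.subtype (T * y₂) = coeffMap A.subtype (T * y₁) := by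
    rw [map_mul, map_mul, ← hgy]
    ring
  have hzero : ∀ m : ℤ, ¬ (ℓ : ℤ) ∣ m → (T * y₁).coeff m = 0 := by
    intro m hm
    apply Subtype.val_injective
    have h1 : ((T * y₁).coeff m : K) = (coeffMap A.subtype (T * y₁)).coeff m := by
      rw [coeffMap_coeff]
      rfl
    rw [h1, ← hK, ← hZ₂, coeffMap_qExpand, ← map_mul, qExpand_coeff_of_not_dvd ℓ _ hm]
    rfl
  obtain ⟨Z₁, hZ₁⟩ := h87_exists_qExpand_of_coeff ℓ (T * y₁) hzero
  refine ⟨Z₁, Z₂, ?_, ?_⟩
  · intro h0
    have h1 : coeffMap (IsLocalRing.residue A) (T * y₂)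
        = coeffMap (IsLocalRing.residue A) y₂ ^ ℓ := by
      rw [← hW]
      exact h87_coeffMap_prod_twist (IsLocalRing.residue A) ℓ ζ hζ.pow_eq_one y₂
    rw [← hZ₂, coeffMap_qExpand, h0, map_zero] at h1
    exact hy (pow_eq_zero_iff (NeZero.ne ℓ) |>.mp h1.symm)
  · apply qExpand_injective (R := K) ℓ
    rw [map_mul, ← coeffMap_qExpand, ← coeffMap_qExpand, hZ₁, hZ₂]
    exact hK

/-- **The adjugate lemma.** If `g(q^ℓ) = ∏_{b<ℓ} s(ζ^b q)` with `s` a ratio of integral series,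
then `g` is one, and `ḡ` is the coefficientwise Frobenius of `s̄`. -/
theorem h60_adj (ζ : Aˣ) (hζ : IsPrimitiveRoot ζ ℓ) (s : h60_Os A) (g : LaurentSeries K)
    (hg : qExpand K ℓ g = ∏ b ∈ Finset.range ℓ,
      h87_twist (Units.map ((A.subtype : A →+* K) : A →* K) ζ ^ b) (s : LaurentSeries K)) :
    ∃ hg' : g ∈ h60_Os A, h60_rs A ⟨g, hg'⟩
      = coeffMap (frobenius (IsLocalRing.ResidueField A) ℓ) (h60_rs A s) := by
  have hmem : ∀ b : ℕ,
      h87_twist (Units.map ((A.subtype : A →+* K) : A →* K) ζ ^ b) (s : LaurentSeries K)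
        ∈ h60_Os A := by
    intro b
    rw [← map_pow]
    exact h60_twist_mem A (ζ ^ b) s.2
  have hrs : ∀ b : ℕ, h60_rs A ⟨_, hmem b⟩ = h60_rs A s := by
    intro b
    have h1 : Units.map ((IsLocalRing.residue A : A →+* IsLocalRing.ResidueField A) :
        A →* IsLocalRing.ResidueField A) (ζ ^ b) = 1 := by
      rw [map_pow, h60_units_map_residue A ℓ ζ hζ.pow_eq_one, one_pow]
    have h2 := h60_rs_twist A (ζ ^ b) h1 s
    rw [← h2]
    congr 1
  set P : h60_Os A := ∏ b ∈ Finset.range ℓ, ⟨_, hmem b⟩ with hP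
  have hPcoe : (P : LaurentSeries K) = qExpand K ℓ g := by
    rw [hg, hP]
    push_cast
    rfl
  have hPrs : h60_rs A P = h60_rs A s ^ ℓ := by
    rw [hP, map_prod, Finset.prod_congr rfl fun b _ => hrs b, Finset.prod_const,
      Finset.card_range]
  have hgq : qExpand K ℓ g ∈ h60_Os A := by
    rw [← hPcoe]
    exact P.2
  have hg' : g ∈ h60_Os A := h60_descent A ℓ ζ hζ g hgq
  refine ⟨hg', ?_⟩
  apply qExpand_injective (R := IsLocalRing.ResidueField A) ℓ
  rw [← h60_rs_qExpand A ℓ ⟨g, hg'⟩, ← h87_pow_char, ← hPrs]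
  congr 1
  exact Subtype.ext hPcoe.symm

end Descent

end Fermat.Agent.S34

end
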