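import Mathlib
import Fermat.Agent.S34.h60_SerRed
import Fermat.Agent.S34.h60_KerSer
import Fermat.Agent.S18.h54_ModDefs
import Fermat.Agent.S18.h54_ModCharts
import Fermat.Agent.S18.h69_PowerBasis
import Fermat.Agent.S37.h49_K1
import Fermat.Agent.S37.h19_DEG
import Fermat.Agent.S37.h87_Decomp

/-!
# S34, modular foundation (helper60): power basis of `F(Mq)` over `F(M)` and its two expansions

`E = F(M)`, `F = F(Mq)`, `α, β : E → F` the two degeneracy maps, `j_q = β(j)`.

* `h60_powerBasis` : every `f ∈ F` is `∑_{i ≤ q} α(aᵢ) j_q^i`;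
* `h60_comb a` := `∑ α(aᵢ) j_q^i`, its `q`-expansion and the expansion of its swap;
* `h60_scale_family` : a finite family can be scaled into a valuation ring with one unit;
* `h60_toOs` : elements of the level-`M` valuation ring as ratios of integral series.
-/

set_option autoImplicit false
set_option synthInstance.maxHeartbeats 400000

noncomputable section

open ModularCurve AlgebraicCurve IntermediateField

namespace Fermat.Agent.S34

open Fermat.Agent.S18 Fermat.Agent.S37 Fermat.Agent.S24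

local notation "Qb" => AlgebraicClosure ℚ

section PB

variable (M q : ℕ) [NeZero M] [NeZero q]

/-- The `q + 1` conjugates of `β(j)` over `α(F(M))` are pairwise distinct. -/
theorem h60_sigma_betaJ_injective {a b : ℤ} (hab : (q : ℤ) * a - (M : ℤ) * b = 1)
    (hq : q.Prime) (ζ : Qbˣ) (hζ : IsPrimitiveRoot ζ q) :
    Function.Injective fun x => h49_sigma (N := M) hab hq ζ x
      (heckeBetaBar Qb M q (h78_j Qb M)) := by
  have hj1 : (coeffEmb Qb jq).coeff (-1 : ℤ) = 1 := by
    rw [coeffEmb_coeff, coeff_jq_neg_one, map_one]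
  have hℓ2 : ¬ (q : ℤ) ∣ (-1 : ℤ) := by
    intro hdvd
    have h1 : (q : ℤ) ∣ 1 := (dvd_neg.mp hdvd)
    have h2 : q ∣ 1 := by exact_mod_cast h1
    exact hq.one_lt.ne' (Nat.dvd_one.mp h2)
  have hval0 : (h49_sigma hab hq ζ none (heckeBetaBar Qb M q (h78_j Qb M))).coeff (-1 : ℤ) = 0 := by
    rw [h49_sigma_beta_none]
    exact qExpand_coeff_of_not_dvd q _ hℓ2
  have hvalb : ∀ c : Fin q,
      (h49_sigma hab hq ζ (some c) (heckeBetaBar Qb M q (h78_j Qb M))).coeff (-1 : ℤ)
      = (((ζ ^ (c : ℕ)) ^ (-1 : ℤ) : Qbˣ) : Qb) := by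
    intro c
    rw [h49_sigma_beta_some, h87_twist_coeff, h78_coe_j, hj1, mul_one]
  intro x x' hxx'
  have hc : (h49_sigma hab hq ζ x (heckeBetaBar Qb M q (h78_j Qb M))).coeff (-1 : ℤ)
      = (h49_sigma hab hq ζ x' (heckeBetaBar Qb M q (h78_j Qb M))).coeff (-1 : ℤ) :=
    congrArg (fun f : LaurentSeries Qb => f.coeff (-1 : ℤ)) hxx'
  cases x with
  | none =>
    cases x' with
    | none => rfl
    | some c' =>
      rw [hval0, hvalb] at hc
      exact absurd hc.symm (Units.ne_zero _)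
  | some c =>
    cases x' with
    | none =>
      rw [hval0, hvalb] at hc
      exact absurd hc (Units.ne_zero _)
    | some c' =>
      rw [hvalb, hvalb] at hc
      have h1 : (ζ ^ (c : ℕ)) ^ (-1 : ℤ) = (ζ ^ (c' : ℕ)) ^ (-1 : ℤ) := Units.ext hc
      have h2 : ζ ^ (c : ℕ) = ζ ^ (c' : ℕ) := by
        rw [zpow_neg_one, zpow_neg_one] at h1
        exact inv_injective h1
      have h3 : (c : ℕ) = (c' : ℕ) := hζ.pow_inj c.2 c'.2 h2
      rw [Fin.ext h3]

/-- `∑_{i ≤ q} α(aᵢ) β(j)^i`. -/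
def h60_comb (a : Fin (q + 1) → ↥(modularFunctionFieldBar M)) :
    ↥(modularFunctionFieldBar (M * q)) :=
  ∑ i, heckeAlphaBar Qb M q (a i) * heckeBetaBar Qb M q (h59_jbar M) ^ (i : ℕ)

/-- **Power basis**: `F(Mq) = ⊕_{i ≤ q} α(F(M)) β(j)^i`. -/
theorem h60_powerBasis (hq : q.Prime) (hqM : ¬ q ∣ M) (f : ↥(modularFunctionFieldBar (M * q))) :
    ∃ c : Fin (q + 1) → ↥(modularFunctionFieldBar M), f = h60_comb M q c := by
  obtain ⟨a, b, hab⟩ := h49_exists_bezout ((Nat.Prime.coprime_iff_not_dvd hq).mpr hqM)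
  obtain ⟨ζ₀, hζ₀⟩ := HasEnoughRootsOfUnity.exists_primitiveRoot Qb q
  have hu : IsUnit ζ₀ := hζ₀.isUnit (NeZero.ne q)
  have hζ : IsPrimitiveRoot hu.unit q :=
    IsPrimitiveRoot.coe_units_iff.mp (by rw [IsUnit.unit_spec]; exact hζ₀)
  let _ := algebraAlong (heckeAlphaBar Qb M q)
  have hfr : Module.finrank ↥(modularFunctionFieldBar M) ↥(modularFunctionFieldBar (M * q))
      = q + 1 := h19_DEG M q hq hqM
  have : FiniteDimensional ↥(modularFunctionFieldBar M) ↥(modularFunctionFieldBar (M * q)) :=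
    Module.finite_of_finrank_pos (by rw [hfr]; omega)
  have hn : Fintype.card (Option (Fin q)) = q + 1 := by
    rw [Fintype.card_option, Fintype.card_fin]
  have hcard : Fintype.card (Option (Fin q))
      = Module.finrank ↥(modularFunctionFieldBar M) ↥(modularFunctionFieldBar (M * q)) := by
    rw [hfr, hn]
  obtain ⟨c, hc⟩ := h69_powerBasis_of_conj (E := ↥(modularFunctionFieldBar M))
    (σ := h49_sigma hab hq hu.unit)
    (fun x y e => (h49_sigma_alpha hab hq hu.unit hζ.pow_eq_one x e).trans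
      (h49_sigma_alpha hab hq hu.unit hζ.pow_eq_one y e).symm)
    (heckeBetaBar Qb M q (h78_j Qb M)) (h60_sigma_betaJ_injective M q hab hq hu.unit hζ) hcard f
  refine ⟨fun i => c (Fin.cast hn.symm i), ?_⟩
  rw [hc, h60_comb]
  exact Fintype.sum_equiv (finCongr hn) _ _ (fun i => rfl)

/-- The `q`-expansion of `h60_comb`. -/
theorem h60_coe_comb (a : Fin (q + 1) → ↥(modularFunctionFieldBar M)) :
    ((h60_comb M q a : ↥(modularFunctionFieldBar (M * q))) : LaurentSeries Qb)
      = ∑ i, ((a i : ↥(modularFunctionFieldBar M)) : LaurentSeries Qb) *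
          qExpand Qb q (coeffEmb Qb jq) ^ (i : ℕ) := by
  rw [h60_comb]
  push_cast
  refine Finset.sum_congr rfl fun i _ => ?_
  rw [coe_heckeAlphaBar, coe_heckeBetaBar, h59_coe_jbar]

/-- The swap of `h60_comb`. -/
theorem h60_swap_comb {a' b' : ℤ} (hab : (q : ℤ) * a' - (M : ℤ) * b' = 1) (hq : q.Prime)
    (a : Fin (q + 1) → ↥(modularFunctionFieldBar M)) :
    h49_swapF hab h78_iota hq (h60_comb M q a)
      = ∑ i, heckeBetaBar Qb M q (a i) * heckeAlphaBar Qb M q (h59_jbar M) ^ (i : ℕ) := by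
  rw [h60_comb, map_sum]
  refine Finset.sum_congr rfl fun i _ => ?_
  rw [map_mul, map_pow, h49_swapF_alpha, h49_swapF_beta]

/-- The `q`-expansion of the swap of `h60_comb`. -/
theorem h60_coe_swap_comb {a' b' : ℤ} (hab : (q : ℤ) * a' - (M : ℤ) * b' = 1) (hq : q.Prime)
    (a : Fin (q + 1) → ↥(modularFunctionFieldBar M)) :
    ((h49_swapF hab h78_iota hq (h60_comb M q a) : ↥(modularFunctionFieldBar (M * q))) :
        LaurentSeries Qb)
      = ∑ i, qExpand Qb q ((a i : ↥(modularFunctionFieldBar M)) : LaurentSeries Qb) *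
          coeffEmb Qb jq ^ (i : ℕ) := by
  rw [h60_swap_comb]
  push_cast
  refine Finset.sum_congr rfl fun i _ => ?_
  rw [coe_heckeAlphaBar, coe_heckeBetaBar, h59_coe_jbar]

/-- Scaling: `c • h60_comb a = h60_comb (c • a)`. -/
theorem h60_smul_comb (c : Qb) (a : Fin (q + 1) → ↥(modularFunctionFieldBar M)) :
    algebraMap Qb ↥(modularFunctionFieldBar (M * q)) c * h60_comb M q a
      = h60_comb M q (fun i => algebraMap Qb ↥(modularFunctionFieldBar M) c * a i) := by
  rw [h60_comb, h60_comb, Finset.mul_sum]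
  refine Finset.sum_congr rfl fun i _ => ?_
  rw [map_mul, AlgHom.commutes, mul_assoc]

end PB

section Scale

variable {K F k Fb : Type*} [Field K] [Field F] [Algebra K F] [Field k] [Field Fb] [Algebra k Fb]

/-- A finite family, not all zero, can be scaled into the valuation ring with one member a
unit. -/
theorem h60_scale_family (R : h39_RedDatum K F k Fb) {n : ℕ} (a : Fin n → F)
    (ha : ∃ i, a i ≠ 0) :
    ∃ c : K, c ≠ 0 ∧ (∀ i, algebraMap K F c * a i ∈ R.O) ∧
      ∃ i, a i ≠ 0 ∧ (algebraMap K F c * a i)⁻¹ ∈ R.O := by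
  obtain ⟨j, hj⟩ := ha
  obtain ⟨i0, -, hi0⟩ := Finset.exists_max_image Finset.univ (fun i => R.O.valuation (a i))
    ⟨j, Finset.mem_univ j⟩
  have hpos : R.O.valuation (a j) ≠ 0 := (Valuation.ne_zero_iff _).2 hj
  have hi0ne : a i0 ≠ 0 := by
    intro h0
    have h1 := hi0 j (Finset.mem_univ j)
    rw [h0, map_zero] at h1
    exact hpos (le_antisymm h1 zero_le)
  obtain ⟨c, hc, hc1, hc2⟩ := R.exists_scale (a i0) hi0ne
  have hv1 : R.O.valuation (algebraMap K F c * a i0) = 1 := by
    have h1 := (R.O.valuation_le_one_iff _).2 hc1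
    have h2 := (R.O.valuation_le_one_iff _).2 hc2
    rw [map_inv₀] at h2
    have hne : R.O.valuation (algebraMap K F c * a i0) ≠ 0 :=
      (Valuation.ne_zero_iff _).2 (mul_ne_zero ((map_ne_zero _).2 hc) hi0ne)
    have h3 : 1 ≤ R.O.valuation (algebraMap K F c * a i0) := by
      by_contra hlt
      push Not at hlt
      have := one_lt_inv₀ (zero_lt_iff.2 hne) |>.2 hlt
      exact absurd h2 (not_le.2 this)
    exact le_antisymm h1 h3
  refine ⟨c, hc, fun i => ?_, i0, hi0ne, hc2⟩
  rw [← R.O.valuation_le_one_iff, map_mul]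
  have h1 := hi0 i (Finset.mem_univ i)
  calc R.O.valuation (algebraMap K F c) * R.O.valuation (a i)
      ≤ R.O.valuation (algebraMap K F c) * R.O.valuation (a i0) := by gcongr
    _ = 1 := by rw [← map_mul, hv1]

/-- Units of the valuation ring have nonzero reduction. -/
theorem h60_red_ne_zero_of_inv (R : h39_RedDatum K F k Fb) {x : F} (hx : x ∈ R.O)
    (hx' : x⁻¹ ∈ R.O) (hx0 : x ≠ 0) : R.red ⟨x, hx⟩ ≠ 0 := by
  intro h0
  have h1 : (⟨x, hx⟩ : R.O) * ⟨x⁻¹, hx'⟩ = 1 := Subtype.ext (mul_inv_cancel₀ hx0)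
  have h2 := congrArg R.red h1
  rw [map_mul, h0, zero_mul, map_one] at h2
  exact zero_ne_one h2

end Scale

section ToOs

variable {M : ℕ} [NeZero M] (A : ValuationSubring Qb)
  {RM : h39_RedDatum Qb ↥(modularFunctionFieldBar M) (IsLocalRing.ResidueField A)
      ↥(modularFunctionFieldFullC (IsLocalRing.ResidueField A) M)}
  (hRM : h54_IsModRed M A RM)

include hRM in
theorem h60_coe_mem_Os (a : RM.O) :
    (((a : ↥(modularFunctionFieldBar M)) : LaurentSeries Qb)) ∈ h60_Os A :=
  (hRM.mem_iff a).mp a.2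

/-- Elements of the level-`M` valuation ring as ratios of integral series. -/
def h60_toOs (a : RM.O) : h60_Os A :=
  ⟨((a : ↥(modularFunctionFieldBar M)) : LaurentSeries Qb), h60_coe_mem_Os A hRM a⟩

theorem h60_rs_toOs (a : RM.O) :
    h60_rs A (h60_toOs A hRM a)
      = ((RM.red a : ↥(modularFunctionFieldFullC (IsLocalRing.ResidueField A) M)) :
          LaurentSeries (IsLocalRing.ResidueField A)) := by
  obtain ⟨y₁, y₂, hy, h⟩ := (hRM.mem_iff a).mp a.2
  have h2 := hRM.red_eq (a : ↥(modularFunctionFieldBar M)) a.2 y₁ y₂ h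
  refine h60_rs_eq A (h60_toOs A hRM a) y₁ y₂ hy ?_ _ ?_
  · exact h
  · exact h2

/-- `j` as a ratio of integral series. -/
def h60_JOs : h60_Os A := ⟨coeffMap A.subtype (jqModC A), h60_int_mem A _⟩

theorem h60_coe_JOs : ((h60_JOs A : h60_Os A) : LaurentSeries Qb) = coeffEmb Qb jq := by
  show coeffMap A.subtype (jqModC A) = coeffEmb Qb jq
  rw [coeffMap_jqModC, ← jqModC_rat, coeffEmb, coeffMap_jqModC]

theorem h60_rs_JOs : h60_rs A (h60_JOs A) = jqModC (IsLocalRing.ResidueField A) := by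
  rw [h60_JOs, h60_rs_int, coeffMap_jqModC]

end ToOs

section FullC

variable (M q : ℕ) [NeZero M] [NeZero q] [Fact q.Prime] (k : Type) [Field k] [CharP k q]
  [PerfectField k]

omit [NeZero M] in
/-- `q ↦ q^ℓ` preserves the reduced level-`M` field in characteristic `ℓ`. -/
theorem h60_qExpand_mem_fullC {x : LaurentSeries k} (hx : x ∈ modularFunctionFieldFullC k M) :
    qExpand k q x ∈ modularFunctionFieldFullC k M := by
  have e : qExpand k q x
      = coeffMap (((frobeniusEquiv k q).symm : k ≃+* k) : k →+* k) x ^ q := by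
    rw [h87_pow_char k q, coeffMap_coeffMap]
    congr 1
    rw [coeffMap_congr (g := RingHom.id k)
      (RingHom.ext fun a => frobenius_apply_frobeniusEquiv_symm k q a), coeffMap_id]
  rw [e]
  exact pow_mem (h87_coeffMap_mem_fullC M _ hx) q

end FullC

end Fermat.Agent.S34

end
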