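import Mathlib
import Fermat.Agent.S34.h60_ValPB
import Fermat.Agent.S18.h54_Mod

/-!
# S34, modular foundation (helper60): the `q`-expansion valuation of `F(Mq)` at a prime `q ∤ M`

`E = F(M)`, `F = F(Mq)`, `A` a valuation ring of `ℚ̄` over `q`, `k = A/𝔪`, `Fb = Fb(M)` the
reduced function field of level `M`.

* `h60_exists_unit_scale` : every `f ≠ 0` in `F(Mq)` is `c⁻¹ u`, `c ∈ ℚ̄ˣ`, `u` a ratio of
  `A`-integral `q`-series with nonzero reduced numerator and denominator, and `ū ∈ Fb(M)`.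
* `h60_R1 M q hqM A hA : h39_RedDatum ℚ̄ F(Mq) k Fb(M)` : the `q`-expansion valuation ring of
  level `Mq` with its reduction map ONTO the level-`M` field; `h60_R1_A`, `h60_R1_res`,
  `h60_R1_mem_iff`, `h60_R1_red_eq` are its characterising properties (as in `h54_IsModRed`).
-/

set_option autoImplicit false
set_option synthInstance.maxHeartbeats 400000

noncomputable section

open ModularCurve AlgebraicCurve IntermediateField

namespace Fermat.Agent.S34

open Fermat.Agent.S18 Fermat.Agent.S37 Fermat.Agent.S24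

local notation "Qb" => AlgebraicClosure ℚ

section Main

variable {M q : ℕ} [NeZero M] [NeZero q] [Fact q.Prime] (A : ValuationSubring Qb)
  {RM : h39_RedDatum Qb ↥(modularFunctionFieldBar M) (IsLocalRing.ResidueField A)
      ↥(modularFunctionFieldFullC (IsLocalRing.ResidueField A) M)}
  (hRM : h54_IsModRed M A RM)

/-- `j(q^ℓ)` as a ratio of integral series. -/
def h60_JqOs (q : ℕ) [NeZero q] : h60_Os A :=
  ⟨qExpand Qb q ((h60_JOs A : h60_Os A) : LaurentSeries Qb), h60_qExpand_mem A q (h60_JOs A).2⟩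

/-- `a(q^ℓ)` for `a` in the level-`M` valuation ring. -/
def h60_toOsQ (q : ℕ) [NeZero q] (a : RM.O) : h60_Os A :=
  ⟨qExpand Qb q ((h60_toOs A hRM a : h60_Os A) : LaurentSeries Qb),
    h60_qExpand_mem A q (h60_toOs A hRM a).2⟩

/-- The expansion of `∑ α(aᵢ) j_q^i`, as a ratio of integral series. -/
def h60_bOs (a : Fin (q + 1) → RM.O) : h60_Os A :=
  ∑ i, h60_toOs A hRM (a i) * h60_JqOs A q ^ (i : ℕ)

/-- The expansion of the swap `∑ β(aᵢ) j^i`, as a ratio of integral series. -/
def h60_sOs (a : Fin (q + 1) → RM.O) : h60_Os A :=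
  ∑ i, h60_toOsQ A hRM q (a i) * h60_JOs A ^ (i : ℕ)

omit [NeZero M] in
theorem h60_coe_JqOs (q : ℕ) [NeZero q] :
    ((h60_JqOs A q : h60_Os A) : LaurentSeries Qb) = qExpand Qb q (coeffEmb Qb jq) := by
  show qExpand Qb q ((h60_JOs A : h60_Os A) : LaurentSeries Qb) = _
  rw [h60_coe_JOs]

theorem h60_coe_toOs (a : RM.O) :
    ((h60_toOs A hRM a : h60_Os A) : LaurentSeries Qb)
      = ((a : ↥(modularFunctionFieldBar M)) : LaurentSeries Qb) := rfl

theorem h60_coe_toOsQ (q : ℕ) [NeZero q] (a : RM.O) :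
    ((h60_toOsQ A hRM q a : h60_Os A) : LaurentSeries Qb)
      = qExpand Qb q ((a : ↥(modularFunctionFieldBar M)) : LaurentSeries Qb) := rfl

theorem h60_coe_bOs (a : Fin (q + 1) → RM.O) :
    ((h60_bOs A hRM a : h60_Os A) : LaurentSeries Qb)
      = ((h60_comb M q (fun i => (a i : ↥(modularFunctionFieldBar M))) :
          ↥(modularFunctionFieldBar (M * q))) : LaurentSeries Qb) := by
  rw [h60_coe_comb, h60_bOs]
  push_cast
  refine Finset.sum_congr rfl fun i _ => ?_
  rw [h60_coe_JqOs, h60_coe_toOs]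

theorem h60_coe_sOs {a' b' : ℤ} (hab : (q : ℤ) * a' - (M : ℤ) * b' = 1) (hq : q.Prime)
    (a : Fin (q + 1) → RM.O) :
    ((h60_sOs A hRM a : h60_Os A) : LaurentSeries Qb)
      = ((h49_swapF hab h78_iota hq (h60_comb M q (fun i => (a i : ↥(modularFunctionFieldBar M)))) :
          ↥(modularFunctionFieldBar (M * q))) : LaurentSeries Qb) := by
  rw [h60_coe_swap_comb, h60_sOs]
  push_cast
  refine Finset.sum_congr rfl fun i _ => ?_
  rw [h60_coe_JOs, h60_coe_toOsQ]

theorem h60_rs_bOs (a : Fin (q + 1) → RM.O) :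
    h60_rs A (h60_bOs A hRM a)
      = ∑ i, ((RM.red (a i) : ↥(modularFunctionFieldFullC (IsLocalRing.ResidueField A) M)) :
            LaurentSeries (IsLocalRing.ResidueField A)) *
          qExpand (IsLocalRing.ResidueField A) q (jqModC (IsLocalRing.ResidueField A)) ^ (i : ℕ) := by
  rw [h60_bOs, map_sum]
  refine Finset.sum_congr rfl fun i _ => ?_
  rw [map_mul, map_pow, h60_rs_toOs, h60_JqOs, h60_rs_qExpand, h60_rs_JOs]

theorem h60_rs_sOs (a : Fin (q + 1) → RM.O) :
    h60_rs A (h60_sOs A hRM a)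
      = ∑ i, qExpand (IsLocalRing.ResidueField A) q
            ((RM.red (a i) : ↥(modularFunctionFieldFullC (IsLocalRing.ResidueField A) M)) :
              LaurentSeries (IsLocalRing.ResidueField A)) *
          jqModC (IsLocalRing.ResidueField A) ^ (i : ℕ) := by
  rw [h60_sOs, map_sum]
  refine Finset.sum_congr rfl fun i _ => ?_
  rw [map_mul, map_pow, h60_toOsQ, h60_rs_qExpand, h60_rs_toOs, h60_rs_JOs]

/-- **(KER)** if both reductions of `∑ α(aᵢ) j_q^i` vanish, all `āᵢ` vanish. -/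
theorem h60_ker (hA : A.LiesOverPrime q) (a : Fin (q + 1) → RM.O)
    (h1 : h60_rs A (h60_bOs A hRM a) = 0) (h2 : h60_rs A (h60_sOs A hRM a) = 0) :
    ∀ i, RM.red (a i) = 0 := by
  have : CharP (IsLocalRing.ResidueField A) q := h19_residueField_charP A q hA
  rw [h60_rs_bOs] at h1
  rw [h60_rs_sOs] at h2
  intro i
  exact Subtype.ext (h60_ker_series (IsLocalRing.ResidueField A) q
    (fun i => ((RM.red (a i) : ↥(modularFunctionFieldFullC (IsLocalRing.ResidueField A) M)) :
      LaurentSeries (IsLocalRing.ResidueField A))) h1 h2 i)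

theorem h60_rs_bOs_mem (hA : A.LiesOverPrime q) (a : Fin (q + 1) → RM.O) :
    h60_rs A (h60_bOs A hRM a) ∈ modularFunctionFieldFullC (IsLocalRing.ResidueField A) M := by
  have : CharP (IsLocalRing.ResidueField A) q := h19_residueField_charP A q hA
  rw [h60_rs_bOs]
  refine sum_mem fun i _ => mul_mem (RM.red (a i)).2 (pow_mem ?_ _)
  rw [← h60_jq_pow]
  exact pow_mem (jqModC_mem_full _ M) q

theorem h60_rs_sOs_mem (hA : A.LiesOverPrime q) (a : Fin (q + 1) → RM.O) :
    h60_rs A (h60_sOs A hRM a) ∈ modularFunctionFieldFullC (IsLocalRing.ResidueField A) M := by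
  have : CharP (IsLocalRing.ResidueField A) q := h19_residueField_charP A q hA
  have : IsAlgClosed (IsLocalRing.ResidueField A) := h19_residueField_isAlgClosed A
  rw [h60_rs_sOs]
  exact sum_mem fun i _ => mul_mem (h60_qExpand_mem_fullC M q _ (RM.red (a i)).2)
    (pow_mem (jqModC_mem_full _ M) _)

include hRM in
/-- **Scaling at level `Mq`**: every nonzero `f` is a constant times a ratio of integral series
with nonzero reduced numerator and denominator, whose reduction lies in the level-`M` field. -/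
theorem h60_exists_unit_scale (hqM : ¬ q ∣ M) (hA : A.LiesOverPrime q)
    (f : ↥(modularFunctionFieldBar (M * q))) (hf : f ≠ 0) :
    ∃ (c : Qb) (u : h60_Os A), c ≠ 0 ∧
      (u : LaurentSeries Qb) = algebraMap Qb (LaurentSeries Qb) c * (f : LaurentSeries Qb) ∧
      h60_rs A u ≠ 0 ∧
      h60_rs A u ∈ modularFunctionFieldFullC (IsLocalRing.ResidueField A) M := by
  have : CharP (IsLocalRing.ResidueField A) q := h19_residueField_charP A q hA
  have : IsAlgClosed (IsLocalRing.ResidueField A) := h19_residueField_isAlgClosed A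
  have hq : q.Prime := Fact.out
  obtain ⟨a0, rfl⟩ := h60_powerBasis M q hq hqM f
  have hne : ∃ i, a0 i ≠ 0 := by
    by_contra hcon
    push Not at hcon
    apply hf
    rw [h60_comb]
    exact Finset.sum_eq_zero fun i _ => by rw [hcon i, map_zero, zero_mul]
  obtain ⟨c0, hc0, hmem, i0, hi0ne, hi0⟩ := h60_scale_family RM a0 hne
  set a : Fin (q + 1) → RM.O := fun i => ⟨algebraMap Qb _ c0 * a0 i, hmem i⟩ with ha
  have hcomb : algebraMap Qb ↥(modularFunctionFieldBar (M * q)) c0 * h60_comb M q a0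
      = h60_comb M q (fun i => (a i : ↥(modularFunctionFieldBar M))) := h60_smul_comb M q c0 a0
  have hcoe : ((h60_comb M q (fun i => (a i : ↥(modularFunctionFieldBar M))) :
      ↥(modularFunctionFieldBar (M * q))) : LaurentSeries Qb)
      = algebraMap Qb (LaurentSeries Qb) c0 *
        ((h60_comb M q a0 : ↥(modularFunctionFieldBar (M * q))) : LaurentSeries Qb) := by
    rw [← hcomb]
    rfl
  have hredi0 : RM.red (a i0) ≠ 0 :=
    h60_red_ne_zero_of_inv RM (hmem i0) hi0 (mul_ne_zero ((map_ne_zero _).2 hc0) hi0ne)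
  by_cases hb : h60_rs A (h60_bOs A hRM a) ≠ 0
  · refine ⟨c0, h60_bOs A hRM a, hc0, ?_, hb, h60_rs_bOs_mem A hRM hA a⟩
    rw [h60_coe_bOs, hcoe]
  · push Not at hb
    have hs : h60_rs A (h60_sOs A hRM a) ≠ 0 := fun h2 =>
      hredi0 (h60_ker A hRM hA a hb h2 i0)
    obtain ⟨a', b', hab⟩ := h49_exists_bezout ((Nat.Prime.coprime_iff_not_dvd hq).mpr hqM)
    obtain ⟨ζ, -, hζ⟩ := h87_exists_zeta A q
    have hζA : IsPrimitiveRoot ζ q :=
      IsPrimitiveRoot.of_map_of_injective
        (f := Units.map ((A.subtype : A →+* Qb) : A →* Qb)) hζ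
        (Units.map_injective (f := ((A.subtype : A →+* Qb) : A →* Qb)) Subtype.val_injective)
    set ζQ : Qbˣ := Units.map ((A.subtype : A →+* Qb) : A →* Qb) ζ with hζQ
    set b : ↥(modularFunctionFieldBar (M * q)) :=
      h60_comb M q (fun i => (a i : ↥(modularFunctionFieldBar M))) with hbdef
    have hb0 : b ≠ 0 := by
      rw [← hcomb]
      exact mul_ne_zero ((map_ne_zero _).2 hc0) hf
    have hbK : (b : LaurentSeries Qb) ≠ 0 := fun h => hb0 (Subtype.ext h)
    obtain ⟨n, hn⟩ : ∃ n : ↥(modularFunctionFieldBar M),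
        n = (letI := algebraAlong (heckeAlphaBar Qb M q)
          Algebra.norm ↥(modularFunctionFieldBar M) b) := ⟨_, rfl⟩
    have key := h49_norm_along (heckeAlphaBar Qb M q) (h19_DEG M q hq hqM)
      (h49_sigma hab hq ζQ) (h49_sigma_injective hab hq ζQ hζ)
      (fun x x' e => (h49_sigma_alpha hab hq ζQ hζ.pow_eq_one x e).trans
        (h49_sigma_alpha hab hq ζQ hζ.pow_eq_one x' e).symm) b
    rw [← hn, h49_sigma_alpha hab hq ζQ hζ.pow_eq_one, h49_sigma_none] at key
    have hprod : ∏ c : Fin q, h49_sigma hab hq ζQ (some c) b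
        = ∏ c ∈ Finset.range q,
            h87_twist (ζQ ^ c) ((h60_sOs A hRM a : h60_Os A) : LaurentSeries Qb) := by
      rw [← Fin.prod_univ_eq_prod_range
        (fun c => h87_twist (ζQ ^ c) ((h60_sOs A hRM a : h60_Os A) : LaurentSeries Qb)) q]
      refine Finset.prod_congr rfl fun c _ => ?_
      rw [h49_sigma_some, h60_coe_sOs A hRM hab hq a]
    rw [hprod] at key
    set g : LaurentSeries Qb := (n : LaurentSeries Qb) / (b : LaurentSeries Qb) with hg
    have hgq : qExpand Qb q g = ∏ c ∈ Finset.range q,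
        h87_twist (ζQ ^ c) ((h60_sOs A hRM a : h60_Os A) : LaurentSeries Qb) := by
      rw [hg, map_div₀, key, mul_div_cancel_left₀]
      exact (map_ne_zero _).2 hbK
    obtain ⟨hg', hgrs⟩ := h60_adj A q ζ hζA (h60_sOs A hRM a) g hgq
    have hgrs0 : h60_rs A ⟨g, hg'⟩ ≠ 0 := by
      rw [hgrs]
      intro h0
      apply hs
      ext m
      apply frobenius_inj (IsLocalRing.ResidueField A) q
      have h4 := congrArg (fun f : LaurentSeries (IsLocalRing.ResidueField A) => f.coeff m) h0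
      simpa only [coeffMap_coeff, HahnSeries.coeff_zero, map_zero] using h4
    have hgmem : h60_rs A ⟨g, hg'⟩ ∈ modularFunctionFieldFullC (IsLocalRing.ResidueField A) M := by
      rw [hgrs]
      exact h87_coeffMap_mem_fullC M _ (h60_rs_sOs_mem A hRM hA a)
    have hg0 : g ≠ 0 := h60_ne_zero_of_rs A hgrs0
    have hnK : (n : LaurentSeries Qb) ≠ 0 := by
      intro h0
      apply hg0
      rw [hg, h0, zero_div]
    have hn0 : n ≠ 0 := fun h => hnK (by rw [h]; rfl)
    obtain ⟨c1, hc1, hn1, hn2⟩ := RM.exists_scale n hn0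
    set nO : h60_Os A := h60_toOs A hRM ⟨algebraMap Qb _ c1 * n, hn1⟩ with hnO
    have hnrs : h60_rs A nO ≠ 0 := by
      rw [hnO, h60_rs_toOs]
      intro h0
      exact h60_red_ne_zero_of_inv RM hn1 hn2 (mul_ne_zero ((map_ne_zero _).2 hc1) hn0)
        (Subtype.ext h0)
    have hnmem : h60_rs A nO ∈ modularFunctionFieldFullC (IsLocalRing.ResidueField A) M := by
      rw [hnO, h60_rs_toOs]
      exact (RM.red _).2
    set gi : h60_Os A := ⟨g⁻¹, h60_inv_mem A ⟨g, hg'⟩ hgrs0⟩ with hgi
    have hgirs : h60_rs A gi = (h60_rs A ⟨g, hg'⟩)⁻¹ := h60_rs_inv A ⟨g, hg'⟩ hgrs0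
    refine ⟨c1 * c0, nO * gi, mul_ne_zero hc1 hc0, ?_, ?_, ?_⟩
    · show (algebraMap Qb (LaurentSeries Qb) c1 * (n : LaurentSeries Qb)) * g⁻¹ = _
      rw [hg, inv_div, mul_assoc, mul_div_cancel₀ _ hnK, hbdef, hcoe, map_mul, mul_assoc]
    · rw [map_mul, hgirs]
      exact mul_ne_zero hnrs (inv_ne_zero hgrs0)
    · rw [map_mul, hgirs]
      exact mul_mem hnmem (inv_mem hgmem)

end Main

end Fermat.Agent.S34

end
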