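import Mathlib
import Fermat.Agent.S34.h60_Val1

/-!
# S34, modular foundation (helper60): the reduction datum `h60_R1` of `F(Mq)` at `q ∤ M`

`A` a valuation ring of `ℚ̄` over the prime `q`, `q ∤ M`, `k = A/𝔪`.

* `h60_R1 M q hqM A hA : h39_RedDatum ℚ̄ F(Mq) k Fb(M)` : the `q`-expansion valuation ring `O₁` of
  the function field of level `Mq` (ratios of `A`-integral `q`-series with nonzero reduced
  denominator), with its reduction map ONTO the reduced field of level `M`.
  Characterisation: `h60_R1_A`, `h60_R1_res`, `h60_R1_mem_iff`, `h60_R1_red_eq`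
  (the four fields of `h54_IsModRed`, with levels `(Mq, M)`), `h60_R1_coe_red` (`red = h60_rs`).
* `h60_phi` : the `V`-operator `h(q) ↦ h(q^ℓ)` as an endomorphism of `Fb(M)`;
* `h60_R1_alpha`, `h60_R1_beta` : `red₁(α g) = ḡ`, `red₁(β g) = φ(ḡ)` for `g` in the level-`M`
  valuation ring (any datum with `h54_IsModRed M A RM`).
-/

set_option autoImplicit false
set_option synthInstance.maxHeartbeats 400000

noncomputable section

open ModularCurve AlgebraicCurve IntermediateField

namespace Fermat.Agent.S34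

open Fermat.Agent.S18 Fermat.Agent.S37 Fermat.Agent.S24

local notation "Qb" => AlgebraicClosure ℚ

section R1

variable (M q : ℕ) [NeZero M] [NeZero q] [Fact q.Prime] (hqM : ¬ q ∣ M)
  (A : ValuationSubring Qb) (hA : A.LiesOverPrime q)

include hqM hA in
/-- The `q`-expansion valuation of level `Mq` at a prime `q ∤ M`: existence, with residue field
the reduced field of level `M`. -/
theorem h60_exists_R1 :
    ∃ R : h39_RedDatum Qb ↥(modularFunctionFieldBar (M * q)) (IsLocalRing.ResidueField A)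
        ↥(modularFunctionFieldFullC (IsLocalRing.ResidueField A) M),
      R.A = A ∧
      (∀ (a : Qb) (ha : a ∈ R.A) (ha' : a ∈ A),
        R.res ⟨a, ha⟩ = IsLocalRing.residue A ⟨a, ha'⟩) ∧
      (∀ f : ↥(modularFunctionFieldBar (M * q)), f ∈ R.O ↔ ∃ y₁ y₂ : LaurentSeries A,
        coeffMap (IsLocalRing.residue A) y₂ ≠ 0 ∧
          (f : LaurentSeries Qb) * coeffMap A.subtype y₂ = coeffMap A.subtype y₁) ∧
      (∀ (f : ↥(modularFunctionFieldBar (M * q))) (hf : f ∈ R.O) (y₁ y₂ : LaurentSeries A),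
        (f : LaurentSeries Qb) * coeffMap A.subtype y₂ = coeffMap A.subtype y₁ →
          ((R.red ⟨f, hf⟩ : ↥(modularFunctionFieldFullC (IsLocalRing.ResidueField A) M)) :
              LaurentSeries (IsLocalRing.ResidueField A)) * coeffMap (IsLocalRing.residue A) y₂
            = coeffMap (IsLocalRing.residue A) y₁) := by
  have hRM := h54_isModRed M hqM A hA
  refine h19_exists_redDatum_abs A (modularFunctionFieldBar (M * q))
    (modularFunctionFieldFullC (IsLocalRing.ResidueField A) M) ?_ ?_ ?_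
  · intro f hf
    obtain ⟨c, u, hc, hu, hrs, -⟩ := h60_exists_unit_scale A hRM hqM hA f hf
    obtain ⟨y₁, y₂, hy, h⟩ := u.2
    refine ⟨c, y₁, y₂, hc, ?_, hy, ?_⟩
    · have h1 := h60_rs_spec A u y₁ y₂ h
      rw [← h1]
      exact mul_ne_zero hrs hy
    · rw [← hu]
      exact h
  · intro f y₁ y₂ hy h
    by_cases hf : f = 0
    · refine ⟨0, zero_mem _, ?_⟩
      have h1 : coeffMap A.subtype y₁ = 0 := by
        rw [← h, hf]
        simp
      have h2 : y₁ = 0 := h19_coeffMap_subtype_injective A (by rw [h1, map_zero])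
      rw [h2, map_zero, zero_mul]
    · obtain ⟨c, u, hc, hu, hrs, hmem⟩ := h60_exists_unit_scale A hRM hqM hA f hf
      set fO : h60_Os A := ⟨(f : LaurentSeries Qb), ⟨y₁, y₂, hy, h⟩⟩ with hfO
      have hcA : c⁻¹ ∈ A := h60_inv_mem_A_of_scale A fO u hrs hu
      have h1 : fO = ⟨algebraMap Qb (LaurentSeries Qb) c⁻¹, h60_const_mem A hcA⟩ * u := by
        apply Subtype.ext
        show (f : LaurentSeries Qb)
          = algebraMap Qb (LaurentSeries Qb) c⁻¹ * (u : LaurentSeries Qb)
        rw [hu, ← mul_assoc, ← map_mul, inv_mul_cancel₀ hc, map_one, one_mul]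
      refine ⟨h60_rs A fO, ?_, h60_rs_spec A fO y₁ y₂ h⟩
      rw [h1, map_mul, h60_rs_const A hcA]
      exact mul_mem (IntermediateField.algebraMap_mem _ _) hmem
  · intro g hg
    obtain ⟨a, ha⟩ := (h54_redDatum M hqM A hA).red_surjective ⟨g, hg⟩
    obtain ⟨y₁, y₂, hy, h⟩ := (hRM.mem_iff a).mp a.2
    refine ⟨heckeAlphaBar Qb M q a, y₁, y₂, hy, ?_, ?_⟩
    · rw [coe_heckeAlphaBar]
      exact h
    · have h2 := hRM.red_eq (a : ↥(modularFunctionFieldBar M)) a.2 y₁ y₂ h
      have h3 : (h54_redDatum M hqM A hA).red ⟨(a : ↥(modularFunctionFieldBar M)), a.2⟩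
          = ⟨g, hg⟩ := ha
      rw [h3] at h2
      exact h2

/-- **The `q`-expansion reduction datum of level `Mq` at `q ∤ M`** (residue field of level `M`). -/
def h60_R1 : h39_RedDatum Qb ↥(modularFunctionFieldBar (M * q)) (IsLocalRing.ResidueField A)
    ↥(modularFunctionFieldFullC (IsLocalRing.ResidueField A) M) :=
  (h60_exists_R1 M q hqM A hA).choose

theorem h60_R1_A : (h60_R1 M q hqM A hA).A = A :=
  (h60_exists_R1 M q hqM A hA).choose_spec.1

theorem h60_R1_res (a : Qb) (ha : a ∈ (h60_R1 M q hqM A hA).A) (ha' : a ∈ A) :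
    (h60_R1 M q hqM A hA).res ⟨a, ha⟩ = IsLocalRing.residue A ⟨a, ha'⟩ :=
  (h60_exists_R1 M q hqM A hA).choose_spec.2.1 a ha ha'

theorem h60_R1_mem_iff (f : ↥(modularFunctionFieldBar (M * q))) :
    f ∈ (h60_R1 M q hqM A hA).O ↔ ∃ y₁ y₂ : LaurentSeries A,
      coeffMap (IsLocalRing.residue A) y₂ ≠ 0 ∧
        (f : LaurentSeries Qb) * coeffMap A.subtype y₂ = coeffMap A.subtype y₁ :=
  (h60_exists_R1 M q hqM A hA).choose_spec.2.2.1 f

theorem h60_R1_red_eq (f : ↥(modularFunctionFieldBar (M * q)))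
    (hf : f ∈ (h60_R1 M q hqM A hA).O) (y₁ y₂ : LaurentSeries A)
    (h : (f : LaurentSeries Qb) * coeffMap A.subtype y₂ = coeffMap A.subtype y₁) :
    (((h60_R1 M q hqM A hA).red ⟨f, hf⟩ :
        ↥(modularFunctionFieldFullC (IsLocalRing.ResidueField A) M)) :
          LaurentSeries (IsLocalRing.ResidueField A)) * coeffMap (IsLocalRing.residue A) y₂
      = coeffMap (IsLocalRing.residue A) y₁ :=
  (h60_exists_R1 M q hqM A hA).choose_spec.2.2.2 f hf y₁ y₂ h

/-- Membership in `O₁`, in terms of `h60_Os`. -/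
theorem h60_R1_mem_iff_Os (f : ↥(modularFunctionFieldBar (M * q))) :
    f ∈ (h60_R1 M q hqM A hA).O ↔ (f : LaurentSeries Qb) ∈ h60_Os A :=
  h60_R1_mem_iff M q hqM A hA f

/-- `red₁` is the coefficientwise reduction `h60_rs`. -/
theorem h60_R1_coe_red (f : ↥(modularFunctionFieldBar (M * q)))
    (hf : f ∈ (h60_R1 M q hqM A hA).O) :
    (((h60_R1 M q hqM A hA).red ⟨f, hf⟩ :
        ↥(modularFunctionFieldFullC (IsLocalRing.ResidueField A) M)) :
          LaurentSeries (IsLocalRing.ResidueField A))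
      = h60_rs A ⟨(f : LaurentSeries Qb), (h60_R1_mem_iff_Os M q hqM A hA f).mp hf⟩ := by
  obtain ⟨y₁, y₂, hy, h⟩ := (h60_R1_mem_iff M q hqM A hA f).mp hf
  have h1 := h60_R1_red_eq M q hqM A hA f hf y₁ y₂ h
  exact (h60_rs_eq A ⟨(f : LaurentSeries Qb), (h60_R1_mem_iff_Os M q hqM A hA f).mp hf⟩
    y₁ y₂ hy h _ h1).symm

end R1

section Phi

variable (M q : ℕ) [NeZero q] [Fact q.Prime] (k : Type) [Field k] [CharP k q] [PerfectField k]

/-- The `V`-operator `h(q) ↦ h(q^ℓ)` on the reduced field of level `M` (characteristic `ℓ`). -/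
def h60_phi : ↥(modularFunctionFieldFullC k M) →+* ↥(modularFunctionFieldFullC k M) where
  toFun x := ⟨qExpand k q (x : LaurentSeries k), h60_qExpand_mem_fullC M q k x.2⟩
  map_one' := Subtype.ext (map_one (qExpand k q))
  map_mul' _ _ := Subtype.ext (map_mul (qExpand k q) _ _)
  map_zero' := Subtype.ext (map_zero (qExpand k q))
  map_add' _ _ := Subtype.ext (map_add (qExpand k q) _ _)

theorem h60_coe_phi (x : ↥(modularFunctionFieldFullC k M)) :
    ((h60_phi M q k x : ↥(modularFunctionFieldFullC k M)) : LaurentSeries k)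
      = qExpand k q (x : LaurentSeries k) := rfl

/-- `φ` is `k`-linear. -/
theorem h60_phi_algebraMap (c : k) :
    h60_phi M q k (algebraMap k ↥(modularFunctionFieldFullC k M) c)
      = algebraMap k ↥(modularFunctionFieldFullC k M) c := by
  apply Subtype.ext
  show qExpand k q (algebraMap k (LaurentSeries k) c) = algebraMap k (LaurentSeries k) c
  rw [algebraMap_laurentSeries_eq_single, qExpand_single, mul_zero]

end Phi

end Fermat.Agent.S34

end
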