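import Mathlib
import Fermat.Agent.S34.h60_R1

/-!
# S34, modular foundation (helper60): `red₁ ∘ α` and `red₁ ∘ β`

* `h60_R1_alpha`, `h60_R1_beta_coe`, `h60_R1_beta` : `red₁(α g) = ḡ`, `red₁(β g) = φ(ḡ)` for `g`
  in the level-`M` valuation ring (any datum with `h54_IsModRed M A RM`).
-/

set_option autoImplicit false
set_option synthInstance.maxHeartbeats 400000

noncomputable section

open ModularCurve AlgebraicCurve IntermediateField

namespace Fermat.Agent.S34

open Fermat.Agent.S18 Fermat.Agent.S37 Fermat.Agent.S24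

local notation "Qb" => AlgebraicClosure ℚ

section AlphaBeta

variable (M q : ℕ) [NeZero M] [NeZero q] [Fact q.Prime] (hqM : ¬ q ∣ M)
  (A : ValuationSubring Qb) (hA : A.LiesOverPrime q)
  {RM : h39_RedDatum Qb ↥(modularFunctionFieldBar M) (IsLocalRing.ResidueField A)
      ↥(modularFunctionFieldFullC (IsLocalRing.ResidueField A) M)}
  (hRM : h54_IsModRed M A RM)

include hRM in
/-- `α` maps the level-`M` valuation ring into `O₁`. -/
theorem h60_R1_alpha_mem (g : RM.O) :
    heckeAlphaBar Qb M q (g : ↥(modularFunctionFieldBar M)) ∈ (h60_R1 M q hqM A hA).O := by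
  rw [h60_R1_mem_iff_Os, coe_heckeAlphaBar]
  exact h60_coe_mem_Os A hRM g

/-- `red₁(α g) = ḡ`. -/
theorem h60_R1_alpha (g : RM.O) :
    (h60_R1 M q hqM A hA).red ⟨heckeAlphaBar Qb M q (g : ↥(modularFunctionFieldBar M)),
      h60_R1_alpha_mem M q hqM A hA hRM g⟩ = RM.red g := by
  apply Subtype.ext
  obtain ⟨y₁, y₂, hy, h⟩ := (hRM.mem_iff g).mp g.2
  have h1 := hRM.red_eq (g : ↥(modularFunctionFieldBar M)) g.2 y₁ y₂ h
  have h2 := h60_R1_red_eq M q hqM A hA (heckeAlphaBar Qb M q (g : ↥(modularFunctionFieldBar M)))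
    (h60_R1_alpha_mem M q hqM A hA hRM g) y₁ y₂ (by rw [coe_heckeAlphaBar]; exact h)
  exact mul_right_cancel₀ hy (h2.trans h1.symm)

include hRM in
/-- `β` maps the level-`M` valuation ring into `O₁`. -/
theorem h60_R1_beta_mem (g : RM.O) :
    heckeBetaBar Qb M q (g : ↥(modularFunctionFieldBar M)) ∈ (h60_R1 M q hqM A hA).O := by
  rw [h60_R1_mem_iff_Os, coe_heckeBetaBar]
  exact h60_qExpand_mem A q (h60_coe_mem_Os A hRM g)

/-- `red₁(β g) = ḡ(q^ℓ)`. -/
theorem h60_R1_beta_coe (g : RM.O) :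
    (((h60_R1 M q hqM A hA).red ⟨heckeBetaBar Qb M q (g : ↥(modularFunctionFieldBar M)),
      h60_R1_beta_mem M q hqM A hA hRM g⟩ :
        ↥(modularFunctionFieldFullC (IsLocalRing.ResidueField A) M)) :
          LaurentSeries (IsLocalRing.ResidueField A))
      = qExpand (IsLocalRing.ResidueField A) q
          ((RM.red g : ↥(modularFunctionFieldFullC (IsLocalRing.ResidueField A) M)) :
            LaurentSeries (IsLocalRing.ResidueField A)) := by
  obtain ⟨y₁, y₂, hy, h⟩ := (hRM.mem_iff g).mp g.2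
  have h1 := hRM.red_eq (g : ↥(modularFunctionFieldBar M)) g.2 y₁ y₂ h
  have hy' : coeffMap (IsLocalRing.residue A) (qExpand A q y₂) ≠ 0 := by
    rw [coeffMap_qExpand]
    intro h0
    exact hy (qExpand_injective (R := IsLocalRing.ResidueField A) q (by rw [h0, map_zero]))
  have h2 := h60_R1_red_eq M q hqM A hA (heckeBetaBar Qb M q (g : ↥(modularFunctionFieldBar M)))
    (h60_R1_beta_mem M q hqM A hA hRM g) (qExpand A q y₁) (qExpand A q y₂)
    (by rw [coe_heckeBetaBar, coeffMap_qExpand, coeffMap_qExpand, ← h, map_mul])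
  apply mul_right_cancel₀ hy'
  rw [h2, coeffMap_qExpand, coeffMap_qExpand, ← map_mul, h1]

/-- `red₁(β g) = φ(ḡ)`. -/
theorem h60_R1_beta [CharP (IsLocalRing.ResidueField A) q]
    [PerfectField (IsLocalRing.ResidueField A)] (g : RM.O) :
    (h60_R1 M q hqM A hA).red ⟨heckeBetaBar Qb M q (g : ↥(modularFunctionFieldBar M)),
      h60_R1_beta_mem M q hqM A hA hRM g⟩
      = h60_phi M q (IsLocalRing.ResidueField A) (RM.red g) :=
  Subtype.ext (h60_R1_beta_coe M q hqM A hA hRM g)

end AlphaBeta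

end Fermat.Agent.S34

end
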