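import Mathlib
import Fermat.Agent.S34.h60_R1AB
import Fermat.Agent.S18.GR_RedAPI

/-!
# S34, modular foundation (helper60): the second valuation of `F(Mq)`, separation, inertia

* `h60_transport R w` : transport of a reduction datum along an involution `w` of the function
  field fixing the constants (`O' = w⁻¹ O`, `red' = red ∘ w`);
* `h60_w M q hqM` : the swap (Atkin–Lehner involution at `q`) of `F(Mq)`; `h60_w_alpha`,
  `h60_w_beta`, `h60_w_w`, `h60_w_algebraMap`, `h60_w_unique`, `h60_w_galois`;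
* `h60_R2 M q hqM A hA := h60_transport (h60_R1 …) (h60_w …)` : the second valuation;
* `h60_R1_redF_alpha/beta`, `h60_R2_redF_alpha/beta` : the four reductions of `α g`, `β g`
  (for ALL `g`, in `redF` language);
* `h60_exists_sep`, `h60_exists_sep'` : `t ∈ O₁ ∩ O₂` with reductions `(1, 0)` resp. `(0, 1)`;
* `h60_R1_galois`, `h60_R2_galois` : inertia at `A` preserves `O₁`, `O₂` and commutes with the
  reductions;
* `h60_pair`, `h60_pair_spec` : the family `![R₁, R₂]` in the shape of `h87_unipGeom_of_family`.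
-/

set_option autoImplicit false
set_option synthInstance.maxHeartbeats 400000

noncomputable section

open ModularCurve AlgebraicCurve IntermediateField

namespace Fermat.Agent.S34

open Fermat.Agent.S18 Fermat.Agent.S37 Fermat.Agent.S24

local notation "Qb" => AlgebraicClosure ℚ

section Transport

variable {K F k Fb : Type*} [Field K] [Field F] [Algebra K F] [Field k] [Field Fb] [Algebra k Fb]

/-- Transport of a reduction datum along an involution of `F` fixing the constants. -/
def h60_transport (R : h39_RedDatum K F k Fb) (w : F →+* F) (hw2 : ∀ f, w (w f) = f)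
    (hwK : ∀ a : K, w (algebraMap K F a) = algebraMap K F a) : h39_RedDatum K F k Fb where
  A := R.A
  O := R.O.comap w
  res := R.res
  red := R.red.comp (w.restrict (R.O.comap w) R.O (fun _ hx => hx))
  res_surjective := R.res_surjective
  red_surjective := by
    intro g
    obtain ⟨f, rfl⟩ := R.red_surjective g
    have hmem : w (f : F) ∈ R.O.comap w := by
      show w (w (f : F)) ∈ R.O
      rw [hw2]
      exact f.2
    refine ⟨⟨w (f : F), hmem⟩, ?_⟩
    show R.red ⟨w (w (f : F)), hmem⟩ = R.red f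
    exact congrArg R.red (Subtype.ext (hw2 f))
  mem_iff := by
    intro a
    rw [R.mem_iff a]
    show _ ↔ w (algebraMap K F a) ∈ R.O
    rw [hwK]
  red_algebraMap := by
    intro a ha ha'
    have h1 : algebraMap K F a ∈ R.O := (R.mem_iff a).mp ha
    rw [← R.red_algebraMap a ha h1]
    show R.red ⟨w (algebraMap K F a), ha'⟩ = R.red ⟨algebraMap K F a, h1⟩
    exact congrArg R.red (Subtype.ext (hwK a))
  exists_scale := by
    intro f hf
    have hwf : w f ≠ 0 := (map_ne_zero w).2 hf
    obtain ⟨c, hc, h1, h2⟩ := R.exists_scale (w f) hwf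
    refine ⟨c, hc, ?_, ?_⟩
    · show w (algebraMap K F c * f) ∈ R.O
      rw [map_mul, hwK]
      exact h1
    · show w ((algebraMap K F c * f)⁻¹) ∈ R.O
      rw [map_inv₀, map_mul, hwK]
      exact h2

variable (R : h39_RedDatum K F k Fb) (w : F →+* F) (hw2 : ∀ f, w (w f) = f)
  (hwK : ∀ a : K, w (algebraMap K F a) = algebraMap K F a)

theorem h60_transport_A : (h60_transport R w hw2 hwK).A = R.A := rfl

theorem h60_transport_mem {f : F} : f ∈ (h60_transport R w hw2 hwK).O ↔ w f ∈ R.O := Iff.rfl

theorem h60_transport_redF (f : F) : (h60_transport R w hw2 hwK).redF f = R.redF (w f) := by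
  by_cases hf : w f ∈ R.O
  · have hf' : f ∈ (h60_transport R w hw2 hwK).O := hf
    rw [(h60_transport R w hw2 hwK).redF_of_mem hf', R.redF_of_mem hf]
    rfl
  · have hf' : f ∉ (h60_transport R w hw2 hwK).O := hf
    rw [h62_redF_of_not_mem _ hf', h62_redF_of_not_mem _ hf]

end Transport

section Swap

variable (M q : ℕ) [NeZero M] [NeZero q] [Fact q.Prime] (hqM : ¬ q ∣ M)

/-- The swap `w` of `F(Mq)` (Atkin–Lehner involution at `q`): `w ∘ α = β`, `w ∘ β = α`. -/
def h60_w : ↥(modularFunctionFieldBar (M * q)) →+* ↥(modularFunctionFieldBar (M * q)) :=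
  h49_swapF (h49_exists_bezout
    ((Nat.Prime.coprime_iff_not_dvd (Fact.out : q.Prime)).mpr hqM)).choose_spec.choose_spec
    h78_iota (Fact.out : q.Prime)

theorem h60_w_alpha (y : ↥(modularFunctionFieldBar M)) :
    h60_w M q hqM (heckeAlphaBar Qb M q y) = heckeBetaBar Qb M q y :=
  h49_swapF_alpha _ _ _ y

theorem h60_w_beta (y : ↥(modularFunctionFieldBar M)) :
    h60_w M q hqM (heckeBetaBar Qb M q y) = heckeAlphaBar Qb M q y :=
  h49_swapF_beta _ _ _ y

theorem h60_w_comb (a : Fin (q + 1) → ↥(modularFunctionFieldBar M)) :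
    h60_w M q hqM (h60_comb M q a)
      = ∑ i, heckeBetaBar Qb M q (a i) * heckeAlphaBar Qb M q (h59_jbar M) ^ (i : ℕ) := by
  rw [h60_comb, map_sum]
  refine Finset.sum_congr rfl fun i _ => ?_
  rw [map_mul, map_pow, h60_w_alpha, h60_w_beta]

/-- `w` is an involution. -/
theorem h60_w_w (f : ↥(modularFunctionFieldBar (M * q))) :
    h60_w M q hqM (h60_w M q hqM f) = f := by
  obtain ⟨c, rfl⟩ := h60_powerBasis M q Fact.out hqM f
  rw [h60_w_comb, map_sum, h60_comb]
  refine Finset.sum_congr rfl fun i _ => ?_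
  rw [map_mul, map_pow, h60_w_alpha, h60_w_beta]

/-- `w` fixes the constants. -/
theorem h60_w_algebraMap (c : Qb) :
    h60_w M q hqM (algebraMap Qb ↥(modularFunctionFieldBar (M * q)) c)
      = algebraMap Qb ↥(modularFunctionFieldBar (M * q)) c := by
  have h1 : heckeAlphaBar Qb M q (algebraMap Qb ↥(modularFunctionFieldBar M) c)
      = algebraMap Qb ↥(modularFunctionFieldBar (M * q)) c := AlgHom.commutes _ c
  have h2 : heckeBetaBar Qb M q (algebraMap Qb ↥(modularFunctionFieldBar M) c)
      = algebraMap Qb ↥(modularFunctionFieldBar (M * q)) c := AlgHom.commutes _ c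
  conv_lhs => rw [← h1]
  rw [h60_w_alpha, h2]

/-- Uniqueness of the swap. -/
theorem h60_w_unique (w' : ↥(modularFunctionFieldBar (M * q)) →+* ↥(modularFunctionFieldBar (M * q)))
    (hα : ∀ y, w' (heckeAlphaBar Qb M q y) = heckeBetaBar Qb M q y)
    (hβ : ∀ y, w' (heckeBetaBar Qb M q y) = heckeAlphaBar Qb M q y) :
    w' = h60_w M q hqM := by
  refine RingHom.ext fun f => ?_
  obtain ⟨c, rfl⟩ := h60_powerBasis M q Fact.out hqM f
  rw [h60_w_comb, h60_comb, map_sum]
  refine Finset.sum_congr rfl fun i _ => ?_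
  rw [map_mul, map_pow, hα, hβ]

/-- The arithmetic Galois action commutes with `α`. -/
theorem h60_galois_alpha (τ : Qb ≃ₐ[ℚ] Qb) (y : ↥(modularFunctionFieldBar M)) :
    arithmeticRingAut (modularFunctionFieldFull (M * q)) τ (heckeAlphaBar Qb M q y)
      = heckeAlphaBar Qb M q (arithmeticRingAut (modularFunctionFieldFull M) τ y) :=
  Subtype.ext (by
    rw [coe_arithmeticRingAut_apply, coe_heckeAlphaBar, coe_heckeAlphaBar,
      coe_arithmeticRingAut_apply])

/-- The arithmetic Galois action commutes with `β`. -/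
theorem h60_galois_beta (τ : Qb ≃ₐ[ℚ] Qb) (y : ↥(modularFunctionFieldBar M)) :
    arithmeticRingAut (modularFunctionFieldFull (M * q)) τ (heckeBetaBar Qb M q y)
      = heckeBetaBar Qb M q (arithmeticRingAut (modularFunctionFieldFull M) τ y) :=
  Subtype.ext (by
    rw [coe_arithmeticRingAut_apply, coe_heckeBetaBar, coe_heckeBetaBar,
      coe_arithmeticRingAut_apply, coeffMap_qExpand])

/-- The swap commutes with the arithmetic Galois action. -/
theorem h60_w_galois (τ : Qb ≃ₐ[ℚ] Qb) (f : ↥(modularFunctionFieldBar (M * q))) :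
    h60_w M q hqM (arithmeticRingAut (modularFunctionFieldFull (M * q)) τ f)
      = arithmeticRingAut (modularFunctionFieldFull (M * q)) τ (h60_w M q hqM f) := by
  obtain ⟨c, rfl⟩ := h60_powerBasis M q Fact.out hqM f
  rw [h60_w_comb, h60_comb, map_sum, map_sum, map_sum]
  refine Finset.sum_congr rfl fun i _ => ?_
  rw [map_mul, map_pow, map_mul, map_pow, map_mul, map_pow, h60_galois_alpha, h60_galois_beta,
    h60_w_alpha, h60_w_beta, h60_galois_alpha, h60_galois_beta]

end Swap

section R2

variable (M q : ℕ) [NeZero M] [NeZero q] [Fact q.Prime] (hqM : ¬ q ∣ M)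
  (A : ValuationSubring Qb) (hA : A.LiesOverPrime q)

/-- **The second reduction datum of level `Mq` at `q ∤ M`**: the transport of `h60_R1` by the
swap. -/
def h60_R2 : h39_RedDatum Qb ↥(modularFunctionFieldBar (M * q)) (IsLocalRing.ResidueField A)
    ↥(modularFunctionFieldFullC (IsLocalRing.ResidueField A) M) :=
  h60_transport (h60_R1 M q hqM A hA) (h60_w M q hqM) (h60_w_w M q hqM) (h60_w_algebraMap M q hqM)

theorem h60_R2_A : (h60_R2 M q hqM A hA).A = A := h60_R1_A M q hqM A hA

theorem h60_R2_res (a : Qb) (ha : a ∈ (h60_R2 M q hqM A hA).A) (ha' : a ∈ A) :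
    (h60_R2 M q hqM A hA).res ⟨a, ha⟩ = IsLocalRing.residue A ⟨a, ha'⟩ :=
  h60_R1_res M q hqM A hA a ha ha'

theorem h60_R2_mem_iff (f : ↥(modularFunctionFieldBar (M * q))) :
    f ∈ (h60_R2 M q hqM A hA).O ↔ h60_w M q hqM f ∈ (h60_R1 M q hqM A hA).O := Iff.rfl

theorem h60_R2_redF (f : ↥(modularFunctionFieldBar (M * q))) :
    (h60_R2 M q hqM A hA).redF f = (h60_R1 M q hqM A hA).redF (h60_w M q hqM f) :=
  h60_transport_redF _ _ _ _ f

theorem h60_R1_redF_w (f : ↥(modularFunctionFieldBar (M * q))) :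
    (h60_R1 M q hqM A hA).redF f = (h60_R2 M q hqM A hA).redF (h60_w M q hqM f) := by
  rw [h60_R2_redF, h60_w_w]

theorem h60_R1_mem_w_iff (f : ↥(modularFunctionFieldBar (M * q))) :
    f ∈ (h60_R1 M q hqM A hA).O ↔ h60_w M q hqM f ∈ (h60_R2 M q hqM A hA).O := by
  rw [h60_R2_mem_iff, h60_w_w]

end R2

end Fermat.Agent.S34

end
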