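import Mathlib
import Fermat.Agent.S34.h60_R2
import Fermat.Agent.S37.h87_Decomp

/-!
# S34, modular foundation (helper60): the pair `(R₁, R₂)` — reductions of `α`, `β`, separation,
inertia

`R₁ = h60_R1`, `R₂ = h60_R2` (levels `(Mq, M)`), `RM` any level-`M` datum with `h54_IsModRed`.

* `h60_R1_alpha_mem_iff`, `h60_R1_beta_mem_iff`, `h60_R2_alpha_mem_iff`, `h60_R2_beta_mem_iff` :
  `α g ∈ Oᵢ ↔ g ∈ O_M ↔ β g ∈ Oᵢ`;
* `h60_R1_redF_alpha`, `h60_R1_redF_beta_coe`, `h60_R2_redF_alpha_coe`, `h60_R2_redF_beta` :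
  `red₁(α g) = ḡ`, `red₁(β g) = ḡ(q^ℓ)`, `red₂(α g) = ḡ(q^ℓ)`, `red₂(β g) = ḡ` (all `g`);
* `h60_exists_sep`, `h60_exists_sep'` : `t ∈ O₁ ∩ O₂` with reductions `(1, 0)`, resp. `(0, 1)`;
* `h60_R1_galois`, `h60_R2_galois` : inertia at `A` preserves `Oᵢ` and `redᵢ`;
* `h60_pair`, `h60_pair_spec` : the family `![R₁, R₂]` with the hypotheses of
  `h87_unipGeom_of_family` other than the endgame (G).
-/

set_option autoImplicit false
set_option synthInstance.maxHeartbeats 400000

noncomputable section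

open ModularCurve AlgebraicCurve IntermediateField

namespace Fermat.Agent.S34

open Fermat.Agent.S18 Fermat.Agent.S37 Fermat.Agent.S24

local notation "Qb" => AlgebraicClosure ℚ

section Generic

variable {K E F kE FbE k Fb : Type*} [Field K] [Field E] [Field F] [Algebra K E] [Algebra K F]
  [Field kE] [Field FbE] [Algebra kE FbE] [Field k] [Field Fb] [Algebra k Fb]

/-- If a `K`-algebra map sends one valuation ring into another with the same constants, the
preimage of the second is exactly the first. -/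
theorem h60_mem_iff_of_algHom (RE : h39_RedDatum K E kE FbE) (R : h39_RedDatum K F k Fb)
    (hA : RE.A = R.A) (θ : E →ₐ[K] F) (hθ : ∀ g ∈ RE.O, θ g ∈ R.O) (g : E) :
    θ g ∈ R.O ↔ g ∈ RE.O := by
  refine ⟨fun hα => ?_, hθ g⟩
  by_contra hg
  have hg0 : g ≠ 0 := fun h => hg (h ▸ RE.O.zero_mem)
  obtain ⟨c, hc, h1, h2⟩ := RE.exists_scale g hg0
  have hθg0 : θ g ≠ 0 := (map_ne_zero θ).2 hg0
  have hu : θ ((algebraMap K E c * g)⁻¹) ∈ R.O := hθ _ h2
  have hθc : θ ((algebraMap K E c * g)⁻¹) = (algebraMap K F c * θ g)⁻¹ := by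
    rw [map_inv₀, map_mul, AlgHom.commutes]
  have hc' : algebraMap K F c⁻¹ = θ g * θ ((algebraMap K E c * g)⁻¹) := by
    rw [hθc, map_inv₀, mul_inv, mul_comm (θ g), mul_assoc, inv_mul_cancel₀ hθg0, mul_one]
  have hcO : algebraMap K F c⁻¹ ∈ R.O := by
    rw [hc']
    exact R.O.mul_mem _ _ hα hu
  have hcA : c⁻¹ ∈ RE.A := by
    rw [hA]
    exact (R.mem_iff c⁻¹).mpr hcO
  have hcE : algebraMap K E c⁻¹ ∈ RE.O := (RE.mem_iff c⁻¹).mp hcA
  apply hg
  have hg' : g = algebraMap K E c⁻¹ * (algebraMap K E c * g) := by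
    rw [← mul_assoc, ← map_mul, inv_mul_cancel₀ hc, map_one, one_mul]
  rw [hg']
  exact RE.O.mul_mem _ _ hcE h1

end Generic

section AB

variable (M q : ℕ) [NeZero M] [NeZero q] [Fact q.Prime] (hqM : ¬ q ∣ M)
  (A : ValuationSubring Qb) (hA : A.LiesOverPrime q)
  {RM : h39_RedDatum Qb ↥(modularFunctionFieldBar M) (IsLocalRing.ResidueField A)
      ↥(modularFunctionFieldFullC (IsLocalRing.ResidueField A) M)}
  (hRM : h54_IsModRed M A RM)

include hRM in
theorem h60_R1_alpha_mem_iff (g : ↥(modularFunctionFieldBar M)) :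
    heckeAlphaBar Qb M q g ∈ (h60_R1 M q hqM A hA).O ↔ g ∈ RM.O :=
  h60_mem_iff_of_algHom RM (h60_R1 M q hqM A hA) (hRM.A_eq.trans (h60_R1_A M q hqM A hA).symm)
    (heckeAlphaBar Qb M q) (fun g hg => h60_R1_alpha_mem M q hqM A hA hRM ⟨g, hg⟩) g

include hRM in
theorem h60_R1_beta_mem_iff (g : ↥(modularFunctionFieldBar M)) :
    heckeBetaBar Qb M q g ∈ (h60_R1 M q hqM A hA).O ↔ g ∈ RM.O :=
  h60_mem_iff_of_algHom RM (h60_R1 M q hqM A hA) (hRM.A_eq.trans (h60_R1_A M q hqM A hA).symm)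
    (heckeBetaBar Qb M q) (fun g hg => h60_R1_beta_mem M q hqM A hA hRM ⟨g, hg⟩) g

include hRM in
theorem h60_R2_alpha_mem_iff (g : ↥(modularFunctionFieldBar M)) :
    heckeAlphaBar Qb M q g ∈ (h60_R2 M q hqM A hA).O ↔ g ∈ RM.O := by
  rw [h60_R2_mem_iff, h60_w_alpha]
  exact h60_R1_beta_mem_iff M q hqM A hA hRM g

include hRM in
theorem h60_R2_beta_mem_iff (g : ↥(modularFunctionFieldBar M)) :
    heckeBetaBar Qb M q g ∈ (h60_R2 M q hqM A hA).O ↔ g ∈ RM.O := by
  rw [h60_R2_mem_iff, h60_w_beta]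
  exact h60_R1_alpha_mem_iff M q hqM A hA hRM g

include hRM in
/-- `red₁(α g) = ḡ` for all `g`. -/
theorem h60_R1_redF_alpha (g : ↥(modularFunctionFieldBar M)) :
    (h60_R1 M q hqM A hA).redF (heckeAlphaBar Qb M q g) = RM.redF g := by
  by_cases hg : g ∈ RM.O
  · rw [(h60_R1 M q hqM A hA).redF_of_mem (h60_R1_alpha_mem M q hqM A hA hRM ⟨g, hg⟩),
      RM.redF_of_mem hg]
    exact h60_R1_alpha M q hqM A hA hRM ⟨g, hg⟩
  · rw [h62_redF_of_not_mem _ hg,
      h62_redF_of_not_mem _ (mt (h60_R1_alpha_mem_iff M q hqM A hA hRM g).mp hg)]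

include hRM in
/-- `red₁(β g) = ḡ(q^ℓ)` for all `g`. -/
theorem h60_R1_redF_beta_coe (g : ↥(modularFunctionFieldBar M)) :
    (((h60_R1 M q hqM A hA).redF (heckeBetaBar Qb M q g) :
        ↥(modularFunctionFieldFullC (IsLocalRing.ResidueField A) M)) :
          LaurentSeries (IsLocalRing.ResidueField A))
      = qExpand (IsLocalRing.ResidueField A) q
          ((RM.redF g : ↥(modularFunctionFieldFullC (IsLocalRing.ResidueField A) M)) :
            LaurentSeries (IsLocalRing.ResidueField A)) := by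
  by_cases hg : g ∈ RM.O
  · rw [(h60_R1 M q hqM A hA).redF_of_mem (h60_R1_beta_mem M q hqM A hA hRM ⟨g, hg⟩),
      RM.redF_of_mem hg]
    exact h60_R1_beta_coe M q hqM A hA hRM ⟨g, hg⟩
  · rw [h62_redF_of_not_mem _ hg,
      h62_redF_of_not_mem _ (mt (h60_R1_beta_mem_iff M q hqM A hA hRM g).mp hg)]
    simp

include hRM in
/-- `red₂(α g) = ḡ(q^ℓ)` for all `g`. -/
theorem h60_R2_redF_alpha_coe (g : ↥(modularFunctionFieldBar M)) :
    (((h60_R2 M q hqM A hA).redF (heckeAlphaBar Qb M q g) :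
        ↥(modularFunctionFieldFullC (IsLocalRing.ResidueField A) M)) :
          LaurentSeries (IsLocalRing.ResidueField A))
      = qExpand (IsLocalRing.ResidueField A) q
          ((RM.redF g : ↥(modularFunctionFieldFullC (IsLocalRing.ResidueField A) M)) :
            LaurentSeries (IsLocalRing.ResidueField A)) := by
  rw [h60_R2_redF, h60_w_alpha]
  exact h60_R1_redF_beta_coe M q hqM A hA hRM g

include hRM in
/-- `red₂(β g) = ḡ` for all `g`. -/
theorem h60_R2_redF_beta (g : ↥(modularFunctionFieldBar M)) :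
    (h60_R2 M q hqM A hA).redF (heckeBetaBar Qb M q g) = RM.redF g := by
  rw [h60_R2_redF, h60_w_beta]
  exact h60_R1_redF_alpha M q hqM A hA hRM g

end AB

section Sep

variable (M q : ℕ) [NeZero M] [NeZero q] [Fact q.Prime] (hqM : ¬ q ∣ M)
  (A : ValuationSubring Qb) (hA : A.LiesOverPrime q)

/-- **(SEP)** there is `t ∈ O₁ ∩ O₂` with `red₁ t = 1`, `red₂ t = 0`. -/
theorem h60_exists_sep :
    ∃ t : ↥(modularFunctionFieldBar (M * q)), t ∈ (h60_R1 M q hqM A hA).O ∧
      t ∈ (h60_R2 M q hqM A hA).O ∧ (h60_R1 M q hqM A hA).redF t = 1 ∧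
      (h60_R2 M q hqM A hA).redF t = 0 := by
  have : CharP (IsLocalRing.ResidueField A) q := h19_residueField_charP A q hA
  have hRM := h54_isModRed M hqM A hA
  set R1 := h60_R1 M q hqM A hA with hR1
  set w := h60_w M q hqM with hw
  have hj : h59_jbar M ∈ (h54_redDatum M hqM A hA).O :=
    hRM.mem_of_integral _ _ (h54_coe_jbar M A)
  have hjred : (h54_redDatum M hqM A hA).redF (h59_jbar M)
      = h54_jk (IsLocalRing.ResidueField A) M := h54_redF_jbar hRM
  set a := heckeAlphaBar Qb M q (h59_jbar M) with ha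
  set b := heckeBetaBar Qb M q (h59_jbar M) with hb
  have haO : a ∈ R1.O := h60_R1_alpha_mem M q hqM A hA hRM ⟨_, hj⟩
  have hbO : b ∈ R1.O := h60_R1_beta_mem M q hqM A hA hRM ⟨_, hj⟩
  have hared : ((R1.redF a : ↥(modularFunctionFieldFullC (IsLocalRing.ResidueField A) M)) :
      LaurentSeries (IsLocalRing.ResidueField A)) = jqModC (IsLocalRing.ResidueField A) := by
    rw [hR1, ha, h60_R1_redF_alpha M q hqM A hA hRM, hjred]
    rfl
  have hbred : ((R1.redF b : ↥(modularFunctionFieldFullC (IsLocalRing.ResidueField A) M)) :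
      LaurentSeries (IsLocalRing.ResidueField A))
      = qExpand (IsLocalRing.ResidueField A) q (jqModC (IsLocalRing.ResidueField A)) := by
    rw [hR1, hb, h60_R1_redF_beta_coe M q hqM A hA hRM, hjred]
    rfl
  -- `y = β j - (α j)^q`, `w y = α j - (β j)^q`
  set y := b - a ^ q with hy
  set y' := a - b ^ q with hy'
  have hyO : y ∈ R1.O := sub_mem hbO (pow_mem haO q)
  have hy'O : y' ∈ R1.O := sub_mem haO (pow_mem hbO q)
  have hwy : w y = y' := by
    rw [hy, hy', map_sub, map_pow, hb, ha, hw, h60_w_beta, h60_w_alpha]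
  have hwy' : w y' = y := by
    rw [← hwy, hw, h60_w_w]
  have hyred : R1.redF y = 0 := by
    apply Subtype.ext
    rw [hy, h39_redF_sub R1 hbO (pow_mem haO q), h39_redF_pow R1 haO]
    push_cast
    rw [hared, hbred, h60_jq_pow, sub_self]
  have hy'red : R1.redF y' ≠ 0 := by
    intro h0
    have h1 : ((R1.redF y' : ↥(modularFunctionFieldFullC (IsLocalRing.ResidueField A) M)) :
        LaurentSeries (IsLocalRing.ResidueField A)) = 0 := by
      rw [h0]
      rfl
    rw [hy', h39_redF_sub R1 haO (pow_mem hbO q), h39_redF_pow R1 hbO] at h1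
    push_cast at h1
    rw [hared, hbred, ← map_pow, h60_jq_pow, sub_eq_zero] at h1
    exact h60_qExpand_ne_jq (IsLocalRing.ResidueField A) q _ h1.symm
  set s := y + y' with hs
  have hsO : s ∈ R1.O := add_mem hyO hy'O
  have hsred : R1.redF s = R1.redF y' := by
    rw [hs, h39_redF_add R1 hyO hy'O, hyred, zero_add]
  have hsne : R1.redF s ≠ 0 := by
    rw [hsred]
    exact hy'red
  obtain ⟨hsinv, hsinvred⟩ := h39_inv_of_redF_ne_zero R1 hsne
  have hws : w s = s := by
    rw [hs, map_add, hwy, hwy', add_comm]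
  refine ⟨y' * s⁻¹, R1.O.mul_mem _ _ hy'O hsinv, ?_, ?_, ?_⟩
  · rw [h60_R2_mem_iff, ← hw, map_mul, map_inv₀, hwy', hws]
    exact R1.O.mul_mem _ _ hyO hsinv
  · rw [h39_redF_mul R1 hy'O hsinv, hsinvred, hsred, mul_inv_cancel₀ hy'red]
  · rw [h60_R2_redF, ← hw, map_mul, map_inv₀, hwy', hws, ← hR1, h39_redF_mul R1 hyO hsinv,
      hyred, zero_mul]

/-- **(SEP')** there is `t ∈ O₁ ∩ O₂` with `red₁ t = 0`, `red₂ t = 1`. -/
theorem h60_exists_sep' :
    ∃ t : ↥(modularFunctionFieldBar (M * q)), t ∈ (h60_R1 M q hqM A hA).O ∧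
      t ∈ (h60_R2 M q hqM A hA).O ∧ (h60_R1 M q hqM A hA).redF t = 0 ∧
      (h60_R2 M q hqM A hA).redF t = 1 := by
  obtain ⟨t, h1, h2, h3, h4⟩ := h60_exists_sep M q hqM A hA
  refine ⟨h60_w M q hqM t, h2, ?_, ?_, ?_⟩
  · rw [h60_R2_mem_iff, h60_w_w]
    exact h1
  · rw [← h60_R2_redF]
    exact h4
  · rw [h60_R2_redF, h60_w_w]
    exact h3

end Sep

section Gal

variable (M q : ℕ) [NeZero M] [NeZero q] [Fact q.Prime] (hqM : ¬ q ∣ M)
  (A : ValuationSubring Qb) (hA : A.LiesOverPrime q)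

/-- **(GAL₁)** inertia at `A` preserves `O₁` and commutes with `red₁`. -/
theorem h60_R1_galois (τ : Qb ≃ₐ[ℚ] Qb) (hτ : τ ∈ A.inertiaSubgroupIn ℚ)
    (f : ↥(modularFunctionFieldBar (M * q))) (hf : f ∈ (h60_R1 M q hqM A hA).O) :
    arithmeticRingAut (modularFunctionFieldFull (M * q)) τ f ∈ (h60_R1 M q hqM A hA).O ∧
      (h60_R1 M q hqM A hA).redF (arithmeticRingAut (modularFunctionFieldFull (M * q)) τ f)
        = (h60_R1 M q hqM A hA).redF f := by
  obtain ⟨sA, hsA, hres⟩ := h87_inertia_lift A τ hτ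
  obtain ⟨y₁, y₂, hy, h⟩ := (h60_R1_mem_iff M q hqM A hA f).mp hf
  have hcomm : ∀ y : LaurentSeries A,
      coeffMap ((τ : Qb ≃ₐ[ℚ] Qb) : Qb →+* Qb) (coeffMap A.subtype y)
        = coeffMap A.subtype (coeffMap sA y) := by
    intro y
    rw [coeffMap_coeffMap, coeffMap_coeffMap]
    exact coeffMap_congr (RingHom.ext fun a => (hsA a).symm) y
  have hresid : ∀ y : LaurentSeries A,
      coeffMap (IsLocalRing.residue A) (coeffMap sA y) = coeffMap (IsLocalRing.residue A) y := by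
    intro y
    rw [coeffMap_coeffMap]
    exact coeffMap_congr (RingHom.ext fun a => hres a) y
  have h' : ((arithmeticRingAut (modularFunctionFieldFull (M * q)) τ f :
      ↥(modularFunctionFieldBar (M * q))) : LaurentSeries Qb) * coeffMap A.subtype (coeffMap sA y₂)
      = coeffMap A.subtype (coeffMap sA y₁) := by
    rw [coe_arithmeticRingAut_apply, ← hcomm, ← hcomm, ← map_mul, h]
  have hy' : coeffMap (IsLocalRing.residue A) (coeffMap sA y₂) ≠ 0 := by
    rw [hresid]
    exact hy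
  have hmem : arithmeticRingAut (modularFunctionFieldFull (M * q)) τ f
      ∈ (h60_R1 M q hqM A hA).O :=
    (h60_R1_mem_iff M q hqM A hA _).mpr ⟨coeffMap sA y₁, coeffMap sA y₂, hy', h'⟩
  refine ⟨hmem, ?_⟩
  rw [(h60_R1 M q hqM A hA).redF_of_mem hmem, (h60_R1 M q hqM A hA).redF_of_mem hf]
  apply Subtype.ext
  have e1 := h60_R1_red_eq M q hqM A hA _ hmem _ _ h'
  have e2 := h60_R1_red_eq M q hqM A hA f hf y₁ y₂ h
  rw [hresid, hresid] at e1
  exact mul_right_cancel₀ hy (e1.trans e2.symm)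

/-- **(GAL₂)** inertia at `A` preserves `O₂` and commutes with `red₂`. -/
theorem h60_R2_galois (τ : Qb ≃ₐ[ℚ] Qb) (hτ : τ ∈ A.inertiaSubgroupIn ℚ)
    (f : ↥(modularFunctionFieldBar (M * q))) (hf : f ∈ (h60_R2 M q hqM A hA).O) :
    arithmeticRingAut (modularFunctionFieldFull (M * q)) τ f ∈ (h60_R2 M q hqM A hA).O ∧
      (h60_R2 M q hqM A hA).redF (arithmeticRingAut (modularFunctionFieldFull (M * q)) τ f)
        = (h60_R2 M q hqM A hA).redF f := by
  have h1 := h60_R1_galois M q hqM A hA τ hτ (h60_w M q hqM f)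
    ((h60_R2_mem_iff M q hqM A hA f).mp hf)
  rw [← h60_w_galois] at h1
  refine ⟨(h60_R2_mem_iff M q hqM A hA _).mpr h1.1, ?_⟩
  rw [h60_R2_redF, h60_R2_redF]
  exact h1.2

/-- The pair `![R₁, R₂]`. -/
def h60_pair : Fin 2 → h39_RedDatum Qb ↥(modularFunctionFieldBar (M * q))
    (IsLocalRing.ResidueField A) ↥(modularFunctionFieldFullC (IsLocalRing.ResidueField A) M) :=
  ![h60_R1 M q hqM A hA, h60_R2 M q hqM A hA]

theorem h60_pair_zero : h60_pair M q hqM A hA 0 = h60_R1 M q hqM A hA := rfl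

theorem h60_pair_one : h60_pair M q hqM A hA 1 = h60_R2 M q hqM A hA := rfl

/-- The hypotheses of `h87_unipGeom_of_family` (constants, separation, inertia) for the pair. -/
theorem h60_pair_spec :
    (∀ i, (h60_pair M q hqM A hA i).A = A) ∧
    (∀ i, ∃ t : ↥(modularFunctionFieldBar (M * q)), (∀ j, t ∈ (h60_pair M q hqM A hA j).O) ∧
      (h60_pair M q hqM A hA i).redF t = 1 ∧
      ∀ j, j ≠ i → (h60_pair M q hqM A hA j).redF t = 0) ∧
    (∀ τ ∈ A.inertiaSubgroupIn ℚ, ∀ i (f : ↥(modularFunctionFieldBar (M * q))),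
      f ∈ (h60_pair M q hqM A hA i).O →
      arithmeticRingAut (modularFunctionFieldFull (M * q)) τ f ∈ (h60_pair M q hqM A hA i).O ∧
      (h60_pair M q hqM A hA i).redF (arithmeticRingAut (modularFunctionFieldFull (M * q)) τ f)
        = (h60_pair M q hqM A hA i).redF f) := by
  refine ⟨?_, ?_, ?_⟩
  · intro i
    fin_cases i
    · exact h60_R1_A M q hqM A hA
    · exact h60_R2_A M q hqM A hA
  · intro i
    fin_cases i
    · obtain ⟨t, h1, h2, h3, h4⟩ := h60_exists_sep M q hqM A hA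
      refine ⟨t, ?_, h3, ?_⟩
      · intro j
        fin_cases j
        · exact h1
        · exact h2
      · intro j hj
        fin_cases j
        · exact absurd rfl hj
        · exact h4
    · obtain ⟨t, h1, h2, h3, h4⟩ := h60_exists_sep' M q hqM A hA
      refine ⟨t, ?_, h4, ?_⟩
      · intro j
        fin_cases j
        · exact h1
        · exact h2
      · intro j hj
        fin_cases j
        · exact h3
        · exact absurd rfl hj
  · intro τ hτ i f hf
    fin_cases i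
    · exact h60_R1_galois M q hqM A hA τ hτ f hf
    · exact h60_R2_galois M q hqM A hA τ hτ f hf

end Gal

end Fermat.Agent.S34

end
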