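import Mathlib
import Fermat.Prelude.Def_AlgebraicCurve_BaseChangeGalois

/-!
# S34: toric classes and the free inclusion `(g - 1) J[m] ⊆ T`

Generic (no modular input).  `K` a field, `F` a function field over `K` in the prelude's language
(`Place K F`, `Divisor K F`, `Pic0 K F`, `SemilinearAut K F`), and a finite family of valuation
rings `O i` of `F` with residue maps `red i : O i →+* κ i`.

* `h87_IsToric O red m y` : the class `y` has a representative `E` and a function `u` with
  `div u = m E` such that `u` lies in every `O i` with reduction `1` (the "toric" classes: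
  `T` of R63, `Y1` of R85, normalised to reduction `(1, …, 1)`);
* `h87_RedStable O red g` : the semilinear automorphism `g` preserves every `O i`, acts trivially
  on the reductions and does not change the size of a constant ("`g` is an inertia element");
* `h87_toric_of_torsion` : the free inclusion: for `m • x = 0` the class `g • x - x` is toric;
* `h87_unip_of_toric` : if `g'` fixes every toric class then `g' • (g • x - x) = g • x - x` on
  `m`-torsion;
* `h87_toric_fixed_of_principal` : the target of the geometric endgames in divisor language.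
-/

set_option autoImplicit false

noncomputable section

open AlgebraicCurve

namespace Fermat.Agent.S34

variable {K F : Type*} [Field K] [Field F] [Algebra K F]
variable {ι : Type*} {κ : ι → Type*} [∀ i, Field (κ i)]

/-- Toric classes: `y = [E]`, `m E = div u`, and `u` reduces to `1` at every `O i`. -/
def h87_IsToric (O : ι → ValuationSubring F) (red : ∀ i, O i →+* κ i) (m : ℕ)
    (y : Pic0 K F) : Prop :=
  ∃ (E : Divisor.degZero (K := K) (F := F)) (u : F), u ≠ 0 ∧ Pic0.mk E = y ∧
    (∀ v : Place K F, (m : ℤ) * (E : Divisor K F) v = v.ord u) ∧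
    ∀ i, ∃ h : u ∈ O i, red i ⟨u, h⟩ = 1

/-- `g` behaves like an inertia element with respect to the reductions `red i`. -/
structure h87_RedStable (O : ι → ValuationSubring F) (red : ∀ i, O i →+* κ i)
    (g : SemilinearAut K F) : Prop where
  mem : ∀ i (f : F), f ∈ O i → g • f ∈ O i
  red_eq : ∀ i (f : F) (h : f ∈ O i) (h' : g • f ∈ O i), red i ⟨g • f, h'⟩ = red i ⟨f, h⟩
  cst : ∀ i (c : K), c ≠ 0 → algebraMap K F (SemilinearAut.baseAut g c * c⁻¹) ∈ O i

section helpers

variable (O : ι → ValuationSubring F) (red : ∀ i, O i →+* κ i)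

/-- An element of `O i` with an inverse in `O i` has nonzero reduction. -/
theorem h87_red_ne_zero {i : ι} {f : F} (h : f ∈ O i) (h' : f⁻¹ ∈ O i) (hf : f ≠ 0) :
    red i ⟨f, h⟩ ≠ 0 := by
  intro h0
  have h1 : red i (⟨f, h⟩ * ⟨f⁻¹, h'⟩) = 1 := by
    have : (⟨f, h⟩ * ⟨f⁻¹, h'⟩ : O i) = 1 := Subtype.ext (by simp [hf])
    rw [this, map_one]
  rw [map_mul, h0, zero_mul] at h1
  exact zero_ne_one h1

/-- `m`-th roots of elements of `O i` whose inverse is in `O i` are in `O i`, with their
inverse. -/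
theorem h87_root_mem {i : ι} {m : ℕ} (hm : m ≠ 0) {a d : F} (hd : d ^ m = a)
    (h : a ∈ O i) (h' : a⁻¹ ∈ O i) (ha : a ≠ 0) : d ∈ O i ∧ d⁻¹ ∈ O i := by
  have hv : (O i).valuation a = 1 := by
    have h1 : (O i).valuation a ≤ 1 := (ValuationSubring.valuation_le_one_iff _ _).mpr h
    have h2 : (O i).valuation a⁻¹ ≤ 1 := (ValuationSubring.valuation_le_one_iff _ _).mpr h'
    rw [map_inv₀] at h2
    have h3 : (O i).valuation a ≠ 0 := (Valuation.ne_zero_iff _).mpr ha
    have h4 : 1 ≤ (O i).valuation a := by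
      have := (inv_le_one₀ (zero_lt_iff.mpr h3)).mp h2
      exact this
    exact le_antisymm h1 h4
  have hvd : (O i).valuation d = 1 := by
    have h1 : (O i).valuation d ^ m = 1 := by rw [← map_pow, hd, hv]
    exact (pow_eq_one_iff_of_nonneg zero_le hm).mp h1
  refine ⟨(ValuationSubring.valuation_le_one_iff _ _).mp hvd.le, ?_⟩
  refine (ValuationSubring.valuation_le_one_iff _ _).mp ?_
  rw [map_inv₀, hvd, inv_one]

end helpers

/-- **Free inclusion.**  For `m • x = 0` and an inertia-like `g`, the class `g • x - x` is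
toric. -/
theorem h87_toric_of_torsion [Fintype ι] [Nonempty ι] [HasPrincipalDivisors K F]
    (O : ι → ValuationSubring F) (red : ∀ i, O i →+* κ i) (m : ℕ) (hm : m ≠ 0)
    (hscale : ∀ i (f : F), f ≠ 0 → ∃ c : K, c ≠ 0 ∧ algebraMap K F c * f ∈ O i ∧
      (algebraMap K F c * f)⁻¹ ∈ O i)
    (hsep : ∀ i, ∃ t : F, ∃ ht : ∀ j, t ∈ O j, red i ⟨t, ht i⟩ = 1 ∧
      ∀ j, j ≠ i → red j ⟨t, ht j⟩ = 0)
    (hroot : ∀ c : K, ∃ d : K, d ^ m = c)
    (g : SemilinearAut K F) (hg : h87_RedStable O red g)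
    (x : Pic0 K F) (hx : (m : ℤ) • x = 0) :
    h87_IsToric O red m (g • x - x) := by
  classical
  obtain ⟨D, rfl⟩ := Pic0.mk_surjective x
  -- the Kummer function of `D`
  have hprin : ((m : ℤ) • D : Divisor.degZero (K := K) (F := F)) ∈
      (Divisor.principal (K := K) (F := F)).addSubgroupOf (Divisor.degZero (K := K) (F := F)) := by
    have h0 : Pic0.mk ((m : ℤ) • D) = 0 := hx
    exact (QuotientAddGroup.eq_zero_iff _).mp h0
  obtain ⟨f, hf, hfD⟩ := hprin
  have hfD' : ∀ v : Place K F, (m : ℤ) * (D : Divisor K F) v = v.ord f := by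
    intro v
    have := hfD v
    simpa using this
  have hgf : g • f ≠ 0 := by simpa using hf
  set u₀ : F := g • f * f⁻¹ with hu₀
  have hu₀ne : u₀ ≠ 0 := mul_ne_zero hgf (inv_ne_zero hf)
  have hordu₀ : ∀ v : Place K F,
      v.ord u₀ = (m : ℤ) * ((g • (D : Divisor K F)) v - (D : Divisor K F) v) := by
    intro v
    rw [hu₀, v.ord_mul hgf (inv_ne_zero hf), v.ord_inv]
    have h1 := SemilinearAut.ord_smul g (g⁻¹ • v) f
    rw [smul_inv_smul] at h1
    rw [h1, ← hfD' (g⁻¹ • v), ← hfD' v, SemilinearAut.divisor_smul_apply]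
    ring
  -- scaling constants
  choose c hc hcf hcf' using fun i => hscale i f hf
  -- γ i = g c / c
  set γ : ι → K := fun i => SemilinearAut.baseAut g (c i) * (c i)⁻¹ with hγ
  have hγne : ∀ i, γ i ≠ 0 := fun i =>
    mul_ne_zero ((map_ne_zero _).mpr (hc i)) (inv_ne_zero (hc i))
  have hγmem : ∀ i j, algebraMap K F (γ i) ∈ O j := fun i j => hg.cst j (c i) (hc i)
  have hγinv : ∀ i j, (algebraMap K F (γ i))⁻¹ ∈ O j := by
    intro i j
    have h1 := hg.cst j (c i)⁻¹ (inv_ne_zero (hc i))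
    have h2 : SemilinearAut.baseAut g (c i)⁻¹ * ((c i)⁻¹)⁻¹ = (γ i)⁻¹ := by
      rw [hγ]
      simp only [map_inv₀, mul_inv_rev, inv_inv]
      rw [mul_comm]
    rw [h2, map_inv₀] at h1
    exact h1
  -- γ i * u₀ reduces to 1 at i
  have hγu : ∀ i, ∃ h : algebraMap K F (γ i) * u₀ ∈ O i,
      red i ⟨algebraMap K F (γ i) * u₀, h⟩ = 1 := by
    intro i
    have hmem1 : g • (algebraMap K F (c i) * f) ∈ O i := hg.mem i _ (hcf i)
    have hred1 := hg.red_eq i _ (hcf i) hmem1
    have hcfne : algebraMap K F (c i) * f ≠ 0 :=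
      mul_ne_zero ((map_ne_zero _).mpr (hc i)) hf
    have hEq : algebraMap K F (γ i) * u₀ =
        g • (algebraMap K F (c i) * f) * (algebraMap K F (c i) * f)⁻¹ := by
      rw [smul_mul', SemilinearAut.smul_algebraMap, hu₀, hγ]
      simp only [map_mul, map_inv₀]
      have hci : algebraMap K F (c i) ≠ 0 := (map_ne_zero _).mpr (hc i)
      field_simp
    have hmem : algebraMap K F (γ i) * u₀ ∈ O i := by
      rw [hEq]
      exact (O i).mul_mem _ _ hmem1 (hcf' i)
    refine ⟨hmem, ?_⟩
    have hsub : (⟨algebraMap K F (γ i) * u₀, hmem⟩ : O i) =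
        ⟨g • (algebraMap K F (c i) * f), hmem1⟩ * ⟨(algebraMap K F (c i) * f)⁻¹, hcf' i⟩ :=
      Subtype.ext hEq
    rw [hsub, map_mul, hred1, ← map_mul]
    have : (⟨algebraMap K F (c i) * f, hcf i⟩ * ⟨(algebraMap K F (c i) * f)⁻¹, hcf' i⟩ : O i)
        = 1 := Subtype.ext (by simpa using mul_inv_cancel₀ hcfne)
    rw [this, map_one]
  -- m-th roots
  choose d hd using fun i => hroot (γ i)
  have hdF : ∀ i, (algebraMap K F (d i)) ^ m = algebraMap K F (γ i) := fun i => by
    rw [← map_pow, hd i]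
  have hγFne : ∀ i, algebraMap K F (γ i) ≠ 0 := fun i => (map_ne_zero _).mpr (hγne i)
  have hdmem : ∀ i j, algebraMap K F (d i) ∈ O j := fun i j =>
    (h87_root_mem O hm (hdF i) (hγmem i j) (hγinv i j) (hγFne i)).1
  -- separating elements
  choose t ht ht1 ht0 using hsep
  set G : F := ∑ i, algebraMap K F (d i) * t i with hG
  have hGmem : ∀ j, G ∈ O j := fun j =>
    (O j).toSubring.sum_mem fun i _ => (O j).mul_mem _ _ (hdmem i j) (ht i j)
  have hGred : ∀ j, red j ⟨G, hGmem j⟩ = red j ⟨algebraMap K F (d j), hdmem j j⟩ := by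
    intro j
    have hsum : (⟨G, hGmem j⟩ : O j) =
        ∑ i, (⟨algebraMap K F (d i), hdmem i j⟩ : O j) * ⟨t i, ht i j⟩ := by
      apply Subtype.ext
      show G = (O j).subtype (∑ i, (⟨algebraMap K F (d i), hdmem i j⟩ : O j) * ⟨t i, ht i j⟩)
      rw [map_sum, hG]
      exact Finset.sum_congr rfl (fun i _ => rfl)
    rw [hsum, map_sum, Finset.sum_eq_single j]
    · rw [map_mul, ht1 j, mul_one]
    · intro i _ hij
      rw [map_mul, ht0 i j (Ne.symm hij), mul_zero]
    · intro h
      exact absurd (Finset.mem_univ j) h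
  have hGm : ∀ j, red j (⟨G, hGmem j⟩ ^ m) = red j ⟨algebraMap K F (γ j), hγmem j j⟩ := by
    intro j
    rw [map_pow, hGred j, ← map_pow]
    congr 1
    exact Subtype.ext (hdF j)
  have hGne : G ≠ 0 := by
    obtain ⟨j⟩ := ‹Nonempty ι›
    intro h0
    have h1 := hGm j
    have h2 : (⟨G, hGmem j⟩ : O j) = 0 := Subtype.ext h0
    rw [h2, zero_pow hm, map_zero] at h1
    exact h87_red_ne_zero O red (hγmem j j) (hγinv j j) (hγFne j) h1.symm
  -- the divisor of `G`
  obtain ⟨DG, hDG, hDGdeg⟩ := HasPrincipalDivisors.exists_divisor (K := K) G hGne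
  have hEdeg : g • (D : Divisor K F) - (D : Divisor K F) + DG ∈
      Divisor.degZero (K := K) (F := F) := by
    rw [Divisor.mem_degZero, map_add, map_sub, SemilinearAut.degree_smul, hDGdeg]
    simp
  refine ⟨⟨g • (D : Divisor K F) - (D : Divisor K F) + DG, hEdeg⟩, u₀ * G ^ m,
    mul_ne_zero hu₀ne (pow_ne_zero m hGne), ?_, ?_, ?_⟩
  · -- the class
    rw [SemilinearAut.pic0_smul_mk]
    show Pic0.mk _ = Pic0.mk (SemilinearAut.degZeroSMulHom g D - D)
    refine (QuotientAddGroup.eq).mpr ?_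
    refine ⟨G⁻¹, inv_ne_zero hGne, fun v => ?_⟩
    rw [v.ord_inv, ← hDG v]
    simp
    ring
  · -- the divisor of `u`
    intro v
    rw [v.ord_mul hu₀ne (pow_ne_zero m hGne), hordu₀ v]
    have hpow : v.ord (G ^ m) = (m : ℤ) * v.ord G := by
      have := v.ord_zpow G (m : ℤ)
      simpa using this
    rw [hpow, ← hDG v]
    simp only [Finsupp.coe_add, Finsupp.coe_sub, Pi.add_apply, Pi.sub_apply]
    ring
  · -- reductions
    intro i
    obtain ⟨h1, h1r⟩ := hγu i
    have hEq : u₀ * G ^ m =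
        (algebraMap K F (γ i) * u₀) * (G ^ m * (algebraMap K F (γ i))⁻¹) := by
      have := hγFne i
      field_simp
    have hmem2 : G ^ m * (algebraMap K F (γ i))⁻¹ ∈ O i :=
      (O i).mul_mem _ _ ((O i).pow_mem (hGmem i) m) (hγinv i i)
    have hmem : u₀ * G ^ m ∈ O i := by
      rw [hEq]
      exact (O i).mul_mem _ _ h1 hmem2
    refine ⟨hmem, ?_⟩
    have hsub : (⟨u₀ * G ^ m, hmem⟩ : O i) =
        ⟨algebraMap K F (γ i) * u₀, h1⟩ *
          (⟨G, hGmem i⟩ ^ m * ⟨(algebraMap K F (γ i))⁻¹, hγinv i i⟩) :=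
      Subtype.ext hEq
    rw [hsub, map_mul, h1r, one_mul, map_mul, hGm i, ← map_mul]
    have : (⟨algebraMap K F (γ i), hγmem i i⟩ * ⟨(algebraMap K F (γ i))⁻¹, hγinv i i⟩ : O i)
        = 1 := Subtype.ext (by simp [hγFne i])
    rw [this, map_one]

/-- If `g'` fixes every toric class, then `(g' - 1)(g - 1) = 0` on `m`-torsion. -/
theorem h87_unip_of_toric [Fintype ι] [Nonempty ι] [HasPrincipalDivisors K F]
    (O : ι → ValuationSubring F) (red : ∀ i, O i →+* κ i) (m : ℕ) (hm : m ≠ 0)
    (hscale : ∀ i (f : F), f ≠ 0 → ∃ c : K, c ≠ 0 ∧ algebraMap K F c * f ∈ O i ∧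
      (algebraMap K F c * f)⁻¹ ∈ O i)
    (hsep : ∀ i, ∃ t : F, ∃ ht : ∀ j, t ∈ O j, red i ⟨t, ht i⟩ = 1 ∧
      ∀ j, j ≠ i → red j ⟨t, ht j⟩ = 0)
    (hroot : ∀ c : K, ∃ d : K, d ^ m = c)
    (g g' : SemilinearAut K F) (hg : h87_RedStable O red g)
    (hfix : ∀ y : Pic0 K F, h87_IsToric O red m y → g' • y = y)
    (x : Pic0 K F) (hx : (m : ℤ) • x = 0) :
    g' • (g • x - x) = g • x - x :=
  hfix _ (h87_toric_of_torsion O red m hm hscale hsep hroot g hg x hx)

/-- The target of the geometric endgames, in divisor language: if for every toric datum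
`(E, u)` the divisor `g' • E - E` is principal, then `g'` fixes every toric class. -/
theorem h87_toric_fixed_of_principal
    (O : ι → ValuationSubring F) (red : ∀ i, O i →+* κ i) (m : ℕ) (g' : SemilinearAut K F)
    (hG : ∀ (E : Divisor K F) (u : F), Divisor.degree E = 0 → u ≠ 0 →
      (∀ v : Place K F, (m : ℤ) * E v = v.ord u) →
      (∀ i, ∃ h : u ∈ O i, red i ⟨u, h⟩ = 1) →
      g' • E - E ∈ Divisor.principal (K := K) (F := F))
    (y : Pic0 K F) (hy : h87_IsToric O red m y) : g' • y = y := by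
  obtain ⟨E, u, hu, rfl, hdiv, hred⟩ := hy
  rw [SemilinearAut.pic0_smul_mk]
  refine (QuotientAddGroup.eq).mpr ?_
  have h := hG (E : Divisor K F) u E.2 hu hdiv hred
  have h' := (Divisor.principal (K := K) (F := F)).neg_mem h
  show (-(SemilinearAut.degZeroSMulHom g' E) + E : Divisor.degZero (K := K) (F := F)) ∈
    (Divisor.principal (K := K) (F := F)).addSubgroupOf (Divisor.degZero (K := K) (F := F))
  rw [AddSubgroup.mem_addSubgroupOf]
  have hcoe : ((-(SemilinearAut.degZeroSMulHom g' E) + E : Divisor.degZero (K := K) (F := F)) :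
      Divisor K F) = -(g' • (E : Divisor K F) - (E : Divisor K F)) := by
    simp only [AddSubgroup.coe_add, NegMemClass.coe_neg, SemilinearAut.coe_degZeroSMulHom]
    abel
  rw [hcoe]
  exact h'

end Fermat.Agent.S34

end
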