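import Mathlib
import Fermat.Prelude.Def_CuspForm_HeckeGaloisRepDatum
import Fermat.Prelude.Def_GaloisRep_LocalConditions
import Fermat.Agent.GAL.h65_S31Core2

/-!
# S34: the endgame as an abstract theorem

`h29_S34_of_levelsU`: the frozen statement S34 (`H.ρ` has unipotent inertia at a prime `q ≠ p`)
follows from

* a finite free `ℤ`-module `Λ` with a faithful action `ι` of the Hecke algebra,
* for every `n` a weak level in the sense of the S31 endgame (`h65_HasLevelW` without its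
  inertia clause): a Galois module `M` killed by `p ^ n` (think `M = J₀(N)[p ^ n]`), an additive
  map `qM : Λ → M` with kernel `p ^ n Λ` intertwining the Hecke operators, open stabilisers,
  Eichler–Shimura at Frobenius elements outside `S`, and the ONE extra clause
  (UNIP) `(τ - 1)² = 0` on the image of `qM`, for `τ` in an inertia group at `q`
  (`h29_HasLevelU`),
* the weak Chebotarev statement `h65_WCheb`.

Proof.  The Chebotarev fact `h29_fact` attaches to every Galois element `g` and every `n` a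
Hecke element `D` and a natural number `a` with `tr ρ(g) ≡ π(D)`, `det ρ(g) ≡ a` modulo `𝔪 ^ n`,
`g ζ = ζ ^ a` on the `p ^ n`-th roots of unity, and `qM (D x) = (g + a g⁻¹) (qM x)`.  For
`g = τ` in inertia at `q ≠ p` we get `a ≡ 1` modulo `p ^ n`, and (UNIP) gives `τ + τ⁻¹ = 2`
on the image of `qM`, so `D - 2` kills `Λ / p ^ n` and the saturation lemma gives
`tr ρ(τ) ≡ 2`; also `det ρ(τ) ≡ 1`.  Hence the characteristic polynomial is `(X - 1) ^ 2`.
No division by `2` occurs: `p = 2` is allowed.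
-/

set_option autoImplicit false

open Polynomial

namespace Fermat.Agent.S34

open Fermat.Agent.GAL

/-- A weak level `n` structure on the Hecke lattice `(Λ, ι)` with unipotent inertia at `q`:
the clauses (KER), (TORS), (STAB), (HECKE), (ES) of `h65_HasLevelW` and
(UNIP) `τ² + 1 = τ + τ` on the image of `qM`, for every `τ` in an inertia group at `q`. -/
def h29_HasLevelU (p N : ℕ) [NeZero N] (S : Finset ℕ) {Λ : Type} [AddCommGroup Λ]
    (ι : CuspForm.heckeAlgebra N 2 (↑S : Set ℕ) →+* Module.End ℤ Λ) (q n : ℕ) : Prop :=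
  ∃ (M : Type) (_ : AddCommGroup M) (qM : Λ →+ M)
    (r : (AlgebraicClosure ℚ ≃ₐ[ℚ] AlgebraicClosure ℚ) →* AddMonoid.End M)
    (tM : Nat.Primes → M →+ M),
    (∀ x : Λ, qM x = 0 → ∃ y : Λ, x = (p ^ n : ℤ) • y) ∧
    (∀ m : M, p ^ n • m = 0) ∧
    (∀ x : Λ, ∃ L : IntermediateField ℚ (AlgebraicClosure ℚ), FiniteDimensional ℚ L ∧
      ∀ σ : AlgebraicClosure ℚ ≃ₐ[ℚ] AlgebraicClosure ℚ, (∀ y ∈ L, σ y = y) →
        r σ (qM x) = qM x) ∧
    (∀ (ℓ : ℕ) (hℓ : ℓ.Prime) (hℓN : ¬ ℓ ∣ N) (hℓS : ℓ ∉ (↑S : Set ℕ)) (x : Λ),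
      qM (ι (CuspForm.heckeAlgebra.T hℓ hℓN hℓS) x) = tM ⟨ℓ, hℓ⟩ (qM x)) ∧
    (∀ (ℓ : ℕ) (hℓ : ℓ.Prime), ¬ ℓ ∣ N → ℓ ∉ (↑S : Set ℕ) →
      ∀ A : ValuationSubring (AlgebraicClosure ℚ), A.LiesOverPrime ℓ →
      ∀ σ : AlgebraicClosure ℚ ≃ₐ[ℚ] AlgebraicClosure ℚ, A.IsFrobeniusAt σ ℓ →
        ∀ m : M, r σ (r σ m) + ℓ • m = tM ⟨ℓ, hℓ⟩ (r σ m)) ∧
    (∀ A : ValuationSubring (AlgebraicClosure ℚ), A.LiesOverPrime q →
      ∀ τ ∈ A.inertiaSubgroupIn ℚ, ∀ x : Λ,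
        r τ (r τ (qM x)) + qM x = r τ (qM x) + r τ (qM x))

section linalg

variable {T : Type*} [CommRing T] {V : Type*} [AddCommGroup V] [Module T V] [Module.Free T V]
  [Module.Finite T V]

/-- The determinant of an endomorphism congruent to the identity modulo `I` is congruent
to `1` modulo `I`. -/
theorem h29_det_sub_one_mem (I : Ideal T) (f : Module.End T V)
    (h : ∀ v, f v - v ∈ I • (⊤ : Submodule T V)) : LinearMap.det f - 1 ∈ I := by
  classical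
  let b := Module.Free.chooseBasis T V
  have key : ∀ w ∈ I • (⊤ : Submodule T V), ∀ i, b.repr w i ∈ I := by
    intro w hw i
    refine Submodule.smul_induction_on hw ?_ ?_
    · intro a ha v _
      rw [map_smul, Finsupp.smul_apply, smul_eq_mul]
      exact I.mul_mem_right _ ha
    · intro x y hx hy
      rw [map_add, Finsupp.add_apply]
      exact I.add_mem hx hy
  have hmat : (Ideal.Quotient.mk I).mapMatrix (LinearMap.toMatrix b b f) = 1 := by
    ext i j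
    rw [RingHom.mapMatrix_apply, Matrix.map_apply, LinearMap.toMatrix_apply, Matrix.one_apply]
    have h1 := key _ (h (b j)) i
    rw [map_sub, Finsupp.sub_apply, Module.Basis.repr_self, Finsupp.single_apply] at h1
    have h2 := (Ideal.Quotient.eq).2 h1
    rw [h2]
    by_cases hij : i = j
    · rw [if_pos hij, if_pos hij.symm, map_one]
    · rw [if_neg hij, if_neg (fun h' => hij h'.symm), map_zero]
  have h3 : Ideal.Quotient.mk I (LinearMap.det f) = 1 := by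
    rw [← LinearMap.det_toMatrix b f, RingHom.map_det, hmat, Matrix.det_one]
  have h4 : Ideal.Quotient.mk I (LinearMap.det f - 1) = 0 := by
    rw [map_sub, h3, map_one, sub_self]
  exact Ideal.Quotient.eq_zero_iff_mem.1 h4

/-- The characteristic polynomial of an endomorphism of a free module of rank two. -/
theorem h29_charpoly_rank_two [Nontrivial T] (hV : Module.finrank T V = 2)
    (f : Module.End T V) :
    f.charpoly = X ^ 2 - C (LinearMap.trace T V f) * X + C (LinearMap.det f) := by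
  classical
  let b : Module.Basis (Fin 2) T V := Module.finBasisOfFinrankEq T V hV
  rw [← LinearMap.charpoly_toMatrix f b, Matrix.charpoly_fin_two,
    ← LinearMap.trace_eq_matrix_trace T b, LinearMap.det_toMatrix]

/-- The determinant read off the characteristic polynomial in rank two. -/
theorem h29_det_of_charpoly [Nontrivial T] (hV : Module.finrank T V = 2)
    (f : Module.End T V) (t d : T) (h : f.charpoly = X ^ 2 - C t * X + C d) :
    LinearMap.det f = d := by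
  have h1 := h29_charpoly_rank_two hV f
  rw [h] at h1
  have h2 := congrArg (fun P : T[X] => P.coeff 0) h1
  simp only [coeff_add, coeff_sub, coeff_C_zero, coeff_X_pow, coeff_mul_X_zero] at h2
  simpa using h2.symm

end linalg

section adic

variable {T : Type} [CommRing T] [IsLocalRing T]

/-- Two Galois elements agreeing on the level-`n` field have congruent determinants. -/
theorem h29_det_congr (ρ : GaloisRepAdic T) (n : ℕ)
    (L : IntermediateField ℚ (AlgebraicClosure ℚ))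
    (hL : ∀ σ : AlgebraicClosure ℚ ≃ₐ[ℚ] AlgebraicClosure ℚ, (∀ x ∈ L, σ x = x) →
      ∀ v : ρ.V, ρ.ρ σ v - v ∈ (IsLocalRing.maximalIdeal T ^ n) • (⊤ : Submodule T ρ.V))
    (g h : AlgebraicClosure ℚ ≃ₐ[ℚ] AlgebraicClosure ℚ) (hgh : ∀ x ∈ L, h x = g x) :
    LinearMap.det (ρ.ρ g) - LinearMap.det (ρ.ρ h) ∈ IsLocalRing.maximalIdeal T ^ n := by
  have hu : ∀ x ∈ L, (h⁻¹ * g) x = x := by
    intro x hx
    show h⁻¹ (g x) = x
    rw [← hgh x hx]
    exact h.symm_apply_apply x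
  have e : ρ.ρ g = ρ.ρ h * ρ.ρ (h⁻¹ * g) := by rw [← map_mul, mul_inv_cancel_left]
  have e2 : LinearMap.det (ρ.ρ g) - LinearMap.det (ρ.ρ h) =
      LinearMap.det (ρ.ρ h) * (LinearMap.det (ρ.ρ (h⁻¹ * g)) - 1) := by
    rw [e, map_mul]
    ring
  rw [e2]
  exact Ideal.mul_mem_left _ _ (h29_det_sub_one_mem _ _ (hL _ hu))

end adic

section fact

variable {p : ℕ} {N : ℕ} [NeZero N] {S : Finset ℕ}
  {𝒪 : Type} [CommRing 𝒪] [IsDomain 𝒪] [IsDiscreteValuationRing 𝒪]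
  [IsAdicComplete (IsLocalRing.maximalIdeal 𝒪) 𝒪]
  {θ : CuspForm.heckeAlgebra N 2 (↑S : Set ℕ) →+* IsLocalRing.ResidueField 𝒪}
  {T : Type} [CommRing T] [IsLocalRing T] [IsNoetherianRing T]
  [IsAdicComplete (IsLocalRing.maximalIdeal T) T] [Algebra 𝒪 T] [IsLocalHom (algebraMap 𝒪 T)]
  [Module.Finite 𝒪 T] [Module.Free 𝒪 T]

/-- **The Chebotarev fact**, with the determinant.  For a weak level module `M` (clauses
(STAB), (HECKE), (ES)) and a primitive `p ^ n`-th root of unity `ζ`, every Galois element `g`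
has a Hecke element `D` and `a : ℕ` with `tr ρ(g) ≡ π D` and `det ρ(g) ≡ a` modulo `𝔪 ^ n`,
`qM (D x) = g (qM x) + a • g⁻¹ (qM x)` and `g ζ = ζ ^ a`. -/
theorem h29_fact (hp : p.Prime) (hpS : p ∈ S)
    (hNS : ∀ q : ℕ, q.Prime → q ∣ N → q ∈ S)
    (H : CuspForm.HeckeGaloisRepDatum N (↑S : Set ℕ) 𝒪 θ T)
    {Λ : Type} [AddCommGroup Λ] [Module.Free ℤ Λ] [Module.Finite ℤ Λ]
    (ι : CuspForm.heckeAlgebra N 2 (↑S : Set ℕ) →+* Module.End ℤ Λ)
    (hcheb : h65_WCheb) (n : ℕ)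
    {M : Type} [AddCommGroup M] (qM : Λ →+ M)
    (r : (AlgebraicClosure ℚ ≃ₐ[ℚ] AlgebraicClosure ℚ) →* AddMonoid.End M)
    (tM : Nat.Primes → M →+ M)
    (hstab : ∀ x : Λ, ∃ L : IntermediateField ℚ (AlgebraicClosure ℚ), FiniteDimensional ℚ L ∧
      ∀ σ : AlgebraicClosure ℚ ≃ₐ[ℚ] AlgebraicClosure ℚ, (∀ y ∈ L, σ y = y) →
        r σ (qM x) = qM x)
    (hhecke : ∀ (ℓ : ℕ) (hℓ : ℓ.Prime) (hℓN : ¬ ℓ ∣ N) (hℓS : ℓ ∉ (↑S : Set ℕ)) (x : Λ),
      qM (ι (CuspForm.heckeAlgebra.T hℓ hℓN hℓS) x) = tM ⟨ℓ, hℓ⟩ (qM x))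
    (hfrob : ∀ (ℓ : ℕ) (hℓ : ℓ.Prime), ¬ ℓ ∣ N → ℓ ∉ (↑S : Set ℕ) →
      ∀ A : ValuationSubring (AlgebraicClosure ℚ), A.LiesOverPrime ℓ →
      ∀ σ : AlgebraicClosure ℚ ≃ₐ[ℚ] AlgebraicClosure ℚ, A.IsFrobeniusAt σ ℓ →
        ∀ m : M, r σ (r σ m) + ℓ • m = tM ⟨ℓ, hℓ⟩ (r σ m))
    (ζ : AlgebraicClosure ℚ) (hζ : ζ ^ p ^ n = 1)
    (g : AlgebraicClosure ℚ ≃ₐ[ℚ] AlgebraicClosure ℚ) :
    ∃ (D : CuspForm.heckeAlgebra N 2 (↑S : Set ℕ)) (a : ℕ),
      LinearMap.trace T H.ρ.V (H.ρ.ρ g) - H.π D ∈ IsLocalRing.maximalIdeal T ^ n ∧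
      LinearMap.det (H.ρ.ρ g) - (a : T) ∈ IsLocalRing.maximalIdeal T ^ n ∧
      (∀ x : Λ, qM (ι D x) = r g (qM x) + a • r g⁻¹ (qM x)) ∧ g ζ = ζ ^ a := by
  obtain ⟨L₁, hL₁fin, hL₁⟩ := h65_exists_common_level qM r hstab
  obtain ⟨L₂, hL₂fin, hL₂⟩ := H.ρ.isAdicContinuous n
  obtain ⟨L, hLfin, hLgal, hL₁L, hL₂L, hζL⟩ :=
    h65_exists_galois_level L₁ L₂ hL₁fin hL₂fin ζ
  have hLnor : Normal ℚ L := hLgal.to_normal
  have halg : Algebra.IsAlgebraic ℚ (AlgebraicClosure ℚ) := AlgebraicClosure.isAlgebraic ℚ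
  have hclo : IsAlgClosure ℚ (AlgebraicClosure ℚ) := ⟨inferInstance, inferInstance⟩
  have hnorQ : Normal ℚ (AlgebraicClosure ℚ) := IsAlgClosure.normal ℚ (AlgebraicClosure ℚ)
  obtain ⟨ℓ, A, σ, b, hℓ, hℓS, hA, hσ, hσg⟩ := hcheb L hLfin hLgal g S
  have hℓN : ¬ ℓ ∣ N := fun h => hℓS (hNS ℓ hℓ h)
  have hℓS' : ℓ ∉ (↑S : Set ℕ) := by simpa using hℓS
  have hℓp : ℓ ≠ p := fun h => hℓS (h ▸ hpS)
  set t := CuspForm.heckeAlgebra.T hℓ hℓN hℓS' with ht
  have hchar := H.charpoly_frob ℓ hℓ hℓN hℓS' A hA σ hσ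
  refine ⟨Polynomial.aeval t (Polynomial.dickson 1 (ℓ : ℤ) b), ℓ ^ b, ?_, ?_, ?_, ?_⟩
  · have e1 := h65_trace_frob_pow H.ρ σ (H.π t) ℓ hchar b
    have e2 : H.π (Polynomial.aeval t (Polynomial.dickson 1 (ℓ : ℤ) b)) =
        Polynomial.aeval (H.π t) (Polynomial.dickson 1 (ℓ : ℤ) b) :=
      (Polynomial.aeval_algHom_apply H.π.toIntAlgHom t _).symm
    rw [e2, ← e1]
    exact h65_trace_congr H.ρ n L₂ hL₂ g (σ ^ b) (fun x hx => hσg x (hL₂L hx))
  · have e1 : LinearMap.det (H.ρ.ρ σ) = (ℓ : T) :=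
      h29_det_of_charpoly H.ρ.finrank_eq (H.ρ.ρ σ) _ _ hchar
    have e2 : LinearMap.det (H.ρ.ρ (σ ^ b)) = ((ℓ ^ b : ℕ) : T) := by
      rw [map_pow, map_pow, e1, Nat.cast_pow]
    rw [← e2]
    exact h29_det_congr H.ρ n L₂ hL₂ g (σ ^ b) (fun x hx => hσg x (hL₂L hx))
  · intro x
    have e := h65_level_sideW ι qM r t (tM ⟨ℓ, hℓ⟩) ℓ σ (hhecke ℓ hℓ hℓN hℓS')
      (hfrob ℓ hℓ hℓN hℓS' A hA σ hσ) b x
    -- `g⁻¹ * σ ^ b` fixes `L`
    have hfix1 : ∀ y ∈ L, (g⁻¹ * σ ^ b) y = y := by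
      intro y hy
      show g⁻¹ ((σ ^ b) y) = y
      rw [hσg y hy]
      exact g.symm_apply_apply y
    -- `g * (σ ^ b)⁻¹` fixes `L` (normality)
    have hfix2 : ∀ y ∈ L, (g * (σ ^ b)⁻¹) y = y := by
      intro y hy
      have hz : (σ ^ b)⁻¹ y ∈ L := by
        have hmap := (IntermediateField.normal_iff_forall_map_le'.mp hLnor) (σ ^ b)⁻¹
        exact hmap ⟨y, hy, rfl⟩
      show g ((σ ^ b)⁻¹ y) = y
      rw [← hσg _ hz]
      exact (σ ^ b).apply_symm_apply y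
    have hr : r (σ ^ b) (qM x) = r g (qM x) := by
      have h1 := hL₁ _ (fun y hy => hfix1 y (hL₁L hy)) x
      have h2 : r (σ ^ b) = r g * r (g⁻¹ * σ ^ b) := by
        rw [← map_mul, mul_inv_cancel_left]
      rw [h2]
      show r g (r (g⁻¹ * σ ^ b) (qM x)) = r g (qM x)
      rw [h1]
    have hr' : r ((σ ^ b)⁻¹) (qM x) = r g⁻¹ (qM x) := by
      have h1 := hL₁ _ (fun y hy => hfix2 y (hL₁L hy)) x
      have h2 : r ((σ ^ b)⁻¹) = r g⁻¹ * r (g * (σ ^ b)⁻¹) := by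
        rw [← map_mul, inv_mul_cancel_left]
      rw [h2]
      show r g⁻¹ (r (g * (σ ^ b)⁻¹) (qM x)) = r g⁻¹ (qM x)
      rw [h1]
    rw [e, hr, hr']
  · have hℓpn : ¬ ℓ ∣ p ^ n := fun h =>
      hℓp ((Nat.prime_dvd_prime_iff_eq hℓ hp).mp (hℓ.dvd_of_dvd_pow h))
    have h1 : σ ζ = ζ ^ ℓ := h65_frob_root A hℓ hA hσ hℓpn hζ
    have h2 : ∀ j : ℕ, (σ ^ j) ζ = ζ ^ (ℓ ^ j) := by
      intro j
      induction j with
      | zero => simp
      | succ j ih =>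
        rw [pow_succ', AlgEquiv.mul_apply, ih, map_pow, h1, ← pow_mul, pow_succ']
    rw [← hσg ζ hζL, h2]

end fact

section main

variable {p : ℕ} {N : ℕ} [NeZero N] {S : Finset ℕ}
  {𝒪 : Type} [CommRing 𝒪] [IsDomain 𝒪] [IsDiscreteValuationRing 𝒪]
  [IsAdicComplete (IsLocalRing.maximalIdeal 𝒪) 𝒪]
  {θ : CuspForm.heckeAlgebra N 2 (↑S : Set ℕ) →+* IsLocalRing.ResidueField 𝒪}
  {T : Type} [CommRing T] [IsLocalRing T] [IsNoetherianRing T]
  [IsAdicComplete (IsLocalRing.maximalIdeal T) T] [Algebra 𝒪 T] [IsLocalHom (algebraMap 𝒪 T)]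
  [Module.Finite 𝒪 T] [Module.Free 𝒪 T]

/-- **The S34 endgame.** The frozen statement S34 from a Hecke lattice with weak level
structures that are unipotent on inertia at `q`, and the weak Chebotarev statement. -/
theorem h29_S34_of_levelsU (hp : p.Prime)
    (hp𝒪 : (p : 𝒪) ∈ IsLocalRing.maximalIdeal 𝒪) (hpS : p ∈ S)
    (hNS : ∀ q : ℕ, q.Prime → q ∣ N → q ∈ S)
    (H : CuspForm.HeckeGaloisRepDatum N (↑S : Set ℕ) 𝒪 θ T)
    {Λ : Type} [AddCommGroup Λ] [Module.Free ℤ Λ] [Module.Finite ℤ Λ]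
    (ι : CuspForm.heckeAlgebra N 2 (↑S : Set ℕ) →+* Module.End ℤ Λ)
    (hι : Function.Injective ι)
    (q : ℕ) (hq : q.Prime) (hqp : q ≠ p)
    (hlev : ∀ n : ℕ, h29_HasLevelU p N S ι q n)
    (hcheb : h65_WCheb) :
    H.ρ.IsUnipotentOnInertiaAt q := by
  intro P hP τ hτ
  obtain ⟨c, hc⟩ := h65_saturation ι hι p
  have hpT : (p : T) ∈ IsLocalRing.maximalIdeal T := by
    have e : (p : T) = algebraMap 𝒪 T (p : 𝒪) := (map_natCast _ _).symm
    rw [e, IsLocalRing.mem_maximalIdeal, mem_nonunits_iff]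
    intro hu
    exact hp𝒪 (isUnit_of_map_unit (algebraMap 𝒪 T) _ hu)
  have hτi : τ⁻¹ ∈ P.inertiaSubgroupIn ℚ := inv_mem hτ
  have key : ∀ k : ℕ,
      LinearMap.trace T H.ρ.V (H.ρ.ρ τ) - (1 + 1) ∈ IsLocalRing.maximalIdeal T ^ k ∧
      LinearMap.det (H.ρ.ρ τ) - 1 ∈ IsLocalRing.maximalIdeal T ^ k := by
    intro k
    set n := k + c with hn
    obtain ⟨M, _, qM, r, tM, hker, htors, hstab, hhecke, hfrob, hunip⟩ := hlev n
    have : NeZero (p ^ n) := ⟨pow_ne_zero n hp.ne_zero⟩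
    obtain ⟨ζ, hζ⟩ := HasEnoughRootsOfUnity.exists_primitiveRoot (AlgebraicClosure ℚ) (p ^ n)
    obtain ⟨D, a, hD1, hD2, hD3, hD4⟩ :=
      h29_fact hp hpS hNS H ι hcheb n qM r tM hstab hhecke hfrob ζ hζ.pow_eq_one τ
    have hqpn : ¬ q ∣ p ^ n := fun h =>
      hqp ((Nat.prime_dvd_prime_iff_eq hq hp).mp (hq.dvd_of_dvd_pow h))
    have hτζ : τ ζ = ζ := h65_inertia_root P hq hP hτ hqpn hζ.pow_eq_one
    have hmod : a ≡ 1 [MOD p ^ n] := by
      have hζ0 : ζ ≠ 0 := hζ.ne_zero (NeZero.ne _)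
      have haa : ζ ^ a = ζ ^ 1 := by rw [← hD4, hτζ, pow_one]
      have h1 : ζ ^ ((1 : ℤ) - a) = 1 := by
        rw [zpow_sub₀ hζ0, zpow_natCast, haa, zpow_one, pow_one, div_self hζ0]
      have h2 := (hζ.zpow_eq_one_iff_dvd _).mp h1
      have h3 : (a : ℤ) ≡ ((1 : ℕ) : ℤ) [ZMOD ((p ^ n : ℕ) : ℤ)] := by
        rw [Nat.cast_one]
        exact Int.modEq_iff_dvd.mpr h2
      exact Int.natCast_modEq_iff.mp h3
    -- `τ + τ⁻¹ = 2` on the image of `qM`
    have hsum : ∀ x : Λ, r τ (qM x) + r τ⁻¹ (qM x) = qM x + qM x := by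
      intro x
      have h1 := hunip P hP τ⁻¹ hτi x
      have hcancel : ∀ m : M, r τ (r τ⁻¹ m) = m := by
        intro m
        have h2 : r τ * r τ⁻¹ = 1 := by rw [← map_mul, mul_inv_cancel, map_one]
        show (r τ * r τ⁻¹) m = m
        rw [h2]
        rfl
      have h3 := congrArg (r τ) h1
      rw [map_add, map_add, hcancel, hcancel] at h3
      rw [add_comm]
      exact h3
    have hzero : ∀ x : Λ, qM (ι (D - (1 + 1)) x) = 0 := by
      intro x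
      have e1 : ι (D - (1 + 1)) x = ι D x - (x + x) := by
        rw [map_sub, map_add, map_one, LinearMap.sub_apply, LinearMap.add_apply,
          Module.End.one_apply]
      rw [e1, map_sub, map_add, hD3, h65_nsmul_eq_of_modEq hmod _ (htors _), one_nsmul, hsum,
        sub_self]
    obtain ⟨y, hy⟩ := hc n (D - (1 + 1)) (fun v => hker _ (hzero v))
    have hπ : H.π D - (1 + 1) ∈ IsLocalRing.maximalIdeal T ^ k := by
      have e : H.π D - (1 + 1) = H.π (D - (1 + 1)) := by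
        rw [map_sub, map_add, map_one]
      rw [e, hy, show n - c = k by omega, zsmul_eq_mul, map_mul, map_intCast]
      push_cast
      exact Ideal.mul_mem_right _ _ (Ideal.pow_mem_pow hpT k)
    have hle : IsLocalRing.maximalIdeal T ^ n ≤ IsLocalRing.maximalIdeal T ^ k :=
      Ideal.pow_le_pow_right (by omega)
    refine ⟨?_, ?_⟩
    · have e : LinearMap.trace T H.ρ.V (H.ρ.ρ τ) - (1 + 1) =
          (LinearMap.trace T H.ρ.V (H.ρ.ρ τ) - H.π D) + (H.π D - (1 + 1)) := by ring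
      rw [e]
      exact Ideal.add_mem _ (hle hD1) hπ
    · have ha1 : (a : T) - 1 ∈ IsLocalRing.maximalIdeal T ^ n := by
        have h1 : ((p ^ n : ℕ) : ℤ) ∣ (a : ℤ) - ((1 : ℕ) : ℤ) :=
          (Int.modEq_iff_dvd.mp (Int.natCast_modEq_iff.mpr hmod).symm)
        obtain ⟨e, he⟩ := h1
        have h2 : (a : T) - 1 = (p : T) ^ n * (e : T) := by
          have h3 := congrArg (fun z : ℤ => (z : T)) he
          simpa using h3
        rw [h2]
        exact Ideal.mul_mem_right _ _ (Ideal.pow_mem_pow hpT n)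
      have e : LinearMap.det (H.ρ.ρ τ) - 1 =
          (LinearMap.det (H.ρ.ρ τ) - (a : T)) + ((a : T) - 1) := by ring
      rw [e]
      exact hle (Ideal.add_mem _ hD2 ha1)
  have hbot := Ideal.iInf_pow_eq_bot_of_isLocalRing (IsLocalRing.maximalIdeal T)
    Ideal.IsPrime.ne_top'
  have htr : LinearMap.trace T H.ρ.V (H.ρ.ρ τ) = 1 + 1 := by
    have hmem : LinearMap.trace T H.ρ.V (H.ρ.ρ τ) - (1 + 1) ∈
        (⨅ i : ℕ, IsLocalRing.maximalIdeal T ^ i) := by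
      rw [Ideal.mem_iInf]
      exact fun k => (key k).1
    rw [hbot] at hmem
    exact sub_eq_zero.mp hmem
  have hdet : LinearMap.det (H.ρ.ρ τ) = 1 := by
    have hmem : LinearMap.det (H.ρ.ρ τ) - 1 ∈ (⨅ i : ℕ, IsLocalRing.maximalIdeal T ^ i) := by
      rw [Ideal.mem_iInf]
      exact fun k => (key k).2
    rw [hbot] at hmem
    exact sub_eq_zero.mp hmem
  rw [h29_charpoly_rank_two H.ρ.finrank_eq (H.ρ.ρ τ), htr, hdet, map_add, map_one]
  ring

end main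

end Fermat.Agent.S34
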