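import Mathlib
import Fermat.Agent.GAL.h65_S31Levels
import Fermat.Agent.S34.h29_UnipCore

/-!
# S34: the levels with unipotent inertia, and S34 from the geometric input

* `h29_levelsU` : for every `n`, the level `h29_HasLevelU p N S ι q n` on the Hecke lattice
  `Λ = h65_Lam N`, with `M = J₀(N)[p ^ n]`, from
  - the interface THETA `gal_ThetaProp N (p ^ n)`,
  - the reduction interface `h87_RedData` of S37 (Eichler–Shimura at the good primes),
  - the open stabilisers of torsion points (`h67_torsion_stabiliser`),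
  - the GEOMETRIC INPUT `hunip` : `(τ - 1)² = 0` on the `p`-power torsion of `J₀(N)(ℚ̄)` for
    every `τ` in an inertia group at `q`;
* `h29_S34_of_unip` : the frozen statement S34 from THETA (all `p ^ n`), the reduction interface
  and the geometric input.

The geometric input is stated on the prelude's `ModularCurve.JZero N` with its Galois action:

  `∀ A, A.LiesOverPrime q → ∀ τ ∈ A.inertiaSubgroupIn ℚ, ∀ (n : ℕ) (x : JZero N),`
  `    p ^ n • x = 0 → τ • τ • x + x = τ • x + τ • x`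

(the same `τ` twice, `p`-power torsion only).
-/

set_option autoImplicit false

open CongruenceSubgroup ModularCurve ModularCurve.Period

namespace Fermat.Agent.S34

open Fermat.Agent.GAL Fermat.Agent.S16

section levels

variable {p : ℕ} {N : ℕ} [NeZero N] {S : Finset ℕ}

set_option maxHeartbeats 1600000 in
/-- **The levels with unipotent inertia at `q`** from THETA, the reduction interface and the
geometric input `(τ - 1)² = 0` on `J₀(N)[p ^ ∞]`. -/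
theorem h29_levelsU (hp : p.Prime) (hpS : p ∈ S)
    (hNS : ∀ q : ℕ, q.Prime → q ∣ N → q ∈ (↑S : Set ℕ))
    (hTheta : ∀ n : ℕ, gal_ThetaProp N (p ^ n))
    (hred : ∀ (ℓ : ℕ) (hℓ : ℓ.Prime), ¬ ℓ ∣ N * p →
      ∀ A : ValuationSubring (AlgebraicClosure ℚ), A.LiesOverPrime ℓ →
        Fermat.Agent.S37.h87_RedData N p ℓ hℓ A)
    (q : ℕ)
    (hunip : ∀ A : ValuationSubring (AlgebraicClosure ℚ), A.LiesOverPrime q →
      ∀ τ ∈ A.inertiaSubgroupIn ℚ, ∀ (n : ℕ) (x : JZero N), p ^ n • x = 0 →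
        τ • τ • x + x = τ • x + τ • x)
    (n : ℕ) : h29_HasLevelU p N S (h65_iota N (↑S : Set ℕ) hNS) q n := by
  obtain ⟨Θ, hΘinj, hΘhecke⟩ := hTheta n
  have hNp : ∀ ℓ : ℕ, ℓ.Prime → ℓ ∉ S → ¬ ℓ ∣ N * p := by
    intro ℓ hℓ hℓS hdvd
    rcases (Nat.Prime.dvd_mul hℓ).1 hdvd with h | h
    · exact hℓS (Finset.mem_coe.1 (hNS ℓ hℓ h))
    · rw [(Nat.prime_dvd_prime_iff_eq hℓ hp).1 h] at hℓS
      exact hℓS hpS
  have hmem : ∀ φ : h65_Lam N, Θ (h65_redHom N (p ^ n) φ) ∈ h65_tors (JZero N) (p ^ n) := by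
    intro φ
    show p ^ n • Θ (h65_redHom N (p ^ n) φ) = 0
    rw [← map_nsmul, h65_Hpe_torsion, map_zero]
  let qΛ : h65_Lam N →+ ↥(h65_tors (JZero N) (p ^ n)) :=
    { toFun := fun φ => ⟨Θ (h65_redHom N (p ^ n) φ), hmem φ⟩
      map_zero' := by
        apply Subtype.ext
        show Θ (h65_redHom N (p ^ n) 0) = 0
        rw [map_zero, map_zero]
      map_add' := fun φ ψ => by
        apply Subtype.ext
        show Θ (h65_redHom N (p ^ n) (φ + ψ)) =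
          Θ (h65_redHom N (p ^ n) φ) + Θ (h65_redHom N (p ^ n) ψ)
        rw [map_add, map_add] }
  have hqΛ : ∀ φ : h65_Lam N, ((qΛ φ : ↥(h65_tors (JZero N) (p ^ n))) : JZero N) =
      Θ (h65_redHom N (p ^ n) φ) := fun _ => rfl
  refine ⟨↥(h65_tors (JZero N) (p ^ n)), inferInstance, qΛ,
    h65_torsRep (AlgebraicClosure ℚ ≃ₐ[ℚ] AlgebraicClosure ℚ) (JZero N) (p ^ n),
    fun ℓ => h65_torsEnd (p ^ n) (heckeOperatorBar N ℓ).toAddMonoidHom, ?_, ?_, ?_, ?_, ?_, ?_⟩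
  · -- KER
    intro φ hφ
    have h1 : Θ (h65_redHom N (p ^ n) φ) = 0 := by
      rw [← hqΛ φ, hφ, AddSubgroup.coe_zero]
    have h2 : h65_redHom N (p ^ n) φ = 0 := hΘinj (by rw [h1, map_zero])
    obtain ⟨ψ, hψ⟩ := h65_redHom_ker N (p ^ n) φ h2
    exact ⟨ψ, by rw [hψ]; push_cast; rfl⟩
  · -- TORS
    intro m
    exact h65_tors_nsmul (p ^ n) m
  · -- STAB
    intro φ
    obtain ⟨E, hE, hfix⟩ := h67_torsion_stabiliser N (p ^ n) (pow_pos hp.pos n)
      (qΛ φ : JZero N) (qΛ φ).2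
    refine ⟨E, hE, fun σ hσ => ?_⟩
    apply Subtype.ext
    exact hfix σ hσ
  · -- HECKE
    intro ℓ hℓ hℓN hℓS φ
    have : Fact ℓ.Prime := ⟨hℓ⟩
    apply Subtype.ext
    have hℓp : ¬ ℓ ∣ p ^ n := by
      intro h
      have h' := (Nat.prime_dvd_prime_iff_eq hℓ hp).1 (hℓ.dvd_of_dvd_pow h)
      rw [h'] at hℓS
      exact hℓS (Finset.mem_coe.2 hpS)
    exact (hΘhecke ℓ hℓN hℓp (h65_redHom N (p ^ n) φ) _
      (h65_redHom_hecke N (p ^ n) (↑S : Set ℕ) hNS hℓ hℓN hℓS φ)).symm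
  · -- ES
    intro ℓ hℓ hℓN hℓS A hA σ hσ m
    obtain ⟨Jbar, _, red, φ, hI, hF, hT, hinj⟩ :=
      hred ℓ hℓ (hNp ℓ hℓ (fun h => hℓS (Finset.mem_coe.2 h))) A hA
    exact h65_tors_es (AlgebraicClosure ℚ ≃ₐ[ℚ] AlgebraicClosure ℚ) p ℓ red φ hinj σ (hF σ hσ)
      (heckeOperatorBar N ⟨ℓ, hℓ⟩).toAddMonoidHom hT n m
  · -- UNIP
    intro A hA τ hτ φ
    apply Subtype.ext
    rw [AddSubgroup.coe_add, AddSubgroup.coe_add, h65_torsRep_coe, h65_torsRep_coe]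
    exact hunip A hA τ hτ n (qΛ φ : JZero N) (qΛ φ).2

end levels

section main

variable {p : ℕ} {N : ℕ} [NeZero N] {S : Finset ℕ}
  {𝒪 : Type} [CommRing 𝒪] [IsDomain 𝒪] [IsDiscreteValuationRing 𝒪]
  [IsAdicComplete (IsLocalRing.maximalIdeal 𝒪) 𝒪]
  {θ : CuspForm.heckeAlgebra N 2 (↑S : Set ℕ) →+* IsLocalRing.ResidueField 𝒪}
  {T : Type} [CommRing T] [IsLocalRing T] [IsNoetherianRing T]
  [IsAdicComplete (IsLocalRing.maximalIdeal T) T] [Algebra 𝒪 T] [IsLocalHom (algebraMap 𝒪 T)]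
  [Module.Finite 𝒪 T] [Module.Free 𝒪 T]

/-- **S34 from THETA, the reduction interface and the geometric input** `(τ - 1)² = 0` on
`J₀(N)[p ^ ∞]` for `τ` in inertia at `q`. -/
theorem h29_S34_of_unip (hp : p.Prime)
    (hp𝒪 : (p : 𝒪) ∈ IsLocalRing.maximalIdeal 𝒪) (hpS : p ∈ S)
    (hNS : ∀ q : ℕ, q.Prime → q ∣ N → q ∈ S)
    (H : CuspForm.HeckeGaloisRepDatum N (↑S : Set ℕ) 𝒪 θ T)
    (hTheta : ∀ n : ℕ, gal_ThetaProp N (p ^ n))
    (hred : ∀ (ℓ : ℕ) (hℓ : ℓ.Prime), ¬ ℓ ∣ N * p →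
      ∀ A : ValuationSubring (AlgebraicClosure ℚ), A.LiesOverPrime ℓ →
        Fermat.Agent.S37.h87_RedData N p ℓ hℓ A)
    (q : ℕ) (hq : q.Prime) (hqp : q ≠ p)
    (hunip : ∀ A : ValuationSubring (AlgebraicClosure ℚ), A.LiesOverPrime q →
      ∀ τ ∈ A.inertiaSubgroupIn ℚ, ∀ (n : ℕ) (x : JZero N), p ^ n • x = 0 →
        τ • τ • x + x = τ • x + τ • x) :
    H.ρ.IsUnipotentOnInertiaAt q :=
  h29_S34_of_levelsU hp hp𝒪 hpS hNS H
    (h65_iota N (↑S : Set ℕ) (fun q hq hqN => Finset.mem_coe.2 (hNS q hq hqN)))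
    (h65_iota_injective N (↑S : Set ℕ) _) q hq hqp
    (h29_levelsU hp hpS _ hTheta hred q hunip) h65_wcheb

end main

end Fermat.Agent.S34
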