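import Mathlib
import Fermat.Agent.S34.h29_UnipLevels
import Fermat.Agent.GAL.Theta
import Fermat.Agent.S37.h60_Final

/-!
# S34: the top wiring

* `h29_UnipGeom N q` : THE TARGET OF THE GEOMETRIC SIDE of S34, as a proposition on the
  prelude's `ModularCurve.JZero N` with its Galois action: for every valuation subring `A` of
  `ℚ̄` over `q`, every `τ` in the inertia group of `A`, every prime `p ≠ q` and every `x` killed
  by a power of `p`:  `τ • τ • x + x = τ • x + τ • x`, i.e. `(τ - 1)² x = 0`.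
* `h29_S34_of_geom` : the frozen statement S34 with the one extra hypothesis
  `h29_UnipGeom N q`; THETA (`gal_thetaProp`) and the reduction interface (`h60_redData`) are
  discharged here.

So `Fermat/Agent/S34.lean` is `h29_S34_of_geom hp hp𝒪 hpS hNS H q hq hqp (geom N q hq hqN hq2)`
for a theorem `geom : ∀ (N : ℕ) [NeZero N] (q : ℕ), q.Prime → q ∣ N → ¬ q ^ 2 ∣ N →
h29_UnipGeom N q`.
-/

set_option autoImplicit false

open ModularCurve

namespace Fermat.Agent.S34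

/-- The geometric input of S34: inertia at `q` acts unipotently, `(τ - 1)² = 0`, on the
prime-to-`q` primary torsion of `J₀(N)(ℚ̄)`. -/
def h29_UnipGeom (N : ℕ) [NeZero N] (q : ℕ) : Prop :=
  ∀ A : ValuationSubring (AlgebraicClosure ℚ), A.LiesOverPrime q →
    ∀ τ ∈ A.inertiaSubgroupIn ℚ, ∀ p : ℕ, p.Prime → p ≠ q →
      ∀ (n : ℕ) (x : JZero N), p ^ n • x = 0 → τ • τ • x + x = τ • x + τ • x

/-- The geometric input from its `m`-torsion form, `m` prime to `q`. -/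
theorem h29_unipGeom_of_coprime (N : ℕ) [NeZero N] (q : ℕ) (hq : q.Prime)
    (h : ∀ A : ValuationSubring (AlgebraicClosure ℚ), A.LiesOverPrime q →
      ∀ τ ∈ A.inertiaSubgroupIn ℚ, ∀ m : ℕ, ¬ q ∣ m →
        ∀ x : JZero N, m • x = 0 → τ • τ • x + x = τ • x + τ • x) :
    h29_UnipGeom N q := by
  intro A hA τ hτ p hp hpq n x hx
  refine h A hA τ hτ (p ^ n) (fun hdvd => ?_) x hx
  exact hpq ((Nat.prime_dvd_prime_iff_eq hq hp).1 (hq.dvd_of_dvd_pow hdvd)).symm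

/-- The geometric input from its two-element form `(τ' - 1) (τ - 1) = 0`. -/
theorem h29_unipGeom_of_two (N : ℕ) [NeZero N] (q : ℕ) (hq : q.Prime)
    (h : ∀ A : ValuationSubring (AlgebraicClosure ℚ), A.LiesOverPrime q →
      ∀ τ ∈ A.inertiaSubgroupIn ℚ, ∀ τ' ∈ A.inertiaSubgroupIn ℚ, ∀ m : ℕ, ¬ q ∣ m →
        ∀ x : JZero N, m • x = 0 → τ' • (τ • x - x) = τ • x - x) :
    h29_UnipGeom N q := by
  refine h29_unipGeom_of_coprime N q hq (fun A hA τ hτ m hm x hx => ?_)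
  have h1 := h A hA τ hτ τ hτ m hm x hx
  rw [smul_sub] at h1
  rw [← sub_eq_zero] at h1 ⊢
  rw [← h1]
  abel

section main

variable {p : ℕ} {N : ℕ} [NeZero N] {S : Finset ℕ}
  {𝒪 : Type} [CommRing 𝒪] [IsDomain 𝒪] [IsDiscreteValuationRing 𝒪]
  [IsAdicComplete (IsLocalRing.maximalIdeal 𝒪) 𝒪]
  {θ : CuspForm.heckeAlgebra N 2 (↑S : Set ℕ) →+* IsLocalRing.ResidueField 𝒪}
  {T : Type} [CommRing T] [IsLocalRing T] [IsNoetherianRing T]
  [IsAdicComplete (IsLocalRing.maximalIdeal T) T] [Algebra 𝒪 T] [IsLocalHom (algebraMap 𝒪 T)]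
  [Module.Finite 𝒪 T] [Module.Free 𝒪 T]

/-- **S34 from the geometric input.** -/
theorem h29_S34_of_geom (hp : p.Prime)
    (hp𝒪 : (p : 𝒪) ∈ IsLocalRing.maximalIdeal 𝒪) (hpS : p ∈ S)
    (hNS : ∀ q : ℕ, q.Prime → q ∣ N → q ∈ S)
    (H : CuspForm.HeckeGaloisRepDatum N (↑S : Set ℕ) 𝒪 θ T)
    (q : ℕ) (hq : q.Prime) (hqp : q ≠ p) (hgeom : h29_UnipGeom N q) :
    H.ρ.IsUnipotentOnInertiaAt q :=
  h29_S34_of_unip hp hp𝒪 hpS hNS H
    (fun n => haveI : NeZero (p ^ n) := ⟨pow_ne_zero n hp.ne_zero⟩;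
      Fermat.Agent.GAL.gal_thetaProp N (p ^ n))
    (fun ℓ hℓ h A hA => Fermat.Agent.S37.h60_redData N p ℓ hℓ h A hA) q hq hqp
    (fun A hA τ hτ n x hx => hgeom A hA τ hτ p hp (fun h => hqp h.symm) n x hx)

end main

end Fermat.Agent.S34
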