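import Mathlib
import Fermat.Agent.S34.h87_Toric
import Fermat.Agent.S34.h29_UnipTop
import Fermat.Agent.S37.h87_Decomp
import Fermat.Agent.S37.h88_HICore
import Fermat.Agent.S18.h64_RankOne

/-!
# S34: the geometric target `h29_UnipGeom` from the toric statement (G)

* `h87_stab_val` : an automorphism of `ℚ̄` mapping a valuation ring `A` over a prime into itself
  does not change the size of a constant: `σ c / c ∈ A` for `c ≠ 0`;
* `h87_redStable_of_inertia` : the `h87_RedStable` package for an inertia element, from the two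
  facts the modular foundation provides (inertia preserves `O i` and the reductions);
* `h87_unipGeom_of_toric` : **the reduction of S34's geometric target to (G).**  Given, for every
  valuation ring `A` of `ℚ̄` over `q` and every `m` prime to `q`, a finite family of valuation
  rings `O i` of `F(N)` with reductions `red i` (scaling, separating elements, constants of `A`,
  inertia-stable with trivial action on reductions) such that for every inertia element `τ'` and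
  every toric datum `(E, u)` (`div u = m E`, `u` reduces to `1` at every `O i`) the divisor
  `τ' E - E` is principal, `h29_UnipGeom N q` holds.
-/

set_option autoImplicit false

noncomputable section

open AlgebraicCurve ModularCurve

namespace Fermat.Agent.S34

local notation "Qb" => AlgebraicClosure ℚ

/-- An automorphism of `ℚ̄` mapping a valuation ring over a prime into itself preserves the
valuation: `σ c / c ∈ A`. -/
theorem h87_stab_val {ℓ : ℕ} (hℓ : ℓ.Prime) (A : ValuationSubring Qb) (hA : A.LiesOverPrime ℓ)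
    (σ : Qb ≃ₐ[ℚ] Qb) (hσ : ∀ a ∈ A, σ a ∈ A) (c : Qb) (hc : c ≠ 0) :
    σ c * c⁻¹ ∈ A := by
  by_contra hnot
  have hσc : σ c ≠ 0 := (map_ne_zero σ).mpr hc
  have hℓ0 : ((ℓ : ℕ) : Qb) ≠ 0 := Nat.cast_ne_zero.mpr hℓ.ne_zero
  have hℓnon : ((ℓ : ℕ) : Qb) ∈ A.nonunits := hA
  have hσℓ : σ ((ℓ : ℕ) : Qb) = ((ℓ : ℕ) : Qb) := map_natCast σ ℓ
  -- w = c / σ c is a non-unit
  set w : Qb := c * (σ c)⁻¹ with hw
  have hwnon : w ∈ A.nonunits := by
    rw [ValuationSubring.mem_nonunits_iff_or]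
    right
    rw [hw, mul_inv, inv_inv, mul_comm]
    exact hnot
  obtain ⟨n, t₁, ht₁, hwn⟩ :=
    Fermat.Agent.S18.h64_rankOne_Qbar hℓ A hA w hwnon ((ℓ : ℕ) : Qb) hℓ0
  -- b' = ℓ ^ e' * c ^ n ∈ A
  have hcn : c ^ n ≠ 0 := pow_ne_zero n hc
  obtain ⟨e', t₂, ht₂, he'⟩ :=
    Fermat.Agent.S18.h64_rankOne_Qbar hℓ A hA ((ℓ : ℕ) : Qb) hℓnon (c ^ n)⁻¹ (inv_ne_zero hcn)
  set b' : Qb := ((ℓ : ℕ) : Qb) ^ e' * c ^ n with hb'
  have hb'ne : b' ≠ 0 := mul_ne_zero (pow_ne_zero _ hℓ0) hcn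
  have hb'A : b' ∈ A := by
    have : b' = t₂ := by
      rw [hb', he']
      field_simp
    rw [this]
    exact ht₂
  have hσb' : σ b' = ((ℓ : ℕ) : Qb) ^ e' * (σ c) ^ n := by
    rw [hb', map_mul, map_pow, map_pow, hσℓ]
  -- b' = ℓ t₁ σ b'
  have hkey : b' = ((ℓ : ℕ) : Qb) * t₁ * σ b' := by
    rw [hσb', ← hwn, hw, hb', mul_pow, inv_pow]
    field_simp
  -- induction
  have hind : ∀ i : ℕ, ∃ s ∈ A, b' = ((ℓ : ℕ) : Qb) ^ i * s := by
    intro i
    induction i with
    | zero => exact ⟨b', hb'A, by rw [pow_zero, one_mul]⟩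
    | succ i ih =>
      obtain ⟨s, hs, hbs⟩ := ih
      refine ⟨t₁ * σ s, A.mul_mem _ _ ht₁ (hσ s hs), ?_⟩
      have h1 : σ b' = ((ℓ : ℕ) : Qb) ^ i * σ s := by
        rw [hbs, map_mul, map_pow, hσℓ]
      rw [hkey, h1, pow_succ]
      ring
  obtain ⟨e, t₃, ht₃, he⟩ :=
    Fermat.Agent.S18.h64_rankOne_Qbar hℓ A hA ((ℓ : ℕ) : Qb) hℓnon b' hb'ne
  obtain ⟨s, hs, hbs⟩ := hind (e + 1)
  have hinv : (((ℓ : ℕ) : Qb))⁻¹ ∈ A := by
    have h1 : (((ℓ : ℕ) : Qb))⁻¹ = s * t₃ := by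
      have h2 : ((ℓ : ℕ) : Qb) ^ e = ((ℓ : ℕ) : Qb) ^ (e + 1) * s * t₃ := by
        rw [← hbs]
        exact he
      have h3 : ((ℓ : ℕ) : Qb) ^ e ≠ 0 := pow_ne_zero _ hℓ0
      have h4 : ((ℓ : ℕ) : Qb) ^ e * 1 = ((ℓ : ℕ) : Qb) ^ e * (((ℓ : ℕ) : Qb) * (s * t₃)) := by
        rw [mul_one]
        calc ((ℓ : ℕ) : Qb) ^ e = ((ℓ : ℕ) : Qb) ^ (e + 1) * s * t₃ := h2
          _ = ((ℓ : ℕ) : Qb) ^ e * (((ℓ : ℕ) : Qb) * (s * t₃)) := by ring
      have h5 : (1 : Qb) = ((ℓ : ℕ) : Qb) * (s * t₃) := mul_left_cancel₀ h3 h4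
      rw [eq_comm, ← mul_right_inj' hℓ0, ← h5, mul_inv_cancel₀ hℓ0]
    rw [h1]
    exact A.mul_mem _ _ hs ht₃
  have h6 := (ValuationSubring.mem_nonunits_iff_or (A := A)).mp hℓnon
  rcases h6 with h6 | h6
  · exact hℓ0 h6
  · exact h6 hinv

variable {N : ℕ}
variable {ι : Type*} {κ : ι → Type*} [∀ i, Field (κ i)]

/-- The `h87_RedStable` package of an inertia element. -/
theorem h87_redStable_of_inertia {q : ℕ} (hq : q.Prime) (A : ValuationSubring Qb)
    (hA : A.LiesOverPrime q)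
    (O : ι → ValuationSubring (modularFunctionFieldBar N)) (red : ∀ i, O i →+* κ i)
    (hconst : ∀ i (a : Qb), a ∈ A → algebraMap Qb (modularFunctionFieldBar N) a ∈ O i)
    (τ : Qb ≃ₐ[ℚ] Qb) (hτ : τ ∈ A.inertiaSubgroupIn ℚ)
    (hgal : ∀ i (f : modularFunctionFieldBar N) (h : f ∈ O i),
      ∃ h' : arithmeticRingAut (modularFunctionFieldFull N) τ f ∈ O i,
        red i ⟨arithmeticRingAut (modularFunctionFieldFull N) τ f, h'⟩ = red i ⟨f, h⟩) :
    h87_RedStable O red (arithmeticGalois (modularFunctionFieldFull N) τ) := by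
  obtain ⟨sA, hsA, -⟩ := Fermat.Agent.S37.h87_inertia_lift A τ hτ
  have hστ : ∀ a ∈ A, τ a ∈ A := by
    intro a ha
    have := hsA ⟨a, ha⟩
    have h2 : τ a = ((sA ⟨a, ha⟩ : A) : Qb) := this.symm
    rw [h2]
    exact (sA ⟨a, ha⟩).2
  refine ⟨fun i f h => (hgal i f h).1, fun i f h h' => ?_, fun i c hc => ?_⟩
  · obtain ⟨h'', hr⟩ := hgal i f h
    exact hr
  · exact hconst i _ (h87_stab_val hq A hA τ hστ c hc)

/-- **S34: the geometric target from the toric statement (G).** -/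
theorem h87_unipGeom_of_toric (N : ℕ) [NeZero N] (q : ℕ) (hq : q.Prime)
    (h : ∀ A : ValuationSubring Qb, A.LiesOverPrime q → ∀ m : ℕ, ¬ q ∣ m →
      ∃ (ι : Type) (_ : Fintype ι) (_ : Nonempty ι) (κ : ι → Type) (_ : ∀ i, Field (κ i))
        (O : ι → ValuationSubring (modularFunctionFieldBar N)) (red : ∀ i, O i →+* κ i),
        (∀ i (f : modularFunctionFieldBar N), f ≠ 0 → ∃ c : Qb, c ≠ 0 ∧
          algebraMap Qb (modularFunctionFieldBar N) c * f ∈ O i ∧
          (algebraMap Qb (modularFunctionFieldBar N) c * f)⁻¹ ∈ O i) ∧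
        (∀ i, ∃ t : modularFunctionFieldBar N, ∃ ht : ∀ j, t ∈ O j, red i ⟨t, ht i⟩ = 1 ∧
          ∀ j, j ≠ i → red j ⟨t, ht j⟩ = 0) ∧
        (∀ i (a : Qb), a ∈ A → algebraMap Qb (modularFunctionFieldBar N) a ∈ O i) ∧
        (∀ τ ∈ A.inertiaSubgroupIn ℚ, ∀ i (f : modularFunctionFieldBar N) (h : f ∈ O i),
          ∃ h' : arithmeticRingAut (modularFunctionFieldFull N) τ f ∈ O i,
            red i ⟨arithmeticRingAut (modularFunctionFieldFull N) τ f, h'⟩ = red i ⟨f, h⟩) ∧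
        (∀ τ' ∈ A.inertiaSubgroupIn ℚ, ∀ (E : Divisor Qb (modularFunctionFieldBar N))
          (u : modularFunctionFieldBar N), Divisor.degree E = 0 → u ≠ 0 →
          (∀ v : Place Qb (modularFunctionFieldBar N), (m : ℤ) * E v = v.ord u) →
          (∀ i, ∃ h : u ∈ O i, red i ⟨u, h⟩ = 1) →
          arithmeticGalois (modularFunctionFieldFull N) τ' • E - E ∈
            Divisor.principal (K := Qb) (F := modularFunctionFieldBar N))) :
    h29_UnipGeom N q := by
  refine h29_unipGeom_of_two N q hq (fun A hA τ hτ τ' hτ' m hm x hx => ?_)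
  obtain ⟨ι, _, _, κ, _, O, red, hscale, hsep, hconst, hgal, hG⟩ := h A hA m hm
  have hm0 : m ≠ 0 := fun h0 => hm (h0 ▸ dvd_zero q)
  have : HasPrincipalDivisors Qb (modularFunctionFieldBar N) :=
    Fermat.Agent.S37.h88_hasPrincipalDivisors N
  have hx' : (m : ℤ) • x = 0 := by
    rw [natCast_zsmul]
    exact hx
  exact h87_unip_of_toric O red m hm0 hscale hsep
    (fun c => IsAlgClosed.exists_pow_nat_eq c (Nat.pos_of_ne_zero hm0))
    (arithmeticGalois (modularFunctionFieldFull N) τ)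
    (arithmeticGalois (modularFunctionFieldFull N) τ')
    (h87_redStable_of_inertia hq A hA O red hconst τ hτ (hgal τ hτ))
    (h87_toric_fixed_of_principal O red m _ (hG τ' hτ')) x hx'

end Fermat.Agent.S34

end
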