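import Mathlib

/-!
# S34 / TOWER-FRAME (helper22)

Frames in a tower.  Let `α : E → F` be an embedding of fields over `K`, `x_E ∈ E`,
`x = α x_E`.  From a `K(x_E)`-basis `b` of `E` and a family `y : κ → F` which is an `E`-basis
of `F` (via `α`; hypotheses `hspan`, `hli`), we get the `K(x)`-basis `B (i, j) = α (b i) * y j`
of `F`, with coordinates

  `B.repr (∑ j, α (a j) * y j) (i, j) = α (b.repr (a j) i)`        (`h22_frame_tower`).

Consequently (`h22_frame_tower_mem`), if integrality in `E` is detected on the `b`-coordinates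
(`hb`), integrality in `F` is detected on the `y`-coordinates (`hO`), and integrality of elements
of `K(x_E)` is the same in `E` and `F` (`hα`), then integrality in `F` is detected on the
`B`-coordinates: `B` is a frame in the sense of `h22_exists_on_of_basis`.

Uses: the `K(j)`-frame of the function field of level `Mq` from the level-`M` frame and the
power basis `j_q^i`; each Kummer step `F' = F(θ)`.
-/

set_option autoImplicit false

noncomputable section

open IntermediateField Module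

namespace Fermat.Agent.S34

section FrameTower

variable {K E F : Type*} [Field K] [Field E] [Field F] [Algebra K E] [Algebra K F]

theorem h22_adjoin_map_eq (α : E →ₐ[K] F) (xE : E) : (K⟮xE⟯).map α = K⟮α xE⟯ := by
  rw [IntermediateField.adjoin_map, Set.image_singleton]

theorem h22_adjoin_map_mem (α : E →ₐ[K] F) (xE : E) (t : K⟮xE⟯) : α (t : E) ∈ K⟮α xE⟯ := by
  rw [← h22_adjoin_map_eq α xE]
  exact (IntermediateField.mem_map _).mpr ⟨(t : E), t.2, rfl⟩

theorem h22_adjoin_map_surj (α : E →ₐ[K] F) (xE : E) (s : K⟮α xE⟯) :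
    ∃ t : K⟮xE⟯, α (t : E) = (s : F) := by
  have hs : (s : F) ∈ (K⟮xE⟯).map α := by
    rw [h22_adjoin_map_eq α xE]
    exact s.2
  obtain ⟨t, ht, hts⟩ := (IntermediateField.mem_map _).mp hs
  exact ⟨⟨t, ht⟩, hts⟩

/-- The map `K(x_E) → K(α x_E)` induced by `α`. -/
def h22_adjMap (α : E →ₐ[K] F) (xE : E) (t : K⟮xE⟯) : K⟮α xE⟯ :=
  ⟨α (t : E), h22_adjoin_map_mem α xE t⟩

theorem h22_adjMap_coe (α : E →ₐ[K] F) (xE : E) (t : K⟮xE⟯) :
    ((h22_adjMap α xE t : K⟮α xE⟯) : F) = α (t : E) := rfl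

theorem h22_frame_tower_sum (α : E →ₐ[K] F) (xE : E) {ι κ : Type*} [Fintype ι] [Fintype κ]
    (b : ι → E) (y : κ → F) (r : ι × κ → K⟮xE⟯) :
    ∑ p : ι × κ, h22_adjMap α xE (r p) • (α (b p.1) * y p.2) =
      ∑ j, α (∑ i, r (i, j) • b i) * y j := by
  rw [Fintype.sum_prod_type, Finset.sum_comm]
  refine Finset.sum_congr rfl fun j _ => ?_
  rw [map_sum, Finset.sum_mul]
  refine Finset.sum_congr rfl fun i _ => ?_
  have h1 : h22_adjMap α xE (r (i, j)) • (α (b i) * y j) =
      α ((r (i, j) : K⟮xE⟯) : E) * (α (b i) * y j) := rfl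
  have h2 : (r (i, j)) • b i = ((r (i, j) : K⟮xE⟯) : E) * b i := rfl
  rw [h1, h2, map_mul, mul_assoc]

/-- **TOWER-FRAME**: the product basis `α (b i) * y j` of `F` over `K(α x_E)` and its
coordinates. -/
theorem h22_frame_tower (α : E →ₐ[K] F) (xE : E) {ι κ : Type*} [Fintype ι] [Fintype κ]
    (b : Module.Basis ι K⟮xE⟯ E) (y : κ → F)
    (hspan : ∀ f : F, ∃ a : κ → E, f = ∑ j, α (a j) * y j)
    (hli : ∀ a : κ → E, ∑ j, α (a j) * y j = 0 → ∀ j, a j = 0) :
    ∃ B : Module.Basis (ι × κ) K⟮α xE⟯ F,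
      (∀ i j, B (i, j) = α (b i) * y j) ∧
      ∀ (a : κ → E) (i : ι) (j : κ),
        ((B.repr (∑ j, α (a j) * y j) (i, j) : K⟮α xE⟯) : F) =
          α ((b.repr (a j) i : K⟮xE⟯) : E) := by
  classical
  let v : ι × κ → F := fun p => α (b p.1) * y p.2
  have hexp : ∀ a : κ → E, ∑ j, α (a j) * y j =
      ∑ p : ι × κ, h22_adjMap α xE (b.repr (a p.2) p.1) • v p := by
    intro a
    rw [h22_frame_tower_sum α xE (fun i => b i) y (fun p => b.repr (a p.2) p.1)]
    refine Finset.sum_congr rfl fun j _ => ?_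
    have h0 : ∑ i, (b.repr (a j)) i • b i = a j := b.sum_repr (a j)
    exact congrArg (fun e => α e * y j) h0.symm
  have hLI : LinearIndependent K⟮α xE⟯ v := by
    rw [Fintype.linearIndependent_iff]
    intro g hg p
    choose t ht using fun p => h22_adjoin_map_surj α xE (g p)
    have hgt : ∀ p, g p = h22_adjMap α xE (t p) := fun p => Subtype.ext (ht p).symm
    have h1 : ∑ p : ι × κ, h22_adjMap α xE (t p) • v p = 0 := by
      rw [← hg]
      exact Finset.sum_congr rfl fun p _ => by rw [hgt p]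
    rw [h22_frame_tower_sum α xE (fun i => b i) y t] at h1
    have h2 := hli _ h1 p.2
    have h3 : t p = 0 :=
      (Fintype.linearIndependent_iff.mp b.linearIndependent) (fun i => t (i, p.2)) h2 p.1
    rw [hgt p, h3]
    exact Subtype.ext (map_zero α)
  have hSP : ⊤ ≤ Submodule.span K⟮α xE⟯ (Set.range v) := by
    intro f _
    obtain ⟨a, rfl⟩ := hspan f
    rw [hexp a]
    exact Submodule.sum_mem _ fun p _ =>
      Submodule.smul_mem _ _ (Submodule.subset_span ⟨p, rfl⟩)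
  refine ⟨Module.Basis.mk hLI hSP, fun i j => ?_, fun a i j => ?_⟩
  · rw [Module.Basis.mk_apply]
  · have h1 : ∑ j, α (a j) * y j =
        ∑ p : ι × κ, h22_adjMap α xE (b.repr (a p.2) p.1) • (Module.Basis.mk hLI hSP) p := by
      rw [hexp a]
      exact Finset.sum_congr rfl fun p _ => by rw [Module.Basis.mk_apply]
    rw [h1, Module.Basis.repr_sum_self]
    rfl

/-- **TOWER-FRAME, integrality**: the product basis is a frame for `O` when `b` is a frame for
`O_E`, the `y`-coordinates detect `O` and `K(x_E) ∩ O_E = K(x) ∩ O`. -/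
theorem h22_frame_tower_mem (α : E →ₐ[K] F) (xE : E) {ι κ : Type*} [Fintype ι] [Fintype κ]
    (b : Module.Basis ι K⟮xE⟯ E) (y : κ → F)
    (hspan : ∀ f : F, ∃ a : κ → E, f = ∑ j, α (a j) * y j)
    (hli : ∀ a : κ → E, ∑ j, α (a j) * y j = 0 → ∀ j, a j = 0)
    (OE : Set E) (O : Set F)
    (hb : ∀ g : E, g ∈ OE ↔ ∀ i, ((b.repr g i : K⟮xE⟯) : E) ∈ OE)
    (hO : ∀ a : κ → E, (∑ j, α (a j) * y j) ∈ O ↔ ∀ j, a j ∈ OE)
    (hα : ∀ t : K⟮xE⟯, (t : E) ∈ OE ↔ α (t : E) ∈ O) :
    ∃ B : Module.Basis (ι × κ) K⟮α xE⟯ F,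
      (∀ i j, B (i, j) = α (b i) * y j) ∧
      (∀ (a : κ → E) (i : ι) (j : κ),
        ((B.repr (∑ j, α (a j) * y j) (i, j) : K⟮α xE⟯) : F) =
          α ((b.repr (a j) i : K⟮xE⟯) : E)) ∧
      ∀ f : F, f ∈ O ↔ ∀ p : ι × κ, ((B.repr f p : K⟮α xE⟯) : F) ∈ O := by
  obtain ⟨B, hB1, hB2⟩ := h22_frame_tower α xE b y hspan hli
  refine ⟨B, hB1, hB2, fun f => ?_⟩
  obtain ⟨a, rfl⟩ := hspan f
  rw [hO a]
  constructor
  · intro h p
    rw [hB2 a p.1 p.2, ← hα]
    exact (hb (a p.2)).mp (h p.2) p.1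
  · intro h j
    rw [hb (a j)]
    intro i
    rw [hα, ← hB2 a i j]
    exact h (i, j)

end FrameTower

end Fermat.Agent.S34
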