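import Mathlib
import Fermat.Agent.S18.h20_ONCore
import Fermat.Agent.S18.GR_ON

/-!
# S34 / LATTICE-ON layer (helper22)

Port of the S18 "orthonormal basis" layer (`h20_ONCore`, `GR_ON`) from a reduction datum whose
integral elements form a *valuation ring* with residue *field* to a **lattice datum** `h22_Lat`:
a valuation ring `A` of the constants `K`, a *subring* `O` of `F` (in the applications an
intersection of finitely many valuation rings extending the Gauss valuation) and a reduction map
`red : O → Rb` to a `k`-*algebra* `Rb` (a product of residue fields), such that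

* `exists_scale`: every nonzero `f` has a constant multiple in `O` with nonzero reduction
  (the sup-norm is attained in `|K^×|`);
* `ker`: the kernel of `red` is `𝔪_A O`.

Main results:

* `h22_exists_on_of_coord`, `h22_exists_on_of_basis`: every finite-dimensional `K`-subspace `V`
  of `F` has `dim V` elements of `V ∩ O` with `k`-linearly independent reductions, as soon as `F`
  has a `K(x)`-frame on which integrality is detected coordinatewise;
* `h22_on_linearIndependent`, `h22_on_coeff_mem`, `h22_on_span`: such a family is a `K`-basis of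
  `V`, and `V ∩ O` is the free `A`-module on it;
* `h22_finrank_le_of_red`, `h22_red_surjective_of_finrank`, `h22_finrank_red`: reduction does not
  lose dimension.
-/

set_option autoImplicit false

noncomputable section

open IntermediateField Polynomial Module
open Fermat.Agent.S18

namespace Fermat.Agent.S34

/-- A lattice datum: a valuation ring `A` of `K`, a subring `O` of `F`, residue maps `res`,
`red`, with sup-norm attained (`exists_scale`) and `ker red = 𝔪_A O` (`ker`). -/
structure h22_Lat (K F k Rb : Type*) [Field K] [Field F] [Algebra K F] [Field k] [CommRing Rb]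
    [Algebra k Rb] where
  /-- valuation ring of the constants -/
  A : ValuationSubring K
  /-- the integral elements of `F` -/
  O : Subring F
  /-- residue map of the constants -/
  res : A →+* k
  /-- reduction map -/
  red : O →+* Rb
  res_surjective : Function.Surjective res
  mem_iff : ∀ a : K, a ∈ A ↔ algebraMap K F a ∈ O
  red_algebraMap : ∀ (a : K) (ha : a ∈ A) (ha' : algebraMap K F a ∈ O),
    red ⟨algebraMap K F a, ha'⟩ = algebraMap k Rb (res ⟨a, ha⟩)
  exists_scale : ∀ f : F, f ≠ 0 → ∃ c : K, c ≠ 0 ∧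
    ∃ h : algebraMap K F c * f ∈ O, red ⟨algebraMap K F c * f, h⟩ ≠ 0
  ker : ∀ (f : F) (hf : f ∈ O), red ⟨f, hf⟩ = 0 →
    ∃ a : K, a ∈ A.nonunits ∧ ∃ g : F, g ∈ O ∧ f = algebraMap K F a * g

namespace h22_Lat

variable {K F k Rb : Type*} [Field K] [Field F] [Algebra K F] [Field k] [CommRing Rb]
  [Algebra k Rb]

/-- The reduction map extended by zero outside `O`. -/
def redF (D : h22_Lat K F k Rb) (f : F) : Rb :=
  letI := Classical.propDecidable
  if h : f ∈ D.O then D.red ⟨f, h⟩ else 0

theorem redF_of_mem (D : h22_Lat K F k Rb) {f : F} (h : f ∈ D.O) :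
    D.redF f = D.red ⟨f, h⟩ := by
  unfold redF
  rw [dif_pos h]

/-- The residue map of the constants extended by zero outside `A`. -/
def resK (D : h22_Lat K F k Rb) (a : K) : k :=
  letI := Classical.propDecidable
  if h : a ∈ D.A then D.res ⟨a, h⟩ else 0

theorem resK_of_mem (D : h22_Lat K F k Rb) {a : K} (h : a ∈ D.A) :
    D.resK a = D.res ⟨a, h⟩ := by
  unfold resK
  rw [dif_pos h]

end h22_Lat

variable {K F k Rb : Type*} [Field K] [Field F] [Algebra K F] [Field k] [CommRing Rb]
  [Algebra k Rb]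

/-! ### Reduction calculus -/

theorem h22_res_eq_zero_iff (D : h22_Lat K F k Rb) (a : D.A) :
    D.res a = 0 ↔ (a : K) ∈ D.A.nonunits := by
  rw [ValuationSubring.coe_mem_nonunits_iff, ← IsLocalRing.ker_eq_maximalIdeal D.res
    D.res_surjective, RingHom.mem_ker]

theorem h22_resK_eq_zero_iff (D : h22_Lat K F k Rb) {a : K} (ha : a ∈ D.A) :
    D.resK a = 0 ↔ a ∈ D.A.nonunits := by
  rw [D.resK_of_mem ha]
  exact h22_res_eq_zero_iff D ⟨a, ha⟩

theorem h22_resK_zero (D : h22_Lat K F k Rb) : D.resK 0 = 0 := by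
  rw [D.resK_of_mem D.A.zero_mem]
  exact map_zero D.res

theorem h22_resK_one (D : h22_Lat K F k Rb) : D.resK 1 = 1 := by
  rw [D.resK_of_mem D.A.one_mem]
  exact map_one D.res

theorem h22_sum_smul_mem (D : h22_Lat K F k Rb) {ι : Type*} (s : Finset ι) (a : ι → K)
    (e : ι → F) (ha : ∀ i, a i ∈ D.A) (he : ∀ i, e i ∈ D.O) : (∑ i ∈ s, a i • e i) ∈ D.O := by
  refine sum_mem fun i _ => ?_
  rw [Algebra.smul_def]
  exact D.O.mul_mem ((D.mem_iff _).mp (ha i)) (he i)

/-- `redF` of an integral combination of integral elements. -/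
theorem h22_redF_sum_smul (D : h22_Lat K F k Rb) {ι : Type*} (s : Finset ι) (a : ι → K)
    (e : ι → F) (ha : ∀ i, a i ∈ D.A) (he : ∀ i, e i ∈ D.O) :
    D.redF (∑ i ∈ s, a i • e i) = ∑ i ∈ s, D.resK (a i) • D.redF (e i) := by
  have hmem := h22_sum_smul_mem D s a e ha he
  rw [D.redF_of_mem hmem]
  have h1 : (⟨∑ i ∈ s, a i • e i, hmem⟩ : D.O) =
      ∑ i ∈ s, (⟨algebraMap K F (a i), (D.mem_iff _).mp (ha i)⟩ : D.O) * ⟨e i, he i⟩ := by
    apply Subtype.ext
    rw [AddSubmonoidClass.coe_finsetSum]
    refine Finset.sum_congr rfl fun i _ => ?_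
    rw [Algebra.smul_def]
    rfl
  rw [h1, map_sum]
  refine Finset.sum_congr rfl fun i _ => ?_
  rw [map_mul, D.red_algebraMap (a i) (ha i), D.resK_of_mem (ha i), D.redF_of_mem (he i),
    Algebra.smul_def]

/-- `resK` of a sum of products of integral constants. -/
theorem h22_resK_sum_mul (D : h22_Lat K F k Rb) {ι : Type*} (s : Finset ι) (a c : ι → K)
    (ha : ∀ i, a i ∈ D.A) (hc : ∀ i, c i ∈ D.A) :
    D.resK (∑ i ∈ s, a i * c i) = ∑ i ∈ s, D.resK (a i) * D.resK (c i) := by
  have hmem : (∑ i ∈ s, a i * c i) ∈ D.A := sum_mem fun i _ => D.A.mul_mem _ _ (ha i) (hc i)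
  rw [D.resK_of_mem hmem]
  have h1 : (⟨∑ i ∈ s, a i * c i, hmem⟩ : D.A) =
      ∑ i ∈ s, (⟨a i, ha i⟩ : D.A) * ⟨c i, hc i⟩ := by
    apply Subtype.ext
    rw [AddSubmonoidClass.coe_finsetSum]
    rfl
  rw [h1, map_sum]
  refine Finset.sum_congr rfl fun i _ => ?_
  rw [map_mul, D.resK_of_mem (ha i), D.resK_of_mem (hc i)]

/-- the kernel of the reduction is `𝔪_A O`. -/
theorem h22_redF_eq_zero_iff (D : h22_Lat K F k Rb) {f : F} (hf : f ∈ D.O) :
    D.redF f = 0 ↔ ∃ a : K, a ∈ D.A.nonunits ∧ ∃ g : F, g ∈ D.O ∧ f = algebraMap K F a * g := by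
  constructor
  · intro h
    rw [D.redF_of_mem hf] at h
    exact D.ker f hf h
  · rintro ⟨a, ha, g, hg, rfl⟩
    have haA : a ∈ D.A := D.A.nonunits_le ha
    have h1 : algebraMap K F a * g = ∑ i ∈ (Finset.univ : Finset (Fin 1)), a • g := by
      rw [Finset.sum_const, Finset.card_univ, Fintype.card_fin, one_smul, Algebra.smul_def]
    rw [h1, h22_redF_sum_smul D Finset.univ (fun _ => a) (fun _ => g) (fun _ => haA)
      (fun _ => hg), Finset.sum_const, Finset.card_univ, Fintype.card_fin, one_smul,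
      (h22_resK_eq_zero_iff D haA).mpr ha, zero_smul]

/-- `redF (a • g) = 0` for a non-unit constant `a`. -/
theorem h22_redF_smul_nonunit (D : h22_Lat K F k Rb) {a : K} (ha : a ∈ D.A.nonunits) {g : F}
    (hg : g ∈ D.O) : D.redF (a • g) = 0 := by
  have hmem : a • g ∈ D.O := by
    rw [Algebra.smul_def]
    exact D.O.mul_mem ((D.mem_iff _).mp (D.A.nonunits_le ha)) hg
  exact (h22_redF_eq_zero_iff D hmem).mpr ⟨a, ha, g, hg, Algebra.smul_def a g⟩

/-! ### Orthonormal families from coordinates -/

/-- The trivially valued case. -/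
theorem h22_exists_on_of_top (D : h22_Lat K F k Rb) (hA : D.A = ⊤)
    (V : Submodule K F) [Module.Finite K V] :
    ∃ e : Fin (Module.finrank K V) → F, (∀ i, e i ∈ V) ∧ (∀ i, e i ∈ D.O) ∧
      LinearIndependent k (fun i => D.redF (e i)) := by
  classical
  have hO : ∀ f : F, f ∈ D.O := by
    intro f
    by_cases hf : f = 0
    · rw [hf]
      exact D.O.zero_mem
    · obtain ⟨c, hc, h1, -⟩ := D.exists_scale f hf
      have h2 : algebraMap K F c⁻¹ ∈ D.O := (D.mem_iff _).mp (by rw [hA]; trivial)
      have h3 : f = algebraMap K F c⁻¹ * (algebraMap K F c * f) := by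
        rw [← mul_assoc, ← map_mul, inv_mul_cancel₀ hc, map_one, one_mul]
      rw [h3]
      exact D.O.mul_mem h2 h1
  have hnon : ∀ a : K, a ∈ D.A.nonunits → a = 0 := by
    intro a ha
    rcases (ValuationSubring.mem_nonunits_iff_or D.A).mp ha with h | h
    · exact h
    · exact absurd (by rw [hA]; trivial) h
  let β := Module.finBasis K V
  have hind : LinearIndependent K (fun i => ((β i : V) : F)) :=
    β.linearIndependent.map' V.subtype (Submodule.ker_subtype V)
  refine ⟨fun i => ((β i : V) : F), fun i => (β i).2, fun i => hO _, ?_⟩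
  rw [Fintype.linearIndependent_iff]
  intro l hl i
  choose a ha using fun i => D.res_surjective (l i)
  have haA : ∀ i, ((a i : D.A) : K) ∈ D.A := fun i => (a i).2
  have hres : ∀ i, D.resK ((a i : D.A) : K) = l i := fun i => by
    rw [D.resK_of_mem (haA i)]
    exact ha i
  have hsum : D.redF (∑ i, ((a i : D.A) : K) • ((β i : V) : F)) = 0 := by
    rw [h22_redF_sum_smul D Finset.univ _ _ haA (fun i => hO _), ← hl]
    exact Finset.sum_congr rfl fun i _ => by rw [hres i]
  obtain ⟨b, hb, g, -, hg⟩ := (h22_redF_eq_zero_iff D (hO _)).mp hsum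
  rw [hnon b hb, map_zero, zero_mul] at hg
  have h1 := Fintype.linearIndependent_iff.mp hind (fun i => ((a i : D.A) : K)) hg i
  rw [← hres i, h1]
  exact h22_resK_zero D

/-- The nontrivially valued case. -/
theorem h22_exists_on_of_coord_aux (D : h22_Lat K F k Rb) (hA : D.A ≠ ⊤)
    {E : Type*} [AddCommGroup E] [Module K E] {J : Type*} (coord : E →ₗ[K] (J → K))
    (hfin : ∀ p, (Function.support (coord p)).Finite)
    (hinj : ∀ p, coord p = 0 → p = 0)
    (Ψ : E →ₗ[K] F) (hΨ : ∀ p, Ψ p ∈ D.O ↔ ∀ j, coord p j ∈ D.A)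
    (V : Submodule K F) [Module.Finite K V] (hV : V ≤ LinearMap.range Ψ) :
    ∃ e : Fin (Module.finrank K V) → F, (∀ i, e i ∈ V) ∧ (∀ i, e i ∈ D.O) ∧
      LinearIndependent k (fun i => D.redF (e i)) := by
  classical
  obtain ⟨t, ht⟩ : ∃ t : K, t ∉ D.A := by
    by_contra h
    push Not at h
    exact hA (eq_top_iff.mpr fun x _ => h x)
  -- a non-integral multiple of a vector with zero reduction
  have hscale : ∀ c : E, Ψ c ∈ D.O → D.redF (Ψ c) = 0 →
      ∃ a : K, a ∉ D.A ∧ algebraMap K F a * Ψ c ∈ D.O := by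
    intro c hc hred
    obtain ⟨b, hb, g, hg, hbg⟩ := (h22_redF_eq_zero_iff D hc).mp hred
    by_cases hb0 : b = 0
    · refine ⟨t, ht, ?_⟩
      rw [hbg, hb0, map_zero, zero_mul, mul_zero]
      exact D.O.zero_mem
    · refine ⟨b⁻¹, ?_, ?_⟩
      · rcases (ValuationSubring.mem_nonunits_iff_or D.A).mp hb with h | h
        · exact absurd h hb0
        · exact h
      · rw [hbg, ← mul_assoc, ← map_mul, inv_mul_cancel₀ hb0, map_one, one_mul]
        exact hg
  have hstar : ∀ c : E, Ψ c ∈ D.O → D.redF (Ψ c) = 0 → ∀ j, coord c j ∈ D.A.nonunits := by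
    intro c hc hred j
    obtain ⟨a, haA, hamem⟩ := hscale c hc hred
    have h5 : Ψ (a • c) ∈ D.O := by
      rw [map_smul, Algebra.smul_def]
      exact hamem
    have h6 := (hΨ (a • c)).mp h5 j
    rw [map_smul, Pi.smul_apply, smul_eq_mul] at h6
    rw [ValuationSubring.mem_nonunits_iff_or]
    by_contra hcon
    push Not at hcon
    obtain ⟨hne, hinv⟩ := hcon
    apply haA
    have h7 : a = a * coord c j * (coord c j)⁻¹ := by
      rw [mul_assoc, mul_inv_cancel₀ hne, mul_one]
    rw [h7]
    exact D.A.mul_mem _ _ h6 hinv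
  have hred0 : D.redF 0 = 0 := by
    rw [D.redF_of_mem D.O.zero_mem]
    exact map_zero D.red
  -- `Ψ` is injective
  have hΨinj : Function.Injective Ψ := by
    rw [← LinearMap.ker_eq_bot, eq_bot_iff]
    intro c hc
    rw [LinearMap.mem_ker] at hc
    have h2 : ∀ j, coord c j = 0 := by
      intro j
      by_contra hne
      have h3 : Ψ ((t * (coord c j)⁻¹) • c) = 0 := by
        rw [map_smul, hc, smul_zero]
      have h4 := hstar _ (by rw [h3]; exact D.O.zero_mem) (by rw [h3]; exact hred0) j
      rw [map_smul, Pi.smul_apply, smul_eq_mul, mul_assoc, inv_mul_cancel₀ hne, mul_one] at h4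
      exact ht (D.A.nonunits_le h4)
    exact (Submodule.mem_bot K).mpr (hinj c (funext h2))
  -- transport `V`
  set V' : Submodule K E := V.comap Ψ with hV'
  have hmap : V'.map Ψ = V := Submodule.map_comap_eq_of_le hV
  let eqv : V' ≃ₗ[K] V := (Submodule.equivMapOfInjective Ψ hΨinj V').trans
    (LinearEquiv.ofEq _ _ hmap)
  have hV'fin : Module.Finite K V' := Module.Finite.equiv eqv.symm
  have hdim : Module.finrank K V' = Module.finrank K V := LinearEquiv.finrank_eq eqv
  obtain ⟨e', he'V, he'A, he'ind⟩ := h20_gauss_elim D.A D.resK (h22_resK_zero D)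
    (by rw [h22_resK_one D]; exact one_ne_zero)
    coord hfin hinj (Module.finrank K V) V' hV'fin hdim
  refine ⟨fun i => Ψ (e' i), fun i => he'V i, fun i => (hΨ _).mpr (he'A i), ?_⟩
  rw [Fintype.linearIndependent_iff]
  intro l hl i
  choose a ha using fun i => D.res_surjective (l i)
  have haA : ∀ i, ((a i : D.A) : K) ∈ D.A := fun i => (a i).2
  have hres : ∀ i, D.resK ((a i : D.A) : K) = l i := fun i => by
    rw [D.resK_of_mem (haA i)]
    exact ha i
  have heO : ∀ i, Ψ (e' i) ∈ D.O := fun i => (hΨ _).mpr (he'A i)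
  have hsumO : (∑ i, ((a i : D.A) : K) • Ψ (e' i)) ∈ D.O :=
    h22_sum_smul_mem D Finset.univ _ _ haA heO
  have hsum : D.redF (∑ i, ((a i : D.A) : K) • Ψ (e' i)) = 0 := by
    rw [h22_redF_sum_smul D Finset.univ _ _ haA heO, ← hl]
    exact Finset.sum_congr rfl fun i _ => by rw [hres i]
  have hΨsum : Ψ (∑ i, ((a i : D.A) : K) • e' i) = ∑ i, ((a i : D.A) : K) • Ψ (e' i) := by
    rw [map_sum]
    exact Finset.sum_congr rfl fun i _ => by rw [map_smul]
  have h1 := hstar (∑ i, ((a i : D.A) : K) • e' i) (by rw [hΨsum]; exact hsumO)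
    (by rw [hΨsum]; exact hsum)
  have h2 : ∑ i, D.resK ((a i : D.A) : K) • (D.resK ∘ coord (e' i)) = 0 := by
    funext j
    have h3 := (h22_resK_eq_zero_iff D (D.A.nonunits_le (h1 j))).mpr (h1 j)
    rw [map_sum] at h3
    simp only [map_smul, Finset.sum_apply, Pi.smul_apply, smul_eq_mul] at h3
    rw [h22_resK_sum_mul D Finset.univ (fun i => ((a i : D.A) : K))
      (fun i => coord (e' i) j) haA (fun i => he'A i j)] at h3
    simpa using h3
  have h4 := Fintype.linearIndependent_iff.mp he'ind (fun i => D.resK ((a i : D.A) : K)) h2 i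
  rw [← hres i]
  exact h4

/-- **Orthonormal families in subspaces (abstract form).**  `Ψ : E → F` is a `K`-linear map from
a coordinatised space such that `Ψ p` is integral exactly when all coordinates of `p` are.  Then
every finite-dimensional subspace `V` of the range of `Ψ` contains `dim V` integral elements with
`k`-linearly independent reductions. -/
theorem h22_exists_on_of_coord (D : h22_Lat K F k Rb)
    {E : Type*} [AddCommGroup E] [Module K E] {J : Type*} (coord : E →ₗ[K] (J → K))
    (hfin : ∀ p, (Function.support (coord p)).Finite)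
    (hinj : ∀ p, coord p = 0 → p = 0)
    (Ψ : E →ₗ[K] F) (hΨ : ∀ p, Ψ p ∈ D.O ↔ ∀ j, coord p j ∈ D.A)
    (V : Submodule K F) [Module.Finite K V] (hV : V ≤ LinearMap.range Ψ) :
    ∃ e : Fin (Module.finrank K V) → F, (∀ i, e i ∈ V) ∧ (∀ i, e i ∈ D.O) ∧
      LinearIndependent k (fun i => D.redF (e i)) := by
  by_cases hA : D.A = ⊤
  · exact h22_exists_on_of_top D hA V
  · exact h22_exists_on_of_coord_aux D hA coord hfin hinj Ψ hΨ V hV

/-! ### Orthonormal families from a `K(x)`-frame -/

/-- every element of `K(x)` has a denominator `q(x)` which is a unit of `O` -/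
theorem h22_exists_den (D : h22_Lat K F k Rb) {x : F}
    (hU : ∀ p : K[X], aeval x p ≠ 0 → ∃ c : K, c ≠ 0 ∧ algebraMap K F c * aeval x p ∈ D.O ∧
      (algebraMap K F c * aeval x p)⁻¹ ∈ D.O)
    (c : F) (hc : c ∈ K⟮x⟯) :
    ∃ q p : K[X], aeval x q ≠ 0 ∧ aeval x q ∈ D.O ∧ (aeval x q)⁻¹ ∈ D.O ∧
      c * aeval x q = aeval x p := by
  obtain ⟨r, s, hrs⟩ := (IntermediateField.mem_adjoin_simple_iff K c).mp hc
  by_cases hs : aeval x s = 0
  · refine ⟨1, 0, ?_, ?_, ?_, ?_⟩
    · rw [map_one]
      exact one_ne_zero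
    · rw [map_one]
      exact D.O.one_mem
    · rw [map_one, inv_one]
      exact D.O.one_mem
    · rw [hrs, hs, div_zero, zero_mul, map_zero]
  · obtain ⟨a, ha0, h1, h2⟩ := hU s hs
    have ha : algebraMap K F a ≠ 0 := by
      rw [Ne, map_eq_zero]
      exact ha0
    refine ⟨C a * s, C a * r, ?_, ?_, ?_, ?_⟩
    · rw [map_mul, aeval_C]
      exact mul_ne_zero ha hs
    · rw [map_mul, aeval_C]
      exact h1
    · rw [map_mul, aeval_C]
      exact h2
    · rw [map_mul, aeval_C, map_mul, aeval_C, hrs]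
      field_simp

/-- **(ON) from a `K(x)`-frame.**  `hG` is the Gauss lemma for the chart `x` (a polynomial in `x`
is integral iff its coefficients are), `hU` says that every nonzero polynomial in `x` is a
constant times a unit of `O`, and `hb` says that integrality is detected on the coordinates with
respect to the `K(x)`-basis `b`. -/
theorem h22_exists_on_of_basis (D : h22_Lat K F k Rb) {x : F}
    (hG : ∀ p : K[X], aeval x p ∈ D.O ↔ ∀ i, p.coeff i ∈ D.A)
    (hU : ∀ p : K[X], aeval x p ≠ 0 → ∃ c : K, c ≠ 0 ∧ algebraMap K F c * aeval x p ∈ D.O ∧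
      (algebraMap K F c * aeval x p)⁻¹ ∈ D.O)
    {ι : Type*} [Fintype ι] (b : Module.Basis ι K⟮x⟯ F)
    (hb : ∀ f : F, f ∈ D.O ↔ ∀ i, ((b.repr f i : K⟮x⟯) : F) ∈ D.O)
    (V : Submodule K F) [FiniteDimensional K V] :
    ∃ e : Fin (Module.finrank K V) → F,
      (∀ i, e i ∈ V) ∧ (∀ i, e i ∈ D.O) ∧ LinearIndependent k (fun i => D.redF (e i)) := by
  classical
  let β := Module.finBasis K V
  -- denominators of the coordinates of a basis of `V`
  have hden : ∀ jl : Fin (Module.finrank K V) × ι, ∃ q p : K[X], aeval x q ≠ 0 ∧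
      aeval x q ∈ D.O ∧ (aeval x q)⁻¹ ∈ D.O ∧
      ((b.repr ((β jl.1 : V) : F) jl.2 : K⟮x⟯) : F) * aeval x q = aeval x p :=
    fun jl => h22_exists_den D hU _ (b.repr ((β jl.1 : V) : F) jl.2).2
  choose q p hq0 hqO hqinv hqp using hden
  set Dn : K[X] := ∏ jl, q jl with hD
  have hDe : aeval x Dn = ∏ jl, aeval x (q jl) := by
    rw [hD, map_prod]
  set u : F := (aeval x Dn)⁻¹ with hu
  have hD0 : aeval x Dn ≠ 0 := by
    rw [hDe]
    exact Finset.prod_ne_zero_iff.mpr fun jl _ => hq0 jl
  have hu0 : u ≠ 0 := inv_ne_zero hD0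
  have huO : u ∈ D.O := by
    rw [hu, hDe, ← Finset.prod_inv_distrib]
    exact prod_mem fun jl _ => hqinv jl
  have huinv : u⁻¹ ∈ D.O := by
    rw [hu, inv_inv, hDe]
    exact prod_mem fun jl _ => hqO jl
  -- integrality is detected on the coordinates
  have hΨ : ∀ P : ι → K[X], h20_synth K x (fun i => b i) u P ∈ D.O ↔
      ∀ j, h20_coord K ι P j ∈ D.A := by
    intro P
    rw [h20_synth_apply]
    set S : F := ∑ i, aeval x (P i) * b i with hS
    have h1 : u * S ∈ D.O ↔ S ∈ D.O := by
      constructor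
      · intro h
        have h2 : S = u⁻¹ * (u * S) := by
          rw [← mul_assoc, inv_mul_cancel₀ hu0, one_mul]
        rw [h2]
        exact D.O.mul_mem huinv h
      · intro h
        exact D.O.mul_mem huO h
    have h3 : S = ∑ i, (aeval (AdjoinSimple.gen K x) (P i) : K⟮x⟯) • b i := by
      rw [hS]
      refine Finset.sum_congr rfl fun i _ => ?_
      rw [IntermediateField.smul_def, AdjoinSimple.coe_aeval_gen_apply, smul_eq_mul]
    have h4 : ∀ i, ((b.repr S i : K⟮x⟯) : F) = aeval x (P i) := by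
      intro i
      rw [h3, Module.Basis.repr_sum_self, AdjoinSimple.coe_aeval_gen_apply]
    rw [h1, hb S]
    constructor
    · intro h j
      have h5 := h j.1
      rw [h4, hG] at h5
      exact h5 j.2
    · intro h i
      rw [h4, hG]
      exact fun s => h (i, s)
  -- `V` lies in the range
  have hV : V ≤ LinearMap.range (h20_synth K x (fun i => b i) u) := by
    have hβ : ∀ j, ((β j : V) : F) ∈ LinearMap.range (h20_synth K x (fun i => b i) u) := by
      intro j
      refine ⟨fun i => (∏ jl ∈ Finset.univ.erase (j, i), q jl) * p (j, i), ?_⟩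
      rw [h20_synth_apply]
      have h1 : ∀ i, aeval x ((∏ jl ∈ Finset.univ.erase (j, i), q jl) * p (j, i)) * b i =
          aeval x Dn * (((b.repr ((β j : V) : F) i : K⟮x⟯) : F) * b i) := by
        intro i
        rw [map_mul, ← hqp (j, i), hD, ← Finset.prod_erase_mul Finset.univ q
          (Finset.mem_univ (j, i)), map_mul]
        ring
      rw [Finset.sum_congr rfl fun i _ => h1 i, ← Finset.mul_sum, hu, ← mul_assoc,
        inv_mul_cancel₀ hD0, one_mul]
      conv_rhs => rw [← b.sum_repr ((β j : V) : F)]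
      refine Finset.sum_congr rfl fun i _ => ?_
      rw [IntermediateField.smul_def, smul_eq_mul]
    intro f hf
    have h2 := congrArg (Subtype.val : V → F) (β.sum_repr ⟨f, hf⟩)
    rw [AddSubmonoidClass.coe_finsetSum] at h2
    have h3 : f = ∑ j, (β.repr ⟨f, hf⟩ j) • ((β j : V) : F) := h2.symm
    rw [h3]
    exact Submodule.sum_mem _ fun j _ => Submodule.smul_mem _ _ (hβ j)
  exact h22_exists_on_of_coord D (h20_coord K ι) h20_coord_finite
    h20_coord_inj (h20_synth K x (fun i => b i) u) hΨ V hV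

/-! ### Consequences of (ON) -/

/-- The (ON) property of a lattice datum: every finite-dimensional `K`-subspace `V` of `F` has
`dim V` elements of `V ∩ O` with `k`-linearly independent reductions. -/
def h22_ON (D : h22_Lat K F k Rb) : Prop :=
  ∀ (V : Submodule K F), Module.Finite K V →
    ∃ e : Fin (Module.finrank K V) → F,
      (∀ i, e i ∈ V) ∧ (∀ i, e i ∈ D.O) ∧ LinearIndependent k (fun i => D.redF (e i))

theorem h22_on_of_basis (D : h22_Lat K F k Rb) {x : F}
    (hG : ∀ p : K[X], aeval x p ∈ D.O ↔ ∀ i, p.coeff i ∈ D.A)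
    (hU : ∀ p : K[X], aeval x p ≠ 0 → ∃ c : K, c ≠ 0 ∧ algebraMap K F c * aeval x p ∈ D.O ∧
      (algebraMap K F c * aeval x p)⁻¹ ∈ D.O)
    {ι : Type*} [Fintype ι] (b : Module.Basis ι K⟮x⟯ F)
    (hb : ∀ f : F, f ∈ D.O ↔ ∀ i, ((b.repr f i : K⟮x⟯) : F) ∈ D.O) : h22_ON D :=
  fun V _ => h22_exists_on_of_basis D hG hU b hb V

/-- a pivot: an index of maximal valuation -/
theorem h22_exists_pivot (A : ValuationSubring K) {n : ℕ} (c : Fin n → K) (i₁ : Fin n) :
    ∃ i₀ : Fin n, ∀ i, A.valuation (c i) ≤ A.valuation (c i₀) := by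
  obtain ⟨i₀, -, h⟩ := Finset.exists_max_image Finset.univ (fun i => A.valuation (c i))
    ⟨i₁, Finset.mem_univ _⟩
  exact ⟨i₀, fun i => h i (Finset.mem_univ _)⟩

/-- A family of integral elements with independent reductions: a combination whose pivot
coefficient is not integral cannot be integral; more precisely, if `∑ cᵢ eᵢ ∈ O` then all
`cᵢ ∈ A`. -/
theorem h22_on_coeff_mem (D : h22_Lat K F k Rb) {n : ℕ} (e : Fin n → F) (he : ∀ i, e i ∈ D.O)
    (hind : LinearIndependent k (fun i => D.redF (e i))) (c : Fin n → K)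
    (hf : (∑ i, c i • e i) ∈ D.O) : ∀ i, c i ∈ D.A := by
  classical
  intro i₁
  obtain ⟨i₀, hi₀⟩ := h22_exists_pivot D.A c i₁
  by_contra hcon
  have hv1 : 1 < D.A.valuation (c i₁) :=
    not_le.mp fun h => hcon ((D.A.valuation_le_one_iff _).mp h)
  have hv0 : 1 < D.A.valuation (c i₀) := lt_of_lt_of_le hv1 (hi₀ i₁)
  have hc0 : c i₀ ≠ 0 := by
    intro h
    rw [h, map_zero] at hv0
    exact not_lt_of_ge zero_le hv0
  have hinv : (c i₀)⁻¹ ∈ D.A.nonunits := by
    rw [ValuationSubring.mem_nonunits_iff_or]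
    right
    rw [inv_inv]
    intro h
    exact not_le_of_gt hv0 ((D.A.valuation_le_one_iff _).mpr h)
  set a : Fin n → K := fun i => (c i₀)⁻¹ * c i with ha
  have haA : ∀ i, a i ∈ D.A := by
    intro i
    rw [← D.A.valuation_le_one_iff, ha, map_mul, map_inv₀]
    exact (inv_mul_le_iff₀ (lt_of_le_of_lt zero_le hv0)).mpr (by rw [mul_one]; exact hi₀ i)
  have hsum : ∑ i, a i • e i = (c i₀)⁻¹ • ∑ i, c i • e i := by
    rw [Finset.smul_sum]
    exact Finset.sum_congr rfl fun i _ => by rw [ha, mul_smul]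
  have hred : D.redF (∑ i, a i • e i) = 0 := by
    rw [hsum]
    exact h22_redF_smul_nonunit D hinv hf
  rw [h22_redF_sum_smul D Finset.univ a e haA he] at hred
  have h1 := Fintype.linearIndependent_iff.mp hind (fun i => D.resK (a i)) hred i₀
  have h2 : a i₀ = 1 := by
    rw [ha]
    exact inv_mul_cancel₀ hc0
  rw [h2, h22_resK_one D] at h1
  exact one_ne_zero h1

/-- A family of integral elements with `k`-independent reductions is `K`-independent. -/
theorem h22_on_linearIndependent (D : h22_Lat K F k Rb) {n : ℕ} (e : Fin n → F)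
    (he : ∀ i, e i ∈ D.O) (hind : LinearIndependent k (fun i => D.redF (e i))) :
    LinearIndependent K e := by
  classical
  rw [Fintype.linearIndependent_iff]
  intro c hc i₁
  by_contra hne
  -- scale by a non-integral constant: all coefficients stay integral, contradiction
  have hA : ∀ t : K, ∀ i, t * c i ∈ D.A := by
    intro t
    refine h22_on_coeff_mem D e he hind (fun i => t * c i) ?_
    have : ∑ i, (t * c i) • e i = t • ∑ i, c i • e i := by
      rw [Finset.smul_sum]
      exact Finset.sum_congr rfl fun i _ => by rw [mul_smul]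
    rw [this, hc, smul_zero]
    exact D.O.zero_mem
  -- hence every `t` is integral, and then `1 = 0` in `k`
  have htop : ∀ t : K, t ∈ D.A := by
    intro t
    have := hA (t * (c i₁)⁻¹) i₁
    rwa [mul_assoc, inv_mul_cancel₀ hne, mul_one] at this
  -- with `A = ⊤` the only nonunit is `0`
  have h1 : ∑ i, D.resK (c i) • D.redF (e i) = 0 := by
    rw [← h22_redF_sum_smul D Finset.univ c e (fun i => htop _) he, hc,
      D.redF_of_mem D.O.zero_mem]
    exact map_zero D.red
  have h2 := Fintype.linearIndependent_iff.mp hind (fun i => D.resK (c i)) h1 i₁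
  have h3 := (h22_resK_eq_zero_iff D (htop (c i₁))).mp h2
  rcases (ValuationSubring.mem_nonunits_iff_or D.A).mp h3 with h | h
  · exact hne h
  · exact h (htop _)

/-- With (ON): an orthonormal family of `V` spans `V`, with integral coefficients on `V ∩ O`. -/
theorem h22_on_span (D : h22_Lat K F k Rb) (V : Submodule K F) [Module.Finite K V]
    (e : Fin (Module.finrank K V) → F) (heV : ∀ i, e i ∈ V) (heO : ∀ i, e i ∈ D.O)
    (hind : LinearIndependent k (fun i => D.redF (e i))) (f : F) (hf : f ∈ V) :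
    ∃ c : Fin (Module.finrank K V) → K, f = ∑ i, c i • e i ∧ (f ∈ D.O → ∀ i, c i ∈ D.A) := by
  classical
  have hK : LinearIndependent K e := h22_on_linearIndependent D e heO hind
  have hK' : LinearIndependent K (fun i => (⟨e i, heV i⟩ : V)) :=
    LinearIndependent.of_comp V.subtype hK
  have hspan := hK'.span_eq_top_of_card_eq_finrank' (by simp)
  have hmem : (⟨f, hf⟩ : V) ∈ Submodule.span K (Set.range fun i => (⟨e i, heV i⟩ : V)) := by
    rw [hspan]
    trivial
  obtain ⟨c, hc⟩ := (Submodule.mem_span_range_iff_exists_fun K).mp hmem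
  have hc' : f = ∑ i, c i • e i := by
    have := congrArg (Subtype.val : V → F) hc
    rw [AddSubmonoidClass.coe_finsetSum] at this
    exact this.symm
  refine ⟨c, hc', fun hfO => ?_⟩
  exact h22_on_coeff_mem D e heO hind c (by rw [← hc']; exact hfO)

/-- consequence: reduction does not lose dimension. If `V ∩ O` reduces into `W`, then
`dim_K V ≤ dim_k W`. -/
theorem h22_finrank_le_of_red (D : h22_Lat K F k Rb) (hON : h22_ON D)
    (V : Submodule K F) [FiniteDimensional K V]
    (W : Submodule k Rb) [FiniteDimensional k W]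
    (h : ∀ f ∈ V, f ∈ D.O → D.redF f ∈ W) : Module.finrank K V ≤ Module.finrank k W := by
  obtain ⟨e, heV, heO, hind⟩ := hON V inferInstance
  have hind' : LinearIndependent k
      (fun i => (⟨D.redF (e i), h _ (heV i) (heO i)⟩ : W)) :=
    LinearIndependent.of_comp W.subtype hind
  simpa using hind'.fintype_card_le_finrank

/-- consequence: if moreover the dimensions agree, reduction `V ∩ O → W` is onto. -/
theorem h22_red_surjective_of_finrank (D : h22_Lat K F k Rb) (hON : h22_ON D)
    (V : Submodule K F) [FiniteDimensional K V]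
    (W : Submodule k Rb) [FiniteDimensional k W]
    (h : ∀ f ∈ V, f ∈ D.O → D.redF f ∈ W) (hd : Module.finrank k W ≤ Module.finrank K V) :
    ∀ fb ∈ W, ∃ f ∈ V, f ∈ D.O ∧ D.redF f = fb := by
  classical
  obtain ⟨e, heV, heO, hind⟩ := hON V inferInstance
  have hind' : LinearIndependent k
      (fun i => (⟨D.redF (e i), h _ (heV i) (heO i)⟩ : W)) :=
    LinearIndependent.of_comp W.subtype hind
  have hcard : Fintype.card (Fin (Module.finrank K V)) = Module.finrank k W := by
    apply le_antisymm hind'.fintype_card_le_finrank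
    simpa using hd
  have hspan := hind'.span_eq_top_of_card_eq_finrank' hcard
  intro fb hfb
  have hmem : (⟨fb, hfb⟩ : W) ∈ Submodule.span k
      (Set.range fun i => (⟨D.redF (e i), h _ (heV i) (heO i)⟩ : W)) := by
    rw [hspan]
    trivial
  obtain ⟨l, hl⟩ := (Submodule.mem_span_range_iff_exists_fun k).mp hmem
  choose a ha using fun i => D.res_surjective (l i)
  have haA : ∀ i, ((a i : D.A) : K) ∈ D.A := fun i => (a i).2
  have hres : ∀ i, D.resK ((a i : D.A) : K) = l i := fun i => by
    rw [D.resK_of_mem (haA i)]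
    exact ha i
  refine ⟨∑ i, ((a i : D.A) : K) • e i, Submodule.sum_mem _ fun i _ =>
    Submodule.smul_mem _ _ (heV i), h22_sum_smul_mem D Finset.univ _ e haA heO, ?_⟩
  rw [h22_redF_sum_smul D Finset.univ _ e haA heO]
  have h5 : ∑ i, ((l i • (⟨D.redF (e i), h _ (heV i) (heO i)⟩ : W) : W) : Rb) = fb := by
    have := congrArg (Subtype.val : W → Rb) hl
    rwa [AddSubmonoidClass.coe_finsetSum] at this
  rw [← h5]
  exact Finset.sum_congr rfl fun i _ => by rw [hres i]; rfl

/-- consequence: the reductions of `V ∩ O` span a `k`-space of dimension exactly `dim_K V`. -/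
theorem h22_finrank_red (D : h22_Lat K F k Rb) (hON : h22_ON D)
    (V : Submodule K F) [FiniteDimensional K V] :
    Module.finrank k (Submodule.span k (D.redF '' {f : F | f ∈ V ∧ f ∈ D.O})) =
      Module.finrank K V := by
  classical
  obtain ⟨e, heV, heO, hind⟩ := hON V inferInstance
  have hspan : Submodule.span k (D.redF '' {f : F | f ∈ V ∧ f ∈ D.O}) =
      Submodule.span k (Set.range fun i => D.redF (e i)) := by
    apply le_antisymm
    · rw [Submodule.span_le]
      rintro _ ⟨f, ⟨hfV, hfO⟩, rfl⟩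
      obtain ⟨c, hc, hcA⟩ := h22_on_span D V e heV heO hind f hfV
      rw [hc, h22_redF_sum_smul D Finset.univ c e (hcA hfO) heO]
      exact Submodule.sum_mem _ fun i _ =>
        Submodule.smul_mem _ _ (Submodule.subset_span ⟨i, rfl⟩)
    · rw [Submodule.span_le]
      rintro _ ⟨i, rfl⟩
      exact Submodule.subset_span ⟨e i, ⟨heV i, heO i⟩, rfl⟩
  rw [hspan, finrank_span_eq_card hind, Fintype.card_fin]

/-- consequence: on `V ∩ O`, the reduction vanishes exactly on `𝔪_A (V ∩ O)`; in coordinates: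
`f = ∑ cᵢ eᵢ` with `cᵢ ∈ A` has zero reduction iff all `cᵢ` are non-units. -/
theorem h22_on_redF_eq_zero_iff (D : h22_Lat K F k Rb) {n : ℕ} (e : Fin n → F)
    (he : ∀ i, e i ∈ D.O) (hind : LinearIndependent k (fun i => D.redF (e i))) (c : Fin n → K)
    (hc : ∀ i, c i ∈ D.A) :
    D.redF (∑ i, c i • e i) = 0 ↔ ∀ i, c i ∈ D.A.nonunits := by
  rw [h22_redF_sum_smul D Finset.univ c e hc he]
  constructor
  · intro h i
    exact (h22_resK_eq_zero_iff D (hc i)).mp
      (Fintype.linearIndependent_iff.mp hind (fun i => D.resK (c i)) h i)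
  · intro h
    refine Finset.sum_eq_zero fun i _ => ?_
    rw [(h22_resK_eq_zero_iff D (hc i)).mpr (h i), zero_smul]

end Fermat.Agent.S34

end
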