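import Mathlib

/-!
# S34 (route R63 / R50): the node-line lemma and the node count

Pure linear algebra over a field `k`.

* `h63_node_line` : two linear functionals `e1, e2` on a `k`-space with `e1 g ^ m = e2 g ^ m`
  for all `g` (`m ≠ 0`): either both vanish, or `e2 = c • e1` with `c ^ m = 1`.
* `h63_node_count` : `B` finite-dimensional with "node evaluations" `e1 n, e2 n` (`n ∈ Z`)
  which are jointly surjective onto `k^Z × k^Z`; a subspace `R` of codimension `≤ |Z|` all of
  whose elements satisfy `e1 n g ^ m = e2 n g ^ m` at every node is *exactly* the space cut out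
  by the gluing conditions `e2 n g = c n * e1 n g`, with `c n ^ m = 1`.

In the application `B` is a space of pairs of functions on the two components of the special
fibre, `R` is the reduction of `L(n D₀ + j D_y) ∩ O` for a toric class `y` (elements of `R` have
`m`-th power in the ring of the nodal curve), and `c` is the gluing datum of the class.
-/

set_option autoImplicit false

namespace Fermat.Agent.S34

/-- **Node-line lemma.** -/
theorem h63_node_line {k V : Type*} [Field k] [AddCommGroup V] [Module k V] {m : ℕ} (hm : m ≠ 0)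
    (e1 e2 : V →ₗ[k] k) (h : ∀ g : V, e1 g ^ m = e2 g ^ m) :
    (e1 = 0 ∧ e2 = 0) ∨ ∃ c : k, c ^ m = 1 ∧ e1 ≠ 0 ∧ e2 = c • e1 := by
  by_cases h1 : e1 = 0
  · left
    refine ⟨h1, ?_⟩
    ext g
    have h2 := h g
    rw [h1, LinearMap.zero_apply, zero_pow hm] at h2
    rw [LinearMap.zero_apply]
    exact (pow_eq_zero_iff hm).1 h2.symm
  · right
    obtain ⟨g0, hg0⟩ : ∃ g0, e1 g0 ≠ 0 := by
      by_contra hcon
      push Not at hcon
      exact h1 (LinearMap.ext hcon)
    have he1 : e1 ((e1 g0)⁻¹ • g0) = 1 := by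
      rw [map_smul, smul_eq_mul, inv_mul_cancel₀ hg0]
    refine ⟨e2 ((e1 g0)⁻¹ • g0), ?_, h1, ?_⟩
    · rw [← h, he1, one_pow]
    · ext g
      have hz : e1 (g - e1 g • ((e1 g0)⁻¹ • g0)) = 0 := by
        rw [map_sub, map_smul, he1, smul_eq_mul, mul_one, sub_self]
      have h2 := h (g - e1 g • ((e1 g0)⁻¹ • g0))
      rw [hz, zero_pow hm] at h2
      have h3 : e2 (g - e1 g • ((e1 g0)⁻¹ • g0)) = 0 := (pow_eq_zero_iff hm).1 h2.symm
      rw [map_sub, map_smul, sub_eq_zero, smul_eq_mul] at h3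
      rw [LinearMap.smul_apply, smul_eq_mul, h3, mul_comm]

/-- The node-line lemma on a subspace, in the form used by the count. -/
theorem h63_node_line_on {k B : Type*} [Field k] [AddCommGroup B] [Module k B] {m : ℕ}
    (hm : m ≠ 0) (e1 e2 : B →ₗ[k] k) (R : Submodule k B)
    (h : ∀ g ∈ R, e1 g ^ m = e2 g ^ m) :
    ∃ c : k, c ^ m = 1 ∧ ∀ g ∈ R, e2 g = c * e1 g := by
  rcases h63_node_line hm (e1.comp R.subtype) (e2.comp R.subtype) (fun g => h g g.2) with
    ⟨h1, h2⟩ | ⟨c, hc, -, h2⟩
  · refine ⟨1, one_pow m, fun g hg => ?_⟩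
    have a1 := LinearMap.congr_fun h1 ⟨g, hg⟩
    have a2 := LinearMap.congr_fun h2 ⟨g, hg⟩
    simp only [LinearMap.comp_apply, Submodule.subtype_apply, LinearMap.zero_apply] at a1 a2
    rw [a1, a2, mul_zero]
  · refine ⟨c, hc, fun g hg => ?_⟩
    have a2 := LinearMap.congr_fun h2 ⟨g, hg⟩
    simpa only [LinearMap.comp_apply, Submodule.subtype_apply, LinearMap.smul_apply,
      smul_eq_mul] using a2

/-- **Node count.** -/
theorem h63_node_count {k B Z : Type*} [Field k] [AddCommGroup B] [Module k B]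
    [FiniteDimensional k B] [Fintype Z] {m : ℕ} (hm : m ≠ 0)
    (e1 e2 : Z → B →ₗ[k] k)
    (hsurj : ∀ a b : Z → k, ∃ g : B, (∀ n, e1 n g = a n) ∧ (∀ n, e2 n g = b n))
    (R : Submodule k B) (hdim : Module.finrank k B ≤ Module.finrank k R + Fintype.card Z)
    (h : ∀ g ∈ R, ∀ n, e1 n g ^ m = e2 n g ^ m) :
    ∃ c : Z → k, (∀ n, c n ^ m = 1) ∧ ∀ g : B, g ∈ R ↔ ∀ n, e2 n g = c n * e1 n g := by
  classical
  have key : ∀ n, ∃ c : k, c ^ m = 1 ∧ ∀ g ∈ R, e2 n g = c * e1 n g := fun n =>
    h63_node_line_on hm (e1 n) (e2 n) R (fun g hg => h g hg n)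
  choose c hc hR using key
  refine ⟨c, hc, ?_⟩
  -- the defect map
  let Ψ : B →ₗ[k] (Z → k) := LinearMap.pi (fun n => e2 n - c n • e1 n)
  have hΨ : ∀ g n, Ψ g n = e2 n g - c n * e1 n g := fun g n => rfl
  have hker : ∀ g, g ∈ LinearMap.ker Ψ ↔ ∀ n, e2 n g = c n * e1 n g := by
    intro g
    rw [LinearMap.mem_ker]
    constructor
    · intro h0 n
      have := congrFun h0 n
      rw [hΨ, Pi.zero_apply, sub_eq_zero] at this
      exact this
    · intro h0
      funext n
      rw [hΨ, Pi.zero_apply, sub_eq_zero]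
      exact h0 n
  have hle : R ≤ LinearMap.ker Ψ := fun g hg => (hker g).2 (fun n => hR n g hg)
  have hsur : Function.Surjective Ψ := by
    intro t
    obtain ⟨g, hg1, hg2⟩ := hsurj 0 t
    refine ⟨g, funext fun n => ?_⟩
    rw [hΨ, hg1, hg2, Pi.zero_apply, mul_zero, sub_zero]
  have hrank : Module.finrank k (LinearMap.ker Ψ) + Fintype.card Z = Module.finrank k B := by
    have h1 := LinearMap.finrank_range_add_finrank_ker Ψ
    rw [LinearMap.range_eq_top.2 hsur, finrank_top, Module.finrank_pi] at h1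
    omega
  have heq : R = LinearMap.ker Ψ :=
    Submodule.eq_of_le_of_finrank_le hle (by omega)
  intro g
  rw [heq, hker]

end Fermat.Agent.S34
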