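import Mathlib
import Fermat.Prelude.Def_AlgebraicCurve_Repartitions
import Fermat.Prelude.Def_AlgebraicCurve_BaseChangeGalois
import Fermat.Agent.S34.h22_LatON
import Fermat.Agent.S34.h63_NodeLine

/-!
# S34 / GLUE (helper51): gluing constants of a toric class and trivial gluing

Generic layer (no modular input) shared by the endgames R63 (`[P3]`, `[P4]`) and E-short (`(2)`).

Setting: a lattice datum `D : h22_Lat K F k Rb` (integral functions `O`, reduction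
`red : O → Rb`) with orthonormal bases (`h22_ON D`), a polar divisor `D0` and "chart data" on the
special fibre:

* `P n : Submodule k Rb` (pole order `≤ n` on the residue curves), finite-dimensional, contained
  in a subalgebra `Bs`;
* node values `e1 ν, e2 ν : Bs →ₐ[k] k` (`ν : Z`, the two branches of the node `ν`);
* `(NODE)` for `n ≥ n0`: `red (L(n D0) ∩ O) = {a ∈ P n | e2 ν a = e1 ν a for all ν}`;
* `(IND)` for `n ≥ n0`: all value vectors in `k^Z × k^Z` are realised on `P n`;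
* `(ROOT)` `a ^ m ∈ P (m n) → a ∈ P n`;
* `(RR)` for `n ≥ n0` and `deg E = 0`: `dim L(n D0 + E) = dim L(n D0) < ∞`.

A *toric witness* is a divisor `E` of degree `0` with `m E = div u`, `u ∈ O`, `red u = 1`.

Main results:

* `h51_gluing` : for every `j : ℤ` and `n ≥ n0` there are constants `c ν` with `c ν ^ m = 1` and
  `red (L(n D0 + j E) ∩ O) = {a ∈ P n | e2 ν a = c ν * e1 ν a for all ν}`.
* `h51_toric_smul_sub` : if `g'` preserves `O` and the reductions, then `(g' • E - E, g' u / u)`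
  is again a toric witness.
* `h51_trivial_gluing` : if moreover `g' • D0 = D0`, then for `n ≥ 2 n0` and all `j : ℤ`
  `red (L(n D0 + j (g' • E - E)) ∩ O) = red (L(n D0) ∩ O)`.
* `h51_exists_lift_trivial` : every reduction of an element of `L(n D0) ∩ O` is the reduction of
  an element of `L(n D0 + j (g' • E - E)) ∩ O`.
-/

set_option autoImplicit false

noncomputable section

open AlgebraicCurve Module

namespace Fermat.Agent.S34

variable {K F k Rb : Type*} [Field K] [Field F] [Algebra K F] [Field k] [CommRing Rb]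
  [Algebra k Rb]

/-! ### Reduction calculus on `O` -/

theorem h51_redF_mul (D : h22_Lat K F k Rb) {f g : F} (hf : f ∈ D.O) (hg : g ∈ D.O) :
    D.redF (f * g) = D.redF f * D.redF g := by
  rw [D.redF_of_mem (D.O.mul_mem hf hg), D.redF_of_mem hf, D.redF_of_mem hg, ← map_mul]
  rfl

theorem h51_redF_add (D : h22_Lat K F k Rb) {f g : F} (hf : f ∈ D.O) (hg : g ∈ D.O) :
    D.redF (f + g) = D.redF f + D.redF g := by
  rw [D.redF_of_mem (D.O.add_mem hf hg), D.redF_of_mem hf, D.redF_of_mem hg, ← map_add]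
  rfl

theorem h51_redF_one (D : h22_Lat K F k Rb) : D.redF (1 : F) = 1 := by
  rw [D.redF_of_mem D.O.one_mem]
  exact map_one D.red

theorem h51_redF_pow (D : h22_Lat K F k Rb) {f : F} (hf : f ∈ D.O) (n : ℕ) :
    D.redF (f ^ n) = D.redF f ^ n := by
  rw [D.redF_of_mem (D.O.pow_mem hf n), D.redF_of_mem hf, ← map_pow]
  rfl

theorem h51_redF_smul (D : h22_Lat K F k Rb) {a : K} (ha : a ∈ D.A) {f : F} (hf : f ∈ D.O) :
    D.redF (a • f) = D.resK a • D.redF f := by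
  have hmem : algebraMap K F a ∈ D.O := (D.mem_iff a).mp ha
  rw [Algebra.smul_def, h51_redF_mul D hmem hf, D.redF_of_mem hmem, D.red_algebraMap a ha,
    D.resK_of_mem ha, Algebra.smul_def]

/-- Integer powers of an element of `O` with reduction `1`. -/
theorem h51_zpow_mem (D : h22_Lat K F k Rb)
    (hinv : ∀ (f : F) (hf : f ∈ D.O), IsUnit (D.red ⟨f, hf⟩) → f⁻¹ ∈ D.O)
    {u : F} (hu : u ≠ 0) (huO : u ∈ D.O) (hured : D.red ⟨u, huO⟩ = 1) (j : ℤ) :
    u ^ j ∈ D.O ∧ D.redF (u ^ j) = 1 := by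
  have hinvO : u⁻¹ ∈ D.O := hinv u huO (by rw [hured]; exact isUnit_one)
  have hredu : D.redF u = 1 := by rw [D.redF_of_mem huO, hured]
  have hredinv : D.redF u⁻¹ = 1 := by
    have h := h51_redF_mul D hinvO huO
    rw [inv_mul_cancel₀ hu, h51_redF_one, hredu, mul_one] at h
    exact h.symm
  obtain ⟨n, rfl | rfl⟩ := Int.eq_nat_or_neg j
  · rw [zpow_natCast]
    exact ⟨D.O.pow_mem huO n, by rw [h51_redF_pow D huO, hredu, one_pow]⟩
  · rw [zpow_neg, zpow_natCast, ← inv_pow]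
    exact ⟨D.O.pow_mem hinvO n, by rw [h51_redF_pow D hinvO, hredinv, one_pow]⟩

/-! ### Riemann–Roch spaces: products and Galois action -/

theorem h51_mul_mem_rr {D1 D2 : Divisor K F} {f g : F} (hf : f ∈ riemannRochSpace D1)
    (hg : g ∈ riemannRochSpace D2) : f * g ∈ riemannRochSpace (D1 + D2) := by
  intro v
  show v.adicValuation (f * g) ≤ WithZero.exp ((D1 + D2) v)
  rw [map_mul, Finsupp.add_apply, WithZero.exp_add]
  exact mul_le_mul' (hf v) (hg v)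

theorem h51_smul_mem_rr (g' : SemilinearAut K F) {D' : Divisor K F} {f : F}
    (hf : f ∈ riemannRochSpace D') : g' • f ∈ riemannRochSpace (g' • D') := by
  rw [mem_riemannRochSpace_iff] at hf ⊢
  intro w
  rcases hf (g'⁻¹ • w) with rfl | h
  · left
    exact smul_zero g'
  · right
    rw [SemilinearAut.divisor_smul_apply]
    have h2 := SemilinearAut.ord_smul g' (g'⁻¹ • w) f
    rw [smul_inv_smul] at h2
    rw [h2]
    exact h

/-- `f ∈ L(n D0 + j E)` and `m E = div u` give `f ^ m * u ^ j ∈ L(m n D0)`. -/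
theorem h51_pow_mul_zpow_mem_rr (D0 E : Divisor K F) {u : F} (hu : u ≠ 0) {m : ℕ} (hm : m ≠ 0)
    (hdiv : ∀ v : Place K F, (m : ℤ) * E v = v.ord u) (j : ℤ) (n : ℕ) {f : F}
    (hf : f ∈ riemannRochSpace (n • D0 + j • E)) :
    f ^ m * u ^ j ∈ riemannRochSpace ((m * n) • D0) := by
  rw [mem_riemannRochSpace_iff] at hf ⊢
  intro v
  rcases eq_or_ne f 0 with rfl | hf0
  · left
    rw [zero_pow hm, zero_mul]
  · right
    have h := (hf v).resolve_left hf0
    rw [v.ord_mul (pow_ne_zero m hf0) (zpow_ne_zero j hu), v.ord_zpow u j]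
    have hpow : v.ord (f ^ m) = (m : ℤ) * v.ord f := by
      rw [← zpow_natCast, v.ord_zpow]
    rw [hpow]
    have e1 : (n • D0 + j • E) v = (n : ℤ) * D0 v + j * E v := by
      rw [Finsupp.add_apply, Finsupp.smul_apply, Finsupp.smul_apply, nsmul_eq_mul, smul_eq_mul]
    have e2 : ((m * n) • D0) v = ((m : ℤ) * n) * D0 v := by
      rw [Finsupp.smul_apply, nsmul_eq_mul]
      push_cast
      ring
    rw [e1] at h
    rw [e2]
    have h1 : (m : ℤ) * (-((n : ℤ) * D0 v + j * E v)) ≤ (m : ℤ) * v.ord f :=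
      mul_le_mul_of_nonneg_left h (Int.natCast_nonneg m)
    have h2 : j * ((m : ℤ) * E v) = j * v.ord u := by rw [hdiv v]
    nlinarith [h1, h2]

/-! ### The reduction of `L(E) ∩ O` -/

/-- The reduction of `L(E) ∩ O`, a `k`-subspace of `Rb`. -/
def h51_Rd (D : h22_Lat K F k Rb) (E : Divisor K F) : Submodule k Rb where
  carrier := {a | ∃ f : F, f ∈ riemannRochSpace E ∧ f ∈ D.O ∧ D.redF f = a}
  zero_mem' := ⟨0, Submodule.zero_mem _, D.O.zero_mem, by
    rw [D.redF_of_mem D.O.zero_mem]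
    exact map_zero D.red⟩
  add_mem' := by
    rintro a b ⟨f, hf, hfO, rfl⟩ ⟨g, hg, hgO, rfl⟩
    exact ⟨f + g, Submodule.add_mem _ hf hg, D.O.add_mem hfO hgO, h51_redF_add D hfO hgO⟩
  smul_mem' := by
    rintro c a ⟨f, hf, hfO, rfl⟩
    obtain ⟨a', rfl⟩ := D.res_surjective c
    refine ⟨(a' : K) • f, Submodule.smul_mem _ _ hf, ?_, ?_⟩
    · rw [Algebra.smul_def]
      exact D.O.mul_mem ((D.mem_iff _).mp a'.2) hfO
    · rw [h51_redF_smul D a'.2 hfO, D.resK_of_mem a'.2]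

theorem h51_mem_Rd_iff (D : h22_Lat K F k Rb) (E : Divisor K F) (a : Rb) :
    a ∈ h51_Rd D E ↔ ∃ f : F, f ∈ riemannRochSpace E ∧ f ∈ D.O ∧ D.redF f = a :=
  Iff.rfl

/-- `dim_k red (L(E) ∩ O) = dim_K L(E)`. -/
theorem h51_finrank_Rd (D : h22_Lat K F k Rb) (hON : h22_ON D) (E : Divisor K F)
    [FiniteDimensional K (riemannRochSpace E)] :
    Module.finrank k (h51_Rd D E) = Module.finrank K (riemannRochSpace E) := by
  have h := h22_finrank_red D hON (riemannRochSpace E)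
  have hset : Submodule.span k (D.redF '' {f : F | f ∈ riemannRochSpace E ∧ f ∈ D.O}) =
      h51_Rd D E := by
    apply le_antisymm
    · rw [Submodule.span_le]
      rintro _ ⟨f, ⟨hf, hfO⟩, rfl⟩
      exact ⟨f, hf, hfO, rfl⟩
    · rintro a ⟨f, hf, hfO, rfl⟩
      exact Submodule.subset_span ⟨f, ⟨hf, hfO⟩, rfl⟩
  rw [← hset]
  exact h

/-! ### Node values as linear functionals -/

/-- A node value, as a linear functional on a subspace `P` of the subalgebra `Bs`. -/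
def h51_ev (Bs : Subalgebra k Rb) (P : Submodule k Rb) (hPB : ∀ a ∈ P, a ∈ Bs)
    (e : Bs →ₐ[k] k) : P →ₗ[k] k where
  toFun a := e ⟨a.1, hPB a.1 a.2⟩
  map_add' a b := by
    rw [← map_add]
    rfl
  map_smul' c a := by
    rw [RingHom.id_apply, ← map_smul]
    rfl

theorem h51_ev_apply (Bs : Subalgebra k Rb) (P : Submodule k Rb) (hPB : ∀ a ∈ P, a ∈ Bs)
    (e : Bs →ₐ[k] k) (a : P) : h51_ev Bs P hPB e a = e ⟨a.1, hPB a.1 a.2⟩ := rfl

/-! ### Gluing constants -/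

/-- **Gluing constants of a toric class** (R63 `[P3]`, E-short `(2)`). -/
theorem h51_gluing (D : h22_Lat K F k Rb) (hON : h22_ON D)
    (hinv : ∀ (f : F) (hf : f ∈ D.O), IsUnit (D.red ⟨f, hf⟩) → f⁻¹ ∈ D.O)
    (D0 : Divisor K F) (P : ℕ → Submodule k Rb) [∀ n, FiniteDimensional k (P n)]
    (Bs : Subalgebra k Rb) (hPB : ∀ n, ∀ a ∈ P n, a ∈ Bs)
    {Z : Type*} [Fintype Z] (e1 e2 : Z → (Bs →ₐ[k] k))
    (n0 : ℕ) {m : ℕ} (hm : m ≠ 0)
    (hnode : ∀ n, n0 ≤ n → ∀ a : Rb, a ∈ h51_Rd D (n • D0) ↔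
        ∃ h : a ∈ P n, ∀ ν, e2 ν ⟨a, hPB n a h⟩ = e1 ν ⟨a, hPB n a h⟩)
    (hind : ∀ n, n0 ≤ n → ∀ s t : Z → k, ∃ a, ∃ h : a ∈ P n,
        (∀ ν, e1 ν ⟨a, hPB n a h⟩ = s ν) ∧ (∀ ν, e2 ν ⟨a, hPB n a h⟩ = t ν))
    (hroot : ∀ n, ∀ a : Rb, a ^ m ∈ P (m * n) → a ∈ P n)
    (hRR : ∀ n, n0 ≤ n → ∀ E : Divisor K F, Divisor.degree E = 0 →
        Module.Finite K (riemannRochSpace (n • D0 + E)) ∧
        Module.finrank K (riemannRochSpace (n • D0 + E)) =
          Module.finrank K (riemannRochSpace (n • D0)))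
    (E : Divisor K F) (hE : Divisor.degree E = 0) (u : F) (hu : u ≠ 0)
    (hdiv : ∀ v : Place K F, (m : ℤ) * E v = v.ord u) (huO : u ∈ D.O)
    (hured : D.red ⟨u, huO⟩ = 1) (j : ℤ) (n : ℕ) (hn : n0 ≤ n) :
    ∃ c : Z → k, (∀ ν, c ν ^ m = 1) ∧ ∀ a : Rb, a ∈ h51_Rd D (n • D0 + j • E) ↔
        ∃ h : a ∈ P n, ∀ ν, e2 ν ⟨a, hPB n a h⟩ = c ν * e1 ν ⟨a, hPB n a h⟩ := by
  classical
  have hmn : n0 ≤ m * n := le_trans hn (Nat.le_mul_of_pos_left n (Nat.pos_of_ne_zero hm))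
  -- (a) elements of `R` lie in `P n` and have node values with equal `m`-th powers
  have key : ∀ a ∈ h51_Rd D (n • D0 + j • E), ∃ h : a ∈ P n,
      ∀ ν, e1 ν ⟨a, hPB n a h⟩ ^ m = e2 ν ⟨a, hPB n a h⟩ ^ m := by
    rintro a ⟨f, hf, hfO, rfl⟩
    have hw := h51_zpow_mem D hinv hu huO hured j
    have hmem : f ^ m * u ^ j ∈ riemannRochSpace ((m * n) • D0) :=
      h51_pow_mul_zpow_mem_rr D0 E hu hm hdiv j n hf
    have hO : f ^ m * u ^ j ∈ D.O := D.O.mul_mem (D.O.pow_mem hfO m) hw.1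
    have hred : D.redF (f ^ m * u ^ j) = D.redF f ^ m := by
      rw [h51_redF_mul D (D.O.pow_mem hfO m) hw.1, hw.2, mul_one, h51_redF_pow D hfO]
    have hin : D.redF f ^ m ∈ h51_Rd D ((m * n) • D0) := ⟨_, hmem, hO, hred⟩
    obtain ⟨hP, hval⟩ := (hnode (m * n) hmn _).mp hin
    have hPn : D.redF f ∈ P n := hroot n _ hP
    refine ⟨hPn, fun ν => ?_⟩
    have hpow : (⟨D.redF f ^ m, hPB (m * n) _ hP⟩ : Bs) = ⟨D.redF f, hPB n _ hPn⟩ ^ m :=
      Subtype.ext rfl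
    have h3 := hval ν
    rw [hpow, map_pow, map_pow] at h3
    exact h3.symm
  have hRle : h51_Rd D (n • D0 + j • E) ≤ P n := fun a ha => (key a ha).1
  have hR0le : h51_Rd D (n • D0) ≤ P n := fun a ha => ((hnode n hn a).mp ha).1
  -- (b) dimensions
  have hdeg : Divisor.degree (j • E) = 0 := by rw [map_zsmul, hE, smul_zero]
  obtain ⟨hfin, hfr⟩ := hRR n hn (j • E) hdeg
  obtain ⟨hfin0, -⟩ := hRR n hn 0 (map_zero _)
  rw [add_zero] at hfin0
  have := hfin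
  have := hfin0
  have hd1 : Module.finrank k (h51_Rd D (n • D0 + j • E)) =
      Module.finrank K (riemannRochSpace (n • D0 + j • E)) := h51_finrank_Rd D hON _
  have hd0 : Module.finrank k (h51_Rd D (n • D0)) =
      Module.finrank K (riemannRochSpace (n • D0)) := h51_finrank_Rd D hON _
  -- (c) the node count on `B := P n`
  let ev1 : Z → (P n →ₗ[k] k) := fun ν => h51_ev Bs (P n) (hPB n) (e1 ν)
  let ev2 : Z → (P n →ₗ[k] k) := fun ν => h51_ev Bs (P n) (hPB n) (e2 ν)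
  let R' : Submodule k (P n) := (h51_Rd D (n • D0 + j • E)).comap (P n).subtype
  let R0' : Submodule k (P n) := (h51_Rd D (n • D0)).comap (P n).subtype
  have hR' : Module.finrank k R' = Module.finrank k (h51_Rd D (n • D0 + j • E)) :=
    (Submodule.comapSubtypeEquivOfLe hRle).finrank_eq
  have hR0' : Module.finrank k R0' = Module.finrank k (h51_Rd D (n • D0)) :=
    (Submodule.comapSubtypeEquivOfLe hR0le).finrank_eq
  -- the defect map for the base
  let Ψ : P n →ₗ[k] (Z → k) := LinearMap.pi (fun ν => ev2 ν - ev1 ν)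
  have hΨ : ∀ g ν, Ψ g ν = ev2 ν g - ev1 ν g := fun g ν => rfl
  have hker : LinearMap.ker Ψ = R0' := by
    ext g
    rw [LinearMap.mem_ker]
    constructor
    · intro h0
      show (g : Rb) ∈ h51_Rd D (n • D0)
      refine (hnode n hn g).mpr ⟨g.2, fun ν => ?_⟩
      have := congrFun h0 ν
      rw [hΨ, Pi.zero_apply, sub_eq_zero] at this
      exact this
    · intro hg
      obtain ⟨h, hh⟩ := (hnode n hn g).mp hg
      funext ν
      rw [hΨ, Pi.zero_apply, sub_eq_zero]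
      exact hh ν
  have hsur : Function.Surjective Ψ := by
    intro t
    obtain ⟨a, ha, ha1, ha2⟩ := hind n hn 0 t
    refine ⟨⟨a, ha⟩, funext fun ν => ?_⟩
    rw [hΨ]
    show e2 ν ⟨a, hPB n a ha⟩ - e1 ν ⟨a, hPB n a ha⟩ = t ν
    rw [ha1 ν, ha2 ν, Pi.zero_apply, sub_zero]
  have hrank : Module.finrank k R0' + Fintype.card Z = Module.finrank k (P n) := by
    have h1 := LinearMap.finrank_range_add_finrank_ker Ψ
    rw [LinearMap.range_eq_top.2 hsur, finrank_top, Module.finrank_pi, hker] at h1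
    omega
  have hdim : Module.finrank k (P n) ≤ Module.finrank k R' + Fintype.card Z := by
    rw [hR', hd1, hfr, ← hd0, ← hR0']
    omega
  have hsurj : ∀ a b : Z → k, ∃ g : P n, (∀ ν, ev1 ν g = a ν) ∧ (∀ ν, ev2 ν g = b ν) := by
    intro s t
    obtain ⟨a, ha, ha1, ha2⟩ := hind n hn s t
    exact ⟨⟨a, ha⟩, ha1, ha2⟩
  have hpw : ∀ g ∈ R', ∀ ν, ev1 ν g ^ m = ev2 ν g ^ m := by
    intro g hg ν
    obtain ⟨h, hh⟩ := key g.1 hg
    exact hh ν
  obtain ⟨c, hc, hiff⟩ := h63_node_count hm ev1 ev2 hsurj R' hdim hpw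
  refine ⟨c, hc, fun a => ⟨fun ha => ?_, fun ⟨h, hh⟩ => ?_⟩⟩
  · have h := hRle ha
    exact ⟨h, (hiff ⟨a, h⟩).mp ha⟩
  · exact (hiff ⟨a, h⟩).mpr hh

/-! ### Trivial gluing for `g' • y - y` -/

/-- If `g'` preserves `O` and the reductions, then `(g' • E - E, g' u / u)` is a toric witness
whenever `(E, u)` is. -/
theorem h51_toric_smul_sub (D : h22_Lat K F k Rb)
    (hinv : ∀ (f : F) (hf : f ∈ D.O), IsUnit (D.red ⟨f, hf⟩) → f⁻¹ ∈ D.O)
    (g' : SemilinearAut K F) (hgO : ∀ f, f ∈ D.O → g' • f ∈ D.O)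
    (hgred : ∀ f, f ∈ D.O → D.redF (g' • f) = D.redF f)
    {m : ℕ} (E : Divisor K F) (hE : Divisor.degree E = 0) (u : F) (hu : u ≠ 0)
    (hdiv : ∀ v : Place K F, (m : ℤ) * E v = v.ord u) (huO : u ∈ D.O)
    (hured : D.red ⟨u, huO⟩ = 1) :
    Divisor.degree (g' • E - E) = 0 ∧ (g' • u) * u⁻¹ ≠ 0 ∧
      (∀ v : Place K F, (m : ℤ) * (g' • E - E) v = v.ord ((g' • u) * u⁻¹)) ∧
      ∃ h : (g' • u) * u⁻¹ ∈ D.O, D.red ⟨(g' • u) * u⁻¹, h⟩ = 1 := by
  have hgu : g' • u ≠ 0 := by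
    intro h0
    apply hu
    have h1 : g'⁻¹ • (g' • u) = g'⁻¹ • (0 : F) := by rw [h0]
    rwa [inv_smul_smul, smul_zero] at h1
  have hinvO : u⁻¹ ∈ D.O := hinv u huO (by rw [hured]; exact isUnit_one)
  have hredu : D.redF u = 1 := by rw [D.redF_of_mem huO, hured]
  have hredinv : D.redF u⁻¹ = 1 := by
    have h := h51_redF_mul D hinvO huO
    rw [inv_mul_cancel₀ hu, h51_redF_one, hredu, mul_one] at h
    exact h.symm
  refine ⟨?_, mul_ne_zero hgu (inv_ne_zero hu), fun v => ?_, ?_⟩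
  · rw [map_sub, SemilinearAut.degree_smul, hE, sub_zero]
  · rw [v.ord_mul hgu (inv_ne_zero hu), v.ord_inv, Finsupp.sub_apply,
      SemilinearAut.divisor_smul_apply, mul_sub, hdiv, hdiv]
    have h2 := SemilinearAut.ord_smul g' (g'⁻¹ • v) u
    rw [smul_inv_smul] at h2
    rw [h2]
    ring
  · have hmem : (g' • u) * u⁻¹ ∈ D.O := D.O.mul_mem (hgO u huO) hinvO
    refine ⟨hmem, ?_⟩
    rw [← D.redF_of_mem hmem, h51_redF_mul D (hgO u huO) hinvO, hgred u huO, hredu, hredinv,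
      mul_one]

/-- **Trivial gluing** (R63 `[P4]`, E-short `(2)`): for a toric witness `(E, u)` and `g'`
preserving `O`, the reductions and `D0`, the class `g' • E - E` has trivial gluing constants:
`red (L(n D0 + j (g' • E - E)) ∩ O) = red (L(n D0) ∩ O)` for `n ≥ 2 n0`. -/
theorem h51_trivial_gluing (D : h22_Lat K F k Rb) (hON : h22_ON D)
    (hinv : ∀ (f : F) (hf : f ∈ D.O), IsUnit (D.red ⟨f, hf⟩) → f⁻¹ ∈ D.O)
    (D0 : Divisor K F) (P : ℕ → Submodule k Rb) [∀ n, FiniteDimensional k (P n)]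
    (Bs : Subalgebra k Rb) (hPB : ∀ n, ∀ a ∈ P n, a ∈ Bs)
    {Z : Type*} [Fintype Z] (e1 e2 : Z → (Bs →ₐ[k] k))
    (n0 : ℕ) {m : ℕ} (hm : m ≠ 0)
    (hnode : ∀ n, n0 ≤ n → ∀ a : Rb, a ∈ h51_Rd D (n • D0) ↔
        ∃ h : a ∈ P n, ∀ ν, e2 ν ⟨a, hPB n a h⟩ = e1 ν ⟨a, hPB n a h⟩)
    (hind : ∀ n, n0 ≤ n → ∀ s t : Z → k, ∃ a, ∃ h : a ∈ P n,
        (∀ ν, e1 ν ⟨a, hPB n a h⟩ = s ν) ∧ (∀ ν, e2 ν ⟨a, hPB n a h⟩ = t ν))
    (hroot : ∀ n, ∀ a : Rb, a ^ m ∈ P (m * n) → a ∈ P n)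
    (hRR : ∀ n, n0 ≤ n → ∀ E : Divisor K F, Divisor.degree E = 0 →
        Module.Finite K (riemannRochSpace (n • D0 + E)) ∧
        Module.finrank K (riemannRochSpace (n • D0 + E)) =
          Module.finrank K (riemannRochSpace (n • D0)))
    (g' : SemilinearAut K F) (hgO : ∀ f, f ∈ D.O → g' • f ∈ D.O)
    (hgred : ∀ f, f ∈ D.O → D.redF (g' • f) = D.redF f) (hgD0 : g' • D0 = D0)
    (E : Divisor K F) (hE : Divisor.degree E = 0) (u : F) (hu : u ≠ 0)
    (hdiv : ∀ v : Place K F, (m : ℤ) * E v = v.ord u) (huO : u ∈ D.O)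
    (hured : D.red ⟨u, huO⟩ = 1) (j : ℤ) (n : ℕ) (hn : 2 * n0 ≤ n) :
    h51_Rd D (n • D0 + j • (g' • E - E)) = h51_Rd D (n • D0) := by
  classical
  have hn1 : n0 ≤ n - n0 := by omega
  have hn2 : n0 ≤ n := by omega
  have hsum : n0 + (n - n0) = n := by omega
  -- gluing constants of `y` in degrees `j` and `-j`
  obtain ⟨cp, -, hp⟩ := h51_gluing D hON hinv D0 P Bs hPB e1 e2 n0 hm hnode hind hroot hRR
    E hE u hu hdiv huO hured j n0 le_rfl
  obtain ⟨cm, -, hmi⟩ := h51_gluing D hON hinv D0 P Bs hPB e1 e2 n0 hm hnode hind hroot hRR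
    E hE u hu hdiv huO hured (-j) (n - n0) hn1
  obtain ⟨a, haP, ha1, ha2⟩ := hind n0 le_rfl (fun _ => 1) cp
  have haR : a ∈ h51_Rd D (n0 • D0 + j • E) :=
    (hp a).mpr ⟨haP, fun ν => by rw [ha1 ν, ha2 ν, mul_one]⟩
  obtain ⟨b, hbP, hb1, hb2⟩ := hind (n - n0) hn1 (fun _ => 1) cm
  have hbR : b ∈ h51_Rd D ((n - n0) • D0 + (-j) • E) :=
    (hmi b).mpr ⟨hbP, fun ν => by rw [hb1 ν, hb2 ν, mul_one]⟩
  obtain ⟨f, hf, hfO, rfl⟩ := haR
  obtain ⟨g, hg, hgO', rfl⟩ := hbR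
  -- the product `f g` lies in `L(n D0) ∩ O`
  have hdiv1 : (n0 • D0 + j • E) + ((n - n0) • D0 + (-j) • E) = n • D0 := by
    rw [← hsum, add_nsmul, neg_smul]
    have : n0 + (n - n0) - n0 = n - n0 := by omega
    rw [this]
    abel
  have hfg : f * g ∈ riemannRochSpace (n • D0) := by
    rw [← hdiv1]
    exact h51_mul_mem_rr hf hg
  have hab : D.redF f * D.redF g ∈ h51_Rd D (n • D0) :=
    ⟨f * g, hfg, D.O.mul_mem hfO hgO', h51_redF_mul D hfO hgO'⟩
  obtain ⟨habP, habv⟩ := (hnode n hn2 _).mp hab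
  -- the product `(g' • f) g` lies in `L(n D0 + j (g' • E - E)) ∩ O` and has the same reduction
  have hf' : g' • f ∈ riemannRochSpace (n0 • D0 + j • (g' • E)) := by
    have h := h51_smul_mem_rr g' hf
    rwa [smul_add, smul_comm g' n0 D0, hgD0, smul_comm g' j E] at h
  have hdiv2 : (n0 • D0 + j • (g' • E)) + ((n - n0) • D0 + (-j) • E) =
      n • D0 + j • (g' • E - E) := by
    rw [← hsum, add_nsmul, neg_smul, smul_sub]
    have : n0 + (n - n0) - n0 = n - n0 := by omega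
    rw [this]
    abel
  have hfg' : (g' • f) * g ∈ riemannRochSpace (n • D0 + j • (g' • E - E)) := by
    rw [← hdiv2]
    exact h51_mul_mem_rr hf' hg
  have hab' : D.redF f * D.redF g ∈ h51_Rd D (n • D0 + j • (g' • E - E)) :=
    ⟨(g' • f) * g, hfg', D.O.mul_mem (hgO f hfO) hgO', by
      rw [h51_redF_mul D (hgO f hfO) hgO', hgred f hfO]⟩
  -- gluing constants of `z`
  obtain ⟨hEz, huz0, hdivz, huzO, huzred⟩ :=
    h51_toric_smul_sub D hinv g' hgO hgred E hE u hu hdiv huO hured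
  obtain ⟨cz, -, hz⟩ := h51_gluing D hON hinv D0 P Bs hPB e1 e2 n0 hm hnode hind hroot hRR
    (g' • E - E) hEz ((g' • u) * u⁻¹) huz0 hdivz huzO huzred j n hn2
  obtain ⟨habP', habz⟩ := (hz _).mp hab'
  have hcz1 : ∀ ν, cz ν = 1 := by
    intro ν
    have h1 := habv ν
    have h2 := habz ν
    have hprod : (⟨D.redF f * D.redF g, hPB n _ habP⟩ : Bs) =
        ⟨D.redF f, hPB n0 _ haP⟩ * ⟨D.redF g, hPB (n - n0) _ hbP⟩ := Subtype.ext rfl
    have h3 : e1 ν ⟨D.redF f * D.redF g, hPB n _ habP⟩ = 1 := by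
      rw [hprod, map_mul, ha1 ν, hb1 ν, mul_one]
    rw [h1, h3, mul_one] at h2
    exact h2.symm
  ext x
  rw [hz x, hnode n hn2 x]
  constructor
  · rintro ⟨h, hh⟩
    exact ⟨h, fun ν => by rw [hh ν, hcz1 ν, one_mul]⟩
  · rintro ⟨h, hh⟩
    exact ⟨h, fun ν => by rw [hh ν, hcz1 ν, one_mul]⟩

/-- Consequence of trivial gluing: every reduction of an element of `L(n D0) ∩ O` is the
reduction of an element of `L(n D0 + j (g' • E - E)) ∩ O` (the starting point of the Newton /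
core step of the endgames). -/
theorem h51_exists_lift_trivial (D : h22_Lat K F k Rb) (hON : h22_ON D)
    (hinv : ∀ (f : F) (hf : f ∈ D.O), IsUnit (D.red ⟨f, hf⟩) → f⁻¹ ∈ D.O)
    (D0 : Divisor K F) (P : ℕ → Submodule k Rb) [∀ n, FiniteDimensional k (P n)]
    (Bs : Subalgebra k Rb) (hPB : ∀ n, ∀ a ∈ P n, a ∈ Bs)
    {Z : Type*} [Fintype Z] (e1 e2 : Z → (Bs →ₐ[k] k))
    (n0 : ℕ) {m : ℕ} (hm : m ≠ 0)
    (hnode : ∀ n, n0 ≤ n → ∀ a : Rb, a ∈ h51_Rd D (n • D0) ↔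
        ∃ h : a ∈ P n, ∀ ν, e2 ν ⟨a, hPB n a h⟩ = e1 ν ⟨a, hPB n a h⟩)
    (hind : ∀ n, n0 ≤ n → ∀ s t : Z → k, ∃ a, ∃ h : a ∈ P n,
        (∀ ν, e1 ν ⟨a, hPB n a h⟩ = s ν) ∧ (∀ ν, e2 ν ⟨a, hPB n a h⟩ = t ν))
    (hroot : ∀ n, ∀ a : Rb, a ^ m ∈ P (m * n) → a ∈ P n)
    (hRR : ∀ n, n0 ≤ n → ∀ E : Divisor K F, Divisor.degree E = 0 →
        Module.Finite K (riemannRochSpace (n • D0 + E)) ∧
        Module.finrank K (riemannRochSpace (n • D0 + E)) =
          Module.finrank K (riemannRochSpace (n • D0)))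
    (g' : SemilinearAut K F) (hgO : ∀ f, f ∈ D.O → g' • f ∈ D.O)
    (hgred : ∀ f, f ∈ D.O → D.redF (g' • f) = D.redF f) (hgD0 : g' • D0 = D0)
    (E : Divisor K F) (hE : Divisor.degree E = 0) (u : F) (hu : u ≠ 0)
    (hdiv : ∀ v : Place K F, (m : ℤ) * E v = v.ord u) (huO : u ∈ D.O)
    (hured : D.red ⟨u, huO⟩ = 1) (j : ℤ) (n : ℕ) (hn : 2 * n0 ≤ n)
    (s0 : F) (hs0 : s0 ∈ riemannRochSpace (n • D0)) (hs0O : s0 ∈ D.O) :
    ∃ g0 : F, g0 ∈ riemannRochSpace (n • D0 + j • (g' • E - E)) ∧ g0 ∈ D.O ∧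
      D.redF g0 = D.redF s0 := by
  have h := h51_trivial_gluing D hON hinv D0 P Bs hPB e1 e2 n0 hm hnode hind hroot hRR g' hgO
    hgred hgD0 E hE u hu hdiv huO hured j n hn
  have hmem : D.redF s0 ∈ h51_Rd D (n • D0) := ⟨s0, hs0, hs0O, rfl⟩
  rw [← h] at hmem
  exact hmem

end Fermat.Agent.S34

end
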