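import Mathlib
import Fermat.Agent.S34.h51_Glue
import Fermat.Agent.S27.RRFull
import Fermat.Agent.S18.GR_ChartPt
import Fermat.Agent.S27.h57_SemiAct

/-!
# S34 / CHART-SF (helper20): the special-fibre side of helper51's `(CHART)` binders

Generic (no modular input).  `k` algebraically closed, `Fb / k` a function field with a chart
`xb`, `Qinf : Place k Fb` ("the cusp"), `Rb := Fb × Fb` (the two components of the special
fibre), `Z` a finite type of nodes and `Q1 Q2 : Z → Place k Fb` the two branches of the nodes,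
all different from `Qinf`.

* `h20_regOff Qinf : Subalgebra k Fb` : the functions regular off `Qinf`;
* `h20_Bs Qinf : Subalgebra k (Fb × Fb)` : pairs of such functions;
* `h20_P Qinf n : Submodule k (Fb × Fb)` : pairs of elements of `L(n Qinf)`;
* `h20_valOff hx Qinf Q hQ : h20_regOff Qinf →ₐ[k] k` : the value at a place `Q ≠ Qinf`;
* `h20_e1 hx Qinf Q1 h1 ν`, `h20_e2 hx Qinf Q2 h2 ν : h20_Bs Qinf →ₐ[k] k` : the value of the
  first coordinate at `Q1 ν`, of the second coordinate at `Q2 ν`.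

Exports, in the binder shapes of `h51_gluing` (`S34/h51_Glue.lean`):

* `h20_P_finite` : `FiniteDimensional k (h20_P Qinf n)`;
* `h20_P_le_Bs` : `(hPB)`;
* `h20_chart_ind` : `(IND)` for `n ≥ 2 g + |Z|` (`Q1`, `Q2` injective);
* `h20_chart_root` : `(ROOT)`;
* `h20_P_mul` : `(MULP)`;
* `h20_e1_pow`, `h20_e2_pow`, `h20_e1_frob`, `h20_e2_frob` : behaviour of the node values under
  powers and under a ring endomorphism acting on values by the `Q`-th power (the shape used by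
  the Frobenius twin of `h51_trivial_gluing`).
-/

set_option autoImplicit false

noncomputable section

open AlgebraicCurve Module

namespace Fermat.Agent.S34

open Fermat.Agent.S18 Fermat.Agent.S24 Fermat.Agent.S27

variable {k Fb : Type*} [Field k] [Field Fb] [Algebra k Fb]

/-! ### Functions regular off a place -/

/-- The `k`-algebra of functions regular at every place different from `Qinf`. -/
def h20_regOff (Qinf : Place k Fb) : Subalgebra k Fb where
  carrier := {f | ∀ v : Place k Fb, v ≠ Qinf → f ∈ v.toValuationSubring}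
  mul_mem' := fun ha hb v hv => v.toValuationSubring.mul_mem _ _ (ha v hv) (hb v hv)
  one_mem' := fun v _ => v.toValuationSubring.one_mem
  add_mem' := fun ha hb v hv => v.toValuationSubring.add_mem _ _ (ha v hv) (hb v hv)
  zero_mem' := fun v _ => v.toValuationSubring.zero_mem
  algebraMap_mem' := fun c v _ => v.algebraMap_mem' c

theorem h20_mem_regOff {Qinf : Place k Fb} {f : Fb} :
    f ∈ h20_regOff Qinf ↔ ∀ v : Place k Fb, v ≠ Qinf → f ∈ v.toValuationSubring :=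
  Iff.rfl

/-- The polar divisor `n • Qinf`. -/
def h20_Dinf (Qinf : Place k Fb) (n : ℕ) : Divisor k Fb := n • Finsupp.single Qinf (1 : ℤ)

theorem h20_Dinf_self (Qinf : Place k Fb) (n : ℕ) : h20_Dinf Qinf n Qinf = n := by
  unfold h20_Dinf
  rw [Finsupp.smul_apply, Finsupp.single_eq_same, nsmul_eq_mul, mul_one]

theorem h20_Dinf_of_ne (Qinf : Place k Fb) (n : ℕ) {v : Place k Fb} (hv : v ≠ Qinf) :
    h20_Dinf Qinf n v = 0 := by
  unfold h20_Dinf
  rw [Finsupp.smul_apply, Finsupp.single_eq_of_ne hv, smul_zero]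

theorem h20_mem_rr_Dinf {Qinf : Place k Fb} {n : ℕ} {f : Fb} :
    f ∈ riemannRochSpace (h20_Dinf Qinf n) ↔
      (f = 0 ∨ -(n : ℤ) ≤ Qinf.ord f) ∧ ∀ v : Place k Fb, v ≠ Qinf → f ∈ v.toValuationSubring := by
  rw [mem_riemannRochSpace_iff]
  constructor
  · intro h
    refine ⟨?_, fun v hv => ?_⟩
    · have := h Qinf
      rwa [h20_Dinf_self] at this
    · rcases h v with rfl | h'
      · exact v.toValuationSubring.zero_mem
      · rw [h20_Dinf_of_ne Qinf n hv, neg_zero] at h'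
        exact h24_mem_of_ord_nonneg v h'
  · rintro ⟨h1, h2⟩ v
    by_cases hv : v = Qinf
    · subst hv
      rwa [h20_Dinf_self]
    · right
      rw [h20_Dinf_of_ne Qinf n hv, neg_zero]
      exact h24_ord_nonneg_of_mem v (h2 v hv)

theorem h20_rr_Dinf_le_regOff (Qinf : Place k Fb) (n : ℕ) {f : Fb}
    (hf : f ∈ riemannRochSpace (h20_Dinf Qinf n)) : f ∈ h20_regOff Qinf :=
  (h20_mem_rr_Dinf.mp hf).2

/-! ### The pair objects -/

/-- Pairs of functions regular off `Qinf`. -/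
def h20_Bs (Qinf : Place k Fb) : Subalgebra k (Fb × Fb) :=
  (h20_regOff Qinf).prod (h20_regOff Qinf)

theorem h20_mem_Bs {Qinf : Place k Fb} {y : Fb × Fb} :
    y ∈ h20_Bs Qinf ↔ y.1 ∈ h20_regOff Qinf ∧ y.2 ∈ h20_regOff Qinf :=
  Subalgebra.mem_prod

/-- Pairs of elements of `L(n Qinf)`. -/
def h20_P (Qinf : Place k Fb) (n : ℕ) : Submodule k (Fb × Fb) :=
  (riemannRochSpace (h20_Dinf Qinf n)).prod (riemannRochSpace (h20_Dinf Qinf n))

theorem h20_mem_P {Qinf : Place k Fb} {n : ℕ} {y : Fb × Fb} :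
    y ∈ h20_P Qinf n ↔ y.1 ∈ riemannRochSpace (h20_Dinf Qinf n) ∧
      y.2 ∈ riemannRochSpace (h20_Dinf Qinf n) :=
  Submodule.mem_prod

/-- `(hPB)`. -/
theorem h20_P_le_Bs (Qinf : Place k Fb) : ∀ n, ∀ a ∈ h20_P Qinf n, a ∈ h20_Bs Qinf := by
  intro n a ha
  rw [h20_mem_P] at ha
  exact h20_mem_Bs.mpr ⟨h20_rr_Dinf_le_regOff Qinf n ha.1, h20_rr_Dinf_le_regOff Qinf n ha.2⟩

/-- `(MULP)`. -/
theorem h20_P_mul (Qinf : Place k Fb) (n n' : ℕ) {a b : Fb × Fb} (ha : a ∈ h20_P Qinf n)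
    (hb : b ∈ h20_P Qinf n') : a * b ∈ h20_P Qinf (n + n') := by
  rw [h20_mem_P] at ha hb ⊢
  have hD : h20_Dinf Qinf (n + n') = h20_Dinf Qinf n + h20_Dinf Qinf n' := by
    unfold h20_Dinf
    rw [add_nsmul]
  rw [hD]
  exact ⟨h51_mul_mem_rr ha.1 hb.1, h51_mul_mem_rr ha.2 hb.2⟩

theorem h20_rr_root (Qinf : Place k Fb) {m : ℕ} (hm : m ≠ 0) (n : ℕ) {f : Fb}
    (hf : f ^ m ∈ riemannRochSpace (h20_Dinf Qinf (m * n))) :
    f ∈ riemannRochSpace (h20_Dinf Qinf n) := by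
  rw [mem_riemannRochSpace_iff] at hf ⊢
  intro v
  rcases eq_or_ne f 0 with rfl | hf0
  · exact Or.inl rfl
  right
  have h := (hf v).resolve_left (pow_ne_zero m hf0)
  have hpow : v.ord (f ^ m) = (m : ℤ) * v.ord f := by
    rw [← zpow_natCast, v.ord_zpow]
  rw [hpow] at h
  have hmpos : (0 : ℤ) < (m : ℤ) := by exact_mod_cast Nat.pos_of_ne_zero hm
  by_cases hv : v = Qinf
  · subst hv
    rw [h20_Dinf_self] at h ⊢
    push_cast at h
    have h' : (m : ℤ) * (-(n : ℤ)) ≤ (m : ℤ) * v.ord f := by linarith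
    exact le_of_mul_le_mul_left h' hmpos
  · rw [h20_Dinf_of_ne Qinf _ hv, neg_zero] at h ⊢
    have h' : (m : ℤ) * 0 ≤ (m : ℤ) * v.ord f := by simpa using h
    exact le_of_mul_le_mul_left h' hmpos

/-- `(ROOT)`. -/
theorem h20_chart_root (Qinf : Place k Fb) {m : ℕ} (hm : m ≠ 0) :
    ∀ n, ∀ a : Fb × Fb, a ^ m ∈ h20_P Qinf (m * n) → a ∈ h20_P Qinf n := by
  intro n a ha
  rw [h20_mem_P] at ha ⊢
  exact ⟨h20_rr_root Qinf hm n ha.1, h20_rr_root Qinf hm n ha.2⟩

section AlgClosed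

variable [IsAlgClosed k] {xb : Fb} (hx : h75_IsChart k xb)

include hx in
/-- `FiniteDimensional k (P n)`. -/
theorem h20_P_finite (Qinf : Place k Fb) (n : ℕ) : FiniteDimensional k (h20_P Qinf n) := by
  have h1 : Module.Finite k (riemannRochSpace (h20_Dinf Qinf n)) := (h75_riemann hx _).1
  have hfg : (riemannRochSpace (h20_Dinf Qinf n)).FG := Module.Finite.iff_fg.mp h1
  exact Module.Finite.iff_fg.mpr (hfg.prod hfg)

/-! ### Values at a place different from `Qinf` -/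

variable (Qinf : Place k Fb)

/-- The value at `Q ≠ Qinf` of a function regular off `Qinf`. -/
def h20_valFun (Q : Place k Fb) (hQ : Q ≠ Qinf) (b : h20_regOff Qinf) : k :=
  Classical.choose (h39_exists_val hx Q (b.2 Q hQ))

theorem h20_valFun_spec (Q : Place k Fb) (hQ : Q ≠ Qinf) (b : h20_regOff Qinf) :
    h39_Val Q (b : Fb) (h20_valFun hx Qinf Q hQ b) :=
  Classical.choose_spec (h39_exists_val hx Q (b.2 Q hQ))

theorem h20_valFun_eq (Q : Place k Fb) (hQ : Q ≠ Qinf) (b : h20_regOff Qinf) {c : k}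
    (h : h39_Val Q (b : Fb) c) : h20_valFun hx Qinf Q hQ b = c :=
  h39_val_unique Q (h20_valFun_spec hx Qinf Q hQ b) h

/-- Evaluation at `Q ≠ Qinf`, as a `k`-algebra homomorphism. -/
def h20_valOff (Q : Place k Fb) (hQ : Q ≠ Qinf) : h20_regOff Qinf →ₐ[k] k where
  toFun := h20_valFun hx Qinf Q hQ
  map_one' := h20_valFun_eq hx Qinf Q hQ 1 (by
    have := h39_val_algebraMap Q (1 : k)
    rwa [map_one] at this)
  map_mul' a b := h20_valFun_eq hx Qinf Q hQ (a * b)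
    (h39_val_mul Q (h20_valFun_spec hx Qinf Q hQ a) (h20_valFun_spec hx Qinf Q hQ b))
  map_zero' := h20_valFun_eq hx Qinf Q hQ 0 (by
    have := h39_val_algebraMap Q (0 : k)
    rwa [map_zero] at this)
  map_add' a b := h20_valFun_eq hx Qinf Q hQ (a + b)
    (h39_val_add Q (h20_valFun_spec hx Qinf Q hQ a) (h20_valFun_spec hx Qinf Q hQ b))
  commutes' a := h20_valFun_eq hx Qinf Q hQ (algebraMap k (h20_regOff Qinf) a)
    (h39_val_algebraMap Q a)

theorem h20_valOff_spec (Q : Place k Fb) (hQ : Q ≠ Qinf) (b : h20_regOff Qinf) :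
    h39_Val Q (b : Fb) (h20_valOff hx Qinf Q hQ b) :=
  h20_valFun_spec hx Qinf Q hQ b

theorem h20_valOff_eq (Q : Place k Fb) (hQ : Q ≠ Qinf) (b : h20_regOff Qinf) {c : k}
    (h : h39_Val Q (b : Fb) c) : h20_valOff hx Qinf Q hQ b = c :=
  h20_valFun_eq hx Qinf Q hQ b h

/-- The two coordinate projections of `h20_Bs`. -/
def h20_fstB : h20_Bs Qinf →ₐ[k] h20_regOff Qinf :=
  AlgHom.codRestrict ((AlgHom.fst k Fb Fb).comp (h20_Bs Qinf).val) (h20_regOff Qinf)
    (fun y => (h20_mem_Bs.mp y.2).1)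

def h20_sndB : h20_Bs Qinf →ₐ[k] h20_regOff Qinf :=
  AlgHom.codRestrict ((AlgHom.snd k Fb Fb).comp (h20_Bs Qinf).val) (h20_regOff Qinf)
    (fun y => (h20_mem_Bs.mp y.2).2)

omit [IsAlgClosed k] in
theorem h20_fstB_coe (y : h20_Bs Qinf) : ((h20_fstB Qinf y : h20_regOff Qinf) : Fb) = y.1.1 :=
  rfl

omit [IsAlgClosed k] in
theorem h20_sndB_coe (y : h20_Bs Qinf) : ((h20_sndB Qinf y : h20_regOff Qinf) : Fb) = y.1.2 :=
  rfl

variable {Z : Type*} (Q1 Q2 : Z → Place k Fb) (h1 : ∀ ν, Q1 ν ≠ Qinf) (h2 : ∀ ν, Q2 ν ≠ Qinf)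

/-- The value of the first coordinate at the first branch `Q1 ν` of the node `ν`. -/
def h20_e1 (ν : Z) : h20_Bs Qinf →ₐ[k] k :=
  (h20_valOff hx Qinf (Q1 ν) (h1 ν)).comp (h20_fstB Qinf)

/-- The value of the second coordinate at the second branch `Q2 ν` of the node `ν`. -/
def h20_e2 (ν : Z) : h20_Bs Qinf →ₐ[k] k :=
  (h20_valOff hx Qinf (Q2 ν) (h2 ν)).comp (h20_sndB Qinf)

theorem h20_e1_spec (ν : Z) (y : h20_Bs Qinf) :
    h39_Val (Q1 ν) (y : Fb × Fb).1 (h20_e1 hx Qinf Q1 h1 ν y) :=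
  h20_valOff_spec hx Qinf (Q1 ν) (h1 ν) (h20_fstB Qinf y)

theorem h20_e2_spec (ν : Z) (y : h20_Bs Qinf) :
    h39_Val (Q2 ν) (y : Fb × Fb).2 (h20_e2 hx Qinf Q2 h2 ν y) :=
  h20_valOff_spec hx Qinf (Q2 ν) (h2 ν) (h20_sndB Qinf y)

theorem h20_e1_eq (ν : Z) (y : h20_Bs Qinf) {c : k} (h : h39_Val (Q1 ν) (y : Fb × Fb).1 c) :
    h20_e1 hx Qinf Q1 h1 ν y = c :=
  h20_valOff_eq hx Qinf (Q1 ν) (h1 ν) (h20_fstB Qinf y) h

theorem h20_e2_eq (ν : Z) (y : h20_Bs Qinf) {c : k} (h : h39_Val (Q2 ν) (y : Fb × Fb).2 c) :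
    h20_e2 hx Qinf Q2 h2 ν y = c :=
  h20_valOff_eq hx Qinf (Q2 ν) (h2 ν) (h20_sndB Qinf y) h

/-- Node values of powers. -/
theorem h20_e1_pow (ν : Z) (y : h20_Bs Qinf) (n : ℕ) :
    h20_e1 hx Qinf Q1 h1 ν (y ^ n) = h20_e1 hx Qinf Q1 h1 ν y ^ n :=
  map_pow _ _ _

theorem h20_e2_pow (ν : Z) (y : h20_Bs Qinf) (n : ℕ) :
    h20_e2 hx Qinf Q2 h2 ν (y ^ n) = h20_e2 hx Qinf Q2 h2 ν y ^ n :=
  map_pow _ _ _

/-! ### `(IND)`: node values are independent on `P n` -/

section Ind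

/-- The evaluation map `L(n Qinf) → k^Z` at a family of places different from `Qinf`. -/
def h20_evMap (Q : Z → Place k Fb) (hQ : ∀ ν, Q ν ≠ Qinf) (n : ℕ) :
    riemannRochSpace (h20_Dinf Qinf n) →ₗ[k] (Z → k) where
  toFun f ν := h20_valOff hx Qinf (Q ν) (hQ ν) ⟨f.1, h20_rr_Dinf_le_regOff Qinf n f.2⟩
  map_add' f g := by
    funext ν
    exact map_add (h20_valOff hx Qinf (Q ν) (hQ ν))
      ⟨f.1, h20_rr_Dinf_le_regOff Qinf n f.2⟩ ⟨g.1, h20_rr_Dinf_le_regOff Qinf n g.2⟩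
  map_smul' c f := by
    funext ν
    exact map_smul (h20_valOff hx Qinf (Q ν) (hQ ν)) c
      ⟨f.1, h20_rr_Dinf_le_regOff Qinf n f.2⟩

theorem h20_evMap_spec (Q : Z → Place k Fb) (hQ : ∀ ν, Q ν ≠ Qinf) (n : ℕ)
    (f : riemannRochSpace (h20_Dinf Qinf n)) (ν : Z) :
    h39_Val (Q ν) (f : Fb) (h20_evMap hx Qinf Q hQ n f ν) :=
  h20_valOff_spec hx Qinf (Q ν) (hQ ν) ⟨f.1, h20_rr_Dinf_le_regOff Qinf n f.2⟩

variable [Fintype Z]

/-- The divisor of a family of places. -/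
def h20_DZ (Q : Z → Place k Fb) : Divisor k Fb := ∑ ν, Finsupp.single (Q ν) (1 : ℤ)

omit [IsAlgClosed k] in
theorem h20_DZ_node (Q : Z → Place k Fb) (hinj : Function.Injective Q) (ν : Z) :
    h20_DZ Q (Q ν) = 1 := by
  classical
  unfold h20_DZ
  rw [Finsupp.finsetSum_apply, Finset.sum_eq_single ν]
  · exact Finsupp.single_eq_same
  · intro μ _ hμ
    exact Finsupp.single_eq_of_ne (fun h => hμ (hinj h).symm)
  · intro h
    exact absurd (Finset.mem_univ ν) h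

omit [IsAlgClosed k] in
theorem h20_DZ_of_ne (Q : Z → Place k Fb) {v : Place k Fb} (hv : ∀ ν, Q ν ≠ v) :
    h20_DZ Q v = 0 := by
  classical
  unfold h20_DZ
  rw [Finsupp.finsetSum_apply]
  exact Finset.sum_eq_zero fun ν _ => Finsupp.single_eq_of_ne (fun h => hv ν h.symm)

include hx in
theorem h20_degree_DZ (Q : Z → Place k Fb) : Divisor.degree (h20_DZ Q) = Fintype.card Z := by
  unfold h20_DZ
  rw [map_sum]
  have : ∀ ν ∈ (Finset.univ : Finset Z),
      Divisor.degree (Finsupp.single (Q ν) (1 : ℤ)) = 1 := by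
    intro ν _
    rw [Divisor.degree_single, h75_deg_eq_one hx (Q ν)]
    norm_num
  rw [Finset.sum_congr rfl this, Finset.sum_const, Finset.card_univ]
  simp

include hx in
theorem h20_degree_Dinf (n : ℕ) : Divisor.degree (h20_Dinf Qinf n) = n := by
  unfold h20_Dinf
  rw [map_nsmul, Divisor.degree_single, h75_deg_eq_one hx Qinf]
  simp

theorem h20_ker_evMap_le (Q : Z → Place k Fb) (hQ : ∀ ν, Q ν ≠ Qinf)
    (hinj : Function.Injective Q) (n : ℕ) :
    (LinearMap.ker (h20_evMap hx Qinf Q hQ n)).map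
        (riemannRochSpace (h20_Dinf Qinf n)).subtype ≤
      riemannRochSpace (h20_Dinf Qinf n - h20_DZ Q) := by
  rintro _ ⟨f, hf, rfl⟩
  have hker : h20_evMap hx Qinf Q hQ n f = 0 := LinearMap.mem_ker.mp hf
  have hfL := f.2
  rw [mem_riemannRochSpace_iff] at hfL
  show (f : Fb) ∈ riemannRochSpace (h20_Dinf Qinf n - h20_DZ Q)
  rw [mem_riemannRochSpace_iff]
  intro v
  rw [Finsupp.sub_apply]
  by_cases hv : ∃ ν, Q ν = v
  · obtain ⟨ν, rfl⟩ := hv
    have hval := h20_evMap_spec hx Qinf Q hQ n f ν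
    rw [hker, Pi.zero_apply, h39_val_zero_iff] at hval
    rcases hval with h0 | hpos
    · exact Or.inl h0
    · right
      rw [h20_Dinf_of_ne Qinf n (hQ ν), h20_DZ_node Q hinj ν]
      omega
  · have hv' : ∀ ν, Q ν ≠ v := fun ν h => hv ⟨ν, h⟩
    rw [h20_DZ_of_ne Q hv', sub_zero]
    exact hfL v

/-- Surjectivity of the evaluation map for `n ≥ 2 g + |Z|`. -/
theorem h20_evMap_surjective (Q : Z → Place k Fb) (hQ : ∀ ν, Q ν ≠ Qinf)
    (hinj : Function.Injective Q) (n : ℕ)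
    (hn : 2 * h75_genus k xb + Fintype.card Z ≤ n) :
    Function.Surjective (h20_evMap hx Qinf Q hQ n) := by
  classical
  have hfinV : Module.Finite k (riemannRochSpace (h20_Dinf Qinf n)) := (h75_riemann hx _).1
  have hfinK : Module.Finite k (riemannRochSpace (h20_Dinf Qinf n - h20_DZ Q)) :=
    (h75_riemann hx _).1
  have hnZ : (2 * h75_genus k xb : ℤ) + (Fintype.card Z : ℤ) ≤ (n : ℤ) := by exact_mod_cast hn
  have hdegV : Divisor.degree (h20_Dinf Qinf n) = n := h20_degree_Dinf hx Qinf n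
  have hdegK : Divisor.degree (h20_Dinf Qinf n - h20_DZ Q) = (n : ℤ) - Fintype.card Z := by
    rw [map_sub, hdegV, h20_degree_DZ hx Q]
  have hZ0 : (0 : ℤ) ≤ (Fintype.card Z : ℤ) := Int.natCast_nonneg _
  have hV : (Module.finrank k (riemannRochSpace (h20_Dinf Qinf n)) : ℤ) =
      (n : ℤ) + 1 - h75_genus k xb := by
    rw [h15_finrank_rr_of_deg hx _ (by rw [hdegV]; omega), hdegV]
  have hK : (Module.finrank k (riemannRochSpace (h20_Dinf Qinf n - h20_DZ Q)) : ℤ) =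
      (n : ℤ) - Fintype.card Z + 1 - h75_genus k xb := by
    rw [h15_finrank_rr_of_deg hx _ (by rw [hdegK]; omega), hdegK]
  have hle : Module.finrank k (LinearMap.ker (h20_evMap hx Qinf Q hQ n)) ≤
      Module.finrank k (riemannRochSpace (h20_Dinf Qinf n - h20_DZ Q)) := by
    rw [← Submodule.finrank_map_subtype_eq]
    exact Submodule.finrank_mono (h20_ker_evMap_le hx Qinf Q hQ hinj n)
  have hrn := LinearMap.finrank_range_add_finrank_ker (h20_evMap hx Qinf Q hQ n)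
  have hrange_le : Module.finrank k (LinearMap.range (h20_evMap hx Qinf Q hQ n)) ≤
      Module.finrank k (Z → k) := Submodule.finrank_le _
  have hpi : Module.finrank k (Z → k) = Fintype.card Z := Module.finrank_fintype_fun_eq_card k
  have hrank : Module.finrank k (LinearMap.range (h20_evMap hx Qinf Q hQ n)) =
      Module.finrank k (Z → k) := by
    have h1 : (Module.finrank k (LinearMap.range (h20_evMap hx Qinf Q hQ n)) : ℤ) +
        (Module.finrank k (LinearMap.ker (h20_evMap hx Qinf Q hQ n)) : ℤ) =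
        (Module.finrank k (riemannRochSpace (h20_Dinf Qinf n)) : ℤ) := by exact_mod_cast hrn
    have h2 : (Module.finrank k (LinearMap.ker (h20_evMap hx Qinf Q hQ n)) : ℤ) ≤
        (Module.finrank k (riemannRochSpace (h20_Dinf Qinf n - h20_DZ Q)) : ℤ) := by
      exact_mod_cast hle
    have h3 : (Module.finrank k (LinearMap.range (h20_evMap hx Qinf Q hQ n)) : ℤ) ≤
        (Fintype.card Z : ℤ) := by rw [← hpi]; exact_mod_cast hrange_le
    have h4 : (Fintype.card Z : ℤ) ≤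
        (Module.finrank k (LinearMap.range (h20_evMap hx Qinf Q hQ n)) : ℤ) := by
      rw [hV] at h1
      rw [hK] at h2
      linarith
    rw [hpi]
    exact_mod_cast le_antisymm h3 h4
  exact LinearMap.range_eq_top.mp (Submodule.eq_top_of_finrank_eq hrank)

/-- **`(IND)` of `(CHART)`**, in the binder shape of `h51_gluing`. -/
theorem h20_chart_ind (hinj1 : Function.Injective Q1) (hinj2 : Function.Injective Q2) :
    ∀ n, 2 * h75_genus k xb + Fintype.card Z ≤ n → ∀ s t : Z → k, ∃ a,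
      ∃ h : a ∈ h20_P Qinf n,
        (∀ ν, h20_e1 hx Qinf Q1 h1 ν ⟨a, h20_P_le_Bs Qinf n a h⟩ = s ν) ∧
        (∀ ν, h20_e2 hx Qinf Q2 h2 ν ⟨a, h20_P_le_Bs Qinf n a h⟩ = t ν) := by
  intro n hn s t
  obtain ⟨f, hf⟩ := h20_evMap_surjective hx Qinf Q1 h1 hinj1 n hn s
  obtain ⟨g, hg⟩ := h20_evMap_surjective hx Qinf Q2 h2 hinj2 n hn t
  have ha : ((f : Fb), (g : Fb)) ∈ h20_P Qinf n := h20_mem_P.mpr ⟨f.2, g.2⟩
  refine ⟨((f : Fb), (g : Fb)), ha, fun ν => ?_, fun ν => ?_⟩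
  · apply h20_e1_eq
    have := h20_evMap_spec hx Qinf Q1 h1 n f ν
    rwa [hf] at this
  · apply h20_e2_eq
    have := h20_evMap_spec hx Qinf Q2 h2 n g ν
    rwa [hg] at this

end Ind

/-! ### Frobenius structures fixing the cusp and the nodes -/

section Frob

variable (τ : h57_SemiAut k Fb) (Qn : ℕ) (hτ : h57_IsFrob Qn τ)

include hτ in
omit [IsAlgClosed k] in
/-- Values under a Frobenius structure. -/
theorem h20_val_frob {Q : Place k Fb} {f : Fb} {c : k} (h : h39_Val Q f c) :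
    h39_Val (τ • Q) ((τ : Fb ≃+* Fb) f) (c ^ Qn) := by
  rcases h with h | h
  · left
    rw [h, hτ c]
  · right
    have h' := h57_ord_smul τ Q (f - algebraMap k Fb c)
    rw [map_sub, hτ c] at h'
    rw [h']
    exact h

/-- The action of a semilinear automorphism on pairs. -/
def h20_frobPair (τ : h57_SemiAut k Fb) : Fb × Fb → Fb × Fb :=
  fun y => ((τ : Fb ≃+* Fb) y.1, (τ : Fb ≃+* Fb) y.2)

omit [IsAlgClosed k] in
theorem h20_frob_Dinf (hτinf : τ • Qinf = Qinf) (n : ℕ) :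
    τ • h20_Dinf Qinf n = h20_Dinf Qinf n := by
  unfold h20_Dinf
  rw [smul_comm τ n, h57_smul_single, hτinf]

omit [IsAlgClosed k] in
/-- `(hPhiP)`: the pole-order filtration is stable. -/
theorem h20_frob_P (hτinf : τ • Qinf = Qinf) :
    ∀ n, ∀ a, a ∈ h20_P Qinf n → h20_frobPair τ a ∈ h20_P Qinf n := by
  intro n a ha
  rw [h20_mem_P] at ha ⊢
  have key : ∀ f : Fb, f ∈ riemannRochSpace (h20_Dinf Qinf n) →
      (τ : Fb ≃+* Fb) f ∈ riemannRochSpace (h20_Dinf Qinf n) := by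
    intro f hf
    have := (h57_mem_rr_smul τ (h20_Dinf Qinf n) f).mpr hf
    rwa [h20_frob_Dinf Qinf τ hτinf n] at this
  exact ⟨key _ ha.1, key _ ha.2⟩

include hτ in
/-- `(hPhi1)`: at a node fixed by the Frobenius structure, the values are raised to the
`Qn`-th power. -/
theorem h20_frob_e1 (hτinf : τ • Qinf = Qinf) (hτ1 : ∀ ν, τ • Q1 ν = Q1 ν) :
    ∀ (n : ℕ) (ν : Z) (a : Fb × Fb) (h : a ∈ h20_P Qinf n),
      h20_e1 hx Qinf Q1 h1 ν ⟨h20_frobPair τ a,
          h20_P_le_Bs Qinf n _ (h20_frob_P Qinf τ hτinf n a h)⟩ =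
        h20_e1 hx Qinf Q1 h1 ν ⟨a, h20_P_le_Bs Qinf n a h⟩ ^ Qn := by
  intro n ν a h
  apply h20_e1_eq
  have := h20_val_frob τ Qn hτ (h20_e1_spec hx Qinf Q1 h1 ν ⟨a, h20_P_le_Bs Qinf n a h⟩)
  rwa [hτ1 ν] at this

include hτ in
/-- `(hPhi2)`. -/
theorem h20_frob_e2 (hτinf : τ • Qinf = Qinf) (hτ2 : ∀ ν, τ • Q2 ν = Q2 ν) :
    ∀ (n : ℕ) (ν : Z) (a : Fb × Fb) (h : a ∈ h20_P Qinf n),
      h20_e2 hx Qinf Q2 h2 ν ⟨h20_frobPair τ a,
          h20_P_le_Bs Qinf n _ (h20_frob_P Qinf τ hτinf n a h)⟩ =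
        h20_e2 hx Qinf Q2 h2 ν ⟨a, h20_P_le_Bs Qinf n a h⟩ ^ Qn := by
  intro n ν a h
  apply h20_e2_eq
  have := h20_val_frob τ Qn hτ (h20_e2_spec hx Qinf Q2 h2 ν ⟨a, h20_P_le_Bs Qinf n a h⟩)
  rwa [hτ2 ν] at this

end Frob

end AlgClosed

end Fermat.Agent.S34

end
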