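import Mathlib
import Fermat.Prelude.Def_AlgebraicCurve_DivisorPushPull
import Fermat.Agent.S18.RR_Riemann

/-!
# S34 — the isotypic lower bound for a cover (COUNT, `(M3)` of R85 v2)

`F'/F` an integral extension of function fields over an algebraically closed `K`, `x` a chart of
`F`.  Let `t a ∈ F'` (`a ∈ ι` finite) be linearly independent over `F` with
`div_{F'} (t a) = π^* (D a)` for divisors `D a` of `F` (Kummer monomials `θ^a`, `θ_x^m = u_x`,
`div u_x = m D_x`).  Then for every divisor `E` of `F`

  `∑ a, (deg (E + D a) + 1 - g_F) ≤ dim L_{F'}(π^* E)`,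

by Riemann's inequality on `F` only: `(f_a) ↦ ∑ t_a f_a` embeds `⊕_a L_F(E + D a)` into
`L_{F'}(π^* E)`.  No genus of `F'`, no unramifiedness.
-/

set_option autoImplicit false

open AlgebraicCurve IntermediateField

namespace Fermat.Agent.S34

open Fermat.Agent.S18

variable {K F F' : Type*} [Field K] [Field F] [Field F']
  [Algebra K F] [Algebra K F'] [Algebra F F'] [IsScalarTower K F F']
  [Algebra.IsIntegral F F'] [HasPrincipalDivisors K F']

/-- `t * f ∈ L_{F'}(π^* E)` for `f ∈ L_F(E + D)` when `div t = π^* D`. -/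
theorem h34_mul_mem_rr_pullback {t : F'} (D : Divisor K F)
    (hD : ∀ w : Place K F', w.ord t = Divisor.pullback F' D w) (E : Divisor K F) {f : F}
    (hf : f ∈ riemannRochSpace (E + D)) :
    t * algebraMap F F' f ∈ riemannRochSpace (Divisor.pullback F' E) := by
  rw [mem_riemannRochSpace_iff] at hf ⊢
  intro w
  rcases eq_or_ne f 0 with rfl | hf0
  · left; simp
  rcases eq_or_ne t 0 with rfl | ht0
  · left; simp
  right
  have hf0' : algebraMap F F' f ≠ 0 := by
    simpa using hf0
  rw [w.ord_mul ht0 hf0', hD w, Divisor.pullback_apply, Divisor.pullback_apply, w.ord_restrict]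
  have h1 := (hf (w.restrict F)).resolve_left hf0
  rw [Finsupp.add_apply] at h1
  have he : (0 : ℤ) ≤ (w.ramificationIndex F : ℤ) := Int.natCast_nonneg _
  nlinarith [mul_le_mul_of_nonneg_left h1 he]

/-- The embedding `⊕_a L_F(E + D a) → L_{F'}(π^* E)`, `(f_a) ↦ ∑ t_a f_a`. -/
noncomputable def h34_coverMap {ι : Type*} [Fintype ι] (t : ι → F') (D : ι → Divisor K F)
    (hD : ∀ (a : ι) (w : Place K F'), w.ord (t a) = Divisor.pullback F' (D a) w)
    (E : Divisor K F) :
    (∀ a : ι, riemannRochSpace (E + D a)) →ₗ[K] riemannRochSpace (Divisor.pullback F' E) where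
  toFun f := ⟨∑ a, t a * algebraMap F F' (f a : F),
    Submodule.sum_mem _ fun a _ => h34_mul_mem_rr_pullback (D a) (hD a) E (f a).2⟩
  map_add' f g := by
    apply Subtype.ext
    simp only [Pi.add_apply, Submodule.coe_add, map_add, mul_add, Finset.sum_add_distrib]
  map_smul' c f := by
    apply Subtype.ext
    simp only [Pi.smul_apply, Submodule.coe_smul, RingHom.id_apply, Finset.smul_sum]
    refine Finset.sum_congr rfl fun a _ => ?_
    rw [Algebra.smul_def, Algebra.smul_def, map_mul, ← IsScalarTower.algebraMap_apply]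
    ring

theorem h34_coverMap_injective {ι : Type*} [Fintype ι] (t : ι → F') (hli : LinearIndependent F t)
    (D : ι → Divisor K F)
    (hD : ∀ (a : ι) (w : Place K F'), w.ord (t a) = Divisor.pullback F' (D a) w)
    (E : Divisor K F) : Function.Injective (h34_coverMap t D hD E) := by
  rw [← LinearMap.ker_eq_bot, LinearMap.ker_eq_bot']
  intro f hf
  have h0 : ∑ a, t a * algebraMap F F' (f a : F) = 0 := congrArg Subtype.val hf
  have h1 : ∑ a, (f a : F) • t a = 0 := by
    rw [← h0]
    exact Finset.sum_congr rfl fun a _ => by rw [Algebra.smul_def, mul_comm]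
  have h2 := (Fintype.linearIndependent_iff.mp hli) (fun a => (f a : F)) h1
  funext a
  exact Subtype.ext (h2 a)

variable [IsAlgClosed K]

/-- (COUNT) The isotypic lower bound: Riemann's inequality on `F` for each of the pieces. -/
theorem h34_cover_count {x : F} (hx : h75_IsChart K x) {ι : Type*} [Fintype ι] (t : ι → F')
    (hli : LinearIndependent F t) (D : ι → Divisor K F)
    (hD : ∀ (a : ι) (w : Place K F'), w.ord (t a) = Divisor.pullback F' (D a) w)
    (E : Divisor K F) (hfin : Module.Finite K ↥(riemannRochSpace (Divisor.pullback F' E))) :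
    ∑ a, (Divisor.degree (E + D a) + 1 - (h75_genus K x : ℤ)) ≤
      (Module.finrank K ↥(riemannRochSpace (Divisor.pullback F' E)) : ℤ) := by
  have hfa : ∀ a : ι, Module.Finite K ↥(riemannRochSpace (E + D a)) := fun a =>
    (h75_riemann hx (E + D a)).1
  have h1 : Module.finrank K (∀ a : ι, riemannRochSpace (E + D a)) ≤
      Module.finrank K ↥(riemannRochSpace (Divisor.pullback F' E)) :=
    LinearMap.finrank_le_finrank_of_injective (h34_coverMap_injective t hli D hD E)
  rw [Module.finrank_pi_fintype] at h1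
  calc ∑ a, (Divisor.degree (E + D a) + 1 - (h75_genus K x : ℤ))
      ≤ ∑ a, (Module.finrank K ↥(riemannRochSpace (E + D a)) : ℤ) :=
        Finset.sum_le_sum fun a _ => (h75_riemann hx (E + D a)).2
    _ = ((∑ a, Module.finrank K ↥(riemannRochSpace (E + D a)) : ℕ) : ℤ) := by push_cast; rfl
    _ ≤ _ := by exact_mod_cast h1

/-- (COUNT), degree-zero twists: `card ι * (deg E + 1 - g_F) ≤ dim L_{F'}(π^* E)`. -/
theorem h34_cover_count_deg_zero {x : F} (hx : h75_IsChart K x) {ι : Type*} [Fintype ι]
    (t : ι → F') (hli : LinearIndependent F t) (D : ι → Divisor K F)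
    (hdeg : ∀ a, Divisor.degree (D a) = 0)
    (hD : ∀ (a : ι) (w : Place K F'), w.ord (t a) = Divisor.pullback F' (D a) w)
    (E : Divisor K F) (hfin : Module.Finite K ↥(riemannRochSpace (Divisor.pullback F' E))) :
    (Fintype.card ι : ℤ) * (Divisor.degree E + 1 - (h75_genus K x : ℤ)) ≤
      (Module.finrank K ↥(riemannRochSpace (Divisor.pullback F' E)) : ℤ) := by
  have h := h34_cover_count hx t hli D hD E hfin
  have h2 : ∑ a : ι, (Divisor.degree (E + D a) + 1 - (h75_genus K x : ℤ)) =
      (Fintype.card ι : ℤ) * (Divisor.degree E + 1 - (h75_genus K x : ℤ)) := by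
    rw [Finset.sum_congr rfl (fun a _ => by rw [map_add, hdeg a, add_zero]),
      Finset.sum_const, Finset.card_univ, nsmul_eq_mul]
  rw [h2] at h
  exact h

end Fermat.Agent.S34
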