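import Mathlib

/-!
# S34: the abstract saturation lemma (SAT)

Two increasing filtrations `B n ≤ P n` of finite-dimensional subspaces of a `k`-vector space
(`P n` = pairs of functions on the two components with poles of order `≤ n` on the chart fibre,
`B n` = reductions of the integral functions with poles of order `≤ n`).  If, from `n₀` on,

* (SURJ)  `P (n + 1) = P n ⊔ B (n + 1)` (every leading polar part is the reduction of an
  integral function with the same pole bound), and
* (GROW)  `dim P (n + 1) + dim B n = dim P n + dim B (n + 1)` (Riemann on the function field and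
  on the two residue function fields),

then the filtration `B` is saturated in `P`: `B N ⊓ P n = B n` for all `N ≥ n ≥ n₀`; hence
`(⨆ B) ⊓ P n = B n`, `P n ⊔ ⨆ B = ⨆ P`, and the codimension of `⨆ B` in `⨆ P` is the
"counted" codimension `dim P n₀ - dim B n₀` (the number of nodes).
-/

set_option autoImplicit false

namespace Fermat.Agent.S34

open Module Submodule

variable {k V : Type*} [Field k] [AddCommGroup V] [Module k V]

/-- One step of saturation. -/
theorem h16_sat_step (P B : ℕ → Submodule k V) (hfin : ∀ n, FiniteDimensional k (P n))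
    (hBP : ∀ n, B n ≤ P n) (hB : Monotone B) (n : ℕ)
    (hsurj : P (n + 1) = P n ⊔ B (n + 1))
    (hgrow : finrank k (P (n + 1)) + finrank k (B n) = finrank k (P n) + finrank k (B (n + 1))) :
    B (n + 1) ⊓ P n = B n := by
  have hfP := hfin n
  have hfP1 := hfin (n + 1)
  have hfB1 : FiniteDimensional k (B (n + 1)) :=
    Submodule.finiteDimensional_of_le (hBP (n + 1))
  have hfI : FiniteDimensional k (P n ⊓ B (n + 1) : Submodule k V) :=
    Submodule.finiteDimensional_of_le inf_le_left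
  have hdim := Submodule.finrank_sup_add_finrank_inf_eq (P n) (B (n + 1))
  rw [← hsurj] at hdim
  have hle : B n ≤ B (n + 1) ⊓ P n := le_inf (hB (Nat.le_succ n)) (hBP n)
  have hfI' : FiniteDimensional k (B (n + 1) ⊓ P n : Submodule k V) :=
    Submodule.finiteDimensional_of_le inf_le_right
  have hcomm : (P n ⊓ B (n + 1) : Submodule k V) = B (n + 1) ⊓ P n := inf_comm _ _
  rw [hcomm] at hdim
  have heq : finrank k (B n) = finrank k (B (n + 1) ⊓ P n : Submodule k V) := by omega
  exact (Submodule.eq_of_le_of_finrank_eq hle heq).symm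

/-- **SAT**: the filtration `B` is saturated in `P` from `n₀` on. -/
theorem h16_sat (P B : ℕ → Submodule k V) (hfin : ∀ n, FiniteDimensional k (P n))
    (hBP : ∀ n, B n ≤ P n) (hP : Monotone P) (hB : Monotone B) (n₀ : ℕ)
    (hsurj : ∀ n, n₀ ≤ n → P (n + 1) = P n ⊔ B (n + 1))
    (hgrow : ∀ n, n₀ ≤ n →
      finrank k (P (n + 1)) + finrank k (B n) = finrank k (P n) + finrank k (B (n + 1)))
    (n N : ℕ) (hn : n₀ ≤ n) (hN : n ≤ N) : B N ⊓ P n = B n := by
  induction N, hN using Nat.le_induction with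
  | base => exact inf_eq_left.2 (hBP n)
  | succ N hN ih =>
    have h1 : B (N + 1) ⊓ P N = B N :=
      h16_sat_step P B hfin hBP hB N (hsurj N (hn.trans hN)) (hgrow N (hn.trans hN))
    have h2 : P n ≤ P N := hP hN
    calc B (N + 1) ⊓ P n = B (N + 1) ⊓ (P N ⊓ P n) := by rw [inf_eq_right.2 h2]
      _ = (B (N + 1) ⊓ P N) ⊓ P n := (inf_assoc _ _ _).symm
      _ = B N ⊓ P n := by rw [h1]
      _ = B n := ih

/-- The union of the `B n` meets `P n` in `B n`. -/
theorem h16_sat_iSup (P B : ℕ → Submodule k V) (hfin : ∀ n, FiniteDimensional k (P n))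
    (hBP : ∀ n, B n ≤ P n) (hP : Monotone P) (hB : Monotone B) (n₀ : ℕ)
    (hsurj : ∀ n, n₀ ≤ n → P (n + 1) = P n ⊔ B (n + 1))
    (hgrow : ∀ n, n₀ ≤ n →
      finrank k (P (n + 1)) + finrank k (B n) = finrank k (P n) + finrank k (B (n + 1)))
    (n : ℕ) (hn : n₀ ≤ n) : (⨆ i, B i) ⊓ P n = B n := by
  apply le_antisymm
  · rintro x ⟨hx, hxP⟩
    obtain ⟨i, hi⟩ := (Submodule.mem_iSup_of_directed B hB.directed_le).1 hx
    have hi' : x ∈ B (max i n) := hB (le_max_left i n) hi
    have := h16_sat P B hfin hBP hP hB n₀ hsurj hgrow n (max i n) hn (le_max_right i n)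
    rw [← this]
    exact ⟨hi', hxP⟩
  · exact le_inf (le_iSup B n) (hBP n)

/-- Every `P N` lies in `P n ⊔ ⨆ B` (for `n ≥ n₀`): the finite level already sees the whole
quotient. -/
theorem h16_sat_sup (P B : ℕ → Submodule k V) (hBP : ∀ n, B n ≤ P n) (hP : Monotone P) (n₀ : ℕ)
    (hsurj : ∀ n, n₀ ≤ n → P (n + 1) = P n ⊔ B (n + 1))
    (n : ℕ) (hn : n₀ ≤ n) : P n ⊔ (⨆ i, B i) = ⨆ i, P i := by
  apply le_antisymm
  · exact sup_le (le_iSup P n) (iSup_le fun i => (hBP i).trans (le_iSup P i))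
  · refine iSup_le fun N => ?_
    rcases le_total N n with h | h
    · exact (hP h).trans le_sup_left
    · induction N, h using Nat.le_induction with
      | base => exact le_sup_left
      | succ N hN ih =>
        rw [hsurj N (hn.trans hN)]
        exact sup_le ih ((le_iSup B (N + 1)).trans le_sup_right)

/-- **SAT, counting form**: a complement `C` of `B n₀` in `P n₀` is a complement of `⨆ B` in
`⨆ P`; so the codimension of `⨆ B` in `⨆ P` is exactly `dim P n₀ - dim B n₀`. -/
theorem h16_sat_compl (P B : ℕ → Submodule k V) (hfin : ∀ n, FiniteDimensional k (P n))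
    (hBP : ∀ n, B n ≤ P n) (hP : Monotone P) (hB : Monotone B) (n₀ : ℕ)
    (hsurj : ∀ n, n₀ ≤ n → P (n + 1) = P n ⊔ B (n + 1))
    (hgrow : ∀ n, n₀ ≤ n →
      finrank k (P (n + 1)) + finrank k (B n) = finrank k (P n) + finrank k (B (n + 1))) :
    ∃ C : Submodule k V, C ≤ P n₀ ∧ Disjoint (⨆ i, B i) C ∧ (⨆ i, B i) ⊔ C = ⨆ i, P i ∧
      finrank k C + finrank k (B n₀) = finrank k (P n₀) := by
  obtain ⟨C', hC'⟩ := Submodule.exists_isCompl (B n₀)
  refine ⟨C' ⊓ P n₀, inf_le_right, ?_, ?_, ?_⟩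
  · rw [disjoint_iff]
    have h1 := h16_sat_iSup P B hfin hBP hP hB n₀ hsurj hgrow n₀ le_rfl
    have : (⨆ i, B i) ⊓ (C' ⊓ P n₀) = ((⨆ i, B i) ⊓ P n₀) ⊓ C' := by
      rw [inf_comm C' (P n₀), inf_assoc]
    rw [this, h1]
    exact hC'.inf_eq_bot
  · have hmod : B n₀ ⊔ C' ⊓ P n₀ = P n₀ := by
      have := sup_inf_assoc_of_le C' (hBP n₀)
      rw [← this, hC'.sup_eq_top, top_inf_eq]
    apply le_antisymm
    · exact sup_le (iSup_le fun i => (hBP i).trans (le_iSup P i))
        (inf_le_right.trans (le_iSup P n₀))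
    · rw [← h16_sat_sup P B hBP hP n₀ hsurj n₀ le_rfl]
      refine sup_le ?_ le_sup_left
      calc P n₀ = B n₀ ⊔ C' ⊓ P n₀ := hmod.symm
        _ ≤ (⨆ i, B i) ⊔ C' ⊓ P n₀ := sup_le_sup_right (le_iSup B n₀) _
  · have hfP := hfin n₀
    have hfB : FiniteDimensional k (B n₀) := Submodule.finiteDimensional_of_le (hBP n₀)
    have hfC : FiniteDimensional k (C' ⊓ P n₀ : Submodule k V) :=
      Submodule.finiteDimensional_of_le inf_le_right
    have hmod : B n₀ ⊔ C' ⊓ P n₀ = P n₀ := by
      have := sup_inf_assoc_of_le C' (hBP n₀)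
      rw [← this, hC'.sup_eq_top, top_inf_eq]
    have hdis : B n₀ ⊓ (C' ⊓ P n₀) = ⊥ := by
      rw [← inf_assoc, hC'.inf_eq_bot, bot_inf_eq]
    have hdim := Submodule.finrank_sup_add_finrank_inf_eq (B n₀) (C' ⊓ P n₀)
    have e1 : finrank k (B n₀ ⊔ C' ⊓ P n₀ : Submodule k V) = finrank k (P n₀) := by rw [hmod]
    have e2 : finrank k (B n₀ ⊓ (C' ⊓ P n₀) : Submodule k V) = 0 := by
      rw [hdis]; exact finrank_bot k V
    omega

end Fermat.Agent.S34
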