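import Mathlib
import Fermat.Agent.S34.h16_Sat

/-!
# S34 foundation: (SAT) and (NODE) for a pair filtration (helper16)

Abstract layer of the (NODE) assembly on the cuspidal chart.

`L n` is an increasing filtration of a `k`-space `V` by finite-dimensional subspaces with
jumps `≤ 1` (`L n = L(n·∞̄)` on the residue curve), `Ob n ≤ L n × L n` an increasing filtration
(`Ob n = red (L(n D₀) ∩ O)`) with

* (GROW) `dim Ob (n+1) = dim Ob n + 2` for `n ≥ n₀`  (Riemann–Roch on `F` + [G1]),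
* (LEAD) for `n ≥ n₀` there are `x, y ∈ Ob (n+1)` with `x.1 ∉ L n`, `x.2 ∈ L n`,
  `y.1 ∈ L n`, `y.2 ∉ L n`  (the elements `α^* b_ν · β^* b_ν'`).

Then

* `h16_sat_pair` : **(SAT)** `Ob N ⊓ (L n × L n) = Ob n` for `N ≥ n ≥ n₀`, and the same for
  the union `⨆ Ob`;
* `h16_node_of_sat` : **(NODE)** if the union `⋃ Ob n` is described inside `⋃ L n × L n` by a
  condition `NodeCond` (Goursat / Frobenius nodes for the RING `⋃ Ob n`), then every level
  `Ob n`, `n ≥ n₀`, is described inside `L n × L n` by the same condition;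
* `h16_finrank_pair_jump`, `h16_L_jump` : the jumps of `L` are exactly `1` from `n₀` on, and
  `dim (L n × L n) - dim Ob n` is constant for `n ≥ n₀` (the number of node conditions).
-/

set_option autoImplicit false

namespace Fermat.Agent.S34

open Module Submodule

variable {k V : Type*} [Field k] [AddCommGroup V] [Module k V]

/-- A jump of dimension `≤ 1` is generated by any element outside the smaller space. -/
theorem h16_sup_span_eq {L L' : Submodule k V} [FiniteDimensional k L'] (hLL : L ≤ L')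
    (hfr : finrank k L' ≤ finrank k L + 1) {v : V} (hv : v ∈ L') (hvL : v ∉ L) :
    L ⊔ span k {v} = L' ∧ finrank k L' = finrank k L + 1 := by
  have hfL : FiniteDimensional k L := Submodule.finiteDimensional_of_le hLL
  have hle : L ⊔ span k {v} ≤ L' := sup_le hLL ((span_singleton_le_iff_mem v L').2 hv)
  have hv0 : v ≠ 0 := fun h => hvL (h ▸ L.zero_mem)
  have hdisj : L ⊓ span k {v} = ⊥ := by
    rw [eq_bot_iff]
    rintro w ⟨hwL, hwv⟩
    obtain ⟨a, rfl⟩ := mem_span_singleton.1 hwv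
    by_cases ha : a = 0
    · rw [ha, zero_smul]
      exact zero_mem _
    · exfalso
      apply hvL
      have h1 : v = a⁻¹ • (a • v) := by rw [smul_smul, inv_mul_cancel₀ ha, one_smul]
      rw [h1]
      exact L.smul_mem _ hwL
  have hdim := Submodule.finrank_sup_add_finrank_inf_eq L (span k {v})
  rw [hdisj, finrank_bot, add_zero, finrank_span_singleton hv0] at hdim
  have hfS : FiniteDimensional k (L ⊔ span k {v} : Submodule k V) :=
    Submodule.finiteDimensional_of_le hle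
  have hle2 := Submodule.finrank_mono hle
  refine ⟨Submodule.eq_of_le_of_finrank_le hle (by omega), by omega⟩

/-- Decomposition along a jump of dimension `≤ 1`. -/
theorem h16_exists_sub_mem {L L' : Submodule k V} [FiniteDimensional k L'] (hLL : L ≤ L')
    (hfr : finrank k L' ≤ finrank k L + 1) {v : V} (hv : v ∈ L') (hvL : v ∉ L) {u : V}
    (hu : u ∈ L') : ∃ a : k, u - a • v ∈ L := by
  obtain ⟨hsup, -⟩ := h16_sup_span_eq hLL hfr hv hvL
  rw [← hsup] at hu
  obtain ⟨l, hl, w, hw, rfl⟩ := Submodule.mem_sup.1 hu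
  obtain ⟨a, rfl⟩ := mem_span_singleton.1 hw
  exact ⟨a, by rw [add_sub_cancel_right]; exact hl⟩

/-- The pair filtration `L n × L n`. -/
def h16_pairFil (L : ℕ → Submodule k V) (n : ℕ) : Submodule k (V × V) := (L n).prod (L n)

theorem h16_mem_pairFil {L : ℕ → Submodule k V} {n : ℕ} {a : V × V} :
    a ∈ h16_pairFil L n ↔ a.1 ∈ L n ∧ a.2 ∈ L n := Iff.rfl

theorem h16_pairFil_mono {L : ℕ → Submodule k V} (hL : Monotone L) :
    Monotone (h16_pairFil L) := fun _ _ h => Submodule.prod_mono (hL h) (hL h)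

theorem h16_finrank_pairFil (L : ℕ → Submodule k V) (n : ℕ) [FiniteDimensional k (L n)] :
    finrank k (h16_pairFil L n) = finrank k (L n) + finrank k (L n) := by
  have h1 : h16_pairFil L n = LinearMap.range ((L n).subtype.prodMap (L n).subtype) := by
    unfold h16_pairFil
    rw [LinearMap.range_prodMap, Submodule.range_subtype]
  have hinj : Function.Injective ((L n).subtype.prodMap (L n).subtype) := by
    intro a b hab
    rw [LinearMap.prodMap_apply, LinearMap.prodMap_apply, Prod.mk.injEq] at hab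
    exact Prod.ext (Subtype.ext hab.1) (Subtype.ext hab.2)
  rw [h1, LinearMap.finrank_range_of_inj hinj, Module.finrank_prod]

instance h16_pairFil_finite (L : ℕ → Submodule k V) (n : ℕ) [FiniteDimensional k (L n)] :
    FiniteDimensional k (h16_pairFil L n) := by
  have h1 : h16_pairFil L n = LinearMap.range ((L n).subtype.prodMap (L n).subtype) := by
    unfold h16_pairFil
    rw [LinearMap.range_prodMap, Submodule.range_subtype]
  rw [h1]
  infer_instance

/-- **(SURJ) from (LEAD)**: `L (n+1) × L (n+1) ≤ (L n × L n) ⊔ Ob (n+1)`. -/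
theorem h16_pair_surj (L : ℕ → Submodule k V) (hLfin : ∀ n, FiniteDimensional k (L n))
    (hLmono : Monotone L) (Ob : ℕ → Submodule k (V × V)) (n : ℕ)
    (hLjump : finrank k (L (n + 1)) ≤ finrank k (L n) + 1)
    {x y : V × V} (hx : x ∈ Ob (n + 1)) (hy : y ∈ Ob (n + 1))
    (hxP : x ∈ h16_pairFil L (n + 1)) (hyP : y ∈ h16_pairFil L (n + 1))
    (hx1 : x.1 ∉ L n) (hx2 : x.2 ∈ L n) (hy1 : y.1 ∈ L n) (hy2 : y.2 ∉ L n) :
    h16_pairFil L (n + 1) ≤ h16_pairFil L n ⊔ Ob (n + 1) := by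
  have := hLfin (n + 1)
  have hLL : L n ≤ L (n + 1) := hLmono (Nat.le_succ n)
  intro z hz
  obtain ⟨a, ha⟩ := h16_exists_sub_mem hLL hLjump hxP.1 hx1 hz.1
  have hu : z.2 - a • x.2 ∈ L (n + 1) :=
    (L (n + 1)).sub_mem hz.2 ((L (n + 1)).smul_mem a (hLL hx2))
  obtain ⟨b, hb⟩ := h16_exists_sub_mem hLL hLjump hyP.2 hy2 hu
  have hdec : z = (z - a • x - b • y) + (a • x + b • y) := by abel
  rw [hdec]
  refine Submodule.add_mem_sup ?_ ((Ob (n + 1)).add_mem ((Ob (n + 1)).smul_mem a hx)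
    ((Ob (n + 1)).smul_mem b hy))
  refine ⟨?_, ?_⟩
  · show z.1 - a • x.1 - b • y.1 ∈ L n
    exact (L n).sub_mem ha ((L n).smul_mem b hy1)
  · show z.2 - a • x.2 - b • y.2 ∈ L n
    exact hb

section Sat

variable (L : ℕ → Submodule k V) (hLfin : ∀ n, FiniteDimensional k (L n)) (hLmono : Monotone L)
  (Ob : ℕ → Submodule k (V × V)) (hOb : ∀ n, Ob n ≤ h16_pairFil L n) (hmono : Monotone Ob)
  (n₀ : ℕ)
  (hLjump : ∀ n, n₀ ≤ n → finrank k (L (n + 1)) ≤ finrank k (L n) + 1)
  (hgrow : ∀ n, n₀ ≤ n → finrank k (Ob (n + 1)) = finrank k (Ob n) + 2)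
  (hlead₁ : ∀ n, n₀ ≤ n → ∃ x ∈ Ob (n + 1), x.1 ∉ L n ∧ x.2 ∈ L n)
  (hlead₂ : ∀ n, n₀ ≤ n → ∃ y ∈ Ob (n + 1), y.1 ∈ L n ∧ y.2 ∉ L n)

include hLfin hLmono hOb hLjump hlead₁ hlead₂

theorem h16_pair_surj_eq (n : ℕ) (hn : n₀ ≤ n) :
    h16_pairFil L (n + 1) = h16_pairFil L n ⊔ Ob (n + 1) := by
  obtain ⟨x, hx, hx1, hx2⟩ := hlead₁ n hn
  obtain ⟨y, hy, hy1, hy2⟩ := hlead₂ n hn
  apply le_antisymm
  · exact h16_pair_surj L hLfin hLmono Ob n (hLjump n hn) hx hy (hOb _ hx) (hOb _ hy) hx1 hx2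
      hy1 hy2
  · exact sup_le (h16_pairFil_mono hLmono (Nat.le_succ n)) (hOb (n + 1))

omit hlead₂ in
/-- the jumps of `L` are exactly `1` from `n₀` on -/
theorem h16_L_jump (n : ℕ) (hn : n₀ ≤ n) : finrank k (L (n + 1)) = finrank k (L n) + 1 := by
  obtain ⟨x, hx, hx1, -⟩ := hlead₁ n hn
  have := hLfin (n + 1)
  exact (h16_sup_span_eq (hLmono (Nat.le_succ n)) (hLjump n hn) (hOb _ hx).1 hx1).2

include hgrow

omit hlead₂ in
theorem h16_pair_grow (n : ℕ) (hn : n₀ ≤ n) :
    finrank k (h16_pairFil L (n + 1)) + finrank k (Ob n) =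
      finrank k (h16_pairFil L n) + finrank k (Ob (n + 1)) := by
  have := hLfin n
  have := hLfin (n + 1)
  rw [h16_finrank_pairFil, h16_finrank_pairFil,
    h16_L_jump L hLfin hLmono Ob hOb n₀ hLjump hlead₁ n hn, hgrow n hn]
  omega

include hmono

/-- **(SAT) for the pair filtration.** -/
theorem h16_sat_pair :
    (∀ n N, n₀ ≤ n → n ≤ N → Ob N ⊓ h16_pairFil L n = Ob n) ∧
    (∀ n, n₀ ≤ n → (⨆ i, Ob i) ⊓ h16_pairFil L n = Ob n) := by
  have hfin : ∀ n, FiniteDimensional k (h16_pairFil L n) := fun n => by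
    have := hLfin n
    infer_instance
  have hsurj := h16_pair_surj_eq L hLfin hLmono Ob hOb n₀ hLjump hlead₁ hlead₂
  have hgrow' := h16_pair_grow L hLfin hLmono Ob hOb n₀ hLjump hgrow hlead₁
  exact ⟨fun n N hn hN => h16_sat (h16_pairFil L) Ob hfin hOb (h16_pairFil_mono hLmono) hmono n₀
      hsurj hgrow' n N hn hN,
    fun n hn => h16_sat_iSup (h16_pairFil L) Ob hfin hOb (h16_pairFil_mono hLmono) hmono n₀
      hsurj hgrow' n hn⟩

/-- **(NODE) from (SAT)**: a description of the union `⋃ Ob n` inside `⋃ L n × L n` by a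
condition `NodeCond` descends to every level `n ≥ n₀`. -/
theorem h16_node_of_sat (NodeCond : V × V → Prop)
    (hunion : ∀ a : V × V, (∃ n, a ∈ Ob n) ↔ (∃ n, a ∈ h16_pairFil L n) ∧ NodeCond a)
    (n : ℕ) (hn : n₀ ≤ n) (a : V × V) :
    a ∈ Ob n ↔ a ∈ h16_pairFil L n ∧ NodeCond a := by
  constructor
  · intro ha
    exact ⟨hOb n ha, ((hunion a).1 ⟨n, ha⟩).2⟩
  · rintro ⟨haP, hc⟩
    obtain ⟨N, hN⟩ := (hunion a).2 ⟨⟨n, haP⟩, hc⟩
    have hsat := (h16_sat_pair L hLfin hLmono Ob hOb hmono n₀ hLjump hgrow hlead₁ hlead₂).1 n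
      (max N n) hn (le_max_right N n)
    rw [← hsat]
    exact ⟨hmono (le_max_left N n) hN, haP⟩

omit hmono hlead₂ in
/-- The codimension of `Ob n` in `L n × L n` is constant for `n ≥ n₀`. -/
theorem h16_pair_codim (n : ℕ) (hn : n₀ ≤ n) :
    finrank k (h16_pairFil L n) + finrank k (Ob n₀) =
      finrank k (h16_pairFil L n₀) + finrank k (Ob n) := by
  induction n, hn using Nat.le_induction with
  | base => rfl
  | succ n hn ih =>
    have := h16_pair_grow L hLfin hLmono Ob hOb n₀ hLjump hgrow hlead₁ n hn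
    omega

end Sat

end Fermat.Agent.S34
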