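import Fermat.Agent.S34.h51_Glue
import Fermat.Agent.S34.h16_NodeAsm
import Fermat.Agent.S27.h68_RRCons

/-!
# S34 foundation: (SAT) / (NODE) on a two-point chart, Riemann–Roch form (helper16)

Concrete layer of the (NODE) assembly: `D : h22_Lat K F k (Fb × Fb)` a lattice datum with two
reductions onto the function field `Fb/k`, `D0` an effective divisor of degree `2` on `F`
(`D0 = (∞) + (0')`), `Q` a place of `Fb` (`∞̄`), `h16_Linf Q n = L(n·Q)`.

Inputs:

* (REG)  `red (L(n D0) ∩ O) ≤ L(n Q) × L(n Q)`;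
* (LEAD) for `n ≥ n₁` elements of `red (L((n+1) D0) ∩ O)` with a pole of exact order `n+1` at
  `Q` in one coordinate and order `≤ n` in the other;
* `h22_ON D` ([G1]) and Riemann–Roch on `F` and on `Fb` (charts).

Outputs:

* `h16_sat_chart` : **(SAT)** `red (L(N D0) ∩ O) ∩ (L(nQ) × L(nQ)) = red (L(n D0) ∩ O)` for
  `N ≥ n ≥ n₀ := max n₁ g_F`;
* `h16_node_chart` : **(NODE)** a description of the ring `⋃ₙ red (L(n D0) ∩ O)` inside
  `⋃ₙ L(nQ) × L(nQ)` by a condition `NodeCond` gives the same description of every level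
  `n ≥ n₀`;
* `h16_codim_chart` : `dim (L(nQ) × L(nQ)) - dim red (L(n D0) ∩ O) = g_F - 2 g_Fb + 1` is the
  number of (independent) node conditions.
-/

set_option autoImplicit false

noncomputable section

open AlgebraicCurve Module

namespace Fermat.Agent.S34

open Fermat.Agent.S18 Fermat.Agent.S27

variable {K F k Fb : Type*} [Field K] [Field F] [Algebra K F] [Field k] [Field Fb] [Algebra k Fb]

/-- `L(n·Q)`: functions regular off `Q` with a pole of order `≤ n` at `Q`. -/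
def h16_Linf (Q : Place k Fb) (n : ℕ) : Submodule k Fb :=
  riemannRochSpace (n • Finsupp.single Q (1 : ℤ))

theorem h16_mem_Linf {Q : Place k Fb} {n : ℕ} {f : Fb} :
    f ∈ h16_Linf Q n ↔ f = 0 ∨ ((∀ P : Place k Fb, P ≠ Q → 0 ≤ P.ord f) ∧ -(n : ℤ) ≤ Q.ord f) := by
  classical
  unfold h16_Linf
  rw [mem_riemannRochSpace_iff]
  constructor
  · intro h
    by_cases hf : f = 0
    · exact Or.inl hf
    · right
      refine ⟨fun P hP => ?_, ?_⟩
      · have h1 := (h P).resolve_left hf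
        rw [Finsupp.smul_apply, Finsupp.single_apply, if_neg (Ne.symm hP), smul_zero,
          neg_zero] at h1
        exact h1
      · have h1 := (h Q).resolve_left hf
        rw [Finsupp.smul_apply, Finsupp.single_apply, if_pos rfl, nsmul_eq_mul, mul_one] at h1
        exact h1
  · rintro (rfl | ⟨h1, h2⟩) P
    · exact Or.inl rfl
    · right
      by_cases hP : P = Q
      · subst hP
        rw [Finsupp.smul_apply, Finsupp.single_apply, if_pos rfl, nsmul_eq_mul, mul_one]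
        exact h2
      · rw [Finsupp.smul_apply, Finsupp.single_apply, if_neg (Ne.symm hP), smul_zero, neg_zero]
        exact h1 P hP

theorem h16_Linf_mono (Q : Place k Fb) : Monotone (h16_Linf Q) := by
  intro n n' hnn f hf
  rw [h16_mem_Linf] at hf ⊢
  rcases hf with h | ⟨h1, h2⟩
  · exact Or.inl h
  · refine Or.inr ⟨h1, le_trans ?_ h2⟩
    have : (n : ℤ) ≤ n' := by exact_mod_cast hnn
    linarith

theorem h16_Linf_finite [IsAlgClosed k] {xb : Fb} (hxb : h75_IsChart k xb) (Q : Place k Fb)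
    (n : ℕ) : FiniteDimensional k (h16_Linf Q n) :=
  (h75_riemann hxb _).1

theorem h16_Linf_jump [IsAlgClosed k] {xb : Fb} (hxb : h75_IsChart k xb) (Q : Place k Fb)
    (n : ℕ) : finrank k (h16_Linf Q (n + 1)) ≤ finrank k (h16_Linf Q n) + 1 := by
  have h := (h68_rr_point hxb (n • Finsupp.single Q (1 : ℤ)) Q).2
  unfold h16_Linf
  rw [succ_nsmul]
  exact h

/-- `red (L(E) ∩ O)` is monotone in `E`. -/
theorem h16_Rd_mono (D : h22_Lat K F k (Fb × Fb)) {E E' : Divisor K F} (h : E ≤ E') :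
    h51_Rd D E ≤ h51_Rd D E' := by
  rintro a ⟨f, hf, hfO, rfl⟩
  exact ⟨f, h68_rr_mono h hf, hfO, rfl⟩

theorem h16_Rd_nsmul_mono (D : h22_Lat K F k (Fb × Fb)) {D0 : Divisor K F} (hD0 : 0 ≤ D0) :
    Monotone fun n : ℕ => h51_Rd D (n • D0) := by
  intro n n' hnn
  exact h16_Rd_mono D (nsmul_le_nsmul_left hD0 hnn)

/-- (GROW): `dim red (L((n+1) D0) ∩ O) = dim red (L(n D0) ∩ O) + 2` for `n ≥ g_F`. -/
theorem h16_Rd_grow [IsAlgClosed K] {xF : F} (hxF : h75_IsChart K xF)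
    (D : h22_Lat K F k (Fb × Fb)) (hON : h22_ON D) (D0 : Divisor K F)
    (hdeg : Divisor.degree D0 = 2) (n : ℕ) (hn : h75_genus K xF ≤ n) :
    finrank k (h51_Rd D ((n + 1) • D0)) = finrank k (h51_Rd D (n • D0)) + 2 := by
  have hf1 : FiniteDimensional K (riemannRochSpace (n • D0)) := (h75_riemann hxF _).1
  have hf2 : FiniteDimensional K (riemannRochSpace ((n + 1) • D0)) := (h75_riemann hxF _).1
  rw [h51_finrank_Rd D hON, h51_finrank_Rd D hON]
  have hd1 : Divisor.degree (n • D0) = 2 * (n : ℤ) := by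
    rw [map_nsmul, hdeg, nsmul_eq_mul]
    ring
  have hd2 : Divisor.degree ((n + 1) • D0) = 2 * (n : ℤ) + 2 := by
    rw [map_nsmul, hdeg, nsmul_eq_mul]
    push_cast
    ring
  have hg : (h75_genus K xF : ℤ) ≤ n := by exact_mod_cast hn
  have h1 := h15_finrank_rr_of_deg hxF (n • D0) (by rw [hd1]; linarith)
  have h2 := h15_finrank_rr_of_deg hxF ((n + 1) • D0) (by rw [hd2]; linarith)
  rw [hd1] at h1
  rw [hd2] at h2
  omega

section Chart

variable [IsAlgClosed K] [IsAlgClosed k] {xF : F} (hxF : h75_IsChart K xF) {xb : Fb}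
  (hxb : h75_IsChart k xb) (D : h22_Lat K F k (Fb × Fb)) (hON : h22_ON D) (D0 : Divisor K F)
  (hD0 : 0 ≤ D0) (hdeg : Divisor.degree D0 = 2) (Q : Place k Fb)
  (hreg : ∀ n, ∀ a ∈ h51_Rd D (n • D0), a.1 ∈ h16_Linf Q n ∧ a.2 ∈ h16_Linf Q n)
  (n₁ : ℕ)
  (hlead₁ : ∀ n, n₁ ≤ n → ∃ x ∈ h51_Rd D ((n + 1) • D0),
    x.1 ∉ h16_Linf Q n ∧ x.2 ∈ h16_Linf Q n)
  (hlead₂ : ∀ n, n₁ ≤ n → ∃ y ∈ h51_Rd D ((n + 1) • D0),
    y.1 ∈ h16_Linf Q n ∧ y.2 ∉ h16_Linf Q n)

include hxF hxb hON hD0 hdeg hreg hlead₁ hlead₂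

/-- **(SAT) on the chart `D0`**: an element of `red (L(N D0) ∩ O)` with pole orders `≤ n` at
`Q` in both coordinates lies in `red (L(n D0) ∩ O)`, for `N ≥ n ≥ max n₁ g_F`. -/
theorem h16_sat_chart (n N : ℕ) (hn : max n₁ (h75_genus K xF) ≤ n) (hN : n ≤ N)
    (a : Fb × Fb) (ha : a ∈ h51_Rd D (N • D0)) (h1 : a.1 ∈ h16_Linf Q n)
    (h2 : a.2 ∈ h16_Linf Q n) : a ∈ h51_Rd D (n • D0) := by
  have hsat := (h16_sat_pair (h16_Linf Q) (fun n => h16_Linf_finite hxb Q n) (h16_Linf_mono Q)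
    (fun n => h51_Rd D (n • D0)) hreg (h16_Rd_nsmul_mono D hD0) (max n₁ (h75_genus K xF))
    (fun n _ => h16_Linf_jump hxb Q n)
    (fun n hn => h16_Rd_grow hxF D hON D0 hdeg n ((le_max_right _ _).trans hn))
    (fun n hn => hlead₁ n ((le_max_left _ _).trans hn))
    (fun n hn => hlead₂ n ((le_max_left _ _).trans hn))).1 n N hn hN
  have : a ∈ h51_Rd D (N • D0) ⊓ h16_pairFil (h16_Linf Q) n := ⟨ha, h1, h2⟩
  rw [hsat] at this
  exact this

/-- **(NODE) on the chart `D0`**: a description of the ring `⋃ₙ red (L(n D0) ∩ O)` inside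
`⋃ₙ L(nQ) × L(nQ)` by a condition `NodeCond` descends to every level `n ≥ max n₁ g_F`. -/
theorem h16_node_chart (NodeCond : Fb × Fb → Prop)
    (hunion : ∀ a : Fb × Fb, (∃ n : ℕ, a ∈ h51_Rd D (n • D0)) ↔
      (∃ n : ℕ, a.1 ∈ h16_Linf Q n ∧ a.2 ∈ h16_Linf Q n) ∧ NodeCond a)
    (n : ℕ) (hn : max n₁ (h75_genus K xF) ≤ n) (a : Fb × Fb) :
    a ∈ h51_Rd D (n • D0) ↔ (a.1 ∈ h16_Linf Q n ∧ a.2 ∈ h16_Linf Q n) ∧ NodeCond a :=
  h16_node_of_sat (h16_Linf Q) (fun n => h16_Linf_finite hxb Q n) (h16_Linf_mono Q)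
    (fun n => h51_Rd D (n • D0)) hreg (h16_Rd_nsmul_mono D hD0) (max n₁ (h75_genus K xF))
    (fun n _ => h16_Linf_jump hxb Q n)
    (fun n hn => h16_Rd_grow hxF D hON D0 hdeg n ((le_max_right _ _).trans hn))
    (fun n hn => hlead₁ n ((le_max_left _ _).trans hn))
    (fun n hn => hlead₂ n ((le_max_left _ _).trans hn)) NodeCond hunion n hn a

end Chart

/-- The number of node conditions: for `n ≥ max g_F (2 g_Fb)`,
`dim (L(nQ) × L(nQ)) = dim red (L(n D0) ∩ O) + (g_F - 2 g_Fb + 1)`. -/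
theorem h16_codim_chart [IsAlgClosed K] [IsAlgClosed k] {xF : F} (hxF : h75_IsChart K xF)
    {xb : Fb} (hxb : h75_IsChart k xb) (D : h22_Lat K F k (Fb × Fb)) (hON : h22_ON D)
    (D0 : Divisor K F) (hdeg : Divisor.degree D0 = 2) (Q : Place k Fb) (n : ℕ)
    (hn : h75_genus K xF ≤ n) (hn' : 2 * h75_genus k xb ≤ n) :
    (finrank k (h16_pairFil (h16_Linf Q) n) : ℤ) =
      finrank k (h51_Rd D (n • D0)) + ((h75_genus K xF : ℤ) - 2 * h75_genus k xb + 1) := by
  have hf1 : FiniteDimensional K (riemannRochSpace (n • D0)) := (h75_riemann hxF _).1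
  have hf2 : FiniteDimensional k (h16_Linf Q n) := h16_Linf_finite hxb Q n
  rw [h16_finrank_pairFil, h51_finrank_Rd D hON]
  have hd1 : Divisor.degree (n • D0) = 2 * (n : ℤ) := by
    rw [map_nsmul, hdeg, nsmul_eq_mul]
    ring
  have hd2 : Divisor.degree (n • Finsupp.single Q (1 : ℤ)) = (n : ℤ) := by
    rw [map_nsmul, Divisor.degree_single, h75_deg_eq_one hxb Q, nsmul_eq_mul]
    push_cast
    ring
  have hg : (h75_genus K xF : ℤ) ≤ n := by exact_mod_cast hn
  have hg' : 2 * (h75_genus k xb : ℤ) ≤ n := by exact_mod_cast hn'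
  have h1 := h15_finrank_rr_of_deg hxF (n • D0) (by rw [hd1]; linarith)
  have h2 := h15_finrank_rr_of_deg hxb (n • Finsupp.single Q (1 : ℤ)) (by rw [hd2]; linarith)
  rw [hd1] at h1
  rw [hd2] at h2
  unfold h16_Linf
  push_cast
  rw [h1, h2]
  ring

end Fermat.Agent.S34
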