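import Mathlib
import Fermat.Agent.S27.RRFull

/-!
# S34 / CHART-RR (helper20): the `(RR)` binder of helper51's `(CHART)` hypotheses

For any function field `F / K` (`K` algebraically closed) with a chart `x`, a divisor `D0` of
degree `≥ 1` and `n0 ≥ 2 g`:

`∀ n ≥ n0, ∀ E, deg E = 0 → L(n D0 + E)` is finite-dimensional of the dimension of `L(n D0)`.

This is the hypothesis `hRR` of `h51_gluing` / `h51_trivial_gluing` (file `S34/h51_Glue.lean`),
verbatim.  Proof: Riemann–Roch for `deg > 2 g - 2` (`S27/RRFull.lean`).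
-/

set_option autoImplicit false

open AlgebraicCurve Module

namespace Fermat.Agent.S34

open Fermat.Agent.S18 Fermat.Agent.S27

variable {K F : Type*} [Field K] [Field F] [Algebra K F] [IsAlgClosed K]

omit [IsAlgClosed K] in
/-- The degree of `n • D0 + E` for `deg E = 0`. -/
theorem h20_degree_nsmul_add (D0 E : Divisor K F) (hE : Divisor.degree E = 0) (n : ℕ) :
    Divisor.degree (n • D0 + E) = (n : ℤ) * Divisor.degree D0 := by
  rw [map_add, map_nsmul, hE, add_zero, nsmul_eq_mul]

/-- Riemann–Roch in the large-degree range for the divisors `n • D0 + E`, `deg E = 0`. -/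
theorem h20_finrank_nsmul_add {x : F} (hx : h75_IsChart K x) (D0 : Divisor K F)
    (hD0 : 1 ≤ Divisor.degree D0) (n : ℕ) (hn : 2 * h75_genus K x ≤ n)
    (E : Divisor K F) (hE : Divisor.degree E = 0) :
    (Module.finrank K (riemannRochSpace (n • D0 + E)) : ℤ) =
      (n : ℤ) * Divisor.degree D0 + 1 - h75_genus K x := by
  have hdeg := h20_degree_nsmul_add D0 E hE n
  have hlt : 2 * (h75_genus K x : ℤ) - 2 < Divisor.degree (n • D0 + E) := by
    rw [hdeg]
    have h1 : (2 * h75_genus K x : ℤ) ≤ (n : ℤ) := by exact_mod_cast hn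
    have h2 : (0 : ℤ) ≤ (n : ℤ) := Int.natCast_nonneg n
    nlinarith
  rw [h15_finrank_rr_of_deg hx _ hlt, hdeg]

/-- **(RR) of (CHART)**, in the binder shape of `h51_gluing`. -/
theorem h20_chart_rr {x : F} (hx : h75_IsChart K x) (D0 : Divisor K F)
    (hD0 : 1 ≤ Divisor.degree D0) (n0 : ℕ) (hn0 : 2 * h75_genus K x ≤ n0) :
    ∀ n, n0 ≤ n → ∀ E : Divisor K F, Divisor.degree E = 0 →
      Module.Finite K (riemannRochSpace (n • D0 + E)) ∧
      Module.finrank K (riemannRochSpace (n • D0 + E)) =
        Module.finrank K (riemannRochSpace (n • D0)) := by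
  intro n hn E hE
  refine ⟨(h75_riemann hx _).1, ?_⟩
  have h1 := h20_finrank_nsmul_add hx D0 hD0 n (le_trans hn0 hn) E hE
  have h2 := h20_finrank_nsmul_add hx D0 hD0 n (le_trans hn0 hn) 0 (map_zero _)
  rw [add_zero] at h2
  have h3 : (Module.finrank K (riemannRochSpace (n • D0 + E)) : ℤ) =
      (Module.finrank K (riemannRochSpace (n • D0)) : ℤ) := by rw [h1, h2]
  exact_mod_cast h3

end Fermat.Agent.S34
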