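import Fermat.Agent.S34.h96_FrobRoot
import Fermat.Agent.S18.GR_ChartPt
import Fermat.Agent.S27.h57_SemiAct

/-!
# S34 — FROB-PLACES (P3): the `V`-operator on the places of a function field

`Fb / k` a function field over an algebraically closed field of characteristic `q`, `x` a chart
(`h75_IsChart k x`), `φ : Fb →+* Fb` a ring endomorphism which is the identity on `k` and maps
`x` to `x ^ q`  (`h96_IsFrobChart k q x φ`; modular use: `Fb` the level-`M` residue field,
`x = j̄`, `φ` = the operator `q ↦ q^q`).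

* `h96_frobSemi h` : the semilinear AUTOMORPHISM `ψ = Frob⁻¹ ∘ φ`, `(ψ f) ^ q = φ f`;
* `h96_frobPerm h` : the induced permutation `Φ` of the places, with
  `Q.ord (φ f) = q * (Φ Q).ord f`, `φ f ∈ O_Q ↔ f ∈ O_{Φ Q}`, `(φ f)(Q) = f (Φ Q)`;
* `Φ` preserves the chart of `x`, `φ` preserves the chart ring;
* `h96_fix_finite` : the places of the chart fixed by `Φ ∘ Φ` are finite in number.
-/

set_option autoImplicit false

noncomputable section

open AlgebraicCurve IntermediateField
open Fermat.Agent.S24 Fermat.Agent.S18 Fermat.Agent.S27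

namespace Fermat.Agent.S34

open scoped IntermediateField.algebraAdjoinAdjoin

/-- `x` is a chart of `Fb / k` and `φ` is a Frobenius-like endomorphism for it: the identity on
the constants, and `φ x = x ^ q`. -/
structure h96_IsFrobChart (k : Type*) {Fb : Type*} [Field k] [Field Fb] [Algebra k Fb] (q : ℕ)
    (x : Fb) (φ : Fb →+* Fb) : Prop where
  chart : h75_IsChart k x
  const : ∀ c : k, φ (algebraMap k Fb c) = algebraMap k Fb c
  map_x : φ x = x ^ q

theorem h96_pow_inj (k : Type*) {Fb : Type*} [Field k] [Field Fb] [Algebra k Fb] (q : ℕ)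
    [Fact q.Prime] [CharP k q] (a b : Fb) (h : a ^ q = b ^ q) : a = b := by
  have : CharP Fb q := charP_of_injective_algebraMap (algebraMap k Fb).injective q
  have : ExpChar Fb q := ExpChar.prime Fact.out
  exact frobenius_inj Fb q h

variable {k Fb : Type*} [Field k] [Field Fb] [Algebra k Fb]
variable {q : ℕ} [Fact q.Prime] [CharP k q] [IsAlgClosed k] {x : Fb} {φ : Fb →+* Fb}

omit [CharP k q] in
theorem h96_exists_root (q : ℕ) [Fact q.Prime] (c : k) : ∃ d : k, d ^ q = c :=
  IsAlgClosed.exists_pow_nat_eq c (Fact.out : q.Prime).pos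

/-- (P2) in `h57_SemiAut` form. -/
theorem h96_exists_semi (h : h96_IsFrobChart k q x φ) :
    ∃ σ : h57_SemiAut k Fb, ∀ f : Fb, (σ : Fb ≃+* Fb) f ^ q = φ f := by
  have := h.chart.fin
  obtain ⟨ψ, hψ⟩ := h96_exists_psi q (h96_exists_root q) h.chart.sep φ h.const h.map_x
  have hk : ∀ c : k, ψ (algebraMap k Fb c)
      = algebraMap k Fb (h96_exists_root q c).choose := by
    intro c
    apply h96_pow_inj k q
    rw [hψ, h.const, ← map_pow, (h96_exists_root q c).choose_spec]
  have hsurj : Function.Surjective fun c : k => (h96_exists_root q c).choose := by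
    intro d
    refine ⟨d ^ q, ?_⟩
    have : CharP k q := inferInstance
    have : ExpChar k q := ExpChar.prime Fact.out
    exact frobenius_inj k q (h96_exists_root q (d ^ q)).choose_spec
  exact ⟨⟨ψ, h57_mem_semiAut_of_map _ hsurj hk⟩, hψ⟩

/-- The semilinear automorphism `ψ = Frob⁻¹ ∘ φ`. -/
def h96_frobSemi (h : h96_IsFrobChart k q x φ) : h57_SemiAut k Fb :=
  (h96_exists_semi h).choose

theorem h96_frobSemi_pow (h : h96_IsFrobChart k q x φ) (f : Fb) :
    ((h96_frobSemi h : h57_SemiAut k Fb) : Fb ≃+* Fb) f ^ q = φ f :=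
  (h96_exists_semi h).choose_spec f

/-- The permutation `Φ` of the places induced by `φ`. -/
def h96_frobPerm (h : h96_IsFrobChart k q x φ) : Equiv.Perm (Place k Fb) :=
  MulAction.toPerm (h96_frobSemi h)⁻¹

theorem h96_frobPerm_apply (h : h96_IsFrobChart k q x φ) (Q : Place k Fb) :
    h96_frobPerm h Q = (h96_frobSemi h)⁻¹ • Q := rfl

/-- `ord_Q (φ f) = q · ord_{Φ Q} f`. -/
theorem h96_ord_frob (h : h96_IsFrobChart k q x φ) (Q : Place k Fb) (f : Fb) :
    Q.ord (φ f) = q * (h96_frobPerm h Q).ord f := by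
  rw [← h96_frobSemi_pow h f, h96_frobPerm_apply, ← h57_ord_apply, ← zpow_natCast, Place.ord_zpow]

/-- `φ f` is regular at `Q` iff `f` is regular at `Φ Q`. -/
theorem h96_mem_frob (h : h96_IsFrobChart k q x φ) (Q : Place k Fb) (f : Fb) :
    φ f ∈ Q.toValuationSubring ↔ f ∈ (h96_frobPerm h Q).toValuationSubring := by
  have hq : (0 : ℤ) < q := by exact_mod_cast (Fact.out : q.Prime).pos
  rcases eq_or_ne f 0 with rfl | hf
  · rw [map_zero]
    exact ⟨fun _ => zero_mem _, fun _ => zero_mem _⟩
  · have hφf : φ f ≠ 0 := (map_ne_zero φ).mpr hf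
    rw [h35_mem_iff_ord_nonneg _ hφf, h35_mem_iff_ord_nonneg _ hf, h96_ord_frob h]
    constructor
    · intro h1
      by_contra h2
      have h3 : (h96_frobPerm h Q).ord f < 0 := not_le.mp h2
      nlinarith
    · intro h1
      positivity

/-- `(φ f)(Q) = f (Φ Q)`. -/
theorem h96_val_frob (h : h96_IsFrobChart k q x φ) (Q : Place k Fb) {f : Fb} {c : k}
    (hv : h39_Val (h96_frobPerm h Q) f c) : h39_Val Q (φ f) c := by
  have hq : (0 : ℤ) < q := by exact_mod_cast (Fact.out : q.Prime).pos
  rcases hv with hv | hv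
  · left
    rw [hv, h.const]
  · right
    have h1 : φ f - algebraMap k Fb c = φ (f - algebraMap k Fb c) := by
      rw [map_sub, h.const]
    rw [h1, h96_ord_frob h]
    positivity

/-- `Φ` preserves the chart of `x`. -/
theorem h96_chart_frob (h : h96_IsFrobChart k q x φ) (Q : Place k Fb) :
    x ∈ (h96_frobPerm h Q).toValuationSubring ↔ x ∈ Q.toValuationSubring := by
  have hq : (0 : ℤ) < q := by exact_mod_cast (Fact.out : q.Prime).pos
  have hx0 : x ≠ 0 := h.chart.ne_zero
  rw [← h96_mem_frob h, h.map_x, h35_mem_iff_ord_nonneg _ hx0,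
    h35_mem_iff_ord_nonneg _ (pow_ne_zero q hx0), ← zpow_natCast, Place.ord_zpow]
  constructor
  · intro h1
    by_contra h2
    have h3 : Q.ord x < 0 := not_le.mp h2
    nlinarith
  · intro h1
    positivity

theorem h96_chart_frob_symm (h : h96_IsFrobChart k q x φ) (Q : Place k Fb) :
    x ∈ ((h96_frobPerm h).symm Q).toValuationSubring ↔ x ∈ Q.toValuationSubring := by
  rw [← h96_chart_frob h ((h96_frobPerm h).symm Q), Equiv.apply_symm_apply]

/-- `φ` preserves the chart ring of `x`. -/
theorem h96_reg_frob (h : h96_IsFrobChart k q x φ) {f : Fb} (hf : h39_Reg k x f) :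
    h39_Reg k x (φ f) := fun Q hQ =>
  (h96_mem_frob h Q f).mpr (hf _ ((h96_chart_frob h Q).mpr hQ))

omit [Fact q.Prime] [CharP k q] [IsAlgClosed k] in
theorem h96_val_pow (Q : Place k Fb) {f : Fb} {c : k} (hv : h39_Val Q f c) (n : ℕ) :
    h39_Val Q (f ^ n) (c ^ n) := by
  induction n with
  | zero =>
    rw [pow_zero, pow_zero]
    have := h39_val_algebraMap Q (1 : k)
    rwa [map_one] at this
  | succ n ih =>
    rw [pow_succ, pow_succ]
    exact h39_val_mul Q ih hv

/-- The value of `φ f` at `Q` and the value of `f` at `Φ Q` agree (iff form). -/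
theorem h96_val_frob_iff (h : h96_IsFrobChart k q x φ) (Q : Place k Fb) {f : Fb}
    (hf : f ∈ (h96_frobPerm h Q).toValuationSubring) (c : k) :
    h39_Val Q (φ f) c ↔ h39_Val (h96_frobPerm h Q) f c := by
  refine ⟨fun hv => ?_, h96_val_frob h Q⟩
  obtain ⟨c', hc'⟩ := h39_exists_val h.chart (h96_frobPerm h Q) hf
  have := h39_val_unique Q hv (h96_val_frob h Q hc')
  rwa [this]

/-- The places of the chart fixed by `Φ ∘ Φ` are finite in number: their `x`-values lie in
`𝔽_{q²}`. -/
theorem h96_fix_finite (h : h96_IsFrobChart k q x φ) :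
    {Q : Place k Fb | x ∈ Q.toValuationSubring ∧
      h96_frobPerm h (h96_frobPerm h Q) = Q}.Finite := by
  classical
  have hq1 : 1 < q ^ 2 := Nat.one_lt_pow (by norm_num) (Fact.out : q.Prime).one_lt
  have hpoly : (Polynomial.X ^ (q ^ 2) - Polynomial.X : Polynomial k) ≠ 0 :=
    FiniteField.X_pow_card_sub_X_ne_zero k hq1
  have hZ : {c : k | c ^ (q ^ 2) = c}.Finite := by
    refine (Polynomial.X ^ (q ^ 2) - Polynomial.X : Polynomial k).roots.toFinset.finite_toSet.subset
      fun c hc => ?_
    rw [Finset.mem_coe, Multiset.mem_toFinset, Polynomial.mem_roots hpoly, Polynomial.IsRoot,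
      Polynomial.eval_sub, Polynomial.eval_pow, Polynomial.eval_X, sub_eq_zero]
    exact hc
  refine (hZ.biUnion fun c _ => h75_fibre_finite h.chart c).subset ?_
  rintro Q ⟨hQx, hQfix⟩
  obtain ⟨b, hb⟩ := h39_exists_val h.chart Q hQx
  have h1 : h39_Val (h96_frobPerm h (h96_frobPerm h Q)) x b := by rwa [hQfix]
  have h2 : h39_Val Q (φ (φ x)) b := h96_val_frob h Q (h96_val_frob h _ h1)
  have h3 : φ (φ x) = x ^ (q ^ 2) := by
    rw [h.map_x, map_pow, h.map_x, ← pow_mul, sq]
  rw [h3] at h2
  have h4 : b ^ (q ^ 2) = b := h39_val_unique Q (h96_val_pow Q hb _) h2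
  rw [Set.mem_iUnion₂]
  refine ⟨b, h4, ?_⟩
  rcases hb with hb | hb
  · exfalso
    apply h.chart.tr
    rw [hb]
    exact isAlgebraic_algebraMap _
  · exact hb

end Fermat.Agent.S34

end
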