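import Mathlib
import Fermat.Agent.S34.h20_ChartSF
import Fermat.Agent.S34.h20_ChartRR
import Fermat.Agent.S34.h16_NodeChart
import Fermat.Agent.S34.h96_FrobPlaces

/-!
# S34 / CHART-SF, part 2 (helper20): `hPx`, `hdim`, `hfin`, and `hnode` in binder shape

* `h20_P_eq_pairFil`, `h20_mem_P_Linf`, `h20_P_mono` : dictionary with helper16's `h16_Linf`;
* `h20_chart_hPx` : the binder `hPx` of `h51_strict_of_chart` for `x̄` of exact pole order `c`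
  at `Qinf` in both coordinates;
* `h20_chart_hfin`, `h20_chart_hdim` : the binders `hfin`, `hdim` (Riemann–Roch on `F`);
* nodes given as a finite set `Sg` of places with partner map `Φ`
  (`Q2 ν := ν`, `Q1 ν := Φ ν`, `ν : {Q // Q ∈ Sg}`):
  `h20_chart_hnode` converts the place-language node description
  `a ∈ red (L(n D0) ∩ O) ↔ (a.1, a.2 ∈ L(n Qinf)) ∧ ∀ Q ∈ Sg, ∃ c, a.1(Φ Q) = c ∧ a.2(Q) = c`
  into the binder `hnode` of `h51_gluing` for `h20_P`, `h20_Bs`, `h20_e1`, `h20_e2`;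
  `h20_chart_hind_nodes` is `(IND)` for these nodes;
* Frobenius: for `h : h96_IsFrobChart k q x φ`, `Φ := h96_frobPerm h` and nodes fixed by `Φ ∘ Φ`,
  `h20_nodes_frob` gives the binders `hΦP`, `hΦ1`, `hΦ2` of `h5_frob_trivial_gluing`
  (S35 `(E1)`) with `Q := q * q` and `Φ := h20_frobPair (h20_tau h)`.
-/

set_option autoImplicit false

noncomputable section

open AlgebraicCurve Module

namespace Fermat.Agent.S34

open Fermat.Agent.S18 Fermat.Agent.S24 Fermat.Agent.S27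

variable {K F k Fb : Type*} [Field K] [Field F] [Algebra K F] [Field k] [Field Fb] [Algebra k Fb]

/-! ### Dictionary with `h16_Linf` -/

theorem h20_P_eq_pairFil (Qinf : Place k Fb) (n : ℕ) :
    h20_P Qinf n = h16_pairFil (h16_Linf Qinf) n := rfl

theorem h20_mem_P_Linf {Qinf : Place k Fb} {n : ℕ} {a : Fb × Fb} :
    a ∈ h20_P Qinf n ↔ a.1 ∈ h16_Linf Qinf n ∧ a.2 ∈ h16_Linf Qinf n :=
  Submodule.mem_prod

theorem h20_P_mono (Qinf : Place k Fb) : Monotone (h20_P Qinf) := by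
  intro n n' hnn a ha
  rw [h20_mem_P_Linf] at ha ⊢
  exact ⟨h16_Linf_mono Qinf hnn ha.1, h16_Linf_mono Qinf hnn ha.2⟩

/-! ### `hPx` -/

theorem h20_rr_of_mul (Qinf : Place k Fb) (c n : ℕ) {y f : Fb} (hy : y ≠ 0)
    (hyo : Qinf.ord y = -(c : ℤ))
    (hf : f ∈ riemannRochSpace (h20_Dinf Qinf (n + c)))
    (hyf : y * f ∈ riemannRochSpace (h20_Dinf Qinf (n + c))) :
    f ∈ riemannRochSpace (h20_Dinf Qinf n) := by
  rw [h20_mem_rr_Dinf] at hf hyf ⊢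
  refine ⟨?_, hf.2⟩
  rcases eq_or_ne f 0 with rfl | hf0
  · exact Or.inl rfl
  · right
    have h := hyf.1.resolve_left (mul_ne_zero hy hf0)
    rw [Qinf.ord_mul hy hf0, hyo] at h
    push_cast at h
    linarith

/-- **`hPx`** of `h51_strict_of_chart`: if both coordinates of `xb` are nonzero with a pole of
exact order `c` at `Qinf`, then `a ∈ P (n + c)` and `xb * a ∈ P (n + c)` force `a ∈ P n`. -/
theorem h20_chart_hPx (Qinf : Place k Fb) (c : ℕ) (xb : Fb × Fb) (hx1 : xb.1 ≠ 0)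
    (hx2 : xb.2 ≠ 0) (ho1 : Qinf.ord xb.1 = -(c : ℤ)) (ho2 : Qinf.ord xb.2 = -(c : ℤ)) :
    ∀ (n : ℕ) (a : Fb × Fb), a ∈ h20_P Qinf (n + c) → xb * a ∈ h20_P Qinf (n + c) →
      a ∈ h20_P Qinf n := by
  intro n a ha hxa
  rw [h20_mem_P] at ha hxa ⊢
  exact ⟨h20_rr_of_mul Qinf c n hx1 ho1 ha.1 hxa.1, h20_rr_of_mul Qinf c n hx2 ho2 ha.2 hxa.2⟩

/-! ### `hfin`, `hdim` -/

/-- **`hfin`**: all Riemann–Roch spaces are finite-dimensional. -/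
theorem h20_chart_hfin [IsAlgClosed K] {x : F} (hx : h75_IsChart K x) :
    ∀ D' : Divisor K F, FiniteDimensional K (riemannRochSpace D') :=
  fun D' => (h75_riemann hx D').1

/-- **`hdim`** of `h51_strict_of_chart`: `dim L(n (c D0)) = (c deg D0) n + (1 - g)` for
`n ≥ 2 g`. -/
theorem h20_chart_hdim [IsAlgClosed K] {x : F} (hx : h75_IsChart K x) (D0 : Divisor K F)
    (hD0 : 1 ≤ Divisor.degree D0) (c : ℕ) (hc : 0 < c) :
    ∀ n, 2 * h75_genus K x ≤ n →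
      (Module.finrank K (riemannRochSpace (n • (c • D0))) : ℤ) =
        ((c : ℤ) * Divisor.degree D0) * n + (1 - (h75_genus K x : ℤ)) := by
  intro n hn
  have hdeg : Divisor.degree (n • (c • D0)) = (n : ℤ) * ((c : ℤ) * Divisor.degree D0) := by
    rw [map_nsmul, map_nsmul, nsmul_eq_mul, nsmul_eq_mul]
  have hc1 : (1 : ℤ) ≤ (c : ℤ) := by exact_mod_cast hc
  have hn1 : (2 * h75_genus K x : ℤ) ≤ (n : ℤ) := by exact_mod_cast hn
  have hn0 : (0 : ℤ) ≤ (n : ℤ) := Int.natCast_nonneg n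
  have hcd : (1 : ℤ) ≤ (c : ℤ) * Divisor.degree D0 := by nlinarith
  have hlt : 2 * (h75_genus K x : ℤ) - 2 < Divisor.degree (n • (c • D0)) := by
    rw [hdeg]
    nlinarith
  rw [h15_finrank_rr_of_deg hx _ hlt, hdeg]
  ring

/-! ### Nodes given by a finite set of places and a partner map -/

section Nodes

variable [IsAlgClosed k] {xb : Fb} (hx : h75_IsChart k xb) (Qinf : Place k Fb)
  (Sg : Finset (Place k Fb)) (Φ : Place k Fb → Place k Fb)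

/-- The branch on the first component of the node `ν`: the partner `Φ ν`. -/
def h20_nodeQ1 : {Q // Q ∈ Sg} → Place k Fb := fun ν => Φ ν.1

/-- The branch on the second component of the node `ν`. -/
def h20_nodeQ2 : {Q // Q ∈ Sg} → Place k Fb := fun ν => ν.1

omit [IsAlgClosed k] in
theorem h20_nodeQ1_injective (hΦ : Function.Injective Φ) :
    Function.Injective (h20_nodeQ1 Sg Φ) := fun _ _ h => Subtype.ext (hΦ h)

omit [IsAlgClosed k] in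
theorem h20_nodeQ2_injective : Function.Injective (h20_nodeQ2 Sg) := Subtype.val_injective

variable (hSg : ∀ Q ∈ Sg, Q ≠ Qinf ∧ Φ Q ≠ Qinf)

include hSg in
omit [IsAlgClosed k] in
theorem h20_nodeQ1_ne : ∀ ν, h20_nodeQ1 Sg Φ ν ≠ Qinf := fun ν => (hSg ν.1 ν.2).2

include hSg in
omit [IsAlgClosed k] in
theorem h20_nodeQ2_ne : ∀ ν, h20_nodeQ2 Sg ν ≠ Qinf := fun ν => (hSg ν.1 ν.2).1

/-- The node condition in place language is the node condition in `e1`/`e2` form. -/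
theorem h20_node_iff (n : ℕ) (a : Fb × Fb) (h : a ∈ h20_P Qinf n) :
    (∀ Q ∈ Sg, ∃ c : k, h39_Val (Φ Q) a.1 c ∧ h39_Val Q a.2 c) ↔
      ∀ ν : {Q // Q ∈ Sg},
        h20_e2 hx Qinf (h20_nodeQ2 Sg) (h20_nodeQ2_ne Qinf Sg Φ hSg) ν
            ⟨a, h20_P_le_Bs Qinf n a h⟩ =
          h20_e1 hx Qinf (h20_nodeQ1 Sg Φ) (h20_nodeQ1_ne Qinf Sg Φ hSg) ν
            ⟨a, h20_P_le_Bs Qinf n a h⟩ := by
  constructor
  · intro hc ν
    obtain ⟨c, hc1, hc2⟩ := hc ν.1 ν.2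
    rw [h20_e2_eq hx Qinf (h20_nodeQ2 Sg) (h20_nodeQ2_ne Qinf Sg Φ hSg) ν
        ⟨a, h20_P_le_Bs Qinf n a h⟩ hc2,
      h20_e1_eq hx Qinf (h20_nodeQ1 Sg Φ) (h20_nodeQ1_ne Qinf Sg Φ hSg) ν
        ⟨a, h20_P_le_Bs Qinf n a h⟩ hc1]
  · intro he Q hQ
    refine ⟨_, h20_e1_spec hx Qinf (h20_nodeQ1 Sg Φ) (h20_nodeQ1_ne Qinf Sg Φ hSg) ⟨Q, hQ⟩
      ⟨a, h20_P_le_Bs Qinf n a h⟩, ?_⟩
    rw [← he ⟨Q, hQ⟩]
    exact h20_e2_spec hx Qinf (h20_nodeQ2 Sg) (h20_nodeQ2_ne Qinf Sg Φ hSg) ⟨Q, hQ⟩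
      ⟨a, h20_P_le_Bs Qinf n a h⟩

/-- **`hnode`** in the binder shape of `h51_gluing`, from the place-language description of
`red (L(n D0) ∩ O)` (the output shape of `h16_node_chart` with the node condition of
`h98_frob_nodes_off`). -/
theorem h20_chart_hnode (D : h22_Lat K F k (Fb × Fb)) (D0 : Divisor K F) (n0 : ℕ)
    (hnodeP : ∀ n, n0 ≤ n → ∀ a : Fb × Fb, a ∈ h51_Rd D (n • D0) ↔
      (a.1 ∈ h16_Linf Qinf n ∧ a.2 ∈ h16_Linf Qinf n) ∧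
        ∀ Q ∈ Sg, ∃ c : k, h39_Val (Φ Q) a.1 c ∧ h39_Val Q a.2 c) :
    ∀ n, n0 ≤ n → ∀ a : Fb × Fb, a ∈ h51_Rd D (n • D0) ↔
      ∃ h : a ∈ h20_P Qinf n, ∀ ν : {Q // Q ∈ Sg},
        h20_e2 hx Qinf (h20_nodeQ2 Sg) (h20_nodeQ2_ne Qinf Sg Φ hSg) ν
            ⟨a, h20_P_le_Bs Qinf n a h⟩ =
          h20_e1 hx Qinf (h20_nodeQ1 Sg Φ) (h20_nodeQ1_ne Qinf Sg Φ hSg) ν
            ⟨a, h20_P_le_Bs Qinf n a h⟩ := by
  intro n hn a
  rw [hnodeP n hn a]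
  constructor
  · rintro ⟨hL, hc⟩
    have h : a ∈ h20_P Qinf n := h20_mem_P_Linf.mpr hL
    exact ⟨h, (h20_node_iff hx Qinf Sg Φ hSg n a h).mp hc⟩
  · rintro ⟨h, he⟩
    exact ⟨h20_mem_P_Linf.mp h, (h20_node_iff hx Qinf Sg Φ hSg n a h).mpr he⟩

/-- **`(IND)`** for the nodes `Sg` with an injective partner map. -/
theorem h20_chart_hind_nodes (hΦ : Function.Injective Φ) :
    ∀ n, 2 * h75_genus k xb + Sg.card ≤ n → ∀ s t : {Q // Q ∈ Sg} → k, ∃ a,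
      ∃ h : a ∈ h20_P Qinf n,
        (∀ ν, h20_e1 hx Qinf (h20_nodeQ1 Sg Φ) (h20_nodeQ1_ne Qinf Sg Φ hSg) ν
          ⟨a, h20_P_le_Bs Qinf n a h⟩ = s ν) ∧
        (∀ ν, h20_e2 hx Qinf (h20_nodeQ2 Sg) (h20_nodeQ2_ne Qinf Sg Φ hSg) ν
          ⟨a, h20_P_le_Bs Qinf n a h⟩ = t ν) := by
  intro n hn
  have hcard : Fintype.card {Q // Q ∈ Sg} = Sg.card := Fintype.card_coe Sg
  exact h20_chart_ind hx Qinf (h20_nodeQ1 Sg Φ) (h20_nodeQ2 Sg)
    (h20_nodeQ1_ne Qinf Sg Φ hSg) (h20_nodeQ2_ne Qinf Sg Φ hSg)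
    (h20_nodeQ1_injective Sg Φ hΦ) (h20_nodeQ2_injective Sg) n (by rw [hcard]; exact hn)

end Nodes

/-! ### Frobenius-fixed nodes (S35 `(E1)`) -/

section FrobNodes

variable {q : ℕ} [Fact q.Prime] [CharP k q] [IsAlgClosed k] {x : Fb} {φ : Fb →+* Fb}
  (h : h96_IsFrobChart k q x φ)

/-- The coefficient Frobenius `σ = (Frob⁻¹ ∘ φ)⁻¹` is a `q`-Frobenius structure. -/
theorem h20_frobSemi_inv_isFrob : h57_IsFrob q (h96_frobSemi h)⁻¹ := by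
  intro c
  have h1 : ((h96_frobSemi h : h57_SemiAut k Fb) : Fb ≃+* Fb) (algebraMap k Fb (c ^ q)) =
      algebraMap k Fb c := by
    apply h96_pow_inj k q
    rw [h96_frobSemi_pow, h.const, map_pow]
  have h2 : (((h96_frobSemi h)⁻¹ : h57_SemiAut k Fb) : Fb ≃+* Fb) =
      ((h96_frobSemi h : h57_SemiAut k Fb) : Fb ≃+* Fb).symm := rfl
  rw [h2, RingEquiv.symm_apply_eq, h1]

/-- The square of the coefficient Frobenius. -/
def h20_tau : h57_SemiAut k Fb := (h96_frobSemi h)⁻¹ * (h96_frobSemi h)⁻¹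

theorem h20_tau_isFrob : h57_IsFrob (q * q) (h20_tau h) :=
  (h20_frobSemi_inv_isFrob h).mul (h20_frobSemi_inv_isFrob h)

theorem h20_tau_smul (Q : Place k Fb) :
    h20_tau h • Q = h96_frobPerm h (h96_frobPerm h Q) := by
  unfold h20_tau
  rw [mul_smul]
  rfl

variable {xb : Fb} (hx : h75_IsChart k xb) (Qinf : Place k Fb) (Sg : Finset (Place k Fb))
  (hSg : ∀ Q ∈ Sg, Q ≠ Qinf ∧ h96_frobPerm h Q ≠ Qinf)

include hSg in
/-- **The binders `hΦP`, `hΦ1`, `hΦ2` of `h5_frob_trivial_gluing`** for nodes fixed by `Φ ∘ Φ`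
(`Φ := h96_frobPerm h`), with `Q := q * q` and the pair map `h20_frobPair (h20_tau h)`. -/
theorem h20_nodes_frob (hfixinf : h96_frobPerm h Qinf = Qinf)
    (hfix : ∀ Q ∈ Sg, h96_frobPerm h (h96_frobPerm h Q) = Q) :
    ∃ hΦP : ∀ n, ∀ a, a ∈ h20_P Qinf n → h20_frobPair (h20_tau h) a ∈ h20_P Qinf n,
      (∀ (n : ℕ) (ν : {Q // Q ∈ Sg}) (a : Fb × Fb) (ha : a ∈ h20_P Qinf n),
        h20_e1 hx Qinf (h20_nodeQ1 Sg (h96_frobPerm h))
            (h20_nodeQ1_ne Qinf Sg (h96_frobPerm h) hSg) ν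
            ⟨h20_frobPair (h20_tau h) a, h20_P_le_Bs Qinf n _ (hΦP n a ha)⟩ =
          h20_e1 hx Qinf (h20_nodeQ1 Sg (h96_frobPerm h))
            (h20_nodeQ1_ne Qinf Sg (h96_frobPerm h) hSg) ν
            ⟨a, h20_P_le_Bs Qinf n a ha⟩ ^ (q * q)) ∧
      (∀ (n : ℕ) (ν : {Q // Q ∈ Sg}) (a : Fb × Fb) (ha : a ∈ h20_P Qinf n),
        h20_e2 hx Qinf (h20_nodeQ2 Sg) (h20_nodeQ2_ne Qinf Sg (h96_frobPerm h) hSg) ν
            ⟨h20_frobPair (h20_tau h) a, h20_P_le_Bs Qinf n _ (hΦP n a ha)⟩ =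
          h20_e2 hx Qinf (h20_nodeQ2 Sg) (h20_nodeQ2_ne Qinf Sg (h96_frobPerm h) hSg) ν
            ⟨a, h20_P_le_Bs Qinf n a ha⟩ ^ (q * q)) := by
  have hτinf : h20_tau h • Qinf = Qinf := by rw [h20_tau_smul, hfixinf, hfixinf]
  have hτ2 : ∀ ν : {Q // Q ∈ Sg}, h20_tau h • h20_nodeQ2 Sg ν = h20_nodeQ2 Sg ν := by
    intro ν
    rw [h20_tau_smul]
    exact hfix ν.1 ν.2
  have hτ1 : ∀ ν : {Q // Q ∈ Sg},
      h20_tau h • h20_nodeQ1 Sg (h96_frobPerm h) ν = h20_nodeQ1 Sg (h96_frobPerm h) ν := by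
    intro ν
    rw [h20_tau_smul]
    show h96_frobPerm h (h96_frobPerm h (h96_frobPerm h ν.1)) = h96_frobPerm h ν.1
    rw [hfix ν.1 ν.2]
  refine ⟨h20_frob_P Qinf (h20_tau h) hτinf, ?_, ?_⟩
  · exact h20_frob_e1 hx Qinf (h20_nodeQ1 Sg (h96_frobPerm h))
      (h20_nodeQ1_ne Qinf Sg (h96_frobPerm h) hSg) (h20_tau h) (q * q) (h20_tau_isFrob h)
      hτinf hτ1
  · exact h20_frob_e2 hx Qinf (h20_nodeQ2 Sg) (h20_nodeQ2_ne Qinf Sg (h96_frobPerm h) hSg)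
      (h20_tau h) (q * q) (h20_tau_isFrob h) hτinf hτ2

end FrobNodes

end Fermat.Agent.S34

end
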