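import Mathlib

/-!
# S34 (route R85, Step 3): codimension bounds for increasing unions

Mathlib-only linear algebra, complementing `h98_Pairing` (the node squeeze `h98_pairing_global`
needs `Module.Finite k (R ⧸ B')` and `finrank k (R ⧸ B') ≤ d * δ`) and `h16_Sat` (the saturated
case):

* `h19_finrank_quot_le_of_union` : if `W = ⋃ P n`, `B = ⋃ B' n`, `B' n ≤ P n`, `P` increasing and
  `dim P n ≤ dim B' n + c` for all `n`, then `W ⧸ B` is finite-dimensional of dimension `≤ c`
  (no saturation needed: this is the trivial direction, used for the cover);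
* `h19_eq_comap_of_finrank_le` : a subspace contained in a preimage, with at most the
  codimension of the preimage, is the preimage.
-/

set_option autoImplicit false

namespace Fermat.Agent.S34

section Squeeze

variable {k : Type*} [Field k]

/-- A subspace contained in a preimage, whose codimension is at most that of the preimage's
target, is the whole preimage. -/
theorem h19_eq_comap_of_finrank_le {W E : Type*} [AddCommGroup W] [Module k W]
    [AddCommGroup E] [Module k E] (ev : W →ₗ[k] E) (hev : Function.Surjective ev)
    (U : Submodule k E) (B : Submodule k W) (hB : B ≤ U.comap ev)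
    [FiniteDimensional k (W ⧸ B)]
    (h : Module.finrank k (W ⧸ B) ≤ Module.finrank k (E ⧸ U)) :
    B = U.comap ev ∧ Module.finrank k (E ⧸ U) = Module.finrank k (W ⧸ B) := by
  let g : (W ⧸ B) →ₗ[k] (E ⧸ U) := Submodule.mapQ B U ev hB
  have hg : Function.Surjective g := by
    intro y
    obtain ⟨e, rfl⟩ := Submodule.mkQ_surjective U y
    obtain ⟨w, rfl⟩ := hev e
    exact ⟨Submodule.mkQ B w, rfl⟩
  have : FiniteDimensional k (E ⧸ U) := Module.Finite.of_surjective g hg
  have hle : Module.finrank k (E ⧸ U) ≤ Module.finrank k (W ⧸ B) :=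
    LinearMap.finrank_le_finrank_of_surjective hg
  have heq : Module.finrank k (W ⧸ B) = Module.finrank k (E ⧸ U) := le_antisymm h hle
  have hinj : Function.Injective g :=
    (LinearMap.injective_iff_surjective_of_finrank_eq_finrank heq).mpr hg
  refine ⟨le_antisymm hB ?_, heq.symm⟩
  intro x hx
  have h0 : g (Submodule.mkQ B x) = 0 := by
    show Submodule.mapQ B U ev hB (Submodule.Quotient.mk x) = 0
    rw [Submodule.mapQ_apply]
    exact (Submodule.Quotient.mk_eq_zero U).mpr hx
  have h1 : Submodule.mkQ B x = 0 := hinj (h0.trans (map_zero g).symm)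
  exact (Submodule.Quotient.mk_eq_zero B).mp h1

/-- Codimension bounds pass to increasing unions: if `W = ⋃ P n`, `B = ⋃ B' n` with
`B' n ≤ P n`, `P` increasing, and `dim P n ≤ dim B' n + c` for all `n ≥ n₀`, then `W ⧸ B` is
finite-dimensional of dimension `≤ c`. -/
theorem h19_finrank_quot_le_of_union {W : Type*} [AddCommGroup W] [Module k W]
    (P B' : ℕ → Submodule k W) (hP : Monotone P)
    (hBP : ∀ n, B' n ≤ P n) [∀ n, FiniteDimensional k (P n)]
    (hPtop : ∀ x : W, ∃ n, x ∈ P n) (B : Submodule k W) (hB : ∀ x, x ∈ B ↔ ∃ n, x ∈ B' n)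
    (c n₀ : ℕ) (hc : ∀ n, n₀ ≤ n → Module.finrank k (P n) ≤ Module.finrank k (B' n) + c) :
    FiniteDimensional k (W ⧸ B) ∧ Module.finrank k (W ⧸ B) ≤ c := by
  classical
  have key : ∀ s : Finset (W ⧸ B), (LinearIndependent k fun i : s => (i : W ⧸ B)) →
      s.card ≤ c := by
    intro s hs
    -- lift the family
    have hlift : ∀ q : W ⧸ B, ∃ x : W, Submodule.mkQ B x = q := Submodule.mkQ_surjective B
    choose x hx using hlift
    -- a common level
    have hlev : ∃ n, n₀ ≤ n ∧ ∀ q ∈ s, x q ∈ P n := by
      choose m hm using fun q : W ⧸ B => hPtop (x q)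
      refine ⟨max (s.sup m) n₀, le_max_right _ _, fun q hq => ?_⟩
      exact hP ((Finset.le_sup hq).trans (le_max_left _ _)) (hm q)
    obtain ⟨n, hn₀, hn⟩ := hlev
    -- the span of the lifts
    let S : Submodule k W := Submodule.span k (Set.range fun i : s => x (i : W ⧸ B))
    have hxind : LinearIndependent k fun i : s => x (i : W ⧸ B) := by
      apply LinearIndependent.of_comp (Submodule.mkQ B)
      have : (Submodule.mkQ B ∘ fun i : s => x (i : W ⧸ B)) = fun i : s => (i : W ⧸ B) := by
        funext i
        exact hx _
      rw [this]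
      exact hs
    have hSrank : Module.finrank k S = s.card := by
      have := finrank_span_eq_card hxind
      simpa using this
    have hSP : S ≤ P n := by
      rw [Submodule.span_le]
      rintro _ ⟨i, rfl⟩
      exact hn _ i.2
    have hdisj : S ⊓ B' n = ⊥ := by
      rw [eq_bot_iff]
      intro y hy
      obtain ⟨hyS, hyB⟩ := hy
      have hyB0 : Submodule.mkQ B y = 0 := by
        rw [Submodule.mkQ_apply, Submodule.Quotient.mk_eq_zero]
        exact (hB y).mpr ⟨n, hyB⟩
      -- write y as a combination
      obtain ⟨l, rfl⟩ := (Submodule.mem_span_range_iff_exists_fun k).mp hyS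
      rw [map_sum] at hyB0
      have hyB0' : ∑ i : s, l i • (i : W ⧸ B) = 0 := by
        rw [← hyB0]
        apply Finset.sum_congr rfl
        intro i _
        rw [map_smul, hx]
      have hl := (Fintype.linearIndependent_iff.mp hs) l hyB0'
      rw [Submodule.mem_bot]
      apply Finset.sum_eq_zero
      intro i _
      rw [hl i, zero_smul]
    have hsup : S ⊔ B' n ≤ P n := sup_le hSP (hBP n)
    have : FiniteDimensional k S := Submodule.finiteDimensional_of_le hSP
    have : FiniteDimensional k (B' n) := Submodule.finiteDimensional_of_le (hBP n)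
    have h1 := Submodule.finrank_sup_add_finrank_inf_eq S (B' n)
    rw [hdisj, finrank_bot, add_zero] at h1
    have h2 : Module.finrank k (S ⊔ B' n : Submodule k W) ≤ Module.finrank k (P n) :=
      Submodule.finrank_mono hsup
    have h3 := hc n hn₀
    omega
  have hrank : Module.rank k (W ⧸ B) ≤ c := rank_le key
  have hfin : FiniteDimensional k (W ⧸ B) := by
    rw [FiniteDimensional, ← Module.rank_lt_aleph0_iff]
    exact lt_of_le_of_lt hrank (Cardinal.natCast_lt_aleph0)
  refine ⟨hfin, ?_⟩
  have := Module.finrank_eq_rank k (W ⧸ B)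
  rw [← this] at hrank
  exact_mod_cast hrank

end Squeeze

end Fermat.Agent.S34
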