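import Fermat.Agent.S34.h96_FrobNodesPl

/-!
# S34 — FROB-PLACES, two-chart variant

Setting of `h96_FrobNodesPl`: `Fb / k` a function field over an algebraically closed field of
characteristic `q`, `x` a chart with `φ x = x ^ q` (the FROBENIUS chart), `Φ` the induced
permutation of the places.  Here the REGULARITY chart is a second chart `y` whose domain
`{Q | y ∈ O_Q}` is stable under `Φ` (`hstab`); no relation between `φ y` and `y` is required.

`h98_frob_nodes_places₂`: a `k`-subalgebra `B` of `Fb × Fb` consisting of pairs of functions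
regular on the chart of `y` and containing the two graphs `(b, φ b)`, `(φ b, b)` (`b` regular
on the chart of `y`) is cut out, inside the pairs of regular functions, by the node conditions
`a.1 (Φ Q) = a.2 (Q)` for `Q` in a FINITE set of places of the chart of `y` fixed by `Φ ∘ Φ`.

`h98_frob_nodes_off`: the same for the ring of functions regular off ONE place `Qinf` with
`Φ Qinf = Qinf` (`y` a chart whose only pole is `Qinf`).
-/

set_option autoImplicit false

noncomputable section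

open AlgebraicCurve IntermediateField IsDedekindDomain
open Fermat.Agent.S24 Fermat.Agent.S18 Fermat.Agent.S27

namespace Fermat.Agent.S34

open scoped IntermediateField.algebraAdjoinAdjoin

variable {k Fb : Type*} [Field k] [Field Fb] [Algebra k Fb]
variable [IsAlgClosed k]
variable {q : ℕ} [Fact q.Prime] [CharP k q] {x : Fb} {φ : Fb →+* Fb}

/-- `φ` preserves the chart ring of a chart `y` with `Φ`-stable domain. -/
theorem h98_reg_frob₂ (h : h96_IsFrobChart k q x φ) {y : Fb}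
    (hstab : ∀ Q : Place k Fb,
      y ∈ (h96_frobPerm h Q).toValuationSubring ↔ y ∈ Q.toValuationSubring)
    {f : Fb} (hf : h39_Reg k y f) : h39_Reg k y (φ f) := fun Q hQ =>
  (h96_mem_frob h Q f).mpr (hf _ ((hstab Q).mpr hQ))

/-- `φ` restricted to the chart ring of `y`, as a `k`-algebra endomorphism. -/
def h98_frobChart₂ (h : h96_IsFrobChart k q x φ) {y : Fb} (hy : h75_IsChart k y)
    (hstab : ∀ Q : Place k Fb,
      y ∈ (h96_frobPerm h Q).toValuationSubring ↔ y ∈ Q.toValuationSubring) :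
    h75_ringB k y →ₐ[k] h75_ringB k y where
  toFun b := ⟨φ (b : Fb), (h64_reg_iff_mem_ringB hy _).mp
    (h98_reg_frob₂ h hstab ((h64_reg_iff_mem_ringB hy _).mpr b.2))⟩
  map_one' := Subtype.ext (map_one φ)
  map_mul' _ _ := Subtype.ext (map_mul φ _ _)
  map_zero' := Subtype.ext (map_zero φ)
  map_add' _ _ := Subtype.ext (map_add φ _ _)
  commutes' c := Subtype.ext (h.const c)

theorem h98_coe_frobChart₂ (h : h96_IsFrobChart k q x φ) {y : Fb} (hy : h75_IsChart k y)
    (hstab : ∀ Q : Place k Fb,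
      y ∈ (h96_frobPerm h Q).toValuationSubring ↔ y ∈ Q.toValuationSubring)
    (b : h75_ringB k y) :
    ((h98_frobChart₂ h hy hstab b : h75_ringB k y) : Fb) = φ (b : Fb) := rfl

/-- `φ (φ b)` is a `q`-th power IN the chart ring of `y`. -/
theorem h98_frobChart₂_pow (h : h96_IsFrobChart k q x φ) {y : Fb} (hy : h75_IsChart k y)
    (hstab : ∀ Q : Place k Fb,
      y ∈ (h96_frobPerm h Q).toValuationSubring ↔ y ∈ Q.toValuationSubring)
    (b : h75_ringB k y) :
    ∃ d : h75_ringB k y, h98_frobChart₂ h hy hstab (h98_frobChart₂ h hy hstab b) = d ^ q := by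
  have hreg : ∀ b : h75_ringB k y, h39_Reg k y (b : Fb) :=
    fun b => (h64_reg_iff_mem_ringB hy _).mpr b.2
  let d : Fb := ((h96_frobSemi h : h57_SemiAut k Fb) : Fb ≃+* Fb) (φ (b : Fb))
  have hd : d ^ q = φ (φ (b : Fb)) := h96_frobSemi_pow h _
  have hdreg : h39_Reg k y d :=
    h96_reg_of_pow (Fact.out : q.Prime).ne_zero
      (by rw [hd]; exact hreg (h98_frobChart₂ h hy hstab (h98_frobChart₂ h hy hstab b)))
  exact ⟨⟨d, (h64_reg_iff_mem_ringB hy _).mp hdreg⟩, Subtype.ext hd.symm⟩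

/-- `φ ∘ φ` is not the identity on the chart ring of `y`. -/
theorem h98_frobChart₂_ne (h : h96_IsFrobChart k q x φ) {y : Fb} (hy : h75_IsChart k y)
    (hstab : ∀ Q : Place k Fb,
      y ∈ (h96_frobPerm h Q).toValuationSubring ↔ y ∈ Q.toValuationSubring) :
    ∃ b : h75_ringB k y, h98_frobChart₂ h hy hstab (h98_frobChart₂ h hy hstab b) ≠ b := by
  have := h75_ringB_isDedekindDomain hy
  have := h75_ringB_isFractionRing hy
  by_contra hall
  push Not at hall
  have hall' : ∀ b : h75_ringB k y, φ (φ (b : Fb)) = (b : Fb) :=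
    fun b => congrArg Subtype.val (hall b)
  obtain ⟨a, s, hs, hxas⟩ := IsFractionRing.div_surjective (A := h75_ringB k y) x
  have hmap : ∀ b : h75_ringB k y, algebraMap (h75_ringB k y) Fb b = (b : Fb) := fun _ => rfl
  rw [hmap, hmap] at hxas
  apply h96_frob_frob_x_ne h
  rw [← hxas, map_div₀, map_div₀, hall' a, hall' s]

/-- (P4₂) FROBENIUS NODES IN PLACE LANGUAGE, with a separate regularity chart `y` whose domain
is stable under the place permutation `Φ`. -/
theorem h98_frob_nodes_places₂ (h : h96_IsFrobChart k q x φ) {y : Fb} (hy : h75_IsChart k y)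
    (hstab : ∀ Q : Place k Fb,
      y ∈ (h96_frobPerm h Q).toValuationSubring ↔ y ∈ Q.toValuationSubring)
    (B : Subalgebra k (Fb × Fb)) (hBR : ∀ a ∈ B, h39_Reg k y a.1 ∧ h39_Reg k y a.2)
    (hB1 : ∀ b : Fb, h39_Reg k y b → (b, φ b) ∈ B)
    (hB2 : ∀ b : Fb, h39_Reg k y b → (φ b, b) ∈ B) :
    ∃ Sg : Finset (Place k Fb),
      (∀ Q ∈ Sg, y ∈ Q.toValuationSubring ∧ h96_frobPerm h (h96_frobPerm h Q) = Q) ∧
      ∀ a : Fb × Fb, a ∈ B ↔ h39_Reg k y a.1 ∧ h39_Reg k y a.2 ∧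
        ∀ Q ∈ Sg, ∃ c : k, h39_Val (h96_frobPerm h Q) a.1 c ∧ h39_Val Q a.2 c := by
  classical
  have := h75_ringB_isDedekindDomain hy
  have := h75_ringB_isFractionRing hy
  let ι : h75_ringB k y →ₐ[k] Fb := IsScalarTower.toAlgHom k (h75_ringB k y) Fb
  let φR := h98_frobChart₂ h hy hstab
  let B' : Subalgebra k (h75_ringB k y × h75_ringB k y) := B.comap (AlgHom.prodMap ι ι)
  have hB' : ∀ a : h75_ringB k y × h75_ringB k y, a ∈ B' ↔ ((a.1 : Fb), (a.2 : Fb)) ∈ B :=
    fun a => Iff.rfl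
  have hreg : ∀ b : h75_ringB k y, h39_Reg k y (b : Fb) :=
    fun b => (h64_reg_iff_mem_ringB hy _).mpr b.2
  have hmk : ∀ f : Fb, h39_Reg k y f → f ∈ h75_ringB k y :=
    fun f hf => (h64_reg_iff_mem_ringB hy _).mp hf
  have hq2 : 2 ≤ q := (Fact.out : q.Prime).two_le
  obtain ⟨Sg, hSgfin, hSgfix, hSg⟩ := h34_frob_nodes_dedekind
    (fun P hP r => h96_chart_res hy P hP r) φR q hq2 (h98_frobChart₂_pow h hy hstab)
    (h98_frobChart₂_ne h hy hstab) B'
    (fun b => (hB' _).mpr (hB1 _ (hreg b))) (fun b => (hB' _).mpr (hB2 _ (hreg b)))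
  -- the place of a `k`-point of the chart ring
  have hpl : ∀ χ : h75_ringB k y →ₐ[k] k, ∃ P : Place k Fb, y ∈ P.toValuationSubring ∧
      ∀ b : h75_ringB k y, h39_Val P (b : Fb) (χ b) := by
    intro χ
    let j : h39_chartRing k y →ₐ[k] h75_ringB k y :=
      { toFun := fun f => ⟨(f : Fb), hmk _ f.2⟩
        map_one' := rfl
        map_mul' := fun _ _ => rfl
        map_zero' := rfl
        map_add' := fun _ _ => rfl
        commutes' := fun c => rfl }
    obtain ⟨P, hP, hv⟩ := h39_exists_place_of_algHom hy (χ.comp j)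
    exact ⟨P, hP, fun b => hv ⟨(b : Fb), hreg b⟩⟩
  choose pl hplx hplv using hpl
  refine ⟨hSgfin.toFinset.image pl, ?_, ?_⟩
  · intro Q hQ
    rw [Finset.mem_image] at hQ
    obtain ⟨χ, hχ, rfl⟩ := hQ
    rw [Set.Finite.mem_toFinset] at hχ
    refine ⟨hplx χ, ?_⟩
    have hx2 : y ∈ (h96_frobPerm h (h96_frobPerm h (pl χ))).toValuationSubring :=
      (hstab _).mpr ((hstab _).mpr (hplx χ))
    refine h39_place_eq_of_val hy _ _ hx2 (hplx χ) fun f hf b hb => ?_
    have h2 : h39_Val (pl χ) (φ (φ f)) b := h96_val_frob h _ (h96_val_frob h _ hb)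
    have h3 : h39_Val (pl χ) (φ (φ f)) (χ (φR (φR ⟨f, hmk f hf⟩))) :=
      hplv χ (φR (φR ⟨f, hmk f hf⟩))
    have h4 : b = χ ⟨f, hmk f hf⟩ := by rw [h39_val_unique _ h2 h3, hSgfix χ hχ]
    rw [h4]
    exact hplv χ ⟨f, hmk f hf⟩
  · intro a
    constructor
    · intro ha
      obtain ⟨h1, h2⟩ := hBR a ha
      refine ⟨h1, h2, fun Q hQ => ?_⟩
      rw [Finset.mem_image] at hQ
      obtain ⟨χ, hχ, rfl⟩ := hQ
      rw [Set.Finite.mem_toFinset] at hχ
      let a' : h75_ringB k y × h75_ringB k y := (⟨a.1, hmk _ h1⟩, ⟨a.2, hmk _ h2⟩)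
      have ha' : a' ∈ B' := (hB' a').mpr ha
      have h3 := (hSg a').mp ha' χ hχ
      refine ⟨χ a'.2, ?_, hplv χ a'.2⟩
      have h4 : h39_Val (pl χ) (φ a.1) (χ (φR a'.1)) := hplv χ (φR a'.1)
      rw [h3] at h4
      have h5 : a.1 ∈ (h96_frobPerm h (pl χ)).toValuationSubring :=
        h1 _ ((hstab _).mpr (hplx χ))
      exact (h96_val_frob_iff h (pl χ) h5 _).mp h4
    · rintro ⟨h1, h2, h3⟩
      let a' : h75_ringB k y × h75_ringB k y := (⟨a.1, hmk _ h1⟩, ⟨a.2, hmk _ h2⟩)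
      have ha' : a' ∈ B' := by
        rw [hSg]
        intro χ hχ
        obtain ⟨c, hc1, hc2⟩ := h3 (pl χ)
          (Finset.mem_image.mpr ⟨χ, (Set.Finite.mem_toFinset _).mpr hχ, rfl⟩)
        have h4 : χ a'.2 = c := h39_val_unique _ (hplv χ a'.2) hc2
        have h5 : χ (φR a'.1) = c :=
          h39_val_unique _ (hplv χ (φR a'.1)) (h96_val_frob h _ hc1)
        rw [h4, h5]
      exact (hB' a').mp ha'

/-- (P4∞) FROBENIUS NODES ON THE RING OF FUNCTIONS REGULAR OFF ONE PLACE `Qinf` fixed by `Φ`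
(`y` any chart whose only pole is `Qinf`).  The nodes `Q` and their partners `Φ Q` are
different from `Qinf`. -/
theorem h98_frob_nodes_off (h : h96_IsFrobChart k q x φ) {y : Fb} (hy : h75_IsChart k y)
    (Qinf : Place k Fb) (hpole : ∀ Q : Place k Fb, y ∈ Q.toValuationSubring ↔ Q ≠ Qinf)
    (hfix : h96_frobPerm h Qinf = Qinf)
    (B : Subalgebra k (Fb × Fb))
    (hBR : ∀ a ∈ B, ∀ Q : Place k Fb, Q ≠ Qinf →
      a.1 ∈ Q.toValuationSubring ∧ a.2 ∈ Q.toValuationSubring)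
    (hB1 : ∀ b : Fb, (∀ Q : Place k Fb, Q ≠ Qinf → b ∈ Q.toValuationSubring) → (b, φ b) ∈ B)
    (hB2 : ∀ b : Fb, (∀ Q : Place k Fb, Q ≠ Qinf → b ∈ Q.toValuationSubring) → (φ b, b) ∈ B) :
    ∃ Sg : Finset (Place k Fb),
      (∀ Q ∈ Sg, Q ≠ Qinf ∧ h96_frobPerm h Q ≠ Qinf ∧
        h96_frobPerm h (h96_frobPerm h Q) = Q) ∧
      ∀ a : Fb × Fb, a ∈ B ↔
        (∀ Q : Place k Fb, Q ≠ Qinf →
          a.1 ∈ Q.toValuationSubring ∧ a.2 ∈ Q.toValuationSubring) ∧
        ∀ Q ∈ Sg, ∃ c : k, h39_Val (h96_frobPerm h Q) a.1 c ∧ h39_Val Q a.2 c := by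
  have hne : ∀ Q : Place k Fb, h96_frobPerm h Q ≠ Qinf ↔ Q ≠ Qinf := by
    intro Q
    constructor
    · rintro h1 rfl
      exact h1 hfix
    · intro h1 h2
      apply h1
      apply (h96_frobPerm h).injective
      rw [h2, hfix]
  have hstab : ∀ Q : Place k Fb,
      y ∈ (h96_frobPerm h Q).toValuationSubring ↔ y ∈ Q.toValuationSubring := by
    intro Q
    rw [hpole, hpole, hne]
  have hregiff : ∀ f : Fb, h39_Reg k y f ↔
      ∀ Q : Place k Fb, Q ≠ Qinf → f ∈ Q.toValuationSubring := by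
    intro f
    constructor
    · intro hf Q hQ
      exact hf Q ((hpole Q).mpr hQ)
    · intro hf Q hQ
      exact hf Q ((hpole Q).mp hQ)
  obtain ⟨Sg, hSg1, hSg2⟩ := h98_frob_nodes_places₂ h hy hstab B
    (fun a ha => ⟨(hregiff _).mpr fun Q hQ => (hBR a ha Q hQ).1,
      (hregiff _).mpr fun Q hQ => (hBR a ha Q hQ).2⟩)
    (fun b hb => hB1 b ((hregiff b).mp hb)) (fun b hb => hB2 b ((hregiff b).mp hb))
  refine ⟨Sg, fun Q hQ => ?_, fun a => ?_⟩
  · obtain ⟨h1, h2⟩ := hSg1 Q hQ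
    have h3 : Q ≠ Qinf := (hpole Q).mp h1
    exact ⟨h3, (hne Q).mpr h3, h2⟩
  · rw [hSg2 a, hregiff, hregiff]
    constructor
    · rintro ⟨h1, h2, h3⟩
      exact ⟨fun Q hQ => ⟨h1 Q hQ, h2 Q hQ⟩, h3⟩
    · rintro ⟨h1, h3⟩
      exact ⟨fun Q hQ => (h1 Q hQ).1, fun Q hQ => (h1 Q hQ).2, h3⟩

end Fermat.Agent.S34

end
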