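import Mathlib
import Fermat.Agent.S34.h20_ChartNode
import Fermat.Agent.S34.h98_FrobNodes2

/-!
# S34 / NODE (row 560, helper20): `hnode` verbatim in the binder shape of `h51_gluing`

Assembly of
* helper16's `h16_node_chart` ((REG) + (LEAD) + (SAT): the description of the ring
  `⋃ₙ red (L(n D0) ∩ O)` descends to every level `n ≥ max n₁ g_F`),
* helper98's `h98_frob_nodes_off` (a subalgebra of pairs of functions regular off `Qinf`
  containing the two Frobenius graphs is cut out by node conditions at a finite set `Sg`),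
* the dictionary `h20_chart_hnode` (place language ↔ `h20_e1`/`h20_e2`).

* `h20_unionAlg D D0 hD0` : the ring `⋃ₙ red (L(n D0) ∩ O)` as a `k`-subalgebra;
* `h20_exists_P_iff` : `(∃ n, a ∈ L(n Qinf) × L(n Qinf)) ↔ a` is a pair of functions regular
  off `Qinf`;
* `h20_node_final` : the node set `Sg` and `hnode`, `hind`, and the S35 Frobenius binders.
-/

set_option autoImplicit false

noncomputable section

open AlgebraicCurve Module

namespace Fermat.Agent.S34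

open Fermat.Agent.S18 Fermat.Agent.S24 Fermat.Agent.S27

section Union

variable {K F k Rb : Type*} [Field K] [Field F] [Algebra K F] [Field k] [CommRing Rb]
  [Algebra k Rb]

theorem h20_Rd_nsmul_mono (D : h22_Lat K F k Rb) {D0 : Divisor K F} (hD0 : 0 ≤ D0) {n n' : ℕ}
    (hnn : n ≤ n') : h51_Rd D (n • D0) ≤ h51_Rd D (n' • D0) := by
  rintro a ⟨f, hf, hfO, rfl⟩
  exact ⟨f, h68_rr_mono (nsmul_le_nsmul_left hD0 hnn) hf, hfO, rfl⟩

/-- The ring `⋃ₙ red (L(n D0) ∩ O)` for an effective divisor `D0`. -/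
def h20_unionAlg (D : h22_Lat K F k Rb) (D0 : Divisor K F) (hD0 : 0 ≤ D0) : Subalgebra k Rb where
  carrier := {a | ∃ n : ℕ, a ∈ h51_Rd D (n • D0)}
  mul_mem' := by
    rintro a b ⟨n, f, hf, hfO, rfl⟩ ⟨n', g, hg, hgO, rfl⟩
    refine ⟨n + n', f * g, ?_, D.O.mul_mem hfO hgO, h51_redF_mul D hfO hgO⟩
    rw [add_nsmul]
    exact h51_mul_mem_rr hf hg
  add_mem' := by
    rintro a b ⟨n, ha⟩ ⟨n', hb⟩
    exact ⟨max n n', Submodule.add_mem _ (h20_Rd_nsmul_mono D hD0 (le_max_left n n') ha)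
      (h20_Rd_nsmul_mono D hD0 (le_max_right n n') hb)⟩
  algebraMap_mem' := by
    intro c
    refine ⟨0, ?_⟩
    have h1 : (1 : Rb) ∈ h51_Rd D ((0 : ℕ) • D0) := by
      refine ⟨1, ?_, D.O.one_mem, h51_redF_one D⟩
      rw [zero_nsmul]
      intro v
      show v.adicValuation (1 : F) ≤ WithZero.exp ((0 : Divisor K F) v)
      rw [map_one, Finsupp.zero_apply, WithZero.exp_zero]
    have h2 := Submodule.smul_mem _ c h1
    rwa [Algebra.smul_def, mul_one] at h2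

theorem h20_mem_unionAlg {D : h22_Lat K F k Rb} {D0 : Divisor K F} {hD0 : 0 ≤ D0} {a : Rb} :
    a ∈ h20_unionAlg D D0 hD0 ↔ ∃ n : ℕ, a ∈ h51_Rd D (n • D0) := Iff.rfl

end Union

variable {K F k Fb : Type*} [Field K] [Field F] [Algebra K F] [Field k] [Field Fb] [Algebra k Fb]

/-- A function regular off `Qinf` lies in some `L(n Qinf)`. -/
theorem h20_exists_rr_of_regOff (Qinf : Place k Fb) {f : Fb} (hf : f ∈ h20_regOff Qinf) :
    ∃ n : ℕ, f ∈ riemannRochSpace (h20_Dinf Qinf n) := by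
  refine ⟨(-(Qinf.ord f)).toNat, h20_mem_rr_Dinf.mpr ⟨?_, hf⟩⟩
  right
  have := Int.self_le_toNat (-(Qinf.ord f))
  omega

/-- `⋃ₙ L(n Qinf) × L(n Qinf)` is the ring of pairs of functions regular off `Qinf`. -/
theorem h20_exists_P_iff (Qinf : Place k Fb) (a : Fb × Fb) :
    (∃ n : ℕ, a.1 ∈ h16_Linf Qinf n ∧ a.2 ∈ h16_Linf Qinf n) ↔
      ∀ Q : Place k Fb, Q ≠ Qinf → a.1 ∈ Q.toValuationSubring ∧ a.2 ∈ Q.toValuationSubring := by
  constructor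
  · rintro ⟨n, h1, h2⟩ Q hQ
    exact ⟨h20_rr_Dinf_le_regOff Qinf n h1 Q hQ, h20_rr_Dinf_le_regOff Qinf n h2 Q hQ⟩
  · intro h
    obtain ⟨n1, h1⟩ := h20_exists_rr_of_regOff Qinf (f := a.1) (fun Q hQ => (h Q hQ).1)
    obtain ⟨n2, h2⟩ := h20_exists_rr_of_regOff Qinf (f := a.2) (fun Q hQ => (h Q hQ).2)
    exact ⟨max n1 n2, h16_Linf_mono Qinf (le_max_left n1 n2) h1,
      h16_Linf_mono Qinf (le_max_right n1 n2) h2⟩

section Final

variable [IsAlgClosed K] [IsAlgClosed k] {q : ℕ} [Fact q.Prime] [CharP k q]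

/-- **(NODE), final form.**  In the setting `(C)` of `h16_node_chart` ((REG), (LEAD)) and of
`h98_frob_nodes_off` (Frobenius chart `x`, `φ`; `y` a chart with only pole `Qinf`; `Φ Qinf = Qinf`;
the two graphs `(b, φ b)`, `(φ b, b)` of functions regular off `Qinf` lie in
`⋃ₙ red (L(n D0) ∩ O)`): there is a finite set `Sg` of places (the nodes), all different from
`Qinf`, with partners `Φ Q ≠ Qinf`, fixed by `Φ ∘ Φ`, such that `hnode` of `h51_gluing` holds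
verbatim for `P := h20_P Qinf`, `Bs := h20_Bs Qinf`, `Z := {Q // Q ∈ Sg}`,
`e1 := h20_e1 hxb Qinf (h20_nodeQ1 Sg Φ) _`, `e2 := h20_e2 hxb Qinf (h20_nodeQ2 Sg) _`,
`n0 := max n₁ g_F`. -/
theorem h20_node_final {xF : F} (hxF : h75_IsChart K xF) {xb : Fb} (hxb : h75_IsChart k xb)
    (D : h22_Lat K F k (Fb × Fb)) (hON : h22_ON D) (D0 : Divisor K F) (hD0 : 0 ≤ D0)
    (hdeg : Divisor.degree D0 = 2) (Qinf : Place k Fb)
    (hreg : ∀ n, ∀ a ∈ h51_Rd D (n • D0), a.1 ∈ h16_Linf Qinf n ∧ a.2 ∈ h16_Linf Qinf n)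
    (n₁ : ℕ)
    (hlead₁ : ∀ n, n₁ ≤ n → ∃ x ∈ h51_Rd D ((n + 1) • D0),
      x.1 ∉ h16_Linf Qinf n ∧ x.2 ∈ h16_Linf Qinf n)
    (hlead₂ : ∀ n, n₁ ≤ n → ∃ y ∈ h51_Rd D ((n + 1) • D0),
      y.1 ∈ h16_Linf Qinf n ∧ y.2 ∉ h16_Linf Qinf n)
    {x : Fb} {φ : Fb →+* Fb} (h : h96_IsFrobChart k q x φ) {y : Fb} (hy : h75_IsChart k y)
    (hpole : ∀ Q : Place k Fb, y ∈ Q.toValuationSubring ↔ Q ≠ Qinf)
    (hfix : h96_frobPerm h Qinf = Qinf)
    (hG1 : ∀ b : Fb, (∀ Q : Place k Fb, Q ≠ Qinf → b ∈ Q.toValuationSubring) →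
      ∃ n : ℕ, (b, φ b) ∈ h51_Rd D (n • D0))
    (hG2 : ∀ b : Fb, (∀ Q : Place k Fb, Q ≠ Qinf → b ∈ Q.toValuationSubring) →
      ∃ n : ℕ, (φ b, b) ∈ h51_Rd D (n • D0)) :
    ∃ (Sg : Finset (Place k Fb))
      (hSg : ∀ Q ∈ Sg, Q ≠ Qinf ∧ h96_frobPerm h Q ≠ Qinf),
      (∀ Q ∈ Sg, h96_frobPerm h (h96_frobPerm h Q) = Q) ∧
      ∀ n, max n₁ (h75_genus K xF) ≤ n → ∀ a : Fb × Fb, a ∈ h51_Rd D (n • D0) ↔
        ∃ hm : a ∈ h20_P Qinf n, ∀ ν : {Q // Q ∈ Sg},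
          h20_e2 hxb Qinf (h20_nodeQ2 Sg) (h20_nodeQ2_ne Qinf Sg (h96_frobPerm h) hSg) ν
              ⟨a, h20_P_le_Bs Qinf n a hm⟩ =
            h20_e1 hxb Qinf (h20_nodeQ1 Sg (h96_frobPerm h))
              (h20_nodeQ1_ne Qinf Sg (h96_frobPerm h) hSg) ν
              ⟨a, h20_P_le_Bs Qinf n a hm⟩ := by
  obtain ⟨Sg, hSg1, hSg2⟩ := h98_frob_nodes_off h hy Qinf hpole hfix (h20_unionAlg D D0 hD0)
    (fun a ha Q hQ => by
      obtain ⟨n, hn⟩ := ha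
      have h12 := hreg n a hn
      exact ⟨h20_rr_Dinf_le_regOff Qinf n h12.1 Q hQ, h20_rr_Dinf_le_regOff Qinf n h12.2 Q hQ⟩)
    hG1 hG2
  have hSg : ∀ Q ∈ Sg, Q ≠ Qinf ∧ h96_frobPerm h Q ≠ Qinf :=
    fun Q hQ => ⟨(hSg1 Q hQ).1, (hSg1 Q hQ).2.1⟩
  refine ⟨Sg, hSg, fun Q hQ => (hSg1 Q hQ).2.2, ?_⟩
  apply h20_chart_hnode hxb Qinf Sg (h96_frobPerm h) hSg D D0 (max n₁ (h75_genus K xF))
  intro n hn a
  refine h16_node_chart hxF hxb D hON D0 hD0 hdeg Qinf hreg n₁ hlead₁ hlead₂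
    (fun a => ∀ Q ∈ Sg, ∃ c : k, h39_Val (h96_frobPerm h Q) a.1 c ∧ h39_Val Q a.2 c)
    (fun a => ?_) n hn a
  rw [h20_exists_P_iff Qinf a]
  exact hSg2 a

end Final

end Fermat.Agent.S34

end
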