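import Mathlib

/-!
# S34 (route R85, Step 3, combinatorial core): the pairing lemma

`k` a field, `Ω₁`, `Ω₂` finite.  A `k`-subalgebra `V` of `Ω₁ ⊕ Ω₂ → k` such that for every
`f ∈ V` the polynomials `∏_{w ∈ Ω₁} (X - f w)` and `∏_{w ∈ Ω₂} (X - f w)` coincide has dimension
at most `#Ω₁`, and in case of equality it is the algebra of functions compatible with a bijection
`σ : Ω₁ ≃ Ω₂`.  The global form glues finitely many such evaluations.  Mathlib only.
-/

set_option autoImplicit false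

namespace Fermat.Agent.S34

open Polynomial

section Sep

variable {k : Type*} [Field k] {Ω : Type*}

/-- `w` and `w'` are not separated by the functions of `V`. -/
def h98_sep (V : Subalgebra k (Ω → k)) : Setoid Ω where
  r w w' := ∀ f ∈ V, f w = f w'
  iseqv := ⟨fun _ _ _ => rfl, fun h f hf => (h f hf).symm,
    fun h h' f hf => (h f hf).trans (h' f hf)⟩

theorem h98_sep_iff (V : Subalgebra k (Ω → k)) (w w' : Ω) :
    (h98_sep V).r w w' ↔ ∀ f ∈ V, f w = f w' := Iff.rfl

theorem h98_mk_eq_iff (V : Subalgebra k (Ω → k)) (w w' : Ω) :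
    Quotient.mk (h98_sep V) w = Quotient.mk (h98_sep V) w' ↔ ∀ f ∈ V, f w = f w' :=
  ⟨fun h => Quotient.exact h, fun h => Quotient.sound h⟩

theorem h98_out_spec (V : Subalgebra k (Ω → k)) (w : Ω) (f : Ω → k) (hf : f ∈ V) :
    f (Quotient.mk (h98_sep V) w).out = f w := by
  have h : Quotient.mk (h98_sep V) (Quotient.mk (h98_sep V) w).out = Quotient.mk (h98_sep V) w :=
    Quotient.out_eq _
  exact (h98_mk_eq_iff V _ _).mp h f hf

theorem h98_exists_sep (V : Subalgebra k (Ω → k)) {w w' : Ω}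
    (h : Quotient.mk (h98_sep V) w ≠ Quotient.mk (h98_sep V) w') :
    ∃ g ∈ V, g w = 1 ∧ g w' = 0 := by
  have h' : ∃ f ∈ V, f w ≠ f w' := by
    by_contra hc
    exact h ((h98_mk_eq_iff V w w').mpr (fun f hf => by_contra (fun hne => hc ⟨f, hf, hne⟩)))
  obtain ⟨f, hf, hne⟩ := h'
  refine ⟨(f w - f w')⁻¹ • (f - algebraMap k (Ω → k) (f w')), ?_, ?_, ?_⟩
  · exact V.smul_mem (V.sub_mem hf (V.algebraMap_mem _)) _
  · simp only [Pi.smul_apply, Pi.sub_apply, Pi.algebraMap_apply, Algebra.algebraMap_self,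
      RingHom.id_apply, smul_eq_mul]
    exact inv_mul_cancel₀ (sub_ne_zero.mpr hne)
  · simp

theorem h98_exists_indicator [Finite Ω] (V : Subalgebra k (Ω → k))
    (c : Quotient (h98_sep V)) :
    ∃ e ∈ V, (∀ w, Quotient.mk (h98_sep V) w = c → e w = 1) ∧
      (∀ w, Quotient.mk (h98_sep V) w ≠ c → e w = 0) := by
  classical
  have : Fintype (Quotient (h98_sep V)) := Fintype.ofFinite _
  have key : ∀ c' : Quotient (h98_sep V), c' ≠ c → ∃ g ∈ V, g c.out = 1 ∧ g c'.out = 0 := by
    intro c' hc'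
    apply h98_exists_sep
    rw [Quotient.out_eq, Quotient.out_eq]
    exact fun h => hc' h.symm
  choose! g hgV hg1 hg0 using key
  refine ⟨∏ c' ∈ Finset.univ.erase c, g c',
    V.prod_mem (fun c' hc' => hgV c' (Finset.ne_of_mem_erase hc')), ?_, ?_⟩
  · intro w hw
    rw [Finset.prod_apply]
    apply Finset.prod_eq_one
    intro c' hc'
    have hc'' := Finset.ne_of_mem_erase hc'
    have h1 := h98_out_spec V w (g c') (hgV c' hc'')
    rw [hw] at h1
    rw [← h1, hg1 c' hc'']
  · intro w hw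
    rw [Finset.prod_apply]
    apply Finset.prod_eq_zero (i := Quotient.mk (h98_sep V) w)
    · exact Finset.mem_erase.mpr ⟨hw, Finset.mem_univ _⟩
    · have h1 := h98_out_spec V w (g _) (hgV _ hw)
      rw [← h1, hg0 _ hw]

theorem h98_mem_iff [Finite Ω] (V : Subalgebra k (Ω → k)) (f : Ω → k) :
    f ∈ V ↔ ∀ w w', Quotient.mk (h98_sep V) w = Quotient.mk (h98_sep V) w' → f w = f w' := by
  classical
  have : Fintype (Quotient (h98_sep V)) := Fintype.ofFinite _
  constructor
  · intro hf w w' h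
    exact (h98_mk_eq_iff V w w').mp h f hf
  · intro h
    choose e heV he1 he0 using h98_exists_indicator V
    have hsum : f = ∑ c : Quotient (h98_sep V), f c.out • e c := by
      funext w
      rw [Finset.sum_apply, Finset.sum_eq_single (Quotient.mk (h98_sep V) w)]
      · rw [Pi.smul_apply, he1 _ w rfl, smul_eq_mul, mul_one]
        exact h _ _ (Quotient.out_eq _).symm
      · intro c _ hc
        rw [Pi.smul_apply, he0 c w (fun h' => hc h'.symm), smul_zero]
      · intro hc
        exact absurd (Finset.mem_univ _) hc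
    rw [hsum]
    exact V.sum_mem (fun c _ => V.smul_mem (heV c) _)

theorem h98_finrank_eq [Finite Ω] (V : Subalgebra k (Ω → k)) :
    Module.finrank k V = Nat.card (Quotient (h98_sep V)) := by
  classical
  have : Fintype (Quotient (h98_sep V)) := Fintype.ofFinite _
  have hinj : Function.Injective (LinearMap.funLeft k k (Quotient.mk (h98_sep V))) :=
    LinearMap.funLeft_injective_of_surjective _ _ _ Quotient.mk_surjective
  have hrange : LinearMap.range (LinearMap.funLeft k k (Quotient.mk (h98_sep V))) =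
      Subalgebra.toSubmodule V := by
    ext f
    rw [Subalgebra.mem_toSubmodule, h98_mem_iff, LinearMap.mem_range]
    constructor
    · rintro ⟨g, rfl⟩ w w' h
      simp only [LinearMap.funLeft_apply]
      rw [h]
    · intro h
      refine ⟨fun c => f c.out, ?_⟩
      funext w
      simp only [LinearMap.funLeft_apply]
      exact h _ _ (Quotient.out_eq _)
  have h1 := LinearMap.finrank_range_of_inj hinj
  rw [hrange] at h1
  rw [show Module.finrank k V = Module.finrank k (Subalgebra.toSubmodule V) from rfl, h1,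
    Module.finrank_fintype_fun_eq_card, Nat.card_eq_fintype_card]

end Sep

section Local

variable {k : Type*} [Field k] {Ω₁ Ω₂ : Type*} [Fintype Ω₁] [Fintype Ω₂]

omit [Fintype Ω₁] [Fintype Ω₂] in
theorem h98_roots_prod {Ω' : Type*} [Fintype Ω'] (φ : Ω' → k) :
    (∏ w : Ω', (X - C (φ w))).roots = (Finset.univ : Finset Ω').val.map φ := by
  have : ∏ w : Ω', (X - C (φ w)) =
      (((Finset.univ : Finset Ω').val.map φ).map (fun a => X - C a)).prod := by
    rw [Multiset.map_map]
    rfl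
  rw [this, roots_multiset_prod_X_sub_C]

theorem h98_count_eq (V : Subalgebra k (Ω₁ ⊕ Ω₂ → k))
    (hV : ∀ f ∈ V, ∏ w : Ω₁, (X - C (f (Sum.inl w))) = ∏ w : Ω₂, (X - C (f (Sum.inr w))))
    (c : Quotient (h98_sep V)) [DecidableEq (Quotient (h98_sep V))] :
    (Finset.univ.filter (fun w : Ω₁ => Quotient.mk (h98_sep V) (Sum.inl w) = c)).card =
      (Finset.univ.filter (fun w : Ω₂ => Quotient.mk (h98_sep V) (Sum.inr w) = c)).card := by
  classical
  obtain ⟨e, heV, he1, he0⟩ := h98_exists_indicator V c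
  have h1 := hV e heV
  have h2 : (Finset.univ : Finset Ω₁).val.map (fun w => e (Sum.inl w)) =
      (Finset.univ : Finset Ω₂).val.map (fun w => e (Sum.inr w)) := by
    rw [← h98_roots_prod (fun w : Ω₁ => e (Sum.inl w)),
      ← h98_roots_prod (fun w : Ω₂ => e (Sum.inr w)), h1]
  have h3 := congrArg (Multiset.count (1 : k)) h2
  rw [Multiset.count_map, Multiset.count_map] at h3
  have hiff : ∀ x : Ω₁ ⊕ Ω₂, Quotient.mk (h98_sep V) x = c ↔ (1 : k) = e x := by
    intro x
    constructor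
    · intro hx
      exact (he1 x hx).symm
    · intro hx
      by_contra hne
      rw [he0 x hne] at hx
      exact one_ne_zero hx
  have hl : (Finset.univ.filter (fun w : Ω₁ => Quotient.mk (h98_sep V) (Sum.inl w) = c)).card =
      Multiset.card (Multiset.filter (fun a : Ω₁ => (1 : k) = e (Sum.inl a)) Finset.univ.val) := by
    rw [Finset.card_def, Finset.filter_val]
    congr 1
    exact Multiset.filter_congr (fun w _ => hiff (Sum.inl w))
  have hr : (Finset.univ.filter (fun w : Ω₂ => Quotient.mk (h98_sep V) (Sum.inr w) = c)).card =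
      Multiset.card (Multiset.filter (fun a : Ω₂ => (1 : k) = e (Sum.inr a)) Finset.univ.val) := by
    rw [Finset.card_def, Finset.filter_val]
    congr 1
    exact Multiset.filter_congr (fun w _ => hiff (Sum.inr w))
  rw [hl, hr, h3]

theorem h98_surj_left (V : Subalgebra k (Ω₁ ⊕ Ω₂ → k))
    (hV : ∀ f ∈ V, ∏ w : Ω₁, (X - C (f (Sum.inl w))) = ∏ w : Ω₂, (X - C (f (Sum.inr w)))) :
    Function.Surjective (fun w : Ω₁ => Quotient.mk (h98_sep V) (Sum.inl w)) := by
  classical
  intro c
  obtain ⟨x, rfl⟩ := Quotient.exists_rep c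
  rcases x with w | v
  · exact ⟨w, rfl⟩
  · have h := h98_count_eq V hV (Quotient.mk (h98_sep V) (Sum.inr v))
    have hpos : 0 < (Finset.univ.filter (fun w : Ω₂ => Quotient.mk (h98_sep V) (Sum.inr w) =
        Quotient.mk (h98_sep V) (Sum.inr v))).card :=
      Finset.card_pos.mpr ⟨v, Finset.mem_filter.mpr ⟨Finset.mem_univ _, rfl⟩⟩
    rw [← h] at hpos
    obtain ⟨w, hw⟩ := Finset.card_pos.mp hpos
    exact ⟨w, (Finset.mem_filter.mp hw).2⟩

theorem h98_surj_right (V : Subalgebra k (Ω₁ ⊕ Ω₂ → k))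
    (hV : ∀ f ∈ V, ∏ w : Ω₁, (X - C (f (Sum.inl w))) = ∏ w : Ω₂, (X - C (f (Sum.inr w)))) :
    Function.Surjective (fun w : Ω₂ => Quotient.mk (h98_sep V) (Sum.inr w)) := by
  classical
  intro c
  obtain ⟨x, rfl⟩ := Quotient.exists_rep c
  rcases x with w | v
  · have h := h98_count_eq V hV (Quotient.mk (h98_sep V) (Sum.inl w))
    have hpos : 0 < (Finset.univ.filter (fun w' : Ω₁ => Quotient.mk (h98_sep V) (Sum.inl w') =
        Quotient.mk (h98_sep V) (Sum.inl w))).card :=
      Finset.card_pos.mpr ⟨w, Finset.mem_filter.mpr ⟨Finset.mem_univ _, rfl⟩⟩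
    rw [h] at hpos
    obtain ⟨v, hv⟩ := Finset.card_pos.mp hpos
    exact ⟨v, (Finset.mem_filter.mp hv).2⟩
  · exact ⟨v, rfl⟩

/-- **Pairing lemma, dimension bound.** -/
theorem h98_pairing_finrank_le (V : Subalgebra k (Ω₁ ⊕ Ω₂ → k))
    (hV : ∀ f ∈ V, ∏ w : Ω₁, (X - C (f (Sum.inl w))) = ∏ w : Ω₂, (X - C (f (Sum.inr w)))) :
    Module.finrank k V ≤ Fintype.card Ω₁ := by
  classical
  have : Fintype (Quotient (h98_sep V)) := Fintype.ofFinite _
  rw [h98_finrank_eq, Nat.card_eq_fintype_card]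
  exact Fintype.card_le_of_surjective _ (h98_surj_left V hV)

/-- **Pairing lemma, equality case.** -/
theorem h98_pairing_eq (V : Subalgebra k (Ω₁ ⊕ Ω₂ → k))
    (hV : ∀ f ∈ V, ∏ w : Ω₁, (X - C (f (Sum.inl w))) = ∏ w : Ω₂, (X - C (f (Sum.inr w))))
    (hd : Fintype.card Ω₁ ≤ Module.finrank k V) :
    ∃ σ : Ω₁ ≃ Ω₂, ∀ f : Ω₁ ⊕ Ω₂ → k,
      f ∈ V ↔ ∀ w, f (Sum.inl w) = f (Sum.inr (σ w)) := by
  classical
  have : Fintype (Quotient (h98_sep V)) := Fintype.ofFinite _
  rw [h98_finrank_eq, Nat.card_eq_fintype_card] at hd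
  have hs1 := h98_surj_left V hV
  have hs2 := h98_surj_right V hV
  have hcard : Fintype.card Ω₁ = Fintype.card (Quotient (h98_sep V)) :=
    le_antisymm hd (Fintype.card_le_of_surjective _ hs1)
  have hb1 : Function.Bijective (fun w : Ω₁ => Quotient.mk (h98_sep V) (Sum.inl w)) :=
    (Fintype.bijective_iff_surjective_and_card _).mpr ⟨hs1, hcard⟩
  have hi2 : Function.Injective (fun w : Ω₂ => Quotient.mk (h98_sep V) (Sum.inr w)) := by
    intro v v' hvv'
    have h := h98_count_eq V hV (Quotient.mk (h98_sep V) (Sum.inr v))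
    have hle : (Finset.univ.filter (fun w : Ω₁ => Quotient.mk (h98_sep V) (Sum.inl w) =
        Quotient.mk (h98_sep V) (Sum.inr v))).card ≤ 1 := by
      apply Finset.card_le_one.mpr
      intro a ha b hb
      exact hb1.1 ((Finset.mem_filter.mp ha).2.trans (Finset.mem_filter.mp hb).2.symm)
    rw [h] at hle
    exact Finset.card_le_one.mp hle v (Finset.mem_filter.mpr ⟨Finset.mem_univ _, rfl⟩) v'
      (Finset.mem_filter.mpr ⟨Finset.mem_univ _, hvv'.symm⟩)
  have hb2 : Function.Bijective (fun w : Ω₂ => Quotient.mk (h98_sep V) (Sum.inr w)) :=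
    ⟨hi2, hs2⟩
  let σ : Ω₁ ≃ Ω₂ := (Equiv.ofBijective _ hb1).trans (Equiv.ofBijective _ hb2).symm
  have hσ : ∀ w : Ω₁, Quotient.mk (h98_sep V) (Sum.inr (σ w)) =
      Quotient.mk (h98_sep V) (Sum.inl w) := by
    intro w
    exact (Equiv.ofBijective _ hb2).apply_symm_apply ((Equiv.ofBijective _ hb1) w)
  refine ⟨σ, fun f => ?_⟩
  rw [h98_mem_iff]
  constructor
  · intro h w
    exact h _ _ (hσ w).symm
  · intro h
    -- canonical representative in `Ω₁`
    have key : ∀ x : Ω₁ ⊕ Ω₂, ∃ w : Ω₁, f x = f (Sum.inl w) ∧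
        Quotient.mk (h98_sep V) x = Quotient.mk (h98_sep V) (Sum.inl w) := by
      rintro (w | v)
      · exact ⟨w, rfl, rfl⟩
      · refine ⟨σ.symm v, ?_, ?_⟩
        · have := h (σ.symm v)
          rw [σ.apply_symm_apply] at this
          exact this.symm
        · have := hσ (σ.symm v)
          rw [σ.apply_symm_apply] at this
          exact this
    intro x y hxy
    obtain ⟨w, hw1, hw2⟩ := key x
    obtain ⟨w', hw'1, hw'2⟩ := key y
    have : w = w' := hb1.1 (hw2.symm.trans (hxy.trans hw'2))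
    rw [hw1, hw'1, this]

end Local

section Global

variable {k : Type*} [Field k] {R : Type*} [CommRing R] [Algebra k R]
  {ι : Type*} [Fintype ι] {Ω₁ Ω₂ : Type*} [Fintype Ω₁] [Fintype Ω₂]

/-- **Pairing lemma, global form.**  `B'` a subalgebra of `R` of codimension at most
`#Ω₁ * #ι`, `ev P` (`P : ι`) jointly surjective evaluations at "nodes" such that the two
characteristic polynomials agree for every element of `B'` at every node.  Then every node
carries a bijection `σ P : Ω₁ ≃ Ω₂` and `B'` is exactly the glued algebra. -/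
theorem h98_pairing_global (B' : Subalgebra k R)
    (ev : ι → R →ₐ[k] (Ω₁ ⊕ Ω₂ → k))
    (hsurj : Function.Surjective (fun (f : R) (P : ι) => ev P f))
    (hB : ∀ f ∈ B', ∀ P, ∏ w : Ω₁, (X - C (ev P f (Sum.inl w))) =
      ∏ w : Ω₂, (X - C (ev P f (Sum.inr w))))
    [Module.Finite k (R ⧸ Subalgebra.toSubmodule B')]
    (hcodim : Module.finrank k (R ⧸ Subalgebra.toSubmodule B') ≤
      Fintype.card Ω₁ * Fintype.card ι) :
    ∃ σ : ι → Ω₁ ≃ Ω₂, ∀ f : R,
      f ∈ B' ↔ ∀ P w, ev P f (Sum.inl w) = ev P f (Sum.inr (σ P w)) := by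
  classical
  let V : ι → Subalgebra k (Ω₁ ⊕ Ω₂ → k) := fun P => B'.map (ev P)
  have hV : ∀ P, ∀ g ∈ V P, ∏ w : Ω₁, (X - C (g (Sum.inl w))) =
      ∏ w : Ω₂, (X - C (g (Sum.inr w))) := by
    rintro P g ⟨f, hf, rfl⟩
    exact hB f hf P
  have hle : ∀ P, Module.finrank k (V P) ≤ Fintype.card Ω₁ :=
    fun P => h98_pairing_finrank_le (V P) (hV P)
  have hcard : ∀ P : ι, Fintype.card Ω₂ = Fintype.card Ω₁ := by
    intro P
    have h0 := hB 0 B'.zero_mem P
    simp only [map_zero, Pi.zero_apply, sub_zero, Finset.prod_const, Finset.card_univ] at h0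
    have h1 := congrArg natDegree h0
    rw [natDegree_X_pow, natDegree_X_pow] at h1
    exact h1.symm
  -- the target of the joint evaluation modulo the local algebras
  let Ψ : R →ₗ[k] (∀ P : ι, (Ω₁ ⊕ Ω₂ → k) ⧸ Subalgebra.toSubmodule (V P)) :=
    LinearMap.pi (fun P => (Subalgebra.toSubmodule (V P)).mkQ ∘ₗ (ev P).toLinearMap)
  have hΨ : ∀ f P, Ψ f P = Submodule.Quotient.mk (ev P f) := fun f P => rfl
  have hΨsurj : Function.Surjective Ψ := by
    intro t
    choose g hg using fun P => Submodule.mkQ_surjective (Subalgebra.toSubmodule (V P)) (t P)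
    obtain ⟨f, hf⟩ := hsurj g
    refine ⟨f, ?_⟩
    funext P
    rw [hΨ, ← hg P, ← congrFun hf P]
    rfl
  have hΨ0 : ∀ f, Ψ f = 0 ↔ ∀ P, ev P f ∈ V P := by
    intro f
    constructor
    · intro h P
      have := congrFun h P
      rw [hΨ, Pi.zero_apply, Submodule.Quotient.mk_eq_zero] at this
      exact this
    · intro h
      funext P
      rw [hΨ, Pi.zero_apply, Submodule.Quotient.mk_eq_zero]
      exact h P
  have hker : Subalgebra.toSubmodule B' ≤ LinearMap.ker Ψ := by
    intro f hf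
    rw [LinearMap.mem_ker, hΨ0]
    exact fun P => ⟨f, hf, rfl⟩
  let Ψq := (Subalgebra.toSubmodule B').liftQ Ψ hker
  have hΨqsurj : Function.Surjective Ψq := by
    intro t
    obtain ⟨f, rfl⟩ := hΨsurj t
    exact ⟨Submodule.Quotient.mk f, rfl⟩
  have hq : ∀ P, Module.finrank k ((Ω₁ ⊕ Ω₂ → k) ⧸ Subalgebra.toSubmodule (V P)) +
      Module.finrank k (V P) = Fintype.card Ω₁ + Fintype.card Ω₁ := by
    intro P
    have h1 := Submodule.finrank_quotient_add_finrank (Subalgebra.toSubmodule (V P))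
    rw [Module.finrank_fintype_fun_eq_card, Fintype.card_sum, hcard P] at h1
    exact h1
  have hge : ∀ P, Fintype.card Ω₁ ≤
      Module.finrank k ((Ω₁ ⊕ Ω₂ → k) ⧸ Subalgebra.toSubmodule (V P)) := by
    intro P
    have h1 := hq P
    have h2 := hle P
    omega
  have hT : Module.finrank k (∀ P : ι, (Ω₁ ⊕ Ω₂ → k) ⧸ Subalgebra.toSubmodule (V P)) =
      ∑ P : ι, Module.finrank k ((Ω₁ ⊕ Ω₂ → k) ⧸ Subalgebra.toSubmodule (V P)) :=
    Module.finrank_pi_fintype k
  have hTle : Module.finrank k (∀ P : ι, (Ω₁ ⊕ Ω₂ → k) ⧸ Subalgebra.toSubmodule (V P)) ≤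
      Fintype.card Ω₁ * Fintype.card ι :=
    (LinearMap.finrank_le_finrank_of_surjective hΨqsurj).trans hcodim
  have hsumd : ∑ _P : ι, Fintype.card Ω₁ = Fintype.card Ω₁ * Fintype.card ι := by
    rw [Finset.sum_const, Finset.card_univ, smul_eq_mul, mul_comm]
  have heach : ∀ P, Module.finrank k ((Ω₁ ⊕ Ω₂ → k) ⧸ Subalgebra.toSubmodule (V P)) =
      Fintype.card Ω₁ := by
    intro P
    by_contra hne
    have hlt : Fintype.card Ω₁ <
        Module.finrank k ((Ω₁ ⊕ Ω₂ → k) ⧸ Subalgebra.toSubmodule (V P)) :=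
      lt_of_le_of_ne (hge P) (Ne.symm hne)
    have := Finset.sum_lt_sum (fun Q _ => hge Q) ⟨P, Finset.mem_univ _, hlt⟩
    rw [hsumd, ← hT] at this
    exact absurd hTle (not_le.mpr this)
  have hfinV : ∀ P, Fintype.card Ω₁ ≤ Module.finrank k (V P) := by
    intro P
    have h1 := hq P
    have h2 := heach P
    omega
  choose σ hσ using fun P => h98_pairing_eq (V P) (hV P) (hfinV P)
  have hTeq : Module.finrank k (∀ P : ι, (Ω₁ ⊕ Ω₂ → k) ⧸ Subalgebra.toSubmodule (V P)) =
      Fintype.card Ω₁ * Fintype.card ι := by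
    rw [hT, Finset.sum_congr rfl (fun P _ => heach P), hsumd]
  have hdimeq : Module.finrank k (R ⧸ Subalgebra.toSubmodule B') =
      Module.finrank k (∀ P : ι, (Ω₁ ⊕ Ω₂ → k) ⧸ Subalgebra.toSubmodule (V P)) :=
    le_antisymm (hcodim.trans hTeq.ge) (LinearMap.finrank_le_finrank_of_surjective hΨqsurj)
  have hΨqinj : Function.Injective Ψq :=
    (LinearMap.injective_iff_surjective_of_finrank_eq_finrank hdimeq).mpr hΨqsurj
  refine ⟨σ, fun f => ?_⟩
  have h1 : f ∈ B' ↔ Ψ f = 0 := by
    constructor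
    · intro hf
      exact LinearMap.mem_ker.mp (hker hf)
    · intro h0
      have h2 : Ψq (Submodule.Quotient.mk f) = 0 := h0
      have h3 := hΨqinj (h2.trans (map_zero Ψq).symm)
      exact (Submodule.Quotient.mk_eq_zero _).mp h3
  rw [h1, hΨ0]
  exact forall_congr' (fun P => hσ P (ev P f))

end Global

end Fermat.Agent.S34
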