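import Fermat.Agent.S34.h98_ZariskiCore

/-!
# S34 (route R85, Step 4): bounded torsion (BT) and the Zariski core over a rank-one valuation ring

`A` a valuation ring.

* `h98_torsion_bounded` : the torsion of a finitely generated `A`-module is killed by ONE nonzero
  element (`M / T` is f.g. torsion-free, hence flat, hence free, so `T` is a direct summand).
* `h98_bt_module` : if `P ⊔ Λ₀ = ⊤` with `Λ₀` finitely generated and `q` is "archimedean"
  (every nonzero `a` divides a power of `q`), then the `q`-power torsion of `M / P` has bounded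
  exponent: `q ^ n • x ∈ P → q ^ c • x ∈ P`.
* `h98_htor_of_fg` : the same in the exact shape of the hypothesis `htor` of `h98_zariski_core`
  (`R = R₁ + R₂ + Λ₀`, `Λ₀` a finitely generated `A`-submodule).
* `h98_hnil_of_dvd_pow` : the hypothesis `hnil` of `h98_zariski_core` from
  "`q` divides a power of every element of `I`".
* `h98_zariski_fg` : the Zariski core with `htor`, `hnil` discharged this way.
-/

set_option autoImplicit false

namespace Fermat.Agent.S34

open IsLocalRing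

section Torsion

variable {A : Type*} [CommRing A] [IsDomain A] [ValuationRing A]

omit [ValuationRing A] in
/-- A finitely generated torsion submodule is killed by one nonzero element. -/
theorem h98_fg_torsion_bounded {M : Type*} [AddCommGroup M] [Module A M]
    (T : Submodule A M) (hT : T.FG) (htors : ∀ x ∈ T, ∃ a : A, a ≠ 0 ∧ a • x = 0) :
    ∃ a : A, a ≠ 0 ∧ ∀ x ∈ T, a • x = 0 := by
  classical
  obtain ⟨s, rfl⟩ := hT
  induction s using Finset.induction_on with
  | empty =>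
    refine ⟨1, one_ne_zero, ?_⟩
    intro x hx
    simp only [Finset.coe_empty, Submodule.span_empty, Submodule.mem_bot] at hx
    rw [hx, smul_zero]
  | insert b s _ ih =>
    obtain ⟨a, ha0, ha⟩ := ih (fun x hx => htors x
      (Submodule.span_mono (by simp) hx))
    obtain ⟨a', ha'0, ha'⟩ := htors b (Submodule.subset_span (by simp))
    refine ⟨a * a', mul_ne_zero ha0 ha'0, ?_⟩
    intro x hx
    rw [Finset.coe_insert, Submodule.mem_span_insert] at hx
    obtain ⟨r, z, hz, rfl⟩ := hx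
    rw [smul_add, mul_smul, smul_comm a' r b, ha', smul_zero, smul_zero, zero_add,
      mul_comm, mul_smul, ha z hz, smul_zero]

/-- The torsion of a finitely generated module over a valuation ring is killed by one nonzero
element. -/
theorem h98_torsion_bounded {M : Type*} [AddCommGroup M] [Module A M] [Module.Finite A M] :
    ∃ a : A, a ≠ 0 ∧ ∀ x ∈ Submodule.torsion A M, a • x = 0 := by
  set T := Submodule.torsion A M with hTdef
  have hflat : Module.Flat A (M ⧸ T) :=
    Module.Flat.flat_iff_torsion_eq_bot_of_isBezout.mpr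
      Submodule.QuotientTorsion.torsion_eq_bot
  have hfree : Module.Free A (M ⧸ T) := Module.free_of_flat_of_isLocalRing
  obtain ⟨s, hs⟩ := Module.projective_lifting_property T.mkQ LinearMap.id
    (Submodule.mkQ_surjective T)
  -- the retraction onto `T`
  let r : M →ₗ[A] M := LinearMap.id - s ∘ₗ T.mkQ
  have hr : LinearMap.range r = T := by
    apply le_antisymm
    · rintro _ ⟨x, rfl⟩
      rw [← Submodule.ker_mkQ T, LinearMap.mem_ker]
      have := LinearMap.congr_fun hs (T.mkQ x)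
      simp only [LinearMap.coe_comp, Function.comp_apply, LinearMap.id_coe, id_eq] at this
      simp only [r, LinearMap.sub_apply, LinearMap.id_coe, id_eq, LinearMap.coe_comp,
        Function.comp_apply, map_sub, this, sub_self]
    · intro t ht
      refine ⟨t, ?_⟩
      have h0 : T.mkQ t = 0 := by
        rw [← LinearMap.mem_ker, Submodule.ker_mkQ]
        exact ht
      simp only [r, LinearMap.sub_apply, LinearMap.id_coe, id_eq, LinearMap.coe_comp,
        Function.comp_apply, h0, map_zero, sub_zero]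
  have hTfg : T.FG := by
    rw [← hr, LinearMap.range_eq_map]
    exact Submodule.FG.map r (Module.finite_def.mp inferInstance)
  apply h98_fg_torsion_bounded T hTfg
  intro x hx
  obtain ⟨a, ha⟩ := (Submodule.mem_torsion_iff x).mp hx
  exact ⟨a, nonZeroDivisors.coe_ne_zero a, ha⟩

/-- **Bounded torsion, module form.**  `P ⊔ Λ₀ = ⊤` with `Λ₀` finitely generated, and every
nonzero element of `A` divides a power of `q`: the `q`-power torsion of `M / P` has bounded
exponent. -/
theorem h98_bt_module {M : Type*} [AddCommGroup M] [Module A M]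
    (q : A) (hq0 : q ≠ 0) (hrk : ∀ a : A, a ≠ 0 → ∃ n : ℕ, a ∣ q ^ n)
    (P Λ₀ : Submodule A M) (hfg : Λ₀.FG) (hdec : P ⊔ Λ₀ = ⊤) :
    ∃ c : ℕ, ∀ (n : ℕ) (x : M), q ^ n • x ∈ P → q ^ c • x ∈ P := by
  have hfin : Module.Finite A (M ⧸ P) := by
    rw [Module.finite_def]
    have h1 : Submodule.map P.mkQ Λ₀ = ⊤ := by
      rw [eq_top_iff]
      rintro y -
      obtain ⟨x, rfl⟩ := Submodule.mkQ_surjective P y
      have hx : x ∈ P ⊔ Λ₀ := by rw [hdec]; trivial
      obtain ⟨p, hp, l, hl, rfl⟩ := Submodule.mem_sup.mp hx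
      refine ⟨l, hl, ?_⟩
      rw [map_add]
      have : P.mkQ p = 0 := by
        rw [← LinearMap.mem_ker, Submodule.ker_mkQ]
        exact hp
      rw [this, zero_add]
    rw [← h1]
    exact Submodule.FG.map _ hfg
  obtain ⟨a, ha0, ha⟩ := h98_torsion_bounded (A := A) (M := M ⧸ P)
  obtain ⟨c, b, hb⟩ := hrk a ha0
  refine ⟨c, ?_⟩
  intro n x hx
  have htor : P.mkQ x ∈ Submodule.torsion A (M ⧸ P) := by
    rw [Submodule.mem_torsion_iff]
    refine ⟨⟨q ^ n, mem_nonZeroDivisors_of_ne_zero (pow_ne_zero n hq0)⟩, ?_⟩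
    show q ^ n • P.mkQ x = 0
    rw [← map_smul, ← LinearMap.mem_ker, Submodule.ker_mkQ]
    exact hx
  have h0 := ha _ htor
  rw [← Submodule.ker_mkQ P, LinearMap.mem_ker, map_smul, hb, mul_comm, mul_smul, h0, smul_zero]

end Torsion

section Algebra

variable {A : Type*} [CommRing A] [IsDomain A] [ValuationRing A]
  {R₁ R₂ R : Type*} [CommRing R₁] [CommRing R₂] [CommRing R]
  [Algebra A R₁] [Algebra A R₂] [Algebra A R]

/-- **Bounded torsion in the shape of `htor` of `h98_zariski_core`.**  If `R = R₁ + R₂ + Λ₀`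
with `Λ₀` a finitely generated `A`-submodule, then the `q`-power torsion of `R / (R₁ + R₂)` has
bounded exponent. -/
theorem h98_htor_of_fg (q : A) (hq0 : q ≠ 0) (hrk : ∀ a : A, a ≠ 0 → ∃ n : ℕ, a ∣ q ^ n)
    (ι₁ : R₁ →ₐ[A] R) (ι₂ : R₂ →ₐ[A] R)
    (Λ₀ : Submodule A R) (hfg : Λ₀.FG)
    (hdec : ∀ x : R, ∃ (y : R₁) (z : R₂), x - ι₁ y - ι₂ z ∈ Λ₀) :
    ∃ c : ℕ, ∀ (n : ℕ) (x : R) (y : R₁) (z : R₂),
      algebraMap A R (q ^ n) * x = ι₁ y - ι₂ z →
      ∃ (y' : R₁) (z' : R₂), algebraMap A R (q ^ c) * x = ι₁ y' - ι₂ z' := by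
  let P : Submodule A R := LinearMap.range ι₁.toLinearMap ⊔ LinearMap.range ι₂.toLinearMap
  have hP : ∀ x : R, x ∈ P ↔ ∃ (y : R₁) (z : R₂), x = ι₁ y - ι₂ z := by
    intro x
    constructor
    · intro hx
      obtain ⟨_, ⟨y, rfl⟩, _, ⟨z, rfl⟩, rfl⟩ := Submodule.mem_sup.mp hx
      refine ⟨y, -z, ?_⟩
      simp
    · rintro ⟨y, z, rfl⟩
      refine Submodule.sub_mem _ (Submodule.mem_sup_left ⟨y, rfl⟩)
        (Submodule.mem_sup_right ⟨z, rfl⟩)
  have hdec' : P ⊔ Λ₀ = ⊤ := by
    rw [eq_top_iff]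
    rintro x -
    obtain ⟨y, z, hyz⟩ := hdec x
    have h1 : ι₁ y - ι₂ (-z) ∈ P := (hP _).2 ⟨y, -z, rfl⟩
    have h2 : x = (ι₁ y - ι₂ (-z)) + (x - ι₁ y - ι₂ z) := by
      rw [map_neg]; ring
    rw [h2]
    exact Submodule.add_mem _ (Submodule.mem_sup_left h1) (Submodule.mem_sup_right hyz)
  obtain ⟨c, hc⟩ := h98_bt_module q hq0 hrk P Λ₀ hfg hdec'
  refine ⟨c, ?_⟩
  intro n x y z hxyz
  have h1 : q ^ n • x ∈ P := by
    rw [Algebra.smul_def, hxyz]
    exact (hP _).2 ⟨y, z, rfl⟩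
  have h2 := hc n x h1
  rw [Algebra.smul_def] at h2
  exact (hP _).1 h2

omit [IsDomain A] [ValuationRing A] in
/-- The hypothesis `hnil` of `h98_zariski_core` from "`q` divides a power of every element
of `I`". -/
theorem h98_hnil_of_dvd_pow {S : Type*} [CommRing S] [Algebra A S] (I : Ideal A) (q : A)
    (hI : ∀ a ∈ I, ∃ N : ℕ, q ∣ a ^ N) :
    ∀ x ∈ I.map (algebraMap A S), ∃ N : ℕ, x ^ N ∈ Ideal.span {algebraMap A S q} := by
  have h : I.map (algebraMap A S) ≤ (Ideal.span {algebraMap A S q}).radical := by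
    rw [Ideal.map_le_iff_le_comap]
    intro a ha
    rw [Ideal.mem_comap, Ideal.mem_radical_iff]
    obtain ⟨N, b, hb⟩ := hI a ha
    refine ⟨N, ?_⟩
    rw [← map_pow, hb, map_mul]
    exact Ideal.mul_mem_right _ _ (Ideal.subset_span rfl)
  intro x hx
  exact Ideal.mem_radical_iff.mp (h hx)

/-- **Zariski connectedness on two charts over a rank-one valuation ring.**  As
`h98_zariski_core`, with the bounded torsion hypothesis replaced by `R = R₁ + R₂ + Λ₀`, `Λ₀` a
finitely generated `A`-submodule, and the nil hypotheses by the rank-one property of `A` relative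
to `q`. -/
theorem h98_zariski_fg (q : A) (hq : q ∈ maximalIdeal A) (hq0 : q ≠ 0)
    (hrk : ∀ a ∈ maximalIdeal A, a ≠ 0 → ∃ n : ℕ, a ∣ q ^ n)
    (hrk' : ∀ a ∈ maximalIdeal A, ∃ n : ℕ, q ∣ a ^ n)
    (ι₁ : R₁ →ₐ[A] R) (ι₂ : R₂ →ₐ[A] R)
    (hint : ∀ (x₁ : R₁) (x₂ : R₂), ι₁ x₁ = ι₂ x₂ → ∃ a : A, algebraMap A R₁ a = x₁)
    (Λ₀ : Submodule A R) (hfg : Λ₀.FG)
    (hdec : ∀ x : R, ∃ (y : R₁) (z : R₂), x - ι₁ y - ι₂ z ∈ Λ₀)
    (e₁ : R₁) (e₂ : R₂)
    (he₁ : e₁ * e₁ - e₁ ∈ (maximalIdeal A).map (algebraMap A R₁))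
    (he₂ : e₂ * e₂ - e₂ ∈ (maximalIdeal A).map (algebraMap A R₂))
    (he : ι₁ e₁ - ι₂ e₂ ∈ (maximalIdeal A).map (algebraMap A R)) :
    e₁ ∈ (maximalIdeal A).map (algebraMap A R₁) ∨
      1 - e₁ ∈ (maximalIdeal A).map (algebraMap A R₁) := by
  have hrk'' : ∀ a : A, a ≠ 0 → ∃ n : ℕ, a ∣ q ^ n := by
    intro a ha0
    by_cases ha : a ∈ maximalIdeal A
    · exact hrk a ha ha0
    · refine ⟨0, ?_⟩
      have hu : IsUnit a := by
        by_contra hu
        exact ha ((IsLocalRing.mem_maximalIdeal a).2 hu)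
      exact hu.dvd
  obtain ⟨c, hc⟩ := h98_htor_of_fg q hq0 hrk'' ι₁ ι₂ Λ₀ hfg hdec
  exact h98_zariski_core q hq ι₁ ι₂ hint c hc
    (h98_hnil_of_dvd_pow _ q hrk') (h98_hnil_of_dvd_pow _ q hrk') (h98_hnil_of_dvd_pow _ q hrk')
    e₁ e₂ he₁ he₂ he

end Algebra

end Fermat.Agent.S34
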