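import Fermat.Agent.S34.h42_ZarCore
import Fermat.Agent.S34.h98_BoundedTorsion

/-!
# S34, endgame E53 ("CYC-ZAR"): Zariski connectedness for a cyclic algebra inside `F`

Abstract statement (Mathlib + the two ZAR cores on main).  `A` is a rank-one valuation ring,
`F` a field over `A`, `u : F`, `m` invertible in `A`.  `Λ₁ j`, `Λ₂ j`, `Λ j` (`j < m`) are
`A`-submodules of `F` ("integral functions with poles on the first / second / both fibres and
along `j • D`", where `div u = m • D`) which are multiplicative up to the twist by `u`, so that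
`𝒜_S = ⊕_{j < m} Λ_S j θ^j` are subalgebras of `F[θ]/(θ^m - u)`.  If `Λ j ≤ Λ₁ j ⊔ Λ₂ j ⊔ Λ₀ j` with
`Λ₀ j` finitely generated, and there are `g₁ j ∈ Λ₁ j`, `g₂ j ∈ Λ₂ j` "with reduction `1`", then
`Λ₁ j ⊓ Λ₂ j` contains an element congruent to `m⁻¹ g₁ j` modulo `𝔪 Λ₁ j`.

Geometric meaning: trivial gluing constants ⟹ `L(D) ≠ 0` ⟹ `D` principal; no Kummer cover, no
valuations upstairs, no Newton iteration.
-/

set_option autoImplicit false

namespace Fermat.Agent.S34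

open Polynomial

/-! ## Part 1: the ZAR core without the hypothesis `R₁ ∩ R₂ = A` -/

/-- **ZAR lift.**  As `h42_zar_core`, but without `hcap`: idempotents of `R₁ / 𝔪 R₁` and
`R₂ / 𝔪 R₂` which agree in `R / 𝔪 R` lift to an element of `R₁ ∩ R₂`, provided the `π`-power
torsion of `R / (R₁ + R₂)` has bounded exponent `c`.  (Proof: the one of `h42_zar_core`.) -/
theorem h53_zar_lift {A R : Type*} [CommRing A] [CommRing R] [Algebra A R]
    (𝔪 : Ideal A) (π : A) (hπ : π ∈ 𝔪)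
    (hnil : ∀ a ∈ 𝔪, ∃ n : ℕ, a ^ n ∈ Ideal.span {π})
    (R₁ R₂ : Subalgebra A R)
    (c : ℕ)
    (hBT : ∀ (n : ℕ) (x : R), (∃ g₁ ∈ R₁, ∃ g₂ ∈ R₂, algebraMap A R π ^ n * x = g₁ + g₂) →
      ∃ g₁ ∈ R₁, ∃ g₂ ∈ R₂, algebraMap A R π ^ c * x = g₁ + g₂)
    (e₁ : R₁) (e₂ : R₂)
    (h₁ : e₁ * e₁ - e₁ ∈ 𝔪.map (algebraMap A R₁))
    (h₂ : e₂ * e₂ - e₂ ∈ 𝔪.map (algebraMap A R₂))
    (h₁₂ : (e₁ : R) - (e₂ : R) ∈ 𝔪.map (algebraMap A R)) :
    ∃ y : R₁, (y : R) ∈ R₂ ∧ y - e₁ ∈ 𝔪.map (algebraMap A R₁) := by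
  obtain ⟨f₁, hf₁, hf₁e⟩ := h42_lift_idem 𝔪 π hπ hnil (c + 1) (Nat.succ_pos c) e₁ h₁
  obtain ⟨f₂, hf₂, hf₂e⟩ := h42_lift_idem 𝔪 π hπ hnil (c + 1) (Nat.succ_pos c) e₂ h₂
  set J : Ideal R := Ideal.span {algebraMap A R π ^ (c + 1)} with hJ
  have hcoe : ∀ (S : Subalgebra A R) (f : S),
      f * f - f ∈ Ideal.span {algebraMap A S π ^ (c + 1)} → (f : R) * (f : R) - (f : R) ∈ J := by
    intro S f hf
    obtain ⟨b, hb⟩ := Ideal.mem_span_singleton'.mp hf
    rw [hJ, Ideal.mem_span_singleton']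
    refine ⟨(b : R), ?_⟩
    have := congrArg (fun z : S => (z : R)) hb
    simpa using this
  have hf₁R := hcoe R₁ f₁ hf₁
  have hf₂R := hcoe R₂ f₂ hf₂
  have hi₁ : IsIdempotentElem (Ideal.Quotient.mk J (f₁ : R)) := by
    rw [IsIdempotentElem, ← map_mul, Ideal.Quotient.eq]; exact hf₁R
  have hi₂ : IsIdempotentElem (Ideal.Quotient.mk J (f₂ : R)) := by
    rw [IsIdempotentElem, ← map_mul, Ideal.Quotient.eq]; exact hf₂R
  have hdiff : (f₁ : R) - (f₂ : R) ∈ 𝔪.map (algebraMap A R) := by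
    have e : (f₁ : R) - (f₂ : R) =
        ((f₁ - e₁ : R₁) : R) + ((e₁ : R) - (e₂ : R)) - ((f₂ - e₂ : R₂) : R) := by
      push_cast; ring
    rw [e]
    exact Ideal.sub_mem _ (Ideal.add_mem _ (h42_coe_mem_map 𝔪 R₁ _ hf₁e) h₁₂)
      (h42_coe_mem_map 𝔪 R₂ _ hf₂e)
  have hnilp : IsNilpotent (Ideal.Quotient.mk J (f₁ : R) - Ideal.Quotient.mk J (f₂ : R)) := by
    obtain ⟨N, hN⟩ := h42_nil_of_mem_map 𝔪 π hnil (c + 1) _ hdiff
    refine ⟨N, ?_⟩
    rw [← map_sub, ← map_pow, Ideal.Quotient.eq_zero_iff_mem]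
    exact hN
  have heq := eq_of_isNilpotent_sub_of_isIdempotentElem hi₁ hi₂ hnilp
  rw [Ideal.Quotient.eq, hJ, Ideal.mem_span_singleton'] at heq
  obtain ⟨x, hx⟩ := heq
  obtain ⟨g₁, hg₁, g₂, hg₂, hg⟩ := hBT (c + 1) x
    ⟨(f₁ : R), f₁.2, -(f₂ : R), R₂.neg_mem f₂.2, by rw [mul_comm, hx]; ring⟩
  have hπ₁ : algebraMap A R π ∈ R₁ := R₁.algebraMap_mem π
  have hπ₂ : algebraMap A R π ∈ R₂ := R₂.algebraMap_mem π
  have hy : (f₁ : R) - algebraMap A R π * g₁ = (f₂ : R) + algebraMap A R π * g₂ := by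
    have h3 : (f₁ : R) - (f₂ : R) = algebraMap A R π * (g₁ + g₂) := by
      rw [← hg, ← mul_assoc, ← pow_succ', ← hx, mul_comm]
    linear_combination h3
  refine ⟨f₁ - algebraMap A R₁ π * ⟨g₁, hg₁⟩, ?_, ?_⟩
  · have hc : ((f₁ - algebraMap A R₁ π * ⟨g₁, hg₁⟩ : R₁) : R) =
        (f₁ : R) - algebraMap A R π * g₁ := by
      push_cast; rfl
    rw [hc, hy]
    exact R₂.add_mem f₂.2 (R₂.mul_mem hπ₂ hg₂)
  · have e : f₁ - algebraMap A R₁ π * ⟨g₁, hg₁⟩ - e₁ =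
        (f₁ - e₁) - algebraMap A R₁ π * ⟨g₁, hg₁⟩ := by ring
    rw [e]
    exact Ideal.sub_mem _ hf₁e (Ideal.mul_mem_right _ _ (Ideal.mem_map_of_mem _ hπ))

/-! ## Part 2: the cyclic algebra `F[θ]/(θ^m - u)` and its coefficient calculus -/

section Cyc

variable {F : Type*} [Field F]

/-- The cyclic algebra `F[θ]/(θ^m - u)`. -/
abbrev h53_Cyc (m : ℕ) (u : F) : Type _ := AdjoinRoot (X ^ m - C u : F[X])

variable {m : ℕ} {u : F}

/-- The monomial `c θ^i`. -/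
noncomputable def h53_mon (m : ℕ) (u : F) (c : F) (i : ℕ) : h53_Cyc m u :=
  AdjoinRoot.of _ c * AdjoinRoot.root _ ^ i

/-- The `j`-th coefficient in the basis `1, θ, …, θ^(m-1)`. -/
noncomputable def h53_coef (hm : m ≠ 0) (u : F) (j : ℕ) : h53_Cyc m u →ₗ[F] F :=
  (Polynomial.lcoeff F j).comp (AdjoinRoot.modByMonicHom (monic_X_pow_sub_C u hm))

theorem h53_mon_eq_mk (c : F) (i : ℕ) :
    h53_mon m u c i = AdjoinRoot.mk (X ^ m - C u : F[X]) (C c * X ^ i) := by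
  rw [h53_mon, map_mul, map_pow, AdjoinRoot.mk_C, AdjoinRoot.mk_X]

theorem h53_coef_mon (hm : m ≠ 0) (c : F) {i : ℕ} (hi : i < m) (j : ℕ) :
    h53_coef hm u j (h53_mon m u c i) = if i = j then c else 0 := by
  rw [h53_coef, LinearMap.comp_apply, h53_mon_eq_mk, AdjoinRoot.modByMonicHom_mk]
  have hdeg : (C c * X ^ i : F[X]).degree < (X ^ m - C u : F[X]).degree := by
    rw [degree_X_pow_sub_C (Nat.pos_of_ne_zero hm)]
    refine lt_of_le_of_lt (degree_C_mul_X_pow_le i c) ?_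
    exact_mod_cast hi
  rw [(modByMonic_eq_self_iff (monic_X_pow_sub_C u hm)).mpr hdeg, lcoeff_apply,
    coeff_C_mul_X_pow]
  by_cases h : i = j
  · rw [if_pos h, if_pos h.symm]
  · rw [if_neg h, if_neg (Ne.symm h)]

theorem h53_sum_coef (hm : m ≠ 0) (r : h53_Cyc m u) :
    r = ∑ j ∈ Finset.range m, h53_mon m u (h53_coef hm u j r) j := by
  obtain ⟨p, rfl⟩ := AdjoinRoot.mk_surjective r
  have hmon := monic_X_pow_sub_C u hm
  have hdeg : (p %ₘ (X ^ m - C u : F[X])).natDegree < m := by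
    by_cases h0 : p %ₘ (X ^ m - C u : F[X]) = 0
    · rw [h0, natDegree_zero]; exact Nat.pos_of_ne_zero hm
    · have := degree_modByMonic_lt p hmon
      rw [degree_X_pow_sub_C (Nat.pos_of_ne_zero hm), degree_eq_natDegree h0] at this
      exact_mod_cast this
  have h1 : AdjoinRoot.mk (X ^ m - C u : F[X]) p =
      AdjoinRoot.mk (X ^ m - C u : F[X]) (p %ₘ (X ^ m - C u : F[X])) := by
    rw [AdjoinRoot.mk_eq_mk]
    exact ⟨p /ₘ (X ^ m - C u : F[X]), by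
      have := modByMonic_add_div p (X ^ m - C u : F[X])
      linear_combination -this⟩
  have h2 := as_sum_range_C_mul_X_pow' (p %ₘ (X ^ m - C u : F[X])) hdeg
  conv_lhs => rw [h1, h2]
  rw [map_sum]
  refine Finset.sum_congr rfl fun j _ => ?_
  rw [h53_mon_eq_mk, h53_coef, LinearMap.comp_apply, AdjoinRoot.modByMonicHom_mk, lcoeff_apply]

theorem h53_root_pow (m : ℕ) (u : F) :
    (AdjoinRoot.root (X ^ m - C u : F[X])) ^ m = AdjoinRoot.of _ u := by
  have h := AdjoinRoot.eval₂_root (X ^ m - C u : F[X])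
  rw [eval₂_sub, eval₂_pow, eval₂_X, eval₂_C, sub_eq_zero] at h
  exact h

theorem h53_mon_mul_mon (c d : F) (i j : ℕ) :
    h53_mon m u c i * h53_mon m u d j = h53_mon m u (c * d) (i + j) := by
  simp only [h53_mon, map_mul, pow_add]
  ring

theorem h53_mon_add_m (c : F) (i : ℕ) :
    h53_mon m u c (i + m) = h53_mon m u (c * u) i := by
  simp only [h53_mon, map_mul, pow_add, h53_root_pow]
  ring

theorem h53_mon_add (c d : F) (i : ℕ) :
    h53_mon m u (c + d) i = h53_mon m u c i + h53_mon m u d i := by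
  simp only [h53_mon, map_add]
  ring

theorem h53_mon_zero (i : ℕ) : h53_mon m u 0 i = 0 := by
  simp [h53_mon]

theorem h53_one_eq : (1 : h53_Cyc m u) = h53_mon m u 1 0 := by
  simp [h53_mon]

/-- coefficient of a sum of monomials -/
theorem h53_coef_sum_mon (hm : m ≠ 0) (a : ℕ → F) {l : ℕ} (hl : l < m) :
    h53_coef hm u l (∑ j ∈ Finset.range m, h53_mon m u (a j) j) = a l := by
  rw [map_sum]
  rw [Finset.sum_eq_single l]
  · rw [h53_coef_mon hm _ hl, if_pos rfl]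
  · intro j hj hjl
    rw [h53_coef_mon hm _ (Finset.mem_range.mp hj), if_neg hjl]
  · intro h
    exact absurd (Finset.mem_range.mpr hl) h

/-- coefficient of a product of two monomials -/
theorem h53_coef_mon_mul_mon (hm : m ≠ 0) (c d : F) {i j : ℕ} (hi : i < m) (hj : j < m) (l : ℕ) :
    h53_coef hm u l (h53_mon m u c i * h53_mon m u d j) =
      if i + j < m then (if i + j = l then c * d else 0)
      else (if i + j - m = l then c * d * u else 0) := by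
  rw [h53_mon_mul_mon]
  by_cases h : i + j < m
  · rw [if_pos h, h53_coef_mon hm _ h]
  · rw [if_neg h]
    have h' : i + j = (i + j - m) + m := by omega
    rw [h', h53_mon_add_m, h53_coef_mon hm _ (by omega)]
    simp

variable {A : Type*} [CommRing A] [Algebra A F]

theorem h53_algebraMap_eq (a : A) :
    algebraMap A (h53_Cyc m u) a = h53_mon m u (algebraMap A F a) 0 := by
  rw [h53_mon, pow_zero, mul_one, AdjoinRoot.algebraMap_eq']
  rfl

theorem h53_smul_mon (a : A) (c : F) (i : ℕ) :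
    a • h53_mon m u c i = h53_mon m u (a • c) i := by
  rw [Algebra.smul_def, h53_algebraMap_eq, h53_mon_mul_mon, zero_add, ← Algebra.smul_def]

theorem h53_coef_smul (hm : m ≠ 0) (a : A) (r : h53_Cyc m u) (j : ℕ) :
    h53_coef hm u j (a • r) = a • h53_coef hm u j r := by
  rw [Algebra.smul_def, h53_algebraMap_eq, ← mul_one (h53_mon m u (algebraMap A F a) 0)]
  have : h53_mon m u (algebraMap A F a) 0 * 1 * r = (algebraMap A F a) • r := by
    rw [mul_one, h53_mon, pow_zero, mul_one, Algebra.smul_def]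
    rfl
  rw [this, map_smul, smul_eq_mul, Algebra.smul_def]

/-- The product rule for coefficient conditions. -/
theorem h53_coef_mul_mem (hm : m ≠ 0) (T₁ T₂ T₃ : ℕ → Submodule A F)
    (hmul : ∀ i < m, ∀ j < m, ∀ x ∈ T₁ i, ∀ y ∈ T₂ j,
      (i + j < m → x * y ∈ T₃ (i + j)) ∧ (m ≤ i + j → x * y * u ∈ T₃ (i + j - m)))
    (r s : h53_Cyc m u) (hr : ∀ i < m, h53_coef hm u i r ∈ T₁ i)
    (hs : ∀ j < m, h53_coef hm u j s ∈ T₂ j) (l : ℕ) :
    h53_coef hm u l (r * s) ∈ T₃ l := by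
  have hrs : r * s = ∑ i ∈ Finset.range m, ∑ j ∈ Finset.range m,
      h53_mon m u (h53_coef hm u i r) i * h53_mon m u (h53_coef hm u j s) j := by
    rw [← Finset.sum_mul_sum, ← h53_sum_coef, ← h53_sum_coef]
  rw [hrs, map_sum]
  refine Submodule.sum_mem _ fun i hi => ?_
  rw [map_sum]
  refine Submodule.sum_mem _ fun j hj => ?_
  have hi' := Finset.mem_range.mp hi
  have hj' := Finset.mem_range.mp hj
  rw [h53_coef_mon_mul_mon hm _ _ hi' hj']
  obtain ⟨h1, h2⟩ := hmul i hi' j hj' _ (hr i hi') _ (hs j hj')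
  split_ifs with h h' h'
  · rw [← h']; exact h1 h
  · exact Submodule.zero_mem _
  · rw [← h']; exact h2 (by omega)
  · exact Submodule.zero_mem _

/-- The subalgebra `⊕_{j < m} S j θ^j` of the cyclic algebra. -/
noncomputable def h53_cycSub (hm : m ≠ 0) (u : F) (S : ℕ → Submodule A F) (hone : (1 : F) ∈ S 0)
    (hmul : ∀ i < m, ∀ j < m, ∀ x ∈ S i, ∀ y ∈ S j,
      (i + j < m → x * y ∈ S (i + j)) ∧ (m ≤ i + j → x * y * u ∈ S (i + j - m))) :
    Subalgebra A (h53_Cyc m u) where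
  carrier := {r | ∀ j < m, h53_coef hm u j r ∈ S j}
  mul_mem' := fun {r s} hr hs l _ => h53_coef_mul_mem hm S S S hmul r s hr hs l
  add_mem' := fun {r s} hr hs j hj => by
    rw [map_add]; exact Submodule.add_mem _ (hr j hj) (hs j hj)
  algebraMap_mem' := fun a j hj => by
    rw [h53_algebraMap_eq, h53_coef_mon hm _ (Nat.pos_of_ne_zero hm)]
    split_ifs with h
    · rw [← h, Algebra.algebraMap_eq_smul_one]
      exact Submodule.smul_mem _ _ hone
    · exact Submodule.zero_mem _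

theorem h53_mem_cycSub (hm : m ≠ 0) (S : ℕ → Submodule A F) (hone : (1 : F) ∈ S 0)
    (hmul : ∀ i < m, ∀ j < m, ∀ x ∈ S i, ∀ y ∈ S j,
      (i + j < m → x * y ∈ S (i + j)) ∧ (m ≤ i + j → x * y * u ∈ S (i + j - m)))
    (r : h53_Cyc m u) :
    r ∈ h53_cycSub hm u S hone hmul ↔ ∀ j < m, h53_coef hm u j r ∈ S j := Iff.rfl

/-- Elements whose coefficients lie in `𝔪 • S j` lie in `𝔪 T`, for any `A`-algebra `T` embedded
in the cyclic algebra and containing the monomials `s θ^j`, `s ∈ S j`. -/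
theorem h53_mem_map_of_coef (hm : m ≠ 0) {T : Type*} [CommRing T] [Algebra A T]
    (ι : T →ₐ[A] h53_Cyc m u) (hι : Function.Injective ι) (S : ℕ → Submodule A F)
    (hmon : ∀ j < m, ∀ s ∈ S j, ∃ X : T, ι X = h53_mon m u s j)
    (𝔪 : Ideal A) (x : T) (hx : ∀ j < m, h53_coef hm u j (ι x) ∈ 𝔪 • S j) :
    x ∈ 𝔪.map (algebraMap A T) := by
  have key : ∀ j < m, ∀ c ∈ 𝔪 • S j,
      ∃ X : T, ι X = h53_mon m u c j ∧ X ∈ 𝔪.map (algebraMap A T) := by
    intro j hj c hc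
    refine Submodule.smul_induction_on hc ?_ ?_
    · intro a ha s hs
      obtain ⟨X, hX⟩ := hmon j hj s hs
      refine ⟨algebraMap A T a * X, ?_, Ideal.mul_mem_right _ _ (Ideal.mem_map_of_mem _ ha)⟩
      rw [map_mul, AlgHom.commutes, hX, ← Algebra.smul_def, h53_smul_mon]
    · rintro c d ⟨X, hX, hXm⟩ ⟨Y, hY, hYm⟩
      exact ⟨X + Y, by rw [map_add, hX, hY, h53_mon_add], Ideal.add_mem _ hXm hYm⟩
  choose! X hX using key
  have hxsum : x = ∑ j ∈ Finset.range m, X j (h53_coef hm u j (ι x)) := by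
    apply hι
    rw [map_sum]
    conv_lhs => rw [h53_sum_coef hm (ι x)]
    refine Finset.sum_congr rfl fun j hj => ?_
    have hj' := Finset.mem_range.mp hj
    exact ((hX j hj' _ (hx j hj')).1).symm
  rw [hxsum]
  refine Ideal.sum_mem _ fun j hj => ?_
  have hj' := Finset.mem_range.mp hj
  exact (hX j hj' _ (hx j hj')).2

/-- Conversely, elements of `𝔪 T` have coefficients in `𝔪 • S j`. -/
theorem h53_coef_of_mem_map (hm : m ≠ 0) {T : Type*} [CommRing T] [Algebra A T]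
    (ι : T →ₐ[A] h53_Cyc m u) (S : ℕ → Submodule A F) (hone : (1 : F) ∈ S 0)
    (hmul : ∀ i < m, ∀ j < m, ∀ x ∈ S i, ∀ y ∈ S j,
      (i + j < m → x * y ∈ S (i + j)) ∧ (m ≤ i + j → x * y * u ∈ S (i + j - m)))
    (hcoef : ∀ t : T, ∀ j < m, h53_coef hm u j (ι t) ∈ S j)
    (𝔪 : Ideal A) (x : T) (hx : x ∈ 𝔪.map (algebraMap A T)) :
    ∀ j < m, h53_coef hm u j (ι x) ∈ 𝔪 • S j := by
  have hmul' : ∀ i < m, ∀ j < m, ∀ x ∈ S i, ∀ y ∈ (fun j => 𝔪 • S j) j,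
      (i + j < m → x * y ∈ (fun j => 𝔪 • S j) (i + j)) ∧
        (m ≤ i + j → x * y * u ∈ (fun j => 𝔪 • S j) (i + j - m)) := by
    intro i hi j hj x hx y hy
    refine ⟨fun hij => ?_, fun hij => ?_⟩
    · refine Submodule.smul_induction_on hy ?_ ?_
      · intro a ha s hs
        show x * a • s ∈ 𝔪 • S (i + j)
        rw [mul_smul_comm]
        exact Submodule.smul_mem_smul ha ((hmul i hi j hj x hx s hs).1 hij)
      · intro y z hy hz
        show x * (y + z) ∈ 𝔪 • S (i + j)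
        rw [mul_add]
        exact Submodule.add_mem _ hy hz
    · refine Submodule.smul_induction_on hy ?_ ?_
      · intro a ha s hs
        show x * a • s * u ∈ 𝔪 • S (i + j - m)
        rw [mul_smul_comm, smul_mul_assoc]
        exact Submodule.smul_mem_smul ha ((hmul i hi j hj x hx s hs).2 hij)
      · intro y z hy hz
        show x * (y + z) * u ∈ 𝔪 • S (i + j - m)
        rw [mul_add, add_mul]
        exact Submodule.add_mem _ hy hz
  rw [Ideal.map] at hx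
  refine Submodule.span_induction (p := fun x _ => ∀ j < m, h53_coef hm u j (ι x) ∈ 𝔪 • S j)
    ?_ ?_ ?_ ?_ hx
  · rintro _ ⟨a, ha, rfl⟩ j hj
    rw [AlgHom.commutes, h53_algebraMap_eq, h53_coef_mon hm _ (Nat.pos_of_ne_zero hm)]
    split_ifs with h
    · rw [← h, Algebra.algebraMap_eq_smul_one]
      exact Submodule.smul_mem_smul ha hone
    · exact Submodule.zero_mem _
  · intro j hj
    rw [map_zero, map_zero]
    exact Submodule.zero_mem _
  · intro x y _ _ hx hy j hj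
    rw [map_add, map_add]
    exact Submodule.add_mem _ (hx j hj) (hy j hj)
  · intro t x _ hx j hj
    rw [smul_eq_mul, map_mul]
    exact h53_coef_mul_mem hm S (fun j => 𝔪 • S j) (fun j => 𝔪 • S j) hmul' (ι t) (ι x)
      (hcoef t) hx j

/-- **The idempotent computation.**  If `g i g j ≡ g (i + j)` (resp. `g i g j u ≡ g (i + j - m)`)
modulo `N`, then `e = m⁻¹ ∑ g j θ^j` satisfies `e² ≡ e` coefficientwise modulo `N`. -/
theorem h53_idem_coef (hm : m ≠ 0) (N : ℕ → Submodule A F) (minv : A)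
    (hminv : (m : A) * minv = 1) (g : ℕ → F)
    (hgmul : ∀ i < m, ∀ j < m, (i + j < m → g i * g j - g (i + j) ∈ N (i + j)) ∧
      (m ≤ i + j → g i * g j * u - g (i + j - m) ∈ N (i + j - m)))
    (l : ℕ) (hl : l < m) :
    h53_coef hm u l
      ((∑ j ∈ Finset.range m, h53_mon m u (algebraMap A F minv * g j) j) *
        (∑ j ∈ Finset.range m, h53_mon m u (algebraMap A F minv * g j) j) -
        ∑ j ∈ Finset.range m, h53_mon m u (algebraMap A F minv * g j) j) ∈ N l := by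
  set μ : F := algebraMap A F minv with hμ
  have hmμ : (m : F) * μ = 1 := by
    have := congrArg (algebraMap A F) hminv
    rwa [map_mul, map_natCast, map_one] at this
  -- the expected value of the `(i, j)` term
  let v : ℕ → ℕ → F := fun i j => if i + j = l ∨ i + j = l + m then μ * μ * g l else 0
  have hterm : ∀ i < m, ∀ j < m,
      h53_coef hm u l (h53_mon m u (μ * g i) i * h53_mon m u (μ * g j) j) - v i j ∈ N l := by
    intro i hi j hj
    rw [h53_coef_mon_mul_mon hm _ _ hi hj]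
    obtain ⟨h1, h2⟩ := hgmul i hi j hj
    have hscal : ∀ x : F, x ∈ N l → μ * μ * x ∈ N l := by
      intro x hx
      have : μ * μ * x = (minv * minv) • x := by
        rw [Algebra.smul_def, map_mul]
      rw [this]
      exact Submodule.smul_mem _ _ hx
    by_cases h : i + j < m
    · rw [if_pos h]
      by_cases h' : i + j = l
      · have hv : v i j = μ * μ * g l := if_pos (Or.inl h')
        rw [if_pos h', hv]
        have := hscal _ (h' ▸ h1 h)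
        convert this using 1
        rw [← h']; ring
      · have hv : v i j = 0 := if_neg (by omega)
        rw [if_neg h', hv, sub_zero]
        exact Submodule.zero_mem _
    · rw [if_neg h]
      by_cases h' : i + j - m = l
      · have hv : v i j = μ * μ * g l := if_pos (Or.inr (by omega))
        rw [if_pos h', hv]
        have := hscal _ (h' ▸ h2 (by omega))
        convert this using 1
        rw [← h']; ring
      · have hv : v i j = 0 := if_neg (by omega)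
        rw [if_neg h', hv, sub_zero]
        exact Submodule.zero_mem _
  have hvsum : ∑ i ∈ Finset.range m, ∑ j ∈ Finset.range m, v i j = μ * g l := by
    have hinner : ∀ i ∈ Finset.range m, ∑ j ∈ Finset.range m, v i j = μ * μ * g l := by
      intro i hi
      have hi' := Finset.mem_range.mp hi
      rw [Finset.sum_eq_single (if i ≤ l then l - i else l + m - i)]
      · exact if_pos (by split_ifs <;> omega)
      · intro j hj hne
        have hj' := Finset.mem_range.mp hj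
        refine if_neg ?_
        split_ifs at hne <;> omega
      · intro hnot
        exfalso
        apply hnot
        rw [Finset.mem_range]
        split_ifs <;> omega
    rw [Finset.sum_congr rfl hinner, Finset.sum_const, Finset.card_range, nsmul_eq_mul]
    calc (m : F) * (μ * μ * g l) = ((m : F) * μ) * (μ * g l) := by ring
      _ = μ * g l := by rw [hmμ, one_mul]
  rw [map_sub, h53_coef_sum_mon hm _ hl, Finset.sum_mul_sum, map_sum]
  have hrw : ∑ i ∈ Finset.range m, h53_coef hm u l (∑ j ∈ Finset.range m,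
        h53_mon m u (μ * g i) i * h53_mon m u (μ * g j) j) - μ * g l =
      ∑ i ∈ Finset.range m, ∑ j ∈ Finset.range m,
        (h53_coef hm u l (h53_mon m u (μ * g i) i * h53_mon m u (μ * g j) j) - v i j) := by
    rw [← hvsum, ← Finset.sum_sub_distrib]
    refine Finset.sum_congr rfl fun i _ => ?_
    rw [map_sum, Finset.sum_sub_distrib]
  rw [hrw]
  refine Submodule.sum_mem _ fun i hi => Submodule.sum_mem _ fun j hj => ?_
  exact hterm i (Finset.mem_range.mp hi) j (Finset.mem_range.mp hj)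

end Cyc

/-! ## Part 3: the main theorem -/

open IsLocalRing in
/-- **CYC-ZAR.**  `A` a rank-one valuation ring (`hrk`, `hrk'`), `m` invertible in `A`, `u : F`.
`Λ₁ j, Λ₂ j ≤ Λ j` (`j < m`) are `A`-submodules of `F`, multiplicative up to the twist by `u`
(`hmul₁`, `hmul₂`, `hmul`), with `Λ j ≤ Λ₁ j ⊔ Λ₂ j ⊔ Λ₀ j`, `Λ₀ j` finitely generated.  Given
`g₁ j ∈ Λ₁ j`, `g₂ j ∈ Λ₂ j` which are multiplicative modulo `𝔪` ("reduction `1`") and congruent
to each other modulo `𝔪 Λ j`, every `Λ₁ j ⊓ Λ₂ j` contains an element congruent to `m⁻¹ g₁ j`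
modulo `𝔪 Λ₁ j`. -/
theorem h53_cyc_zar {A F : Type*} [CommRing A] [IsDomain A] [ValuationRing A] [Field F]
    [Algebra A F]
    (π : A) (hπ : π ∈ maximalIdeal A) (hπ0 : π ≠ 0)
    (hrk : ∀ a : A, a ≠ 0 → ∃ n : ℕ, a ∣ π ^ n)
    (hrk' : ∀ a ∈ maximalIdeal A, ∃ n : ℕ, π ∣ a ^ n)
    (m : ℕ) (hm : m ≠ 0) (minv : A) (hminv : (m : A) * minv = 1) (u : F)
    (Λ₁ Λ₂ Λ Λ₀ : ℕ → Submodule A F)
    (h1 : ∀ j < m, Λ₁ j ≤ Λ j) (h2 : ∀ j < m, Λ₂ j ≤ Λ j) (h0 : ∀ j < m, Λ₀ j ≤ Λ j)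
    (hfg : ∀ j < m, (Λ₀ j).FG) (hdec : ∀ j < m, Λ j ≤ Λ₁ j ⊔ Λ₂ j ⊔ Λ₀ j)
    (hone₁ : (1 : F) ∈ Λ₁ 0) (hone₂ : (1 : F) ∈ Λ₂ 0)
    (hmul₁ : ∀ i < m, ∀ j < m, ∀ x ∈ Λ₁ i, ∀ y ∈ Λ₁ j,
      (i + j < m → x * y ∈ Λ₁ (i + j)) ∧ (m ≤ i + j → x * y * u ∈ Λ₁ (i + j - m)))
    (hmul₂ : ∀ i < m, ∀ j < m, ∀ x ∈ Λ₂ i, ∀ y ∈ Λ₂ j,
      (i + j < m → x * y ∈ Λ₂ (i + j)) ∧ (m ≤ i + j → x * y * u ∈ Λ₂ (i + j - m)))
    (hmul : ∀ i < m, ∀ j < m, ∀ x ∈ Λ i, ∀ y ∈ Λ j,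
      (i + j < m → x * y ∈ Λ (i + j)) ∧ (m ≤ i + j → x * y * u ∈ Λ (i + j - m)))
    (g₁ g₂ : ℕ → F) (hg₁ : ∀ j < m, g₁ j ∈ Λ₁ j) (hg₂ : ∀ j < m, g₂ j ∈ Λ₂ j)
    (hg₁mul : ∀ i < m, ∀ j < m,
      (i + j < m → g₁ i * g₁ j - g₁ (i + j) ∈ maximalIdeal A • Λ₁ (i + j)) ∧
      (m ≤ i + j → g₁ i * g₁ j * u - g₁ (i + j - m) ∈ maximalIdeal A • Λ₁ (i + j - m)))
    (hg₂mul : ∀ i < m, ∀ j < m,
      (i + j < m → g₂ i * g₂ j - g₂ (i + j) ∈ maximalIdeal A • Λ₂ (i + j)) ∧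
      (m ≤ i + j → g₂ i * g₂ j * u - g₂ (i + j - m) ∈ maximalIdeal A • Λ₂ (i + j - m)))
    (hg₁₂ : ∀ j < m, g₁ j - g₂ j ∈ maximalIdeal A • Λ j) :
    ∀ j < m, ∃ f : F, f ∈ Λ₁ j ∧ f ∈ Λ₂ j ∧
      f - algebraMap A F minv * g₁ j ∈ maximalIdeal A • Λ₁ j := by
  classical
  have hm0 : 0 < m := Nat.pos_of_ne_zero hm
  have hone : (1 : F) ∈ Λ 0 := h1 0 hm0 hone₁
  -- the three subalgebras
  let 𝒜 : Subalgebra A (h53_Cyc m u) := h53_cycSub hm u Λ hone hmul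
  let 𝒜₁ : Subalgebra A (h53_Cyc m u) := h53_cycSub hm u Λ₁ hone₁ hmul₁
  let 𝒜₂ : Subalgebra A (h53_Cyc m u) := h53_cycSub hm u Λ₂ hone₂ hmul₂
  have h𝒜₁ : 𝒜₁ ≤ 𝒜 := fun r hr j hj => h1 j hj (hr j hj)
  have h𝒜₂ : 𝒜₂ ≤ 𝒜 := fun r hr j hj => h2 j hj (hr j hj)
  let R₁ : Subalgebra A 𝒜 := 𝒜₁.comap 𝒜.val
  let R₂ : Subalgebra A 𝒜 := 𝒜₂.comap 𝒜.val
  let ι₀ : 𝒜 →ₐ[A] h53_Cyc m u := 𝒜.val
  let ι₁ : R₁ →ₐ[A] h53_Cyc m u := 𝒜.val.comp R₁.val
  let ι₂ : R₂ →ₐ[A] h53_Cyc m u := 𝒜.val.comp R₂.val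
  have hι₀ : Function.Injective ι₀ := Subtype.val_injective
  have hι₁ : Function.Injective ι₁ := Subtype.val_injective.comp Subtype.val_injective
  have hι₂ : Function.Injective ι₂ := Subtype.val_injective.comp Subtype.val_injective
  -- monomials
  have hmonΛ : ∀ (S : ℕ → Submodule A F), ∀ j < m, ∀ s ∈ S j, ∀ l < m,
      h53_coef hm u l (h53_mon m u s j) ∈ S l := by
    intro S j hj s hs l _
    rw [h53_coef_mon hm _ hj]
    split_ifs with h
    · exact h ▸ hs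
    · exact Submodule.zero_mem _
  have hmon₀ : ∀ j < m, ∀ s ∈ Λ j, ∃ X : 𝒜, ι₀ X = h53_mon m u s j :=
    fun j hj s hs => ⟨⟨h53_mon m u s j, hmonΛ Λ j hj s hs⟩, rfl⟩
  have hmon₁ : ∀ j < m, ∀ s ∈ Λ₁ j, ∃ X : R₁, ι₁ X = h53_mon m u s j :=
    fun j hj s hs =>
      ⟨⟨⟨h53_mon m u s j, hmonΛ Λ j hj s (h1 j hj hs)⟩, hmonΛ Λ₁ j hj s hs⟩, rfl⟩
  have hmon₂ : ∀ j < m, ∀ s ∈ Λ₂ j, ∃ X : R₂, ι₂ X = h53_mon m u s j :=
    fun j hj s hs =>
      ⟨⟨⟨h53_mon m u s j, hmonΛ Λ j hj s (h2 j hj hs)⟩, hmonΛ Λ₂ j hj s hs⟩, rfl⟩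
  -- the idempotents modulo `𝔪`
  set μ : F := algebraMap A F minv with hμ
  have hμsmul : ∀ x : F, μ * x = minv • x := fun x => by rw [Algebra.smul_def]
  let e₁R : h53_Cyc m u := ∑ j ∈ Finset.range m, h53_mon m u (μ * g₁ j) j
  let e₂R : h53_Cyc m u := ∑ j ∈ Finset.range m, h53_mon m u (μ * g₂ j) j
  have he₁coef : ∀ l < m, h53_coef hm u l e₁R = μ * g₁ l :=
    fun l hl => h53_coef_sum_mon hm _ hl
  have he₂coef : ∀ l < m, h53_coef hm u l e₂R = μ * g₂ l :=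
    fun l hl => h53_coef_sum_mon hm _ hl
  have he₁mem : e₁R ∈ 𝒜₁ := fun l hl => by
    rw [he₁coef l hl, hμsmul]; exact Submodule.smul_mem _ _ (hg₁ l hl)
  have he₂mem : e₂R ∈ 𝒜₂ := fun l hl => by
    rw [he₂coef l hl, hμsmul]; exact Submodule.smul_mem _ _ (hg₂ l hl)
  let E₁ : R₁ := ⟨⟨e₁R, h𝒜₁ he₁mem⟩, he₁mem⟩
  let E₂ : R₂ := ⟨⟨e₂R, h𝒜₂ he₂mem⟩, he₂mem⟩
  have hE₁ : E₁ * E₁ - E₁ ∈ (maximalIdeal A).map (algebraMap A R₁) := by
    refine h53_mem_map_of_coef hm ι₁ hι₁ Λ₁ hmon₁ (maximalIdeal A) _ (fun j hj => ?_)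
    have h3 : ι₁ (E₁ * E₁ - E₁) = e₁R * e₁R - e₁R := rfl
    rw [h3]
    exact h53_idem_coef hm (fun j => maximalIdeal A • Λ₁ j) minv hminv g₁ hg₁mul j hj
  have hE₂ : E₂ * E₂ - E₂ ∈ (maximalIdeal A).map (algebraMap A R₂) := by
    refine h53_mem_map_of_coef hm ι₂ hι₂ Λ₂ hmon₂ (maximalIdeal A) _ (fun j hj => ?_)
    have h3 : ι₂ (E₂ * E₂ - E₂) = e₂R * e₂R - e₂R := rfl
    rw [h3]
    exact h53_idem_coef hm (fun j => maximalIdeal A • Λ₂ j) minv hminv g₂ hg₂mul j hj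
  have hE₁₂ : ((E₁ : 𝒜) - (E₂ : 𝒜)) ∈ (maximalIdeal A).map (algebraMap A 𝒜) := by
    refine h53_mem_map_of_coef hm ι₀ hι₀ Λ hmon₀ (maximalIdeal A) _ (fun j hj => ?_)
    have h3 : ι₀ ((E₁ : 𝒜) - (E₂ : 𝒜)) = e₁R - e₂R := rfl
    rw [h3, map_sub, he₁coef j hj, he₂coef j hj, ← mul_sub, hμsmul]
    exact Submodule.smul_mem _ _ (hg₁₂ j hj)
  -- bounded torsion
  obtain ⟨c, hc⟩ : ∃ c : ℕ, ∀ (n : ℕ) (x : 𝒜),
      π ^ n • x ∈ Subalgebra.toSubmodule R₁ ⊔ Subalgebra.toSubmodule R₂ →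
      π ^ c • x ∈ Subalgebra.toSubmodule R₁ ⊔ Subalgebra.toSubmodule R₂ := by
    let ψ : ℕ → F →ₗ[A] h53_Cyc m u := fun j =>
      { toFun := fun c => h53_mon m u c j
        map_add' := fun c d => h53_mon_add c d j
        map_smul' := fun a c => (h53_smul_mon a c j).symm }
    let Λ₀R : Submodule A (h53_Cyc m u) := ⨆ j ∈ Finset.range m, (Λ₀ j).map (ψ j)
    have hΛ₀Rfg : Λ₀R.FG :=
      Submodule.fg_biSup _ _ (fun j hj => (hfg j (Finset.mem_range.mp hj)).map _)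
    have hΛ₀Rle : Λ₀R ≤ Subalgebra.toSubmodule 𝒜 := by
      refine iSup₂_le fun j hj => ?_
      rintro _ ⟨s, hs, rfl⟩
      exact hmonΛ Λ j (Finset.mem_range.mp hj) s (h0 j (Finset.mem_range.mp hj) hs)
    let Λ₀' : Submodule A 𝒜 := Λ₀R.comap 𝒜.val.toLinearMap
    have hΛ₀'fg : Λ₀'.FG := by
      apply Submodule.fg_of_fg_map_injective 𝒜.val.toLinearMap Subtype.val_injective
      have h3 : Λ₀'.map 𝒜.val.toLinearMap = Λ₀R := by
        rw [Submodule.map_comap_eq]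
        apply inf_eq_right.mpr
        intro r hr
        exact ⟨⟨r, hΛ₀Rle hr⟩, rfl⟩
      rw [h3]; exact hΛ₀Rfg
    have hdec' : (Subalgebra.toSubmodule R₁ ⊔ Subalgebra.toSubmodule R₂) ⊔ Λ₀' = ⊤ := by
      rw [eq_top_iff]
      rintro x -
      have hx : ∀ j < m, ∃ a ∈ Λ₁ j, ∃ b ∈ Λ₂ j, ∃ d ∈ Λ₀ j,
          h53_coef hm u j (x : h53_Cyc m u) = a + b + d := by
        intro j hj
        have h3 := hdec j hj (x.2 j hj)
        obtain ⟨ab, hab, d, hd, h⟩ := Submodule.mem_sup.mp h3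
        obtain ⟨a, ha, b, hb, rfl⟩ := Submodule.mem_sup.mp hab
        exact ⟨a, ha, b, hb, d, hd, h.symm⟩
      choose! a ha b hb d hd habd using hx
      let x₁ : h53_Cyc m u := ∑ j ∈ Finset.range m, h53_mon m u (a j) j
      let x₂ : h53_Cyc m u := ∑ j ∈ Finset.range m, h53_mon m u (b j) j
      let x₀ : h53_Cyc m u := ∑ j ∈ Finset.range m, h53_mon m u (d j) j
      have hx₁ : x₁ ∈ 𝒜₁ := fun l hl => by
        rw [h53_coef_sum_mon hm _ hl]; exact ha l hl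
      have hx₂ : x₂ ∈ 𝒜₂ := fun l hl => by
        rw [h53_coef_sum_mon hm _ hl]; exact hb l hl
      have hx₀ : x₀ ∈ Λ₀R := Submodule.sum_mem _ fun j hj =>
        Submodule.mem_iSup_of_mem j (Submodule.mem_iSup_of_mem hj
          ⟨d j, hd j (Finset.mem_range.mp hj), rfl⟩)
      have hsum : (x : h53_Cyc m u) = x₁ + x₂ + x₀ := by
        conv_lhs => rw [h53_sum_coef hm (x : h53_Cyc m u)]
        rw [← Finset.sum_add_distrib, ← Finset.sum_add_distrib]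
        refine Finset.sum_congr rfl fun j hj => ?_
        rw [habd j (Finset.mem_range.mp hj), h53_mon_add, h53_mon_add]
      have hxeq : x = (⟨x₁, h𝒜₁ hx₁⟩ : 𝒜) + ⟨x₂, h𝒜₂ hx₂⟩ + ⟨x₀, hΛ₀Rle hx₀⟩ :=
        Subtype.ext hsum
      rw [hxeq]
      exact Submodule.add_mem _ (Submodule.mem_sup_left (Submodule.add_mem _
        (Submodule.mem_sup_left hx₁) (Submodule.mem_sup_right hx₂)))
        (Submodule.mem_sup_right hx₀)
    exact h98_bt_module π hπ0 hrk _ Λ₀' hΛ₀'fg hdec'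
  have hBT : ∀ (n : ℕ) (x : 𝒜),
      (∃ g₁ ∈ R₁, ∃ g₂ ∈ R₂, algebraMap A 𝒜 π ^ n * x = g₁ + g₂) →
      ∃ g₁ ∈ R₁, ∃ g₂ ∈ R₂, algebraMap A 𝒜 π ^ c * x = g₁ + g₂ := by
    rintro n x ⟨a, ha, b, hb, hab⟩
    have h3 : π ^ n • x ∈ Subalgebra.toSubmodule R₁ ⊔ Subalgebra.toSubmodule R₂ := by
      rw [Algebra.smul_def, map_pow, hab]
      exact Submodule.add_mem _ (Submodule.mem_sup_left ha) (Submodule.mem_sup_right hb)
    have h4 := hc n x h3
    rw [Algebra.smul_def, map_pow] at h4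
    obtain ⟨a', ha', b', hb', hab'⟩ := Submodule.mem_sup.mp h4
    exact ⟨a', ha', b', hb', hab'.symm⟩
  have hnil : ∀ a ∈ maximalIdeal A, ∃ n : ℕ, a ^ n ∈ Ideal.span {π} := by
    intro a ha
    obtain ⟨n, hn⟩ := hrk' a ha
    exact ⟨n, Ideal.mem_span_singleton.mpr hn⟩
  obtain ⟨y, hy₂, hy⟩ := h53_zar_lift (maximalIdeal A) π hπ hnil R₁ R₂ c hBT E₁ E₂ hE₁ hE₂ hE₁₂
  intro j hj
  refine ⟨h53_coef hm u j (ι₁ y), y.2 j hj, hy₂ j hj, ?_⟩
  have h5 := h53_coef_of_mem_map hm ι₁ Λ₁ hone₁ hmul₁ (fun t => t.2) (maximalIdeal A) _ hy j hj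
  have h6 : ι₁ (y - E₁) = ι₁ y - e₁R := by rw [map_sub]; rfl
  rw [h6, map_sub, he₁coef j hj] at h5
  exact h5

end Fermat.Agent.S34
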