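import Mathlib
import Fermat.Agent.S18.h64_CompatOfLe
import Fermat.Agent.S34.h51_Glue
import Fermat.Agent.S34.h53_CycZar

/-!
# S34 / ENDGAME-FINAL (helper53): trivial gluing on a balanced chart ⟹ principal

Generic consumer of the cyclic Zariski-patching theorem `h53_cyc_zar` over a lattice datum
`D : h22_Lat K F k Rb` (integral functions `O`, reduction `red : O → Rb`) with orthonormal bases.

Setting: a *balanced chart function* `x` (`x`, `1/x` integral), `D1 = (x)_∞`, `D2 = (x)_0`;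
`Gⁿ := h51_Rd D (n • D1) = red (L(n D1) ∩ O)` generated in degree one for `n ≥ n0`
(`Gⁿ⁺¹ = Gⁿ + x̄ Gⁿ`, hypothesis `hgen`); a toric witness `(E, u)` (`m E = div u`, `u ∈ O`,
`red u = 1`, `m` invertible in `k`) with trivial gluing
`red (L(n D1 + j E) ∩ O) = Gⁿ` for `n ≥ n0`, `j < m` (hypothesis `htriv`).

Main results:

* `h53_cyc_final` : under these hypotheses `E` is principal.
* `h53_G_of_chart` : with helper51's chart hypotheses (`h51_trivial_gluing`) for `D0 := D1`, and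
  `g'` preserving `O`, the reductions and `D1`: `g' • E - E` is principal for every toric witness
  `(E, u)`.  This is clause (G) of `h87_unipGeom_of_toric`.

Proof: the lattices `Λʲ(a,b) := L(a D1 + b D2 + j E) ∩ O` are finitely generated modules over
the valuation ring `A` of the constants (`h53_Lint_fg`), with kernel of the reduction `𝔪 Λ`
(`h53_Lint_ker`); multiplication by `x^b` identifies `Λʲ(a,b)` with `Λʲ(a+b,0)`, so `hgen`,
`htriv` and Nakayama give `Λʲ(a,b) = Λʲ(a-1,b) + Λʲ(a,b-1)` for `a, b ≥ 1`, `a + b > n0`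
(`h53_dec_step`), hence (DEC) `Λʲ ⊆ Λ₁ʲ + Λ₂ʲ + Λʲ(n0,n0)` (`h53_dec`) for the chart unions
`Λ₁ʲ = ⋃ Λʲ(n,0)`, `Λ₂ʲ = ⋃ Λʲ(0,n)`, `Λʲ = ⋃ Λʲ(n,n)`.  Trivial gluing gives local generators
`g₁ j ∈ Λʲ(n0,0)` and `g₂ j := x^(-n0) · (lift of x̄^n0) ∈ Λʲ(0,n0)`, all with reduction `1`.
`h53_cyc_zar` patches them to `f ∈ Λ₁¹ ∩ Λ₂¹ = L(E) ∩ O` whose reduction is the class of `1/m`,
so `f ≠ 0`; an effective divisor of degree zero vanishes, so `E = div (1/f)`.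
-/

set_option autoImplicit false

noncomputable section

open AlgebraicCurve Module IsLocalRing
open Fermat.Agent.S18

namespace Fermat.Agent.S34

variable {K F k Rb : Type*} [Field K] [Field F] [Algebra K F] [Field k] [CommRing Rb]
  [Algebra k Rb]

/-! ### Divisor arithmetic for Riemann–Roch spaces -/

/-- `f ∈ L(B)`, `g ≠ 0` and `B ≤ B' + div g` pointwise give `f * g ∈ L(B')`. -/
theorem h53_rr_mul_ord {B B' : Divisor K F} {f g : F} (hf : f ∈ riemannRochSpace B)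
    (hg : g ≠ 0) (h : ∀ v : Place K F, B v ≤ B' v + v.ord g) :
    f * g ∈ riemannRochSpace B' := by
  rw [mem_riemannRochSpace_iff] at hf ⊢
  intro v
  rcases eq_or_ne f 0 with rfl | hf0
  · left
    rw [zero_mul]
  · right
    have h1 := (hf v).resolve_left hf0
    rw [v.ord_mul hf0 hg]
    have h2 := h v
    linarith

/-- `L(B) ≤ L(B')` for `B ≤ B'` pointwise. -/
theorem h53_rr_mono {B B' : Divisor K F} (h : ∀ v : Place K F, B v ≤ B' v) {f : F}
    (hf : f ∈ riemannRochSpace B) : f ∈ riemannRochSpace B' := by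
  rw [mem_riemannRochSpace_iff] at hf ⊢
  intro v
  rcases hf v with h0 | h1
  · left
    exact h0
  · right
    have h2 := h v
    linarith

theorem h53_ord_pow (v : Place K F) (f : F) (n : ℕ) : v.ord (f ^ n) = (n : ℤ) * v.ord f := by
  rw [← zpow_natCast, v.ord_zpow]

/-! ### The integral lattices `L(B) ∩ O` -/

/-- `L(B) ∩ O`, as a module over the valuation ring of the constants. -/
def h53_Lint (D : h22_Lat K F k Rb) (B : Divisor K F) : Submodule ↥D.A F where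
  carrier := {f | f ∈ riemannRochSpace B ∧ f ∈ D.O}
  zero_mem' := ⟨Submodule.zero_mem _, D.O.zero_mem⟩
  add_mem' := fun hf hg => ⟨Submodule.add_mem _ hf.1 hg.1, D.O.add_mem hf.2 hg.2⟩
  smul_mem' := fun a f hf => ⟨Submodule.smul_mem _ (a : K) hf.1, by
    show (a : K) • f ∈ D.O
    rw [Algebra.smul_def]
    exact D.O.mul_mem ((D.mem_iff _).mp a.2) hf.2⟩

theorem h53_mem_Lint (D : h22_Lat K F k Rb) (B : Divisor K F) (f : F) :
    f ∈ h53_Lint D B ↔ f ∈ riemannRochSpace B ∧ f ∈ D.O := Iff.rfl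

theorem h53_Lint_mono (D : h22_Lat K F k Rb) {B B' : Divisor K F}
    (h : ∀ v : Place K F, B v ≤ B' v) : h53_Lint D B ≤ h53_Lint D B' :=
  fun _ hf => ⟨h53_rr_mono h hf.1, hf.2⟩

theorem h53_Lint_mul (D : h22_Lat K F k Rb) {B B' B'' : Divisor K F} {f g : F}
    (hf : f ∈ h53_Lint D B) (hg : g ∈ h53_Lint D B')
    (h : ∀ v : Place K F, B v + B' v ≤ B'' v) : f * g ∈ h53_Lint D B'' := by
  refine ⟨h53_rr_mono (B := B + B') (fun v => ?_) (h51_mul_mem_rr hf.1 hg.1),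
    D.O.mul_mem hf.2 hg.2⟩
  rw [Finsupp.add_apply]
  exact h v

theorem h53_Lint_mul_ord (D : h22_Lat K F k Rb) {B B' : Divisor K F} {f g : F}
    (hf : f ∈ h53_Lint D B) (hg0 : g ≠ 0) (hgO : g ∈ D.O)
    (h : ∀ v : Place K F, B v ≤ B' v + v.ord g) : f * g ∈ h53_Lint D B' :=
  ⟨h53_rr_mul_ord hf.1 hg0 h, D.O.mul_mem hf.2 hgO⟩

theorem h53_redF_sub (D : h22_Lat K F k Rb) {f g : F} (hf : f ∈ D.O) (hg : g ∈ D.O) :
    D.redF (f - g) = D.redF f - D.redF g := by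
  rw [D.redF_of_mem (D.O.sub_mem hf hg), D.redF_of_mem hf, D.redF_of_mem hg, ← map_sub]
  rfl

/-- The kernel of the reduction on `L(B) ∩ O` is `𝔪 (L(B) ∩ O)`. -/
theorem h53_Lint_ker (D : h22_Lat K F k Rb) (B : Divisor K F) {f : F}
    (hf : f ∈ h53_Lint D B) (hred : D.redF f = 0) :
    f ∈ maximalIdeal ↥D.A • h53_Lint D B := by
  obtain ⟨a, ha, g, hg, rfl⟩ := (h22_redF_eq_zero_iff D hf.2).mp hred
  rcases eq_or_ne a 0 with rfl | ha0
  · rw [map_zero, zero_mul]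
    exact Submodule.zero_mem _
  · have hgL : g ∈ riemannRochSpace B := by
      have h1 : g = a⁻¹ • (algebraMap K F a * g) := by
        rw [Algebra.smul_def, ← mul_assoc, ← map_mul, inv_mul_cancel₀ ha0, map_one, one_mul]
      rw [h1]
      exact Submodule.smul_mem _ _ hf.1
    have haA : a ∈ D.A := D.A.nonunits_le ha
    have h2 : algebraMap K F a * g = (⟨a, haA⟩ : ↥D.A) • g := by
      rw [Algebra.smul_def]
      rfl
    rw [h2]
    refine Submodule.smul_mem_smul ?_ ⟨hgL, hg⟩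
    exact (ValuationSubring.coe_mem_nonunits_iff (a := (⟨a, haA⟩ : ↥D.A))).mp ha

/-- Elements of `𝔪 S` are integral with zero reduction, for any `S` of integral elements. -/
theorem h53_redF_of_mem_smul (D : h22_Lat K F k Rb) (S : Submodule ↥D.A F)
    (hS : ∀ f ∈ S, f ∈ D.O) {f : F} (hf : f ∈ maximalIdeal ↥D.A • S) :
    f ∈ D.O ∧ D.redF f = 0 := by
  refine Submodule.smul_induction_on hf ?_ ?_
  · intro a ha g hg
    have ha' : (a : K) ∈ D.A.nonunits := ValuationSubring.coe_mem_nonunits_iff.mpr ha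
    have hmem : (a : K) • g ∈ D.O := by
      rw [Algebra.smul_def]
      exact D.O.mul_mem ((D.mem_iff _).mp a.2) (hS g hg)
    exact ⟨hmem, h22_redF_smul_nonunit D ha' (hS g hg)⟩
  · rintro x y ⟨hx, hx0⟩ ⟨hy, hy0⟩
    exact ⟨D.O.add_mem hx hy, by rw [h51_redF_add D hx hy, hx0, hy0, add_zero]⟩

/-- `L(B) ∩ O` is a finitely generated `A`-module (orthonormal bases). -/
theorem h53_Lint_fg (D : h22_Lat K F k Rb) (hON : h22_ON D) (B : Divisor K F)
    [Module.Finite K (riemannRochSpace B)] : (h53_Lint D B).FG := by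
  obtain ⟨e, heV, heO, hind⟩ := hON (riemannRochSpace B) inferInstance
  have h : h53_Lint D B = Submodule.span ↥D.A (Set.range e) := by
    apply le_antisymm
    · intro f hf
      obtain ⟨c, hc, hcA⟩ := h22_on_span D (riemannRochSpace B) e heV heO hind f hf.1
      rw [hc]
      refine Submodule.sum_mem _ fun i _ => ?_
      have h1 : c i • e i = (⟨c i, hcA hf.2 i⟩ : ↥D.A) • e i := rfl
      rw [h1]
      exact Submodule.smul_mem _ _ (Submodule.subset_span ⟨i, rfl⟩)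
    · rw [Submodule.span_le]
      rintro _ ⟨i, rfl⟩
      exact ⟨heV i, heO i⟩
  rw [h]
  exact Submodule.fg_span (Set.finite_range e)

/-! ### The divisors `a D1 + b D2 + j E` and the chart families -/

/-- The divisor `a D1 + b D2 + j E`. -/
def h53_Bd (D1 D2 E : Divisor K F) (a b j : ℕ) : Divisor K F := a • D1 + b • D2 + j • E

theorem h53_Bd_apply (D1 D2 E : Divisor K F) (a b j : ℕ) (v : Place K F) :
    h53_Bd D1 D2 E a b j v = (a : ℤ) * D1 v + (b : ℤ) * D2 v + (j : ℤ) * E v := by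
  simp only [h53_Bd, Finsupp.add_apply, Finsupp.smul_apply, nsmul_eq_mul]

theorem h53_Bd_mono {D1 D2 : Divisor K F} (h1 : ∀ v : Place K F, 0 ≤ D1 v)
    (h2 : ∀ v : Place K F, 0 ≤ D2 v) (E : Divisor K F) {a a' b b' : ℕ} (ha : a ≤ a')
    (hb : b ≤ b') (j : ℕ) (v : Place K F) :
    h53_Bd D1 D2 E a b j v ≤ h53_Bd D1 D2 E a' b' j v := by
  rw [h53_Bd_apply, h53_Bd_apply]
  have h3 : (a : ℤ) * D1 v ≤ (a' : ℤ) * D1 v :=
    mul_le_mul_of_nonneg_right (by exact_mod_cast ha) (h1 v)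
  have h4 : (b : ℤ) * D2 v ≤ (b' : ℤ) * D2 v :=
    mul_le_mul_of_nonneg_right (by exact_mod_cast hb) (h2 v)
  linarith

/-- The union over `n` of the lattices `L(n p D1 + n q D2 + j E) ∩ O`. -/
def h53_Fam (D : h22_Lat K F k Rb) (D1 D2 E : Divisor K F) (p q j : ℕ) : Submodule ↥D.A F :=
  ⨆ n : ℕ, h53_Lint D (h53_Bd D1 D2 E (n * p) (n * q) j)

theorem h53_mem_Fam (D : h22_Lat K F k Rb) {D1 D2 : Divisor K F}
    (h1 : ∀ v : Place K F, 0 ≤ D1 v) (h2 : ∀ v : Place K F, 0 ≤ D2 v) (E : Divisor K F)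
    (p q j : ℕ) {f : F} :
    f ∈ h53_Fam D D1 D2 E p q j ↔
      ∃ n : ℕ, f ∈ h53_Lint D (h53_Bd D1 D2 E (n * p) (n * q) j) := by
  unfold h53_Fam
  refine Submodule.mem_iSup_of_directed _ (Monotone.directed_le fun n n' hnn' => ?_)
  exact h53_Lint_mono D fun v => h53_Bd_mono h1 h2 E (Nat.mul_le_mul_right p hnn')
    (Nat.mul_le_mul_right q hnn') j v

theorem h53_le_Fam (D : h22_Lat K F k Rb) (D1 D2 E : Divisor K F) (p q j n : ℕ) :
    h53_Lint D (h53_Bd D1 D2 E (n * p) (n * q) j) ≤ h53_Fam D D1 D2 E p q j :=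
  le_iSup (fun n : ℕ => h53_Lint D (h53_Bd D1 D2 E (n * p) (n * q) j)) n

theorem h53_le_Fam10 (D : h22_Lat K F k Rb) (D1 D2 E : Divisor K F) (j n : ℕ) :
    h53_Lint D (h53_Bd D1 D2 E n 0 j) ≤ h53_Fam D D1 D2 E 1 0 j := by
  have h := h53_le_Fam D D1 D2 E 1 0 j n
  rwa [mul_one, mul_zero] at h

theorem h53_le_Fam01 (D : h22_Lat K F k Rb) (D1 D2 E : Divisor K F) (j n : ℕ) :
    h53_Lint D (h53_Bd D1 D2 E 0 n j) ≤ h53_Fam D D1 D2 E 0 1 j := by
  have h := h53_le_Fam D D1 D2 E 0 1 j n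
  rwa [mul_one, mul_zero] at h

theorem h53_le_Fam11 (D : h22_Lat K F k Rb) (D1 D2 E : Divisor K F) (j n : ℕ) :
    h53_Lint D (h53_Bd D1 D2 E n n j) ≤ h53_Fam D D1 D2 E 1 1 j := by
  have h := h53_le_Fam D D1 D2 E 1 1 j n
  rwa [mul_one] at h

theorem h53_Fam_integral (D : h22_Lat K F k Rb) (D1 D2 E : Divisor K F) (p q j : ℕ) :
    ∀ f ∈ h53_Fam D D1 D2 E p q j, f ∈ D.O := by
  intro f hf
  -- the integral elements form an `A`-submodule containing every `L(B) ∩ O`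
  let SO : Submodule ↥D.A F :=
    { carrier := {f | f ∈ D.O}
      zero_mem' := D.O.zero_mem
      add_mem' := fun hf hg => D.O.add_mem hf hg
      smul_mem' := fun a f hf => by
        show (a : K) • f ∈ D.O
        rw [Algebra.smul_def]
        exact D.O.mul_mem ((D.mem_iff _).mp a.2) hf }
  have h : h53_Fam D D1 D2 E p q j ≤ SO := iSup_le fun n f hf => hf.2
  exact h hf

/-! ### The balanced chart function -/

/-- A balanced chart function: `x` and `1/x` integral, `D1 = (x)_∞`, `D2 = (x)_0`. -/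
structure h53_Chart (D : h22_Lat K F k Rb) (x : F) (D1 D2 : Divisor K F) : Prop where
  ne_zero : x ≠ 0
  mem : x ∈ D.O
  inv_mem : x⁻¹ ∈ D.O
  nonneg₁ : ∀ v : Place K F, 0 ≤ D1 v
  nonneg₂ : ∀ v : Place K F, 0 ≤ D2 v
  disj : ∀ v : Place K F, D1 v = 0 ∨ D2 v = 0
  ord_eq : ∀ v : Place K F, v.ord x = D2 v - D1 v

theorem h53_Chart.red_mul_inv {D : h22_Lat K F k Rb} {x : F} {D1 D2 : Divisor K F}
    (C : h53_Chart D x D1 D2) : D.redF x * D.redF x⁻¹ = 1 := by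
  rw [← h51_redF_mul D C.mem C.inv_mem, mul_inv_cancel₀ C.ne_zero, h51_redF_one]

/-- shift to the first chart: `L(a D1 + b D2 + j E) x^b ⊆ L((a+b) D1 + j E)`. -/
theorem h53_shift_up {D : h22_Lat K F k Rb} {x : F} {D1 D2 : Divisor K F}
    (C : h53_Chart D x D1 D2) (E : Divisor K F) {a b j : ℕ} {f : F}
    (hf : f ∈ h53_Lint D (h53_Bd D1 D2 E a b j)) :
    f * x ^ b ∈ h53_Lint D (h53_Bd D1 D2 E (a + b) 0 j) := by
  refine h53_Lint_mul_ord D hf (pow_ne_zero b C.ne_zero) (D.O.pow_mem C.mem b) fun v => ?_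
  rw [h53_Bd_apply, h53_Bd_apply, h53_ord_pow, C.ord_eq]
  push_cast
  linarith

/-- shift back: `L(n D1 + j E) x^(-b) ⊆ L((n-b) D1 + b D2 + j E)` for `b ≤ n`. -/
theorem h53_shift_down {D : h22_Lat K F k Rb} {x : F} {D1 D2 : Divisor K F}
    (C : h53_Chart D x D1 D2) (E : Divisor K F) {n b j : ℕ} (hb : b ≤ n) {h : F}
    (hh : h ∈ h53_Lint D (h53_Bd D1 D2 E n 0 j)) :
    h * x⁻¹ ^ b ∈ h53_Lint D (h53_Bd D1 D2 E (n - b) b j) := by
  refine h53_Lint_mul_ord D hh (pow_ne_zero b (inv_ne_zero C.ne_zero))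
    (D.O.pow_mem C.inv_mem b) fun v => ?_
  rw [h53_Bd_apply, h53_Bd_apply, h53_ord_pow, v.ord_inv, C.ord_eq, Nat.cast_sub hb]
  push_cast
  linarith

/-! ### The decomposition (DEC) -/

/-- One step of (DEC): `Λ(a,b) = Λ(a-1,b) + Λ(a,b-1)` for `a, b ≥ 1`, `a + b > n0`, by
Nakayama from the special fibre. -/
theorem h53_dec_step (D : h22_Lat K F k Rb) (hON : h22_ON D)
    (hfinL : ∀ B : Divisor K F, Module.Finite K (riemannRochSpace B))
    {x : F} {D1 D2 : Divisor K F} (C : h53_Chart D x D1 D2) (E : Divisor K F) (j n0 : ℕ)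
    (hgenj : ∀ n, n0 ≤ n → ∀ c : F, c ∈ h53_Lint D (h53_Bd D1 D2 E (n + 1) 0 j) →
      ∃ c1 ∈ h53_Lint D (h53_Bd D1 D2 E n 0 j), ∃ c2 ∈ h53_Lint D (h53_Bd D1 D2 E n 0 j),
        D.redF c = D.redF c1 + D.redF x * D.redF c2)
    (a b : ℕ) (ha : 1 ≤ a) (hb : 1 ≤ b) (hab : n0 + 1 ≤ a + b) :
    h53_Lint D (h53_Bd D1 D2 E a b j) ≤
      h53_Lint D (h53_Bd D1 D2 E (a - 1) b j) ⊔ h53_Lint D (h53_Bd D1 D2 E a (b - 1) j) := by
  obtain ⟨b, rfl⟩ : ∃ b', b = b' + 1 := ⟨b - 1, by omega⟩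
  rw [Nat.add_sub_cancel]
  have := hfinL (h53_Bd D1 D2 E a (b + 1) j)
  have hfg := h53_Lint_fg D hON (h53_Bd D1 D2 E a (b + 1) j)
  apply Submodule.le_of_le_smul_of_le_jacobson_bot hfg (IsLocalRing.maximalIdeal_le_jacobson ⊥)
  intro f hf
  -- shift to the first chart and decompose the reduction
  have hc := h53_shift_up C E hf
  have hn : a + (b + 1) = (a + b) + 1 := by omega
  rw [hn] at hc
  obtain ⟨c1, hc1, c2, hc2, hred⟩ := hgenj (a + b) (by omega) _ hc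
  have h1 := h53_shift_down C E (b := b + 1) (by omega) hc1
  have h2 := h53_shift_down C E (b := b) (by omega) hc2
  have e1 : a + b - (b + 1) = a - 1 := by omega
  have e2 : a + b - b = a := by omega
  rw [e1] at h1
  rw [e2] at h2
  -- both pieces lie in `Λ(a, b+1)`
  have h1' : c1 * x⁻¹ ^ (b + 1) ∈ h53_Lint D (h53_Bd D1 D2 E a (b + 1) j) :=
    h53_Lint_mono D (fun v => h53_Bd_mono C.nonneg₁ C.nonneg₂ E (Nat.sub_le a 1) le_rfl j v) h1
  have h2' : c2 * x⁻¹ ^ b ∈ h53_Lint D (h53_Bd D1 D2 E a (b + 1) j) :=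
    h53_Lint_mono D (fun v => h53_Bd_mono C.nonneg₁ C.nonneg₂ E le_rfl (Nat.le_succ b) j v) h2
  -- the reductions agree
  have hxy := C.red_mul_inv
  have hredf : D.redF f = D.redF c1 * D.redF x⁻¹ ^ (b + 1) + D.redF c2 * D.redF x⁻¹ ^ b := by
    have h3 : D.redF (f * x ^ (b + 1)) = D.redF f * D.redF x ^ (b + 1) := by
      rw [h51_redF_mul D hf.2 (D.O.pow_mem C.mem _), h51_redF_pow D C.mem]
    rw [h3] at hred
    have h4 : D.redF f = (D.redF f * D.redF x ^ (b + 1)) * D.redF x⁻¹ ^ (b + 1) := by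
      rw [mul_assoc, ← mul_pow, hxy, one_pow, mul_one]
    rw [h4, hred]
    linear_combination (D.redF c2 * D.redF x⁻¹ ^ b) * hxy
  have hred0 : D.redF (f - (c1 * x⁻¹ ^ (b + 1) + c2 * x⁻¹ ^ b)) = 0 := by
    rw [h53_redF_sub D hf.2 (D.O.add_mem h1'.2 h2'.2), h51_redF_add D h1'.2 h2'.2,
      h51_redF_mul D hc1.2 (D.O.pow_mem C.inv_mem _), h51_redF_mul D hc2.2
      (D.O.pow_mem C.inv_mem _), h51_redF_pow D C.inv_mem, h51_redF_pow D C.inv_mem, hredf,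
      sub_self]
  have hdiff := h53_Lint_ker D _ (Submodule.sub_mem _ hf (Submodule.add_mem _ h1' h2')) hred0
  have hsplit : f = (c1 * x⁻¹ ^ (b + 1) + c2 * x⁻¹ ^ b) +
      (f - (c1 * x⁻¹ ^ (b + 1) + c2 * x⁻¹ ^ b)) := by abel
  rw [hsplit]
  exact Submodule.add_mem _ (Submodule.mem_sup_left (Submodule.add_mem _
    (Submodule.mem_sup_left h1) (Submodule.mem_sup_right h2))) (Submodule.mem_sup_right hdiff)

/-- **(DEC)**: every `Λ(a,b)` lies in `Λ₁ + Λ₂ + Λ(n0,n0)`. -/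
theorem h53_dec (D : h22_Lat K F k Rb) (hON : h22_ON D)
    (hfinL : ∀ B : Divisor K F, Module.Finite K (riemannRochSpace B))
    {x : F} {D1 D2 : Divisor K F} (C : h53_Chart D x D1 D2) (E : Divisor K F) (j n0 : ℕ)
    (hgenj : ∀ n, n0 ≤ n → ∀ c : F, c ∈ h53_Lint D (h53_Bd D1 D2 E (n + 1) 0 j) →
      ∃ c1 ∈ h53_Lint D (h53_Bd D1 D2 E n 0 j), ∃ c2 ∈ h53_Lint D (h53_Bd D1 D2 E n 0 j),
        D.redF c = D.redF c1 + D.redF x * D.redF c2) :
    ∀ s a b : ℕ, a + b = s → h53_Lint D (h53_Bd D1 D2 E a b j) ≤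
      h53_Fam D D1 D2 E 1 0 j ⊔ h53_Fam D D1 D2 E 0 1 j ⊔
        h53_Lint D (h53_Bd D1 D2 E n0 n0 j) := by
  intro s
  induction s using Nat.strong_induction_on with
  | _ s ih =>
    intro a b hs
    rcases Nat.eq_zero_or_pos b with rfl | hb
    · exact le_sup_of_le_left (le_sup_of_le_left (h53_le_Fam10 D D1 D2 E j a))
    rcases Nat.eq_zero_or_pos a with rfl | ha
    · exact le_sup_of_le_left (le_sup_of_le_right (h53_le_Fam01 D D1 D2 E j b))
    by_cases hab : a + b ≤ n0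
    · exact le_sup_of_le_right (h53_Lint_mono D fun v =>
        h53_Bd_mono C.nonneg₁ C.nonneg₂ E (by omega) (by omega) j v)
    · refine (h53_dec_step D hON hfinL C E j n0 hgenj a b ha hb (by omega)).trans
        (sup_le (ih (a - 1 + b) (by omega) (a - 1) b rfl)
          (ih (a + (b - 1)) (by omega) a (b - 1) rfl))

/-! ### Multiplicative structure of the chart families -/

theorem h53_one_mem_Lint (D : h22_Lat K F k Rb) {D1 D2 : Divisor K F}
    (h1 : ∀ v : Place K F, 0 ≤ D1 v) (h2 : ∀ v : Place K F, 0 ≤ D2 v) (E : Divisor K F)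
    (a b : ℕ) : (1 : F) ∈ h53_Lint D (h53_Bd D1 D2 E a b 0) := by
  refine ⟨mem_riemannRochSpace_iff.mpr fun v => Or.inr ?_, D.O.one_mem⟩
  rw [v.ord_one, h53_Bd_apply]
  have h3 : 0 ≤ (a : ℤ) * D1 v := mul_nonneg (Int.natCast_nonneg a) (h1 v)
  have h4 : 0 ≤ (b : ℤ) * D2 v := mul_nonneg (Int.natCast_nonneg b) (h2 v)
  push_cast
  linarith

/-- The graded multiplication `Λ_i Λ_j ⊆ Λ_(i+j)`, `Λ_i Λ_j u ⊆ Λ_(i+j-m)` of each family. -/
theorem h53_fam_mul (D : h22_Lat K F k Rb) {D1 D2 : Divisor K F}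
    (h1 : ∀ v : Place K F, 0 ≤ D1 v) (h2 : ∀ v : Place K F, 0 ≤ D2 v) (E : Divisor K F)
    {m : ℕ} {u : F} (hu : u ≠ 0) (huO : u ∈ D.O)
    (hdiv : ∀ v : Place K F, (m : ℤ) * E v = v.ord u) (p q : ℕ) :
    ∀ i < m, ∀ j < m, ∀ x ∈ h53_Fam D D1 D2 E p q i, ∀ y ∈ h53_Fam D D1 D2 E p q j,
      (i + j < m → x * y ∈ h53_Fam D D1 D2 E p q (i + j)) ∧
      (m ≤ i + j → x * y * u ∈ h53_Fam D D1 D2 E p q (i + j - m)) := by
  intro i _ j _ x hx y hy
  obtain ⟨n, hx⟩ := (h53_mem_Fam D h1 h2 E p q i).mp hx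
  obtain ⟨n', hy⟩ := (h53_mem_Fam D h1 h2 E p q j).mp hy
  have hxy : x * y ∈ h53_Lint D (h53_Bd D1 D2 E ((n + n') * p) ((n + n') * q) (i + j)) := by
    refine h53_Lint_mul D hx hy fun v => ?_
    rw [h53_Bd_apply, h53_Bd_apply, h53_Bd_apply]
    push_cast
    linarith
  refine ⟨fun _ => h53_le_Fam D D1 D2 E p q (i + j) (n + n') hxy, fun hm => ?_⟩
  refine h53_le_Fam D D1 D2 E p q (i + j - m) (n + n')
    (h53_Lint_mul_ord D hxy hu huO fun v => ?_)
  rw [h53_Bd_apply, h53_Bd_apply, ← hdiv v, Nat.cast_sub hm]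
  push_cast
  linarith

/-- Local generators with reduction `1` are multiplicative modulo `𝔪`. -/
theorem h53_gen_mul (D : h22_Lat K F k Rb) {D1 D2 : Divisor K F}
    (h1 : ∀ v : Place K F, 0 ≤ D1 v) (h2 : ∀ v : Place K F, 0 ≤ D2 v) (E : Divisor K F)
    {m : ℕ} {u : F} (hu : u ≠ 0) (huO : u ∈ D.O) (hured : D.redF u = 1)
    (hdiv : ∀ v : Place K F, (m : ℤ) * E v = v.ord u) (p q n : ℕ) (g : ℕ → F)
    (hg : ∀ j < m, g j ∈ h53_Lint D (h53_Bd D1 D2 E (n * p) (n * q) j) ∧ D.redF (g j) = 1) :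
    ∀ i < m, ∀ j < m,
      (i + j < m → g i * g j - g (i + j) ∈
        maximalIdeal ↥D.A • h53_Fam D D1 D2 E p q (i + j)) ∧
      (m ≤ i + j → g i * g j * u - g (i + j - m) ∈
        maximalIdeal ↥D.A • h53_Fam D D1 D2 E p q (i + j - m)) := by
  intro i hi j hj
  obtain ⟨hgi, hgi1⟩ := hg i hi
  obtain ⟨hgj, hgj1⟩ := hg j hj
  have hxy : g i * g j ∈
      h53_Lint D (h53_Bd D1 D2 E ((n + n) * p) ((n + n) * q) (i + j)) := by
    refine h53_Lint_mul D hgi hgj fun v => ?_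
    rw [h53_Bd_apply, h53_Bd_apply, h53_Bd_apply]
    push_cast
    linarith
  have hmono : ∀ l, h53_Lint D (h53_Bd D1 D2 E (n * p) (n * q) l) ≤
      h53_Lint D (h53_Bd D1 D2 E ((n + n) * p) ((n + n) * q) l) := fun l =>
    h53_Lint_mono D fun v => h53_Bd_mono h1 h2 E
      (Nat.mul_le_mul_right p (Nat.le_add_right n n))
      (Nat.mul_le_mul_right q (Nat.le_add_right n n)) l v
  constructor
  · intro hlt
    obtain ⟨hgs, hgs1⟩ := hg (i + j) hlt
    have hmem := Submodule.sub_mem _ hxy (hmono _ hgs)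
    have hred : D.redF (g i * g j - g (i + j)) = 0 := by
      rw [h53_redF_sub D hxy.2 hgs.2, h51_redF_mul D hgi.2 hgj.2, hgi1, hgj1, hgs1, mul_one,
        sub_self]
    exact Submodule.smul_mono le_rfl (h53_le_Fam D D1 D2 E p q (i + j) (n + n))
      (h53_Lint_ker D _ hmem hred)
  · intro hm
    obtain ⟨hgs, hgs1⟩ := hg (i + j - m) (by omega)
    have hxyu : g i * g j * u ∈
        h53_Lint D (h53_Bd D1 D2 E ((n + n) * p) ((n + n) * q) (i + j - m)) := by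
      refine h53_Lint_mul_ord D hxy hu huO fun v => ?_
      rw [h53_Bd_apply, h53_Bd_apply, ← hdiv v, Nat.cast_sub hm]
      push_cast
      linarith
    have hmem := Submodule.sub_mem _ hxyu (hmono _ hgs)
    have hred : D.redF (g i * g j * u - g (i + j - m)) = 0 := by
      rw [h53_redF_sub D hxyu.2 hgs.2, h51_redF_mul D hxy.2 huO, h51_redF_mul D hgi.2 hgj.2,
        hgi1, hgj1, hured, hgs1, mul_one, mul_one, sub_self]
    exact Submodule.smul_mono le_rfl (h53_le_Fam D D1 D2 E p q (i + j - m) (n + n))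
      (h53_Lint_ker D _ hmem hred)

/-! ### The endgame -/

/-- **ENDGAME-FINAL.**  Lattice datum with orthonormal bases, rank-one constants, a balanced
chart function `x` (`D1 = (x)_∞`, `D2 = (x)_0`), the special fibre of the first chart generated
in degree one (`hgen`), and a toric witness `(E, u)` with trivial gluing (`htriv`).  Then `E` is
principal. -/
theorem h53_cyc_final [HasPrincipalDivisors K F] (D : h22_Lat K F k Rb) (hON : h22_ON D)
    (hfinL : ∀ B : Divisor K F, Module.Finite K (riemannRochSpace B))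
    (hdeg : ∀ P : Place K F, P.deg = 1)
    (hR1 : h39_RankOne D.A) (π : K) (hπ : π ∈ D.A.nonunits) (hπ0 : π ≠ 0)
    (x : F) (hx0 : x ≠ 0) (hx : x ∈ D.O) (hxinv : x⁻¹ ∈ D.O)
    (D1 D2 : Divisor K F) (hD1 : 0 ≤ D1) (hD2 : 0 ≤ D2)
    (hdisj : ∀ v : Place K F, D1 v = 0 ∨ D2 v = 0)
    (hxdiv : ∀ v : Place K F, v.ord x = D2 v - D1 v)
    (n0 : ℕ)
    (hgen : ∀ n, n0 ≤ n → ∀ a ∈ h51_Rd D ((n + 1) • D1),
      ∃ b ∈ h51_Rd D (n • D1), ∃ c ∈ h51_Rd D (n • D1), a = b + D.redF x * c)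
    (m : ℕ) (hm : (m : k) ≠ 0)
    (E : Divisor K F) (hE : Divisor.degree E = 0) (u : F) (hu : u ≠ 0)
    (hdiv : ∀ v : Place K F, (m : ℤ) * E v = v.ord u) (huO : u ∈ D.O)
    (hured : D.red ⟨u, huO⟩ = 1)
    (htriv : ∀ n, n0 ≤ n → ∀ j : ℕ, j < m →
      h51_Rd D (n • D1 + (j : ℤ) • E) = h51_Rd D (n • D1)) :
    E ∈ Divisor.principal (K := K) (F := F) := by
  classical
  have hm0 : m ≠ 0 := by
    rintro rfl
    exact hm Nat.cast_zero
  rcases Nat.lt_or_ge m 2 with hm2 | hm2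
  · -- `m = 1`: `E = div u`
    have hm1 : m = 1 := by omega
    subst hm1
    refine Divisor.mem_principal.mpr ⟨u, hu, fun v => ?_⟩
    have h := hdiv v
    rwa [Nat.cast_one, one_mul] at h
  -- the chart
  have C : h53_Chart D x D1 D2 :=
    ⟨hx0, hx, hxinv, fun v => by simpa using Finsupp.le_def.mp hD1 v,
      fun v => by simpa using Finsupp.le_def.mp hD2 v, hdisj, hxdiv⟩
  have hredu : D.redF u = 1 := by rw [D.redF_of_mem huO, hured]
  have hnt : Nontrivial Rb := by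
    obtain ⟨c, -, h, hne⟩ := D.exists_scale 1 one_ne_zero
    exact ⟨⟨_, 0, hne⟩⟩
  -- translation of the trivial gluing to the lattices
  have hBd : ∀ n j : ℕ, h53_Bd D1 D2 E n 0 j = n • D1 + (j : ℤ) • E := by
    intro n j
    rw [h53_Bd, zero_smul, add_zero, natCast_zsmul]
  have hG : ∀ n, n0 ≤ n → ∀ j < m, ∀ c : Rb,
      c ∈ h51_Rd D (n • D1) ↔ ∃ h ∈ h53_Lint D (h53_Bd D1 D2 E n 0 j), D.redF h = c := by
    intro n hn j hj c
    rw [← htriv n hn j hj, ← hBd]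
    constructor
    · rintro ⟨f, hf, hfO, rfl⟩
      exact ⟨f, ⟨hf, hfO⟩, rfl⟩
    · rintro ⟨f, ⟨hf, hfO⟩, rfl⟩
      exact ⟨f, hf, hfO, rfl⟩
  have hgenj : ∀ j < m, ∀ n, n0 ≤ n → ∀ c : F,
      c ∈ h53_Lint D (h53_Bd D1 D2 E (n + 1) 0 j) →
      ∃ c1 ∈ h53_Lint D (h53_Bd D1 D2 E n 0 j), ∃ c2 ∈ h53_Lint D (h53_Bd D1 D2 E n 0 j),
        D.redF c = D.redF c1 + D.redF x * D.redF c2 := by
    intro j hj n hn c hc
    have h1 : D.redF c ∈ h51_Rd D ((n + 1) • D1) :=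
      (hG (n + 1) (by omega) j hj _).mpr ⟨c, hc, rfl⟩
    obtain ⟨b', hb', c', hc', hbc⟩ := hgen n hn _ h1
    obtain ⟨c1, hc1, rfl⟩ := (hG n hn j hj _).mp hb'
    obtain ⟨c2, hc2, rfl⟩ := (hG n hn j hj _).mp hc'
    exact ⟨c1, hc1, c2, hc2, hbc⟩
  -- local generators on the two charts, all with reduction `1`
  have h1mem : (1 : Rb) ∈ h51_Rd D (n0 • D1) :=
    (hG n0 le_rfl 0 (by omega) 1).mpr
      ⟨1, h53_one_mem_Lint D C.nonneg₁ C.nonneg₂ E n0 0, h51_redF_one D⟩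
  have hxmem : D.redF x ^ n0 ∈ h51_Rd D (n0 • D1) := by
    have h := h53_shift_up C E (h53_one_mem_Lint D C.nonneg₁ C.nonneg₂ E 0 n0)
    rw [zero_add, one_mul] at h
    exact (hG n0 le_rfl 0 (by omega) _).mpr ⟨x ^ n0, h, h51_redF_pow D hx n0⟩
  have hex1 : ∀ j, j < m → ∃ g, g ∈ h53_Lint D (h53_Bd D1 D2 E n0 0 j) ∧ D.redF g = 1 :=
    fun j hj => by
      obtain ⟨g, hg, hg1⟩ := (hG n0 le_rfl j hj 1).mp h1mem
      exact ⟨g, hg, hg1⟩
  have hex2 : ∀ j, j < m →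
      ∃ h, h ∈ h53_Lint D (h53_Bd D1 D2 E n0 0 j) ∧ D.redF h = D.redF x ^ n0 :=
    fun j hj => by
      obtain ⟨g, hg, hg1⟩ := (hG n0 le_rfl j hj _).mp hxmem
      exact ⟨g, hg, hg1⟩
  choose! g₁ hg₁ using hex1
  choose! h₂ hh₂ using hex2
  let g₂ : ℕ → F := fun j => h₂ j * x⁻¹ ^ n0
  have hg₂ : ∀ j < m, g₂ j ∈ h53_Lint D (h53_Bd D1 D2 E 0 n0 j) ∧ D.redF (g₂ j) = 1 := by
    intro j hj
    have h := h53_shift_down C E (b := n0) le_rfl (hh₂ j hj).1
    rw [Nat.sub_self] at h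
    refine ⟨h, ?_⟩
    show D.redF (h₂ j * x⁻¹ ^ n0) = 1
    rw [h51_redF_mul D (hh₂ j hj).1.2 (D.O.pow_mem hxinv _), (hh₂ j hj).2,
      h51_redF_pow D hxinv, ← mul_pow, C.red_mul_inv, one_pow]
  -- the constants
  let π' : ↥D.A := ⟨π, D.A.nonunits_le hπ⟩
  have hπ' : π' ∈ maximalIdeal ↥D.A := ValuationSubring.coe_mem_nonunits_iff.mp hπ
  have hπ0' : π' ≠ 0 := fun h => hπ0 (congrArg Subtype.val h)
  have hπinv : π⁻¹ ∉ D.A := (D.A.mem_nonunits_iff_or.mp hπ).resolve_left hπ0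
  have hrk : ∀ a : ↥D.A, a ≠ 0 → ∃ n : ℕ, a ∣ π' ^ n := by
    intro a ha
    have ha0 : (a : K) ≠ 0 := fun h => ha (Subtype.ext h)
    obtain ⟨n, hn⟩ := hR1 π (D.A.nonunits_le hπ) hπinv (a : K) ha0
    refine ⟨n, ⟨⟨π ^ n * (a : K)⁻¹, hn⟩, Subtype.ext ?_⟩⟩
    show π ^ n = (a : K) * (π ^ n * (a : K)⁻¹)
    field_simp
  have hrk' : ∀ a ∈ maximalIdeal ↥D.A, ∃ n : ℕ, π' ∣ a ^ n := by
    intro a ha
    rcases eq_or_ne (a : K) 0 with h0 | h0
    · refine ⟨1, ?_⟩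
      rw [pow_one, show a = 0 from Subtype.ext h0]
      exact dvd_zero _
    · have ha' : (a : K) ∈ D.A.nonunits := ValuationSubring.coe_mem_nonunits_iff.mpr ha
      have hainv : (a : K)⁻¹ ∉ D.A := (D.A.mem_nonunits_iff_or.mp ha').resolve_left h0
      obtain ⟨n, hn⟩ := hR1 (a : K) a.2 hainv π hπ0
      refine ⟨n, ⟨⟨(a : K) ^ n * π⁻¹, hn⟩, Subtype.ext ?_⟩⟩
      show (a : K) ^ n = π * ((a : K) ^ n * π⁻¹)
      field_simp
  have hmunit : IsUnit ((m : ℕ) : ↥D.A) := by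
    by_contra hnu
    have h1 : ((m : ℕ) : ↥D.A) ∈ maximalIdeal ↥D.A := (IsLocalRing.mem_maximalIdeal _).mpr hnu
    have h2 : D.res ((m : ℕ) : ↥D.A) = 0 :=
      (h22_res_eq_zero_iff D _).mpr (ValuationSubring.coe_mem_nonunits_iff.mpr h1)
    rw [map_natCast] at h2
    exact hm h2
  obtain ⟨minv, hminv⟩ := hmunit.exists_right_inv
  -- the patching theorem
  obtain ⟨f, hf1, hf2, hfg⟩ := h53_cyc_zar (A := ↥D.A) (F := F) π' hπ' hπ0' hrk hrk' m hm0
    minv hminv u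
    (h53_Fam D D1 D2 E 1 0) (h53_Fam D D1 D2 E 0 1) (h53_Fam D D1 D2 E 1 1)
    (fun j => h53_Lint D (h53_Bd D1 D2 E n0 n0 j))
    (fun j _ => iSup_le fun n => (h53_Lint_mono D fun v =>
      h53_Bd_mono C.nonneg₁ C.nonneg₂ E le_rfl (by simp) j v).trans
        (h53_le_Fam D D1 D2 E 1 1 j n))
    (fun j _ => iSup_le fun n => (h53_Lint_mono D fun v =>
      h53_Bd_mono C.nonneg₁ C.nonneg₂ E (by simp) le_rfl j v).trans
        (h53_le_Fam D D1 D2 E 1 1 j n))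
    (fun j _ => h53_le_Fam11 D D1 D2 E j n0)
    (fun j _ => by
      have := hfinL (h53_Bd D1 D2 E n0 n0 j)
      exact h53_Lint_fg D hON _)
    (fun j hj => iSup_le fun n =>
      h53_dec D hON hfinL C E j n0 (hgenj j hj) _ (n * 1) (n * 1) rfl)
    (h53_le_Fam D D1 D2 E 1 0 0 0 (h53_one_mem_Lint D C.nonneg₁ C.nonneg₂ E _ _))
    (h53_le_Fam D D1 D2 E 0 1 0 0 (h53_one_mem_Lint D C.nonneg₁ C.nonneg₂ E _ _))
    (h53_fam_mul D C.nonneg₁ C.nonneg₂ E hu huO hdiv 1 0)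
    (h53_fam_mul D C.nonneg₁ C.nonneg₂ E hu huO hdiv 0 1)
    (h53_fam_mul D C.nonneg₁ C.nonneg₂ E hu huO hdiv 1 1)
    g₁ g₂
    (fun j hj => h53_le_Fam10 D D1 D2 E j n0 (hg₁ j hj).1)
    (fun j hj => h53_le_Fam01 D D1 D2 E j n0 (hg₂ j hj).1)
    (h53_gen_mul D C.nonneg₁ C.nonneg₂ E hu huO hredu hdiv 1 0 n0 g₁ (fun j hj => by
      rw [mul_one, mul_zero]
      exact hg₁ j hj))
    (h53_gen_mul D C.nonneg₁ C.nonneg₂ E hu huO hredu hdiv 0 1 n0 g₂ (fun j hj => by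
      rw [mul_one, mul_zero]
      exact hg₂ j hj))
    (fun j hj => by
      have ha : g₁ j ∈ h53_Lint D (h53_Bd D1 D2 E n0 n0 j) :=
        h53_Lint_mono D (fun v => h53_Bd_mono C.nonneg₁ C.nonneg₂ E le_rfl (Nat.zero_le _) j v)
          (hg₁ j hj).1
      have hb : g₂ j ∈ h53_Lint D (h53_Bd D1 D2 E n0 n0 j) :=
        h53_Lint_mono D (fun v => h53_Bd_mono C.nonneg₁ C.nonneg₂ E (Nat.zero_le _) le_rfl j v)
          (hg₂ j hj).1
      have hred : D.redF (g₁ j - g₂ j) = 0 := by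
        rw [h53_redF_sub D ha.2 hb.2, (hg₁ j hj).2, (hg₂ j hj).2, sub_self]
      exact Submodule.smul_mono le_rfl (h53_le_Fam11 D D1 D2 E j n0)
        (h53_Lint_ker D _ (Submodule.sub_mem _ ha hb) hred))
    1 (by omega)
  -- `f ∈ L(E) ∩ O`
  obtain ⟨n1, hfn1⟩ := (h53_mem_Fam D C.nonneg₁ C.nonneg₂ E 1 0 1).mp hf1
  obtain ⟨n2, hfn2⟩ := (h53_mem_Fam D C.nonneg₁ C.nonneg₂ E 0 1 1).mp hf2
  have hfO : f ∈ D.O := hfn1.2
  have hfE : ∀ v : Place K F, f = 0 ∨ -E v ≤ v.ord f := by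
    intro v
    rcases mem_riemannRochSpace_iff.mp hfn1.1 v with h | ha
    · exact Or.inl h
    rcases mem_riemannRochSpace_iff.mp hfn2.1 v with h | hb
    · exact Or.inl h
    right
    rw [h53_Bd_apply] at ha hb
    simp only [mul_one, mul_zero, Nat.cast_zero, Nat.cast_one, zero_mul, one_mul, add_zero,
      zero_add] at ha hb
    rcases C.disj v with h | h
    · rw [h, mul_zero, zero_add] at ha
      exact ha
    · rw [h, mul_zero, zero_add] at hb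
      exact hb
  -- `f ≠ 0`: its reduction is the residue class of `1/m`
  have hred := h53_redF_of_mem_smul D (h53_Fam D D1 D2 E 1 0 1)
    (h53_Fam_integral D D1 D2 E 1 0 1) hfg
  have hg1 := hg₁ 1 (by omega)
  have hmg : algebraMap ↥D.A F minv * g₁ 1 ∈ D.O :=
    D.O.mul_mem ((D.mem_iff _).mp minv.2) hg1.1.2
  have hredf : D.redF f = D.resK (minv : K) • (1 : Rb) := by
    have h3 := h53_redF_sub D hfO hmg
    rw [hred.2] at h3
    have h4 : D.redF (algebraMap ↥D.A F minv * g₁ 1) = D.resK (minv : K) • D.redF (g₁ 1) := by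
      have h5 : algebraMap ↥D.A F minv * g₁ 1 = (minv : K) • g₁ 1 := by
        rw [Algebra.smul_def]
        rfl
      rw [h5]
      exact h51_redF_smul D minv.2 hg1.1.2
    rw [h4, hg1.2] at h3
    exact sub_eq_zero.mp h3.symm
  have hf0 : f ≠ 0 := by
    rintro rfl
    have h5 : D.redF (0 : F) = 0 := by
      rw [D.redF_of_mem D.O.zero_mem]
      exact map_zero D.red
    rw [h5, Algebra.smul_def, mul_one] at hredf
    have h6 : D.resK (minv : K) = 0 :=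
      (map_eq_zero_iff _ (algebraMap k Rb).injective).mp hredf.symm
    have h7 : D.res minv = 0 := by
      rw [← D.resK_of_mem minv.2]
      exact h6
    have h8 : D.res ((m : ℕ) : ↥D.A) * D.res minv = 1 := by
      rw [← map_mul, hminv, map_one]
    rw [h7, mul_zero] at h8
    exact zero_ne_one h8
  -- an effective divisor of degree zero vanishes
  obtain ⟨Df, hDf, hDfdeg⟩ := HasPrincipalDivisors.exists_divisor (K := K) f hf0
  have hsum : E + Df = 0 := by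
    apply h64_eq_zero_of_nonneg_of_degree hdeg
    · intro v
      rw [Finsupp.add_apply, hDf v]
      have h := (hfE v).resolve_left hf0
      linarith
    · rw [map_add, hE, hDfdeg, add_zero]
  refine Divisor.mem_principal.mpr ⟨f⁻¹, inv_ne_zero hf0, fun v => ?_⟩
  rw [v.ord_inv, ← hDf v]
  have h9 : (E + Df) v = 0 := by rw [hsum]; rfl
  rw [Finsupp.add_apply] at h9
  linarith

/-- **Clause (G).**  With helper51's chart hypotheses for `D0 := D1 = (x)_∞`: inertia acts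
trivially on toric classes, `g' • E - E` is principal for every toric witness `(E, u)`. -/
theorem h53_G_of_chart [HasPrincipalDivisors K F] (D : h22_Lat K F k Rb) (hON : h22_ON D)
    (hinv : ∀ (f : F) (hf : f ∈ D.O), IsUnit (D.red ⟨f, hf⟩) → f⁻¹ ∈ D.O)
    (hfinL : ∀ B : Divisor K F, Module.Finite K (riemannRochSpace B))
    (hdeg : ∀ P : Place K F, P.deg = 1)
    (hR1 : h39_RankOne D.A) (π : K) (hπ : π ∈ D.A.nonunits) (hπ0 : π ≠ 0)
    (x : F) (hx0 : x ≠ 0) (hx : x ∈ D.O) (hxinv : x⁻¹ ∈ D.O)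
    (D1 D2 : Divisor K F) (hD1 : 0 ≤ D1) (hD2 : 0 ≤ D2)
    (hdisj : ∀ v : Place K F, D1 v = 0 ∨ D2 v = 0)
    (hxdiv : ∀ v : Place K F, v.ord x = D2 v - D1 v)
    (P : ℕ → Submodule k Rb) [∀ n, FiniteDimensional k (P n)]
    (Bs : Subalgebra k Rb) (hPB : ∀ n, ∀ a ∈ P n, a ∈ Bs)
    {Z : Type*} [Fintype Z] (e1 e2 : Z → (Bs →ₐ[k] k))
    (n0 : ℕ) {m : ℕ} (hm : (m : k) ≠ 0)
    (hnode : ∀ n, n0 ≤ n → ∀ a : Rb, a ∈ h51_Rd D (n • D1) ↔
        ∃ h : a ∈ P n, ∀ ν, e2 ν ⟨a, hPB n a h⟩ = e1 ν ⟨a, hPB n a h⟩)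
    (hind : ∀ n, n0 ≤ n → ∀ s t : Z → k, ∃ a, ∃ h : a ∈ P n,
        (∀ ν, e1 ν ⟨a, hPB n a h⟩ = s ν) ∧ (∀ ν, e2 ν ⟨a, hPB n a h⟩ = t ν))
    (hroot : ∀ n, ∀ a : Rb, a ^ m ∈ P (m * n) → a ∈ P n)
    (hRR : ∀ n, n0 ≤ n → ∀ E : Divisor K F, Divisor.degree E = 0 →
        Module.Finite K (riemannRochSpace (n • D1 + E)) ∧
        Module.finrank K (riemannRochSpace (n • D1 + E)) =
          Module.finrank K (riemannRochSpace (n • D1)))
    (hgen : ∀ n, n0 ≤ n → ∀ a ∈ h51_Rd D ((n + 1) • D1),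
      ∃ b ∈ h51_Rd D (n • D1), ∃ c ∈ h51_Rd D (n • D1), a = b + D.redF x * c)
    (g' : SemilinearAut K F) (hgO : ∀ f, f ∈ D.O → g' • f ∈ D.O)
    (hgred : ∀ f, f ∈ D.O → D.redF (g' • f) = D.redF f) (hgD1 : g' • D1 = D1)
    (E : Divisor K F) (hE : Divisor.degree E = 0) (u : F) (hu : u ≠ 0)
    (hdiv : ∀ v : Place K F, (m : ℤ) * E v = v.ord u) (huO : u ∈ D.O)
    (hured : D.red ⟨u, huO⟩ = 1) :
    g' • E - E ∈ Divisor.principal (K := K) (F := F) := by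
  have hm0 : m ≠ 0 := by
    rintro rfl
    exact hm Nat.cast_zero
  obtain ⟨hEz, huz0, hdivz, huzO, huzred⟩ :=
    h51_toric_smul_sub D hinv g' hgO hgred E hE u hu hdiv huO hured
  exact h53_cyc_final D hON hfinL hdeg hR1 π hπ hπ0 x hx0 hx hxinv D1 D2 hD1 hD2 hdisj hxdiv
    (2 * n0) (fun n hn => hgen n (by omega)) m hm (g' • E - E) hEz ((g' • u) * u⁻¹) huz0 hdivz
    huzO huzred (fun n hn j _ => h51_trivial_gluing D hON hinv D1 P Bs hPB e1 e2 n0 hm0 hnode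
      hind hroot hRR g' hgO hgred hgD1 E hE u hu hdiv huO hured (j : ℤ) n hn)

end Fermat.Agent.S34

end
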