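import Mathlib
import Fermat.Agent.S34.h51_Glue
import Fermat.Agent.S18.h64_CompatOfLe

/-!
# S34 / LAST-STEP INTERFACE and generic wiring (helper51)

Generic layer (no modular input) between the chart data of `h51_Glue` and the toric statement (G)
consumed by `h87_unipGeom_of_toric`.

* `h51_LastStep D E1 N0 m` : **the last-step statement**: every toric witness `(Ez, uz)`
  (`deg Ez = 0`, `div uz = m Ez`, `uz ∈ O`, `red uz = 1`) with trivial gluing along the polar
  divisor `E1`, i.e. `red (L(n E1 + j Ez) ∩ O) = red (L(n E1) ∩ O)` for all `j : ℤ`, `n ≥ N0`,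
  has a nonzero section `e ∈ L(Ez)`.  It is the common target of the endgames (two-chart
  patching `h63_patch_fg`, cyclic algebra `h53_cyc_zar`), and it serves both `(UNIP)`
  (`Ez = g' • E - E`) and the Frobenius relation of S35 (`Ez = s² • E - q² • E`).
* `h51_principal_of_section` : a divisor of degree `0` with a nonzero section is principal.
* `h51_G_of_last` : chart data + `h51_LastStep` + Galois invariance ⟹ `g' • E - E` is principal
  for every toric witness `(E, u)`: the statement (G).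
* `h51_Rd_mono`, `h51_Rd_mul` : monotonicity and multiplicativity of `red (L(E) ∩ O)`.
* `h51_strict_of_chart` : (STRICT) `G^(n+1) = G^n + x̄ G^n` for `G^n = red (L(n c D0) ∩ O)`, from
  the node description, the pole-order lemma on the special fibre and the dimension formula.
-/

set_option autoImplicit false

noncomputable section

open AlgebraicCurve Module

namespace Fermat.Agent.S34

variable {K F k Rb : Type*} [Field K] [Field F] [Algebra K F] [Field k] [CommRing Rb]
  [Algebra k Rb]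

/-- **The last-step statement**: a toric witness `(Ez, uz)` with trivial gluing along `E1` has a
nonzero section of `L(Ez)`. -/
def h51_LastStep (D : h22_Lat K F k Rb) (E1 : Divisor K F) (N0 m : ℕ) : Prop :=
  ∀ (Ez : Divisor K F) (uz : F), Divisor.degree Ez = 0 → uz ≠ 0 →
    (∀ v : Place K F, (m : ℤ) * Ez v = v.ord uz) →
    (∃ h : uz ∈ D.O, D.red ⟨uz, h⟩ = 1) →
    (∀ (j : ℤ) (n : ℕ), N0 ≤ n → h51_Rd D (n • E1 + j • Ez) = h51_Rd D (n • E1)) →
    ∃ e : F, e ≠ 0 ∧ e ∈ riemannRochSpace Ez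

/-- A divisor of degree `0` with a nonzero section is principal. -/
theorem h51_principal_of_section [HasPrincipalDivisors K F]
    (hdeg1 : ∀ P : Place K F, P.deg = 1)
    (Ez : Divisor K F) (hEz : Divisor.degree Ez = 0) (e : F) (he : e ≠ 0)
    (hmem : e ∈ riemannRochSpace Ez) : Ez ∈ Divisor.principal (K := K) (F := F) := by
  obtain ⟨De, hDe, hdeg⟩ := HasPrincipalDivisors.exists_divisor (K := K) e he
  have hnn : ∀ P, 0 ≤ (Ez + De) P := by
    intro P
    rw [Finsupp.add_apply, hDe P]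
    have := (mem_riemannRochSpace_iff.mp hmem P).resolve_left he
    linarith
  have h0 : Ez + De = 0 :=
    Fermat.Agent.S18.h64_eq_zero_of_nonneg_of_degree hdeg1 _ hnn
      (by rw [map_add, hEz, hdeg, add_zero])
  refine ⟨e⁻¹, inv_ne_zero he, fun v => ?_⟩
  have h1 : (Ez + De) v = 0 := by rw [h0]; rfl
  rw [Finsupp.add_apply, hDe v] at h1
  rw [v.ord_inv]
  linarith

/-- **The toric statement (G) from the last step**: chart data (as in `h51_trivial_gluing`), the
last-step statement along `c • D0`, and a semilinear automorphism `g'` preserving `O`, the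
reductions and `D0`: for every toric witness `(E, u)` the divisor `g' • E - E` is principal. -/
theorem h51_G_of_last (D : h22_Lat K F k Rb) (hON : h22_ON D)
    (hinv : ∀ (f : F) (hf : f ∈ D.O), IsUnit (D.red ⟨f, hf⟩) → f⁻¹ ∈ D.O)
    (D0 : Divisor K F) (P : ℕ → Submodule k Rb) [∀ n, FiniteDimensional k (P n)]
    (Bs : Subalgebra k Rb) (hPB : ∀ n, ∀ a ∈ P n, a ∈ Bs)
    {Z : Type*} [Fintype Z] (e1 e2 : Z → (Bs →ₐ[k] k))
    (n0 : ℕ) {m : ℕ} (hm : m ≠ 0)
    (hnode : ∀ n, n0 ≤ n → ∀ a : Rb, a ∈ h51_Rd D (n • D0) ↔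
        ∃ h : a ∈ P n, ∀ ν, e2 ν ⟨a, hPB n a h⟩ = e1 ν ⟨a, hPB n a h⟩)
    (hind : ∀ n, n0 ≤ n → ∀ s t : Z → k, ∃ a, ∃ h : a ∈ P n,
        (∀ ν, e1 ν ⟨a, hPB n a h⟩ = s ν) ∧ (∀ ν, e2 ν ⟨a, hPB n a h⟩ = t ν))
    (hroot : ∀ n, ∀ a : Rb, a ^ m ∈ P (m * n) → a ∈ P n)
    (hRR : ∀ n, n0 ≤ n → ∀ E : Divisor K F, Divisor.degree E = 0 →
        Module.Finite K (riemannRochSpace (n • D0 + E)) ∧
        Module.finrank K (riemannRochSpace (n • D0 + E)) =
          Module.finrank K (riemannRochSpace (n • D0)))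
    (c N0 : ℕ) (hc : 0 < c) (hN0 : 2 * n0 ≤ N0)
    (hlast : h51_LastStep D (c • D0) N0 m)
    [HasPrincipalDivisors K F] (hdeg1 : ∀ P : Place K F, P.deg = 1)
    (g' : SemilinearAut K F) (hgO : ∀ f, f ∈ D.O → g' • f ∈ D.O)
    (hgred : ∀ f, f ∈ D.O → D.redF (g' • f) = D.redF f) (hgD0 : g' • D0 = D0)
    (E : Divisor K F) (hE : Divisor.degree E = 0) (u : F) (hu : u ≠ 0)
    (hdiv : ∀ v : Place K F, (m : ℤ) * E v = v.ord u) (huO : u ∈ D.O)
    (hured : D.red ⟨u, huO⟩ = 1) :
    g' • E - E ∈ Divisor.principal (K := K) (F := F) := by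
  obtain ⟨hdeg, hne, hdiv', huz⟩ :=
    h51_toric_smul_sub D hinv g' hgO hgred E hE u hu hdiv huO hured
  obtain ⟨e, he, hmem⟩ := hlast (g' • E - E) ((g' • u) * u⁻¹) hdeg hne hdiv' huz
    (fun j n hn => by
      have e1' : n • (c • D0) = (n * c) • D0 := by rw [mul_nsmul']
      rw [e1']
      exact h51_trivial_gluing D hON hinv D0 P Bs hPB e1 e2 n0 hm hnode hind hroot hRR
        g' hgO hgred hgD0 E hE u hu hdiv huO hured j (n * c)
        (le_trans hN0 (le_trans hn (Nat.le_mul_of_pos_right n hc))))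
  exact h51_principal_of_section hdeg1 _ hdeg e he hmem

/-! ### Monotonicity and products of `red (L(E) ∩ O)` -/

theorem h51_rr_mono {E E' : Divisor K F} (h : ∀ v, E v ≤ E' v) {f : F}
    (hf : f ∈ riemannRochSpace E) : f ∈ riemannRochSpace E' := by
  rw [mem_riemannRochSpace_iff] at hf ⊢
  intro v
  rcases hf v with h0 | h1
  · exact Or.inl h0
  · exact Or.inr (by have := h v; linarith)

theorem h51_Rd_mono (D : h22_Lat K F k Rb) {E E' : Divisor K F} (h : ∀ v, E v ≤ E' v) :
    h51_Rd D E ≤ h51_Rd D E' := by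
  rintro a ⟨f, hf, hfO, rfl⟩
  exact ⟨f, h51_rr_mono h hf, hfO, rfl⟩

theorem h51_Rd_mul (D : h22_Lat K F k Rb) {E E' : Divisor K F} {a b : Rb}
    (ha : a ∈ h51_Rd D E) (hb : b ∈ h51_Rd D E') : a * b ∈ h51_Rd D (E + E') := by
  obtain ⟨f, hf, hfO, rfl⟩ := ha
  obtain ⟨g, hg, hgO, rfl⟩ := hb
  exact ⟨f * g, h51_mul_mem_rr hf hg, D.O.mul_mem hfO hgO, h51_redF_mul D hfO hgO⟩

/-! ### (STRICT) from the chart data -/

/-- **(STRICT)**: with `G^n := red (L(n (c • D0)) ∩ O)` and `x ∈ L(c • D0) ∩ O`,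
`G^(n+1) ⊆ G^n + x̄ G^n` for `n > max N1 n0`, from the node description `hnode`, the pole-order
lemma `hPx` on the special fibre and the dimension formula `hdim`. -/
theorem h51_strict_of_chart (D : h22_Lat K F k Rb) (hON : h22_ON D)
    (D0 : Divisor K F) (hD0 : ∀ v, 0 ≤ D0 v) (P : ℕ → Submodule k Rb)
    (Bs : Subalgebra k Rb) (hPB : ∀ n, ∀ a ∈ P n, a ∈ Bs)
    {Z : Type*} (e1 e2 : Z → (Bs →ₐ[k] k)) (n0 : ℕ)
    (hnode : ∀ n, n0 ≤ n → ∀ a : Rb, a ∈ h51_Rd D (n • D0) ↔
        ∃ h : a ∈ P n, ∀ ν, e2 ν ⟨a, hPB n a h⟩ = e1 ν ⟨a, hPB n a h⟩)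
    (c : ℕ) (hc : 0 < c) (x : F) (hxO : x ∈ D.O) (hxL : x ∈ riemannRochSpace (c • D0))
    (hPx : ∀ (n : ℕ) (a : Rb), a ∈ P (n + c) → D.redF x * a ∈ P (n + c) → a ∈ P n)
    (hfin : ∀ n : ℕ, FiniteDimensional K (riemannRochSpace (n • (c • D0))))
    (d χ : ℤ) (N1 : ℕ)
    (hdim : ∀ n, N1 ≤ n →
      (Module.finrank K (riemannRochSpace (n • (c • D0))) : ℤ) = d * n + χ)
    (n : ℕ) (hn1 : N1 + 1 ≤ n) (hn0 : n0 + 1 ≤ n) :
    ∀ a ∈ h51_Rd D ((n + 1) • (c • D0)), ∃ b ∈ h51_Rd D (n • (c • D0)),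
      ∃ c' ∈ h51_Rd D (n • (c • D0)), a = b + D.redF x * c' := by
  classical
  obtain ⟨p, rfl⟩ : ∃ p, n = p + 1 := ⟨n - 1, by omega⟩
  -- notation
  set E1 : Divisor K F := c • D0 with hE1def
  have hE1 : ∀ v, 0 ≤ E1 v := by
    intro v
    rw [hE1def, Finsupp.smul_apply, nsmul_eq_mul]
    exact mul_nonneg (Nat.cast_nonneg c) (hD0 v)
  set U : Submodule k Rb := h51_Rd D (p • E1) with hU
  set V : Submodule k Rb := h51_Rd D ((p + 1) • E1) with hV
  set W : Submodule k Rb := h51_Rd D ((p + 1 + 1) • E1) with hW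
  have := hfin p
  have := hfin (p + 1)
  have := hfin (p + 1 + 1)
  have hfU : Module.finrank k U = Module.finrank K (riemannRochSpace (p • E1)) :=
    h51_finrank_Rd D hON (p • E1)
  have hfV : Module.finrank k V = Module.finrank K (riemannRochSpace ((p + 1) • E1)) :=
    h51_finrank_Rd D hON ((p + 1) • E1)
  have hfW : Module.finrank k W = Module.finrank K (riemannRochSpace ((p + 1 + 1) • E1)) :=
    h51_finrank_Rd D hON ((p + 1 + 1) • E1)
  -- finite-dimensionality of the reductions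
  have hfinRd : ∀ E : Divisor K F, FiniteDimensional K (riemannRochSpace E) →
      FiniteDimensional k (h51_Rd D E) := by
    intro E hE
    by_contra hnot
    have h0 : Module.finrank k (h51_Rd D E) = 0 := Module.finrank_of_not_finite hnot
    have h1 := h51_finrank_Rd D hON E
    rw [h0] at h1
    -- `L(E) = 0`, so the reduction is `0`, which is finite-dimensional
    have hbot : riemannRochSpace E = ⊥ := Submodule.finrank_eq_zero.mp h1.symm
    apply hnot
    have hRd : h51_Rd D E = ⊥ := by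
      rw [eq_bot_iff]
      rintro a ⟨f, hf, hfO, rfl⟩
      rw [hbot, Submodule.mem_bot] at hf
      subst hf
      rw [Submodule.mem_bot, D.redF_of_mem D.O.zero_mem]
      exact map_zero D.red
    rw [hRd]
    infer_instance
  have hUfin : FiniteDimensional k U := hfinRd _ (hfin p)
  have hVfin : FiniteDimensional k V := hfinRd _ (hfin (p + 1))
  have hWfin : FiniteDimensional k W := hfinRd _ (hfin (p + 1 + 1))
  -- inclusions
  have hsmul_le : ∀ (i j : ℕ), i ≤ j → ∀ v, (i • E1) v ≤ (j • E1) v := by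
    intro i j hij v
    rw [Finsupp.smul_apply, Finsupp.smul_apply, nsmul_eq_mul, nsmul_eq_mul]
    exact mul_le_mul_of_nonneg_right (by exact_mod_cast hij) (hE1 v)
  have hVW : V ≤ W := h51_Rd_mono D (hsmul_le _ _ (Nat.le_succ _))
  have hxbar : D.redF x ∈ h51_Rd D E1 := ⟨x, hxL, hxO, rfl⟩
  have hxV : ∀ b ∈ V, D.redF x * b ∈ W := by
    intro b hb
    have h := h51_Rd_mul D hxbar hb
    have e : E1 + (p + 1) • E1 = (p + 1 + 1) • E1 := by
      rw [succ_nsmul E1 (p + 1), add_comm]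
    rw [e] at h
    exact h
  -- the key inclusion: `c' ∈ V`, `x̄ c' ∈ V` ⟹ `c' ∈ U`
  have hkey : ∀ b ∈ V, D.redF x * b ∈ V → b ∈ U := by
    intro b hb hxb
    have e1' : (p + 1) • E1 = ((p + 1) * c) • D0 := by rw [hE1def, mul_nsmul']
    have e0' : p • E1 = (p * c) • D0 := by rw [hE1def, mul_nsmul']
    have hlev1 : n0 ≤ (p + 1) * c := by nlinarith
    have hlev0 : n0 ≤ p * c := by nlinarith
    rw [hV, e1'] at hb hxb
    obtain ⟨hbP, hbn⟩ := (hnode _ hlev1 b).mp hb
    obtain ⟨hxbP, -⟩ := (hnode _ hlev1 (D.redF x * b)).mp hxb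
    have e2' : (p + 1) * c = p * c + c := by ring
    rw [e2'] at hbP hxbP
    have hbP0 : b ∈ P (p * c) := hPx _ b hbP hxbP
    rw [hU, e0']
    exact (hnode _ hlev0 b).mpr ⟨hbP0, hbn⟩
  -- the linear map `(b, c') ↦ b + x̄ c'` on `V × V`
  let φ : (V × V) →ₗ[k] Rb :=
    (V.subtype).coprod ((LinearMap.mulLeft k (D.redF x)).comp V.subtype)
  have hφ : ∀ y : V × V, φ y = (y.1 : Rb) + D.redF x * (y.2 : Rb) := by
    intro y
    simp [φ, LinearMap.coprod_apply]
  have hrange : LinearMap.range φ ≤ W := by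
    rintro _ ⟨y, rfl⟩
    rw [hφ]
    exact W.add_mem (hVW y.1.2) (hxV _ y.2.2)
  -- the kernel injects into `U`
  let ψ : LinearMap.ker φ →ₗ[k] U :=
    { toFun := fun y => ⟨((y : V × V).2 : Rb), by
        have hy : φ (y : V × V) = 0 := y.2
        rw [hφ] at hy
        have h1 : D.redF x * (((y : V × V).2 : V) : Rb) = -(((y : V × V).1 : V) : Rb) :=
          eq_neg_of_add_eq_zero_right hy
        exact hkey _ (y : V × V).2.2 (by rw [h1]; exact V.neg_mem (y : V × V).1.2)⟩
      map_add' := fun y z => rfl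
      map_smul' := fun r y => rfl }
  have hψinj : Function.Injective ψ := by
    intro y z hyz
    have h2' : ((ψ y : U) : Rb) = ((ψ z : U) : Rb) := congrArg Subtype.val hyz
    have h2 : (((y : V × V).2 : V) : Rb) = (((z : V × V).2 : V) : Rb) := h2'
    have hy : φ (y : V × V) = 0 := y.2
    have hz : φ (z : V × V) = 0 := z.2
    rw [hφ] at hy hz
    have h1 : (((y : V × V).1 : V) : Rb) = (((z : V × V).1 : V) : Rb) := by
      have hy' := eq_neg_of_add_eq_zero_left hy
      have hz' := eq_neg_of_add_eq_zero_left hz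
      rw [hy', hz', h2]
    apply Subtype.ext
    exact Prod.ext (Subtype.ext h1) (Subtype.ext h2)
  have hker : Module.finrank k (LinearMap.ker φ) ≤ Module.finrank k U :=
    LinearMap.finrank_le_finrank_of_injective hψinj
  have hrk : Module.finrank k (LinearMap.range φ) + Module.finrank k (LinearMap.ker φ) =
      Module.finrank k V + Module.finrank k V := by
    rw [LinearMap.finrank_range_add_finrank_ker, Module.finrank_prod]
  -- dimensions
  have hdU := hdim p (by omega)
  have hdV := hdim (p + 1) (by omega)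
  have hdW := hdim (p + 1 + 1) (by omega)
  rw [← hfU] at hdU
  rw [← hfV] at hdV
  rw [← hfW] at hdW
  have hge : Module.finrank k W ≤ Module.finrank k (LinearMap.range φ) := by
    have h1 : (Module.finrank k W : ℤ) ≤ Module.finrank k (LinearMap.range φ) := by
      have h2 : (Module.finrank k (LinearMap.range φ) : ℤ) +
          Module.finrank k (LinearMap.ker φ) =
          (Module.finrank k V : ℤ) + Module.finrank k V := by exact_mod_cast hrk
      have h3 : (Module.finrank k (LinearMap.ker φ) : ℤ) ≤ Module.finrank k U := by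
        exact_mod_cast hker
      push_cast at hdU hdV hdW
      linarith
    exact_mod_cast h1
  have heq : LinearMap.range φ = W :=
    Submodule.eq_of_le_of_finrank_le hrange hge
  intro a ha
  have ha' : a ∈ LinearMap.range φ := by rw [heq]; exact ha
  obtain ⟨y, rfl⟩ := ha'
  exact ⟨y.1, y.1.2, y.2, y.2.2, hφ y⟩

end Fermat.Agent.S34

end
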