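/-
S34 / R85 Step 4 (ZAR), abstract core (helper42).  Mathlib only.

Two "chart rings" `R₁ R₂` inside a common ring `R` over a base ring `A` with an ideal `𝔪`
all of whose elements are nilpotent modulo a fixed `π ∈ 𝔪` (rank one valuation ring).
If `R₁ ∩ R₂ = A` and the `π`-power torsion of `R / (R₁ + R₂)` has bounded exponent, then a pair
of idempotents of `R₁ / 𝔪 R₁` and `R₂ / 𝔪 R₂` which agree in `R / 𝔪 R` is a constant
(Zariski's connectedness theorem on two affine charts).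
-/
import Mathlib

set_option autoImplicit false

namespace Fermat.Agent.S34

/-- Elements of `𝔪 S` are nilpotent modulo `π ^ n`, if every element of `𝔪` has a power
divisible by `π`. -/
theorem h42_nil_of_mem_map {A S : Type*} [CommRing A] [CommRing S] [Algebra A S]
    (𝔪 : Ideal A) (π : A) (hnil : ∀ a ∈ 𝔪, ∃ n : ℕ, a ^ n ∈ Ideal.span {π}) (n : ℕ)
    (x : S) (hx : x ∈ 𝔪.map (algebraMap A S)) :
    ∃ N : ℕ, x ^ N ∈ Ideal.span {algebraMap A S π ^ n} := by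
  have hle : 𝔪.map (algebraMap A S) ≤ (Ideal.span {algebraMap A S π ^ n}).radical := by
    rw [Ideal.map_le_iff_le_comap]
    intro a ha
    obtain ⟨N, hN⟩ := hnil a ha
    obtain ⟨b, hb⟩ := Ideal.mem_span_singleton'.mp hN
    rw [Ideal.mem_comap]
    refine ⟨N * n, ?_⟩
    rw [Ideal.mem_span_singleton']
    refine ⟨algebraMap A S (b ^ n), ?_⟩
    rw [← map_pow, ← map_pow, ← map_mul, pow_mul, ← hb, mul_pow]
  exact hle hx

/-- Transport of membership in `𝔪 R₁` to `𝔪 R` along the inclusion of a subalgebra. -/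
theorem h42_coe_mem_map {A R : Type*} [CommRing A] [CommRing R] [Algebra A R]
    (𝔪 : Ideal A) (R₁ : Subalgebra A R) (x : R₁) (hx : x ∈ 𝔪.map (algebraMap A R₁)) :
    (x : R) ∈ 𝔪.map (algebraMap A R) := by
  have h := Ideal.mem_map_of_mem R₁.val.toRingHom hx
  rw [Ideal.map_map] at h
  have he : (R₁.val.toRingHom).comp (algebraMap A R₁) = algebraMap A R := RingHom.ext fun a => rfl
  rw [he] at h
  exact h

/-- An idempotent modulo `𝔪 S` lifts to an idempotent modulo `π ^ n`. -/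
theorem h42_lift_idem {A S : Type*} [CommRing A] [CommRing S] [Algebra A S]
    (𝔪 : Ideal A) (π : A) (hπ : π ∈ 𝔪) (hnil : ∀ a ∈ 𝔪, ∃ n : ℕ, a ^ n ∈ Ideal.span {π})
    (n : ℕ) (hn : 0 < n) (e : S) (he : e * e - e ∈ 𝔪.map (algebraMap A S)) :
    ∃ f : S, f * f - f ∈ Ideal.span {algebraMap A S π ^ n} ∧ f - e ∈ 𝔪.map (algebraMap A S) := by
  set I : Ideal S := 𝔪.map (algebraMap A S) with hI
  set J : Ideal S := Ideal.span {algebraMap A S π ^ n} with hJ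
  have hJI : J ≤ I := by
    rw [hJ, Ideal.span_le, Set.singleton_subset_iff]
    exact I.pow_mem_of_mem (Ideal.mem_map_of_mem _ hπ) n hn
  let φ : S ⧸ J →+* S ⧸ I := Ideal.Quotient.factor hJI
  have hφ : ∀ x : S, φ (Ideal.Quotient.mk J x) = Ideal.Quotient.mk I x := fun x => rfl
  have hker : ∀ x ∈ RingHom.ker φ, IsNilpotent x := by
    intro x hx
    obtain ⟨y, rfl⟩ := Ideal.Quotient.mk_surjective x
    rw [RingHom.mem_ker, hφ, Ideal.Quotient.eq_zero_iff_mem] at hx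
    obtain ⟨N, hN⟩ := h42_nil_of_mem_map 𝔪 π hnil n y hx
    refine ⟨N, ?_⟩
    rw [← map_pow, Ideal.Quotient.eq_zero_iff_mem]
    exact hN
  have hidem : IsIdempotentElem (Ideal.Quotient.mk I e) := by
    rw [IsIdempotentElem, ← map_mul, Ideal.Quotient.eq]
    exact he
  obtain ⟨e', he', he'e⟩ := exists_isIdempotentElem_eq_of_ker_isNilpotent φ hker
    (Ideal.Quotient.mk I e) ⟨Ideal.Quotient.mk J e, hφ e⟩ hidem
  obtain ⟨f, rfl⟩ := Ideal.Quotient.mk_surjective e'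
  refine ⟨f, ?_, ?_⟩
  · rw [IsIdempotentElem, ← map_mul, Ideal.Quotient.eq] at he'
    exact he'
  · rw [hφ, Ideal.Quotient.eq] at he'e
    exact he'e

/-- **ZAR core.** Idempotents of `R₁ / 𝔪 R₁` and `R₂ / 𝔪 R₂` which agree in `R / 𝔪 R` come
from a constant `a : A`, provided `R₁ ∩ R₂ = A` and the `π`-power torsion of `R / (R₁ + R₂)`
has bounded exponent `c`. -/
theorem h42_zar_core {A R : Type*} [CommRing A] [CommRing R] [Algebra A R]
    (𝔪 : Ideal A) (π : A) (hπ : π ∈ 𝔪)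
    (hnil : ∀ a ∈ 𝔪, ∃ n : ℕ, a ^ n ∈ Ideal.span {π})
    (R₁ R₂ : Subalgebra A R)
    (hcap : ∀ x : R, x ∈ R₁ → x ∈ R₂ → ∃ a : A, algebraMap A R a = x)
    (c : ℕ)
    (hBT : ∀ (n : ℕ) (x : R), (∃ g₁ ∈ R₁, ∃ g₂ ∈ R₂, algebraMap A R π ^ n * x = g₁ + g₂) →
      ∃ g₁ ∈ R₁, ∃ g₂ ∈ R₂, algebraMap A R π ^ c * x = g₁ + g₂)
    (e₁ : R₁) (e₂ : R₂)
    (h₁ : e₁ * e₁ - e₁ ∈ 𝔪.map (algebraMap A R₁))
    (h₂ : e₂ * e₂ - e₂ ∈ 𝔪.map (algebraMap A R₂))
    (h₁₂ : (e₁ : R) - (e₂ : R) ∈ 𝔪.map (algebraMap A R)) :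
    ∃ a : A, algebraMap A R₁ a - e₁ ∈ 𝔪.map (algebraMap A R₁) := by
  obtain ⟨f₁, hf₁, hf₁e⟩ := h42_lift_idem 𝔪 π hπ hnil (c + 1) (Nat.succ_pos c) e₁ h₁
  obtain ⟨f₂, hf₂, hf₂e⟩ := h42_lift_idem 𝔪 π hπ hnil (c + 1) (Nat.succ_pos c) e₂ h₂
  set J : Ideal R := Ideal.span {algebraMap A R π ^ (c + 1)} with hJ
  -- the lifts are idempotent modulo `π ^ (c+1)` in `R`
  have hcoe : ∀ (S : Subalgebra A R) (f : S),
      f * f - f ∈ Ideal.span {algebraMap A S π ^ (c + 1)} → (f : R) * (f : R) - (f : R) ∈ J := by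
    intro S f hf
    obtain ⟨b, hb⟩ := Ideal.mem_span_singleton'.mp hf
    rw [hJ, Ideal.mem_span_singleton']
    refine ⟨(b : R), ?_⟩
    have := congrArg (fun z : S => (z : R)) hb
    simpa using this
  have hf₁R := hcoe R₁ f₁ hf₁
  have hf₂R := hcoe R₂ f₂ hf₂
  have hi₁ : IsIdempotentElem (Ideal.Quotient.mk J (f₁ : R)) := by
    rw [IsIdempotentElem, ← map_mul, Ideal.Quotient.eq]; exact hf₁R
  have hi₂ : IsIdempotentElem (Ideal.Quotient.mk J (f₂ : R)) := by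
    rw [IsIdempotentElem, ← map_mul, Ideal.Quotient.eq]; exact hf₂R
  -- their difference lies in `𝔪 R`, hence is nilpotent modulo `J`
  have hdiff : (f₁ : R) - (f₂ : R) ∈ 𝔪.map (algebraMap A R) := by
    have e : (f₁ : R) - (f₂ : R) =
        ((f₁ - e₁ : R₁) : R) + ((e₁ : R) - (e₂ : R)) - ((f₂ - e₂ : R₂) : R) := by
      push_cast; ring
    rw [e]
    exact Ideal.sub_mem _ (Ideal.add_mem _ (h42_coe_mem_map 𝔪 R₁ _ hf₁e) h₁₂)
      (h42_coe_mem_map 𝔪 R₂ _ hf₂e)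
  have hnilp : IsNilpotent (Ideal.Quotient.mk J (f₁ : R) - Ideal.Quotient.mk J (f₂ : R)) := by
    obtain ⟨N, hN⟩ := h42_nil_of_mem_map 𝔪 π hnil (c + 1) _ hdiff
    refine ⟨N, ?_⟩
    rw [← map_sub, ← map_pow, Ideal.Quotient.eq_zero_iff_mem]
    exact hN
  have heq := eq_of_isNilpotent_sub_of_isIdempotentElem hi₁ hi₂ hnilp
  rw [Ideal.Quotient.eq, hJ, Ideal.mem_span_singleton'] at heq
  obtain ⟨x, hx⟩ := heq
  -- bounded torsion
  obtain ⟨g₁, hg₁, g₂, hg₂, hg⟩ := hBT (c + 1) x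
    ⟨(f₁ : R), f₁.2, -(f₂ : R), R₂.neg_mem f₂.2, by rw [mul_comm, hx]; ring⟩
  have hπ₁ : algebraMap A R π ∈ R₁ := R₁.algebraMap_mem π
  have hπ₂ : algebraMap A R π ∈ R₂ := R₂.algebraMap_mem π
  have hy : (f₁ : R) - algebraMap A R π * g₁ = (f₂ : R) + algebraMap A R π * g₂ := by
    have h3 : (f₁ : R) - (f₂ : R) = algebraMap A R π * (g₁ + g₂) := by
      rw [← hg, ← mul_assoc, ← pow_succ', ← hx, mul_comm]
    linear_combination h3
  obtain ⟨a, ha⟩ := hcap ((f₁ : R) - algebraMap A R π * g₁)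
    (R₁.sub_mem f₁.2 (R₁.mul_mem hπ₁ hg₁))
    (by rw [hy]; exact R₂.add_mem f₂.2 (R₂.mul_mem hπ₂ hg₂))
  refine ⟨a, ?_⟩
  have hcast : algebraMap A R₁ a = f₁ - algebraMap A R₁ π * ⟨g₁, hg₁⟩ := by
    apply Subtype.ext
    push_cast
    exact ha
  rw [hcast]
  have e : f₁ - algebraMap A R₁ π * ⟨g₁, hg₁⟩ - e₁ =
      (f₁ - e₁) - algebraMap A R₁ π * ⟨g₁, hg₁⟩ := by ring
  rw [e]
  exact Ideal.sub_mem _ hf₁e (Ideal.mul_mem_right _ _ (Ideal.mem_map_of_mem _ hπ))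

/-- **ZAR core, local form.** Over a local ring `A` with maximal ideal `𝔪` and `R₁ ≠ 𝔪 R₁`:
the idempotent is `0` or `1` modulo `𝔪 R₁`. -/
theorem h42_zar_core_local {A R : Type*} [CommRing A] [IsLocalRing A] [CommRing R] [Algebra A R]
    (π : A) (hπ : π ∈ IsLocalRing.maximalIdeal A)
    (hnil : ∀ a ∈ IsLocalRing.maximalIdeal A, ∃ n : ℕ, a ^ n ∈ Ideal.span {π})
    (R₁ R₂ : Subalgebra A R)
    (hcap : ∀ x : R, x ∈ R₁ → x ∈ R₂ → ∃ a : A, algebraMap A R a = x)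
    (c : ℕ)
    (hBT : ∀ (n : ℕ) (x : R), (∃ g₁ ∈ R₁, ∃ g₂ ∈ R₂, algebraMap A R π ^ n * x = g₁ + g₂) →
      ∃ g₁ ∈ R₁, ∃ g₂ ∈ R₂, algebraMap A R π ^ c * x = g₁ + g₂)
    (hne : (1 : R₁) ∉ (IsLocalRing.maximalIdeal A).map (algebraMap A R₁))
    (e₁ : R₁) (e₂ : R₂)
    (h₁ : e₁ * e₁ - e₁ ∈ (IsLocalRing.maximalIdeal A).map (algebraMap A R₁))
    (h₂ : e₂ * e₂ - e₂ ∈ (IsLocalRing.maximalIdeal A).map (algebraMap A R₂))
    (h₁₂ : (e₁ : R) - (e₂ : R) ∈ (IsLocalRing.maximalIdeal A).map (algebraMap A R)) :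
    e₁ ∈ (IsLocalRing.maximalIdeal A).map (algebraMap A R₁) ∨
      1 - e₁ ∈ (IsLocalRing.maximalIdeal A).map (algebraMap A R₁) := by
  set 𝔪 := IsLocalRing.maximalIdeal A with h𝔪
  set I : Ideal R₁ := 𝔪.map (algebraMap A R₁) with hI
  obtain ⟨a, ha⟩ := h42_zar_core 𝔪 π hπ hnil R₁ R₂ hcap c hBT e₁ e₂ h₁ h₂ h₁₂
  by_cases ha𝔪 : a ∈ 𝔪
  · left
    have e : e₁ = algebraMap A R₁ a - (algebraMap A R₁ a - e₁) := by ring
    rw [e]
    exact Ideal.sub_mem _ (Ideal.mem_map_of_mem _ ha𝔪) ha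
  · by_cases ha1 : 1 - a ∈ 𝔪
    · right
      have e : 1 - e₁ = algebraMap A R₁ (1 - a) + (algebraMap A R₁ a - e₁) := by
        rw [map_sub, map_one]; ring
      rw [e]
      exact Ideal.add_mem _ (Ideal.mem_map_of_mem _ ha1) ha
    · exfalso
      have hu : IsUnit (a * (1 - a)) := by
        have h1 : IsUnit a := by
          by_contra h; exact ha𝔪 ((IsLocalRing.mem_maximalIdeal a).mpr h)
        have h2 : IsUnit (1 - a) := by
          by_contra h; exact ha1 ((IsLocalRing.mem_maximalIdeal _).mpr h)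
        exact h1.mul h2
      -- `a (1 - a) ∈ I`
      have hmem : algebraMap A R₁ (a * (1 - a)) ∈ I := by
        have e : algebraMap A R₁ (a * (1 - a)) =
            (algebraMap A R₁ a - e₁) * (1 - algebraMap A R₁ a - e₁) - (e₁ * e₁ - e₁) := by
          rw [map_mul, map_sub, map_one]; ring
        rw [e]
        exact Ideal.sub_mem _ (Ideal.mul_mem_right _ _ ha) h₁
      obtain ⟨u, hu'⟩ := hu
      have : (1 : R₁) = algebraMap A R₁ (↑u⁻¹ : A) * algebraMap A R₁ (a * (1 - a)) := by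
        rw [← map_mul, ← hu', Units.inv_mul, map_one]
      exact hne (this ▸ Ideal.mul_mem_left _ _ hmem)

end Fermat.Agent.S34
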