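import Mathlib
import Fermat.Prelude.Def_ModularCurve_LaurentCoeff

/-!
# S34 (route R63), step [P5] (i), (ii): roots of power series and polar parts

Mathlib only (plus the coefficient map `ModularCurve.coeffMap` of the prelude).

* `h63_exists_root`, `h63_root_unique` : `m`-th roots of `1 + nilpotent` exist and are unique
  when `m` is invertible; `h63_mem_of_pow_mem` : a root of an element of a subring `P ∋ 1/m`
  lies in `P`.
* `h63_CoeffDvd c x` (all coefficients of the Laurent series `x` divisible by `c`),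
  `h63_PoleLe n x` (no coefficients below `-n`) and their calculus.
* `h63_polar_dvd` : if `g ^ m ≡ u` mod `a` with `u` a power series, `u ≡ g ≡ 1` mod `b`,
  `a ∣ b ^ L`, then all polar coefficients of `g` are divisible by `a`.
* `h63_step_dvd` : if moreover `g ^ m = u (1 + a h)` exactly (`A` a domain, `u` a unit power
  series, `g` of pole order `≤ n₀`), then the coefficients of `h g` of order `< -n₀` are
  divisible by `a`: the Newton correction `t = h g / m` has no excess poles modulo `a`.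
-/

set_option autoImplicit false

open HahnSeries

namespace Fermat.Agent.S34

/-- An `m`-th root of `1 + y` for `y` nilpotent and `m` invertible. -/
theorem h63_exists_root {P : Type*} [CommRing P] (m : ℕ) (hm : IsUnit (m : P)) (y : P)
    (hy : IsNilpotent y) : ∃ r : P, r ^ m = 1 + y ∧ y ∣ r - 1 := by
  obtain ⟨n, hn⟩ := hy
  have key : ∀ j : ℕ, ∃ r e : P, r ^ m = 1 + y + y ^ (j + 1) * e ∧ y ∣ r - 1 := by
    intro j
    induction j with
    | zero => exact ⟨1, -1, by ring, by simp⟩
    | succ j ih =>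
      obtain ⟨r, e, hr, hdiv⟩ := ih
      have hru : IsUnit r := by
        obtain ⟨s, hs⟩ := hdiv
        have h1 : r = 1 + y * s := by rw [← hs]; ring
        rw [h1]
        exact IsNilpotent.isUnit_one_add ((Commute.all y s).isNilpotent_mul_right ⟨n, hn⟩)
      obtain ⟨d, hd⟩ := (hm.mul (hru.pow (m - 1))).exists_right_inv
      obtain ⟨k, hk⟩ := Polynomial.powAddExpansion r (-(y ^ (j + 1) * e * d)) m
      refine ⟨r + -(y ^ (j + 1) * e * d), k * (y ^ j * e ^ 2 * d ^ 2), ?_, ?_⟩
      · rw [hk, hr]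
        have h2 : (m : P) * r ^ (m - 1) * (-(y ^ (j + 1) * e * d)) = -(y ^ (j + 1) * e) := by
          linear_combination (-(y ^ (j + 1) * e)) * hd
        rw [h2]
        ring
      · obtain ⟨s, hs⟩ := hdiv
        refine ⟨s - y ^ j * e * d, ?_⟩
        have h3 : r + -(y ^ (j + 1) * e * d) - 1 = (r - 1) - y ^ (j + 1) * e * d := by ring
        rw [h3, hs]
        ring
  obtain ⟨r, e, hr, hdiv⟩ := key n
  refine ⟨r, ?_, hdiv⟩
  rw [hr, pow_succ, hn, zero_mul, zero_mul, add_zero]

/-- Uniqueness of `m`-th roots congruent to `1` modulo the nilradical. -/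
theorem h63_root_unique {R : Type*} [CommRing R] (m : ℕ) (hm : IsUnit (m : R)) (x y : R)
    (hx : IsNilpotent (x - 1)) (hy : IsNilpotent (y - 1)) (h : x ^ m = y ^ m) : x = y := by
  have h1 := (Commute.all x y).geom_sum₂_mul m
  rw [h, sub_self] at h1
  have hnil : IsNilpotent ((∑ i ∈ Finset.range m, x ^ i * y ^ (m - 1 - i)) - (m : R)) := by
    rw [← mem_nilradical]
    have hxN : x - 1 ∈ nilradical R := mem_nilradical.2 hx
    have hyN : y - 1 ∈ nilradical R := mem_nilradical.2 hy
    rw [← Ideal.Quotient.eq_zero_iff_mem] at hxN hyN ⊢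
    rw [map_sub, map_one, sub_eq_zero] at hxN hyN
    rw [map_sub, map_sum, map_natCast]
    simp only [map_mul, map_pow, hxN, hyN, one_pow, mul_one, Finset.sum_const, Finset.card_range,
      nsmul_eq_mul, sub_self]
  have hs : IsUnit (∑ i ∈ Finset.range m, x ^ i * y ^ (m - 1 - i)) := by
    have h2 : (∑ i ∈ Finset.range m, x ^ i * y ^ (m - 1 - i))
        = (m : R) + ((∑ i ∈ Finset.range m, x ^ i * y ^ (m - 1 - i)) - (m : R)) := by ring
    rw [h2]
    exact hnil.isUnit_add_left_of_commute hm (Commute.all _ _)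
  exact sub_eq_zero.1 (hs.mul_right_eq_zero.1 h1)

/-- If `g ^ m = u` with `u` in a subring `P` containing `1 / m`, and `u - 1`, `g - 1` are
nilpotent, then `g ∈ P`. -/
theorem h63_mem_of_pow_mem {R : Type*} [CommRing R] (P : Subring R) (m : ℕ)
    (hm : ∃ w ∈ P, (m : R) * w = 1) (u g : R) (hu : u ∈ P)
    (hun : IsNilpotent (u - 1)) (hgn : IsNilpotent (g - 1)) (h : g ^ m = u) : g ∈ P := by
  obtain ⟨w, hwP, hw⟩ := hm
  have hmP : IsUnit ((m : ℕ) : P) := by
    refine IsUnit.of_mul_eq_one (⟨w, hwP⟩ : P) ?_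
    apply Subtype.ext
    push_cast
    exact hw
  have hyP : IsNilpotent ((⟨u, hu⟩ : P) - 1) := by
    obtain ⟨n, hn⟩ := hun
    refine ⟨n, Subtype.ext ?_⟩
    push_cast
    exact hn
  obtain ⟨r, hr, hdiv⟩ := h63_exists_root m hmP _ hyP
  have hrm : (r : R) ^ m = u := by
    have h1 := congrArg (Subtype.val) hr
    push_cast at h1
    rw [h1]
    ring
  have hrn : IsNilpotent ((r : R) - 1) := by
    obtain ⟨s, hs⟩ := hdiv
    have h1 := congrArg (Subtype.val) hs
    push_cast at h1
    rw [h1]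
    exact (Commute.all _ _).isNilpotent_mul_right hun
  have hmR : IsUnit (m : R) := IsUnit.of_mul_eq_one w hw
  have h2 := h63_root_unique m hmR g r hgn hrn (h.trans hrm.symm)
  rw [h2]
  exact r.2

section Laurent

variable {A : Type*} [CommRing A]

/-- All coefficients of `x` are divisible by `c`. -/
def h63_CoeffDvd (c : A) (x : LaurentSeries A) : Prop := ∀ i : ℤ, c ∣ x.coeff i

/-- `x` has pole order at most `n`: no coefficients below `-n`. -/
def h63_PoleLe (n : ℕ) (x : LaurentSeries A) : Prop := ∀ i : ℤ, i < -(n : ℤ) → x.coeff i = 0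

theorem h63_coeffDvd_mul {c d : A} {x y : LaurentSeries A} (hx : h63_CoeffDvd c x)
    (hy : h63_CoeffDvd d y) : h63_CoeffDvd (c * d) (x * y) := by
  intro i
  rw [coeff_mul]
  exact Finset.dvd_sum fun ij _ => mul_dvd_mul (hx _) (hy _)

theorem h63_coeffDvd_one (x : LaurentSeries A) : h63_CoeffDvd (1 : A) x := fun _ => one_dvd _

theorem h63_coeffDvd_pow {c : A} {x : LaurentSeries A} (hx : h63_CoeffDvd c x) (n : ℕ) :
    h63_CoeffDvd (c ^ n) (x ^ n) := by
  induction n with
  | zero =>
    rw [pow_zero]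
    exact h63_coeffDvd_one _
  | succ n ih =>
    rw [pow_succ, pow_succ]
    exact h63_coeffDvd_mul ih hx

theorem h63_coeffDvd_of_dvd {c d : A} (h : c ∣ d) {x : LaurentSeries A} (hx : h63_CoeffDvd d x) :
    h63_CoeffDvd c x := fun i => h.trans (hx i)

theorem h63_coeffDvd_add {c : A} {x y : LaurentSeries A} (hx : h63_CoeffDvd c x)
    (hy : h63_CoeffDvd c y) : h63_CoeffDvd c (x + y) := by
  intro i
  rw [coeff_add]
  exact dvd_add (hx i) (hy i)

theorem h63_coeffDvd_mul_left {c : A} {x : LaurentSeries A} (y : LaurentSeries A)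
    (hx : h63_CoeffDvd c x) : h63_CoeffDvd c (y * x) := by
  have h := h63_coeffDvd_mul (h63_coeffDvd_one y) hx
  rwa [one_mul] at h

theorem h63_coeffDvd_C_mul (a : A) (y : LaurentSeries A) : h63_CoeffDvd a (C a * y) := by
  intro i
  rw [C_mul_eq_smul, coeff_smul, smul_eq_mul]
  exact dvd_mul_right _ _

theorem h63_coeff_C_mul (a : A) (y : LaurentSeries A) (i : ℤ) :
    (C a * y).coeff i = a * y.coeff i := by
  rw [C_mul_eq_smul, coeff_smul, smul_eq_mul]

theorem h63_poleLe_mul {n n' : ℕ} {x y : LaurentSeries A} (hx : h63_PoleLe n x)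
    (hy : h63_PoleLe n' y) : h63_PoleLe (n + n') (x * y) := by
  intro i hi
  rw [coeff_mul]
  refine Finset.sum_eq_zero fun ij hij => ?_
  have h3 := (Finset.mem_antidiagonal.mp hij).2.2
  by_cases h1 : ij.1 < -(n : ℤ)
  · rw [hx _ h1, zero_mul]
  · have h2 : ij.2 < -(n' : ℤ) := by
      push_cast at hi
      omega
    rw [hy _ h2, mul_zero]

theorem h63_poleLe_mono {n n' : ℕ} (h : n ≤ n') {x : LaurentSeries A} (hx : h63_PoleLe n x) :
    h63_PoleLe n' x := fun i hi => hx i (by
  have : (n : ℤ) ≤ n' := by exact_mod_cast h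
  omega)

theorem h63_poleLe_C (a : A) : h63_PoleLe 0 (C a : LaurentSeries A) := by
  intro i hi
  rw [C_apply, coeff_single, if_neg]
  simp only [Nat.cast_zero, neg_zero] at hi
  exact hi.ne

theorem h63_poleLe_one : h63_PoleLe 0 (1 : LaurentSeries A) := by
  have h := h63_poleLe_C (1 : A)
  rwa [map_one] at h

theorem h63_poleLe_natCast (m : ℕ) : h63_PoleLe 0 ((m : ℕ) : LaurentSeries A) := by
  have h := h63_poleLe_C ((m : ℕ) : A)
  rwa [map_natCast] at h

theorem h63_poleLe_zero (n : ℕ) : h63_PoleLe n (0 : LaurentSeries A) := fun _ _ => rfl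

theorem h63_poleLe_add {n : ℕ} {x y : LaurentSeries A} (hx : h63_PoleLe n x)
    (hy : h63_PoleLe n y) : h63_PoleLe n (x + y) := by
  intro i hi
  rw [coeff_add, hx i hi, hy i hi, add_zero]

theorem h63_poleLe_neg {n : ℕ} {x : LaurentSeries A} (hx : h63_PoleLe n x) :
    h63_PoleLe n (-x) := by
  intro i hi
  rw [coeff_neg, hx i hi, neg_zero]

theorem h63_poleLe_sub {n : ℕ} {x y : LaurentSeries A} (hx : h63_PoleLe n x)
    (hy : h63_PoleLe n y) : h63_PoleLe n (x - y) := by
  rw [sub_eq_add_neg]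
  exact h63_poleLe_add hx (h63_poleLe_neg hy)

theorem h63_poleLe_mul0 {x y : LaurentSeries A} (hx : h63_PoleLe 0 x) (hy : h63_PoleLe 0 y) :
    h63_PoleLe 0 (x * y) := h63_poleLe_mul hx hy

theorem h63_poleLe_pow {x : LaurentSeries A} (hx : h63_PoleLe 0 x) (n : ℕ) :
    h63_PoleLe 0 (x ^ n) := by
  induction n with
  | zero =>
    rw [pow_zero]
    exact h63_poleLe_one
  | succ n ih =>
    rw [pow_succ]
    exact h63_poleLe_mul0 ih hx

/-- The subring of power series inside the Laurent series. -/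
def h63_psSubring (B : Type*) [CommRing B] : Subring (LaurentSeries B) where
  carrier := {x | h63_PoleLe 0 x}
  mul_mem' := fun hx hy => h63_poleLe_mul0 hx hy
  one_mem' := h63_poleLe_one
  add_mem' := fun hx hy => h63_poleLe_add hx hy
  zero_mem' := h63_poleLe_zero 0
  neg_mem' := fun hx => h63_poleLe_neg hx

theorem h63_mem_psSubring {B : Type*} [CommRing B] (x : LaurentSeries B) :
    x ∈ h63_psSubring B ↔ h63_PoleLe 0 x := Iff.rfl

/-- **(i) The polar coefficients of an `m`-th root of a power series `u ≡ 1` are small.**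
If `g ^ m ≡ u` modulo `a`, with `u` a power series, `u ≡ 1` and `g ≡ 1` modulo `b`, and `a ∣ b ^ L`,
then all polar coefficients of `g` are divisible by `a`. -/
theorem h63_polar_dvd (m : ℕ) (hm : IsUnit (m : A)) (a b : A) (L : ℕ) (hab : a ∣ b ^ L)
    (u g : LaurentSeries A) (hu0 : h63_PoleLe 0 u)
    (hub : h63_CoeffDvd b (u - 1)) (hgb : h63_CoeffDvd b (g - 1))
    (hgm : h63_CoeffDvd a (g ^ m - u)) :
    ∀ i : ℤ, i < 0 → a ∣ g.coeff i := by
  let I : Ideal A := Ideal.span {a}
  let π : LaurentSeries A →+* LaurentSeries (A ⧸ I) :=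
    ModularCurve.coeffMap (Ideal.Quotient.mk I)
  have hπc : ∀ (x : LaurentSeries A) (i : ℤ), (π x).coeff i = Ideal.Quotient.mk I (x.coeff i) :=
    fun x i => rfl
  have hπ0 : ∀ x : LaurentSeries A, h63_CoeffDvd a x → π x = 0 := by
    intro x hx
    ext i
    rw [hπc, coeff_zero, Ideal.Quotient.eq_zero_iff_mem, Ideal.mem_span_singleton]
    exact hx i
  have hun : IsNilpotent (π u - 1) := by
    refine ⟨L, ?_⟩
    rw [← map_one π, ← map_sub, ← map_pow]
    exact hπ0 _ (h63_coeffDvd_of_dvd hab (h63_coeffDvd_pow hub L))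
  have hgn : IsNilpotent (π g - 1) := by
    refine ⟨L, ?_⟩
    rw [← map_one π, ← map_sub, ← map_pow]
    exact hπ0 _ (h63_coeffDvd_of_dvd hab (h63_coeffDvd_pow hgb L))
  have hgm' : π g ^ m = π u := by
    rw [← map_pow, ← sub_eq_zero, ← map_sub]
    exact hπ0 _ hgm
  have huP : π u ∈ h63_psSubring (A ⧸ I) := by
    intro i hi
    rw [hπc, hu0 i hi, map_zero]
  obtain ⟨w, hw⟩ := hm.exists_right_inv
  have hmem := h63_mem_of_pow_mem (h63_psSubring (A ⧸ I)) m
    ⟨C (Ideal.Quotient.mk I w), h63_poleLe_C _, by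
      rw [← map_natCast (C : (A ⧸ I) →+* LaurentSeries (A ⧸ I)), ← map_mul,
        ← map_natCast (Ideal.Quotient.mk I), ← map_mul, hw, map_one, map_one]⟩
    (π u) (π g) huP hun hgn hgm'
  intro i hi
  have h1 := hmem i (by simpa using hi)
  rw [hπc, Ideal.Quotient.eq_zero_iff_mem, Ideal.mem_span_singleton] at h1
  exact h1

end Laurent

section Step

variable {A : Type*} [CommRing A]

theorem h63_coeff_sum_single (s : Finset ℤ) (c : ℤ → A) (j : ℤ) :
    (∑ i ∈ s, (single i (c i) : LaurentSeries A)).coeff j = if j ∈ s then c j else 0 := by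
  rw [coeff_sum]
  simp only [coeff_single]
  split_ifs with hj
  · rw [Finset.sum_eq_single j]
    · rw [if_pos rfl]
    · intro i _ hij
      rw [if_neg (Ne.symm hij)]
    · intro h
      exact absurd hj h
  · refine Finset.sum_eq_zero fun i hi => ?_
    rw [if_neg]
    rintro rfl
    exact hj hi

/-- **(ii) The Newton correction has small excess polar part.**  `A` a domain, `a ≠ 0`, `m` a
unit, `u` a power series unit with `u ≡ 1` mod `b`, `g ≡ 1` mod `b`, `a ∣ b ^ L`, `g` of pole
order `≤ n₀` and `g ^ m = u (1 + a h)`.  Then the polar coefficients of `g` are divisible by `a`,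
and the coefficients of `h g` of order `< -n₀` are divisible by `a`. -/
theorem h63_step_dvd [IsDomain A] (m : ℕ) (hm : IsUnit (m : A)) (a b : A) (ha : a ≠ 0) (L : ℕ)
    (hab : a ∣ b ^ L) (u u' g h : LaurentSeries A) (hu0 : h63_PoleLe 0 u)
    (hu'0 : h63_PoleLe 0 u') (huu' : u * u' = 1)
    (hub : h63_CoeffDvd b (u - 1)) (hgb : h63_CoeffDvd b (g - 1))
    (hgm : g ^ m = u * (1 + C a * h)) (n₀ : ℕ) (hg : h63_PoleLe n₀ g) :
    (∀ i : ℤ, i < 0 → a ∣ g.coeff i) ∧ ∀ i : ℤ, i < -(n₀ : ℤ) → a ∣ (h * g).coeff i := by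
  classical
  have hpol : ∀ i : ℤ, i < 0 → a ∣ g.coeff i := by
    refine h63_polar_dvd m hm a b L hab u g hu0 hub hgb ?_
    have h1 : g ^ m - u = C a * (u * h) := by
      rw [hgm]
      ring
    rw [h1]
    exact h63_coeffDvd_C_mul _ _
  refine ⟨hpol, ?_⟩
  -- the polar part of `g`, divided by `a`
  let c : ℤ → A := fun i => if hi : i < 0 then Classical.choose (hpol i hi) else 0
  have hc : ∀ i : ℤ, i < 0 → g.coeff i = a * c i := by
    intro i hi
    simp only [c, dif_pos hi]
    exact Classical.choose_spec (hpol i hi)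
  let w : LaurentSeries A := ∑ i ∈ Finset.Ico (-(n₀ : ℤ)) 0, single i (c i)
  have hwc : ∀ j : ℤ, w.coeff j = if j ∈ Finset.Ico (-(n₀ : ℤ)) 0 then c j else 0 :=
    fun j => h63_coeff_sum_single _ c j
  have hw : h63_PoleLe n₀ w := by
    intro j hj
    rw [hwc, if_neg]
    rw [Finset.mem_Ico]
    omega
  let gp : LaurentSeries A := g - C a * w
  have hgp : h63_PoleLe 0 gp := by
    intro j hj
    simp only [Nat.cast_zero, neg_zero] at hj
    show (g - C a * w).coeff j = 0
    rw [coeff_sub, h63_coeff_C_mul, hwc]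
    by_cases h1 : j ∈ Finset.Ico (-(n₀ : ℤ)) 0
    · rw [if_pos h1, hc j hj, sub_self]
    · rw [if_neg h1, mul_zero, sub_zero]
      refine hg j ?_
      rw [Finset.mem_Ico] at h1
      omega
  have hggp : g = gp + C a * w := by
    show g = g - C a * w + C a * w
    ring
  obtain ⟨k, hk⟩ := Polynomial.powAddExpansion gp (C a * w) m
  -- the power series `p' = (gp ^ m - u) / a`
  let p' : LaurentSeries A := u * h - (m : LaurentSeries A) * gp ^ (m - 1) * w - C a * (k * w ^ 2)
  have hp' : C a * p' = gp ^ m - u := by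
    have h1 : (gp + C a * w) ^ m = u * (1 + C a * h) := by rw [← hggp, hgm]
    rw [hk] at h1
    show C a * (u * h - (m : LaurentSeries A) * gp ^ (m - 1) * w - C a * (k * w ^ 2)) = gp ^ m - u
    linear_combination (-1 : LaurentSeries A) * h1
  have hp'0 : h63_PoleLe 0 p' := by
    intro j hj
    have h1 : (C a * p').coeff j = 0 := by
      rw [hp']
      exact h63_poleLe_sub (h63_poleLe_pow hgp m) hu0 j hj
    rw [h63_coeff_C_mul] at h1
    exact (mul_eq_zero.1 h1).resolve_left ha
  -- `h` in terms of `p'`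
  have hh : h = u' * (p' + (m : LaurentSeries A) * gp ^ (m - 1) * w + C a * (k * w ^ 2)) := by
    have h1 : p' + (m : LaurentSeries A) * gp ^ (m - 1) * w + C a * (k * w ^ 2) = u * h := by
      show u * h - (m : LaurentSeries A) * gp ^ (m - 1) * w - C a * (k * w ^ 2)
        + (m : LaurentSeries A) * gp ^ (m - 1) * w + C a * (k * w ^ 2) = u * h
      ring
    rw [h1, ← mul_assoc, mul_comm u' u, huu', one_mul]
  have hX : h63_PoleLe n₀ ((m : LaurentSeries A) * gp ^ (m - 1) * w) := by
    have h1 := h63_poleLe_mul (h63_poleLe_mul0 (h63_poleLe_natCast (A := A) m)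
      (h63_poleLe_pow hgp (m - 1))) hw
    rwa [zero_add] at h1
  have hmain : h63_PoleLe n₀ (u' * (p' + (m : LaurentSeries A) * gp ^ (m - 1) * w) * gp) := by
    have h1 : h63_PoleLe n₀ (p' + (m : LaurentSeries A) * gp ^ (m - 1) * w) :=
      h63_poleLe_add (h63_poleLe_mono (Nat.zero_le _) hp'0) hX
    have h2 := h63_poleLe_mul (h63_poleLe_mul hu'0 h1) hgp
    rwa [zero_add, add_zero] at h2
  have hsplit : h * g = u' * (p' + (m : LaurentSeries A) * gp ^ (m - 1) * w) * gp
      + C a * (u' * (p' + (m : LaurentSeries A) * gp ^ (m - 1) * w) * w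
        + u' * (k * w ^ 2) * g) := by
    have h1 : h * g = u' * (p' + (m : LaurentSeries A) * gp ^ (m - 1) * w + C a * (k * w ^ 2))
        * g := by rw [← hh]
    rw [h1]
    have h2 : u' * (p' + (m : LaurentSeries A) * gp ^ (m - 1) * w) * gp
        = u' * (p' + (m : LaurentSeries A) * gp ^ (m - 1) * w) * (g - C a * w) := rfl
    rw [h2]
    ring
  intro i hi
  rw [hsplit, coeff_add, hmain i hi, zero_add]
  exact h63_coeffDvd_C_mul _ _ i

end Step

end Fermat.Agent.S34
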