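import Mathlib
import Fermat.Agent.S34.h63_RootPolar
import Fermat.Agent.S34.h42_ZarCore
import Fermat.Agent.S34.h98_BoundedTorsion

/-!
# S34 (route R63), step [P5'] : two-chart patching of an `m`-th root

Abstract core (Mathlib + `h63_RootPolar` + `h42_ZarCore` + `h98_BoundedTorsion`).

`A` a ring with an ideal `𝔪` all of whose elements are nilpotent modulo `q ∈ 𝔪` (a rank one
valuation ring), `m` invertible in `A`, `F` a commutative `A`-algebra (the function field).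

Two "chart rings" `P₁ P₂ ≤ P` (subalgebras of `F`) and "chart modules" `M₁ M₂ ≤ M`
(`A`-submodules of `F`, `Pᵢ Mᵢ ⊂ Mᵢ`, `P M ⊂ M`): in the application
`Pᵢ = ⋃ₙ L^int(n Eᵢ)`, `Mᵢ = ⋃ₙ L^int(n Eᵢ + D)`, `P = ⋃ L^int(n E₁ + n E₂)`, … with
`div u = m D`.  Generators `γᵢ ∈ Mᵢ` with `γᵢ ^ m = u vᵢ`, `vᵢ ≡ 1` modulo `𝔪 Pᵢ`, which agree
modulo `𝔪 M` (trivial gluing), and a dual generator `γ₂' ∈ M₂'` (`M M₂' ⊂ P`, `u M₂'^m ⊂ P`,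
`γ₂ γ₂' ≡ 1`).  If the `q`-power torsion of `M / (M₁ + M₂)` has bounded exponent, then there is
`e ∈ M₁ ∩ M₂` with `e ≡ γ₁` modulo `𝔪 M₁`: the two local generators patch to a global section.

* `h63_unit_mod`, `h63_local_root`, `h63_root_congr` : units, `m`-th roots and their uniqueness
  modulo `q ^ N` in an `A`-algebra, for elements `≡ 1` modulo `𝔪`;
* `h63_patch` : the patching theorem with the bounded torsion hypothesis `hBT`;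
* `h63_patch_fg` : the same over a valuation ring with `M ≤ M₁ + M₂ + Λ₀`, `Λ₀` finitely
  generated (via `h98_bt_module`).
-/

set_option autoImplicit false

namespace Fermat.Agent.S34

section Local

variable {A S : Type*} [CommRing A] [CommRing S] [Algebra A S]

/-- An element `≡ 1` modulo `𝔪 S` is a unit modulo `q ^ N`. -/
theorem h63_unit_mod (𝔪 : Ideal A) (q : A)
    (hnil : ∀ a ∈ 𝔪, ∃ n : ℕ, a ^ n ∈ Ideal.span {q}) (N : ℕ)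
    (x : S) (hx : x - 1 ∈ 𝔪.map (algebraMap A S)) :
    ∃ w : S, x * w - 1 ∈ Ideal.span {algebraMap A S q ^ N} := by
  set J : Ideal S := Ideal.span {algebraMap A S q ^ N} with hJ
  obtain ⟨n, hn⟩ := h42_nil_of_mem_map 𝔪 q hnil N (x - 1) hx
  have hnilp : IsNilpotent (Ideal.Quotient.mk J (x - 1)) :=
    ⟨n, by rw [← map_pow, Ideal.Quotient.eq_zero_iff_mem]; exact hn⟩
  have hu : IsUnit (Ideal.Quotient.mk J x) := by
    have h1 : Ideal.Quotient.mk J x = 1 + Ideal.Quotient.mk J (x - 1) := by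
      rw [map_sub, map_one]; ring
    rw [h1]
    exact IsNilpotent.isUnit_one_add hnilp
  obtain ⟨w', hw'⟩ := hu.exists_right_inv
  obtain ⟨w, rfl⟩ := Ideal.Quotient.mk_surjective w'
  refine ⟨w, ?_⟩
  rw [← Ideal.Quotient.eq_zero_iff_mem, map_sub, map_mul, map_one, hw', sub_self]

/-- `m` is a unit in every quotient of an `A`-algebra when it is a unit of `A`. -/
theorem h63_isUnit_natCast_quot (m : ℕ) (minv : A) (hminv : (m : A) * minv = 1) (J : Ideal S) :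
    IsUnit ((m : ℕ) : S ⧸ J) := by
  refine IsUnit.of_mul_eq_one (Ideal.Quotient.mk J (algebraMap A S minv)) ?_
  rw [← map_natCast (Ideal.Quotient.mk J), ← map_natCast (algebraMap A S), ← map_mul, ← map_mul,
    hminv, map_one, map_one]

/-- **Local `m`-th root.**  If `v ≡ 1` modulo `𝔪 S` then `v w ^ m ≡ 1` modulo `q ^ N` for some
`w ≡ 1` modulo `𝔪 S`. -/
theorem h63_local_root (𝔪 : Ideal A) (q : A) (hq : q ∈ 𝔪)
    (hnil : ∀ a ∈ 𝔪, ∃ n : ℕ, a ^ n ∈ Ideal.span {q})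
    (m : ℕ) (minv : A) (hminv : (m : A) * minv = 1) (N : ℕ) (hN : 0 < N)
    (v : S) (hv : v - 1 ∈ 𝔪.map (algebraMap A S)) :
    ∃ w : S, v * w ^ m - 1 ∈ Ideal.span {algebraMap A S q ^ N} ∧
      w - 1 ∈ 𝔪.map (algebraMap A S) := by
  set I : Ideal S := 𝔪.map (algebraMap A S) with hI
  set J : Ideal S := Ideal.span {algebraMap A S q ^ N} with hJ
  have hJI : J ≤ I := by
    rw [hJ, Ideal.span_le, Set.singleton_subset_iff]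
    exact I.pow_mem_of_mem (Ideal.mem_map_of_mem _ hq) N hN
  obtain ⟨n, hn⟩ := h42_nil_of_mem_map 𝔪 q hnil N (v - 1) hv
  have hnilp : IsNilpotent (Ideal.Quotient.mk J (v - 1)) :=
    ⟨n, by rw [← map_pow, Ideal.Quotient.eq_zero_iff_mem]; exact hn⟩
  have hmS : IsUnit ((m : ℕ) : S ⧸ J) := h63_isUnit_natCast_quot m minv hminv J
  obtain ⟨ρ, hρ, hdiv⟩ := h63_exists_root m hmS _ hnilp
  obtain ⟨s', hs'⟩ := hdiv
  obtain ⟨s, rfl⟩ := Ideal.Quotient.mk_surjective s'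
  have hρeq : ρ = Ideal.Quotient.mk J (1 + (v - 1) * s) := by
    rw [map_add, map_one, map_mul, ← hs']; ring
  have hρ₀ : (1 + (v - 1) * s) - 1 ∈ I := by
    have h1 : (1 + (v - 1) * s) - 1 = (v - 1) * s := by ring
    rw [h1]
    exact I.mul_mem_right s hv
  obtain ⟨w, hw⟩ := h63_unit_mod 𝔪 q hnil N (1 + (v - 1) * s) hρ₀
  refine ⟨w, ?_, ?_⟩
  · have h1 : Ideal.Quotient.mk J (1 + (v - 1) * s) * Ideal.Quotient.mk J w = 1 := by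
      have h0 := hw
      rw [← Ideal.Quotient.eq_zero_iff_mem, map_sub, map_mul, map_one, sub_eq_zero] at h0
      exact h0
    have h2 : Ideal.Quotient.mk J v = Ideal.Quotient.mk J (1 + (v - 1) * s) ^ m := by
      rw [← hρeq, hρ, map_sub, map_one]; ring
    rw [← Ideal.Quotient.eq_zero_iff_mem, map_sub, map_mul, map_pow, map_one, h2, ← mul_pow, h1,
      one_pow, sub_self]
  · have h1 : w - 1 = ((1 + (v - 1) * s) * w - 1) - (v - 1) * (s * w) := by ring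
    rw [h1]
    exact I.sub_mem (hJI hw) (I.mul_mem_right _ hv)

/-- **Uniqueness of `m`-th roots modulo `q ^ N`** among the elements `≡ 1` modulo `𝔪 S`. -/
theorem h63_root_congr (𝔪 : Ideal A) (q : A)
    (hnil : ∀ a ∈ 𝔪, ∃ n : ℕ, a ^ n ∈ Ideal.span {q})
    (m : ℕ) (minv : A) (hminv : (m : A) * minv = 1) (N : ℕ)
    (r s : S) (hr : r - 1 ∈ 𝔪.map (algebraMap A S)) (hs : s - 1 ∈ 𝔪.map (algebraMap A S))
    (h : r ^ m - s ^ m ∈ Ideal.span {algebraMap A S q ^ N}) :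
    r - s ∈ Ideal.span {algebraMap A S q ^ N} := by
  set J : Ideal S := Ideal.span {algebraMap A S q ^ N} with hJ
  have hmS : IsUnit ((m : ℕ) : S ⧸ J) := h63_isUnit_natCast_quot m minv hminv J
  have nilp : ∀ x : S, x - 1 ∈ 𝔪.map (algebraMap A S) →
      IsNilpotent (Ideal.Quotient.mk J x - 1) := by
    intro x hx
    obtain ⟨n, hn⟩ := h42_nil_of_mem_map 𝔪 q hnil N (x - 1) hx
    refine ⟨n, ?_⟩
    rw [← map_one (Ideal.Quotient.mk J), ← map_sub, ← map_pow, Ideal.Quotient.eq_zero_iff_mem]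
    exact hn
  have h1 := h63_root_unique m hmS (Ideal.Quotient.mk J r) (Ideal.Quotient.mk J s)
    (nilp r hr) (nilp s hs) (by rw [← map_pow, ← map_pow, Ideal.Quotient.eq]; exact h)
  rw [Ideal.Quotient.eq] at h1
  exact h1

end Local

section Sub

variable {A F : Type*} [CommRing A] [CommRing F] [Algebra A F]

/-- Multiplication by `g` maps `𝔪 • M` to `𝔪 • M'` when it maps `M` to `M'`. -/
theorem h63_mul_mem_smul (𝔪 : Ideal A) (M M' : Submodule A F) (g : F)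
    (h : ∀ x ∈ M, g * x ∈ M') {x : F} (hx : x ∈ 𝔪 • M) : g * x ∈ 𝔪 • M' := by
  refine Submodule.smul_induction_on hx ?_ ?_
  · intro a ha y hy
    rw [mul_smul_comm]
    exact Submodule.smul_mem_smul ha (h y hy)
  · intro x y hx hy
    rw [mul_add]
    exact Submodule.add_mem _ hx hy

/-- `𝔪 • P` (as a submodule of `F`) is the image of the ideal `𝔪 P` of `P`. -/
theorem h63_smul_to_map (𝔪 : Ideal A) (P : Subalgebra A F) {x : F}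
    (hx : x ∈ 𝔪 • Subalgebra.toSubmodule P) :
    ∃ y : P, y ∈ 𝔪.map (algebraMap A P) ∧ (y : F) = x := by
  refine Submodule.smul_induction_on hx ?_ ?_
  · intro a ha p hp
    refine ⟨algebraMap A P a * ⟨p, hp⟩, Ideal.mul_mem_right _ _ (Ideal.mem_map_of_mem _ ha), ?_⟩
    rw [Algebra.smul_def]
    rfl
  · rintro x y ⟨x', hx', rfl⟩ ⟨y', hy', rfl⟩
    exact ⟨x' + y', Ideal.add_mem _ hx' hy', rfl⟩

theorem h63_map_to_smul (𝔪 : Ideal A) (P : Subalgebra A F) {y : P}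
    (hy : y ∈ 𝔪.map (algebraMap A P)) : (y : F) ∈ 𝔪 • Subalgebra.toSubmodule P := by
  unfold Ideal.map at hy
  induction hy using Submodule.span_induction with
  | mem x hx =>
    obtain ⟨a, ha, rfl⟩ := hx
    have h1 : ((algebraMap A P a : P) : F) = a • (1 : F) := by
      rw [Algebra.smul_def, mul_one]
      rfl
    rw [h1]
    exact Submodule.smul_mem_smul ha (one_mem P)
  | zero => exact Submodule.zero_mem _
  | add x y _ _ hx hy => exact Submodule.add_mem _ hx hy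
  | smul p x _ hx =>
    exact h63_mul_mem_smul 𝔪 (Subalgebra.toSubmodule P) (Subalgebra.toSubmodule P) (p : F)
      (fun z hz => P.mul_mem p.2 hz) hx

/-- Units modulo `q ^ N` in a subalgebra. -/
theorem h63_unit_mod_sub (𝔪 : Ideal A) (q : A)
    (hnil : ∀ a ∈ 𝔪, ∃ n : ℕ, a ^ n ∈ Ideal.span {q}) (N : ℕ) (P : Subalgebra A F)
    (x : F) (hx : x - 1 ∈ 𝔪 • Subalgebra.toSubmodule P) :
    ∃ w ∈ P, ∃ p ∈ P, x * w = 1 + algebraMap A F q ^ N * p := by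
  obtain ⟨y, hy, hyx⟩ := h63_smul_to_map 𝔪 P hx
  have hy' : (y + 1 : P) - 1 ∈ 𝔪.map (algebraMap A P) := by
    rw [add_sub_cancel_right]; exact hy
  obtain ⟨w, hw⟩ := h63_unit_mod 𝔪 q hnil N (y + 1 : P) hy'
  obtain ⟨p, hp⟩ := Ideal.mem_span_singleton'.mp hw
  refine ⟨w, w.2, p, p.2, ?_⟩
  have h1 := congrArg (Subtype.val) hp
  push_cast at h1
  rw [hyx] at h1
  linear_combination -h1

/-- Local `m`-th roots in a subalgebra. -/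
theorem h63_local_root_sub (𝔪 : Ideal A) (q : A) (hq : q ∈ 𝔪)
    (hnil : ∀ a ∈ 𝔪, ∃ n : ℕ, a ^ n ∈ Ideal.span {q})
    (m : ℕ) (minv : A) (hminv : (m : A) * minv = 1) (N : ℕ) (hN : 0 < N) (P : Subalgebra A F)
    (v : F) (hv : v - 1 ∈ 𝔪 • Subalgebra.toSubmodule P) :
    ∃ w ∈ P, ∃ p ∈ P, v * w ^ m = 1 + algebraMap A F q ^ N * p ∧
      w - 1 ∈ 𝔪 • Subalgebra.toSubmodule P := by
  obtain ⟨y, hy, hyx⟩ := h63_smul_to_map 𝔪 P hv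
  have hy' : (y + 1 : P) - 1 ∈ 𝔪.map (algebraMap A P) := by
    rw [add_sub_cancel_right]; exact hy
  obtain ⟨w, hw, hw1⟩ := h63_local_root 𝔪 q hq hnil m minv hminv N hN (y + 1 : P) hy'
  obtain ⟨p, hp⟩ := Ideal.mem_span_singleton'.mp hw
  refine ⟨w, w.2, p, p.2, ?_, ?_⟩
  · have h1 := congrArg (Subtype.val) hp
    push_cast at h1
    rw [hyx] at h1
    linear_combination -h1
  · have h1 := h63_map_to_smul 𝔪 P hw1
    push_cast at h1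
    exact h1

/-- Uniqueness of `m`-th roots modulo `q ^ N` in a subalgebra. -/
theorem h63_root_congr_sub (𝔪 : Ideal A) (q : A)
    (hnil : ∀ a ∈ 𝔪, ∃ n : ℕ, a ^ n ∈ Ideal.span {q})
    (m : ℕ) (minv : A) (hminv : (m : A) * minv = 1) (N : ℕ) (P : Subalgebra A F)
    (r s : F) (hr : r - 1 ∈ 𝔪 • Subalgebra.toSubmodule P)
    (hs : s - 1 ∈ 𝔪 • Subalgebra.toSubmodule P)
    (p : F) (hp : p ∈ P) (h : r ^ m - s ^ m = algebraMap A F q ^ N * p) :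
    ∃ p' ∈ P, r - s = algebraMap A F q ^ N * p' := by
  obtain ⟨y, hy, hyr⟩ := h63_smul_to_map 𝔪 P hr
  obtain ⟨z, hz, hzs⟩ := h63_smul_to_map 𝔪 P hs
  have hy' : (y + 1 : P) - 1 ∈ 𝔪.map (algebraMap A P) := by
    rw [add_sub_cancel_right]; exact hy
  have hz' : (z + 1 : P) - 1 ∈ 𝔪.map (algebraMap A P) := by
    rw [add_sub_cancel_right]; exact hz
  have hpow : (y + 1 : P) ^ m - (z + 1 : P) ^ m ∈ Ideal.span {algebraMap A P q ^ N} := by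
    rw [Ideal.mem_span_singleton']
    refine ⟨⟨p, hp⟩, Subtype.ext ?_⟩
    push_cast
    rw [hyr, hzs]
    linear_combination -h
  obtain ⟨p', hp'⟩ := Ideal.mem_span_singleton'.mp
    (h63_root_congr 𝔪 q hnil m minv hminv N (y + 1 : P) (z + 1 : P) hy' hz' hpow)
  refine ⟨p', p'.2, ?_⟩
  have h1 := congrArg (Subtype.val) hp'
  push_cast at h1
  rw [hyr, hzs] at h1
  linear_combination -h1

/-- **Two-chart patching of an `m`-th root** (route R63, step [P5']).  See the module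
docstring.  `c` is the exponent bounding the `q`-power torsion of `M / (M₁ + M₂)`. -/
theorem h63_patch (𝔪 : Ideal A) (q : A) (hq : q ∈ 𝔪)
    (hnil : ∀ a ∈ 𝔪, ∃ n : ℕ, a ^ n ∈ Ideal.span {q})
    (m : ℕ) (minv : A) (hminv : (m : A) * minv = 1)
    (P₁ P₂ P : Subalgebra A F) (hP₁ : P₁ ≤ P) (hP₂ : P₂ ≤ P)
    (M₁ M₂ M M₂' : Submodule A F) (hM₁ : M₁ ≤ M) (hM₂ : M₂ ≤ M)
    (hPM₁ : ∀ p ∈ P₁, ∀ g ∈ M₁, p * g ∈ M₁)
    (hPM₂ : ∀ p ∈ P₂, ∀ g ∈ M₂, p * g ∈ M₂)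
    (hPM : ∀ p ∈ P, ∀ g ∈ M, p * g ∈ M)
    (hMM' : ∀ g ∈ M, ∀ g' ∈ M₂', g * g' ∈ P)
    (u : F) (hu' : ∀ g' ∈ M₂', u * g' ^ m ∈ P)
    (c : ℕ)
    (hBT : ∀ (n : ℕ) (y : F), y ∈ M → q ^ n • y ∈ M₁ ⊔ M₂ → q ^ c • y ∈ M₁ ⊔ M₂)
    (γ₁ γ₂ γ₂' v₁ v₂ : F) (hγ₁ : γ₁ ∈ M₁) (hγ₂ : γ₂ ∈ M₂) (hγ₂' : γ₂' ∈ M₂')
    (hv₁ : γ₁ ^ m = u * v₁) (hv₂ : γ₂ ^ m = u * v₂)
    (hv₁1 : v₁ - 1 ∈ 𝔪 • Subalgebra.toSubmodule P₁)
    (hv₂1 : v₂ - 1 ∈ 𝔪 • Subalgebra.toSubmodule P₂)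
    (h22 : γ₂ * γ₂' - 1 ∈ 𝔪 • Subalgebra.toSubmodule P)
    (h12 : γ₁ - γ₂ ∈ 𝔪 • M) :
    ∃ e : F, e ∈ M₁ ∧ e ∈ M₂ ∧ e - γ₁ ∈ 𝔪 • M₁ := by
  set Q : F := algebraMap A F q with hQ
  -- local roots on the two charts
  obtain ⟨w₁, hw₁P, p₁, hp₁, hw₁, hw₁1⟩ :=
    h63_local_root_sub 𝔪 q hq hnil m minv hminv (c + 1) (Nat.succ_pos c) P₁ v₁ hv₁1
  obtain ⟨w₂, hw₂P, p₂, hp₂, hw₂, hw₂1⟩ :=
    h63_local_root_sub 𝔪 q hq hnil m minv hminv (c + 1) (Nat.succ_pos c) P₂ v₂ hv₂1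
  set g₁ : F := w₁ * γ₁ with hg₁def
  set g₂ : F := w₂ * γ₂ with hg₂def
  have hg₁M₁ : g₁ ∈ M₁ := hPM₁ w₁ hw₁P γ₁ hγ₁
  have hg₂M₂ : g₂ ∈ M₂ := hPM₂ w₂ hw₂P γ₂ hγ₂
  have hg₁M : g₁ ∈ M := hM₁ hg₁M₁
  have hg₂M : g₂ ∈ M := hM₂ hg₂M₂
  have hg₁pow : g₁ ^ m = u * (1 + Q ^ (c + 1) * p₁) := by
    rw [hg₁def, mul_pow, hv₁, ← hw₁]; ring
  have hg₂pow : g₂ ^ m = u * (1 + Q ^ (c + 1) * p₂) := by
    rw [hg₂def, mul_pow, hv₂, ← hw₂]; ring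
  -- `gᵢ ≡ γᵢ`
  have hg₁γ : g₁ - γ₁ ∈ 𝔪 • M₁ := by
    have h1 : g₁ - γ₁ = γ₁ * (w₁ - 1) := by rw [hg₁def]; ring
    rw [h1]
    exact h63_mul_mem_smul 𝔪 (Subalgebra.toSubmodule P₁) M₁ γ₁
      (fun x hx => by rw [mul_comm]; exact hPM₁ x hx γ₁ hγ₁) hw₁1
  have hg₂γ : g₂ - γ₂ ∈ 𝔪 • M₂ := by
    have h1 : g₂ - γ₂ = γ₂ * (w₂ - 1) := by rw [hg₂def]; ring
    rw [h1]
    exact h63_mul_mem_smul 𝔪 (Subalgebra.toSubmodule P₂) M₂ γ₂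
      (fun x hx => by rw [mul_comm]; exact hPM₂ x hx γ₂ hγ₂) hw₂1
  have hmono₁ : 𝔪 • M₁ ≤ 𝔪 • M := Submodule.smul_mono le_rfl hM₁
  have hmono₂ : 𝔪 • M₂ ≤ 𝔪 • M := Submodule.smul_mono le_rfl hM₂
  have hg₁₂ : g₁ - g₂ ∈ 𝔪 • M := by
    have h1 : g₁ - g₂ = (g₁ - γ₁) + (γ₁ - γ₂) - (g₂ - γ₂) := by ring
    rw [h1]
    exact Submodule.sub_mem _ (Submodule.add_mem _ (hmono₁ hg₁γ) h12) (hmono₂ hg₂γ)
  -- the ratios on the overlap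
  have hmulγ' : ∀ x ∈ 𝔪 • M, γ₂' * x ∈ 𝔪 • Subalgebra.toSubmodule P := fun x hx =>
    h63_mul_mem_smul 𝔪 M (Subalgebra.toSubmodule P) γ₂'
      (fun y hy => by rw [mul_comm]; exact hMM' y hy γ₂' hγ₂') hx
  have hs1 : g₂ * γ₂' - 1 ∈ 𝔪 • Subalgebra.toSubmodule P := by
    have h1 : g₂ * γ₂' - 1 = γ₂' * (g₂ - γ₂) + (γ₂ * γ₂' - 1) := by ring
    rw [h1]
    exact Submodule.add_mem _ (hmulγ' _ (hmono₂ hg₂γ)) h22
  have hr1 : g₁ * γ₂' - 1 ∈ 𝔪 • Subalgebra.toSubmodule P := by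
    have h1 : g₁ * γ₂' - 1 = γ₂' * (g₁ - g₂) + (g₂ * γ₂' - 1) := by ring
    rw [h1]
    exact Submodule.add_mem _ (hmulγ' _ hg₁₂) hs1
  have hpow : (g₁ * γ₂') ^ m - (g₂ * γ₂') ^ m
      = Q ^ (c + 1) * ((u * γ₂' ^ m) * (p₁ - p₂)) := by
    linear_combination (γ₂' ^ m) * hg₁pow - (γ₂' ^ m) * hg₂pow
  obtain ⟨p, hpP, hp⟩ := h63_root_congr_sub 𝔪 q hnil m minv hminv (c + 1) P
    (g₁ * γ₂') (g₂ * γ₂') hr1 hs1 _
    (P.mul_mem (hu' γ₂' hγ₂') (P.sub_mem (hP₁ hp₁) (hP₂ hp₂))) hpow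
  -- `γ₂ γ₂'` is a unit modulo `q ^ (c + 1)`
  obtain ⟨w, hwP, p', hp'P, hw⟩ := h63_unit_mod_sub 𝔪 q hnil (c + 1) P (γ₂ * γ₂') h22
  set y : F := (p * w) * γ₂ - p' * (g₁ - g₂) with hydef
  have hyM : y ∈ M :=
    M.sub_mem (hPM _ (P.mul_mem hpP hwP) γ₂ (hM₂ hγ₂))
      (hPM p' hp'P _ (M.sub_mem hg₁M hg₂M))
  have hy : g₁ - g₂ = Q ^ (c + 1) * y := by
    rw [hydef]
    linear_combination (γ₂ * w) * hp - (g₁ - g₂) * hw
  -- bounded torsion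
  have hsm : ∀ (k : ℕ) (z : F), q ^ k • z = Q ^ k * z := by
    intro k z
    rw [Algebra.smul_def, map_pow]
  have hmem : q ^ (c + 1) • y ∈ M₁ ⊔ M₂ := by
    rw [hsm, ← hy]
    exact Submodule.sub_mem _ (Submodule.mem_sup_left hg₁M₁) (Submodule.mem_sup_right hg₂M₂)
  obtain ⟨h₁, hh₁, h₂, hh₂, hh⟩ := Submodule.mem_sup.mp (hBT (c + 1) y hyM hmem)
  have hkey : g₁ - g₂ = q • h₁ + q • h₂ := by
    rw [hy, ← smul_add, hh, hsm, Algebra.smul_def, pow_succ]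
    ring
  refine ⟨g₁ - q • h₁, M₁.sub_mem hg₁M₁ (M₁.smul_mem q hh₁), ?_, ?_⟩
  · have h1 : g₁ - q • h₁ = g₂ + q • h₂ := by linear_combination hkey
    rw [h1]
    exact M₂.add_mem hg₂M₂ (M₂.smul_mem q hh₂)
  · have h1 : g₁ - q • h₁ - γ₁ = (g₁ - γ₁) - q • h₁ := by ring
    rw [h1]
    exact Submodule.sub_mem _ hg₁γ (Submodule.smul_mem_smul hq hh₁)

end Sub

section Fg

variable {A F : Type*} [CommRing A] [IsDomain A] [ValuationRing A] [CommRing F] [Algebra A F]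

/-- **Two-chart patching over a rank one valuation ring**: `h63_patch` with the bounded torsion
hypothesis replaced by the decomposition `M ≤ M₁ + M₂ + Λ₀`, `Λ₀ ≤ M` finitely generated. -/
theorem h63_patch_fg (𝔪 : Ideal A) (q : A) (hq : q ∈ 𝔪) (hq0 : q ≠ 0)
    (hnil : ∀ a ∈ 𝔪, ∃ n : ℕ, a ^ n ∈ Ideal.span {q})
    (hrk : ∀ a : A, a ≠ 0 → ∃ n : ℕ, a ∣ q ^ n)
    (m : ℕ) (minv : A) (hminv : (m : A) * minv = 1)
    (P₁ P₂ P : Subalgebra A F) (hP₁ : P₁ ≤ P) (hP₂ : P₂ ≤ P)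
    (M₁ M₂ M M₂' Λ₀ : Submodule A F) (hM₁ : M₁ ≤ M) (hM₂ : M₂ ≤ M)
    (hΛ₀ : Λ₀ ≤ M) (hfg : Λ₀.FG) (hdec : M ≤ M₁ ⊔ M₂ ⊔ Λ₀)
    (hPM₁ : ∀ p ∈ P₁, ∀ g ∈ M₁, p * g ∈ M₁)
    (hPM₂ : ∀ p ∈ P₂, ∀ g ∈ M₂, p * g ∈ M₂)
    (hPM : ∀ p ∈ P, ∀ g ∈ M, p * g ∈ M)
    (hMM' : ∀ g ∈ M, ∀ g' ∈ M₂', g * g' ∈ P)
    (u : F) (hu' : ∀ g' ∈ M₂', u * g' ^ m ∈ P)
    (γ₁ γ₂ γ₂' v₁ v₂ : F) (hγ₁ : γ₁ ∈ M₁) (hγ₂ : γ₂ ∈ M₂) (hγ₂' : γ₂' ∈ M₂')
    (hv₁ : γ₁ ^ m = u * v₁) (hv₂ : γ₂ ^ m = u * v₂)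
    (hv₁1 : v₁ - 1 ∈ 𝔪 • Subalgebra.toSubmodule P₁)
    (hv₂1 : v₂ - 1 ∈ 𝔪 • Subalgebra.toSubmodule P₂)
    (h22 : γ₂ * γ₂' - 1 ∈ 𝔪 • Subalgebra.toSubmodule P)
    (h12 : γ₁ - γ₂ ∈ 𝔪 • M) :
    ∃ e : F, e ∈ M₁ ∧ e ∈ M₂ ∧ e - γ₁ ∈ 𝔪 • M₁ := by
  -- bounded torsion of `M / (M₁ + M₂)` from `h98_bt_module` applied to the module `M`
  let Pm : Submodule A M := Submodule.comap M.subtype (M₁ ⊔ M₂)
  let Lm : Submodule A M := Submodule.comap M.subtype Λ₀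
  have hLfg : Lm.FG := by
    apply Submodule.fg_of_fg_map_injective M.subtype (Submodule.injective_subtype M)
    have h1 : Submodule.map M.subtype Lm = Λ₀ := by
      rw [Submodule.map_comap_subtype]
      exact inf_eq_right.mpr hΛ₀
    rw [h1]
    exact hfg
  have htop : Pm ⊔ Lm = ⊤ := by
    rw [eq_top_iff]
    rintro ⟨x, hx⟩ -
    obtain ⟨a, ha, l, hl, hal⟩ := Submodule.mem_sup.mp (hdec hx)
    have haM : a ∈ M := (sup_le hM₁ hM₂) ha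
    have e : (⟨x, hx⟩ : M) = ⟨a, haM⟩ + ⟨l, hΛ₀ hl⟩ := Subtype.ext hal.symm
    rw [e]
    exact Submodule.add_mem _ (Submodule.mem_sup_left (show (⟨a, haM⟩ : M) ∈ Pm from ha))
      (Submodule.mem_sup_right (show (⟨l, hΛ₀ hl⟩ : M) ∈ Lm from hl))
  obtain ⟨c, hc⟩ := h98_bt_module q hq0 hrk Pm Lm hLfg htop
  refine h63_patch 𝔪 q hq hnil m minv hminv P₁ P₂ P hP₁ hP₂ M₁ M₂ M M₂' hM₁ hM₂ hPM₁ hPM₂ hPM
    hMM' u hu' c ?_ γ₁ γ₂ γ₂' v₁ v₂ hγ₁ hγ₂ hγ₂' hv₁ hv₂ hv₁1 hv₂1 h22 h12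
  intro n y hy hmem
  exact hc n ⟨y, hy⟩ hmem

end Fg

end Fermat.Agent.S34
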