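import Mathlib
import Fermat.Agent.S18.Defs
import Fermat.Agent.S34.h51_Glue
import Fermat.Agent.S34.h63_Patch

/-!
# S34 (route R63), endgame `[P5']`: from trivial gluing to a global section

Generic consumer of the patching theorem `h63_patch_fg` over a lattice datum `D : h22_Lat K F k Rb`
(no modular input).

Setting: two effective divisors `D1`, `D2` with disjoint supports and a unit `x` of `O` with
`div x = D2 - D1` (the two charts `D1 = (x)_∞`, `D2 = (x)_0`); a divisor `E` with `m E = div u`,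
`u ∈ O`, `red u = 1` (a toric witness; in the application `E = g' • E₀ - E₀`); and the two facts
about the reductions `G n = red (L(n D1) ∩ O)`:

* `htg` (trivial gluing, `h51_trivial_gluing`): `red (L(n D1 + E) ∩ O) = G n` for `n ≥ n₁`;
* `hstr` (strictness): `G (n+1) ⊆ G n + x̄ G n` for `n ≥ n₁`.

Conclusion (`h63_exists_section`): there is `e ∈ L(E) ∩ O` with `red e = 1`; in particular `e ≠ 0`
and `E` is principal when `deg E = 0` (`h63_principal_of_trivial_gluing`).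

Contents:
* `h63_Lint D B = L(B) ∩ O` as an `A`-module, `h63_Lam = L(a D1 + b D2 + C) ∩ O`, the unions
  `h63_UnM`, `h63_UnP` (chart modules and chart rings);
* `h63_ker_Lint` (`red f = 0 ⇒ f ∈ 𝔪 • lattice`), `h63_Lint_fg` (from `h22_ON`);
* `h63_dec` : `Λ a b ≤ Λ a 0 + Λ 0 b + Λ n₀ n₀` for `a, b ≥ n₀ ≥ n₁` (the decomposition (DEC) for
  the twisted lattices, from `htg` + `hstr` + Nakayama);
* `h63_exists_section`, `h63_principal_of_section`, `h63_principal_of_trivial_gluing`.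
-/

set_option autoImplicit false

noncomputable section

open AlgebraicCurve Module
open Fermat.Agent.S18

namespace Fermat.Agent.S34

variable {K F k Rb : Type*} [Field K] [Field F] [Algebra K F] [Field k] [CommRing Rb]
  [Algebra k Rb]

/-! ### Order bounds -/

theorem h63_ord_mul_le (v : Place K F) {f g : F} {s t : ℤ} (hf : f = 0 ∨ s ≤ v.ord f)
    (hg : g = 0 ∨ t ≤ v.ord g) : f * g = 0 ∨ s + t ≤ v.ord (f * g) := by
  rcases eq_or_ne f 0 with rfl | hf0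
  · left; exact zero_mul g
  rcases eq_or_ne g 0 with rfl | hg0
  · left; exact mul_zero f
  right
  rw [v.ord_mul hf0 hg0]
  exact add_le_add (hf.resolve_left hf0) (hg.resolve_left hg0)

theorem h63_ord_pow (v : Place K F) (f : F) (n : ℕ) : v.ord (f ^ n) = (n : ℤ) * v.ord f := by
  rw [← zpow_natCast, v.ord_zpow]

theorem h63_ord_pow_le (v : Place K F) {f : F} {s : ℤ} (hf : f = 0 ∨ s ≤ v.ord f) (n : ℕ) :
    f ^ n = 0 ∨ (n : ℤ) * s ≤ v.ord (f ^ n) := by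
  rcases eq_or_ne f 0 with rfl | hf0
  · rcases Nat.eq_zero_or_pos n with rfl | hn
    · right
      simp
    · left
      exact zero_pow hn.ne'
  · right
    rw [h63_ord_pow]
    exact mul_le_mul_of_nonneg_left (hf.resolve_left hf0) (Int.natCast_nonneg n)

/-- Pointwise form of membership in `L(a D1 + b D2 + C)`. -/
theorem h63_mem_rr_iff (D1 D2 C : Divisor K F) (a b : ℕ) (f : F) :
    f ∈ riemannRochSpace (a • D1 + b • D2 + C) ↔
      ∀ v : Place K F, f = 0 ∨ -((a : ℤ) * D1 v + (b : ℤ) * D2 v + C v) ≤ v.ord f := by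
  rw [mem_riemannRochSpace_iff]
  refine forall_congr' fun v => ?_
  rw [Finsupp.add_apply, Finsupp.add_apply, Finsupp.smul_apply, Finsupp.smul_apply, nsmul_eq_mul,
    nsmul_eq_mul]

/-! ### The lattices `L(B) ∩ O` -/

/-- The integral elements, as a module over the valuation ring. -/
def h63_Osub (D : h22_Lat K F k Rb) : Submodule D.A F where
  carrier := {f | f ∈ D.O}
  zero_mem' := D.O.zero_mem
  add_mem' := fun hf hg => D.O.add_mem hf hg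
  smul_mem' := fun a f hf => by
    have h1 : a • f = algebraMap K F (a : K) * f := by
      rw [Algebra.smul_def]; rfl
    show a • f ∈ D.O
    rw [h1]
    exact D.O.mul_mem ((D.mem_iff _).mp a.2) hf

theorem h63_mem_Osub (D : h22_Lat K F k Rb) (f : F) : f ∈ h63_Osub D ↔ f ∈ D.O := Iff.rfl

/-- The lattice `L(B) ∩ O` as a module over the valuation ring `A`. -/
def h63_Lint (D : h22_Lat K F k Rb) (B : Divisor K F) : Submodule D.A F where
  carrier := {f | f ∈ riemannRochSpace B ∧ f ∈ D.O}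
  zero_mem' := ⟨Submodule.zero_mem _, D.O.zero_mem⟩
  add_mem' := fun hf hg => ⟨Submodule.add_mem _ hf.1 hg.1, D.O.add_mem hf.2 hg.2⟩
  smul_mem' := fun a f hf => by
    refine ⟨?_, (h63_Osub D).smul_mem a hf.2⟩
    have h1 : a • f = (a : K) • f := rfl
    rw [h1]
    exact Submodule.smul_mem _ _ hf.1

theorem h63_mem_Lint (D : h22_Lat K F k Rb) (B : Divisor K F) (f : F) :
    f ∈ h63_Lint D B ↔ f ∈ riemannRochSpace B ∧ f ∈ D.O := Iff.rfl

theorem h63_Lint_le_Osub (D : h22_Lat K F k Rb) (B : Divisor K F) :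
    h63_Lint D B ≤ h63_Osub D := fun _ hf => hf.2

/-- `red` vanishes on `𝔪 • N` for `N ⊆ O`. -/
theorem h63_redF_of_mem_smul (D : h22_Lat K F k Rb) (N : Submodule D.A F)
    (hN : N ≤ h63_Osub D) {f : F} (hf : f ∈ IsLocalRing.maximalIdeal D.A • N) :
    f ∈ D.O ∧ D.redF f = 0 := by
  refine Submodule.smul_induction_on hf ?_ ?_
  · intro a ha g hg
    have hgO : g ∈ D.O := hN hg
    have ha' : (a : K) ∈ D.A.nonunits := ValuationSubring.coe_mem_nonunits_iff.mpr ha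
    have h1 : a • g = (a : K) • g := rfl
    rw [h1]
    refine ⟨?_, h22_redF_smul_nonunit D ha' hgO⟩
    rw [Algebra.smul_def]
    exact D.O.mul_mem ((D.mem_iff _).mp a.2) hgO
  · rintro x y ⟨hx, hx0⟩ ⟨hy, hy0⟩
    exact ⟨D.O.add_mem hx hy, by rw [h51_redF_add D hx hy, hx0, hy0, add_zero]⟩

/-- The kernel of the reduction on the lattice `L(B) ∩ O` is `𝔪 • (L(B) ∩ O)`. -/
theorem h63_ker_Lint (D : h22_Lat K F k Rb) (B : Divisor K F) {f : F} (hf : f ∈ h63_Lint D B)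
    (h0 : D.redF f = 0) : f ∈ IsLocalRing.maximalIdeal D.A • h63_Lint D B := by
  obtain ⟨a, ha, g, hg, rfl⟩ := (h22_redF_eq_zero_iff D hf.2).mp h0
  rcases eq_or_ne a 0 with rfl | ha0
  · rw [map_zero, zero_mul]
    exact Submodule.zero_mem _
  · obtain ⟨haA, ham⟩ := ValuationSubring.mem_nonunits_iff_exists_mem_maximalIdeal.mp ha
    have hgB : g ∈ riemannRochSpace B := by
      have h1 : g = a⁻¹ • (algebraMap K F a * g) := by
        rw [Algebra.smul_def, ← mul_assoc, ← map_mul, inv_mul_cancel₀ ha0, map_one, one_mul]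
      rw [h1]
      exact Submodule.smul_mem _ _ hf.1
    have h2 : algebraMap K F a * g = (⟨a, haA⟩ : D.A) • g := by
      rw [Algebra.smul_def]; rfl
    rw [h2]
    exact Submodule.smul_mem_smul ham ⟨hgB, hg⟩

/-- With (ON), the lattice `L(B) ∩ O` is finitely generated. -/
theorem h63_Lint_fg (D : h22_Lat K F k Rb) (hON : h22_ON D) (B : Divisor K F)
    [Module.Finite K (riemannRochSpace B)] : (h63_Lint D B).FG := by
  obtain ⟨e, heV, heO, hind⟩ := hON (riemannRochSpace B) inferInstance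
  have hle : h63_Lint D B ≤ Submodule.span D.A (Set.range e) := by
    intro f hf
    obtain ⟨c, hc, hcA⟩ := h22_on_span D (riemannRochSpace B) e heV heO hind f hf.1
    rw [hc]
    refine Submodule.sum_mem _ fun i _ => ?_
    have h1 : c i • e i = (⟨c i, hcA hf.2 i⟩ : D.A) • e i := rfl
    rw [h1]
    exact Submodule.smul_mem _ _ (Submodule.subset_span ⟨i, rfl⟩)
  have hge : Submodule.span D.A (Set.range e) ≤ h63_Lint D B := by
    rw [Submodule.span_le]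
    rintro _ ⟨i, rfl⟩
    exact ⟨heV i, heO i⟩
  rw [le_antisymm hle hge]
  exact Submodule.fg_span (Set.finite_range e)

/-! ### The two-parameter family `Λ a b = L(a D1 + b D2 + C) ∩ O` -/

/-- `Λ a b = L(a D1 + b D2 + C) ∩ O`. -/
def h63_Lam (D : h22_Lat K F k Rb) (D1 D2 C : Divisor K F) (a b : ℕ) : Submodule D.A F :=
  h63_Lint D (a • D1 + b • D2 + C)

theorem h63_mem_Lam (D : h22_Lat K F k Rb) (D1 D2 C : Divisor K F) (a b : ℕ) (f : F) :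
    f ∈ h63_Lam D D1 D2 C a b ↔ f ∈ D.O ∧
      ∀ v : Place K F, f = 0 ∨ -((a : ℤ) * D1 v + (b : ℤ) * D2 v + C v) ≤ v.ord f := by
  unfold h63_Lam
  rw [h63_mem_Lint, h63_mem_rr_iff]
  exact and_comm

theorem h63_Lam_mono (D : h22_Lat K F k Rb) (D1 D2 C : Divisor K F) (hD1 : ∀ v, 0 ≤ D1 v)
    (hD2 : ∀ v, 0 ≤ D2 v) {a b a' b' : ℕ} (ha : a ≤ a') (hb : b ≤ b') :
    h63_Lam D D1 D2 C a b ≤ h63_Lam D D1 D2 C a' b' := by
  intro f hf
  rw [h63_mem_Lam] at hf ⊢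
  refine ⟨hf.1, fun v => ?_⟩
  rcases hf.2 v with h | h
  · left; exact h
  · right
    have h1 : (a : ℤ) * D1 v ≤ (a' : ℤ) * D1 v :=
      mul_le_mul_of_nonneg_right (by exact_mod_cast ha) (hD1 v)
    have h2 : (b : ℤ) * D2 v ≤ (b' : ℤ) * D2 v :=
      mul_le_mul_of_nonneg_right (by exact_mod_cast hb) (hD2 v)
    linarith

/-- Products: `Λ_C a b · Λ_C' a' b' ⊆ Λ_C'' a'' b''` under the pointwise inequality of
divisors. -/
theorem h63_mul_mem_Lam (D : h22_Lat K F k Rb) (D1 D2 C C' C'' : Divisor K F)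
    {a b a' b' a'' b'' : ℕ} {f g : F} (hf : f ∈ h63_Lam D D1 D2 C a b)
    (hg : g ∈ h63_Lam D D1 D2 C' a' b')
    (hle : ∀ v : Place K F, (a : ℤ) * D1 v + (b : ℤ) * D2 v + C v +
      ((a' : ℤ) * D1 v + (b' : ℤ) * D2 v + C' v) ≤ (a'' : ℤ) * D1 v + (b'' : ℤ) * D2 v + C'' v) :
    f * g ∈ h63_Lam D D1 D2 C'' a'' b'' := by
  rw [h63_mem_Lam] at hf hg ⊢
  refine ⟨D.O.mul_mem hf.1 hg.1, fun v => ?_⟩
  rcases h63_ord_mul_le v (hf.2 v) (hg.2 v) with h | h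
  · left; exact h
  · right
    have := hle v
    linarith

theorem h63_one_mem_Lam (D : h22_Lat K F k Rb) (D1 D2 : Divisor K F) (hD1 : ∀ v, 0 ≤ D1 v)
    (hD2 : ∀ v, 0 ≤ D2 v) (a b : ℕ) : (1 : F) ∈ h63_Lam D D1 D2 0 a b := by
  rw [h63_mem_Lam]
  refine ⟨D.O.one_mem, fun v => Or.inr ?_⟩
  rw [Place.ord_one, Finsupp.zero_apply, add_zero, neg_nonpos]
  exact add_nonneg (mul_nonneg (Int.natCast_nonneg a) (hD1 v))
    (mul_nonneg (Int.natCast_nonneg b) (hD2 v))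

/-- Integer powers of a unit of `O`. -/
theorem h63_zpow_mem (D : h22_Lat K F k Rb) {x : F} (hxO : x ∈ D.O) (hxinvO : x⁻¹ ∈ D.O)
    (z : ℤ) : x ^ z ∈ D.O := by
  obtain ⟨n, rfl | rfl⟩ := Int.eq_nat_or_neg z
  · rw [zpow_natCast]
    exact D.O.pow_mem hxO n
  · rw [zpow_neg, zpow_natCast, ← inv_pow]
    exact D.O.pow_mem hxinvO n

/-- Multiplication by `x ^ z`, `div x = D2 - D1`, shifts the family `Λ`. -/
theorem h63_zpow_mul_mem_Lam (D : h22_Lat K F k Rb) (D1 D2 C : Divisor K F) {x : F}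
    (hx0 : x ≠ 0) (hxO : x ∈ D.O) (hxinvO : x⁻¹ ∈ D.O)
    (hxdiv : ∀ v : Place K F, v.ord x = D2 v - D1 v) {a b a' b' : ℕ} {h : F}
    (hh : h ∈ h63_Lam D D1 D2 C a b) (z : ℤ)
    (hle : ∀ v : Place K F, (a : ℤ) * D1 v + (b : ℤ) * D2 v - z * (D2 v - D1 v) ≤
      (a' : ℤ) * D1 v + (b' : ℤ) * D2 v) :
    x ^ z * h ∈ h63_Lam D D1 D2 C a' b' := by
  rw [h63_mem_Lam] at hh ⊢
  refine ⟨D.O.mul_mem (h63_zpow_mem D hxO hxinvO z) hh.1, fun v => ?_⟩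
  rcases eq_or_ne h 0 with rfl | hh0
  · left; exact mul_zero _
  · right
    rw [v.ord_mul (zpow_ne_zero z hx0) hh0, v.ord_zpow, hxdiv v]
    have h1 := (hh.2 v).resolve_left hh0
    have h2 := hle v
    linarith

/-! ### Chart modules and chart rings -/

/-- The chart module `⋃ₙ Λ_C (c1 n) (c2 n)`. -/
def h63_UnM (D : h22_Lat K F k Rb) (D1 D2 C : Divisor K F) (hD1 : ∀ v, 0 ≤ D1 v)
    (hD2 : ∀ v, 0 ≤ D2 v) (c1 c2 : ℕ) : Submodule D.A F where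
  carrier := {f | ∃ n : ℕ, f ∈ h63_Lam D D1 D2 C (c1 * n) (c2 * n)}
  zero_mem' := ⟨0, Submodule.zero_mem _⟩
  add_mem' := by
    rintro f g ⟨n, hf⟩ ⟨n', hg⟩
    exact ⟨max n n', Submodule.add_mem _
      (h63_Lam_mono D D1 D2 C hD1 hD2 (Nat.mul_le_mul_left c1 (le_max_left n n'))
        (Nat.mul_le_mul_left c2 (le_max_left n n')) hf)
      (h63_Lam_mono D D1 D2 C hD1 hD2 (Nat.mul_le_mul_left c1 (le_max_right n n'))
        (Nat.mul_le_mul_left c2 (le_max_right n n')) hg)⟩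
  smul_mem' := by
    rintro a f ⟨n, hf⟩
    exact ⟨n, Submodule.smul_mem _ a hf⟩

theorem h63_mem_UnM (D : h22_Lat K F k Rb) (D1 D2 C : Divisor K F) (hD1 : ∀ v, 0 ≤ D1 v)
    (hD2 : ∀ v, 0 ≤ D2 v) (c1 c2 : ℕ) (f : F) :
    f ∈ h63_UnM D D1 D2 C hD1 hD2 c1 c2 ↔ ∃ n : ℕ, f ∈ h63_Lam D D1 D2 C (c1 * n) (c2 * n) :=
  Iff.rfl

/-- The chart ring `⋃ₙ L(c1 n D1 + c2 n D2) ∩ O`. -/
def h63_UnP (D : h22_Lat K F k Rb) (D1 D2 : Divisor K F) (hD1 : ∀ v, 0 ≤ D1 v)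
    (hD2 : ∀ v, 0 ≤ D2 v) (c1 c2 : ℕ) : Subalgebra D.A F where
  carrier := {f | ∃ n : ℕ, f ∈ h63_Lam D D1 D2 0 (c1 * n) (c2 * n)}
  mul_mem' := by
    rintro f g ⟨n, hf⟩ ⟨n', hg⟩
    refine ⟨n + n', h63_mul_mem_Lam D D1 D2 0 0 0 hf hg (fun v => ?_)⟩
    rw [Finsupp.zero_apply]
    push_cast
    apply le_of_eq
    ring
  one_mem' := ⟨0, h63_one_mem_Lam D D1 D2 hD1 hD2 _ _⟩
  add_mem' := by
    rintro f g ⟨n, hf⟩ ⟨n', hg⟩
    exact ⟨max n n', Submodule.add_mem _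
      (h63_Lam_mono D D1 D2 0 hD1 hD2 (Nat.mul_le_mul_left c1 (le_max_left n n'))
        (Nat.mul_le_mul_left c2 (le_max_left n n')) hf)
      (h63_Lam_mono D D1 D2 0 hD1 hD2 (Nat.mul_le_mul_left c1 (le_max_right n n'))
        (Nat.mul_le_mul_left c2 (le_max_right n n')) hg)⟩
  zero_mem' := ⟨0, Submodule.zero_mem _⟩
  algebraMap_mem' := fun a => by
    refine ⟨0, ?_⟩
    rw [Algebra.algebraMap_eq_smul_one]
    exact Submodule.smul_mem _ a (h63_one_mem_Lam D D1 D2 hD1 hD2 _ _)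

theorem h63_mem_UnP (D : h22_Lat K F k Rb) (D1 D2 : Divisor K F) (hD1 : ∀ v, 0 ≤ D1 v)
    (hD2 : ∀ v, 0 ≤ D2 v) (c1 c2 : ℕ) (f : F) :
    f ∈ h63_UnP D D1 D2 hD1 hD2 c1 c2 ↔ ∃ n : ℕ, f ∈ h63_Lam D D1 D2 0 (c1 * n) (c2 * n) :=
  Iff.rfl

/-! ### The decomposition (DEC) for the twisted lattices -/

theorem h63_Rd_iff (D : h22_Lat K F k Rb) (D1 D2 C : Divisor K F) (n : ℕ) (a : Rb) :
    a ∈ h51_Rd D (n • D1 + C) ↔ ∃ f ∈ h63_Lam D D1 D2 C n 0, D.redF f = a := by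
  unfold h63_Lam
  rw [zero_smul, add_zero]
  constructor
  · rintro ⟨f, hf, hfO, rfl⟩
    exact ⟨f, ⟨hf, hfO⟩, rfl⟩
  · rintro ⟨f, ⟨hf, hfO⟩, rfl⟩
    exact ⟨f, hf, hfO, rfl⟩

/-- The span of the `x ^ i * Λ_E n₀ 0`, `i ≤ r`. -/
def h63_S (D : h22_Lat K F k Rb) (D1 D2 E : Divisor K F) (x : F) (n₀ r : ℕ) :
    Submodule D.A F :=
  Submodule.span D.A {y : F | ∃ i ≤ r, ∃ h ∈ h63_Lam D D1 D2 E n₀ 0, y = x ^ i * h}

theorem h63_S_le_Osub (D : h22_Lat K F k Rb) (D1 D2 E : Divisor K F) {x : F} (hxO : x ∈ D.O)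
    (n₀ r : ℕ) : h63_S D D1 D2 E x n₀ r ≤ h63_Osub D := by
  rw [h63_S, Submodule.span_le]
  rintro _ ⟨i, -, h, hh, rfl⟩
  exact D.O.mul_mem (D.O.pow_mem hxO i) ((h63_mem_Lam D D1 D2 E n₀ 0 h).mp hh).1

theorem h63_S_mono (D : h22_Lat K F k Rb) (D1 D2 E : Divisor K F) (x : F) (n₀ r : ℕ) :
    h63_S D D1 D2 E x n₀ r ≤ h63_S D D1 D2 E x n₀ (r + 1) := by
  apply Submodule.span_mono
  rintro y ⟨i, hi, h, hh, rfl⟩
  exact ⟨i, Nat.le_succ_of_le hi, h, hh, rfl⟩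

theorem h63_mul_mem_S (D : h22_Lat K F k Rb) (D1 D2 E : Divisor K F) (x : F) (n₀ r : ℕ) {y : F}
    (hy : y ∈ h63_S D D1 D2 E x n₀ r) : x * y ∈ h63_S D D1 D2 E x n₀ (r + 1) := by
  have hle : h63_S D D1 D2 E x n₀ r ≤
      Submodule.comap (LinearMap.mulLeft D.A x) (h63_S D D1 D2 E x n₀ (r + 1)) := by
    rw [h63_S, Submodule.span_le]
    rintro _ ⟨i, hi, h, hh, rfl⟩
    show x * (x ^ i * h) ∈ h63_S D D1 D2 E x n₀ (r + 1)
    exact Submodule.subset_span ⟨i + 1, Nat.succ_le_succ hi, h, hh, by ring⟩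
  exact hle hy

/-- Iterated strictness, lifted to the twisted lattices: every reduction of an element of
`Λ_E (n₀ + r) 0` is the reduction of a combination of the `x ^ i * Λ_E n₀ 0`, `i ≤ r`. -/
theorem h63_gen (D : h22_Lat K F k Rb) (D1 D2 E : Divisor K F) {x : F} (hxO : x ∈ D.O)
    (n₁ n₀ : ℕ) (hn : n₁ ≤ n₀)
    (htg : ∀ n, n₁ ≤ n → h51_Rd D (n • D1 + E) = h51_Rd D (n • D1))
    (hstr : ∀ n, n₁ ≤ n → ∀ a ∈ h51_Rd D ((n + 1) • D1),
      ∃ b ∈ h51_Rd D (n • D1), ∃ c ∈ h51_Rd D (n • D1), a = b + D.redF x * c)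
    (r : ℕ) : ∀ f ∈ h63_Lam D D1 D2 E (n₀ + r) 0,
      ∃ f' ∈ h63_S D D1 D2 E x n₀ r, D.redF f = D.redF f' := by
  induction r with
  | zero =>
    intro f hf
    exact ⟨f, Submodule.subset_span ⟨0, le_rfl, f, hf, by rw [pow_zero, one_mul]⟩, rfl⟩
  | succ r ih =>
    intro f hf
    have h1 : D.redF f ∈ h51_Rd D ((n₀ + r + 1) • D1 + E) :=
      (h63_Rd_iff D D1 D2 E _ _).mpr ⟨f, hf, rfl⟩
    rw [htg _ (by omega)] at h1
    obtain ⟨b, hb, c, hc, hbc⟩ := hstr (n₀ + r) (by omega) _ h1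
    rw [← htg _ (by omega)] at hb hc
    obtain ⟨fb, hfb, rfl⟩ := (h63_Rd_iff D D1 D2 E _ _).mp hb
    obtain ⟨fc, hfc, rfl⟩ := (h63_Rd_iff D D1 D2 E _ _).mp hc
    obtain ⟨fb', hfb', hb'⟩ := ih fb hfb
    obtain ⟨fc', hfc', hc'⟩ := ih fc hfc
    refine ⟨fb' + x * fc', Submodule.add_mem _ (h63_S_mono D D1 D2 E x n₀ r hfb')
      (h63_mul_mem_S D D1 D2 E x n₀ r hfc'), ?_⟩
    have hO1 : fb' ∈ D.O := h63_S_le_Osub D D1 D2 E hxO n₀ r hfb'
    have hO2 : fc' ∈ D.O := h63_S_le_Osub D D1 D2 E hxO n₀ r hfc'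
    rw [hbc, h51_redF_add D hO1 (D.O.mul_mem hxO hO2), h51_redF_mul D hxO hO2, hb', hc']

/-- **(DEC) for the twisted lattices**: `Λ a b ≤ Λ a 0 + Λ 0 b + Λ n₀ n₀` for `a, b ≥ n₀ ≥ n₁`,
from trivial gluing `htg` and strictness `hstr` on the first chart. -/
theorem h63_dec (D : h22_Lat K F k Rb) (hON : h22_ON D)
    (hfin : ∀ B : Divisor K F, Module.Finite K (riemannRochSpace B))
    (D1 D2 E : Divisor K F) (hD1 : ∀ v, 0 ≤ D1 v) (hD2 : ∀ v, 0 ≤ D2 v)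
    {x : F} (hx0 : x ≠ 0) (hxO : x ∈ D.O) (hxinvO : x⁻¹ ∈ D.O)
    (hxdiv : ∀ v : Place K F, v.ord x = D2 v - D1 v)
    (n₁ n₀ : ℕ) (hn : n₁ ≤ n₀)
    (htg : ∀ n, n₁ ≤ n → h51_Rd D (n • D1 + E) = h51_Rd D (n • D1))
    (hstr : ∀ n, n₁ ≤ n → ∀ a ∈ h51_Rd D ((n + 1) • D1),
      ∃ b ∈ h51_Rd D (n • D1), ∃ c ∈ h51_Rd D (n • D1), a = b + D.redF x * c)
    (a b : ℕ) (ha : n₀ ≤ a) (hb : n₀ ≤ b) :
    h63_Lam D D1 D2 E a b ≤
      h63_Lam D D1 D2 E a 0 ⊔ h63_Lam D D1 D2 E 0 b ⊔ h63_Lam D D1 D2 E n₀ n₀ := by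
  set T : Submodule D.A F :=
    h63_Lam D D1 D2 E a 0 ⊔ h63_Lam D D1 D2 E 0 b ⊔ h63_Lam D D1 D2 E n₀ n₀ with hT
  have hTle : T ≤ h63_Lam D D1 D2 E a b :=
    sup_le (sup_le (h63_Lam_mono D D1 D2 E hD1 hD2 le_rfl (Nat.zero_le _))
      (h63_Lam_mono D D1 D2 E hD1 hD2 (Nat.zero_le _) le_rfl))
      (h63_Lam_mono D D1 D2 E hD1 hD2 ha hb)
  have hxx : D.redF x⁻¹ * D.redF x = 1 := by
    rw [← h51_redF_mul D hxinvO hxO, inv_mul_cancel₀ hx0, h51_redF_one]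
  obtain ⟨r, hr⟩ : ∃ r, a + b = n₀ + r := ⟨a + b - n₀, by omega⟩
  -- Step A: every reduction of `Λ a b` is a reduction of `T`
  have hA : ∀ f ∈ h63_Lam D D1 D2 E a b, ∃ f'' ∈ T, D.redF f = D.redF f'' := by
    intro f hf
    have hfO : f ∈ D.O := ((h63_mem_Lam D D1 D2 E a b f).mp hf).1
    have hg : x ^ b * f ∈ h63_Lam D D1 D2 E (n₀ + r) 0 := by
      rw [← hr]
      have h1 := h63_zpow_mul_mem_Lam D D1 D2 E hx0 hxO hxinvO hxdiv (a' := a + b) (b' := 0) hf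
        (b : ℤ) (fun v => by push_cast; apply le_of_eq; ring)
      rwa [zpow_natCast] at h1
    obtain ⟨f', hf', hred⟩ := h63_gen D D1 D2 E hxO n₁ n₀ hn htg hstr r _ hg
    have hf'O : f' ∈ D.O := h63_S_le_Osub D D1 D2 E hxO n₀ r hf'
    have hle : h63_S D D1 D2 E x n₀ r ≤ Submodule.comap (LinearMap.mulLeft D.A (x⁻¹ ^ b)) T := by
      rw [h63_S, Submodule.span_le]
      rintro _ ⟨i, hi, h, hh, rfl⟩
      show x⁻¹ ^ b * (x ^ i * h) ∈ T
      have e : x⁻¹ ^ b * (x ^ i * h) = x ^ ((i : ℤ) - b) * h := by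
        rw [zpow_sub₀ hx0, zpow_natCast, zpow_natCast, inv_pow]
        field_simp
      rw [e]
      by_cases h1 : b ≤ i
      · refine Submodule.mem_sup_left (Submodule.mem_sup_left ?_)
        refine h63_zpow_mul_mem_Lam D D1 D2 E hx0 hxO hxinvO hxdiv hh _ (fun v => ?_)
        have hz : (0 : ℤ) ≤ (i : ℤ) - b := by omega
        have hz2 : (0 : ℤ) ≤ (a : ℤ) - n₀ - ((i : ℤ) - b) := by omega
        have h3 := mul_nonneg hz (hD2 v)
        have h4 := mul_nonneg hz2 (hD1 v)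
        push_cast
        nlinarith
      · by_cases h2 : i + n₀ ≤ b
        · refine Submodule.mem_sup_left (Submodule.mem_sup_right ?_)
          refine h63_zpow_mul_mem_Lam D D1 D2 E hx0 hxO hxinvO hxdiv hh _ (fun v => ?_)
          have hz : (0 : ℤ) ≤ (i : ℤ) := by omega
          have hz2 : (0 : ℤ) ≤ (b : ℤ) - i - n₀ := by omega
          have h3 := mul_nonneg hz (hD2 v)
          have h4 := mul_nonneg hz2 (hD1 v)
          push_cast
          nlinarith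
        · refine Submodule.mem_sup_right ?_
          refine h63_zpow_mul_mem_Lam D D1 D2 E hx0 hxO hxinvO hxdiv hh _ (fun v => ?_)
          have hz : (0 : ℤ) ≤ (n₀ : ℤ) - ((b : ℤ) - i) := by omega
          have hz2 : (0 : ℤ) ≤ (b : ℤ) - i := by omega
          have h3 := mul_nonneg hz (hD2 v)
          have h4 := mul_nonneg hz2 (hD1 v)
          push_cast
          nlinarith
    refine ⟨x⁻¹ ^ b * f', hle hf', ?_⟩
    rw [h51_redF_mul D (D.O.pow_mem hxinvO b) hf'O, ← hred,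
      h51_redF_mul D (D.O.pow_mem hxO b) hfO, h51_redF_pow D hxinvO, h51_redF_pow D hxO,
      ← mul_assoc, ← mul_pow, hxx, one_pow, one_mul]
  -- Step B: Nakayama
  have := hfin (a • D1 + b • D2 + E)
  have hfg : (h63_Lam D D1 D2 E a b).FG := h63_Lint_fg D hON _
  apply Submodule.le_of_le_smul_of_le_jacobson_bot hfg (IsLocalRing.maximalIdeal_le_jacobson ⊥)
  intro f hf
  obtain ⟨f'', hf'', hred⟩ := hA f hf
  have hf''L := hTle hf''
  have hdiff : f - f'' ∈ IsLocalRing.maximalIdeal D.A • h63_Lam D D1 D2 E a b := by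
    apply h63_ker_Lint D _ (Submodule.sub_mem _ hf hf''L)
    have hO1 : f ∈ D.O := ((h63_mem_Lam D D1 D2 E a b f).mp hf).1
    have hO2 : f'' ∈ D.O := ((h63_mem_Lam D D1 D2 E a b f'').mp hf''L).1
    have h1 : D.redF f = D.redF (f - f'') + D.redF f'' := by
      rw [← h51_redF_add D (D.O.sub_mem hO1 hO2) hO2, sub_add_cancel]
    rw [hred] at h1
    exact (add_eq_right.mp h1.symm)
  have e : f = f'' + (f - f'') := by ring
  rw [e]
  exact Submodule.add_mem _ (Submodule.mem_sup_left hf'') (Submodule.mem_sup_right hdiff)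

/-! ### Rank one -/

theorem h63_rankOne_nil (A : ValuationSubring K) (hRk : h39_RankOne A) (q : K) (hqA : q ∈ A)
    (hq0 : q ≠ 0) :
    ∀ a ∈ IsLocalRing.maximalIdeal A, ∃ n : ℕ, a ^ n ∈ Ideal.span {(⟨q, hqA⟩ : A)} := by
  intro a ha
  rcases eq_or_ne (a : K) 0 with h0 | h0
  · refine ⟨1, ?_⟩
    have h1 : a = 0 := Subtype.ext h0
    rw [h1, pow_one]
    exact Ideal.zero_mem _
  · have hainv : (a : K)⁻¹ ∉ A := by
      intro h
      have hunit : IsUnit a :=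
        IsUnit.of_mul_eq_one (⟨(a : K)⁻¹, h⟩ : A) (Subtype.ext (mul_inv_cancel₀ h0))
      exact (IsLocalRing.mem_maximalIdeal a).mp ha hunit
    obtain ⟨n, hn⟩ := hRk (a : K) a.2 hainv q hq0
    refine ⟨n, Ideal.mem_span_singleton'.mpr ⟨⟨(a : K) ^ n * q⁻¹, hn⟩, Subtype.ext ?_⟩⟩
    push_cast
    field_simp

theorem h63_rankOne_dvd (A : ValuationSubring K) (hRk : h39_RankOne A) (q : K) (hqA : q ∈ A)
    (hqinv : q⁻¹ ∉ A) : ∀ a : A, a ≠ 0 → ∃ n : ℕ, a ∣ (⟨q, hqA⟩ : A) ^ n := by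
  intro a ha
  have ha0 : (a : K) ≠ 0 := fun h => ha (Subtype.ext h)
  obtain ⟨n, hn⟩ := hRk q hqA hqinv (a : K) ha0
  refine ⟨n, ⟨⟨q ^ n * (a : K)⁻¹, hn⟩, Subtype.ext ?_⟩⟩
  push_cast
  field_simp

/-! ### Chart rings act on chart modules -/

theorem h63_UnP_mul_UnM (D : h22_Lat K F k Rb) (D1 D2 C : Divisor K F) (hD1 : ∀ v, 0 ≤ D1 v)
    (hD2 : ∀ v, 0 ≤ D2 v) (c1 c2 : ℕ) {p g : F} (hp : p ∈ h63_UnP D D1 D2 hD1 hD2 c1 c2)
    (hg : g ∈ h63_UnM D D1 D2 C hD1 hD2 c1 c2) : p * g ∈ h63_UnM D D1 D2 C hD1 hD2 c1 c2 := by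
  obtain ⟨n, hp⟩ := hp
  obtain ⟨n', hg⟩ := hg
  refine ⟨n + n', h63_mul_mem_Lam D D1 D2 0 C C hp hg (fun v => ?_)⟩
  rw [Finsupp.zero_apply]
  push_cast
  apply le_of_eq
  ring

theorem h63_UnM_mono (D : h22_Lat K F k Rb) (D1 D2 C : Divisor K F) (hD1 : ∀ v, 0 ≤ D1 v)
    (hD2 : ∀ v, 0 ≤ D2 v) {c1 c2 c1' c2' : ℕ} (h1 : c1 ≤ c1') (h2 : c2 ≤ c2') :
    h63_UnM D D1 D2 C hD1 hD2 c1 c2 ≤ h63_UnM D D1 D2 C hD1 hD2 c1' c2' := by
  rintro f ⟨n, hf⟩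
  exact ⟨n, h63_Lam_mono D D1 D2 C hD1 hD2 (Nat.mul_le_mul_right n h1)
    (Nat.mul_le_mul_right n h2) hf⟩

theorem h63_UnP_mono (D : h22_Lat K F k Rb) (D1 D2 : Divisor K F) (hD1 : ∀ v, 0 ≤ D1 v)
    (hD2 : ∀ v, 0 ≤ D2 v) {c1 c2 c1' c2' : ℕ} (h1 : c1 ≤ c1') (h2 : c2 ≤ c2') :
    h63_UnP D D1 D2 hD1 hD2 c1 c2 ≤ h63_UnP D D1 D2 hD1 hD2 c1' c2' := by
  rintro f ⟨n, hf⟩
  exact ⟨n, h63_Lam_mono D D1 D2 0 hD1 hD2 (Nat.mul_le_mul_right n h1)
    (Nat.mul_le_mul_right n h2) hf⟩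

theorem h63_Lam_le_UnM (D : h22_Lat K F k Rb) (D1 D2 C : Divisor K F) (hD1 : ∀ v, 0 ≤ D1 v)
    (hD2 : ∀ v, 0 ≤ D2 v) (c1 c2 n : ℕ) :
    h63_Lam D D1 D2 C (c1 * n) (c2 * n) ≤ h63_UnM D D1 D2 C hD1 hD2 c1 c2 :=
  fun _ hf => ⟨n, hf⟩

theorem h63_Lam_le_UnP (D : h22_Lat K F k Rb) (D1 D2 : Divisor K F) (hD1 : ∀ v, 0 ≤ D1 v)
    (hD2 : ∀ v, 0 ≤ D2 v) (c1 c2 n : ℕ) :
    h63_Lam D D1 D2 0 (c1 * n) (c2 * n) ≤
      Subalgebra.toSubmodule (h63_UnP D D1 D2 hD1 hD2 c1 c2) :=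
  fun _ hf => ⟨n, hf⟩

/-- `f - 1 ∈ 𝔪 • Λ` for `f ∈ Λ_0 a b` with reduction `1`. -/
theorem h63_sub_one_mem (D : h22_Lat K F k Rb) (D1 D2 : Divisor K F) (hD1 : ∀ v, 0 ≤ D1 v)
    (hD2 : ∀ v, 0 ≤ D2 v) (a b : ℕ) {f : F} (hf : f ∈ h63_Lam D D1 D2 0 a b)
    (hred : D.redF f = 1) :
    f - 1 ∈ IsLocalRing.maximalIdeal D.A • h63_Lam D D1 D2 0 a b := by
  have h1 := h63_one_mem_Lam D D1 D2 hD1 hD2 a b
  apply h63_ker_Lint D _ (Submodule.sub_mem _ hf h1)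
  have hfO : f ∈ D.O := ((h63_mem_Lam D D1 D2 0 a b f).mp hf).1
  have h2 : D.redF f = D.redF (f - 1) + D.redF 1 := by
    rw [← h51_redF_add D (D.O.sub_mem hfO D.O.one_mem) D.O.one_mem, sub_add_cancel]
  rw [hred, h51_redF_one] at h2
  exact (add_eq_right.mp h2.symm)

/-! ### The endgame -/

/-- **Global section from trivial gluing** (R63 `[P5']`).  Two charts `D1 = (x)_∞`,
`D2 = (x)_0` (`x` a unit of `O`), a toric witness `(E, u)` with trivial gluing `htg` on the first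
chart, and strictness `hstr` of the reductions on the first chart: then `L(E) ∩ O` contains an
element with reduction `1`. -/
theorem h63_exists_section (D : h22_Lat K F k Rb) (hON : h22_ON D)
    (hinv : ∀ (f : F) (hf : f ∈ D.O), IsUnit (D.red ⟨f, hf⟩) → f⁻¹ ∈ D.O)
    (hRk : h39_RankOne D.A) (q : K) (hq : q ∈ D.A.nonunits) (hq0 : q ≠ 0)
    (m : ℕ) (hm : (m : K) ≠ 0) (hmA : ((m : K))⁻¹ ∈ D.A)
    (hfin : ∀ B : Divisor K F, Module.Finite K (riemannRochSpace B))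
    (D1 D2 : Divisor K F) (hD1 : ∀ v, 0 ≤ D1 v) (hD2 : ∀ v, 0 ≤ D2 v)
    (hdisj : ∀ v, D1 v = 0 ∨ D2 v = 0)
    (x : F) (hx0 : x ≠ 0) (hxO : x ∈ D.O) (hxinvO : x⁻¹ ∈ D.O)
    (hxdiv : ∀ v : Place K F, v.ord x = D2 v - D1 v)
    (E : Divisor K F) (u : F) (hu : u ≠ 0) (hdiv : ∀ v : Place K F, (m : ℤ) * E v = v.ord u)
    (huO : u ∈ D.O) (hured : D.red ⟨u, huO⟩ = 1)
    (n₁ : ℕ)
    (htg : ∀ n, n₁ ≤ n → h51_Rd D (n • D1 + E) = h51_Rd D (n • D1))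
    (hstr : ∀ n, n₁ ≤ n → ∀ a ∈ h51_Rd D ((n + 1) • D1),
      ∃ b ∈ h51_Rd D (n • D1), ∃ c ∈ h51_Rd D (n • D1), a = b + D.redF x * c) :
    ∃ e : F, e ∈ riemannRochSpace E ∧ e ∈ D.O ∧ D.redF e = 1 := by
  -- `m = m' + 1`
  obtain ⟨m', rfl⟩ : ∃ m', m = m' + 1 := by
    rcases Nat.eq_zero_or_pos m with rfl | h
    · exact absurd Nat.cast_zero hm
    · exact ⟨m - 1, by omega⟩
  set m := m' + 1 with hmdef
  -- the unit `u`
  have huinvO : u⁻¹ ∈ D.O := hinv u huO (by rw [hured]; exact isUnit_one)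
  have hredu : D.redF u = 1 := by rw [D.redF_of_mem huO, hured]
  have hxx : D.redF x⁻¹ * D.redF x = 1 := by
    rw [← h51_redF_mul D hxinvO hxO, inv_mul_cancel₀ hx0, h51_redF_one]
  have hordu : ∀ v : Place K F, u = 0 ∨ (m : ℤ) * E v ≤ v.ord u := fun v =>
    Or.inr (le_of_eq (hdiv v))
  -- the starting sections
  have h1mem : D.redF (1 : F) ∈ h51_Rd D (n₁ • D1 + E) := by
    rw [htg n₁ le_rfl]
    refine ⟨1, ?_, D.O.one_mem, rfl⟩
    rw [mem_riemannRochSpace_iff]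
    intro v
    right
    rw [Place.ord_one, Finsupp.smul_apply, nsmul_eq_mul, neg_nonpos]
    exact mul_nonneg (Int.natCast_nonneg n₁) (hD1 v)
  obtain ⟨γ₁, hγ₁, hγ₁red⟩ := (h63_Rd_iff D D1 D2 E n₁ _).mp h1mem
  rw [h51_redF_one] at hγ₁red
  have hxmem : D.redF (x ^ n₁) ∈ h51_Rd D (n₁ • D1 + E) := by
    rw [htg n₁ le_rfl]
    refine ⟨x ^ n₁, ?_, D.O.pow_mem hxO n₁, rfl⟩
    rw [mem_riemannRochSpace_iff]
    intro v
    right
    rw [h63_ord_pow, hxdiv v, Finsupp.smul_apply, nsmul_eq_mul]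
    have := mul_nonneg (Int.natCast_nonneg n₁) (hD2 v)
    linarith
  obtain ⟨g₀, hg₀, hg₀red⟩ := (h63_Rd_iff D D1 D2 E n₁ _).mp hxmem
  have hg₀O : g₀ ∈ D.O := ((h63_mem_Lam D D1 D2 E n₁ 0 g₀).mp hg₀).1
  set γ₂ : F := x⁻¹ ^ n₁ * g₀ with hγ₂def
  have hγ₂ : γ₂ ∈ h63_Lam D D1 D2 E 0 n₁ := by
    have h1 := h63_zpow_mul_mem_Lam D D1 D2 E hx0 hxO hxinvO hxdiv (a' := 0) (b' := n₁) hg₀
      (-(n₁ : ℤ)) (fun v => by push_cast; apply le_of_eq; ring)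
    rwa [zpow_neg, zpow_natCast, ← inv_pow] at h1
  have hγ₁O : γ₁ ∈ D.O := ((h63_mem_Lam D D1 D2 E n₁ 0 γ₁).mp hγ₁).1
  have hγ₂O : γ₂ ∈ D.O := ((h63_mem_Lam D D1 D2 E 0 n₁ γ₂).mp hγ₂).1
  have hγ₂red : D.redF γ₂ = 1 := by
    rw [hγ₂def, h51_redF_mul D (D.O.pow_mem hxinvO n₁) hg₀O, hg₀red, h51_redF_pow D hxinvO,
      h51_redF_pow D hxO, ← mul_pow, hxx, one_pow]
  -- the dual generator on the second chart
  set γ₂' : F := γ₂ ^ m' * u with hγ₂'def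
  have hγ₂'O : γ₂' ∈ D.O := D.O.mul_mem (D.O.pow_mem hγ₂O m') huO
  have hγ₂' : γ₂' ∈ h63_Lam D D1 D2 (-E) 0 (m' * n₁) := by
    rw [h63_mem_Lam]
    refine ⟨hγ₂'O, fun v => ?_⟩
    have hb := ((h63_mem_Lam D D1 D2 E 0 n₁ γ₂).mp hγ₂).2 v
    rcases h63_ord_mul_le v (h63_ord_pow_le v hb m') (hordu v) with h | h
    · left; exact h
    · right
      rw [Finsupp.neg_apply]
      rw [hmdef] at h
      push_cast at h ⊢
      linarith
  have hγ₂'red : D.redF γ₂' = 1 := by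
    rw [hγ₂'def, h51_redF_mul D (D.O.pow_mem hγ₂O m') huO, h51_redF_pow D hγ₂O, hγ₂red, hredu,
      one_pow, one_mul]
  -- the ratios `vᵢ = γᵢ ^ m * u`
  set v₁ : F := γ₁ ^ m * u with hv₁def
  set v₂ : F := γ₂ ^ m * u with hv₂def
  have hv₁L : v₁ ∈ h63_Lam D D1 D2 0 (m * n₁) 0 := by
    rw [h63_mem_Lam]
    refine ⟨D.O.mul_mem (D.O.pow_mem hγ₁O m) huO, fun v => ?_⟩
    have hb := ((h63_mem_Lam D D1 D2 E n₁ 0 γ₁).mp hγ₁).2 v
    rcases h63_ord_mul_le v (h63_ord_pow_le v hb m) (hordu v) with h | h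
    · left; exact h
    · right
      rw [Finsupp.zero_apply]
      push_cast at h ⊢
      linarith
  have hv₂L : v₂ ∈ h63_Lam D D1 D2 0 0 (m * n₁) := by
    rw [h63_mem_Lam]
    refine ⟨D.O.mul_mem (D.O.pow_mem hγ₂O m) huO, fun v => ?_⟩
    have hb := ((h63_mem_Lam D D1 D2 E 0 n₁ γ₂).mp hγ₂).2 v
    rcases h63_ord_mul_le v (h63_ord_pow_le v hb m) (hordu v) with h | h
    · left; exact h
    · right
      rw [Finsupp.zero_apply]
      push_cast at h ⊢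
      linarith
  have hv₁red : D.redF v₁ = 1 := by
    rw [hv₁def, h51_redF_mul D (D.O.pow_mem hγ₁O m) huO, h51_redF_pow D hγ₁O, hγ₁red, hredu,
      one_pow, one_mul]
  have hv₂red : D.redF v₂ = 1 := by
    rw [hv₂def, h51_redF_mul D (D.O.pow_mem hγ₂O m) huO, h51_redF_pow D hγ₂O, hγ₂red, hredu,
      one_pow, one_mul]
  -- the data of the patching theorem
  obtain ⟨hqA, hqm⟩ := ValuationSubring.mem_nonunits_iff_exists_mem_maximalIdeal.mp hq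
  have hqinv : q⁻¹ ∉ D.A := by
    intro h
    have hunit : IsUnit (⟨q, hqA⟩ : D.A) :=
      IsUnit.of_mul_eq_one (⟨q⁻¹, h⟩ : D.A) (Subtype.ext (mul_inv_cancel₀ hq0))
    exact (IsLocalRing.mem_maximalIdeal _).mp hqm hunit
  have hq0' : (⟨q, hqA⟩ : D.A) ≠ 0 := fun h => hq0 (congrArg Subtype.val h)
  have hminv : ((m : ℕ) : D.A) * (⟨((m : ℕ) : K)⁻¹, hmA⟩ : D.A) = 1 := by
    apply Subtype.ext
    push_cast
    exact mul_inv_cancel₀ hm
  have hmulcomm : ∀ a b : F, a * b = b * a := mul_comm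
  obtain ⟨e, he₁, he₂, hed⟩ := h63_patch_fg (A := D.A) (F := F) (IsLocalRing.maximalIdeal D.A)
    ⟨q, hqA⟩ hqm hq0' (h63_rankOne_nil D.A hRk q hqA hq0) (h63_rankOne_dvd D.A hRk q hqA hqinv)
    m ⟨((m : ℕ) : K)⁻¹, hmA⟩ hminv
    (h63_UnP D D1 D2 hD1 hD2 1 0) (h63_UnP D D1 D2 hD1 hD2 0 1) (h63_UnP D D1 D2 hD1 hD2 1 1)
    (h63_UnP_mono D D1 D2 hD1 hD2 le_rfl (Nat.zero_le 1))
    (h63_UnP_mono D D1 D2 hD1 hD2 (Nat.zero_le 1) le_rfl)
    (h63_UnM D D1 D2 E hD1 hD2 1 0) (h63_UnM D D1 D2 E hD1 hD2 0 1)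
    (h63_UnM D D1 D2 E hD1 hD2 1 1) (h63_UnM D D1 D2 (-E) hD1 hD2 0 1)
    (h63_Lam D D1 D2 E n₁ n₁)
    (h63_UnM_mono D D1 D2 E hD1 hD2 le_rfl (Nat.zero_le 1))
    (h63_UnM_mono D D1 D2 E hD1 hD2 (Nat.zero_le 1) le_rfl)
    (fun f hf => ⟨n₁, by rwa [one_mul]⟩)
    (by have := hfin (n₁ • D1 + n₁ • D2 + E); exact h63_Lint_fg D hON _)
    (by
      rintro f ⟨n, hf⟩
      rw [one_mul] at hf
      have hf' : f ∈ h63_Lam D D1 D2 E (max n n₁) (max n n₁) :=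
        h63_Lam_mono D D1 D2 E hD1 hD2 (le_max_left _ _) (le_max_left _ _) hf
      have hd := h63_dec D hON hfin D1 D2 E hD1 hD2 hx0 hxO hxinvO hxdiv n₁ n₁ le_rfl htg hstr
        (max n n₁) (max n n₁) (le_max_right _ _) (le_max_right _ _) hf'
      have hle : h63_Lam D D1 D2 E (max n n₁) 0 ⊔ h63_Lam D D1 D2 E 0 (max n n₁) ⊔
          h63_Lam D D1 D2 E n₁ n₁ ≤
          h63_UnM D D1 D2 E hD1 hD2 1 0 ⊔ h63_UnM D D1 D2 E hD1 hD2 0 1 ⊔
            h63_Lam D D1 D2 E n₁ n₁ := by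
        refine sup_le_sup (sup_le_sup ?_ ?_) le_rfl
        · intro g hg
          exact ⟨max n n₁, by rwa [one_mul, zero_mul]⟩
        · intro g hg
          exact ⟨max n n₁, by rwa [one_mul, zero_mul]⟩
      exact hle hd)
    (fun p hp g hg => h63_UnP_mul_UnM D D1 D2 E hD1 hD2 1 0 hp hg)
    (fun p hp g hg => h63_UnP_mul_UnM D D1 D2 E hD1 hD2 0 1 hp hg)
    (fun p hp g hg => h63_UnP_mul_UnM D D1 D2 E hD1 hD2 1 1 hp hg)
    (by
      rintro g ⟨n, hg⟩ g' ⟨n', hg'⟩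
      refine ⟨n + n', h63_mul_mem_Lam D D1 D2 E (-E) 0 hg hg' (fun v => ?_)⟩
      rw [Finsupp.neg_apply, Finsupp.zero_apply]
      have := mul_nonneg (Int.natCast_nonneg n') (hD1 v)
      push_cast
      nlinarith)
    u⁻¹
    (by
      rintro g' ⟨n', hg'⟩
      refine ⟨m * n', ?_⟩
      rw [h63_mem_Lam] at hg' ⊢
      refine ⟨D.O.mul_mem huinvO (D.O.pow_mem hg'.1 m), fun v => ?_⟩
      have hui : u⁻¹ = 0 ∨ -((m : ℤ) * E v) ≤ v.ord u⁻¹ :=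
        Or.inr (by rw [Place.ord_inv, hdiv v])
      rcases h63_ord_mul_le v hui (h63_ord_pow_le v (hg'.2 v) m) with h | h
      · left; exact h
      · right
        rw [Finsupp.neg_apply] at h
        rw [Finsupp.zero_apply]
        have h3 := mul_nonneg (mul_nonneg (Int.natCast_nonneg m) (Int.natCast_nonneg n')) (hD1 v)
        push_cast at h h3 ⊢
        nlinarith)
    γ₁ γ₂ γ₂' v₁ v₂
    ⟨n₁, by rwa [one_mul, zero_mul]⟩ ⟨n₁, by rwa [one_mul, zero_mul]⟩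
    ⟨m' * n₁, by rwa [one_mul, zero_mul]⟩
    (by rw [hv₁def]; field_simp) (by rw [hv₂def]; field_simp)
    (Submodule.smul_mono le_rfl (by
        have := h63_Lam_le_UnP D D1 D2 hD1 hD2 1 0 (m * n₁)
        rwa [one_mul, zero_mul] at this)
      (h63_sub_one_mem D D1 D2 hD1 hD2 _ _ hv₁L hv₁red))
    (Submodule.smul_mono le_rfl (by
        have := h63_Lam_le_UnP D D1 D2 hD1 hD2 0 1 (m * n₁)
        rwa [one_mul, zero_mul] at this)
      (h63_sub_one_mem D D1 D2 hD1 hD2 _ _ hv₂L hv₂red))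
    (by
      have e1 : γ₂ * γ₂' = v₂ := by
        rw [hγ₂'def, hv₂def, hmdef]; ring
      rw [e1]
      refine Submodule.smul_mono le_rfl ?_ (h63_sub_one_mem D D1 D2 hD1 hD2 _ _
        (h63_Lam_mono D D1 D2 0 hD1 hD2 (Nat.zero_le (m * n₁)) le_rfl hv₂L) hv₂red)
      have := h63_Lam_le_UnP D D1 D2 hD1 hD2 1 1 (m * n₁)
      rwa [one_mul] at this)
    (by
      have hL : γ₁ - γ₂ ∈ h63_Lam D D1 D2 E n₁ n₁ :=
        Submodule.sub_mem _ (h63_Lam_mono D D1 D2 E hD1 hD2 le_rfl (Nat.zero_le _) hγ₁)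
          (h63_Lam_mono D D1 D2 E hD1 hD2 (Nat.zero_le _) le_rfl hγ₂)
      have hred0 : D.redF (γ₁ - γ₂) = 0 := by
        have h2 : D.redF γ₁ = D.redF (γ₁ - γ₂) + D.redF γ₂ := by
          rw [← h51_redF_add D (D.O.sub_mem hγ₁O hγ₂O) hγ₂O, sub_add_cancel]
        rw [hγ₁red, hγ₂red] at h2
        exact (add_eq_right.mp h2.symm)
      refine Submodule.smul_mono le_rfl ?_ (h63_ker_Lint D _ hL hred0)
      have := h63_Lam_le_UnM D D1 D2 E hD1 hD2 1 1 n₁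
      rwa [one_mul] at this)
  -- conclusion
  obtain ⟨n, hen⟩ := he₁
  obtain ⟨n', hen'⟩ := he₂
  rw [one_mul, zero_mul] at hen hen'
  have heO : e ∈ D.O := ((h63_mem_Lam D D1 D2 E n 0 e).mp hen).1
  refine ⟨e, ?_, heO, ?_⟩
  · rw [mem_riemannRochSpace_iff]
    intro v
    rcases ((h63_mem_Lam D D1 D2 E n 0 e).mp hen).2 v with h | h
    · left; exact h
    rcases ((h63_mem_Lam D D1 D2 E 0 n' e).mp hen').2 v with h' | h'
    · left; exact h'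
    right
    rcases hdisj v with h0 | h0
    · rw [h0] at h
      simp only [Nat.cast_zero, zero_mul, mul_zero, add_zero, zero_add] at h
      exact h
    · rw [h0] at h'
      simp only [Nat.cast_zero, zero_mul, mul_zero, add_zero, zero_add] at h'
      exact h'
  · have hM : h63_UnM D D1 D2 E hD1 hD2 1 0 ≤ h63_Osub D := by
      rintro f ⟨j, hf⟩
      exact ((h63_mem_Lam D D1 D2 E _ _ f).mp hf).1
    obtain ⟨hdO, hd0⟩ := h63_redF_of_mem_smul D _ hM hed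
    have h2 : D.redF e = D.redF (e - γ₁) + D.redF γ₁ := by
      rw [← h51_redF_add D hdO hγ₁O, sub_add_cancel]
    rw [h2, hd0, hγ₁red, zero_add]

/-- A divisor of degree `0` with a nonzero section is principal (all places of degree one). -/
theorem h63_principal_of_section [HasPrincipalDivisors K F]
    (hdeg : ∀ v : Place K F, v.deg = 1) (E : Divisor K F) (hE : Divisor.degree E = 0)
    (e : F) (he0 : e ≠ 0) (he : e ∈ riemannRochSpace E) :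
    E ∈ Divisor.principal (K := K) (F := F) := by
  obtain ⟨De, hDe, hdegDe⟩ := HasPrincipalDivisors.exists_divisor (K := K) e he0
  have hpos : ∀ v, 0 ≤ (E + De) v := by
    intro v
    rw [Finsupp.add_apply, hDe v]
    have := ((mem_riemannRochSpace_iff.mp he) v).resolve_left he0
    linarith
  have hdeg0 : Divisor.degree (E + De) = 0 := by rw [map_add, hE, hdegDe, add_zero]
  have hsum : Divisor.degree (E + De) = ∑ v ∈ (E + De).support, (E + De) v := by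
    unfold Divisor.degree
    rw [Finsupp.liftAddHom_apply, Finsupp.sum]
    refine Finset.sum_congr rfl fun v _ => ?_
    rw [AddMonoidHom.coe_mulRight, hdeg v, Nat.cast_one]
    exact mul_one _
  have hzero : ∀ v, (E + De) v = 0 := by
    intro v
    by_cases hv : v ∈ (E + De).support
    · rw [hsum] at hdeg0
      exact (Finset.sum_eq_zero_iff_of_nonneg (fun w _ => hpos w)).mp hdeg0 v hv
    · exact Finsupp.notMem_support_iff.mp hv
  refine ⟨e⁻¹, inv_ne_zero he0, fun v => ?_⟩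
  have h1 := hzero v
  rw [Finsupp.add_apply, hDe v] at h1
  rw [Place.ord_inv]
  linarith

/-- **The endgame target (G)** (R63): for a toric witness `(E₀, u₀)` and `g'` preserving `O`, the
reductions and the chart divisor `D0`, the divisor `g' • E₀ - E₀` is principal.  Hypotheses: the
(CHART) data of `h51_trivial_gluing` for `D0`; a unit `x` of `O` with polar divisor
`D1 = N • D0` (`N ≥ 1`) and zero divisor `D2`; strictness `hstr` of the reductions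
`red (L(n D1) ∩ O)`; rank one and `m` invertible in `A`. -/
theorem h63_principal_of_trivial_gluing [HasPrincipalDivisors K F]
    (hdeg : ∀ v : Place K F, v.deg = 1)
    (D : h22_Lat K F k Rb) (hON : h22_ON D)
    (hinv : ∀ (f : F) (hf : f ∈ D.O), IsUnit (D.red ⟨f, hf⟩) → f⁻¹ ∈ D.O)
    (hRk : h39_RankOne D.A) (q : K) (hq : q ∈ D.A.nonunits) (hq0 : q ≠ 0)
    (m : ℕ) (hm : (m : K) ≠ 0) (hmA : ((m : K))⁻¹ ∈ D.A)
    (hfin : ∀ B : Divisor K F, Module.Finite K (riemannRochSpace B))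
    (D0 D1 D2 : Divisor K F) (N : ℕ) (hN : 1 ≤ N) (hD10 : D1 = N • D0)
    (hD1 : ∀ v, 0 ≤ D1 v) (hD2 : ∀ v, 0 ≤ D2 v)
    (hdisj : ∀ v, D1 v = 0 ∨ D2 v = 0)
    (x : F) (hx0 : x ≠ 0) (hxO : x ∈ D.O) (hxinvO : x⁻¹ ∈ D.O)
    (hxdiv : ∀ v : Place K F, v.ord x = D2 v - D1 v)
    (P : ℕ → Submodule k Rb) [∀ n, FiniteDimensional k (P n)]
    (Bs : Subalgebra k Rb) (hPB : ∀ n, ∀ a ∈ P n, a ∈ Bs)
    {Z : Type*} [Fintype Z] (e1 e2 : Z → (Bs →ₐ[k] k)) (n0 : ℕ)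
    (hnode : ∀ n, n0 ≤ n → ∀ a : Rb, a ∈ h51_Rd D (n • D0) ↔
        ∃ h : a ∈ P n, ∀ ν, e2 ν ⟨a, hPB n a h⟩ = e1 ν ⟨a, hPB n a h⟩)
    (hind : ∀ n, n0 ≤ n → ∀ s t : Z → k, ∃ a, ∃ h : a ∈ P n,
        (∀ ν, e1 ν ⟨a, hPB n a h⟩ = s ν) ∧ (∀ ν, e2 ν ⟨a, hPB n a h⟩ = t ν))
    (hroot : ∀ n, ∀ a : Rb, a ^ m ∈ P (m * n) → a ∈ P n)
    (hRR : ∀ n, n0 ≤ n → ∀ E : Divisor K F, Divisor.degree E = 0 →
        Module.Finite K (riemannRochSpace (n • D0 + E)) ∧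
        Module.finrank K (riemannRochSpace (n • D0 + E)) =
          Module.finrank K (riemannRochSpace (n • D0)))
    (ns : ℕ)
    (hstr : ∀ n, ns ≤ n → ∀ a ∈ h51_Rd D ((n + 1) • D1),
      ∃ b ∈ h51_Rd D (n • D1), ∃ c ∈ h51_Rd D (n • D1), a = b + D.redF x * c)
    (g' : SemilinearAut K F) (hgO : ∀ f, f ∈ D.O → g' • f ∈ D.O)
    (hgred : ∀ f, f ∈ D.O → D.redF (g' • f) = D.redF f) (hgD0 : g' • D0 = D0)
    (E₀ : Divisor K F) (hE₀ : Divisor.degree E₀ = 0) (u₀ : F) (hu₀ : u₀ ≠ 0)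
    (hdiv : ∀ v : Place K F, (m : ℤ) * E₀ v = v.ord u₀) (hu₀O : u₀ ∈ D.O)
    (hu₀red : D.red ⟨u₀, hu₀O⟩ = 1) :
    g' • E₀ - E₀ ∈ Divisor.principal (K := K) (F := F) := by
  have hm0 : m ≠ 0 := by
    rintro rfl
    exact hm Nat.cast_zero
  obtain ⟨hEz, huz0, hdivz, huzO, huzred⟩ :=
    h51_toric_smul_sub D hinv g' hgO hgred E₀ hE₀ u₀ hu₀ hdiv hu₀O hu₀red
  have htg : ∀ n, max (2 * n0) ns ≤ n →
      h51_Rd D (n • D1 + (g' • E₀ - E₀)) = h51_Rd D (n • D1) := by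
    intro n hn
    have hn' : 2 * n0 ≤ n * N :=
      ((le_max_left _ _).trans hn).trans (Nat.le_mul_of_pos_right n hN)
    have h := h51_trivial_gluing D hON hinv D0 P Bs hPB e1 e2 n0 hm0 hnode hind hroot hRR g' hgO
      hgred hgD0 E₀ hE₀ u₀ hu₀ hdiv hu₀O hu₀red 1 (n * N) hn'
    rwa [one_smul, ← smul_smul, ← hD10] at h
  obtain ⟨e, he, heO, hered⟩ := h63_exists_section D hON hinv hRk q hq hq0 m hm hmA hfin D1 D2
    hD1 hD2 hdisj x hx0 hxO hxinvO hxdiv (g' • E₀ - E₀) ((g' • u₀) * u₀⁻¹) huz0 hdivz huzO huzred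
    (max (2 * n0) ns) htg (fun n hn => hstr n ((le_max_right _ _).trans hn))
  have he0 : e ≠ 0 := by
    rintro rfl
    have h1 : D.redF (0 : F) = 0 := by
      rw [D.redF_of_mem D.O.zero_mem]
      exact map_zero D.red
    rw [h1] at hered
    -- `Rb` is nontrivial since some reduction is nonzero
    obtain ⟨c, -, hcO, hc⟩ := D.exists_scale 1 one_ne_zero
    apply hc
    have h2 : ∀ y : Rb, y = 0 := fun y => by
      rw [← mul_one y, ← hered, mul_zero]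
    exact h2 _
  exact h63_principal_of_section hdeg _ hEz e he0 he

end Fermat.Agent.S34

end
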