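import Mathlib
import Fermat.Agent.S34.h51_Last
import Fermat.Agent.S34.h63_PatchFinal
import Fermat.Agent.S34.h20_ChartRR

/-!
# S34 / MID (helper51): the statement (G) from the chart data alone

Generic (no modular input).  Composition of

* `h63_principal_of_trivial_gluing` (helper63): (CHART) + chart unit `x` + strictness ⟹ (G);
* `h51_strict_of_chart` (helper51): strictness from the node description + the pole-order lemma
  `hPx` + the dimension formula;
* `h20_chart_rr`, `h20_finrank_nsmul_add` (helper20): Riemann–Roch in the large-degree range.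

`h51_G_of_chart` : for a lattice datum `D` over a function field `F / K` with a chart `xF`
(`K` algebraically closed), a chart divisor `D0 ≥ 0` of positive degree, a unit `x` of `O` with
`div x = D2 - N • D0` (`D2 ≥ 0` disjoint from `D0`), the special-fibre description
`(P, Bs, e1, e2, hnode, hind, hroot)` of `red (L(n D0) ∩ O)` and the pole-order lemma `hPx`
(`a, x̄ a ∈ P (n + N) ⟹ a ∈ P n`), every `g'` preserving `O`, the reductions and `D0` satisfies:
`g' • E₀ - E₀` is principal for every toric witness `(E₀, u₀)`.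
-/

set_option autoImplicit false

noncomputable section

open AlgebraicCurve Module

namespace Fermat.Agent.S34

open Fermat.Agent.S18 Fermat.Agent.S27

variable {K F k Rb : Type*} [Field K] [Field F] [Algebra K F] [Field k] [CommRing Rb]
  [Algebra k Rb]

/-- **(G) from the chart data.** -/
theorem h51_G_of_chart [IsAlgClosed K] {xF : F} (hxF : h75_IsChart K xF)
    (D : h22_Lat K F k Rb) (hON : h22_ON D)
    (hinv : ∀ (f : F) (hf : f ∈ D.O), IsUnit (D.red ⟨f, hf⟩) → f⁻¹ ∈ D.O)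
    (hRk : h39_RankOne D.A) (q : K) (hq : q ∈ D.A.nonunits) (hq0 : q ≠ 0)
    (m : ℕ) (hm : (m : K) ≠ 0) (hmA : ((m : K))⁻¹ ∈ D.A)
    (D0 D2 : Divisor K F) (hD0 : ∀ v, 0 ≤ D0 v) (hdegD0 : 1 ≤ Divisor.degree D0)
    (hD2 : ∀ v, 0 ≤ D2 v) (hdisj : ∀ v, D0 v = 0 ∨ D2 v = 0)
    (N : ℕ) (hN : 1 ≤ N)
    (x : F) (hx0 : x ≠ 0) (hxO : x ∈ D.O) (hxinvO : x⁻¹ ∈ D.O)
    (hxdiv : ∀ v : Place K F, v.ord x = D2 v - (N : ℤ) * D0 v)
    (P : ℕ → Submodule k Rb) [∀ n, FiniteDimensional k (P n)]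
    (Bs : Subalgebra k Rb) (hPB : ∀ n, ∀ a ∈ P n, a ∈ Bs)
    {Z : Type*} [Fintype Z] (e1 e2 : Z → (Bs →ₐ[k] k)) (n0 : ℕ)
    (hn0 : 2 * h75_genus K xF ≤ n0)
    (hnode : ∀ n, n0 ≤ n → ∀ a : Rb, a ∈ h51_Rd D (n • D0) ↔
        ∃ h : a ∈ P n, ∀ ν, e2 ν ⟨a, hPB n a h⟩ = e1 ν ⟨a, hPB n a h⟩)
    (hind : ∀ n, n0 ≤ n → ∀ s t : Z → k, ∃ a, ∃ h : a ∈ P n,
        (∀ ν, e1 ν ⟨a, hPB n a h⟩ = s ν) ∧ (∀ ν, e2 ν ⟨a, hPB n a h⟩ = t ν))
    (hroot : ∀ n, ∀ a : Rb, a ^ m ∈ P (m * n) → a ∈ P n)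
    (hPx : ∀ (n : ℕ) (a : Rb), a ∈ P (n + N) → D.redF x * a ∈ P (n + N) → a ∈ P n)
    (g' : SemilinearAut K F) (hgO : ∀ f, f ∈ D.O → g' • f ∈ D.O)
    (hgred : ∀ f, f ∈ D.O → D.redF (g' • f) = D.redF f) (hgD0 : g' • D0 = D0)
    (E₀ : Divisor K F) (hE₀ : Divisor.degree E₀ = 0) (u₀ : F) (hu₀ : u₀ ≠ 0)
    (hdiv : ∀ v : Place K F, (m : ℤ) * E₀ v = v.ord u₀) (hu₀O : u₀ ∈ D.O)
    (hu₀red : D.red ⟨u₀, hu₀O⟩ = 1) :
    g' • E₀ - E₀ ∈ Divisor.principal (K := K) (F := F) := by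
  have : HasPrincipalDivisors K F := h75_hasPrincipalDivisors hxF
  have hfin : ∀ B : Divisor K F, Module.Finite K (riemannRochSpace B) :=
    fun B => (h75_riemann hxF B).1
  have hN0 : 0 < N := hN
  -- the polar divisor
  have hD1 : ∀ v, 0 ≤ (N • D0) v := by
    intro v
    rw [Finsupp.smul_apply, nsmul_eq_mul]
    exact mul_nonneg (Nat.cast_nonneg N) (hD0 v)
  have hdisj' : ∀ v, (N • D0) v = 0 ∨ D2 v = 0 := by
    intro v
    rcases hdisj v with h | h
    · left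
      rw [Finsupp.smul_apply, h, smul_zero]
    · exact Or.inr h
  have hxdiv' : ∀ v : Place K F, v.ord x = D2 v - (N • D0) v := by
    intro v
    rw [hxdiv v, Finsupp.smul_apply, nsmul_eq_mul]
  have hxL : x ∈ riemannRochSpace (N • D0) := by
    rw [mem_riemannRochSpace_iff]
    intro v
    right
    rw [hxdiv' v]
    have := hD2 v
    linarith
  -- the dimension formula
  have hdegN : 1 ≤ Divisor.degree (N • D0) := by
    rw [map_nsmul, nsmul_eq_mul]
    have h1 : (1 : ℤ) ≤ (N : ℤ) := by exact_mod_cast hN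
    nlinarith
  have hdim : ∀ n, 2 * h75_genus K xF ≤ n →
      (Module.finrank K (riemannRochSpace (n • (N • D0))) : ℤ) =
        Divisor.degree (N • D0) * n + (1 - (h75_genus K xF : ℤ)) := by
    intro n hn
    have h := h20_finrank_nsmul_add hxF (N • D0) hdegN n hn 0 (map_zero _)
    rw [add_zero] at h
    rw [h]
    ring
  -- strictness
  have hstr : ∀ n, max (2 * h75_genus K xF) n0 + 1 ≤ n →
      ∀ a ∈ h51_Rd D ((n + 1) • (N • D0)), ∃ b ∈ h51_Rd D (n • (N • D0)),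
        ∃ c ∈ h51_Rd D (n • (N • D0)), a = b + D.redF x * c := by
    intro n hn
    exact h51_strict_of_chart D hON D0 hD0 P Bs hPB e1 e2 n0 hnode N hN0 x hxO hxL hPx
      (fun n => hfin _) (Divisor.degree (N • D0)) (1 - (h75_genus K xF : ℤ))
      (2 * h75_genus K xF) hdim n
      (le_trans (Nat.succ_le_succ (le_max_left _ _)) hn)
      (le_trans (Nat.succ_le_succ (le_max_right _ _)) hn)
  exact h63_principal_of_trivial_gluing (h75_deg_eq_one hxF) D hON hinv hRk q hq hq0 m hm hmA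
    hfin D0 (N • D0) D2 N hN rfl hD1 hD2 hdisj' x hx0 hxO hxinvO hxdiv' P Bs hPB e1 e2 n0
    hnode hind hroot (h20_chart_rr hxF D0 hdegD0 n0 hn0) (max (2 * h75_genus K xF) n0 + 1) hstr
    g' hgO hgred hgD0 E₀ hE₀ u₀ hu₀ hdiv hu₀O hu₀red

end Fermat.Agent.S34
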