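import Mathlib
import Fermat.Agent.S34.h51_Mid
import Fermat.Agent.S34.h20_ChartSF

/-!
# S34 / MID-SF (helper51): (G) for a two-component special fibre with nodes

Generic (no modular input).  `h51_G_of_chart` (file `h51_Mid.lean`) with the special-fibre objects
of helper20 (`h20_ChartSF.lean`) plugged in: `Rb = Fb × Fb`, `P n = L(n Qinf) × L(n Qinf)`,
nodes `Z` with branches `Q1 ν` (on the first component) and `Q2 ν` (on the second).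

* `h51_P_of_mul` : the pole-order lemma `hPx` from the pole orders of the two components of `x̄`
  at `Qinf`;
* `h51_node_iff` : the node condition "the value of `a.1` at `Q1 ν` equals the value of `a.2` at
  `Q2 ν`" in the `e1 / e2` shape of `h51_Glue`;
* `h51_G_of_sf` : **(G)** from
  - a lattice datum `D` with `h22_ON`, `hinv`, rank one;
  - a chart unit `x` (`div x = D2 - N • D0`) whose two reductions have a pole of order `≥ N` at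
    `Qinf`;
  - the node description `hnode` of `red (L(n D0) ∩ O)` for `n ≥ n0`;
  - `g'` preserving `O`, the reductions and `D0`.
-/

set_option autoImplicit false

noncomputable section

open AlgebraicCurve Module

namespace Fermat.Agent.S34

open Fermat.Agent.S18 Fermat.Agent.S24 Fermat.Agent.S27

variable {K F k Fb : Type*} [Field K] [Field F] [Algebra K F] [Field k] [Field Fb] [Algebra k Fb]

/-- One component of the pole-order lemma. -/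
theorem h51_rr_of_mul (Qinf : Place k Fb) (N : ℕ) {y : Fb} (hy0 : y ≠ 0)
    (hy : Qinf.ord y ≤ -(N : ℤ)) (n : ℕ) {f : Fb}
    (hf : f ∈ riemannRochSpace (h20_Dinf Qinf (n + N)))
    (hyf : y * f ∈ riemannRochSpace (h20_Dinf Qinf (n + N))) :
    f ∈ riemannRochSpace (h20_Dinf Qinf n) := by
  rw [h20_mem_rr_Dinf] at hf hyf ⊢
  refine ⟨?_, hf.2⟩
  rcases eq_or_ne f 0 with rfl | hf0
  · exact Or.inl rfl
  right
  have h1 := hyf.1.resolve_left (mul_ne_zero hy0 hf0)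
  rw [Qinf.ord_mul hy0 hf0] at h1
  push_cast at h1
  linarith

/-- **The pole-order lemma `hPx`**: if both components of `xb` have a pole of order at least `N`
at `Qinf`, then `a, xb * a ∈ P (n + N)` implies `a ∈ P n`. -/
theorem h51_P_of_mul (Qinf : Place k Fb) (N : ℕ) (xb : Fb × Fb) (hx1 : xb.1 ≠ 0)
    (hx2 : xb.2 ≠ 0) (h1 : Qinf.ord xb.1 ≤ -(N : ℤ)) (h2 : Qinf.ord xb.2 ≤ -(N : ℤ)) :
    ∀ (n : ℕ) (a : Fb × Fb), a ∈ h20_P Qinf (n + N) → xb * a ∈ h20_P Qinf (n + N) →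
      a ∈ h20_P Qinf n := by
  intro n a ha hxa
  rw [h20_mem_P] at ha hxa ⊢
  exact ⟨h51_rr_of_mul Qinf N hx1 h1 n ha.1 hxa.1, h51_rr_of_mul Qinf N hx2 h2 n ha.2 hxa.2⟩

/-- The node condition in the `e1 / e2` shape of `h51_Glue`. -/
theorem h51_node_iff [IsAlgClosed k] {xb : Fb} (hxb : h75_IsChart k xb) (Qinf : Place k Fb)
    {Z : Type*} (Q1 Q2 : Z → Place k Fb) (h1 : ∀ ν, Q1 ν ≠ Qinf) (h2 : ∀ ν, Q2 ν ≠ Qinf)
    (n : ℕ) (a : Fb × Fb) :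
    (a ∈ h20_P Qinf n ∧ ∀ ν, ∃ c : k, h39_Val (Q1 ν) a.1 c ∧ h39_Val (Q2 ν) a.2 c) ↔
      ∃ h : a ∈ h20_P Qinf n,
        ∀ ν, h20_e2 hxb Qinf Q2 h2 ν ⟨a, h20_P_le_Bs Qinf n a h⟩ =
          h20_e1 hxb Qinf Q1 h1 ν ⟨a, h20_P_le_Bs Qinf n a h⟩ := by
  constructor
  · rintro ⟨h, hc⟩
    refine ⟨h, fun ν => ?_⟩
    obtain ⟨c, hc1, hc2⟩ := hc ν
    rw [h20_e2_eq hxb Qinf Q2 h2 ν ⟨a, h20_P_le_Bs Qinf n a h⟩ hc2,
      h20_e1_eq hxb Qinf Q1 h1 ν ⟨a, h20_P_le_Bs Qinf n a h⟩ hc1]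
  · rintro ⟨h, he⟩
    refine ⟨h, fun ν => ⟨h20_e1 hxb Qinf Q1 h1 ν ⟨a, h20_P_le_Bs Qinf n a h⟩,
      h20_e1_spec hxb Qinf Q1 h1 ν ⟨a, h20_P_le_Bs Qinf n a h⟩, ?_⟩⟩
    rw [← he ν]
    exact h20_e2_spec hxb Qinf Q2 h2 ν ⟨a, h20_P_le_Bs Qinf n a h⟩

/-- **(G) for a two-component special fibre with nodes.** -/
theorem h51_G_of_sf [IsAlgClosed K] [IsAlgClosed k] {xF : F} (hxF : h75_IsChart K xF)
    {xb : Fb} (hxb : h75_IsChart k xb)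
    (D : h22_Lat K F k (Fb × Fb)) (hON : h22_ON D)
    (hinv : ∀ (f : F) (hf : f ∈ D.O), IsUnit (D.red ⟨f, hf⟩) → f⁻¹ ∈ D.O)
    (hRk : h39_RankOne D.A) (q : K) (hq : q ∈ D.A.nonunits) (hq0 : q ≠ 0)
    (m : ℕ) (hm : (m : K) ≠ 0) (hmA : ((m : K))⁻¹ ∈ D.A)
    (D0 D2 : Divisor K F) (hD0 : ∀ v, 0 ≤ D0 v) (hdegD0 : 1 ≤ Divisor.degree D0)
    (hD2 : ∀ v, 0 ≤ D2 v) (hdisj : ∀ v, D0 v = 0 ∨ D2 v = 0)
    (N : ℕ) (hN : 1 ≤ N)
    (x : F) (hx0 : x ≠ 0) (hxO : x ∈ D.O) (hxinvO : x⁻¹ ∈ D.O)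
    (hxdiv : ∀ v : Place K F, v.ord x = D2 v - (N : ℤ) * D0 v)
    (Qinf : Place k Fb)
    (hxb1 : Qinf.ord (D.redF x).1 ≤ -(N : ℤ)) (hxb2 : Qinf.ord (D.redF x).2 ≤ -(N : ℤ))
    {Z : Type*} [Fintype Z] (Q1 Q2 : Z → Place k Fb)
    (h1 : ∀ ν, Q1 ν ≠ Qinf) (h2 : ∀ ν, Q2 ν ≠ Qinf)
    (hinj1 : Function.Injective Q1) (hinj2 : Function.Injective Q2)
    (n0 : ℕ) (hn0F : 2 * h75_genus K xF ≤ n0)
    (hn0b : 2 * h75_genus k xb + Fintype.card Z ≤ n0)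
    (hnode : ∀ n, n0 ≤ n → ∀ a : Fb × Fb, a ∈ h51_Rd D (n • D0) ↔
        (a ∈ h20_P Qinf n ∧ ∀ ν, ∃ c : k, h39_Val (Q1 ν) a.1 c ∧ h39_Val (Q2 ν) a.2 c))
    (g' : SemilinearAut K F) (hgO : ∀ f, f ∈ D.O → g' • f ∈ D.O)
    (hgred : ∀ f, f ∈ D.O → D.redF (g' • f) = D.redF f) (hgD0 : g' • D0 = D0)
    (E₀ : Divisor K F) (hE₀ : Divisor.degree E₀ = 0) (u₀ : F) (hu₀ : u₀ ≠ 0)
    (hdiv : ∀ v : Place K F, (m : ℤ) * E₀ v = v.ord u₀) (hu₀O : u₀ ∈ D.O)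
    (hu₀red : D.red ⟨u₀, hu₀O⟩ = 1) :
    g' • E₀ - E₀ ∈ Divisor.principal (K := K) (F := F) := by
  have hm0 : m ≠ 0 := by
    rintro rfl
    exact hm Nat.cast_zero
  have hxx : D.redF x * D.redF x⁻¹ = 1 := by
    rw [← h51_redF_mul D hxO hxinvO, mul_inv_cancel₀ hx0, h51_redF_one]
  have hx1 : (D.redF x).1 ≠ 0 := by
    intro h
    have := congrArg Prod.fst hxx
    rw [Prod.fst_mul, h, zero_mul] at this
    exact zero_ne_one this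
  have hx2 : (D.redF x).2 ≠ 0 := by
    intro h
    have := congrArg Prod.snd hxx
    rw [Prod.snd_mul, h, zero_mul] at this
    exact zero_ne_one this
  have hfinP : ∀ n, FiniteDimensional k (h20_P Qinf n) := h20_P_finite hxb Qinf
  exact h51_G_of_chart hxF D hON hinv hRk q hq hq0 m hm hmA D0 D2 hD0 hdegD0 hD2 hdisj N hN
    x hx0 hxO hxinvO hxdiv (h20_P Qinf) (h20_Bs Qinf) (h20_P_le_Bs Qinf)
    (h20_e1 hxb Qinf Q1 h1) (h20_e2 hxb Qinf Q2 h2) n0 hn0F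
    (fun n hn a => (hnode n hn a).trans (h51_node_iff hxb Qinf Q1 Q2 h1 h2 n a))
    (fun n hn => h20_chart_ind hxb Qinf Q1 Q2 h1 h2 hinj1 hinj2 n (le_trans hn0b hn))
    (h20_chart_root Qinf hm0)
    (h51_P_of_mul Qinf N (D.redF x) hx1 hx2 hxb1 hxb2)
    g' hgO hgred hgD0 E₀ hE₀ u₀ hu₀ hdiv hu₀O hu₀red

end Fermat.Agent.S34
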