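import Mathlib
import Fermat.Agent.S34.h51_MidSF
import Fermat.Agent.S34.h16_NodeChart
import Fermat.Agent.S34.h98_FrobNodes2

/-!
# S34 / NODE-ASM (helper51): the node description and (G) from (INT) + (LEAD) + (GRAPH)

Generic (no modular input).  Composition of

* `h98_frob_nodes_off` (helper98): a subalgebra of pairs of functions regular off `Qinf`
  containing the two Frobenius graphs is cut out by node conditions at a finite set `Sg`;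
* `h16_node_chart` (helper16): (SAT), the passage from the ring `⋃ₙ red (L(n D0) ∩ O)` to the
  levels `n ≥ n₀`;
* `h51_G_of_sf` (helper51): (G) for a two-component special fibre with nodes.

Main statements:

* `h51_RdUnion D D0 hD0` : the `k`-subalgebra `⋃ₙ red (L(n D0) ∩ O)` of `Rb`;
* `h51_node_of_frob` : the node description of `red (L(n D0) ∩ O)`, `n ≥ max n₁ g_F`, from
  (INT) `hreg`, (LEAD) `hlead₁ / hlead₂`, (GRAPH) `hB1 / hB2`, a Frobenius chart `h` and a chart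
  `y` whose only pole is `Qinf`;
* `h51_G_of_frob` : **(G)** from the same data, a chart unit `x` and Galois invariance.
-/

set_option autoImplicit false

noncomputable section

open AlgebraicCurve Module

namespace Fermat.Agent.S34

open Fermat.Agent.S18 Fermat.Agent.S24 Fermat.Agent.S27

section Union

variable {K F k Rb : Type*} [Field K] [Field F] [Algebra K F] [Field k] [CommRing Rb]
  [Algebra k Rb]

theorem h51_Rd_nsmul_le (D : h22_Lat K F k Rb) (D0 : Divisor K F) (hD0 : ∀ v, 0 ≤ D0 v)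
    {n n' : ℕ} (h : n ≤ n') : h51_Rd D (n • D0) ≤ h51_Rd D (n' • D0) := by
  apply h51_Rd_mono
  intro v
  rw [Finsupp.smul_apply, Finsupp.smul_apply, nsmul_eq_mul, nsmul_eq_mul]
  exact mul_le_mul_of_nonneg_right (by exact_mod_cast h) (hD0 v)

theorem h51_algebraMap_mem_Rd (D : h22_Lat K F k Rb) (c : k) :
    algebraMap k Rb c ∈ h51_Rd D (0 : Divisor K F) := by
  obtain ⟨a, rfl⟩ := D.res_surjective c
  have haO : algebraMap K F (a : K) ∈ D.O := (D.mem_iff a).mp a.2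
  refine ⟨algebraMap K F (a : K), ?_, haO, ?_⟩
  · rw [mem_riemannRochSpace_iff]
    intro v
    right
    rw [h24_ord_algebraMap, Finsupp.zero_apply, neg_zero]
  · rw [D.redF_of_mem haO, D.red_algebraMap (a : K) a.2 haO]

/-- The ring `⋃ₙ red (L(n D0) ∩ O)`. -/
def h51_RdUnion (D : h22_Lat K F k Rb) (D0 : Divisor K F) (hD0 : ∀ v, 0 ≤ D0 v) :
    Subalgebra k Rb where
  carrier := {a | ∃ n : ℕ, a ∈ h51_Rd D (n • D0)}
  mul_mem' := by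
    rintro a b ⟨n, ha⟩ ⟨n', hb⟩
    refine ⟨n + n', ?_⟩
    rw [add_nsmul]
    exact h51_Rd_mul D ha hb
  one_mem' := by
    refine ⟨0, ?_⟩
    rw [zero_nsmul]
    have := h51_algebraMap_mem_Rd (F := F) D (1 : k)
    rwa [map_one] at this
  add_mem' := by
    rintro a b ⟨n, ha⟩ ⟨n', hb⟩
    exact ⟨max n n', Submodule.add_mem _
      (h51_Rd_nsmul_le D D0 hD0 (le_max_left n n') ha)
      (h51_Rd_nsmul_le D D0 hD0 (le_max_right n n') hb)⟩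
  zero_mem' := ⟨0, Submodule.zero_mem _⟩
  algebraMap_mem' := by
    intro c
    refine ⟨0, ?_⟩
    rw [zero_nsmul]
    exact h51_algebraMap_mem_Rd D c

theorem h51_mem_RdUnion (D : h22_Lat K F k Rb) (D0 : Divisor K F) (hD0 : ∀ v, 0 ≤ D0 v)
    (a : Rb) : a ∈ h51_RdUnion D D0 hD0 ↔ ∃ n : ℕ, a ∈ h51_Rd D (n • D0) :=
  Iff.rfl

end Union

variable {K F k Fb : Type*} [Field K] [Field F] [Algebra K F] [Field k] [Field Fb] [Algebra k Fb]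

/-- Regular off `Q` ⟺ in some `L(n Q)`. -/
theorem h51_reg_iff_Linf (Q : Place k Fb) (f : Fb) :
    (∀ Q' : Place k Fb, Q' ≠ Q → f ∈ Q'.toValuationSubring) ↔ ∃ n : ℕ, f ∈ h16_Linf Q n := by
  constructor
  · intro h
    rcases eq_or_ne f 0 with rfl | hf
    · exact ⟨0, Submodule.zero_mem _⟩
    · refine ⟨(-(Q.ord f)).toNat, h16_mem_Linf.mpr (Or.inr ⟨fun P hP =>
        h24_ord_nonneg_of_mem P (h P hP), ?_⟩)⟩
      have := Int.self_le_toNat (-(Q.ord f))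
      linarith
  · rintro ⟨n, hn⟩ Q' hQ'
    rcases h16_mem_Linf.mp hn with rfl | ⟨h1, _⟩
    · exact zero_mem _
    · exact h24_mem_of_ord_nonneg Q' (h1 Q' hQ')

theorem h51_mem_P_iff_Linf (Q : Place k Fb) (n : ℕ) (a : Fb × Fb) :
    a ∈ h20_P Q n ↔ a.1 ∈ h16_Linf Q n ∧ a.2 ∈ h16_Linf Q n :=
  h20_mem_P

section Frob

variable [IsAlgClosed K] [IsAlgClosed k] {q : ℕ} [Fact q.Prime] [CharP k q]

/-- **(NODE)** from (INT), (LEAD), (GRAPH) and the Frobenius chart. -/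
theorem h51_node_of_frob {xF : F} (hxF : h75_IsChart K xF)
    {xφ : Fb} {φ : Fb →+* Fb} (h : h96_IsFrobChart k q xφ φ)
    {y : Fb} (hy : h75_IsChart k y) (Qinf : Place k Fb)
    (hpole : ∀ Q : Place k Fb, y ∈ Q.toValuationSubring ↔ Q ≠ Qinf)
    (hfix : h96_frobPerm h Qinf = Qinf)
    (D : h22_Lat K F k (Fb × Fb)) (hON : h22_ON D) (D0 : Divisor K F) (hD0 : ∀ v, 0 ≤ D0 v)
    (hdeg : Divisor.degree D0 = 2)
    (hreg : ∀ n, ∀ a ∈ h51_Rd D (n • D0), a.1 ∈ h16_Linf Qinf n ∧ a.2 ∈ h16_Linf Qinf n)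
    (n₁ : ℕ)
    (hlead₁ : ∀ n, n₁ ≤ n → ∃ x ∈ h51_Rd D ((n + 1) • D0),
      x.1 ∉ h16_Linf Qinf n ∧ x.2 ∈ h16_Linf Qinf n)
    (hlead₂ : ∀ n, n₁ ≤ n → ∃ y ∈ h51_Rd D ((n + 1) • D0),
      y.1 ∈ h16_Linf Qinf n ∧ y.2 ∉ h16_Linf Qinf n)
    (hB1 : ∀ b : Fb, (∀ Q : Place k Fb, Q ≠ Qinf → b ∈ Q.toValuationSubring) →
      ∃ n : ℕ, (b, φ b) ∈ h51_Rd D (n • D0))
    (hB2 : ∀ b : Fb, (∀ Q : Place k Fb, Q ≠ Qinf → b ∈ Q.toValuationSubring) →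
      ∃ n : ℕ, (φ b, b) ∈ h51_Rd D (n • D0)) :
    ∃ Sg : Finset (Place k Fb),
      (∀ Q ∈ Sg, Q ≠ Qinf ∧ h96_frobPerm h Q ≠ Qinf ∧
        h96_frobPerm h (h96_frobPerm h Q) = Q) ∧
      ∀ n, max n₁ (h75_genus K xF) ≤ n → ∀ a : Fb × Fb, a ∈ h51_Rd D (n • D0) ↔
        (a ∈ h20_P Qinf n ∧
          ∀ Q ∈ Sg, ∃ c : k, h39_Val (h96_frobPerm h Q) a.1 c ∧ h39_Val Q a.2 c) := by
  have hBR : ∀ a ∈ h51_RdUnion D D0 hD0, ∀ Q : Place k Fb, Q ≠ Qinf →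
      a.1 ∈ Q.toValuationSubring ∧ a.2 ∈ Q.toValuationSubring := by
    rintro a ⟨n, ha⟩ Q hQ
    obtain ⟨h1, h2⟩ := hreg n a ha
    exact ⟨(h51_reg_iff_Linf Qinf a.1).mpr ⟨n, h1⟩ Q hQ,
      (h51_reg_iff_Linf Qinf a.2).mpr ⟨n, h2⟩ Q hQ⟩
  obtain ⟨Sg, hSg, hmem⟩ := h98_frob_nodes_off h hy Qinf hpole hfix (h51_RdUnion D D0 hD0) hBR
    hB1 hB2
  refine ⟨Sg, hSg, fun n hn a => ?_⟩
  have hunion : ∀ a : Fb × Fb, (∃ n : ℕ, a ∈ h51_Rd D (n • D0)) ↔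
      (∃ n : ℕ, a.1 ∈ h16_Linf Qinf n ∧ a.2 ∈ h16_Linf Qinf n) ∧
        ∀ Q ∈ Sg, ∃ c : k, h39_Val (h96_frobPerm h Q) a.1 c ∧ h39_Val Q a.2 c := by
    intro a
    rw [← h51_mem_RdUnion D D0 hD0 a, hmem a]
    refine and_congr ?_ Iff.rfl
    constructor
    · intro hr
      obtain ⟨n1, h1⟩ := (h51_reg_iff_Linf Qinf a.1).mp (fun Q hQ => (hr Q hQ).1)
      obtain ⟨n2, h2⟩ := (h51_reg_iff_Linf Qinf a.2).mp (fun Q hQ => (hr Q hQ).2)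
      exact ⟨max n1 n2, h16_Linf_mono Qinf (le_max_left n1 n2) h1,
        h16_Linf_mono Qinf (le_max_right n1 n2) h2⟩
    · rintro ⟨n, h1, h2⟩ Q hQ
      exact ⟨(h51_reg_iff_Linf Qinf a.1).mpr ⟨n, h1⟩ Q hQ,
        (h51_reg_iff_Linf Qinf a.2).mpr ⟨n, h2⟩ Q hQ⟩
  have hD0' : (0 : Divisor K F) ≤ D0 := fun v => hD0 v
  rw [h51_mem_P_iff_Linf]
  exact h16_node_chart hxF hy D hON D0 hD0' hdeg Qinf hreg n₁ hlead₁ hlead₂
    (fun a => ∀ Q ∈ Sg, ∃ c : k, h39_Val (h96_frobPerm h Q) a.1 c ∧ h39_Val Q a.2 c)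
    hunion n hn a

/-- **(G)** from (INT), (LEAD), (GRAPH), the Frobenius chart, a chart unit and Galois
invariance. -/
theorem h51_G_of_frob {xF : F} (hxF : h75_IsChart K xF)
    {xφ : Fb} {φ : Fb →+* Fb} (h : h96_IsFrobChart k q xφ φ)
    {y : Fb} (hy : h75_IsChart k y) (Qinf : Place k Fb)
    (hpole : ∀ Q : Place k Fb, y ∈ Q.toValuationSubring ↔ Q ≠ Qinf)
    (hfix : h96_frobPerm h Qinf = Qinf)
    (D : h22_Lat K F k (Fb × Fb)) (hON : h22_ON D)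
    (hinv : ∀ (f : F) (hf : f ∈ D.O), IsUnit (D.red ⟨f, hf⟩) → f⁻¹ ∈ D.O)
    (hRk : h39_RankOne D.A) (π : K) (hπ : π ∈ D.A.nonunits) (hπ0 : π ≠ 0)
    (m : ℕ) (hm : (m : K) ≠ 0) (hmA : ((m : K))⁻¹ ∈ D.A)
    (D0 D2 : Divisor K F) (hD0 : ∀ v, 0 ≤ D0 v) (hdeg : Divisor.degree D0 = 2)
    (hD2 : ∀ v, 0 ≤ D2 v) (hdisj : ∀ v, D0 v = 0 ∨ D2 v = 0)
    (N : ℕ) (hN : 1 ≤ N)
    (x : F) (hx0 : x ≠ 0) (hxO : x ∈ D.O) (hxinvO : x⁻¹ ∈ D.O)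
    (hxdiv : ∀ v : Place K F, v.ord x = D2 v - (N : ℤ) * D0 v)
    (hxb1 : Qinf.ord (D.redF x).1 ≤ -(N : ℤ)) (hxb2 : Qinf.ord (D.redF x).2 ≤ -(N : ℤ))
    (hreg : ∀ n, ∀ a ∈ h51_Rd D (n • D0), a.1 ∈ h16_Linf Qinf n ∧ a.2 ∈ h16_Linf Qinf n)
    (n₁ : ℕ)
    (hlead₁ : ∀ n, n₁ ≤ n → ∃ x ∈ h51_Rd D ((n + 1) • D0),
      x.1 ∉ h16_Linf Qinf n ∧ x.2 ∈ h16_Linf Qinf n)
    (hlead₂ : ∀ n, n₁ ≤ n → ∃ y ∈ h51_Rd D ((n + 1) • D0),
      y.1 ∈ h16_Linf Qinf n ∧ y.2 ∉ h16_Linf Qinf n)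
    (hB1 : ∀ b : Fb, (∀ Q : Place k Fb, Q ≠ Qinf → b ∈ Q.toValuationSubring) →
      ∃ n : ℕ, (b, φ b) ∈ h51_Rd D (n • D0))
    (hB2 : ∀ b : Fb, (∀ Q : Place k Fb, Q ≠ Qinf → b ∈ Q.toValuationSubring) →
      ∃ n : ℕ, (φ b, b) ∈ h51_Rd D (n • D0))
    (g' : SemilinearAut K F) (hgO : ∀ f, f ∈ D.O → g' • f ∈ D.O)
    (hgred : ∀ f, f ∈ D.O → D.redF (g' • f) = D.redF f) (hgD0 : g' • D0 = D0)
    (E₀ : Divisor K F) (hE₀ : Divisor.degree E₀ = 0) (u₀ : F) (hu₀ : u₀ ≠ 0)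
    (hdiv : ∀ v : Place K F, (m : ℤ) * E₀ v = v.ord u₀) (hu₀O : u₀ ∈ D.O)
    (hu₀red : D.red ⟨u₀, hu₀O⟩ = 1) :
    g' • E₀ - E₀ ∈ Divisor.principal (K := K) (F := F) := by
  obtain ⟨Sg, hSg, hnode⟩ := h51_node_of_frob hxF h hy Qinf hpole hfix D hON D0 hD0 hdeg hreg n₁
    hlead₁ hlead₂ hB1 hB2
  have hdegD0 : 1 ≤ Divisor.degree D0 := by
    rw [hdeg]
    norm_num
  refine h51_G_of_sf hxF hy D hON hinv hRk π hπ hπ0 m hm hmA D0 D2 hD0 hdegD0 hD2 hdisj N hN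
    x hx0 hxO hxinvO hxdiv Qinf hxb1 hxb2
    (Z := {Q // Q ∈ Sg}) (fun ν => h96_frobPerm h ν.1) (fun ν => ν.1)
    (fun ν => (hSg ν.1 ν.2).2.1) (fun ν => (hSg ν.1 ν.2).1)
    (fun a b hab => Subtype.ext ((h96_frobPerm h).injective hab))
    (fun a b hab => Subtype.ext hab)
    (max (max n₁ (h75_genus K xF))
      (max (2 * h75_genus K xF) (2 * h75_genus k y + Fintype.card {Q // Q ∈ Sg})))
    (le_trans (le_max_left _ _) (le_max_right _ _))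
    (le_trans (le_max_right _ _) (le_max_right _ _))
    (fun n hn a => ?_)
    g' hgO hgred hgD0 E₀ hE₀ u₀ hu₀ hdiv hu₀O hu₀red
  rw [hnode n (le_trans (le_max_left _ _) hn) a]
  refine and_congr Iff.rfl ?_
  constructor
  · intro hc ν
    exact hc ν.1 ν.2
  · intro hc Q hQ
    exact hc ⟨Q, hQ⟩

end Frob

end Fermat.Agent.S34
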