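/-
S34 (helper10): the cusp `∞` of a function field of `q`-series, as a place.

`K` a field, `F` an intermediate field of `K((q))`.  A place `P` of `F/K` *is the cusp*
(`h10_IsCusp F P`) if its order function is the `q`-order.  Such a place exists as soon as `F`
contains a series of order `-1` (for the modular fields: `j`), it is unique, membership in its
valuation ring is `0 ≤ q-order`, and the value of a function at it is the constant coefficient.
-/
import Mathlib
import Fermat.Agent.S24.h56_Count
import Fermat.Agent.S24.h35_PlaceBasic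
import Fermat.Agent.S18.h39_GRDefs
import Fermat.Prelude.Def_ModularCurve_LaurentCoeff

set_option autoImplicit false

noncomputable section

namespace Fermat.Agent.S34

open AlgebraicCurve HahnSeries Fermat.Agent.S24 Fermat.Agent.S18

variable {K : Type*} [Field K]

/-- A normalised integer valued valuation (one taking the value `-1`) is the order function of
a place. -/
theorem h10_exists_place_of_isOrd {K F : Type*} [Field K] [Field F] [Algebra K F] (o : F → ℤ)
    (ho : h56_IsOrd K o) (hu : ∃ u : F, u ≠ 0 ∧ o u = -1) :
    ∃ P : Place K F, ∀ f : F, f ≠ 0 → P.ord f = o f := by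
  obtain ⟨u, hu0, hu⟩ := hu
  have hnt : ∃ f : F, f ≠ 0 ∧ o f ≠ 0 := ⟨u, hu0, by rw [hu]; norm_num⟩
  obtain ⟨m, hm, -, hord⟩ := h56_placeOfOrd_ord ho hnt
  refine ⟨h56_placeOfOrd _ ho hnt, fun f hf => ?_⟩
  have h1 := hord u hu0
  have hm1 : m = 1 := by
    have h1' : (-1 : ℤ) = m * (h56_placeOfOrd _ ho hnt).ord u := by
      rw [← h1]; exact hu.symm
    have hdvd : m ∣ 1 := ⟨-(h56_placeOfOrd _ ho hnt).ord u, by linarith⟩
    exact Int.eq_one_of_dvd_one hm.le hdvd
  have h2 := hord f hf
  rw [hm1, one_mul] at h2
  exact h2.symm

theorem h10_coe_algebraMap (F : IntermediateField K (LaurentSeries K)) (c : K) :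
    ((algebraMap K F c : F) : LaurentSeries K) = HahnSeries.single 0 c := by
  rw [← ModularCurve.algebraMap_laurentSeries_eq_single]
  exact (IsScalarTower.algebraMap_apply K F (LaurentSeries K) c).symm

/-- The `q`-order is an integer valued valuation on every intermediate field of `K((q))`. -/
theorem h10_isOrd_order (F : IntermediateField K (LaurentSeries K)) :
    h56_IsOrd K (fun f : F => (f : LaurentSeries K).order) where
  map_mul := by
    intro f g hf hg
    have hf' : (f : LaurentSeries K) ≠ 0 := fun h => hf (Subtype.ext h)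
    have hg' : (g : LaurentSeries K) ≠ 0 := fun h => hg (Subtype.ext h)
    show ((f * g : F) : LaurentSeries K).order = _
    rw [MulMemClass.coe_mul]
    exact HahnSeries.order_mul hf' hg'
  map_add := by
    intro f g hf hg hfg
    have hf' : (f : LaurentSeries K) ≠ 0 := fun h => hf (Subtype.ext h)
    have hg' : (g : LaurentSeries K) ≠ 0 := fun h => hg (Subtype.ext h)
    have hfg' : (f : LaurentSeries K) + (g : LaurentSeries K) ≠ 0 := fun h =>
      hfg (Subtype.ext h)
    show _ ≤ ((f + g : F) : LaurentSeries K).order
    rw [AddMemClass.coe_add]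
    exact HahnSeries.min_order_le_order_add hfg'
  map_algebraMap := by
    intro c hc
    show ((algebraMap K F c : F) : LaurentSeries K).order = 0
    rw [h10_coe_algebraMap, HahnSeries.order_single hc]

/-- `P` is the cusp `∞`: its order function is the `q`-order. -/
def h10_IsCusp (F : IntermediateField K (LaurentSeries K)) (P : Place K F) : Prop :=
  ∀ f : F, f ≠ 0 → P.ord f = (f : LaurentSeries K).order

variable {F : IntermediateField K (LaurentSeries K)}

/-- The cusp exists as soon as `F` contains a series of order `-1`. -/
theorem h10_exists_cusp (hu : ∃ u : F, (u : LaurentSeries K).order = -1) :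
    ∃ P : Place K F, h10_IsCusp F P := by
  obtain ⟨u, hu⟩ := hu
  have hu0 : u ≠ 0 := by
    rintro rfl
    simp at hu
  exact h10_exists_place_of_isOrd _ (h10_isOrd_order F) ⟨u, hu0, hu⟩

theorem h10_IsCusp.mem_iff {P : Place K F} (hP : h10_IsCusp F P) (f : F) :
    f ∈ P.toValuationSubring ↔ f = 0 ∨ 0 ≤ (f : LaurentSeries K).order := by
  by_cases hf : f = 0
  · subst hf
    simp
  · rw [h35_mem_iff_ord_nonneg P hf, hP f hf]
    simp [hf]

/-- The cusp is unique. -/
theorem h10_IsCusp.unique {P P' : Place K F} (hP : h10_IsCusp F P) (hP' : h10_IsCusp F P') :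
    P = P' := by
  apply Place.ext
  ext f
  rw [hP.mem_iff, hP'.mem_iff]

theorem h10_IsCusp.ord_eq {P : Place K F} (hP : h10_IsCusp F P) (f : F) :
    P.ord f = (f : LaurentSeries K).order := by
  by_cases hf : f = 0
  · subst hf
    simp
  · exact hP f hf

/-- The value of a function regular at the cusp is its constant coefficient. -/
theorem h10_IsCusp.val {P : Place K F} (hP : h10_IsCusp F P) (f : F)
    (hf : 0 ≤ (f : LaurentSeries K).order) :
    h39_Val P f ((f : LaurentSeries K).coeff 0) := by
  by_cases h : f = algebraMap K F ((f : LaurentSeries K).coeff 0)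
  · exact Or.inl h
  · right
    have hne : f - algebraMap K F ((f : LaurentSeries K).coeff 0) ≠ 0 := sub_ne_zero.mpr h
    rw [hP _ hne]
    have hne' : ((f - algebraMap K F ((f : LaurentSeries K).coeff 0) : F) : LaurentSeries K) ≠ 0 :=
      fun h0 => hne (Subtype.ext h0)
    have hcoe : ((f - algebraMap K F ((f : LaurentSeries K).coeff 0) : F) : LaurentSeries K)
        = (f : LaurentSeries K) - HahnSeries.single 0 ((f : LaurentSeries K).coeff 0) := by
      rw [AddSubgroupClass.coe_sub, h10_coe_algebraMap]
    rw [hcoe] at hne' ⊢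
    by_contra hlt
    push Not at hlt
    have hc := (HahnSeries.coeff_order_eq_zero.not).mpr hne'
    apply hc
    have hle : ∀ i : ℤ, i ≤ 0 →
        ((f : LaurentSeries K) - HahnSeries.single 0 ((f : LaurentSeries K).coeff 0)).coeff i
          = 0 := by
      intro i hi
      rw [HahnSeries.coeff_sub, HahnSeries.coeff_single]
      rcases hi.lt_or_eq with hi | hi
      · rw [if_neg hi.ne, sub_zero]
        by_cases hf0 : (f : LaurentSeries K) = 0
        · rw [hf0]; rfl
        · exact HahnSeries.coeff_eq_zero_of_lt_order (lt_of_lt_of_le hi hf)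
      · rw [if_pos hi, hi, sub_self]
    exact hle _ hlt

end Fermat.Agent.S34

end
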