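/-
S34 (helper31): (INT) core, Mathlib only.

`A[[q]]` (more precisely the ring of Laurent series over `K` with coefficients in a valuation
ring `A`) is *completely integrally closed* as soon as `A` is:

  `d ≠ 0`, and all coefficients of `d * f ^ n` lie in `A` for every `n`  ⟹  all coefficients of
  `f` lie in `A`.

The hypothesis `harch` on `A` (`y ≠ 0`, `y * x ^ n ∈ A` for all `n` ⟹ `x ∈ A`) holds for every
valuation ring of rank one; `h31_harch_of_pow_lt` derives it from the archimedean-type property
"for `v x > 1` the powers of `v x` are unbounded", in the form used for `ℚ̄`: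
for every `y ≠ 0` and `x ∉ A` there is `n` with `y * x ^ n ∉ A`.

Consequences (`h31_int_of_ratio`, `h31_int_of_pow`): an element `f = y₁ / y₂` of the fraction
field of the `A`-integral series which is integral over them is `A`-integral; in particular if
`f ^ m` is `A`-integral, so is `f`.
-/
import Mathlib

set_option autoImplicit false

namespace Fermat.Agent.S34

open HahnSeries

variable {K : Type*} [Field K]

/-- The subring of Laurent series all of whose coefficients lie in `A`. -/
def h31_intSeries (A : ValuationSubring K) : Subring (LaurentSeries K) where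
  carrier := {g | ∀ i : ℤ, g.coeff i ∈ A}
  mul_mem' := by
    intro a b ha hb i
    rw [HahnSeries.coeff_mul]
    exact Subring.sum_mem A.toSubring fun ij _ => A.mul_mem _ _ (ha _) (hb _)
  one_mem' := by
    intro i
    rw [HahnSeries.coeff_one]
    split_ifs
    · exact A.one_mem
    · exact A.zero_mem
  add_mem' := by
    intro a b ha hb i
    rw [HahnSeries.coeff_add]
    exact A.add_mem _ _ (ha _) (hb _)
  zero_mem' := by
    intro i
    rw [HahnSeries.coeff_zero]
    exact A.zero_mem
  neg_mem' := by
    intro a ha i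
    rw [HahnSeries.coeff_neg]
    exact A.neg_mem _ (ha _)

theorem h31_mem_intSeries (A : ValuationSubring K) (g : LaurentSeries K) :
    g ∈ h31_intSeries A ↔ ∀ i : ℤ, g.coeff i ∈ A := Iff.rfl

theorem h31_single_mem (A : ValuationSubring K) (s : ℤ) {c : K} (hc : c ∈ A) :
    (HahnSeries.single s c : LaurentSeries K) ∈ h31_intSeries A := by
  intro i
  rw [HahnSeries.coeff_single]
  split_ifs
  · exact hc
  · exact A.zero_mem

theorem h31_leadingCoeff_pow (f : LaurentSeries K) (n : ℕ) :
    (f ^ n).leadingCoeff = f.leadingCoeff ^ n := by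
  induction n with
  | zero => rw [pow_zero, pow_zero, HahnSeries.leadingCoeff_one]
  | succ n ih => rw [pow_succ, pow_succ, HahnSeries.leadingCoeff_mul, ih]

/-- Leading coefficient step. -/
theorem h31_leadingCoeff_mem (A : ValuationSubring K)
    (harch : ∀ x y : K, y ≠ 0 → (∀ n : ℕ, y * x ^ n ∈ A) → x ∈ A)
    (f d : LaurentSeries K) (hd : d ≠ 0)
    (h : ∀ n : ℕ, d * f ^ n ∈ h31_intSeries A) : f.leadingCoeff ∈ A := by
  apply harch _ d.leadingCoeff (HahnSeries.leadingCoeff_ne_zero.mpr hd)
  intro n
  have := h n (d.order + (f ^ n).order)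
  rwa [HahnSeries.coeff_mul_order_add_order, h31_leadingCoeff_pow] at this

/-- Shift step: the hypothesis is stable under subtracting an `A`-integral series. -/
theorem h31_sub_mem (A : ValuationSubring K) (f d g : LaurentSeries K)
    (hg : g ∈ h31_intSeries A)
    (h : ∀ n : ℕ, d * f ^ n ∈ h31_intSeries A) (n : ℕ) :
    d * (f - g) ^ n ∈ h31_intSeries A := by
  rw [sub_eq_add_neg, add_pow, Finset.mul_sum]
  refine Subring.sum_mem _ fun m _ => ?_
  have : d * (f ^ m * (-g) ^ (n - m) * (n.choose m : LaurentSeries K))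
      = (d * f ^ m) * ((-g) ^ (n - m) * (n.choose m : LaurentSeries K)) := by ring
  rw [this]
  exact Subring.mul_mem _ (h m)
    (Subring.mul_mem _ (Subring.pow_mem _ (Subring.neg_mem _ hg) _) (natCast_mem _ _))

theorem h31_coeff_mem_aux (A : ValuationSubring K)
    (harch : ∀ x y : K, y ≠ 0 → (∀ n : ℕ, y * x ^ n ∈ A) → x ∈ A)
    (d : LaurentSeries K) (hd : d ≠ 0) :
    ∀ (N : ℕ) (f : LaurentSeries K), (∀ n : ℕ, d * f ^ n ∈ h31_intSeries A) →
      ∀ i : ℤ, i < f.order + N → f.coeff i ∈ A := by
  intro N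
  induction N with
  | zero =>
    intro f _ i hi
    rw [Nat.cast_zero, add_zero] at hi
    rw [HahnSeries.coeff_eq_zero_of_lt_order hi]
    exact A.zero_mem
  | succ N ih =>
    intro f hf i hi
    have hlead : f.leadingCoeff ∈ A := h31_leadingCoeff_mem A harch f d hd hf
    set g : LaurentSeries K := HahnSeries.single f.order f.leadingCoeff with hg
    have hgA : g ∈ h31_intSeries A := h31_single_mem A _ hlead
    have hf' : ∀ n : ℕ, d * (f - g) ^ n ∈ h31_intSeries A := h31_sub_mem A f d g hgA hf
    by_cases h0 : f - g = 0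
    · have : f = g := sub_eq_zero.mp h0
      rw [this]
      exact hgA i
    · -- order of `f - g` is larger than the order of `f`
      have hlow : ∀ j : ℤ, j ≤ f.order → (f - g).coeff j = 0 := by
        intro j hj
        rw [HahnSeries.coeff_sub, hg, HahnSeries.coeff_single]
        rcases hj.lt_or_eq with hlt | heq
        · rw [if_neg hlt.ne, HahnSeries.coeff_eq_zero_of_lt_order hlt, sub_zero]
        · rw [if_pos heq, heq, HahnSeries.leadingCoeff_eq, sub_self]
      have hord : f.order < (f - g).order := by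
        by_contra hcon
        exact h0 (HahnSeries.coeff_order_eq_zero.mp (hlow _ (not_lt.mp hcon)))
      by_cases hi' : i ≤ f.order
      · rcases hi'.lt_or_eq with hlt | heq
        · rw [HahnSeries.coeff_eq_zero_of_lt_order hlt]
          exact A.zero_mem
        · rw [heq, ← HahnSeries.leadingCoeff_eq]
          exact hlead
      · have hi2 : i < (f - g).order + N := by
          push_cast at hi
          omega
        have h1 := ih (f - g) hf' i hi2
        rw [HahnSeries.coeff_sub, hg, HahnSeries.coeff_single, if_neg (fun h => hi' h.le),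
          sub_zero] at h1
        exact h1

/-- **(INT) core**: complete integral closedness of the `A`-integral Laurent series. -/
theorem h31_coeff_mem_of_pow (A : ValuationSubring K)
    (harch : ∀ x y : K, y ≠ 0 → (∀ n : ℕ, y * x ^ n ∈ A) → x ∈ A)
    (f d : LaurentSeries K) (hd : d ≠ 0)
    (h : ∀ n : ℕ, d * f ^ n ∈ h31_intSeries A) : f ∈ h31_intSeries A := by
  intro i
  by_cases hi : i < f.order
  · rw [HahnSeries.coeff_eq_zero_of_lt_order hi]
    exact A.zero_mem
  · have hN : i < f.order + ((i - f.order).toNat + 1 : ℕ) := by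
      push_cast
      have := Int.self_le_toNat (i - f.order)
      omega
    exact h31_coeff_mem_aux A harch d hd _ f h i hN

/-- An element of the fraction field of the integral series which is integral over them is
integral: `f * y₂ = y₁` with `y₁, y₂` integral, `y₂ ≠ 0`, and `f` a root of a monic polynomial
with integral coefficients. -/
theorem h31_int_of_ratio (A : ValuationSubring K)
    (harch : ∀ x y : K, y ≠ 0 → (∀ n : ℕ, y * x ^ n ∈ A) → x ∈ A)
    (f y₁ y₂ : LaurentSeries K) (hy₁ : y₁ ∈ h31_intSeries A) (hy₂ : y₂ ∈ h31_intSeries A)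
    (hy₂0 : y₂ ≠ 0) (hf : f * y₂ = y₁)
    (hint : IsIntegral (h31_intSeries A) f) : f ∈ h31_intSeries A := by
  classical
  obtain ⟨p, hpm, hp⟩ := hint
  -- all powers of `f` lie in the span of `1, f, …, f^(deg p - 1)` over the integral series
  have key : ∀ n : ℕ, f ^ n ∈ Submodule.span (h31_intSeries A)
      (Set.range fun i : Fin p.natDegree => f ^ (i : ℕ)) := by
    intro n
    induction n using Nat.strong_induction_on with
    | _ n ih =>
      by_cases hn : n < p.natDegree
      · exact Submodule.subset_span ⟨⟨n, hn⟩, rfl⟩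
      · have hn' : p.natDegree ≤ n := not_lt.mp hn
        -- `f ^ r = - Σ_{i < r} p_i f ^ i`
        have hrel : f ^ p.natDegree
            = - ∑ i ∈ Finset.range p.natDegree, (p.coeff i : LaurentSeries K) * f ^ i := by
          have h1 : Polynomial.eval₂ (algebraMap (h31_intSeries A) (LaurentSeries K)) f p = 0 :=
            hp
          rw [Polynomial.eval₂_eq_sum_range, Finset.sum_range_succ,
            show p.coeff p.natDegree = 1 from hpm, map_one, one_mul] at h1
          rw [eq_neg_iff_add_eq_zero, add_comm]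
          exact h1
        have hsplit : f ^ n = f ^ (n - p.natDegree) * f ^ p.natDegree := by
          rw [← _root_.pow_add, Nat.sub_add_cancel hn']
        rw [hsplit, hrel, mul_neg, Finset.mul_sum]
        refine Submodule.neg_mem _ (Submodule.sum_mem _ fun i hi => ?_)
        have hi' : i < p.natDegree := Finset.mem_range.mp hi
        have hlt : n - p.natDegree + i < n := by omega
        have := ih (n - p.natDegree + i) hlt
        have h2 : f ^ (n - p.natDegree) * ((p.coeff i : LaurentSeries K) * f ^ i)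
            = (p.coeff i) • f ^ (n - p.natDegree + i) := by
          rw [Subring.smul_def, smul_eq_mul, _root_.pow_add]
          ring
        rw [h2]
        exact Submodule.smul_mem _ _ this
  have hpow : ∀ i : ℕ, i ≤ p.natDegree → y₂ ^ p.natDegree * f ^ i ∈ h31_intSeries A := by
    intro i hi
    have : y₂ ^ p.natDegree * f ^ i = y₂ ^ (p.natDegree - i) * y₁ ^ i := by
      rw [← hf, mul_pow, ← mul_assoc, mul_comm (y₂ ^ (p.natDegree - i)) (f ^ i), mul_assoc,
        ← _root_.pow_add, Nat.sub_add_cancel hi, mul_comm]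
    rw [this]
    exact Subring.mul_mem _ (Subring.pow_mem _ hy₂ _) (Subring.pow_mem _ hy₁ _)
  apply h31_coeff_mem_of_pow A harch f (y₂ ^ p.natDegree) (pow_ne_zero _ hy₂0)
  intro n
  have hn := key n
  refine Submodule.span_induction
    (p := fun x _ => y₂ ^ p.natDegree * x ∈ h31_intSeries A) ?_ ?_ ?_ ?_ hn
  · rintro x ⟨i, rfl⟩
    exact hpow i i.2.le
  · rw [mul_zero]
    exact Subring.zero_mem _
  · intro x y _ _ hx hy
    rw [mul_add]
    exact Subring.add_mem _ hx hy
  · intro a x _ hx
    rw [Subring.smul_def, smul_eq_mul, mul_left_comm]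
    exact Subring.mul_mem _ a.2 hx

/-- If `f` is a ratio of integral series and `f ^ m` is integral (`m ≥ 1`), then `f` is
integral. -/
theorem h31_int_of_pow (A : ValuationSubring K)
    (harch : ∀ x y : K, y ≠ 0 → (∀ n : ℕ, y * x ^ n ∈ A) → x ∈ A)
    (f y₁ y₂ : LaurentSeries K) (hy₁ : y₁ ∈ h31_intSeries A) (hy₂ : y₂ ∈ h31_intSeries A)
    (hy₂0 : y₂ ≠ 0) (hf : f * y₂ = y₁) (m : ℕ) (hm : 0 < m)
    (hfm : f ^ m ∈ h31_intSeries A) : f ∈ h31_intSeries A := by
  refine h31_int_of_ratio A harch f y₁ y₂ hy₁ hy₂ hy₂0 hf ?_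
  refine ⟨Polynomial.X ^ m - Polynomial.C ⟨f ^ m, hfm⟩, Polynomial.monic_X_pow_sub_C _ hm.ne', ?_⟩
  rw [Polynomial.eval₂_sub, Polynomial.eval₂_pow, Polynomial.eval₂_X, Polynomial.eval₂_C]
  exact sub_self _

/-- `harch` from the rank-one property in valuation form. -/
theorem h31_harch_of_unbounded (A : ValuationSubring K)
    (hub : ∀ x y : K, y ≠ 0 → x ∉ A → ∃ n : ℕ, y * x ^ n ∉ A) :
    ∀ x y : K, y ≠ 0 → (∀ n : ℕ, y * x ^ n ∈ A) → x ∈ A := by
  intro x y hy h
  by_contra hx
  obtain ⟨n, hn⟩ := hub x y hy hx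
  exact hn (h n)

/-- `harch` from rank one in the `h39_RankOne` shape of S18 (`a ∈ A`, `a⁻¹ ∉ A`, `δ ≠ 0` ⟹
`a ^ n * δ⁻¹ ∈ A` for some `n`). -/
theorem h31_harch_of_rankOne (A : ValuationSubring K)
    (hR : ∀ a : K, a ∈ A → a⁻¹ ∉ A → ∀ δ : K, δ ≠ 0 → ∃ n : ℕ, a ^ n * δ⁻¹ ∈ A) :
    ∀ x y : K, y ≠ 0 → (∀ n : ℕ, y * x ^ n ∈ A) → x ∈ A := by
  intro x y hy h
  by_contra hx
  have hx0 : x ≠ 0 := fun h0 => hx (h0 ▸ A.zero_mem)
  have hxi : x⁻¹ ∈ A := (A.mem_or_inv_mem x).resolve_left hx
  obtain ⟨n, hn⟩ := hR x⁻¹ hxi (by rwa [inv_inv]) y hy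
  apply hx
  have : x = (y * x ^ (n + 1)) * (x⁻¹ ^ n * y⁻¹) := by
    rw [pow_succ, inv_pow]
    field_simp
  rw [this]
  exact A.mul_mem _ _ (h (n + 1)) hn

end Fermat.Agent.S34
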