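/-
S34 (helper31): (INT) = (QINT) in the project vocabulary (`LaurentSeries A`, `coeffMap`),
so that it plugs into `h54_IsModRed.mem_iff` (`f * coeffMap A.subtype y₂ = coeffMap A.subtype y₁`).

* `h31_mem_intSeries_iff` : `g ∈ h31_intSeries A ↔ ∃ y : LaurentSeries A, coeffMap A.subtype y = g`.
* `h31_qint` : `f * coeffMap y₂ = coeffMap y₁`, `y₂ ≠ 0`, `f` integral over the `A`-integral
  series, `A` of rank one  ⟹  `f = coeffMap y` for some `y : LaurentSeries A`.
* `h31_qint_pow` : the same conclusion from `f ^ m = coeffMap z` (`m ≥ 1`).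
* `h31_qint_poly` : the same conclusion from a monic polynomial relation whose coefficients are
  polynomials (over `A`) in an `A`-integral series `x` - the shape produced by "the characteristic
  polynomial of `f` over `K(x)` has coefficients in `A[x]`".
-/
import Mathlib
import Fermat.Prelude.Def_ModularCurve_LaurentCoeff
import Fermat.Agent.S34.h31_IntSeries

set_option autoImplicit false

namespace Fermat.Agent.S34

open HahnSeries ModularCurve

variable {K : Type*} [Field K]

theorem h31_coeffMap_mem (A : ValuationSubring K) (y : LaurentSeries A) :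
    coeffMap A.subtype y ∈ h31_intSeries A := by
  intro i
  rw [coeffMap_coeff]
  exact (y.coeff i).2

theorem h31_mem_intSeries_iff (A : ValuationSubring K) (g : LaurentSeries K) :
    g ∈ h31_intSeries A ↔ ∃ y : LaurentSeries A, coeffMap A.subtype y = g := by
  constructor
  · intro hg
    have hsupp : (Function.support fun i : ℤ => (⟨g.coeff i, hg i⟩ : A)) ⊆ g.support := by
      intro i hi
      rw [Function.mem_support] at hi
      rw [HahnSeries.mem_support]
      intro h0
      exact hi (Subtype.ext h0)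
    refine ⟨⟨fun i => ⟨g.coeff i, hg i⟩, g.isPWO_support.mono hsupp⟩, ?_⟩
    ext i
    rw [coeffMap_coeff]
    rfl
  · rintro ⟨y, rfl⟩
    exact h31_coeffMap_mem A y

/-- **(QINT)**: a ratio of `A`-integral `q`-series which is integral over the `A`-integral
series is `A`-integral (`A` of rank one, `h39_RankOne` shape). -/
theorem h31_qint (A : ValuationSubring K)
    (hR : ∀ a : K, a ∈ A → a⁻¹ ∉ A → ∀ δ : K, δ ≠ 0 → ∃ n : ℕ, a ^ n * δ⁻¹ ∈ A)
    (f : LaurentSeries K) (y₁ y₂ : LaurentSeries A) (hy₂ : coeffMap A.subtype y₂ ≠ 0)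
    (hf : f * coeffMap A.subtype y₂ = coeffMap A.subtype y₁)
    (hint : IsIntegral (h31_intSeries A) f) :
    ∃ y : LaurentSeries A, coeffMap A.subtype y = f :=
  (h31_mem_intSeries_iff A f).mp
    (h31_int_of_ratio A (h31_harch_of_rankOne A hR) f _ _ (h31_coeffMap_mem A y₁)
      (h31_coeffMap_mem A y₂) hy₂ hf hint)

/-- (QINT) for roots: a ratio `f` with `f ^ m` integral (`m ≥ 1`) is integral. -/
theorem h31_qint_pow (A : ValuationSubring K)
    (hR : ∀ a : K, a ∈ A → a⁻¹ ∉ A → ∀ δ : K, δ ≠ 0 → ∃ n : ℕ, a ^ n * δ⁻¹ ∈ A)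
    (f : LaurentSeries K) (y₁ y₂ : LaurentSeries A) (hy₂ : coeffMap A.subtype y₂ ≠ 0)
    (hf : f * coeffMap A.subtype y₂ = coeffMap A.subtype y₁)
    (m : ℕ) (hm : 0 < m) (z : LaurentSeries A) (hz : f ^ m = coeffMap A.subtype z) :
    ∃ y : LaurentSeries A, coeffMap A.subtype y = f :=
  (h31_mem_intSeries_iff A f).mp
    (h31_int_of_pow A (h31_harch_of_rankOne A hR) f _ _ (h31_coeffMap_mem A y₁)
      (h31_coeffMap_mem A y₂) hy₂ hf m hm (hz ▸ h31_coeffMap_mem A z))

/-- (QINT) in "characteristic polynomial" shape: `f` is a root of a monic polynomial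
`T^r + c_{r-1} T^{r-1} + … + c_0` whose coefficients `c_i` are `A`-integral series
(e.g. polynomials over `A` in an `A`-integral chart function `x`). -/
theorem h31_qint_poly (A : ValuationSubring K)
    (hR : ∀ a : K, a ∈ A → a⁻¹ ∉ A → ∀ δ : K, δ ≠ 0 → ∃ n : ℕ, a ^ n * δ⁻¹ ∈ A)
    (f : LaurentSeries K) (y₁ y₂ : LaurentSeries A) (hy₂ : coeffMap A.subtype y₂ ≠ 0)
    (hf : f * coeffMap A.subtype y₂ = coeffMap A.subtype y₁)
    (r : ℕ) (c : Fin r → LaurentSeries A)
    (hrel : f ^ r + ∑ i : Fin r, coeffMap A.subtype (c i) * f ^ (i : ℕ) = 0) :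
    ∃ y : LaurentSeries A, coeffMap A.subtype y = f := by
  classical
  refine h31_qint A hR f y₁ y₂ hy₂ hf ?_
  -- the monic polynomial over the subring of integral series
  let cS : Fin r → h31_intSeries A := fun i => ⟨coeffMap A.subtype (c i), h31_coeffMap_mem A (c i)⟩
  refine ⟨Polynomial.X ^ r + ∑ i : Fin r, Polynomial.C (cS i) * Polynomial.X ^ (i : ℕ), ?_, ?_⟩
  · apply Polynomial.monic_X_pow_add
    refine lt_of_le_of_lt (Polynomial.degree_sum_le _ _) ?_
    refine (Finset.sup_lt_iff (WithBot.bot_lt_coe r)).mpr ?_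
    intro i _
    refine lt_of_le_of_lt (Polynomial.degree_C_mul_X_pow_le _ _) ?_
    exact WithBot.coe_lt_coe.mpr i.2
  · rw [Polynomial.eval₂_add, Polynomial.eval₂_pow, Polynomial.eval₂_X, Polynomial.eval₂_finsetSum]
    simp only [Polynomial.eval₂_mul, Polynomial.eval₂_C, Polynomial.eval₂_pow, Polynomial.eval₂_X]
    exact hrel

end Fermat.Agent.S34
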