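/-
S34 (helper10): the cusp of `X₀(N)` under the S18 reduction (`(III)` of the S34 plans).

`F = F(N) ⊆ Qb((q))`, `A` a rank-one valuation ring of `Qb`, `k = A/𝔪`, `Fb = F̄(N) ⊆ k((q))`,
`R` a reduction datum with `h54_IsModRed N A R`, `x` a chart of `R` such that `x` and `x⁻¹` have
`A`-integral `q`-expansions and `x` has a pole at the cusp (`x = j`, or a Hauptmodul).

* `h10_int_of_monic` : a function in `O`, integral over `A[t]` for an `A`-integral series `t`,
  has an `A`-integral `q`-expansion (S18 monic equation + (QINT) of helper31).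
* `h10_cusp_red` : the chart reduction at `t = x⁻¹` maps the cusp of `F` to the cusp of `Fb`.
* `h10_cusp_lift` : for all large `ν` there is `b ∈ O`, regular off the cusp, with `A`-integral
  `q`-expansion of exact order `-ν` and unit leading coefficient.
-/
import Mathlib
import Fermat.Agent.S34.h10_CuspPlace
import Fermat.Agent.S34.h31_IntSeriesMod
import Fermat.Agent.S18.h54_ModDefs
import Fermat.Agent.S18.h39_PlaceRedOfChart
import Fermat.Agent.S18.GR_ChartPt
import Fermat.Agent.S18.h19_ResField
import Fermat.Agent.S27.h68_RRCons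

set_option autoImplicit false
set_option synthInstance.maxHeartbeats 400000

noncomputable section

namespace Fermat.Agent.S34

open AlgebraicCurve HahnSeries ModularCurve IntermediateField Polynomial
open Fermat.Agent.S24 Fermat.Agent.S18 Fermat.Agent.S27

/-! ## Laurent series preliminaries -/

theorem h10_order_nonneg_of_coeff {R : Type*} [Zero R] (x : LaurentSeries R)
    (h : ∀ i : ℤ, i < 0 → x.coeff i = 0) : 0 ≤ x.order := by
  by_cases hx : x = 0
  · rw [hx, HahnSeries.order_zero]
  · by_contra hlt
    push Not at hlt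
    exact (HahnSeries.coeff_order_eq_zero.not.mpr hx) (h _ hlt)

theorem h10_coeff_of_order_nonneg {R : Type*} [Zero R] (x : LaurentSeries R)
    (h : 0 ≤ x.order) (i : ℤ) (hi : i < 0) : x.coeff i = 0 :=
  HahnSeries.coeff_eq_zero_of_lt_order (lt_of_lt_of_le hi h)

/-- The cusp value of a series without negative coefficients. -/
theorem h10_IsCusp.val' {K : Type*} [Field K] {F : IntermediateField K (LaurentSeries K)}
    {P : Place K F} (hP : h10_IsCusp F P) (f : F)
    (hf : ∀ i : ℤ, i < 0 → (f : LaurentSeries K).coeff i = 0) :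
    h39_Val P f ((f : LaurentSeries K).coeff 0) :=
  hP.val f (h10_order_nonneg_of_coeff _ hf)

/-! ## Integrality of `q`-expansions -/

section Int

variable {K : Type*} [Field K]

/-- A ratio of `A`-integral series which is a root of a monic polynomial with coefficients in
`B[t]`, `B = A`, `t` an `A`-integral series, is `A`-integral.  (Shape of S18
`h39_exists_monic_eq`.) -/
theorem h10_int_of_monic (A : ValuationSubring K)
    (hrk : ∀ a : K, a ∈ A → a⁻¹ ∉ A → ∀ δ : K, δ ≠ 0 → ∃ n : ℕ, a ^ n * δ⁻¹ ∈ A)
    (B : ValuationSubring K) (hBA : B = A)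
    (F : IntermediateField K (LaurentSeries K)) (t g : F)
    (yt : LaurentSeries A) (hyt : (t : LaurentSeries K) = coeffMap A.subtype yt)
    (y₁ y₂ : LaurentSeries A) (hy₂ : coeffMap A.subtype y₂ ≠ 0)
    (hg : (g : LaurentSeries K) * coeffMap A.subtype y₂ = coeffMap A.subtype y₁)
    (G : Polynomial (Polynomial B)) (hG : G.Monic)
    (h0 : Polynomial.eval₂ (((Polynomial.aeval t : Polynomial K →ₐ[K] F) :
        Polynomial K →+* F).comp (Polynomial.mapRingHom (algebraMap B K))) g G = 0) :
    ∃ y : LaurentSeries A, coeffMap A.subtype y = (g : LaurentSeries K) := by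
  subst hBA
  refine h31_qint B hrk _ y₁ y₂ hy₂ hg ?_
  -- the evaluation homomorphism `B[X] → K((q))`, `X ↦ t`
  set ψ : Polynomial B →+* LaurentSeries K :=
    (algebraMap F (LaurentSeries K)).comp
      ((((Polynomial.aeval t : Polynomial K →ₐ[K] F) : Polynomial K →+* F)).comp
        (Polynomial.mapRingHom (algebraMap B K))) with hψ
  have hψmem : ∀ p : Polynomial B, ψ p ∈ h31_intSeries B := by
    intro p
    induction p using Polynomial.induction_on with
    | C a =>
      have : ψ (Polynomial.C a) = HahnSeries.single 0 (a : K) := by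
        simp only [hψ, RingHom.comp_apply, Polynomial.coe_mapRingHom, Polynomial.map_C,
          RingHom.coe_coe, Polynomial.aeval_C]
        exact h10_coe_algebraMap F (a : K)
      rw [this]
      exact h31_single_mem B 0 a.2
    | add p r hp hr =>
      rw [map_add]
      exact add_mem hp hr
    | monomial n a ih =>
      rw [pow_succ, ← mul_assoc, map_mul]
      refine mul_mem ih ?_
      have : ψ Polynomial.X = (t : LaurentSeries K) := by
        simp only [hψ, RingHom.comp_apply, Polynomial.coe_mapRingHom, Polynomial.map_X,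
          RingHom.coe_coe, Polynomial.aeval_X]
        rfl
      rw [this, hyt]
      exact h31_coeffMap_mem B yt
  refine ⟨G.map (ψ.codRestrict (h31_intSeries B) hψmem), hG.map _, ?_⟩
  rw [Polynomial.eval₂_map]
  have hcomp : (algebraMap (h31_intSeries B) (LaurentSeries K)).comp
      (ψ.codRestrict (h31_intSeries B) hψmem) = ψ := by
    ext p <;> rfl
  rw [hcomp, hψ]
  have h1 := congrArg (algebraMap F (LaurentSeries K)) h0
  rw [Polynomial.hom_eval₂, map_zero] at h1
  exact h1

end Int

/-! ## The cusp under the modular reduction datum -/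

section Cusp

local notation "Qb" => AlgebraicClosure ℚ

variable {N : ℕ} [NeZero N] {A : ValuationSubring Qb}
  {R : h39_RedDatum Qb ↥(modularFunctionFieldBar N) (IsLocalRing.ResidueField A)
      ↥(modularFunctionFieldFullC (IsLocalRing.ResidueField A) N)}

theorem h10_coeffMap_subtype_injective (A : ValuationSubring Qb) :
    Function.Injective (coeffMap A.subtype) := by
  intro y y' h
  ext i
  have := congrArg (fun z : LaurentSeries Qb => z.coeff i) h
  simp only [coeffMap_coeff] at this
  exact this

/-- Functions of `O` which are regular on the chart of an `A`-integral series `t` have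
`A`-integral `q`-expansions. -/
theorem h10_int_of_reg (hR : h54_IsModRed N A R) (hrk : h39_RankOne A)
    {t : ↥(modularFunctionFieldBar N)} (ht : h39_WeakChart R t)
    (yt : LaurentSeries A) (hyt : (t : LaurentSeries Qb) = coeffMap A.subtype yt)
    {g : ↥(modularFunctionFieldBar N)} (hgO : g ∈ R.O)
    (hreg : ∀ P : Place Qb ↥(modularFunctionFieldBar N),
      t ∈ P.toValuationSubring → g ∈ P.toValuationSubring) :
    ∃ y : LaurentSeries A, coeffMap A.subtype y = (g : LaurentSeries Qb) := by
  haveI := h19_residueField_isAlgClosed A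
  obtain ⟨y₁, y₂, hy₂, hg⟩ := (hR.mem_iff g).mp hgO
  have hy₂' : coeffMap A.subtype y₂ ≠ 0 := by
    intro h0
    apply hy₂
    have : y₂ = 0 := h10_coeffMap_subtype_injective A (by rw [h0, map_zero])
    rw [this, map_zero]
  obtain ⟨G, hGm, hG⟩ := h39_exists_monic_eq R ht hgO hreg
  exact h10_int_of_monic A hrk R.A hR.A_eq _ t g yt hyt y₁ y₂ hy₂' hg G hGm hG

/-- The reduction of a function with `A`-integral `q`-expansion `y`: the residue of the
constant coefficient. -/
theorem h10_resK_coeff_zero (hR : h54_IsModRed N A R) (y : LaurentSeries A) :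
    R.resK ((coeffMap A.subtype y).coeff 0) = (coeffMap (IsLocalRing.residue A) y).coeff 0 := by
  have hmemA : (coeffMap A.subtype y).coeff 0 ∈ A := by
    rw [coeffMap_coeff]
    exact (y.coeff 0).2
  have hmemR : (coeffMap A.subtype y).coeff 0 ∈ R.A := by
    rw [hR.A_eq]
    exact hmemA
  rw [R.resK_of_mem hmemR, hR.res_eq _ hmemR hmemA]
  rfl

theorem h10_order_inv {K : Type*} [Field K] (x : LaurentSeries K) (hx : x ≠ 0) :
    x⁻¹.order = -x.order := by
  have h := HahnSeries.order_mul hx (inv_ne_zero hx)
  rw [mul_inv_cancel₀ hx, HahnSeries.order_one] at h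
  linarith

/-- **The chart reduction at `t = x⁻¹` maps the cusp to the cusp.** -/
theorem h10_cusp_red (hR : h54_IsModRed N A R) (hrk : h39_RankOne A)
    {x : ↥(modularFunctionFieldBar N)} (hx : h39_Chart R x)
    (yt : LaurentSeries A)
    (hyt : ((x⁻¹ : ↥(modularFunctionFieldBar N)) : LaurentSeries Qb) = coeffMap A.subtype yt)
    (hneg : (x : LaurentSeries Qb).order < 0)
    {PM : Place Qb ↥(modularFunctionFieldBar N)}
    (hPM : h10_IsCusp (modularFunctionFieldBar N) PM)
    {Qinf : Place (IsLocalRing.ResidueField A)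
      ↥(modularFunctionFieldFullC (IsLocalRing.ResidueField A) N)}
    (hQ : h10_IsCusp (modularFunctionFieldFullC (IsLocalRing.ResidueField A) N) Qinf)
    (r' : Place Qb ↥(modularFunctionFieldBar N) →
      Place (IsLocalRing.ResidueField A)
        ↥(modularFunctionFieldFullC (IsLocalRing.ResidueField A) N))
    (hr' : h39_IsChartRed R x⁻¹ r') : r' PM = Qinf := by
  haveI := h19_residueField_isAlgClosed A
  have hw : h39_WeakChart R x := hx.toh39_WeakChart
  have hw' : h39_WeakChart R x⁻¹ := h39_weakChart_inv R hw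
  have htk := h39_weakChart_isChart_red R hw'
  have hgen := h53_genus_eq_inv R hx
  have hx0 : (x : LaurentSeries Qb) ≠ 0 := by
    intro h0
    rw [h0, HahnSeries.order_zero] at hneg
    exact lt_irrefl _ hneg
  have htcoe : ((x⁻¹ : ↥(modularFunctionFieldBar N)) : LaurentSeries Qb)
      = (x : LaurentSeries Qb)⁻¹ := IntermediateField.coe_inv _ x
  have htord : 0 < ((x⁻¹ : ↥(modularFunctionFieldBar N)) : LaurentSeries Qb).order := by
    rw [htcoe, h10_order_inv _ hx0]
    linarith
  -- the cusp lies in the disc of `t`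
  have hdisc : h39_InDisc R x⁻¹ PM :=
    ⟨0, R.A.zero_mem, (h39_val_zero_iff PM).mpr (Or.inr (by rw [hPM.ord_eq]; exact htord))⟩
  obtain ⟨hmem, hval⟩ := hr' PM hdisc
  -- `yt` has no coefficients of index `≤ 0`
  have hytneg : ∀ i : ℤ, i < 0 → yt.coeff i = 0 := by
    intro i hi
    apply Subtype.ext
    have h1 : ((x⁻¹ : ↥(modularFunctionFieldBar N)) : LaurentSeries Qb).coeff i = 0 :=
      HahnSeries.coeff_eq_zero_of_lt_order (lt_trans hi htord)
    rw [hyt, coeffMap_coeff] at h1
    exact h1
  have htred := hR.redF_of_integral x⁻¹ yt hyt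
  have htQ : R.redF x⁻¹ ∈ Qinf.toValuationSubring := by
    rw [hQ.mem_iff]
    right
    apply h10_order_nonneg_of_coeff
    intro i hi
    rw [htred, coeffMap_coeff, hytneg i hi, map_zero]
  symm
  apply h39_place_eq_of_val htk Qinf (r' PM) htQ hmem
  intro gb hgb c hc
  obtain ⟨g, hgO, hgreg, hgred⟩ := h39_lift_integral R hw' hgen gb hgb
  obtain ⟨yg, hyg⟩ := h10_int_of_reg hR hrk hw' yt hyt hgO hgreg
  have hgPM : g ∈ PM.toValuationSubring :=
    hgreg PM ((hPM.mem_iff _).mpr (Or.inr htord.le))
  have hgneg : ∀ i : ℤ, i < 0 → (g : LaurentSeries Qb).coeff i = 0 := by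
    rcases (hPM.mem_iff g).mp hgPM with h | h
    · intro i _
      rw [h]
      rfl
    · exact h10_coeff_of_order_nonneg _ h
  have hv1 : h39_Val PM g ((g : LaurentSeries Qb).coeff 0) := hPM.val' g hgneg
  have hv2 := hval g hgO hgreg _ hv1
  have hgb' : (gb : LaurentSeries (IsLocalRing.ResidueField A))
      = coeffMap (IsLocalRing.residue A) yg := by
    rw [← hgred]
    exact hR.redF_of_integral g yg hyg.symm
  have hygneg : ∀ i : ℤ, i < 0 → yg.coeff i = 0 := by
    intro i hi
    apply Subtype.ext
    have h1 := hgneg i hi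
    rw [← hyg, coeffMap_coeff] at h1
    exact h1
  have hgbneg : ∀ i : ℤ, i < 0 →
      (gb : LaurentSeries (IsLocalRing.ResidueField A)).coeff i = 0 := by
    intro i hi
    rw [hgb', coeffMap_coeff, hygneg i hi, map_zero]
  have hv3 := hQ.val' gb hgbneg
  have hc' := h39_val_unique Qinf hc hv3
  have hres : R.resK ((g : LaurentSeries Qb).coeff 0)
      = (gb : LaurentSeries (IsLocalRing.ResidueField A)).coeff 0 := by
    rw [← hyg, hgb']
    exact h10_resK_coeff_zero hR yg
  rw [hc', ← hres, ← hgred]
  exact hv2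

/-- **(III): level-`N` functions with a pole only at the cusp, of exact prescribed order, with
`A`-integral `q`-expansion and unit leading coefficient.** -/
theorem h10_cusp_lift (hR : h54_IsModRed N A R) (hrk : h39_RankOne A)
    {x : ↥(modularFunctionFieldBar N)} (hx : h39_Chart R x)
    (yx : LaurentSeries A) (hyx : (x : LaurentSeries Qb) = coeffMap A.subtype yx)
    (yt : LaurentSeries A)
    (hyt : ((x⁻¹ : ↥(modularFunctionFieldBar N)) : LaurentSeries Qb) = coeffMap A.subtype yt)
    (hneg : (x : LaurentSeries Qb).order < 0)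
    {PM : Place Qb ↥(modularFunctionFieldBar N)}
    (hPM : h10_IsCusp (modularFunctionFieldBar N) PM)
    {Qinf : Place (IsLocalRing.ResidueField A)
      ↥(modularFunctionFieldFullC (IsLocalRing.ResidueField A) N)}
    (hQ : h10_IsCusp (modularFunctionFieldFullC (IsLocalRing.ResidueField A) N) Qinf) :
    ∃ ν₀ : ℕ, ∀ ν : ℕ, ν₀ ≤ ν → ∃ b : ↥(modularFunctionFieldBar N), b ∈ R.O ∧
      (∀ P : Place Qb ↥(modularFunctionFieldBar N), P ≠ PM → 0 ≤ P.ord b) ∧
      ∃ y : LaurentSeries A, (b : LaurentSeries Qb) = coeffMap A.subtype y ∧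
        y.order = -(ν : ℤ) ∧ IsUnit (y.coeff (-(ν : ℤ))) := by
  classical
  haveI := h19_residueField_isAlgClosed A
  have hw : h39_WeakChart R x := hx.toh39_WeakChart
  have hxK : h75_IsChart Qb x := h39_weakChart_isChart R hw
  have hxk := h39_weakChart_isChart_red R hw
  obtain ⟨S, -, r', hr', hS⟩ := h39_placeRed_of_chart R hx
  -- the cusp is outside the disc of `x`
  have hnd : ¬ h39_InDisc R x PM := by
    rintro ⟨a, -, ha⟩
    have hxP := h39_val_mem PM ha
    rcases (hPM.mem_iff x).mp hxP with h | h
    · rw [h] at hneg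
      simp at hneg
    · exact absurd hneg (not_lt.mpr h)
  have hr0 : S.r0 PM = Qinf := by
    rw [hS PM hnd]
    exact h10_cusp_red hR hrk hx yt hyt hneg hPM hQ r' hr'
  refine ⟨max S.c.toNat (2 * h75_genus (IsLocalRing.ResidueField A) (R.redF x)), fun ν hν => ?_⟩
  obtain ⟨fb, hfb0, hfbord, hfbreg⟩ := h68_exists_pole_exact hxk Qinf ν
    (le_trans (le_max_right _ _) hν)
  set D : Divisor Qb ↥(modularFunctionFieldBar N) := Finsupp.single PM (ν : ℤ) with hD
  have hdeg : S.c ≤ Divisor.degree D := by
    rw [hD, Divisor.degree_single, h75_deg_eq_one hxK PM]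
    have h1 : S.c.toNat ≤ ν := le_trans (le_max_left _ _) hν
    have h2 : S.c ≤ (S.c.toNat : ℤ) := Int.self_le_toNat S.c
    push_cast
    omega
  have hmap : Finsupp.mapDomain S.r0 D = Finsupp.single Qinf (ν : ℤ) := by
    rw [hD, Finsupp.mapDomain_single, hr0]
  have hfbmem : fb ∈ riemannRochSpace (Finsupp.mapDomain S.r0 D) := by
    rw [hmap, mem_riemannRochSpace_iff]
    intro v
    right
    by_cases hv : v = Qinf
    · subst hv
      rw [Finsupp.single_eq_same, hfbord]
    · rw [Finsupp.single_eq_of_ne hv, neg_zero]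
      exact hfbreg v hv
  obtain ⟨f, hfO, hfD, hfred⟩ := S.lift D hdeg fb hfbmem
  have hf0 : f ≠ 0 := by
    rintro rfl
    apply hfb0
    rw [← hfred]
    exact map_zero R.red
  have hford : ∀ v : Place Qb ↥(modularFunctionFieldBar N), -D v ≤ v.ord f := fun v =>
    ((mem_riemannRochSpace_iff.mp hfD) v).resolve_left hf0
  have hreg : ∀ P : Place Qb ↥(modularFunctionFieldBar N), P ≠ PM → 0 ≤ P.ord f := by
    intro P hP
    have h := hford P
    rw [hD, Finsupp.single_eq_of_ne hP, neg_zero] at h
    exact h
  have hregx : ∀ P : Place Qb ↥(modularFunctionFieldBar N),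
      x ∈ P.toValuationSubring → f ∈ P.toValuationSubring := by
    intro P hxP
    have hP : P ≠ PM := by
      rintro rfl
      rcases (hPM.mem_iff x).mp hxP with h | h
      · rw [h] at hneg
        simp at hneg
      · exact absurd hneg (not_lt.mpr h)
    exact (h35_mem_iff_ord_nonneg P hf0).mpr (hreg P hP)
  obtain ⟨y, hy⟩ := h10_int_of_reg hR hrk hw yx hyx hfO hregx
  have hfb' : (fb : LaurentSeries (IsLocalRing.ResidueField A))
      = coeffMap (IsLocalRing.residue A) y := by
    rw [← hfred]
    exact hR.red_of_integral f y hy.symm hfO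
  have hfbL : (fb : LaurentSeries (IsLocalRing.ResidueField A)) ≠ 0 := fun h =>
    hfb0 (Subtype.ext h)
  have hordfb : (fb : LaurentSeries (IsLocalRing.ResidueField A)).order = -(ν : ℤ) := by
    rw [← hQ fb hfb0, hfbord]
  have hcoef : (fb : LaurentSeries (IsLocalRing.ResidueField A)).coeff (-(ν : ℤ)) ≠ 0 := by
    rw [← hordfb]
    exact HahnSeries.coeff_order_eq_zero.not.mpr hfbL
  have hunit : IsUnit (y.coeff (-(ν : ℤ))) := by
    rw [hfb', coeffMap_coeff] at hcoef
    exact (IsLocalRing.residue_ne_zero_iff_isUnit _).mp hcoef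
  refine ⟨f, hfO, hreg, y, hy.symm, ?_, hunit⟩
  have hy0 : y ≠ 0 := by
    rintro rfl
    exact hunit.ne_zero rfl
  apply le_antisymm
  · exact HahnSeries.order_le_of_coeff_ne_zero hunit.ne_zero
  · by_contra hlt
    push Not at hlt
    apply HahnSeries.coeff_order_eq_zero.not.mpr hy0
    apply Subtype.ext
    have h1 : (f : LaurentSeries Qb).coeff y.order = 0 := by
      apply HahnSeries.coeff_eq_zero_of_lt_order
      have h2 := hford PM
      rw [hD, Finsupp.single_eq_same, hPM.ord_eq] at h2
      exact lt_of_lt_of_le hlt h2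
    rw [← hy, coeffMap_coeff] at h1
    exact h1

end Cusp

end Fermat.Agent.S34

end
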