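/-
S34 (helper10): the two cusps `∞`, `0'` of `X₀(Mq)` over the cusp `∞` of `X₀(M)`.

`E = F(M)`, `F = F(Mq)` (`modularFunctionFieldBar`), `α, β : E → F` the two degeneracy maps
(`heckeAlphaBar`, `heckeBetaBar`), `w` a swap: an involution of `F` with `w ∘ α = β`, `w ∘ β = α`
(S37 `h49_swapF`).  `P∞` = the cusp of `F` (`h10_IsCusp`), `P0` = the place `f ↦ ord_∞ (w f)`
(`h10_IsCusp0`).

* `h10_exists_cusp0` : `P0` exists;
* `h10_ord_alpha`, `h10_ord_beta`, `h10_ord0_alpha`, `h10_ord0_beta` : the orders of `α g`, `β g`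
  at `P∞`, `P0` are `ord g`, `q ord g`, `q ord g`, `ord g`;
* `h10_cusp_ne_cusp0` : `Pinf ≠ P0`;
* `h10_fibre_two` (generic) and `h10_fibre_alpha` : the places of `F` over the cusp of `E` (along
  `α`) are exactly `P∞` and `P0`;
* `h10_polar_alpha`, `h10_polar_beta` : if `g ∈ E` is regular off the cusp of `E`, then `α g` and
  `β g` are regular off `{Pinf, P0}`.
-/
import Mathlib
import Fermat.Agent.S34.h10_CuspPlace
import Fermat.Agent.S37.h19_DEG
import Fermat.Agent.S37.h82_FI
import Fermat.Agent.S37.h88_HICore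
import Fermat.Agent.S24.h64_ConjQ
import Fermat.Agent.S24.h59_Cusp

set_option autoImplicit false
set_option synthInstance.maxHeartbeats 400000
set_option linter.style.haveILetI false

noncomputable section

namespace Fermat.Agent.S34

open AlgebraicCurve HahnSeries ModularCurve IntermediateField
open Fermat.Agent.S24 Fermat.Agent.S18 Fermat.Agent.S37

/-! ## A generic lemma: a fibre exhausted by two places -/

section Generic

variable {K F F' : Type*} [Field K] [Field F] [Field F'] [Algebra K F] [Algebra K F']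
variable [IsAlgClosed K] [CharZero K]
variable [Algebra F F'] [IsScalarTower K F F'] [FiniteDimensional F F']

/-- If two distinct places over `v` have ramification indices adding up to `[F' : F]`, they are
the only places over `v`. -/
theorem h10_fibre_two (hF : h73_IsFF K F) [HasPrincipalDivisors K F'] (v : Place K F)
    (w₁ w₂ : Place K F') (h12 : w₁ ≠ w₂) (h1 : w₁.restrict F = v) (h2 : w₂.restrict F = v)
    (he : (w₁.ramificationIndex F : ℤ) + (w₂.ramificationIndex F : ℤ)
      = (Module.finrank F F' : ℤ))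
    (w : Place K F') (hw : w.restrict F = v) : w = w₁ ∨ w = w₂ := by
  classical
  by_contra hne
  push Not at hne
  have hsum := h82_sum_ramificationIndex (F' := F') hF v
  have hm1 : w₁ ∈ v.fiber F' := Place.mem_fiber.mpr h1
  have hm2 : w₂ ∈ v.fiber F' := Place.mem_fiber.mpr h2
  have hm : w ∈ v.fiber F' := Place.mem_fiber.mpr hw
  have hsub : ({w, w₁, w₂} : Finset (Place K F')) ⊆ v.fiber F' := by
    intro x hx
    simp only [Finset.mem_insert, Finset.mem_singleton] at hx
    rcases hx with rfl | rfl | rfl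
    · exact hm
    · exact hm1
    · exact hm2
  have hle : ∑ x ∈ ({w, w₁, w₂} : Finset (Place K F')), (x.ramificationIndex F : ℤ)
      ≤ ∑ x ∈ v.fiber F', (x.ramificationIndex F : ℤ) :=
    Finset.sum_le_sum_of_subset_of_nonneg hsub fun x _ _ => by positivity
  rw [Finset.sum_insert (by simp [hne.1, hne.2]), Finset.sum_insert (by simp [h12]),
    Finset.sum_singleton, hsum] at hle
  have hpos : 0 < (w.ramificationIndex F : ℤ) := by
    exact_mod_cast w.ramificationIndex_pos (F := F)
  omega

end Generic

/-! ## The modular instance -/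

section Modular

local notation "Qb" => AlgebraicClosure ℚ

variable (M q : ℕ) [NeZero M] [NeZero q]

/-- `P` is the cusp `0'` with respect to the swap `w`: its order function is
`f ↦ ord_q (w f)`. -/
def h10_IsCusp0 (w : ↥(modularFunctionFieldBar (M * q)) →+* ↥(modularFunctionFieldBar (M * q)))
    (P : Place Qb ↥(modularFunctionFieldBar (M * q))) : Prop :=
  ∀ f : ↥(modularFunctionFieldBar (M * q)), f ≠ 0 →
    P.ord f = ((w f : ↥(modularFunctionFieldBar (M * q))) : LaurentSeries Qb).order

variable {M q}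

theorem h10_order_jbar (N : ℕ) :
    ((h59_jbar N : ↥(modularFunctionFieldBar N)) : LaurentSeries Qb).order = -1 := by
  rw [h59_coe_jbar]
  exact h59_order_coeffEmb_jq

theorem h10_order_alpha (g : ↥(modularFunctionFieldBar M)) :
    ((heckeAlphaBar Qb M q g : ↥(modularFunctionFieldBar (M * q))) : LaurentSeries Qb).order
      = (g : LaurentSeries Qb).order := by
  rw [coe_heckeAlphaBar]

theorem h10_order_beta (g : ↥(modularFunctionFieldBar M)) :
    ((heckeBetaBar Qb M q g : ↥(modularFunctionFieldBar (M * q))) : LaurentSeries Qb).order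
      = (q : ℤ) * (g : LaurentSeries Qb).order := by
  have : ((heckeBetaBar Qb M q g : ↥(modularFunctionFieldBar (M * q))) : LaurentSeries Qb)
      = qExpand Qb q (g : LaurentSeries Qb) := rfl
  rw [this, h64_order_qExpand]

section Swap

variable (w : ↥(modularFunctionFieldBar (M * q)) →+* ↥(modularFunctionFieldBar (M * q)))
  (hwα : ∀ y : ↥(modularFunctionFieldBar M), w (heckeAlphaBar Qb M q y) = heckeBetaBar Qb M q y)
  (hwβ : ∀ y : ↥(modularFunctionFieldBar M), w (heckeBetaBar Qb M q y) = heckeAlphaBar Qb M q y)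

include hwα in
theorem h10_swap_algebraMap (c : Qb) :
    w (algebraMap Qb ↥(modularFunctionFieldBar (M * q)) c)
      = algebraMap Qb ↥(modularFunctionFieldBar (M * q)) c := by
  have h1 := (heckeAlphaBar Qb M q).commutes c
  have h2 := (heckeBetaBar Qb M q).commutes c
  calc w (algebraMap Qb ↥(modularFunctionFieldBar (M * q)) c)
      = w (heckeAlphaBar Qb M q (algebraMap Qb ↥(modularFunctionFieldBar M) c)) := by rw [h1]
    _ = heckeBetaBar Qb M q (algebraMap Qb ↥(modularFunctionFieldBar M) c) := hwα _
    _ = algebraMap Qb ↥(modularFunctionFieldBar (M * q)) c := h2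

include hwα in
theorem h10_isOrd_swap :
    h56_IsOrd Qb (fun f : ↥(modularFunctionFieldBar (M * q)) =>
      ((w f : ↥(modularFunctionFieldBar (M * q))) : LaurentSeries Qb).order) where
  map_mul := by
    intro f g hf hg
    have hf' : w f ≠ 0 := (map_ne_zero w).mpr hf
    have hg' : w g ≠ 0 := (map_ne_zero w).mpr hg
    show ((w (f * g) : ↥(modularFunctionFieldBar (M * q))) : LaurentSeries Qb).order = _
    rw [map_mul]
    exact (h10_isOrd_order (modularFunctionFieldBar (M * q))).map_mul _ _ hf' hg'
  map_add := by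
    intro f g hf hg hfg
    have hf' : w f ≠ 0 := (map_ne_zero w).mpr hf
    have hg' : w g ≠ 0 := (map_ne_zero w).mpr hg
    have hfg' : w f + w g ≠ 0 := by
      rw [← map_add]; exact (map_ne_zero w).mpr hfg
    show _ ≤ ((w (f + g) : ↥(modularFunctionFieldBar (M * q))) : LaurentSeries Qb).order
    rw [map_add]
    exact (h10_isOrd_order (modularFunctionFieldBar (M * q))).map_add _ _ hf' hg' hfg'
  map_algebraMap := by
    intro c hc
    show ((w (algebraMap Qb _ c) : ↥(modularFunctionFieldBar (M * q))) : LaurentSeries Qb).order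
      = 0
    rw [h10_swap_algebraMap w hwα]
    exact (h10_isOrd_order (modularFunctionFieldBar (M * q))).map_algebraMap c hc

include hwα hwβ in
/-- The cusp `0'` exists. -/
theorem h10_exists_cusp0 : ∃ P : Place Qb ↥(modularFunctionFieldBar (M * q)),
    h10_IsCusp0 M q w P := by
  refine h10_exists_place_of_isOrd _ (h10_isOrd_swap w hwα)
    ⟨heckeBetaBar Qb M q (h59_jbar M), ?_, ?_⟩
  · intro h
    have := h59_jbar_transcendental M
    apply this
    have h0 : h59_jbar M = 0 := (map_eq_zero (heckeBetaBar Qb M q)).mp h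
    rw [h0]
    exact isAlgebraic_zero
  · show ((w (heckeBetaBar Qb M q (h59_jbar M)) : ↥(modularFunctionFieldBar (M * q))) :
      LaurentSeries Qb).order = -1
    rw [hwβ, h10_order_alpha, h10_order_jbar]

variable {w}

theorem h10_IsCusp0.mem_iff {P : Place Qb ↥(modularFunctionFieldBar (M * q))}
    (hP : h10_IsCusp0 M q w P) (f : ↥(modularFunctionFieldBar (M * q))) :
    f ∈ P.toValuationSubring ↔
      f = 0 ∨ 0 ≤ ((w f : ↥(modularFunctionFieldBar (M * q))) : LaurentSeries Qb).order := by
  by_cases hf : f = 0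
  · subst hf
    simp
  · rw [h35_mem_iff_ord_nonneg P hf, hP f hf]
    simp [hf]

theorem h10_IsCusp0.unique {P P' : Place Qb ↥(modularFunctionFieldBar (M * q))}
    (hP : h10_IsCusp0 M q w P) (hP' : h10_IsCusp0 M q w P') : P = P' := by
  apply Place.ext
  ext f
  rw [hP.mem_iff, hP'.mem_iff]

/-! ### Orders of `α g`, `β g` at the two cusps -/

theorem h10_ord_alpha {P : Place Qb ↥(modularFunctionFieldBar (M * q))}
    (hP : h10_IsCusp (modularFunctionFieldBar (M * q)) P) (g : ↥(modularFunctionFieldBar M)) :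
    P.ord (heckeAlphaBar Qb M q g) = (g : LaurentSeries Qb).order := by
  rw [hP.ord_eq, h10_order_alpha]

theorem h10_ord_beta {P : Place Qb ↥(modularFunctionFieldBar (M * q))}
    (hP : h10_IsCusp (modularFunctionFieldBar (M * q)) P) (g : ↥(modularFunctionFieldBar M)) :
    P.ord (heckeBetaBar Qb M q g) = (q : ℤ) * (g : LaurentSeries Qb).order := by
  rw [hP.ord_eq, h10_order_beta]

include hwα in
theorem h10_ord0_alpha {P : Place Qb ↥(modularFunctionFieldBar (M * q))}
    (hP : h10_IsCusp0 M q w P) (g : ↥(modularFunctionFieldBar M)) :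
    P.ord (heckeAlphaBar Qb M q g) = (q : ℤ) * (g : LaurentSeries Qb).order := by
  by_cases hg : g = 0
  · subst hg
    simp
  · rw [hP _ ((map_ne_zero (heckeAlphaBar Qb M q)).mpr hg), hwα, h10_order_beta]

include hwβ in
theorem h10_ord0_beta {P : Place Qb ↥(modularFunctionFieldBar (M * q))}
    (hP : h10_IsCusp0 M q w P) (g : ↥(modularFunctionFieldBar M)) :
    P.ord (heckeBetaBar Qb M q g) = (g : LaurentSeries Qb).order := by
  by_cases hg : g = 0
  · subst hg
    simp
  · rw [hP _ ((map_ne_zero (heckeBetaBar Qb M q)).mpr hg), hwβ, h10_order_alpha]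

include hwα in
/-- The two cusps are distinct (`q ≥ 2`). -/
theorem h10_cusp_ne_cusp0 (hq : 2 ≤ q) {P P0 : Place Qb ↥(modularFunctionFieldBar (M * q))}
    (hP : h10_IsCusp (modularFunctionFieldBar (M * q)) P) (hP0 : h10_IsCusp0 M q w P0) :
    P ≠ P0 := by
  rintro rfl
  have h1 := h10_ord_alpha hP (h59_jbar M)
  have h2 := h10_ord0_alpha hwα hP0 (h59_jbar M)
  rw [h10_order_jbar] at h1 h2
  rw [h1] at h2
  have : (2 : ℤ) ≤ (q : ℤ) := by exact_mod_cast hq
  linarith

/-! ### The fibre of `α` over the cusp of level `M` -/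

section Fibre

variable (hq : q.Prime) (hqM : ¬ q ∣ M)

include hwα hq hqM in
/-- The places of `F(Mq)` lying (along `α`) over the cusp of `F(M)` are `P∞` and `P0`:
stated as "`α g` is regular at every other place as soon as `g` is regular off the cusp". -/
theorem h10_polar_alpha {PM : Place Qb ↥(modularFunctionFieldBar M)}
    (hPM : h10_IsCusp (modularFunctionFieldBar M) PM)
    {Pinf P0 : Place Qb ↥(modularFunctionFieldBar (M * q))}
    (hPinf : h10_IsCusp (modularFunctionFieldBar (M * q)) Pinf) (hP0 : h10_IsCusp0 M q w P0)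
    (g : ↥(modularFunctionFieldBar M))
    (hg : ∀ v : Place Qb ↥(modularFunctionFieldBar M), v ≠ PM → 0 ≤ v.ord g)
    (P : Place Qb ↥(modularFunctionFieldBar (M * q))) (h1 : P ≠ Pinf) (h2 : P ≠ P0) :
    0 ≤ P.ord (heckeAlphaBar Qb M q g) := by
  letI := algebraAlong (heckeAlphaBar Qb M q)
  haveI := isScalarTower_along (heckeAlphaBar Qb M q)
  haveI : FiniteDimensional ↥(modularFunctionFieldBar M) ↥(modularFunctionFieldBar (M * q)) :=
    h88_finiteAlong_alpha M q
  haveI := h88_hasPrincipalDivisors (M * q)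
  have hmap : ∀ y : ↥(modularFunctionFieldBar M),
      algebraMap ↥(modularFunctionFieldBar M) ↥(modularFunctionFieldBar (M * q)) y
        = heckeAlphaBar Qb M q y := fun _ => rfl
  -- the two cusps restrict to the cusp of level `M`
  have hrinf : Pinf.restrict ↥(modularFunctionFieldBar M) = PM := by
    apply Place.ext
    ext y
    rw [Place.mem_restrict_iff, hmap, hPinf.mem_iff, hPM.mem_iff, h10_order_alpha,
      map_eq_zero]
  have hr0 : P0.restrict ↥(modularFunctionFieldBar M) = PM := by
    apply Place.ext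
    ext y
    rw [Place.mem_restrict_iff, hmap, hP0.mem_iff, hPM.mem_iff, hwα, h10_order_beta,
      map_eq_zero]
    have hqpos : (0 : ℤ) < (q : ℤ) := by exact_mod_cast hq.pos
    constructor
    · rintro (h | h)
      · exact Or.inl h
      · exact Or.inr (by nlinarith)
    · rintro (h | h)
      · exact Or.inl h
      · exact Or.inr (by positivity)
  -- ramification indices
  have hj : PM.ord (h59_jbar M) = -1 := by rw [hPM.ord_eq, h10_order_jbar]
  have heinf : (Pinf.ramificationIndex ↥(modularFunctionFieldBar M) : ℤ) = 1 := by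
    have h := Pinf.ord_restrict (F := ↥(modularFunctionFieldBar M)) (h59_jbar M)
    rw [hrinf, hj, hmap, h10_ord_alpha hPinf, h10_order_jbar] at h
    linarith
  have he0 : (P0.ramificationIndex ↥(modularFunctionFieldBar M) : ℤ) = q := by
    have h := P0.ord_restrict (F := ↥(modularFunctionFieldBar M)) (h59_jbar M)
    rw [hr0, hj, hmap, h10_ord0_alpha hwα hP0, h10_order_jbar] at h
    linarith
  have hdeg : (Module.finrank ↥(modularFunctionFieldBar M)
      ↥(modularFunctionFieldBar (M * q)) : ℤ) = q + 1 := by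
    have h := h19_DEG M q hq hqM
    unfold finrankAlong at h
    exact_mod_cast h
  have hne : Pinf ≠ P0 := h10_cusp_ne_cusp0 hwα hq.two_le hPinf hP0
  have hr : P.restrict ↥(modularFunctionFieldBar M) ≠ PM := by
    intro h
    rcases h10_fibre_two (h88_isFF M) PM Pinf P0 hne hrinf hr0 (by rw [heinf, he0, hdeg]; ring) P h
      with h' | h'
    · exact h1 h'
    · exact h2 h'
  have h3 := P.ord_restrict (F := ↥(modularFunctionFieldBar M)) g
  rw [hmap] at h3
  rw [h3]
  exact mul_nonneg (by positivity) (hg _ hr)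

end Fibre

/-! ### The fibre of `β` over the cusp of level `M` (uses that `w` is an involution) -/

section Beta

variable (hq : q.Prime) (hqM : ¬ q ∣ M) (hww : ∀ x : ↥(modularFunctionFieldBar (M * q)), w (w x) = x)

/-- The swap as a `Qb`-algebra automorphism. -/
def h10_swapAut (hwK : ∀ c : Qb, w (algebraMap Qb ↥(modularFunctionFieldBar (M * q)) c)
      = algebraMap Qb ↥(modularFunctionFieldBar (M * q)) c)
    (hww : ∀ x : ↥(modularFunctionFieldBar (M * q)), w (w x) = x) :
    ↥(modularFunctionFieldBar (M * q)) ≃ₐ[Qb] ↥(modularFunctionFieldBar (M * q)) where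
  toFun := w
  invFun := w
  left_inv := hww
  right_inv := hww
  map_mul' := map_mul w
  map_add' := map_add w
  commutes' := hwK

include hwα hww in
/-- The swap exchanges the two cusps. -/
theorem h10_swap_smul_cusp {Pinf : Place Qb ↥(modularFunctionFieldBar (M * q))}
    (hPinf : h10_IsCusp (modularFunctionFieldBar (M * q)) Pinf) :
    h10_IsCusp0 M q w (h10_swapAut (h10_swap_algebraMap w hwα) hww • Pinf) := by
  intro f hf
  have h := Place.ord_smul (h10_swapAut (h10_swap_algebraMap w hwα) hww) Pinf (w f)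
  have h' : (h10_swapAut (h10_swap_algebraMap w hwα) hww) (w f) = f := hww f
  rw [h'] at h
  rw [h, hPinf.ord_eq]

include hwα hww in
theorem h10_swap_smul_cusp0 {P0 : Place Qb ↥(modularFunctionFieldBar (M * q))}
    (hP0 : h10_IsCusp0 M q w P0) :
    h10_IsCusp (modularFunctionFieldBar (M * q))
      (h10_swapAut (h10_swap_algebraMap w hwα) hww • P0) := by
  intro f hf
  have h := Place.ord_smul (h10_swapAut (h10_swap_algebraMap w hwα) hww) P0 (w f)
  have h' : (h10_swapAut (h10_swap_algebraMap w hwα) hww) (w f) = f := hww f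
  rw [h'] at h
  rw [h, hP0 _ ((map_ne_zero w).mpr hf), hww]

include hwα hq hqM hww in
/-- `β g` is regular off `{P∞, P0}` as soon as `g` is regular off the cusp of level `M`. -/
theorem h10_polar_beta {PM : Place Qb ↥(modularFunctionFieldBar M)}
    (hPM : h10_IsCusp (modularFunctionFieldBar M) PM)
    {Pinf P0 : Place Qb ↥(modularFunctionFieldBar (M * q))}
    (hPinf : h10_IsCusp (modularFunctionFieldBar (M * q)) Pinf) (hP0 : h10_IsCusp0 M q w P0)
    (g : ↥(modularFunctionFieldBar M))
    (hg : ∀ v : Place Qb ↥(modularFunctionFieldBar M), v ≠ PM → 0 ≤ v.ord g)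
    (P : Place Qb ↥(modularFunctionFieldBar (M * q))) (h1 : P ≠ Pinf) (h2 : P ≠ P0) :
    0 ≤ P.ord (heckeBetaBar Qb M q g) := by
  set σ := h10_swapAut (h10_swap_algebraMap w hwα) hww with hσ
  have hσw : ∀ x, σ x = w x := fun _ => rfl
  -- `P = σ • P'` with `P' = σ⁻¹ • P`
  have hP : σ • (σ⁻¹ • P) = P := smul_inv_smul σ P
  have h := Place.ord_smul σ (σ⁻¹ • P) (heckeAlphaBar Qb M q g)
  rw [hP, hσw, hwα] at h
  rw [h]
  refine h10_polar_alpha hwα hq hqM hPM hPinf hP0 g hg _ ?_ ?_
  · intro h3
    apply h2
    rw [← hP, h3]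
    exact (h10_swap_smul_cusp hwα hww hPinf).unique hP0
  · intro h3
    apply h1
    rw [← hP, h3]
    exact (h10_swap_smul_cusp0 hwα hww hP0).unique hPinf

end Beta

end Swap

end Modular

end Fermat.Agent.S34

end
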