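import Mathlib
import Fermat.Agent.S18.Defs
import Fermat.Prelude.Def_ModularCurve_LaurentCoeff

/-!
# S34, block (III): `A((q))` is completely integrally closed in `K((q))` for rank-one `A`
(helper11)

`K` a field, `A` a valuation subring of `K`, `S := (coeffMap A.subtype).range` the subring of
`K((q))` of `A`-integral `q`-series.

* `h11_mem_range_iff` : `x ∈ S ↔ ∀ i, x.coeff i ∈ A`.
* `h11_cic` : `A` of rank one, `d ≠ 0`, `d * f ^ n ∈ S` for all `n` ⟹ `f ∈ S`.
* `h11_int_of_monic` : `f` a root of a monic polynomial over `A((q))` and `f * y₂ = y₁` with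
  `y₁, y₂` integral, `y₂ ≠ 0` ⟹ `f ∈ S`.
-/

set_option autoImplicit false

noncomputable section

open ModularCurve Polynomial

namespace Fermat.Agent.S34

open Fermat.Agent.S18

variable {K : Type*} [Field K]

theorem h11_mem_range_iff (A : ValuationSubring K) (x : LaurentSeries K) :
    x ∈ (coeffMap A.subtype).range ↔ ∀ i : ℤ, x.coeff i ∈ A := by
  constructor
  · rintro ⟨y, rfl⟩ i
    rw [coeffMap_coeff]
    exact (y.coeff i).2
  · intro h
    refine ⟨⟨fun i => ⟨x.coeff i, h i⟩, ?_⟩, ?_⟩
    · refine x.isPWO_support.mono ?_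
      intro i hi
      rw [Function.mem_support] at hi
      rw [HahnSeries.mem_support]
      intro h0
      exact hi (Subtype.ext h0)
    · ext i
      rw [coeffMap_coeff]
      rfl

theorem h11_leadingCoeff_mem (A : ValuationSubring K) {x : LaurentSeries K}
    (hx : x ∈ (coeffMap A.subtype).range) : x.leadingCoeff ∈ A := by
  rw [HahnSeries.leadingCoeff_eq]
  exact (h11_mem_range_iff A x).1 hx _

theorem h11_leadingCoeff_pow (x : LaurentSeries K) (n : ℕ) :
    (x ^ n).leadingCoeff = x.leadingCoeff ^ n := by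
  induction n with
  | zero => rw [pow_zero, pow_zero, HahnSeries.leadingCoeff_one]
  | succ n ih => rw [pow_succ, pow_succ, HahnSeries.leadingCoeff_mul, ih]

/-- **Complete integral closedness** of `A((q))` in `K((q))` for a rank-one valuation ring. -/
theorem h11_cic (A : ValuationSubring K) (h1 : h39_RankOne A) (f d : LaurentSeries K)
    (hd : d ≠ 0) (hdn : ∀ n : ℕ, d * f ^ n ∈ (coeffMap A.subtype).range) :
    f ∈ (coeffMap A.subtype).range := by
  classical
  by_contra hf
  rw [h11_mem_range_iff] at hf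
  push Not at hf
  set B : Set ℤ := {i | f.coeff i ∉ A} with hB
  have hBne : B.Nonempty := hf
  have hBsub : B ⊆ f.support := by
    intro i hi
    rw [HahnSeries.mem_support]
    intro h0
    exact hi (h0 ▸ A.zero_mem)
  have hBwf : B.IsWF := f.isWF_support.mono hBsub
  set i1 : ℤ := hBwf.min hBne with hi1
  have hi1B : f.coeff i1 ∉ A := hBwf.min_mem hBne
  have hlt : ∀ i : ℤ, i < i1 → f.coeff i ∈ A := by
    intro i hi
    by_contra hc
    exact hBwf.not_lt_min hBne hc hi
  set g : LaurentSeries K := HahnSeries.truncLT i1 f with hg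
  have hgS : g ∈ (coeffMap A.subtype).range := by
    rw [h11_mem_range_iff]
    intro i
    rw [hg, HahnSeries.coeff_truncLT]
    split_ifs with h
    · exact hlt i h
    · exact A.zero_mem
  set h : LaurentSeries K := f - g with hh
  have hcoeff_lt : ∀ i : ℤ, i < i1 → h.coeff i = 0 := by
    intro i hi
    rw [hh, HahnSeries.coeff_sub, hg, HahnSeries.coeff_truncLT, if_pos hi, sub_self]
  have hcoeff_i1 : h.coeff i1 = f.coeff i1 := by
    rw [hh, HahnSeries.coeff_sub, hg, HahnSeries.coeff_truncLT, if_neg (lt_irrefl _), sub_zero]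
  have hc0 : f.coeff i1 ≠ 0 := fun h0 => hi1B (h0 ▸ A.zero_mem)
  have hh0 : h ≠ 0 := by
    intro h0
    rw [h0, HahnSeries.coeff_zero] at hcoeff_i1
    exact hc0 hcoeff_i1.symm
  have horder : h.order = i1 := by
    apply le_antisymm
    · exact HahnSeries.order_le_of_coeff_ne_zero (by rw [hcoeff_i1]; exact hc0)
    · by_contra hlt'
      push Not at hlt'
      exact hh0 (HahnSeries.coeff_order_eq_zero.1 (hcoeff_lt _ hlt'))
  have hlead : h.leadingCoeff = f.coeff i1 := by
    rw [HahnSeries.leadingCoeff_eq, horder, hcoeff_i1]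
  -- `d * h ^ n` is integral
  have hdh : ∀ n : ℕ, d * h ^ n ∈ (coeffMap A.subtype).range := by
    intro n
    rw [hh, sub_eq_add_neg, add_pow, Finset.mul_sum]
    refine Subring.sum_mem _ fun m _ => ?_
    have e : d * (f ^ m * (-g) ^ (n - m) * (n.choose m : LaurentSeries K))
        = d * f ^ m * ((-g) ^ (n - m) * (n.choose m : LaurentSeries K)) := by ring
    rw [e]
    exact Subring.mul_mem _ (hdn m)
      (Subring.mul_mem _ (Subring.pow_mem _ (Subring.neg_mem _ hgS) _) (natCast_mem _ _))
  -- leading coefficients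
  have hδ : d.leadingCoeff ≠ 0 := HahnSeries.leadingCoeff_ne_zero.2 hd
  have hlc : ∀ n : ℕ, d.leadingCoeff * f.coeff i1 ^ n ∈ A := by
    intro n
    have := h11_leadingCoeff_mem A (hdh n)
    rwa [HahnSeries.leadingCoeff_mul, h11_leadingCoeff_pow, hlead] at this
  have hainv : (f.coeff i1)⁻¹ ∈ A := (A.mem_or_inv_mem _).resolve_left hi1B
  obtain ⟨n, hn⟩ := h1 (f.coeff i1)⁻¹ hainv (by rwa [inv_inv]) d.leadingCoeff hδ
  apply hi1B
  have e : f.coeff i1 = ((f.coeff i1)⁻¹ ^ n * (d.leadingCoeff)⁻¹)
      * (d.leadingCoeff * f.coeff i1 ^ (n + 1)) := by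
    rw [inv_pow, pow_succ]
    field_simp
  rw [e]
  exact A.mul_mem _ _ hn (hlc (n + 1))

/-- A root of a monic polynomial over `A((q))` which is a ratio of integral series is
integral. -/
theorem h11_int_of_monic (A : ValuationSubring K) (h1 : h39_RankOne A) (f : LaurentSeries K)
    (G : Polynomial (LaurentSeries A)) (hG : G.Monic)
    (h0 : Polynomial.eval₂ (coeffMap A.subtype) f G = 0)
    (y₁ y₂ : LaurentSeries A) (hy₂ : coeffMap A.subtype y₂ ≠ 0)
    (hf : f * coeffMap A.subtype y₂ = coeffMap A.subtype y₁) :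
    f ∈ (coeffMap A.subtype).range := by
  classical
  have hG1 : G ≠ 1 := by
    rintro rfl
    rw [Polynomial.eval₂_one] at h0
    exact one_ne_zero h0
  set r := G.natDegree with hr
  refine h11_cic A h1 f (coeffMap A.subtype y₂ ^ r) (pow_ne_zero _ hy₂) fun n => ?_
  have hmod : f ^ n = Polynomial.eval₂ (coeffMap A.subtype) f (X ^ n %ₘ G) := by
    have h2 := congrArg (Polynomial.eval₂ (coeffMap A.subtype) f)
      (Polynomial.modByMonic_add_div (X ^ n : Polynomial (LaurentSeries A)) G)
    rw [Polynomial.eval₂_add, Polynomial.eval₂_mul, h0, zero_mul, add_zero,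
      Polynomial.eval₂_pow, Polynomial.eval₂_X] at h2
    exact h2.symm
  have hdeg : (X ^ n %ₘ G).natDegree < r := Polynomial.natDegree_modByMonic_lt _ hG hG1
  rw [hmod, Polynomial.eval₂_eq_sum_range' _ hdeg, Finset.mul_sum]
  refine Subring.sum_mem _ fun i hi => ?_
  have hir : i ≤ r := (Finset.mem_range.1 hi).le
  have e : coeffMap A.subtype y₂ ^ r * (coeffMap A.subtype ((X ^ n %ₘ G).coeff i) * f ^ i)
      = coeffMap A.subtype ((X ^ n %ₘ G).coeff i * y₂ ^ (r - i) * y₁ ^ i) := by
    rw [map_mul, map_mul, map_pow, map_pow, ← hf, mul_pow]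
    have e2 : coeffMap A.subtype y₂ ^ r
        = coeffMap A.subtype y₂ ^ (r - i) * coeffMap A.subtype y₂ ^ i := by
      rw [← pow_add, Nat.sub_add_cancel hir]
    rw [e2]
    ring
  rw [e]
  exact ⟨_, rfl⟩

end Fermat.Agent.S34

end
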