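import Mathlib
import Fermat.Agent.S24.h35_PlaceOfOrd
import Fermat.Prelude.Def_ModularCurve_ReductionModL
import Fermat.Agent.S18.h54_ModDefs
import Fermat.Agent.S18.h59_HauptFull

/-!
# S34, block (III): the `q`-order place of a field of `q`-series (helper11)

* `h11_exists_qPlace` : a subfield `E` of `K((q))` containing a series of order `-1` carries a
  place `P` with `P.ord f = order of the q-series f`.
* `h11_placeInfty N` : the cusp `∞` of `modularFunctionFieldBar N`, with `h11_placeInfty_ord`.
* `h11_placeInftyC k N` : the cusp `∞` of `modularFunctionFieldFullC k N`, with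
  `h11_placeInftyC_ord`.
-/

set_option autoImplicit false

noncomputable section

open AlgebraicCurve ModularCurve

namespace Fermat.Agent.S34

open Fermat.Agent.S24

theorem h11_exists_qPlace {K : Type*} [Field K] (E : IntermediateField K (LaurentSeries K))
    (hE : ∃ f ∈ E, (f : LaurentSeries K).order = -1) :
    ∃ P : Place K E, ∀ f : E, f ≠ 0 → P.ord f = (f : LaurentSeries K).order := by
  classical
  have hne : ∀ f : E, f ≠ 0 → (f : LaurentSeries K) ≠ 0 := fun f hf h =>
    hf (Subtype.ext h)
  obtain ⟨P, -, d, hd, hP⟩ := h35_exists_place_of_ord' (K := K) (F := E)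
    (fun f => (f : LaurentSeries K).order)
    (fun f g hf hg => by
      show ((f : LaurentSeries K) * (g : LaurentSeries K)).order = _
      exact HahnSeries.order_mul (hne f hf) (hne g hg))
    (fun f g hf hg hfg => by
      show min (f : LaurentSeries K).order (g : LaurentSeries K).order
        ≤ ((f : LaurentSeries K) + (g : LaurentSeries K)).order
      exact HahnSeries.min_order_le_order_add (hne _ hfg))
    (fun a ha => by
      show (algebraMap K (LaurentSeries K) a).order = 0
      rw [algebraMap_laurentSeries_eq_single]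
      exact HahnSeries.order_single ha)
    (by
      obtain ⟨f, hf, hfo⟩ := hE
      refine ⟨⟨f, hf⟩, ?_, ?_⟩
      · intro h0
        have : f = 0 := congrArg Subtype.val h0
        rw [this, HahnSeries.order_zero] at hfo
        omega
      · show f.order ≠ 0
        omega)
  obtain ⟨f, hf, hfo⟩ := hE
  have hf0 : (⟨f, hf⟩ : E) ≠ 0 := by
    intro h0
    have : f = 0 := congrArg Subtype.val h0
    rw [this, HahnSeries.order_zero] at hfo
    omega
  have h1 := hP ⟨f, hf⟩ hf0
  have h2 : (f : LaurentSeries K).order = d * P.ord ⟨f, hf⟩ := h1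
  rw [hfo] at h2
  have hd1 : (d : ℤ) = 1 := by
    have hdvd : (d : ℤ) ∣ -1 := ⟨_, h2⟩
    have := Int.natAbs_dvd_natAbs.mpr hdvd
    simp at this
    omega
  refine ⟨P, fun g hg => ?_⟩
  have h3 := hP g hg
  rw [hd1, one_mul] at h3
  exact h3.symm

local notation "Qb" => AlgebraicClosure ℚ

open Fermat.Agent.S18

theorem h11_exists_placeInfty (N : ℕ) [NeZero N] :
    ∃ P : Place Qb ↥(modularFunctionFieldBar N), ∀ f : ↥(modularFunctionFieldBar N), f ≠ 0 →
      P.ord f = (f : LaurentSeries Qb).order := by
  refine h11_exists_qPlace (modularFunctionFieldBar N) ⟨_, (h59_jbar N).2, ?_⟩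
  rw [h59_coe_jbar, ← jqModC_rat, coeffEmb, coeffMap_jqModC]
  exact h59_jqModC_order Qb

/-- The cusp `∞` of `X₀(N)` over `ℚ̄`: the place of `modularFunctionFieldBar N` given by the
order of `q`-expansions. -/
def h11_placeInfty (N : ℕ) [NeZero N] : Place Qb ↥(modularFunctionFieldBar N) :=
  (h11_exists_placeInfty N).choose

theorem h11_placeInfty_ord (N : ℕ) [NeZero N] {f : ↥(modularFunctionFieldBar N)} (hf : f ≠ 0) :
    (h11_placeInfty N).ord f = (f : LaurentSeries Qb).order :=
  (h11_exists_placeInfty N).choose_spec f hf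

theorem h11_exists_placeInftyC (k : Type) [Field k] (N : ℕ) [NeZero N] :
    ∃ P : Place k ↥(modularFunctionFieldFullC k N), ∀ f : ↥(modularFunctionFieldFullC k N),
      f ≠ 0 → P.ord f = (f : LaurentSeries k).order :=
  h11_exists_qPlace (modularFunctionFieldFullC k N)
    ⟨_, (h54_jk k N).2, h59_jqModC_order k⟩

/-- The cusp `∞` of `X₀(N)` over `k`: the place of `modularFunctionFieldFullC k N` given by the
order of `q`-expansions. -/
def h11_placeInftyC (k : Type) [Field k] (N : ℕ) [NeZero N] :
    Place k ↥(modularFunctionFieldFullC k N) :=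
  (h11_exists_placeInftyC k N).choose

theorem h11_placeInftyC_ord (k : Type) [Field k] (N : ℕ) [NeZero N]
    {f : ↥(modularFunctionFieldFullC k N)} (hf : f ≠ 0) :
    (h11_placeInftyC k N).ord f = (f : LaurentSeries k).order :=
  (h11_exists_placeInftyC k N).choose_spec f hf

end Fermat.Agent.S34

end
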