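import Mathlib
import Fermat.Agent.S34.h11_QPlace
import Fermat.Agent.S34.h11_IntQ
import Fermat.Agent.S18.h39_PlaceRedOfChart
import Fermat.Agent.S18.h39_Mod
import Fermat.Agent.S18.h64_RankOneW
import Fermat.Agent.S18.GR_Integral
import Fermat.Agent.S18.GR_ChartPt

/-!
# S34, block (III): the level-`M` cusp input (helper11)

`M` a level, `ℓ ∤ M` a prime, `A` a valuation ring of `ℚ̄` over `ℓ`, `R` the S18 reduction datum.

* `h11_int_of_reg` : (INT) an element of `R.O` regular on a weak chart with `A`-integral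
  `q`-expansion has an `A`-integral `q`-expansion.
-/

set_option autoImplicit false
set_option synthInstance.maxHeartbeats 400000

noncomputable section

open AlgebraicCurve ModularCurve IntermediateField Polynomial

namespace Fermat.Agent.S34

open Fermat.Agent.S18 Fermat.Agent.S24 Fermat.Agent.S28

local notation "Qb" => AlgebraicClosure ℚ

section Generic

variable {N : ℕ} [NeZero N] {ℓ : ℕ} [Fact ℓ.Prime] {A : ValuationSubring Qb}
  {R : h39_RedDatum Qb ↥(modularFunctionFieldBar N) (IsLocalRing.ResidueField A)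
    ↥(modularFunctionFieldFullC (IsLocalRing.ResidueField A) N)}

set_option maxHeartbeats 4000000 in
/-- **(INT)** at level `N`: an element of `O` which is regular on a weak chart `x` with
`A`-integral `q`-expansion has an `A`-integral `q`-expansion. -/
theorem h11_int_of_reg (hA : A.LiesOverPrime ℓ) (hR : h54_IsModRed N A R)
    {x : ↥(modularFunctionFieldBar N)} (hx : h39_WeakChart R x) (yx : LaurentSeries A)
    (hyx : (x : LaurentSeries Qb) = coeffMap A.subtype yx)
    {f : ↥(modularFunctionFieldBar N)} (hf : f ∈ R.O)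
    (hint : ∀ P : Place Qb ↥(modularFunctionFieldBar N),
      x ∈ P.toValuationSubring → f ∈ P.toValuationSubring) :
    (f : LaurentSeries Qb) ∈ (coeffMap A.subtype).range := by
  have hk : IsAlgClosed (IsLocalRing.ResidueField A) := h19_residueField_isAlgClosed A
  obtain ⟨G, hGm, hG⟩ := h39_exists_monic_eq R hx hf hint
  obtain ⟨y₁, y₂, hy₂, hfy⟩ := (hR.mem_iff f).1 hf
  let ι : R.A →+* A := ValuationSubring.inclusion R.A A hR.A_eq.le
  let ψ : Polynomial R.A →+* LaurentSeries A :=
    Polynomial.eval₂RingHom ((HahnSeries.C : A →+* LaurentSeries A).comp ι) yx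
  have hψ : (coeffMap A.subtype).comp ψ
      = (algebraMap ↥(modularFunctionFieldBar N) (LaurentSeries Qb)).comp
        ((((aeval x : Qb[X] →ₐ[Qb] ↥(modularFunctionFieldBar N)) :
            Qb[X] →+* ↥(modularFunctionFieldBar N))).comp
          (Polynomial.mapRingHom (algebraMap R.A Qb))) := by
    apply Polynomial.ringHom_ext
    · intro a
      simp only [RingHom.comp_apply, ψ, Polynomial.coe_eval₂RingHom, Polynomial.eval₂_C,
        Polynomial.coe_mapRingHom, Polynomial.map_C, RingHom.coe_coe, Polynomial.aeval_C]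
      rw [HahnSeries.C_apply, coeffMap_single]
      rw [← IsScalarTower.algebraMap_apply, algebraMap_laurentSeries_eq_single]
      rfl
    · simp only [RingHom.comp_apply, ψ, Polynomial.coe_eval₂RingHom, Polynomial.eval₂_X,
        Polynomial.coe_mapRingHom, Polynomial.map_X, RingHom.coe_coe, Polynomial.aeval_X]
      exact hyx.symm
  have hℓ : ℓ.Prime := Fact.out
  refine h11_int_of_monic A (h64_rankOne_h39 hℓ A hA) (f : LaurentSeries Qb) (G.map ψ)
    (hGm.map ψ) ?_ y₁ y₂ ?_ hfy
  · rw [Polynomial.eval₂_map, hψ]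
    have := Polynomial.hom_eval₂ G
      ((((aeval x : Qb[X] →ₐ[Qb] ↥(modularFunctionFieldBar N)) :
            Qb[X] →+* ↥(modularFunctionFieldBar N))).comp
          (Polynomial.mapRingHom (algebraMap R.A Qb)))
      (algebraMap ↥(modularFunctionFieldBar N) (LaurentSeries Qb)) f
    rw [hG, map_zero] at this
    exact this.symm
  · intro h0
    apply hy₂
    have : y₂ = 0 := coeffMap_injective A.subtype A.subtype_injective
      (h0.trans (map_zero _).symm)
    rw [this, map_zero]

/-- Values at a `q`-order place are constant terms. -/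
theorem h11_val_coeff_zero {K : Type*} [Field K] {E : IntermediateField K (LaurentSeries K)}
    {P : Place K ↥E} (hP : ∀ f : ↥E, f ≠ 0 → P.ord f = (f : LaurentSeries K).order)
    {f : ↥E} {b : K} (h : h39_Val P f b) : (f : LaurentSeries K).coeff 0 = b := by
  rcases h with h | h
  · rw [h]
    show (algebraMap K (LaurentSeries K) b).coeff 0 = b
    rw [algebraMap_laurentSeries_eq_single, HahnSeries.coeff_single_same]
  · have hne : f - algebraMap K ↥E b ≠ 0 := by
      intro h0
      rw [h0, Place.ord_zero] at h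
      exact lt_irrefl _ h
    rw [hP _ hne] at h
    have h2 : ((f - algebraMap K ↥E b : ↥E) : LaurentSeries K).coeff 0 = 0 :=
      HahnSeries.coeff_eq_zero_of_lt_order h
    have h3 : ((f - algebraMap K ↥E b : ↥E) : LaurentSeries K)
        = (f : LaurentSeries K) - algebraMap K (LaurentSeries K) b := rfl
    rw [h3, HahnSeries.coeff_sub, algebraMap_laurentSeries_eq_single,
      HahnSeries.coeff_single_same, sub_eq_zero] at h2
    exact h2

omit [NeZero N] in
/-- The inverse of a series with leading term `q⁻¹` is integral. -/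
theorem h11_exists_inv_int {x : ↥(modularFunctionFieldBar N)} (yx : LaurentSeries A)
    (hyx : (x : LaurentSeries Qb) = coeffMap A.subtype yx) (hLT : h33_LT yx (-1) 1) :
    ∃ yt : LaurentSeries A, ((x⁻¹ : ↥(modularFunctionFieldBar N)) : LaurentSeries Qb)
      = coeffMap A.subtype yt := by
  have hord := (h33_LT_order hLT one_ne_zero).1
  have hu : IsUnit yx := by
    rw [HahnSeries.isUnit_iff, HahnSeries.leadingCoeff_eq, hord, hLT.1]
    exact isUnit_one
  obtain ⟨u, hu⟩ := hu
  refine ⟨((u⁻¹ : (LaurentSeries A)ˣ) : LaurentSeries A), ?_⟩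
  have h1 : (x : LaurentSeries Qb) * coeffMap A.subtype ((u⁻¹ : (LaurentSeries A)ˣ) :
      LaurentSeries A) = 1 := by
    rw [hyx, ← hu, ← map_mul, Units.mul_inv, map_one]
  have h2 : ((x⁻¹ : ↥(modularFunctionFieldBar N)) : LaurentSeries Qb)
      = (x : LaurentSeries Qb)⁻¹ := rfl
  rw [h2]
  exact (eq_inv_of_mul_eq_one_right h1).symm

set_option maxHeartbeats 1000000 in
/-- **(RED-∞)** the place reduction of a chart `x` with leading term `q⁻¹` sends the cusp `∞`
to the cusp `∞`. -/
theorem h11_r0_infty_of_chart (hA : A.LiesOverPrime ℓ) (hR : h54_IsModRed N A R)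
    {x : ↥(modularFunctionFieldBar N)} (hx : h39_Chart R x) (yx : LaurentSeries A)
    (hyx : (x : LaurentSeries Qb) = coeffMap A.subtype yx) (hLT : h33_LT yx (-1) 1)
    (S : h39_PlaceRed R)
    (hS : ∃ r' : Place Qb ↥(modularFunctionFieldBar N) →
        Place (IsLocalRing.ResidueField A)
          ↥(modularFunctionFieldFullC (IsLocalRing.ResidueField A) N),
      h39_IsChartRed R x⁻¹ r' ∧
        ∀ P : Place Qb ↥(modularFunctionFieldBar N), ¬ h39_InDisc R x P → S.r0 P = r' P) :
    S.r0 (h11_placeInfty N) = h11_placeInftyC (IsLocalRing.ResidueField A) N := by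
  have hk : IsAlgClosed (IsLocalRing.ResidueField A) := h19_residueField_isAlgClosed A
  have hw : h39_WeakChart R x := hx.toh39_WeakChart
  have hw' : h39_WeakChart R x⁻¹ := h39_weakChart_inv R hw
  -- orders of `x`
  have hxord : (x : LaurentSeries Qb).order = -1 := by
    rw [hyx, h64_order_coeffMap A.subtype A.subtype_injective, (h33_LT_order hLT one_ne_zero).1]
  have hx0 : x ≠ 0 := by
    rintro rfl
    rw [ZeroMemClass.coe_zero, HahnSeries.order_zero] at hxord
    omega
  have hPx : (h11_placeInfty N).ord x = -1 := (h11_placeInfty_ord N hx0).trans hxord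
  -- `∞` is outside the disc of `x`
  have hnd : ¬ h39_InDisc R x (h11_placeInfty N) := by
    rintro ⟨a, -, ha⟩
    have h1 := (h35_mem_iff_ord_nonneg (h11_placeInfty N) hx0).1 (h39_val_mem _ ha)
    omega
  obtain ⟨r', hr', hr0'⟩ := hS
  have hr0 : S.r0 (h11_placeInfty N) = r' (h11_placeInfty N) := hr0' _ hnd
  -- `∞` is in the disc of `x⁻¹`
  have hin : h39_InDisc R x⁻¹ (h11_placeInfty N) := by
    refine ⟨0, R.A.zero_mem, Or.inr ?_⟩
    rw [map_zero, sub_zero, Place.ord_inv, hPx]
    norm_num
  obtain ⟨hQ0t, hQ0⟩ := hr' _ hin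
  -- the reduction of `x`
  have hredx : ((R.redF x : ↥(modularFunctionFieldFullC (IsLocalRing.ResidueField A) N)) :
      LaurentSeries (IsLocalRing.ResidueField A)) = coeffMap (IsLocalRing.residue A) yx :=
    hR.redF_of_integral x yx hyx
  have hLTk : h33_LT (coeffMap (IsLocalRing.residue A) yx) (-1) 1 :=
    ⟨by rw [coeffMap_coeff, hLT.1, map_one],
      fun m hm => by rw [coeffMap_coeff, hLT.2 m hm, map_zero]⟩
  have hredxord := (h33_LT_order hLTk one_ne_zero).1
  have hredx0 : R.redF x ≠ 0 := by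
    intro h0
    rw [h0, ZeroMemClass.coe_zero] at hredx
    rw [← hredx, HahnSeries.order_zero] at hredxord
    omega
  have hQx : (h11_placeInftyC (IsLocalRing.ResidueField A) N).ord (R.redF x) = -1 := by
    rw [h11_placeInftyC_ord _ N hredx0, hredx, hredxord]
  obtain ⟨-, hxired⟩ := h39_inv_of_redF_ne_zero R hredx0
  have hQt : R.redF x⁻¹ ∈ (h11_placeInftyC (IsLocalRing.ResidueField A) N).toValuationSubring := by
    rw [hxired]
    apply h24_mem_of_ord_nonneg
    rw [Place.ord_inv, hQx]
    norm_num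
  rw [hr0]
  by_contra hne
  -- a separating function on the chart `t̄`
  have hchk : h75_IsChart (IsLocalRing.ResidueField A) (R.redF x⁻¹) :=
    h39_weakChart_isChart_red R hw'
  obtain ⟨φ, hφreg, hφ1, hφ0⟩ := h39_exists_separating hchk (r' (h11_placeInfty N))
    (h11_placeInftyC (IsLocalRing.ResidueField A) N) hQ0t hQt hne
  -- lift it
  obtain ⟨f, hfO, hfreg, hfred⟩ := h39_lift_integral R hw' (h53_genus_eq_inv R hx) φ hφreg
  have hchK : h75_IsChart Qb x⁻¹ := h39_weakChart_isChart R hw'
  have hxiP : x⁻¹ ∈ (h11_placeInfty N).toValuationSubring := by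
    apply h24_mem_of_ord_nonneg
    rw [Place.ord_inv, hPx]
    norm_num
  obtain ⟨b, hb⟩ := h39_exists_val hchK (h11_placeInfty N) (hfreg _ hxiP)
  have h1 := hQ0 f hfO hfreg b hb
  rw [hfred] at h1
  have hb1 : R.resK b = 1 := h39_val_unique _ h1 hφ1
  -- (INT)
  obtain ⟨yt, hyt⟩ := h11_exists_inv_int yx hyx hLT
  obtain ⟨y, hy⟩ := h11_int_of_reg hA hR hw' yt hyt hfO hfreg
  have hb0 : (f : LaurentSeries Qb).coeff 0 = b :=
    h11_val_coeff_zero (fun g hg => h11_placeInfty_ord N hg) hb
  have hbA : b = ((y.coeff 0 : A) : Qb) := by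
    rw [← hb0, ← hy, coeffMap_coeff]
    rfl
  have hbmem : b ∈ R.A := by
    rw [hR.A_eq, hbA]
    exact (y.coeff 0).2
  have hresb : R.resK b = IsLocalRing.residue A (y.coeff 0) := by
    rw [R.resK_of_mem hbmem]
    have := hR.res_eq b hbmem (by rw [hbA]; exact (y.coeff 0).2)
    rw [this]
    congr 1
    exact Subtype.ext hbA
  have hφc : ((φ : ↥(modularFunctionFieldFullC (IsLocalRing.ResidueField A) N)) :
      LaurentSeries (IsLocalRing.ResidueField A)).coeff 0 = IsLocalRing.residue A (y.coeff 0) := by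
    rw [← hfred, hR.redF_of_integral f y hy.symm, coeffMap_coeff]
  have hφ00 : ((φ : ↥(modularFunctionFieldFullC (IsLocalRing.ResidueField A) N)) :
      LaurentSeries (IsLocalRing.ResidueField A)).coeff 0 = 0 :=
    h11_val_coeff_zero (fun g hg => h11_placeInftyC_ord _ N hg) hφ0
  exact one_ne_zero (hb1.symm.trans (hresb.trans (hφc.symm.trans hφ00)))

set_option maxHeartbeats 1000000 in
/-- **(III)** for a chart `x` with leading term `q⁻¹`: for every large `ν` there is a function
`b ∈ F(N)` with `A`-integral `q`-expansion of exact order `-ν` and unit leading coefficient,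
regular away from the cusp `∞`, whose reduction is regular away from the cusp `∞`. -/
theorem h11_exists_cusp_fn_of_chart (hA : A.LiesOverPrime ℓ) (hR : h54_IsModRed N A R)
    {x : ↥(modularFunctionFieldBar N)} (hx : h39_Chart R x) (yx : LaurentSeries A)
    (hyx : (x : LaurentSeries Qb) = coeffMap A.subtype yx) (hLT : h33_LT yx (-1) 1) :
    ∃ ν₀ : ℕ, ∀ ν : ℕ, ν₀ ≤ ν → ∃ (b : ↥(modularFunctionFieldBar N)) (y : LaurentSeries A),
      (b : LaurentSeries Qb) = coeffMap A.subtype y ∧ y.order = -(ν : ℤ) ∧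
      IsUnit (y.coeff (-(ν : ℤ))) ∧
      (∀ P : Place Qb ↥(modularFunctionFieldBar N), P ≠ h11_placeInfty N →
        b ∈ P.toValuationSubring) ∧
      (∀ Q : Place (IsLocalRing.ResidueField A)
          ↥(modularFunctionFieldFullC (IsLocalRing.ResidueField A) N),
        Q ≠ h11_placeInftyC (IsLocalRing.ResidueField A) N →
          R.redF b ∈ Q.toValuationSubring) := by
  classical
  have hk : IsAlgClosed (IsLocalRing.ResidueField A) := h19_residueField_isAlgClosed A
  have hw : h39_WeakChart R x := hx.toh39_WeakChart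
  have hxK : h75_IsChart Qb x := h39_weakChart_isChart R hw
  have hxk : h75_IsChart (IsLocalRing.ResidueField A) (R.redF x) :=
    h39_weakChart_isChart_red R hw
  obtain ⟨S, -, hS⟩ := h39_placeRed_of_chart R hx
  have hr0 := h11_r0_infty_of_chart hA hR hx yx hyx hLT S hS
  obtain ⟨ck, hck⟩ := h75_rr hxk
  -- orders of `x`
  have hxord : (x : LaurentSeries Qb).order = -1 := by
    rw [hyx, h64_order_coeffMap A.subtype A.subtype_injective, (h33_LT_order hLT one_ne_zero).1]
  have hx0 : x ≠ 0 := by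
    rintro rfl
    rw [ZeroMemClass.coe_zero, HahnSeries.order_zero] at hxord
    omega
  have hPx : (h11_placeInfty N).ord x = -1 := (h11_placeInfty_ord N hx0).trans hxord
  refine ⟨(max S.c (ck + 1)).toNat, fun ν hν => ?_⟩
  have hν' : max S.c (ck + 1) ≤ (ν : ℤ) := by
    have := Int.self_le_toNat (max S.c (ck + 1))
    exact this.trans (by exact_mod_cast hν)
  have hνc : S.c ≤ (ν : ℤ) := (le_max_left _ _).trans hν'
  have hνk : ck + 1 ≤ (ν : ℤ) := (le_max_right _ _).trans hν'
  set Pi := h11_placeInfty N with hPi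
  set Qi := h11_placeInftyC (IsLocalRing.ResidueField A) N with hQi
  set D : Divisor Qb ↥(modularFunctionFieldBar N) := Finsupp.single Pi (ν : ℤ) with hD
  set Dk : Divisor (IsLocalRing.ResidueField A)
      ↥(modularFunctionFieldFullC (IsLocalRing.ResidueField A) N) :=
    Finsupp.single Qi (ν : ℤ) with hDk
  set Dk' : Divisor (IsLocalRing.ResidueField A)
      ↥(modularFunctionFieldFullC (IsLocalRing.ResidueField A) N) :=
    Finsupp.single Qi ((ν : ℤ) - 1) with hDk'
  have hdegD : Divisor.degree D = ν := by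
    rw [hD, Divisor.degree_single, h75_deg_eq_one hxK]
    simp
  have hdegDk : Divisor.degree Dk = ν := by
    rw [hDk, Divisor.degree_single, h75_deg_eq_one hxk]
    simp
  have hdegDk' : Divisor.degree Dk' = (ν : ℤ) - 1 := by
    rw [hDk', Divisor.degree_single, h75_deg_eq_one hxk]
    simp
  have hmap : Finsupp.mapDomain S.r0 D = Dk := by
    rw [hD, Finsupp.mapDomain_single, hr0]
  -- an element of `L(ν ∞̄)` with exact pole order `ν`
  have hfin : Module.Finite (IsLocalRing.ResidueField A) ↥(riemannRochSpace Dk) :=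
    (h75_riemann hxk Dk).1
  have hle : riemannRochSpace Dk' ≤ riemannRochSpace Dk := by
    intro φ hφ
    rw [mem_riemannRochSpace_iff] at hφ ⊢
    intro Q
    rcases hφ Q with h | h
    · exact Or.inl h
    · right
      refine le_trans ?_ h
      rw [hDk, hDk']
      by_cases hQ : Q = Qi
      · subst hQ
        simp
      · rw [Finsupp.single_eq_of_ne hQ, Finsupp.single_eq_of_ne hQ]
  obtain ⟨φ, hφ, hφ'⟩ : ∃ φ ∈ riemannRochSpace Dk, φ ∉ riemannRochSpace Dk' := by
    by_contra hcon
    push Not at hcon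
    have heq : riemannRochSpace Dk' = riemannRochSpace Dk := le_antisymm hle hcon
    have h1 := hck Dk (by rw [hdegDk]; omega)
    have h2 := hck Dk' (by rw [hdegDk']; omega)
    rw [heq, h1, hdegDk, hdegDk'] at h2
    omega
  have hφ0 : φ ≠ 0 := by
    rintro rfl
    exact hφ' (Submodule.zero_mem _)
  have hφmem := mem_riemannRochSpace_iff.1 hφ
  have hφQ : ∀ Q, Q ≠ Qi → 0 ≤ Q.ord φ := by
    intro Q hQ
    have := (hφmem Q).resolve_left hφ0
    rwa [hDk, Finsupp.single_eq_of_ne hQ, neg_zero] at this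
  have hφi : Qi.ord φ = -(ν : ℤ) := by
    have h1 := (hφmem Qi).resolve_left hφ0
    rw [hDk, Finsupp.single_eq_same] at h1
    by_contra hne
    apply hφ'
    rw [mem_riemannRochSpace_iff]
    intro Q
    right
    by_cases hQ : Q = Qi
    · subst hQ
      rw [hDk', Finsupp.single_eq_same]
      omega
    · rw [hDk', Finsupp.single_eq_of_ne hQ, neg_zero]
      exact hφQ Q hQ
  -- lift
  obtain ⟨f, hfO, hfD, hfred⟩ := S.lift D (by rw [hdegD]; exact hνc) φ (by rw [hmap]; exact hφ)
  have hfmem := mem_riemannRochSpace_iff.1 hfD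
  have hf0 : f ≠ 0 := by
    rintro rfl
    apply hφ0
    rw [← hfred]
    exact map_zero R.red
  have hfP : ∀ P, P ≠ Pi → f ∈ P.toValuationSubring := by
    intro P hP
    have := (hfmem P).resolve_left hf0
    rw [hD, Finsupp.single_eq_of_ne hP, neg_zero] at this
    exact h24_mem_of_ord_nonneg P this
  have hreg : ∀ P : Place Qb ↥(modularFunctionFieldBar N),
      x ∈ P.toValuationSubring → f ∈ P.toValuationSubring := by
    intro P hP
    apply hfP
    rintro rfl
    have := (h35_mem_iff_ord_nonneg Pi hx0).1 hP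
    omega
  obtain ⟨y, hy⟩ := h11_int_of_reg hA hR hw yx hyx hfO hreg
  have hredf : R.redF f = φ := by rw [R.redF_of_mem hfO, hfred]
  have hφy : ((φ : ↥(modularFunctionFieldFullC (IsLocalRing.ResidueField A) N)) :
      LaurentSeries (IsLocalRing.ResidueField A)) = coeffMap (IsLocalRing.residue A) y := by
    rw [← hredf]
    exact hR.redF_of_integral f y hy.symm
  have hφord : (coeffMap (IsLocalRing.residue A) y).order = -(ν : ℤ) := by
    rw [← hφy, ← h11_placeInftyC_ord _ N hφ0]
    exact hφi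
  have hφne : coeffMap (IsLocalRing.residue A) y ≠ 0 := by
    rw [← hφy]
    intro h0
    exact hφ0 (Subtype.ext h0)
  have hcoeff : IsLocalRing.residue A (y.coeff (-(ν : ℤ))) ≠ 0 := by
    intro h0
    apply hφne
    apply HahnSeries.coeff_order_eq_zero.1
    rw [hφord, coeffMap_coeff]
    exact h0
  have hunit : IsUnit (y.coeff (-(ν : ℤ))) := by
    by_contra hnu
    exact hcoeff ((IsLocalRing.residue_eq_zero_iff _).2 hnu)
  have hyord : y.order = -(ν : ℤ) := by
    apply le_antisymm
    · exact HahnSeries.order_le_of_coeff_ne_zero hunit.ne_zero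
    · have h1 := (hfmem Pi).resolve_left hf0
      rw [hD, Finsupp.single_eq_same, h11_placeInfty_ord N hf0, ← hy,
        h64_order_coeffMap A.subtype A.subtype_injective] at h1
      exact h1
  refine ⟨f, y, hy.symm, hyord, hunit, hfP, fun Q hQ => ?_⟩
  rw [hredf]
  exact h24_mem_of_ord_nonneg Q (hφQ Q hQ)

end Generic

section Final

variable (M : ℕ) [NeZero M] {ℓ : ℕ} [Fact ℓ.Prime] (hℓM : ¬ ℓ ∣ M)
  (A : ValuationSubring Qb) (hA : A.LiesOverPrime ℓ)

theorem h11_LT_hm2 (B : Type) [CommRing B] : h33_LT (h54_hm2 B) (-1) 1 :=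
  h33_LT_congr
    (h33_LT_mul h33_LT_deltaHat (h33_LT_expand h33_LT_deltaHatInv 2 two_ne_zero))
    (by norm_num) (by ring)

theorem h11_LT_hm3 (B : Type) [CommRing B] : h33_LT (h54_hm3 B) (-1) 1 := by
  have h1 : h33_LT (h54_eta12 B) 0 1 := by
    refine h33_LT_congr (h33_LT_ofPowerSeries _) rfl ?_
    rw [← PowerSeries.coeff_zero_eq_constantCoeff, PowerSeries.coeff_map,
      PowerSeries.coeff_zero_eq_constantCoeff, map_pow, constantCoeff_etaProd, one_pow]
    simp
  have h2 : h33_LT (h54_eta12Inv B) 0 1 := by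
    refine h33_LT_congr (h33_LT_ofPowerSeries _) rfl ?_
    rw [← PowerSeries.coeff_zero_eq_constantCoeff, PowerSeries.coeff_map,
      PowerSeries.coeff_zero_eq_constantCoeff, map_mul, map_pow, constantCoeff_etaProd, one_pow,
      constantCoeff_dedekindEtaUnitInv]
    simp
  exact h33_LT_congr
    (h33_LT_mul (h33_LT_mul (h33_LT_single (-1 : ℤ) (1 : B)) h1)
      (h33_LT_expand h2 3 three_ne_zero))
    (by norm_num) (by ring)

/-- At a level carrying a chart (`ℓ ≥ 5`, or `2 ∣ M`, or `3 ∣ M`) there is a chart with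
`A`-integral `q`-expansion `q⁻¹ + ⋯`. -/
theorem h11_exists_chart_LT (hch : 5 ≤ ℓ ∨ 2 ∣ M ∨ 3 ∣ M) :
    ∃ (x : ↥(modularFunctionFieldBar M)) (yx : LaurentSeries A),
      h39_Chart (h39_modRed M hℓM A hA) x ∧
      (x : LaurentSeries Qb) = coeffMap A.subtype yx ∧ h33_LT yx (-1) 1 := by
  have hc : CharP (IsLocalRing.ResidueField A) ℓ := h19_residueField_charP A ℓ hA
  rcases hch with h5 | h2 | h3
  · exact ⟨h59_jbar M, jqModC A, h39_modRed_chart_j M hℓM A hA h5, h54_coe_jbar M A,
      h33_LT_jqModC⟩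
  · have hℓ2 : ℓ ≠ 2 := by
      rintro rfl
      exact hℓM h2
    exact ⟨⟨h54_hm2 Qb, h59_hm2_mem_bar_final M h2⟩, h54_hm2 A,
      h3_chart_h2_of M hℓ2 A hA (h39_modRed_spec M hℓM A hA) _ rfl
        (h59_h2k_mem_final (IsLocalRing.ResidueField A) M h2 hℓ2)
        (h59_h2_finrank_final M h2).1 (h59_h2_finrank_final M h2).2
        (h59_h2k_finrank_final (IsLocalRing.ResidueField A) M h2 hℓ2)
        (h39_mod_finrank_fb M hℓM A hA) (h39_mod_separable_fb M hℓM A hA),
      (h3_coeffMap_hm2 A.subtype).symm, h11_LT_hm2 A⟩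
  · have hℓ3 : ℓ ≠ 3 := by
      rintro rfl
      exact hℓM h3
    exact ⟨⟨h54_hm3 Qb, h59_hm3_mem_bar_final M h3⟩, h54_hm3 A,
      h3_chart_h3_of M hℓ3 A hA (h39_modRed_spec M hℓM A hA) _ rfl
        (h59_h3k_mem_final (IsLocalRing.ResidueField A) M h3 hℓ3)
        (h59_h3_finrank_final M h3).1 (h59_h3_finrank_final M h3).2
        (h59_h3k_finrank_final (IsLocalRing.ResidueField A) M h3 hℓ3)
        (h39_mod_finrank_fb M hℓM A hA) (h39_mod_separable_fb M hℓM A hA),
      (h24_coeffMap_hm3_h54 A.subtype).symm, h11_LT_hm3 A⟩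

/-- **(RED-∞)** at a level carrying a chart: there is a place reduction sending the cusp `∞` of
`X₀(M)` over `ℚ̄` to the cusp `∞` of `X₀(M)` over the residue field. -/
theorem h11_r0_infty (hch : 5 ≤ ℓ ∨ 2 ∣ M ∨ 3 ∣ M) :
    ∃ S : h39_PlaceRed (h39_modRed M hℓM A hA),
      S.r0 (h11_placeInfty M) = h11_placeInftyC (IsLocalRing.ResidueField A) M := by
  have hk : IsAlgClosed (IsLocalRing.ResidueField A) := h19_residueField_isAlgClosed A
  obtain ⟨x, yx, hx, hyx, hLT⟩ := h11_exists_chart_LT M hℓM A hA hch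
  obtain ⟨S, -, hS⟩ := h39_placeRed_of_chart (h39_modRed M hℓM A hA) hx
  exact ⟨S, h11_r0_infty_of_chart hA (h39_modRed_spec M hℓM A hA) hx yx hyx hLT S hS⟩

/-- **(III)** the level-`M` cusp input: for every large `ν` there is `b ∈ F(M)` with
`A`-integral `q`-expansion of exact order `-ν` and unit leading coefficient, regular away from
the cusp `∞`, whose reduction (= the coefficientwise reduction) is regular away from the cusp
`∞`. -/
theorem h11_exists_cusp_fn (hch : 5 ≤ ℓ ∨ 2 ∣ M ∨ 3 ∣ M) :
    ∃ ν₀ : ℕ, ∀ ν : ℕ, ν₀ ≤ ν → ∃ (b : ↥(modularFunctionFieldBar M)) (y : LaurentSeries A),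
      (b : LaurentSeries Qb) = coeffMap A.subtype y ∧ y.order = -(ν : ℤ) ∧
      IsUnit (y.coeff (-(ν : ℤ))) ∧
      (∀ P : Place Qb ↥(modularFunctionFieldBar M), P ≠ h11_placeInfty M →
        b ∈ P.toValuationSubring) ∧
      (∀ Q : Place (IsLocalRing.ResidueField A)
          ↥(modularFunctionFieldFullC (IsLocalRing.ResidueField A) M),
        Q ≠ h11_placeInftyC (IsLocalRing.ResidueField A) M →
          (h39_modRed M hℓM A hA).redF b ∈ Q.toValuationSubring) := by
  obtain ⟨x, yx, hx, hyx, hLT⟩ := h11_exists_chart_LT M hℓM A hA hch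
  exact h11_exists_cusp_fn_of_chart hA (h39_modRed_spec M hℓM A hA) hx yx hyx hLT

end Final

end Fermat.Agent.S34

end
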