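/-
S34 (helper10): X-MOD = shape (S4) of the S34 chain: the chart unit `x := α(b) · β(b)` of level
`Mq`, for `b` a level-`M` function regular off the cusp with `A`-integral `q`-expansion of exact
order `-ν` and unit leading coefficient (block (III)).

* `h10_x_ord_cusp`, `h10_x_ord_cusp0`, `h10_x_reg` : `ord_∞ x = ord_0' x = (q+1) ord_q b`, and `x`
  is regular off `{∞, 0'}`;
* `h10_xmod_div` : with `D0 := (∞) + (0')`, `c := (q+1)ν`: `0 ≤ D0`, `x ≠ 0`, `x ∈ L(c • D0)`, and
  `div x = E2 - c • D0` with `E2 ≥ 0` disjoint from `D0` (the data `hE1/hE2/hdisj/hdivx/hxL`);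
* `h10_galois_smul_cusp`, `h10_galois_smul_cusp0`, `h10_hgD0` : the arithmetic Galois action
  fixes the two cusps, hence `D0`;
* `h10_lead_red` : a function with integral `q`-expansion and unit leading coefficient is a unit
  of the valuation ring, and its reduction has the same `q`-order;
* `h10_xmod_mem`, `h10_xmod_red` : `x, x⁻¹ ∈ O₁ ∩ O₂`, `red₁ x = red₂ x = b̄ · φ(b̄)`, of exact
  pole order `(q+1)ν` at the cusp of the special fibre;
* `h10_exists_b` : block (III) in the cusp language of `h10_CuspPlace` (from `h11_CuspLift`).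
-/
import Mathlib
import Fermat.Agent.S34.h10_CuspM
import Fermat.Agent.S34.h10_CuspMq
import Fermat.Agent.S34.h60_R1AB
import Fermat.Agent.S34.h11_CuspLift

set_option autoImplicit false
set_option synthInstance.maxHeartbeats 400000
set_option linter.style.haveILetI false

noncomputable section

namespace Fermat.Agent.S34

open AlgebraicCurve HahnSeries ModularCurve IntermediateField
open Fermat.Agent.S24 Fermat.Agent.S18 Fermat.Agent.S37

local notation "Qb" => AlgebraicClosure ℚ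

/-! ## The divisor of `x = α(b) β(b)` -/

section XDiv

variable {M q : ℕ} [NeZero M] [NeZero q]
variable (w : ↥(modularFunctionFieldBar (M * q)) →+* ↥(modularFunctionFieldBar (M * q)))
  (hwα : ∀ y : ↥(modularFunctionFieldBar M), w (heckeAlphaBar Qb M q y) = heckeBetaBar Qb M q y)
  (hwβ : ∀ y : ↥(modularFunctionFieldBar M), w (heckeBetaBar Qb M q y) = heckeAlphaBar Qb M q y)
  (hww : ∀ x : ↥(modularFunctionFieldBar (M * q)), w (w x) = x)

theorem h10_x_ord_cusp {Pinf : Place Qb ↥(modularFunctionFieldBar (M * q))}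
    (hPinf : h10_IsCusp (modularFunctionFieldBar (M * q)) Pinf)
    (b : ↥(modularFunctionFieldBar M)) (hb : b ≠ 0) :
    Pinf.ord (heckeAlphaBar Qb M q b * heckeBetaBar Qb M q b)
      = ((q : ℤ) + 1) * (b : LaurentSeries Qb).order := by
  have ha : heckeAlphaBar Qb M q b ≠ 0 := (map_ne_zero _).mpr hb
  have hb' : heckeBetaBar Qb M q b ≠ 0 := (map_ne_zero _).mpr hb
  rw [Place.ord_mul _ ha hb', h10_ord_alpha hPinf, h10_ord_beta hPinf]
  ring

include hwα hwβ in
theorem h10_x_ord_cusp0 {P0 : Place Qb ↥(modularFunctionFieldBar (M * q))}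
    (hP0 : h10_IsCusp0 M q w P0)
    (b : ↥(modularFunctionFieldBar M)) (hb : b ≠ 0) :
    P0.ord (heckeAlphaBar Qb M q b * heckeBetaBar Qb M q b)
      = ((q : ℤ) + 1) * (b : LaurentSeries Qb).order := by
  have ha : heckeAlphaBar Qb M q b ≠ 0 := (map_ne_zero _).mpr hb
  have hb' : heckeBetaBar Qb M q b ≠ 0 := (map_ne_zero _).mpr hb
  rw [Place.ord_mul _ ha hb', h10_ord0_alpha hwα hP0, h10_ord0_beta hwβ hP0]
  ring

include hwα hww in
theorem h10_x_reg (hq : q.Prime) (hqM : ¬ q ∣ M)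
    {PM : Place Qb ↥(modularFunctionFieldBar M)}
    (hPM : h10_IsCusp (modularFunctionFieldBar M) PM)
    {Pinf P0 : Place Qb ↥(modularFunctionFieldBar (M * q))}
    (hPinf : h10_IsCusp (modularFunctionFieldBar (M * q)) Pinf) (hP0 : h10_IsCusp0 M q w P0)
    (b : ↥(modularFunctionFieldBar M)) (hb : b ≠ 0)
    (hreg : ∀ v : Place Qb ↥(modularFunctionFieldBar M), v ≠ PM → 0 ≤ v.ord b)
    (P : Place Qb ↥(modularFunctionFieldBar (M * q))) (h1 : P ≠ Pinf) (h2 : P ≠ P0) :
    0 ≤ P.ord (heckeAlphaBar Qb M q b * heckeBetaBar Qb M q b) := by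
  have ha : heckeAlphaBar Qb M q b ≠ 0 := (map_ne_zero _).mpr hb
  have hb' : heckeBetaBar Qb M q b ≠ 0 := (map_ne_zero _).mpr hb
  rw [Place.ord_mul _ ha hb']
  exact add_nonneg (h10_polar_alpha hwα hq hqM hPM hPinf hP0 b hreg P h1 h2)
    (h10_polar_beta hwα hq hqM hww hPM hPinf hP0 b hreg P h1 h2)

include hwα hwβ hww in
/-- **X-MOD, divisor part** (`hE1`, `hx0`, `hxL`, `hE2`, `hdisj`, `hdivx` of the list (L)). -/
theorem h10_xmod_div (hq : q.Prime) (hqM : ¬ q ∣ M)
    {PM : Place Qb ↥(modularFunctionFieldBar M)}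
    (hPM : h10_IsCusp (modularFunctionFieldBar M) PM)
    {Pinf P0 : Place Qb ↥(modularFunctionFieldBar (M * q))}
    (hPinf : h10_IsCusp (modularFunctionFieldBar (M * q)) Pinf) (hP0 : h10_IsCusp0 M q w P0)
    (b : ↥(modularFunctionFieldBar M)) (hb : b ≠ 0) (ν : ℕ)
    (hbord : (b : LaurentSeries Qb).order = -(ν : ℤ))
    (hreg : ∀ v : Place Qb ↥(modularFunctionFieldBar M), v ≠ PM → 0 ≤ v.ord b) :
    (∀ v, 0 ≤ (Finsupp.single Pinf (1 : ℤ) + Finsupp.single P0 (1 : ℤ) :
        Divisor Qb ↥(modularFunctionFieldBar (M * q))) v) ∧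
    heckeAlphaBar Qb M q b * heckeBetaBar Qb M q b ≠ 0 ∧
    heckeAlphaBar Qb M q b * heckeBetaBar Qb M q b ∈
      riemannRochSpace (((q + 1) * ν) • (Finsupp.single Pinf (1 : ℤ) + Finsupp.single P0 (1 : ℤ) :
        Divisor Qb ↥(modularFunctionFieldBar (M * q)))) ∧
    ∃ E2 : Divisor Qb ↥(modularFunctionFieldBar (M * q)), (∀ v, 0 ≤ E2 v) ∧
      (∀ v, (((q + 1) * ν) • (Finsupp.single Pinf (1 : ℤ) + Finsupp.single P0 (1 : ℤ) :
        Divisor Qb ↥(modularFunctionFieldBar (M * q)))) v = 0 ∨ E2 v = 0) ∧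
      ∀ v : Place Qb ↥(modularFunctionFieldBar (M * q)),
        v.ord (heckeAlphaBar Qb M q b * heckeBetaBar Qb M q b)
          = E2 v - (((q + 1) * ν) • (Finsupp.single Pinf (1 : ℤ) + Finsupp.single P0 (1 : ℤ) :
            Divisor Qb ↥(modularFunctionFieldBar (M * q)))) v := by
  classical
  haveI := h88_hasPrincipalDivisors (M * q)
  have ha : heckeAlphaBar Qb M q b ≠ 0 := (map_ne_zero _).mpr hb
  have hb' : heckeBetaBar Qb M q b ≠ 0 := (map_ne_zero _).mpr hb
  have hx0 : heckeAlphaBar Qb M q b * heckeBetaBar Qb M q b ≠ 0 := mul_ne_zero ha hb'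
  have hne : Pinf ≠ P0 := h10_cusp_ne_cusp0 hwα hq.two_le hPinf hP0
  set x := heckeAlphaBar Qb M q b * heckeBetaBar Qb M q b with hx
  set D0 : Divisor Qb ↥(modularFunctionFieldBar (M * q)) :=
    Finsupp.single Pinf (1 : ℤ) + Finsupp.single P0 (1 : ℤ) with hD0
  have hD0inf : D0 Pinf = 1 := by
    rw [hD0, Finsupp.add_apply, Finsupp.single_eq_same, Finsupp.single_eq_of_ne hne, add_zero]
  have hD00 : D0 P0 = 1 := by
    rw [hD0, Finsupp.add_apply, Finsupp.single_eq_same, Finsupp.single_eq_of_ne hne.symm,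
      zero_add]
  have hD0other : ∀ v, v ≠ Pinf → v ≠ P0 → D0 v = 0 := by
    intro v h1 h2
    rw [hD0, Finsupp.add_apply, Finsupp.single_eq_of_ne h1, Finsupp.single_eq_of_ne h2,
      add_zero]
  have hD0nn : ∀ v, 0 ≤ D0 v := by
    intro v
    by_cases h1 : v = Pinf
    · rw [h1, hD0inf]
      norm_num
    by_cases h2 : v = P0
    · rw [h2, hD00]
      norm_num
    · rw [hD0other v h1 h2]
  have hE1 : ∀ v, (((q + 1) * ν) • D0) v = (((q + 1) * ν : ℕ) : ℤ) * D0 v := by
    intro v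
    rw [Finsupp.smul_apply, nsmul_eq_mul]
  have hordinf : Pinf.ord x = -((((q + 1) * ν : ℕ) : ℤ)) := by
    rw [hx, h10_x_ord_cusp hPinf b hb, hbord]
    push_cast
    ring
  have hord0 : P0.ord x = -((((q + 1) * ν : ℕ) : ℤ)) := by
    rw [hx, h10_x_ord_cusp0 w hwα hwβ hP0 b hb, hbord]
    push_cast
    ring
  have hother : ∀ v, v ≠ Pinf → v ≠ P0 → 0 ≤ v.ord x := fun v h1 h2 =>
    h10_x_reg w hwα hww hq hqM hPM hPinf hP0 b hb hreg v h1 h2
  refine ⟨hD0nn, hx0, ?_, ?_⟩
  · rw [mem_riemannRochSpace_iff]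
    intro v
    right
    rw [hE1]
    by_cases h1 : v = Pinf
    · rw [h1, hD0inf, hordinf, mul_one]
    by_cases h2 : v = P0
    · rw [h2, hD00, hord0, mul_one]
    · rw [hD0other v h1 h2, mul_zero, neg_zero]
      exact hother v h1 h2
  · obtain ⟨Dx, hDx, -⟩ := HasPrincipalDivisors.exists_divisor (K := Qb) x hx0
    refine ⟨Dx + ((q + 1) * ν) • D0, ?_, ?_, ?_⟩
    · intro v
      rw [Finsupp.add_apply, hDx, hE1]
      by_cases h1 : v = Pinf
      · rw [h1, hD0inf, hordinf, mul_one, neg_add_cancel]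
      by_cases h2 : v = P0
      · rw [h2, hD00, hord0, mul_one, neg_add_cancel]
      · rw [hD0other v h1 h2, mul_zero, add_zero]
        exact hother v h1 h2
    · intro v
      rw [Finsupp.add_apply, hDx, hE1]
      by_cases h1 : v = Pinf
      · right
        rw [h1, hD0inf, hordinf, mul_one, neg_add_cancel]
      by_cases h2 : v = P0
      · right
        rw [h2, hD00, hord0, mul_one, neg_add_cancel]
      · left
        rw [hD0other v h1 h2, mul_zero]
    · intro v
      rw [Finsupp.add_apply, hDx]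
      ring

end XDiv

/-! ## Galois invariance of the cuspidal divisor -/

section XGal

/-- The arithmetic Galois action fixes the cusp `∞` (any level). -/
theorem h10_galois_smul_cusp (N : ℕ) (σ : Qb ≃ₐ[ℚ] Qb)
    {P : Place Qb ↥(modularFunctionFieldBar N)}
    (hP : h10_IsCusp (modularFunctionFieldBar N) P) :
    arithmeticGalois (modularFunctionFieldFull N) σ • P = P := by
  refine h10_IsCusp.unique (fun f hf => ?_) hP
  have h := SemilinearAut.ord_smul (arithmeticGalois (modularFunctionFieldFull N) σ) P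
    ((arithmeticGalois (modularFunctionFieldFull N) σ)⁻¹ • f)
  rw [smul_inv_smul] at h
  rw [h, hP.ord_eq]
  have h2 : (arithmeticGalois (modularFunctionFieldFull N) σ)⁻¹
      = arithmeticGalois (modularFunctionFieldFull N) σ⁻¹ := (map_inv _ σ).symm
  rw [h2, coe_arithmeticGalois_smul]
  exact h64_order_coeffMap _ (RingHom.injective _) _

variable {M q : ℕ} [NeZero M] [NeZero q]
variable (w : ↥(modularFunctionFieldBar (M * q)) →+* ↥(modularFunctionFieldBar (M * q)))
  (hwgal : ∀ (σ : Qb ≃ₐ[ℚ] Qb) (x : ↥(modularFunctionFieldBar (M * q))),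
    w (arithmeticGalois (modularFunctionFieldFull (M * q)) σ • x)
      = arithmeticGalois (modularFunctionFieldFull (M * q)) σ • w x)

include hwgal in
/-- The arithmetic Galois action fixes the cusp `0'`. -/
theorem h10_galois_smul_cusp0 (σ : Qb ≃ₐ[ℚ] Qb)
    {P0 : Place Qb ↥(modularFunctionFieldBar (M * q))} (hP0 : h10_IsCusp0 M q w P0) :
    arithmeticGalois (modularFunctionFieldFull (M * q)) σ • P0 = P0 := by
  refine h10_IsCusp0.unique (fun f hf => ?_) hP0
  have h := SemilinearAut.ord_smul (arithmeticGalois (modularFunctionFieldFull (M * q)) σ) P0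
    ((arithmeticGalois (modularFunctionFieldFull (M * q)) σ)⁻¹ • f)
  rw [smul_inv_smul] at h
  have hf' : (arithmeticGalois (modularFunctionFieldFull (M * q)) σ)⁻¹ • f ≠ 0 :=
    (smul_ne_zero_iff_ne _).mpr hf
  rw [h, hP0 _ hf']
  have h2 : (arithmeticGalois (modularFunctionFieldFull (M * q)) σ)⁻¹
      = arithmeticGalois (modularFunctionFieldFull (M * q)) σ⁻¹ := (map_inv _ σ).symm
  rw [h2, hwgal, coe_arithmeticGalois_smul]
  exact h64_order_coeffMap _ (RingHom.injective _) _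

include hwgal in
/-- **`hgD0`**: the arithmetic Galois action fixes the cuspidal divisor `D0 = (∞) + (0')`. -/
theorem h10_hgD0 (σ : Qb ≃ₐ[ℚ] Qb)
    {Pinf P0 : Place Qb ↥(modularFunctionFieldBar (M * q))}
    (hPinf : h10_IsCusp (modularFunctionFieldBar (M * q)) Pinf) (hP0 : h10_IsCusp0 M q w P0) :
    arithmeticGalois (modularFunctionFieldFull (M * q)) σ •
        (Finsupp.single Pinf (1 : ℤ) + Finsupp.single P0 (1 : ℤ) :
          Divisor Qb ↥(modularFunctionFieldBar (M * q)))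
      = Finsupp.single Pinf (1 : ℤ) + Finsupp.single P0 (1 : ℤ) := by
  rw [smul_add, SemilinearAut.smul_single, SemilinearAut.smul_single,
    h10_galois_smul_cusp _ σ hPinf, h10_galois_smul_cusp0 w hwgal σ hP0]

end XGal

/-! ## Integrality and reduction of `x` -/

section XRed

variable {M : ℕ} [NeZero M] {A : ValuationSubring Qb}
  {RM : h39_RedDatum Qb ↥(modularFunctionFieldBar M) (IsLocalRing.ResidueField A)
      ↥(modularFunctionFieldFullC (IsLocalRing.ResidueField A) M)}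

/-- A function with `A`-integral `q`-expansion and unit leading coefficient is a unit of the
valuation ring; its reduction has the same `q`-order. -/
theorem h10_lead_red (hRM : h54_IsModRed M A RM) (b : ↥(modularFunctionFieldBar M))
    (y : LaurentSeries A) (hy : (b : LaurentSeries Qb) = coeffMap A.subtype y)
    (hyu : IsUnit (y.coeff y.order)) :
    ∃ hb : b ∈ RM.O, b ≠ 0 ∧ b⁻¹ ∈ RM.O ∧ RM.red ⟨b, hb⟩ ≠ 0 ∧
      (b : LaurentSeries Qb).order = y.order ∧
      ((RM.red ⟨b, hb⟩ : ↥(modularFunctionFieldFullC (IsLocalRing.ResidueField A) M)) :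
        LaurentSeries (IsLocalRing.ResidueField A)).order = y.order := by
  have hb : b ∈ RM.O := hRM.mem_of_integral b y hy
  have hred : ((RM.red ⟨b, hb⟩ : ↥(modularFunctionFieldFullC (IsLocalRing.ResidueField A) M)) :
      LaurentSeries (IsLocalRing.ResidueField A)) = coeffMap (IsLocalRing.residue A) y :=
    hRM.red_of_integral b y hy hb
  have hcoef : (coeffMap (IsLocalRing.residue A) y).coeff y.order ≠ 0 := by
    rw [coeffMap_coeff]
    exact (IsLocalRing.residue_ne_zero_iff_isUnit _).mpr hyu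
  have hredL : coeffMap (IsLocalRing.residue A) y ≠ 0 := fun h =>
    hcoef (by rw [h]; rfl)
  have hrne : RM.red ⟨b, hb⟩ ≠ 0 := fun h => hredL (by rw [← hred, h]; rfl)
  have hb0 : b ≠ 0 := by
    rintro rfl
    apply hrne
    have : (⟨0, hb⟩ : RM.O) = 0 := rfl
    rw [this, map_zero]
  have hbi : b⁻¹ ∈ RM.O := by
    by_contra hni
    have h0 := (h39_redF_eq_zero_iff RM hb).mpr (Or.inr hni)
    rw [RM.redF_of_mem hb] at h0
    exact hrne h0
  refine ⟨hb, hb0, hbi, hrne, ?_, ?_⟩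
  · rw [hy]
    exact h64_order_coeffMap A.subtype A.subtype_injective y
  · rw [hred]
    apply le_antisymm
    · exact HahnSeries.order_le_of_coeff_ne_zero hcoef
    · by_contra hlt
      push Not at hlt
      apply HahnSeries.coeff_order_eq_zero.not.mpr hredL
      rw [coeffMap_coeff, HahnSeries.coeff_eq_zero_of_lt_order hlt, map_zero]

variable (q : ℕ) [NeZero q] [Fact q.Prime] (hqM : ¬ q ∣ M) (hA : A.LiesOverPrime q)
  (hRM : h54_IsModRed M A RM)
  (w : ↥(modularFunctionFieldBar (M * q)) →+* ↥(modularFunctionFieldBar (M * q)))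
  (hwα : ∀ y : ↥(modularFunctionFieldBar M), w (heckeAlphaBar Qb M q y) = heckeBetaBar Qb M q y)
  (hwβ : ∀ y : ↥(modularFunctionFieldBar M), w (heckeBetaBar Qb M q y) = heckeAlphaBar Qb M q y)
  (R2 : h39_RedDatum Qb ↥(modularFunctionFieldBar (M * q)) (IsLocalRing.ResidueField A)
      ↥(modularFunctionFieldFullC (IsLocalRing.ResidueField A) M))
  (hR2O : ∀ f : ↥(modularFunctionFieldBar (M * q)),
    f ∈ R2.O ↔ w f ∈ (h60_R1 M q hqM A hA).O)
  (hR2red : ∀ f : ↥(modularFunctionFieldBar (M * q)), f ∈ R2.O →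
    R2.redF f = (h60_R1 M q hqM A hA).redF (w f))

include hRM hwα hwβ hR2O in
/-- **X-MOD, integrality part** (`hx`, `hxi` of the list (L), for `D.O = O₁ ∩ O₂`). -/
theorem h10_xmod_mem (b : ↥(modularFunctionFieldBar M)) (hb : b ∈ RM.O) (hbi : b⁻¹ ∈ RM.O) :
    (heckeAlphaBar Qb M q b * heckeBetaBar Qb M q b ∈ (h60_R1 M q hqM A hA).O ∧
      heckeAlphaBar Qb M q b * heckeBetaBar Qb M q b ∈ R2.O) ∧
    ((heckeAlphaBar Qb M q b * heckeBetaBar Qb M q b)⁻¹ ∈ (h60_R1 M q hqM A hA).O ∧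
      (heckeAlphaBar Qb M q b * heckeBetaBar Qb M q b)⁻¹ ∈ R2.O) := by
  have ha := h60_R1_alpha_mem M q hqM A hA hRM ⟨b, hb⟩
  have hbt := h60_R1_beta_mem M q hqM A hA hRM ⟨b, hb⟩
  have hai := h60_R1_alpha_mem M q hqM A hA hRM ⟨b⁻¹, hbi⟩
  have hbti := h60_R1_beta_mem M q hqM A hA hRM ⟨b⁻¹, hbi⟩
  have hx1 : heckeAlphaBar Qb M q b * heckeBetaBar Qb M q b ∈ (h60_R1 M q hqM A hA).O :=
    mul_mem ha hbt
  have hxi1 : (heckeAlphaBar Qb M q b * heckeBetaBar Qb M q b)⁻¹ ∈ (h60_R1 M q hqM A hA).O := by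
    rw [mul_inv, ← map_inv₀, ← map_inv₀]
    exact mul_mem hai hbti
  have hwx : w (heckeAlphaBar Qb M q b * heckeBetaBar Qb M q b)
      = heckeAlphaBar Qb M q b * heckeBetaBar Qb M q b := by
    rw [map_mul, hwα, hwβ]
    exact mul_comm _ _
  have hwxi : w (heckeAlphaBar Qb M q b * heckeBetaBar Qb M q b)⁻¹
      = (heckeAlphaBar Qb M q b * heckeBetaBar Qb M q b)⁻¹ := by
    rw [map_inv₀, hwx]
  exact ⟨⟨hx1, (hR2O _).mpr (by rw [hwx]; exact hx1)⟩,
    ⟨hxi1, (hR2O _).mpr (by rw [hwxi]; exact hxi1)⟩⟩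

include hRM hwα hwβ hR2O hR2red in
/-- **X-MOD, reduction part**: `red₁ x = red₂ x = b̄ · φ(b̄)`. -/
theorem h10_xmod_red [CharP (IsLocalRing.ResidueField A) q]
    [PerfectField (IsLocalRing.ResidueField A)]
    (b : ↥(modularFunctionFieldBar M)) (hb : b ∈ RM.O) :
    (h60_R1 M q hqM A hA).redF (heckeAlphaBar Qb M q b * heckeBetaBar Qb M q b)
        = RM.red ⟨b, hb⟩ * h60_phi M q (IsLocalRing.ResidueField A) (RM.red ⟨b, hb⟩) ∧
    R2.redF (heckeAlphaBar Qb M q b * heckeBetaBar Qb M q b)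
        = RM.red ⟨b, hb⟩ * h60_phi M q (IsLocalRing.ResidueField A) (RM.red ⟨b, hb⟩) := by
  have ha := h60_R1_alpha_mem M q hqM A hA hRM ⟨b, hb⟩
  have hbt := h60_R1_beta_mem M q hqM A hA hRM ⟨b, hb⟩
  have hx1 : heckeAlphaBar Qb M q b * heckeBetaBar Qb M q b ∈ (h60_R1 M q hqM A hA).O :=
    mul_mem ha hbt
  have hwx : w (heckeAlphaBar Qb M q b * heckeBetaBar Qb M q b)
      = heckeAlphaBar Qb M q b * heckeBetaBar Qb M q b := by
    rw [map_mul, hwα, hwβ]
    exact mul_comm _ _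
  have e1 : (h60_R1 M q hqM A hA).red ⟨heckeAlphaBar Qb M q b, ha⟩ = RM.red ⟨b, hb⟩ :=
    h60_R1_alpha M q hqM A hA hRM ⟨b, hb⟩
  have e2 : (h60_R1 M q hqM A hA).red ⟨heckeBetaBar Qb M q b, hbt⟩
      = h60_phi M q (IsLocalRing.ResidueField A) (RM.red ⟨b, hb⟩) :=
    h60_R1_beta M q hqM A hA hRM ⟨b, hb⟩
  have h1 : (h60_R1 M q hqM A hA).redF (heckeAlphaBar Qb M q b * heckeBetaBar Qb M q b)
      = RM.red ⟨b, hb⟩ * h60_phi M q (IsLocalRing.ResidueField A) (RM.red ⟨b, hb⟩) := by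
    rw [(h60_R1 M q hqM A hA).redF_of_mem hx1]
    have e3 : (⟨heckeAlphaBar Qb M q b * heckeBetaBar Qb M q b, hx1⟩ : (h60_R1 M q hqM A hA).O)
        = ⟨heckeAlphaBar Qb M q b, ha⟩ * ⟨heckeBetaBar Qb M q b, hbt⟩ := rfl
    rw [e3, map_mul, e1, e2]
  refine ⟨h1, ?_⟩
  rw [hR2red _ ((hR2O _).mpr (by rw [hwx]; exact hx1)), hwx, h1]

omit [NeZero M] in
/-- The pole order of `b̄ · φ(b̄)` at the cusp of the special fibre is `(q+1)` times that of
`b̄`. -/
theorem h10_xbar_ord [CharP (IsLocalRing.ResidueField A) q]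
    [PerfectField (IsLocalRing.ResidueField A)]
    {Qinf : Place (IsLocalRing.ResidueField A)
      ↥(modularFunctionFieldFullC (IsLocalRing.ResidueField A) M)}
    (hQ : h10_IsCusp (modularFunctionFieldFullC (IsLocalRing.ResidueField A) M) Qinf)
    (c : ↥(modularFunctionFieldFullC (IsLocalRing.ResidueField A) M)) (hc : c ≠ 0) :
    Qinf.ord (c * h60_phi M q (IsLocalRing.ResidueField A) c)
      = ((q : ℤ) + 1) * (c : LaurentSeries (IsLocalRing.ResidueField A)).order := by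
  have hphi : h60_phi M q (IsLocalRing.ResidueField A) c ≠ 0 := (map_ne_zero _).mpr hc
  rw [Place.ord_mul _ hc hphi, hQ c hc, hQ _ hphi, h60_coe_phi, h64_order_qExpand]
  ring

end XRed

/-! ## Block (III) in the cusp language -/

section Final

variable (M : ℕ) [NeZero M] {ℓ : ℕ} [Fact ℓ.Prime] (hℓM : ¬ ℓ ∣ M)
  (A : ValuationSubring Qb) (hA : A.LiesOverPrime ℓ)

/-- **(III)** for the modular reduction datum of level `M`, in the cusp language: for all large
`ν` a function `b` in the valuation ring, regular off the cusp, with `A`-integral `q`-expansion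
of exact order `-ν` and unit leading coefficient, whose reduction is regular off the cusp of the
special fibre and has a pole of exact order `ν` there; `b⁻¹` is integral as well. -/
theorem h10_exists_b (hch : 5 ≤ ℓ ∨ 2 ∣ M ∨ 3 ∣ M)
    {PM : Place Qb ↥(modularFunctionFieldBar M)}
    (hPM : h10_IsCusp (modularFunctionFieldBar M) PM)
    {Qinf : Place (IsLocalRing.ResidueField A)
      ↥(modularFunctionFieldFullC (IsLocalRing.ResidueField A) M)}
    (hQ : h10_IsCusp (modularFunctionFieldFullC (IsLocalRing.ResidueField A) M) Qinf) :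
    ∃ ν₀ : ℕ, ∀ ν : ℕ, ν₀ ≤ ν → ∃ (b : ↥(modularFunctionFieldBar M))
      (hb : b ∈ (h39_modRed M hℓM A hA).O),
      b ≠ 0 ∧ b⁻¹ ∈ (h39_modRed M hℓM A hA).O ∧
      (b : LaurentSeries Qb).order = -(ν : ℤ) ∧
      (∀ P : Place Qb ↥(modularFunctionFieldBar M), P ≠ PM → 0 ≤ P.ord b) ∧
      (∃ y : LaurentSeries A, (b : LaurentSeries Qb) = coeffMap A.subtype y ∧
        y.order = -(ν : ℤ) ∧ IsUnit (y.coeff (-(ν : ℤ)))) ∧
      (h39_modRed M hℓM A hA).red ⟨b, hb⟩ ≠ 0 ∧
      Qinf.ord ((h39_modRed M hℓM A hA).red ⟨b, hb⟩) = -(ν : ℤ) ∧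
      (∀ Q : Place (IsLocalRing.ResidueField A)
          ↥(modularFunctionFieldFullC (IsLocalRing.ResidueField A) M),
        Q ≠ Qinf → 0 ≤ Q.ord ((h39_modRed M hℓM A hA).red ⟨b, hb⟩)) := by
  obtain ⟨ν₀, h⟩ := h11_exists_cusp_fn M hℓM A hA hch
  refine ⟨ν₀, fun ν hν => ?_⟩
  obtain ⟨b, y, hy, hyord, hyu, hreg, hredreg⟩ := h ν hν
  have hRM := h39_modRed_spec M hℓM A hA
  have hyu' : IsUnit (y.coeff y.order) := by
    rw [hyord]
    exact hyu
  obtain ⟨hb, hb0, hbi, hrne, hbord, hrord⟩ := h10_lead_red hRM b y hy hyu'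
  have hPMeq : h11_placeInfty M = PM :=
    h10_IsCusp.unique (fun f hf => h11_placeInfty_ord M hf) hPM
  have hQeq : h11_placeInftyC (IsLocalRing.ResidueField A) M = Qinf :=
    h10_IsCusp.unique (fun f hf => h11_placeInftyC_ord (IsLocalRing.ResidueField A) M hf) hQ
  refine ⟨b, hb, hb0, hbi, by rw [hbord, hyord], ?_, ⟨y, hy, hyord, hyu⟩, hrne, ?_, ?_⟩
  · intro P hP
    exact (h35_mem_iff_ord_nonneg P hb0).mp (hreg P (by rw [hPMeq]; exact hP))
  · rw [hQ _ hrne, hrord, hyord]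
  · intro Q hQ'
    have h1 := hredreg Q (by rw [hQeq]; exact hQ')
    rw [(h39_modRed M hℓM A hA).redF_of_mem hb] at h1
    exact (h35_mem_iff_ord_nonneg Q hrne).mp h1

end Final

end Fermat.Agent.S34

end
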