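import Mathlib
import Fermat.Agent.S34.h29_UnipTop
import Fermat.Agent.S37.h60_RedInj
import Fermat.Agent.GAL.h67_GalHecke

/-!
# S34: auxiliary-level descent for the geometric target `h29_UnipGeom` (helper70)

* `h70_pullPic0_smul` : the pull-back `J₀(N) → J₀(N c)` is Galois-equivariant;
* `h70_pull_inj` : it is injective on torsion prime to its degree (row LVL of S37);
* `h70_unipGeom_descent` : `h29_UnipGeom (N * c) q → h29_UnipGeom N q` when every prime
  `p ≠ q` is prime to the degree of `α_c : F(N) → F(N c)`;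
* `h70_unipGeom_reduce` : the target for all `N`, `q ∥ N` follows from the target at the levels
  `M * q`, `q ∤ M`, where `M` carries a chart at `q` (`5 ≤ q`, or `2 ∣ M`, or `3 ∣ M`).
-/

set_option autoImplicit false
set_option synthInstance.maxHeartbeats 400000

noncomputable section

open ModularCurve AlgebraicCurve

namespace Fermat.Agent.S34

open Fermat.Agent.S37 Fermat.Agent.GAL

local notation "Qb" => AlgebraicClosure ℚ

section Pull

variable (N c : ℕ) [NeZero N] [NeZero c]
  [HasPrincipalDivisors Qb (modularFunctionFieldBar (N * c))]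
  (hα : (heckeAlphaBar Qb N c).toRingHom.IsIntegral)
  (hFI : FundamentalIdentityAlong Qb (heckeAlphaBar Qb N c) hα)

/-- The pull-back `J₀(N) → J₀(N c)` commutes with the Galois action. -/
theorem h70_pullPic0_smul (σ : Qb ≃ₐ[ℚ] Qb) (x : JZero N) :
    h87_pullPic0 (heckeAlphaBar Qb N c) hα hFI (σ • x)
      = σ • h87_pullPic0 (heckeAlphaBar Qb N c) hα hFI x := by
  obtain ⟨D, rfl⟩ := Pic0.mk_surjective x
  rw [galois_smul_pic0_def, SemilinearAut.pic0_smul_mk, h87_pullPic0_mk, h87_pullPic0_mk,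
    galois_smul_pic0_def, SemilinearAut.pic0_smul_mk]
  refine congrArg Pic0.mk (Subtype.ext ?_)
  rw [h87_coe_pullDegZero, SemilinearAut.coe_degZeroSMulHom, SemilinearAut.coe_degZeroSMulHom,
    h87_coe_pullDegZero]
  exact h67_pullbackAlong_smul (heckeAlphaBar Qb N c) hα (h67_intertwines_alpha N c σ) _

/-- The pull-back `J₀(N) → J₀(N c)` is injective on torsion prime to its degree. -/
theorem h70_pull_inj (m : ℕ)
    (hcop : Nat.Coprime m (finrankAlong Qb (heckeAlphaBar Qb N c)))
    (x : JZero N) (hmx : m • x = 0)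
    (hy0 : h87_pullPic0 (heckeAlphaBar Qb N c) hα hFI x = 0) : x = 0 := by
  obtain ⟨D, rfl⟩ := Pic0.mk_surjective x
  rw [h87_pullPic0_mk] at hy0
  have hpull : (Divisor.pullbackAlong (heckeAlphaBar Qb N c) hα
      (D : Divisor Qb (modularFunctionFieldBar N))).IsPrincipal := by
    have h1 := (QuotientAddGroup.eq_zero_iff _).mp hy0
    rw [AddSubgroup.mem_addSubgroupOf] at h1
    exact h1
  have hmD : (m • (D : Divisor Qb (modularFunctionFieldBar N))).IsPrincipal := by
    have h1 : Pic0.mk (m • D) = 0 := hmx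
    have h2 := (QuotientAddGroup.eq_zero_iff _).mp h1
    rw [AddSubgroup.mem_addSubgroupOf] at h2
    exact h2
  have hD : (D : Divisor Qb (modularFunctionFieldBar N)).IsPrincipal :=
    h70_LVL N c hα (D : Divisor Qb (modularFunctionFieldBar N)) m hcop hmD hpull
  exact (QuotientAddGroup.eq_zero_iff _).mpr (by
    rw [AddSubgroup.mem_addSubgroupOf]
    exact hD)

end Pull

/-- Galois commutes with multiplication by a natural number on `J₀(N)`. -/
theorem h70_smul_nsmul (N : ℕ) (σ : Qb ≃ₐ[ℚ] Qb) (m : ℕ) (x : JZero N) :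
    σ • (m • x) = m • (σ • x) :=
  map_nsmul (DistribSMul.toAddMonoidHom (JZero N) σ) m x

theorem h70_smul_zero (N : ℕ) (σ : Qb ≃ₐ[ℚ] Qb) : σ • (0 : JZero N) = 0 :=
  smul_zero (A := JZero N) σ

/-- **Auxiliary-level descent.** -/
theorem h70_unipGeom_descent (N c : ℕ) [NeZero N] [NeZero c] (q : ℕ)
    (hcop : ∀ p : ℕ, p.Prime → p ≠ q →
      Nat.Coprime p (finrankAlong Qb (heckeAlphaBar Qb N c)))
    (h : h29_UnipGeom (N * c) q) : h29_UnipGeom N q := by
  have : HasPrincipalDivisors Qb (modularFunctionFieldBar (N * c)) :=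
    h88_hasPrincipalDivisors (N * c)
  have hα : (heckeAlphaBar Qb N c).toRingHom.IsIntegral := h88_alphaIntegral N c
  have hFI : FundamentalIdentityAlong Qb (heckeAlphaBar Qb N c) hα := h60_FI_alpha N c
  intro A hA τ hτ p hp hpq n x hx
  set pull := h87_pullPic0 (heckeAlphaBar Qb N c) hα hFI with hpull
  have hx' : p ^ n • pull x = 0 := by
    rw [← map_nsmul, hx, map_zero]
  have key := h A hA τ hτ p hp hpq n (pull x) hx'
  have hy : τ • τ • x + x - (τ • x + τ • x) = 0 := by
    apply h70_pull_inj N c hα hFI (p ^ n) (Nat.Coprime.pow_left n (hcop p hp hpq))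
    · have h1 : p ^ n • (τ • τ • x) = 0 := by
        rw [← h70_smul_nsmul, ← h70_smul_nsmul, hx, h70_smul_zero, h70_smul_zero]
      have h2 : p ^ n • (τ • x) = 0 := by
        rw [← h70_smul_nsmul, hx, h70_smul_zero]
      rw [nsmul_sub, nsmul_add, nsmul_add, h1, h2, hx, add_zero, sub_self]
    · rw [map_sub, map_add, map_add, h70_pullPic0_smul, h70_pullPic0_smul, ← hpull, key,
        sub_self]
  exact sub_eq_zero.mp hy

/-- transport of the target along an equality of levels. -/
theorem h70_unipGeom_congr {N N' : ℕ} [NeZero N] [NeZero N'] (q : ℕ) (hN : N = N')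
    (h : h29_UnipGeom N q) : h29_UnipGeom N' q := by
  subst hN
  exact h

/-- **Reduction of the S34 target to levels carrying a chart at `q`.** -/
theorem h70_unipGeom_reduce
    (hmain : ∀ (M q : ℕ) [NeZero M] [NeZero q], q.Prime → ¬ q ∣ M →
      (5 ≤ q ∨ 2 ∣ M ∨ 3 ∣ M) → h29_UnipGeom (M * q) q)
    (N q : ℕ) [NeZero N] (hq : q.Prime) (hqN : q ∣ N) (hq2 : ¬ q ^ 2 ∣ N) :
    h29_UnipGeom N q := by
  have : NeZero q := ⟨hq.ne_zero⟩
  have : Fact q.Prime := ⟨hq⟩
  obtain ⟨M, hM⟩ := hqN
  have hM' : N = M * q := by rw [hM, mul_comm]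
  have hM0 : M ≠ 0 := by
    rintro rfl
    rw [zero_mul] at hM'
    exact NeZero.ne N hM'
  have : NeZero M := ⟨hM0⟩
  have hqM : ¬ q ∣ M := by
    rintro ⟨M', rfl⟩
    apply hq2
    rw [hM]
    exact ⟨M', by ring⟩
  -- the auxiliary factor
  have hc0 := h60_lvl_not_dvd M q hqM
  have hchart := h60_lvl_chart M q hqM
  have htop : h29_UnipGeom (M * h60_lvl M q * q) q := hmain (M * h60_lvl M q) q hq hc0 hchart
  have htop' : h29_UnipGeom (N * h60_lvl M q) q :=
    h70_unipGeom_congr q (by rw [hM']; ring) htop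
  refine h70_unipGeom_descent N (h60_lvl M q) q ?_ htop'
  intro p hp hpq
  rcases h60_lvl_cases M q hqM with ⟨-, h1⟩ | ⟨h3, h2M, h2⟩ | ⟨h2, h3M, h3⟩
  · rw [h60_finrankAlong_one N _ h1]
    exact Nat.coprime_one_right p
  · have h2N : ¬ 2 ∣ N := by
      rw [hM', h3]
      intro hd
      rcases (Nat.Prime.dvd_mul Nat.prime_two).1 hd with h' | h'
      · exact h2M h'
      · omega
    rw [h60_finrankAlong_prime N _ 2 Nat.prime_two h2N h2]
    rw [h3] at hpq
    exact (Nat.coprime_primes hp Nat.prime_three).mpr hpq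
  · have h3N : ¬ 3 ∣ N := by
      rw [hM', h2]
      intro hd
      rcases (Nat.Prime.dvd_mul Nat.prime_three).1 hd with h' | h'
      · exact h3M h'
      · omega
    rw [h60_finrankAlong_prime N _ 3 Nat.prime_three h3N h3]
    rw [h2] at hpq
    have h22 : Nat.Coprime p 2 := (Nat.coprime_primes hp Nat.prime_two).mpr hpq
    have : (3 + 1 : ℕ) = 2 ^ 2 := by norm_num
    rw [this]
    exact Nat.Coprime.pow_right 2 h22

end Fermat.Agent.S34
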