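import Mathlib
import Fermat.Agent.S18.h89_GaussCore
import Fermat.Agent.S18.GR_RedAPI
import Fermat.Agent.S34.h22_LatON

/-!
# S34 / LATTICE-ON layer for a finite family of reduction data (helper22)

A finite family `R i` of S18 reduction data (`h39_RedDatum`) on the same function field `F/K`
with the same constants `(A, res)` gives a lattice datum `h22_Lat` (`h22_LatON.lean`) with
`O = ⋂ (R i).O` and `red = (red_i)_i : O → Π i, Fb i` (`h22_latOfFamily`), resp.
`red = (red₁, red₂) : O → Fb₁ × Fb₂` for two data (`h22_latOfPair`).  The two non-formal fields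
(`exists_scale`: the sup-norm is attained in `|K^×|`; `ker`: `ker red = 𝔪_A O`) are proved here
from the corresponding facts for each `R i`.

With a common chart `x` (`x ∈ (R i).O`, `x̄_i` transcendental for all `i`) the Gauss hypotheses
`hG`, `hU` of `h22_exists_on_of_basis` hold, so a `K(x)`-frame of `F` on which integrality is
detected coordinatewise gives `h22_ON` (`h22_on_of_family`, `h22_on_of_pair`) and hence
orthonormal bases of all finite-dimensional `K`-subspaces (`h22_exists_on_family`,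
`h22_exists_on_pair`).
-/

set_option autoImplicit false

noncomputable section

open IntermediateField Polynomial Module
open Fermat.Agent.S18

namespace Fermat.Agent.S34

section Scale

variable {K F : Type*} [Field K] [Field F] [Algebra K F]

/-- Common scaling: for finitely many valuation rings `O i` of `F` containing `A` and with value
group `|K^×|`, every nonzero `f` has a constant multiple lying in all `O i` and a unit in one of
them. -/
theorem h22_fam_exists_scale {ι : Type*} [Fintype ι] [Nonempty ι] (A : ValuationSubring K)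
    (O : ι → ValuationSubring F)
    (hmem : ∀ (i : ι) (a : K), a ∈ A → algebraMap K F a ∈ O i)
    (hscale : ∀ (i : ι) (f : F), f ≠ 0 → ∃ c : K, c ≠ 0 ∧ algebraMap K F c * f ∈ O i ∧
      (algebraMap K F c * f)⁻¹ ∈ O i)
    {f : F} (hf : f ≠ 0) :
    ∃ (c : K) (i₀ : ι), c ≠ 0 ∧ (∀ j, algebraMap K F c * f ∈ O j) ∧
      (algebraMap K F c * f)⁻¹ ∈ O i₀ := by
  classical
  choose c hc0 hc1 hc2 using fun i => hscale i f hf
  obtain ⟨i₀, -, hmin⟩ := Finset.exists_min_image Finset.univ (fun i => A.valuation (c i))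
    Finset.univ_nonempty
  refine ⟨c i₀, i₀, hc0 i₀, fun j => ?_, hc2 i₀⟩
  have hdiv : c i₀ / c j ∈ A := by
    rw [← A.valuation_le_one_iff, map_div₀]
    have hpos : 0 < A.valuation (c j) := by
      rw [zero_lt_iff, Ne, map_eq_zero]
      exact hc0 j
    rw [div_le_one₀ hpos]
    exact hmin j (Finset.mem_univ j)
  have h1 : algebraMap K F (c i₀) * f =
      algebraMap K F (c i₀ / c j) * (algebraMap K F (c j) * f) := by
    rw [map_div₀]
    have hcj : algebraMap K F (c j) ≠ 0 := by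
      rw [Ne, map_eq_zero]
      exact hc0 j
    field_simp
  rw [h1]
  exact (O j).mul_mem _ _ (hmem j _ hdiv) (hc1 j)

/-- The `ker` field from common scaling: if `f ≠ 0` lies in the maximal ideal of the valuation
ring `O₀` and `c f` is a unit of `O₀`, then `c⁻¹ ∈ 𝔪_A`. -/
theorem h22_inv_mem_nonunits (A : ValuationSubring K) (O₀ : ValuationSubring F)
    (hmem : ∀ a : K, a ∈ A ↔ algebraMap K F a ∈ O₀) {f : F} (hfO : f ∈ O₀)
    (hfinv : f⁻¹ ∉ O₀) {c : K} (hc0 : c ≠ 0) (hinv : (algebraMap K F c * f)⁻¹ ∈ O₀) :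
    c⁻¹ ∈ A.nonunits := by
  have hf0 : f ≠ 0 := by
    rintro rfl
    rw [inv_zero] at hfinv
    exact hfinv O₀.zero_mem
  have hcF : algebraMap K F c ≠ 0 := by
    rw [Ne, map_eq_zero]
    exact hc0
  rw [ValuationSubring.mem_nonunits_iff_or]
  right
  rw [inv_inv]
  intro hcA
  apply hfinv
  have h1 : f⁻¹ = algebraMap K F c * (algebraMap K F c * f)⁻¹ := by
    field_simp
  rw [h1]
  exact O₀.mul_mem _ _ ((hmem c).mp hcA) hinv

/-- `hU` of `h22_exists_on_of_basis` from `hG` and "primitive polynomials in `x` are units". -/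
theorem h22_hU_of_primitive (A : ValuationSubring K) (O : Subring F) {x : F}
    (hG : ∀ p : K[X], aeval x p ∈ O ↔ ∀ n, p.coeff n ∈ A)
    (hprim : ∀ (q : Polynomial A) (j : ℕ), q.coeff j = 1 →
      (aeval x (q.map A.subtype))⁻¹ ∈ O) :
    ∀ p : K[X], aeval x p ≠ 0 → ∃ c : K, c ≠ 0 ∧ algebraMap K F c * aeval x p ∈ O ∧
      (algebraMap K F c * aeval x p)⁻¹ ∈ O := by
  intro p hp
  have hp0 : p ≠ 0 := by
    rintro rfl
    exact hp (map_zero _)
  obtain ⟨c, q, j, hc0, hqj, hpq⟩ := h89_exists_primitive A hp0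
  have hval : algebraMap K F c⁻¹ * aeval x p = aeval x (q.map A.subtype) := by
    rw [hpq, map_mul, aeval_C, ← mul_assoc, ← map_mul, inv_mul_cancel₀ hc0, map_one, one_mul]
  refine ⟨c⁻¹, inv_ne_zero hc0, ?_, ?_⟩
  · rw [hval, hG]
    intro n
    rw [coeff_map]
    exact (q.coeff n).2
  · rw [hval]
    exact hprim q j hqj

end Scale

section Datum

variable {K F k Fb : Type*} [Field K] [Field F] [Algebra K F] [Field k] [Field Fb] [Algebra k Fb]

/-- Gauss for one reduction datum, with the valuation ring of constants renamed. -/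
theorem h22_gauss_datum (R : h39_RedDatum K F k Fb) {A : ValuationSubring K} (hA : R.A = A)
    {x : F} (hx : x ∈ R.O) (htr : Transcendental k (R.redF x)) :
    (∀ p : K[X], aeval x p ∈ R.O ↔ ∀ n, p.coeff n ∈ A) ∧
      (∀ (q : Polynomial A) (j : ℕ), q.coeff j = 1 →
        (aeval x (q.map A.subtype))⁻¹ ∈ R.O) := by
  subst hA
  exact ⟨h89_gauss_mem_iff R hx htr, fun q j hq => (h89_primitive_unit R hx htr hq).2⟩

/-- The residue map of one datum, with the constants renamed. -/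
theorem h22_red_algebraMap_datum (R : h39_RedDatum K F k Fb) {A : ValuationSubring K}
    (res : A →+* k) (hA : R.A = A) (hres : ∀ (a : K) (ha : a ∈ A), R.resK a = res ⟨a, ha⟩)
    (a : K) (ha : a ∈ A) (ha' : algebraMap K F a ∈ R.O) :
    R.red ⟨algebraMap K F a, ha'⟩ = algebraMap k Fb (res ⟨a, ha⟩) := by
  have haR : a ∈ R.A := hA ▸ ha
  rw [R.red_algebraMap a haR ha', ← hres a ha, R.resK_of_mem haR]

end Datum

/-! ### A finite family -/

section Family

variable {K F k : Type*} [Field K] [Field F] [Algebra K F] [Field k]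
variable {ι : Type*} {Fb : ι → Type*} [∀ i, Field (Fb i)] [∀ i, Algebra k (Fb i)]

/-- The intersection of the valuation rings of a family of reduction data. -/
def h22_famO (R : ∀ i, h39_RedDatum K F k (Fb i)) : Subring F where
  carrier := {f | ∀ i, f ∈ (R i).O}
  mul_mem' ha hb i := (R i).O.mul_mem _ _ (ha i) (hb i)
  one_mem' i := (R i).O.one_mem
  add_mem' ha hb i := (R i).O.add_mem _ _ (ha i) (hb i)
  zero_mem' i := (R i).O.zero_mem
  neg_mem' ha i := (R i).O.neg_mem _ (ha i)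

theorem h22_mem_famO (R : ∀ i, h39_RedDatum K F k (Fb i)) {f : F} :
    f ∈ h22_famO R ↔ ∀ i, f ∈ (R i).O := Iff.rfl

/-- The inclusion of the intersection into one valuation ring. -/
def h22_famProj (R : ∀ i, h39_RedDatum K F k (Fb i)) (i : ι) : h22_famO R →+* (R i).O where
  toFun f := ⟨f.1, f.2 i⟩
  map_one' := rfl
  map_mul' _ _ := rfl
  map_zero' := rfl
  map_add' _ _ := rfl

/-- The simultaneous reduction map `O → Π i, Fb i`. -/
def h22_famRed (R : ∀ i, h39_RedDatum K F k (Fb i)) : h22_famO R →+* (∀ i, Fb i) :=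
  RingHom.pi (fun i => ((R i).red).comp (h22_famProj R i))

theorem h22_famRed_apply (R : ∀ i, h39_RedDatum K F k (Fb i)) (f : h22_famO R) (i : ι) :
    h22_famRed R f i = (R i).redF (f : F) := by
  rw [(R i).redF_of_mem (f.2 i)]
  rfl

variable [Fintype ι] [Nonempty ι]

/-- **The lattice datum of a finite family** of reduction data with common constants. -/
def h22_latOfFamily (R : ∀ i, h39_RedDatum K F k (Fb i)) (A : ValuationSubring K)
    (res : A →+* k) (hres_surj : Function.Surjective res) (hA : ∀ i, (R i).A = A)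
    (hres : ∀ (i : ι) (a : K) (ha : a ∈ A), (R i).resK a = res ⟨a, ha⟩) :
    h22_Lat K F k (∀ i, Fb i) where
  A := A
  O := h22_famO R
  res := res
  red := h22_famRed R
  res_surjective := hres_surj
  mem_iff a := by
    constructor
    · intro ha i
      exact ((R i).mem_iff a).mp (hA i ▸ ha)
    · intro h
      obtain ⟨i⟩ := ‹Nonempty ι›
      exact hA i ▸ ((R i).mem_iff a).mpr (h i)
  red_algebraMap a ha ha' := by
    funext i
    exact h22_red_algebraMap_datum (R i) res (hA i) (hres i) a ha (ha' i)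
  exists_scale f hf := by
    obtain ⟨c, i₀, hc0, hmemO, hinv⟩ := h22_fam_exists_scale A (fun i => (R i).O)
      (fun i a ha => ((R i).mem_iff a).mp (hA i ▸ ha)) (fun i => (R i).exists_scale) hf
    refine ⟨c, hc0, hmemO, fun h0 => ?_⟩
    have h1 : (R i₀).redF (algebraMap K F c * f) = 0 := by
      rw [← h22_famRed_apply R ⟨_, hmemO⟩ i₀, h0]
      rfl
    rcases (h39_redF_eq_zero_iff (R i₀) (hmemO i₀)).mp h1 with h | h
    · have hcF : algebraMap K F c ≠ 0 := by
        rw [Ne, map_eq_zero]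
        exact hc0
      exact (mul_ne_zero hcF hf) h
    · exact h hinv
  ker f hf h0 := by
    rcases eq_or_ne f 0 with rfl | hf0
    · refine ⟨0, ?_, 0, Subring.zero_mem _, by rw [mul_zero]⟩
      rw [ValuationSubring.mem_nonunits_iff_or]
      exact Or.inl rfl
    obtain ⟨c, i₀, hc0, hmemO, hinv⟩ := h22_fam_exists_scale A (fun i => (R i).O)
      (fun i a ha => ((R i).mem_iff a).mp (hA i ▸ ha)) (fun i => (R i).exists_scale) hf0
    have h1 : (R i₀).redF f = 0 := by
      rw [← h22_famRed_apply R ⟨f, hf⟩ i₀, h0]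
      rfl
    have hfinv : f⁻¹ ∉ (R i₀).O := by
      rcases (h39_redF_eq_zero_iff (R i₀) (hf i₀)).mp h1 with h | h
      · exact absurd h hf0
      · exact h
    have hcF : algebraMap K F c ≠ 0 := by
      rw [Ne, map_eq_zero]
      exact hc0
    refine ⟨c⁻¹, ?_, algebraMap K F c * f, hmemO, ?_⟩
    · exact h22_inv_mem_nonunits A (R i₀).O (fun a => by rw [← hA i₀]; exact (R i₀).mem_iff a)
        (hf i₀) hfinv hc0 hinv
    · rw [map_inv₀]
      field_simp

variable (R : ∀ i, h39_RedDatum K F k (Fb i)) (A : ValuationSubring K)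
    (res : A →+* k) (hres_surj : Function.Surjective res) (hA : ∀ i, (R i).A = A)
    (hres : ∀ (i : ι) (a : K) (ha : a ∈ A), (R i).resK a = res ⟨a, ha⟩)

theorem h22_latOfFamily_mem {f : F} :
    f ∈ (h22_latOfFamily R A res hres_surj hA hres).O ↔ ∀ i, f ∈ (R i).O := Iff.rfl

theorem h22_latOfFamily_A : (h22_latOfFamily R A res hres_surj hA hres).A = A := rfl

theorem h22_latOfFamily_redF {f : F} (hf : ∀ i, f ∈ (R i).O) (i : ι) :
    (h22_latOfFamily R A res hres_surj hA hres).redF f i = (R i).redF f := by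
  have hf' : f ∈ (h22_latOfFamily R A res hres_surj hA hres).O := hf
  rw [(h22_latOfFamily R A res hres_surj hA hres).redF_of_mem hf']
  exact h22_famRed_apply R ⟨f, hf⟩ i

theorem h22_latOfFamily_redF_eq {f : F} (hf : ∀ i, f ∈ (R i).O) :
    (h22_latOfFamily R A res hres_surj hA hres).redF f = fun i => (R i).redF f :=
  funext fun i => h22_latOfFamily_redF R A res hres_surj hA hres hf i

/-- Gauss hypothesis `hG` for the family datum. -/
theorem h22_latOfFamily_hG {x : F} (hx : ∀ i, x ∈ (R i).O)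
    (htr : ∀ i, Transcendental k ((R i).redF x)) (p : K[X]) :
    aeval x p ∈ (h22_latOfFamily R A res hres_surj hA hres).O ↔
      ∀ n, p.coeff n ∈ (h22_latOfFamily R A res hres_surj hA hres).A := by
  constructor
  · intro h
    obtain ⟨i⟩ := ‹Nonempty ι›
    exact ((h22_gauss_datum (R i) (hA i) (hx i) (htr i)).1 p).mp (h i)
  · intro h i
    exact ((h22_gauss_datum (R i) (hA i) (hx i) (htr i)).1 p).mpr h

/-- Gauss hypothesis `hU` for the family datum. -/
theorem h22_latOfFamily_hU {x : F} (hx : ∀ i, x ∈ (R i).O)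
    (htr : ∀ i, Transcendental k ((R i).redF x)) (p : K[X]) (hp : aeval x p ≠ 0) :
    ∃ c : K, c ≠ 0 ∧
      algebraMap K F c * aeval x p ∈ (h22_latOfFamily R A res hres_surj hA hres).O ∧
      (algebraMap K F c * aeval x p)⁻¹ ∈ (h22_latOfFamily R A res hres_surj hA hres).O :=
  h22_hU_of_primitive A (h22_latOfFamily R A res hres_surj hA hres).O
    (h22_latOfFamily_hG R A res hres_surj hA hres hx htr)
    (fun q j hq i => (h22_gauss_datum (R i) (hA i) (hx i) (htr i)).2 q j hq) p hp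

/-- **ON for a family**: a common chart `x` and a `K(x)`-frame of `F` detecting integrality
coordinatewise give orthonormal bases of all finite-dimensional subspaces. -/
theorem h22_on_of_family {x : F} (hx : ∀ i, x ∈ (R i).O)
    (htr : ∀ i, Transcendental k ((R i).redF x))
    {κ : Type*} [Fintype κ] (b : Module.Basis κ K⟮x⟯ F)
    (hb : ∀ f : F, (∀ i, f ∈ (R i).O) ↔ ∀ j i, ((b.repr f j : K⟮x⟯) : F) ∈ (R i).O) :
    h22_ON (h22_latOfFamily R A res hres_surj hA hres) :=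
  h22_on_of_basis (h22_latOfFamily R A res hres_surj hA hres)
    (h22_latOfFamily_hG R A res hres_surj hA hres hx htr)
    (h22_latOfFamily_hU R A res hres_surj hA hres hx htr) b hb

/-- ON bases in family terms: `dim_K V` elements of `V ∩ ⋂ O_i` whose simultaneous reductions are
`k`-linearly independent in `Π i, Fb i`. -/
theorem h22_exists_on_family (R : ∀ i, h39_RedDatum K F k (Fb i)) (A : ValuationSubring K)
    (res : A →+* k) (hres_surj : Function.Surjective res) (hA : ∀ i, (R i).A = A)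
    (hres : ∀ (i : ι) (a : K) (ha : a ∈ A), (R i).resK a = res ⟨a, ha⟩)
    {x : F} (hx : ∀ i, x ∈ (R i).O)
    (htr : ∀ i, Transcendental k ((R i).redF x))
    {κ : Type*} [Fintype κ] (b : Module.Basis κ K⟮x⟯ F)
    (hb : ∀ f : F, (∀ i, f ∈ (R i).O) ↔ ∀ j i, ((b.repr f j : K⟮x⟯) : F) ∈ (R i).O)
    (V : Submodule K F) [FiniteDimensional K V] :
    ∃ e : Fin (Module.finrank K V) → F, (∀ j, e j ∈ V) ∧ (∀ j i, e j ∈ (R i).O) ∧
      LinearIndependent k (fun j => fun i => (R i).redF (e j)) := by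
  obtain ⟨e, heV, heO, hli⟩ :=
    h22_on_of_family R A res hres_surj hA hres hx htr b hb V inferInstance
  refine ⟨e, heV, heO, ?_⟩
  have h1 : (fun j => fun i => (R i).redF (e j)) =
      fun j => (h22_latOfFamily R A res hres_surj hA hres).redF (e j) := by
    funext j
    exact (h22_latOfFamily_redF_eq R A res hres_surj hA hres (heO j)).symm
  rw [h1]
  exact hli

end Family

/-! ### Two data -/

section Pair

variable {K F k Fb₁ Fb₂ : Type*} [Field K] [Field F] [Algebra K F] [Field k]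
  [Field Fb₁] [Algebra k Fb₁] [Field Fb₂] [Algebra k Fb₂]

/-- The intersection of the valuation rings of two reduction data. -/
def h22_pairO (R₁ : h39_RedDatum K F k Fb₁) (R₂ : h39_RedDatum K F k Fb₂) : Subring F where
  carrier := {f | f ∈ R₁.O ∧ f ∈ R₂.O}
  mul_mem' ha hb := ⟨R₁.O.mul_mem _ _ ha.1 hb.1, R₂.O.mul_mem _ _ ha.2 hb.2⟩
  one_mem' := ⟨R₁.O.one_mem, R₂.O.one_mem⟩
  add_mem' ha hb := ⟨R₁.O.add_mem _ _ ha.1 hb.1, R₂.O.add_mem _ _ ha.2 hb.2⟩
  zero_mem' := ⟨R₁.O.zero_mem, R₂.O.zero_mem⟩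
  neg_mem' ha := ⟨R₁.O.neg_mem _ ha.1, R₂.O.neg_mem _ ha.2⟩

theorem h22_mem_pairO (R₁ : h39_RedDatum K F k Fb₁) (R₂ : h39_RedDatum K F k Fb₂) {f : F} :
    f ∈ h22_pairO R₁ R₂ ↔ f ∈ R₁.O ∧ f ∈ R₂.O := Iff.rfl

/-- The inclusion of the intersection into the first valuation ring. -/
def h22_pairFst (R₁ : h39_RedDatum K F k Fb₁) (R₂ : h39_RedDatum K F k Fb₂) :
    h22_pairO R₁ R₂ →+* R₁.O where
  toFun f := ⟨f.1, f.2.1⟩
  map_one' := rfl
  map_mul' _ _ := rfl
  map_zero' := rfl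
  map_add' _ _ := rfl

/-- The inclusion of the intersection into the second valuation ring. -/
def h22_pairSnd (R₁ : h39_RedDatum K F k Fb₁) (R₂ : h39_RedDatum K F k Fb₂) :
    h22_pairO R₁ R₂ →+* R₂.O where
  toFun f := ⟨f.1, f.2.2⟩
  map_one' := rfl
  map_mul' _ _ := rfl
  map_zero' := rfl
  map_add' _ _ := rfl

/-- The simultaneous reduction map `O → Fb₁ × Fb₂`. -/
def h22_pairRed (R₁ : h39_RedDatum K F k Fb₁) (R₂ : h39_RedDatum K F k Fb₂) :
    h22_pairO R₁ R₂ →+* Fb₁ × Fb₂ :=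
  RingHom.prod (R₁.red.comp (h22_pairFst R₁ R₂)) (R₂.red.comp (h22_pairSnd R₁ R₂))

theorem h22_pairRed_apply (R₁ : h39_RedDatum K F k Fb₁) (R₂ : h39_RedDatum K F k Fb₂)
    (f : h22_pairO R₁ R₂) :
    h22_pairRed R₁ R₂ f = (R₁.redF (f : F), R₂.redF (f : F)) := by
  rw [R₁.redF_of_mem f.2.1, R₂.redF_of_mem f.2.2]
  rfl

/-- the two valuation rings as a family over `Bool` -/
def h22_pairFam (R₁ : h39_RedDatum K F k Fb₁) (R₂ : h39_RedDatum K F k Fb₂) :
    Bool → ValuationSubring F := fun b => bif b then R₁.O else R₂.O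

theorem h22_pair_exists_scale (R₁ : h39_RedDatum K F k Fb₁) (R₂ : h39_RedDatum K F k Fb₂)
    (A : ValuationSubring K) (hA₁ : R₁.A = A) (hA₂ : R₂.A = A) {f : F} (hf : f ≠ 0) :
    ∃ c : K, c ≠ 0 ∧ (algebraMap K F c * f ∈ R₁.O ∧ algebraMap K F c * f ∈ R₂.O) ∧
      ((algebraMap K F c * f)⁻¹ ∈ R₁.O ∨ (algebraMap K F c * f)⁻¹ ∈ R₂.O) := by
  obtain ⟨c, i₀, hc0, hmemO, hinv⟩ := h22_fam_exists_scale A (h22_pairFam R₁ R₂)
    (fun i a ha => by
      cases i
      · exact (R₂.mem_iff a).mp (hA₂ ▸ ha)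
      · exact (R₁.mem_iff a).mp (hA₁ ▸ ha))
    (fun i => by
      cases i
      · exact R₂.exists_scale
      · exact R₁.exists_scale) hf
  refine ⟨c, hc0, ⟨hmemO true, hmemO false⟩, ?_⟩
  cases i₀
  · exact Or.inr hinv
  · exact Or.inl hinv

/-- **The lattice datum of two reduction data** with common constants. -/
def h22_latOfPair (R₁ : h39_RedDatum K F k Fb₁) (R₂ : h39_RedDatum K F k Fb₂)
    (A : ValuationSubring K) (res : A →+* k) (hres_surj : Function.Surjective res)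
    (hA₁ : R₁.A = A) (hA₂ : R₂.A = A)
    (hres₁ : ∀ (a : K) (ha : a ∈ A), R₁.resK a = res ⟨a, ha⟩)
    (hres₂ : ∀ (a : K) (ha : a ∈ A), R₂.resK a = res ⟨a, ha⟩) :
    h22_Lat K F k (Fb₁ × Fb₂) where
  A := A
  O := h22_pairO R₁ R₂
  res := res
  red := h22_pairRed R₁ R₂
  res_surjective := hres_surj
  mem_iff a := by
    constructor
    · intro ha
      exact ⟨(R₁.mem_iff a).mp (hA₁ ▸ ha), (R₂.mem_iff a).mp (hA₂ ▸ ha)⟩
    · intro h
      exact hA₁ ▸ (R₁.mem_iff a).mpr h.1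
  red_algebraMap a ha ha' := by
    refine Prod.ext ?_ ?_
    · exact h22_red_algebraMap_datum R₁ res hA₁ hres₁ a ha ha'.1
    · exact h22_red_algebraMap_datum R₂ res hA₂ hres₂ a ha ha'.2
  exists_scale f hf := by
    obtain ⟨c, hc0, hmemO, hinv⟩ := h22_pair_exists_scale R₁ R₂ A hA₁ hA₂ hf
    have hcF : algebraMap K F c ≠ 0 := by
      rw [Ne, map_eq_zero]
      exact hc0
    refine ⟨c, hc0, hmemO, fun h0 => ?_⟩
    rw [h22_pairRed_apply R₁ R₂ ⟨_, hmemO⟩, Prod.mk_eq_zero] at h0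
    rcases hinv with hinv | hinv
    · rcases (h39_redF_eq_zero_iff R₁ hmemO.1).mp h0.1 with h | h
      · exact (mul_ne_zero hcF hf) h
      · exact h hinv
    · rcases (h39_redF_eq_zero_iff R₂ hmemO.2).mp h0.2 with h | h
      · exact (mul_ne_zero hcF hf) h
      · exact h hinv
  ker f hf h0 := by
    rcases eq_or_ne f 0 with rfl | hf0
    · refine ⟨0, ?_, 0, Subring.zero_mem _, by rw [mul_zero]⟩
      rw [ValuationSubring.mem_nonunits_iff_or]
      exact Or.inl rfl
    obtain ⟨c, hc0, hmemO, hinv⟩ := h22_pair_exists_scale R₁ R₂ A hA₁ hA₂ hf0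
    rw [h22_pairRed_apply R₁ R₂ ⟨f, hf⟩, Prod.mk_eq_zero] at h0
    have hcF : algebraMap K F c ≠ 0 := by
      rw [Ne, map_eq_zero]
      exact hc0
    refine ⟨c⁻¹, ?_, algebraMap K F c * f, hmemO, ?_⟩
    · rcases hinv with hinv | hinv
      · have hfinv : f⁻¹ ∉ R₁.O := by
          rcases (h39_redF_eq_zero_iff R₁ hf.1).mp h0.1 with h | h
          · exact absurd h hf0
          · exact h
        exact h22_inv_mem_nonunits A R₁.O (fun a => by rw [← hA₁]; exact R₁.mem_iff a)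
          hf.1 hfinv hc0 hinv
      · have hfinv : f⁻¹ ∉ R₂.O := by
          rcases (h39_redF_eq_zero_iff R₂ hf.2).mp h0.2 with h | h
          · exact absurd h hf0
          · exact h
        exact h22_inv_mem_nonunits A R₂.O (fun a => by rw [← hA₂]; exact R₂.mem_iff a)
          hf.2 hfinv hc0 hinv
    · rw [map_inv₀]
      field_simp

variable (R₁ : h39_RedDatum K F k Fb₁) (R₂ : h39_RedDatum K F k Fb₂)
    (A : ValuationSubring K) (res : A →+* k) (hres_surj : Function.Surjective res)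
    (hA₁ : R₁.A = A) (hA₂ : R₂.A = A)
    (hres₁ : ∀ (a : K) (ha : a ∈ A), R₁.resK a = res ⟨a, ha⟩)
    (hres₂ : ∀ (a : K) (ha : a ∈ A), R₂.resK a = res ⟨a, ha⟩)

theorem h22_latOfPair_mem {f : F} :
    f ∈ (h22_latOfPair R₁ R₂ A res hres_surj hA₁ hA₂ hres₁ hres₂).O ↔ f ∈ R₁.O ∧ f ∈ R₂.O :=
  Iff.rfl

theorem h22_latOfPair_A : (h22_latOfPair R₁ R₂ A res hres_surj hA₁ hA₂ hres₁ hres₂).A = A := rfl

theorem h22_latOfPair_redF {f : F} (hf₁ : f ∈ R₁.O) (hf₂ : f ∈ R₂.O) :
    (h22_latOfPair R₁ R₂ A res hres_surj hA₁ hA₂ hres₁ hres₂).redF f =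
      (R₁.redF f, R₂.redF f) := by
  have hf' : f ∈ (h22_latOfPair R₁ R₂ A res hres_surj hA₁ hA₂ hres₁ hres₂).O := ⟨hf₁, hf₂⟩
  rw [(h22_latOfPair R₁ R₂ A res hres_surj hA₁ hA₂ hres₁ hres₂).redF_of_mem hf']
  exact h22_pairRed_apply R₁ R₂ ⟨f, hf'⟩

/-- Gauss hypothesis `hG` for the pair datum. -/
theorem h22_latOfPair_hG {x : F} (hx₁ : x ∈ R₁.O) (hx₂ : x ∈ R₂.O)
    (htr₁ : Transcendental k (R₁.redF x)) (htr₂ : Transcendental k (R₂.redF x)) (p : K[X]) :
    aeval x p ∈ (h22_latOfPair R₁ R₂ A res hres_surj hA₁ hA₂ hres₁ hres₂).O ↔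
      ∀ n, p.coeff n ∈ (h22_latOfPair R₁ R₂ A res hres_surj hA₁ hA₂ hres₁ hres₂).A := by
  constructor
  · intro h
    exact ((h22_gauss_datum R₁ hA₁ hx₁ htr₁).1 p).mp h.1
  · intro h
    exact ⟨((h22_gauss_datum R₁ hA₁ hx₁ htr₁).1 p).mpr h,
      ((h22_gauss_datum R₂ hA₂ hx₂ htr₂).1 p).mpr h⟩

/-- Gauss hypothesis `hU` for the pair datum. -/
theorem h22_latOfPair_hU {x : F} (hx₁ : x ∈ R₁.O) (hx₂ : x ∈ R₂.O)
    (htr₁ : Transcendental k (R₁.redF x)) (htr₂ : Transcendental k (R₂.redF x)) (p : K[X])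
    (hp : aeval x p ≠ 0) :
    ∃ c : K, c ≠ 0 ∧
      algebraMap K F c * aeval x p ∈ (h22_latOfPair R₁ R₂ A res hres_surj hA₁ hA₂ hres₁ hres₂).O ∧
      (algebraMap K F c * aeval x p)⁻¹ ∈
        (h22_latOfPair R₁ R₂ A res hres_surj hA₁ hA₂ hres₁ hres₂).O :=
  h22_hU_of_primitive A (h22_latOfPair R₁ R₂ A res hres_surj hA₁ hA₂ hres₁ hres₂).O
    (h22_latOfPair_hG R₁ R₂ A res hres_surj hA₁ hA₂ hres₁ hres₂ hx₁ hx₂ htr₁ htr₂)
    (fun q j hq => ⟨(h22_gauss_datum R₁ hA₁ hx₁ htr₁).2 q j hq,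
      (h22_gauss_datum R₂ hA₂ hx₂ htr₂).2 q j hq⟩) p hp

/-- **ON for two data**: a common chart `x` and a `K(x)`-frame of `F` detecting integrality
coordinatewise give orthonormal bases of all finite-dimensional subspaces. -/
theorem h22_on_of_pair {x : F} (hx₁ : x ∈ R₁.O) (hx₂ : x ∈ R₂.O)
    (htr₁ : Transcendental k (R₁.redF x)) (htr₂ : Transcendental k (R₂.redF x))
    {κ : Type*} [Fintype κ] (b : Module.Basis κ K⟮x⟯ F)
    (hb : ∀ f : F, (f ∈ R₁.O ∧ f ∈ R₂.O) ↔
      ∀ j, ((b.repr f j : K⟮x⟯) : F) ∈ R₁.O ∧ ((b.repr f j : K⟮x⟯) : F) ∈ R₂.O) :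
    h22_ON (h22_latOfPair R₁ R₂ A res hres_surj hA₁ hA₂ hres₁ hres₂) :=
  h22_on_of_basis (h22_latOfPair R₁ R₂ A res hres_surj hA₁ hA₂ hres₁ hres₂)
    (h22_latOfPair_hG R₁ R₂ A res hres_surj hA₁ hA₂ hres₁ hres₂ hx₁ hx₂ htr₁ htr₂)
    (h22_latOfPair_hU R₁ R₂ A res hres_surj hA₁ hA₂ hres₁ hres₂ hx₁ hx₂ htr₁ htr₂) b hb

/-- ON bases in pair terms: `dim_K V` elements of `V ∩ O₁ ∩ O₂` whose simultaneous reductions
are `k`-linearly independent in `Fb₁ × Fb₂`. -/
theorem h22_exists_on_pair (R₁ : h39_RedDatum K F k Fb₁) (R₂ : h39_RedDatum K F k Fb₂)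
    (A : ValuationSubring K) (res : A →+* k) (hres_surj : Function.Surjective res)
    (hA₁ : R₁.A = A) (hA₂ : R₂.A = A)
    (hres₁ : ∀ (a : K) (ha : a ∈ A), R₁.resK a = res ⟨a, ha⟩)
    (hres₂ : ∀ (a : K) (ha : a ∈ A), R₂.resK a = res ⟨a, ha⟩)
    {x : F} (hx₁ : x ∈ R₁.O) (hx₂ : x ∈ R₂.O)
    (htr₁ : Transcendental k (R₁.redF x)) (htr₂ : Transcendental k (R₂.redF x))
    {κ : Type*} [Fintype κ] (b : Module.Basis κ K⟮x⟯ F)
    (hb : ∀ f : F, (f ∈ R₁.O ∧ f ∈ R₂.O) ↔
      ∀ j, ((b.repr f j : K⟮x⟯) : F) ∈ R₁.O ∧ ((b.repr f j : K⟮x⟯) : F) ∈ R₂.O)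
    (V : Submodule K F) [FiniteDimensional K V] :
    ∃ e : Fin (Module.finrank K V) → F, (∀ j, e j ∈ V) ∧ (∀ j, e j ∈ R₁.O ∧ e j ∈ R₂.O) ∧
      LinearIndependent k (fun j => ((R₁.redF (e j), R₂.redF (e j)) : Fb₁ × Fb₂)) := by
  obtain ⟨e, heV, heO, hli⟩ :=
    h22_on_of_pair R₁ R₂ A res hres_surj hA₁ hA₂ hres₁ hres₂ hx₁ hx₂ htr₁ htr₂ b hb V
      inferInstance
  refine ⟨e, heV, heO, ?_⟩
  have h1 : (fun j => ((R₁.redF (e j), R₂.redF (e j)) : Fb₁ × Fb₂)) =
      fun j => (h22_latOfPair R₁ R₂ A res hres_surj hA₁ hA₂ hres₁ hres₂).redF (e j) := by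
    funext j
    exact (h22_latOfPair_redF R₁ R₂ A res hres_surj hA₁ hA₂ hres₁ hres₂ (heO j).1 (heO j).2).symm
  rw [h1]
  exact hli

end Pair

end Fermat.Agent.S34
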