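import Mathlib
import Fermat.Agent.S34.h60_R1
import Fermat.Agent.S34.h22_LatFamily
import Fermat.Agent.S35.h19_SeriesRed
import Fermat.Prelude.Def_ModularCurve_ArithmeticGalois

/-!
# S34 row GAL-MOD: inertia acts trivially on the reductions of `F(Mq)`

* `h87_R1_inertia` : for `τ` in the inertia group of `A`, the arithmetic action of `τ` on `F(Mq)`
  preserves `O₁ = (h60_R1 ..).O` and the reduction `red₁` (`redF` form);
* `h87_gal_transport` : generic transport of such a statement along a ring map `w` commuting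
  with the action (application: `R₂ = R₁ ∘ w`, `w` the swap);
* `h87_pair_gal` : the hypotheses `hgO` / `hgred` of `h51_Glue` for the pair lattice
  `h22_latOfPair R₁ R₂ ..`, from the two componentwise statements;
* `h87_smul_eq_arithmeticRingAut` : `arithmeticGalois F₀ τ • f = arithmeticRingAut F₀ τ f`.
-/

set_option autoImplicit false

noncomputable section

open ModularCurve AlgebraicCurve
open Fermat.Agent.S18 Fermat.Agent.S35

namespace Fermat.Agent.S34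

local notation "Qb" => AlgebraicClosure ℚ

/-- The action of `arithmeticGalois` on functions is `arithmeticRingAut`. -/
theorem h87_smul_eq_arithmeticRingAut {L : Type*} [Field L] [Algebra ℚ L]
    (F₀ : IntermediateField ℚ (LaurentSeries ℚ)) (τ : L ≃ₐ[ℚ] L) (f : laurentBaseChange L F₀) :
    arithmeticGalois F₀ τ • f = arithmeticRingAut F₀ τ f := rfl

section R1

variable (M q : ℕ) [NeZero M] [NeZero q] [Fact q.Prime] (hqM : ¬ q ∣ M)
  (A : ValuationSubring Qb) (hA : A.LiesOverPrime q)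

/-- **(GAL) for `R₁`.**  Inertia preserves `O₁` and acts trivially on `red₁`. -/
theorem h87_R1_inertia (τ : Qb ≃ₐ[ℚ] Qb) (hτ : τ ∈ A.inertiaSubgroupIn ℚ)
    (f : modularFunctionFieldBar (M * q)) (hf : f ∈ (h60_R1 M q hqM A hA).O) :
    arithmeticRingAut (modularFunctionFieldFull (M * q)) τ f ∈ (h60_R1 M q hqM A hA).O ∧
      (h60_R1 M q hqM A hA).redF (arithmeticRingAut (modularFunctionFieldFull (M * q)) τ f) =
        (h60_R1 M q hqM A hA).redF f := by
  have hfO : h19_InO A (f : LaurentSeries Qb) := (h60_R1_mem_iff M q hqM A hA f).mp hf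
  obtain ⟨h1, h2⟩ := h19_InO_inertia (K₀ := ℚ) τ hτ hfO
  have hmem : arithmeticRingAut (modularFunctionFieldFull (M * q)) τ f ∈
      (h60_R1 M q hqM A hA).O := (h60_R1_mem_iff M q hqM A hA _).mpr h1
  refine ⟨hmem, ?_⟩
  rw [(h60_R1 M q hqM A hA).redF_of_mem hmem, (h60_R1 M q hqM A hA).redF_of_mem hf]
  apply Subtype.ext
  rw [h60_R1_coe_red M q hqM A hA _ hmem, h60_R1_coe_red M q hqM A hA f hf]
  exact h2

end R1

section Transport

variable {K F k Fb : Type*} [Field K] [Field F] [Algebra K F] [Field k] [Field Fb] [Algebra k Fb]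

/-- Transport of "σ preserves `O` and `red`" along a map `w` commuting with `σ`. -/
theorem h87_gal_transport (R₁ R₂ : h39_RedDatum K F k Fb) (w σ : F → F)
    (hw : ∀ f, f ∈ R₂.O ↔ w f ∈ R₁.O) (hwred : ∀ f, f ∈ R₂.O → R₂.redF f = R₁.redF (w f))
    (hcomm : ∀ f, w (σ f) = σ (w f))
    (h₁ : ∀ f, f ∈ R₁.O → σ f ∈ R₁.O ∧ R₁.redF (σ f) = R₁.redF f)
    (f : F) (hf : f ∈ R₂.O) : σ f ∈ R₂.O ∧ R₂.redF (σ f) = R₂.redF f := by
  obtain ⟨h1, h2⟩ := h₁ (w f) ((hw f).mp hf)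
  have hmem : σ f ∈ R₂.O := by
    rw [hw, hcomm]
    exact h1
  refine ⟨hmem, ?_⟩
  rw [hwred _ hmem, hwred _ hf, hcomm]
  exact h2

end Transport

section Pair

variable {K F k Fb₁ Fb₂ : Type*} [Field K] [Field F] [Algebra K F] [Field k]
  [Field Fb₁] [Algebra k Fb₁] [Field Fb₂] [Algebra k Fb₂]

/-- The hypotheses `hgO`, `hgred` of `h51_Glue` for the pair lattice. -/
theorem h87_pair_gal (R₁ : h39_RedDatum K F k Fb₁) (R₂ : h39_RedDatum K F k Fb₂)
    (A : ValuationSubring K) (res : A →+* k) (hres_surj : Function.Surjective res)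
    (hA₁ : R₁.A = A) (hA₂ : R₂.A = A)
    (hres₁ : ∀ (a : K) (ha : a ∈ A), R₁.resK a = res ⟨a, ha⟩)
    (hres₂ : ∀ (a : K) (ha : a ∈ A), R₂.resK a = res ⟨a, ha⟩)
    (g' : SemilinearAut K F)
    (h₁ : ∀ f, f ∈ R₁.O → g' • f ∈ R₁.O ∧ R₁.redF (g' • f) = R₁.redF f)
    (h₂ : ∀ f, f ∈ R₂.O → g' • f ∈ R₂.O ∧ R₂.redF (g' • f) = R₂.redF f) :
    (∀ f, f ∈ (h22_latOfPair R₁ R₂ A res hres_surj hA₁ hA₂ hres₁ hres₂).O →
        g' • f ∈ (h22_latOfPair R₁ R₂ A res hres_surj hA₁ hA₂ hres₁ hres₂).O) ∧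
      (∀ f, f ∈ (h22_latOfPair R₁ R₂ A res hres_surj hA₁ hA₂ hres₁ hres₂).O →
        (h22_latOfPair R₁ R₂ A res hres_surj hA₁ hA₂ hres₁ hres₂).redF (g' • f) =
          (h22_latOfPair R₁ R₂ A res hres_surj hA₁ hA₂ hres₁ hres₂).redF f) := by
  refine ⟨fun f hf => ?_, fun f hf => ?_⟩
  · have hf' := (h22_latOfPair_mem R₁ R₂ A res hres_surj hA₁ hA₂ hres₁ hres₂).mp hf
    exact (h22_latOfPair_mem R₁ R₂ A res hres_surj hA₁ hA₂ hres₁ hres₂).mpr
      ⟨(h₁ f hf'.1).1, (h₂ f hf'.2).1⟩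
  · have hf' := (h22_latOfPair_mem R₁ R₂ A res hres_surj hA₁ hA₂ hres₁ hres₂).mp hf
    rw [h22_latOfPair_redF R₁ R₂ A res hres_surj hA₁ hA₂ hres₁ hres₂ (h₁ f hf'.1).1
        (h₂ f hf'.2).1,
      h22_latOfPair_redF R₁ R₂ A res hres_surj hA₁ hA₂ hres₁ hres₂ hf'.1 hf'.2,
      (h₁ f hf'.1).2, (h₂ f hf'.2).2]

end Pair

end Fermat.Agent.S34

end
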