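import Mathlib
import Fermat.Agent.S34.h87_ToricGal
import Fermat.Agent.S18.Defs

/-!
# S34: the geometric target from (G), for a family of S18 reduction data

`h87_unipGeom_of_family` is `h87_unipGeom_of_toric` with the valuation rings and reductions
given as a finite family `R : ι → h39_RedDatum ℚ̄ F(N) k Fb` (application: the two reduction
data `R₁`, `R₂ = R₁ ∘ w` of `F(Mq)` at a prime `q ∥ N`), all statements in the `redF` language
(no dependent membership proofs).
-/

set_option autoImplicit false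

noncomputable section

open AlgebraicCurve ModularCurve
open Fermat.Agent.S18

namespace Fermat.Agent.S34

local notation "Qb" => AlgebraicClosure ℚ

/-- **S34: the geometric target from (G), family form.** -/
theorem h87_unipGeom_of_family (N : ℕ) [NeZero N] (q : ℕ) (hq : q.Prime)
    (h : ∀ A : ValuationSubring Qb, A.LiesOverPrime q → ∀ m : ℕ, ¬ q ∣ m →
      ∃ (ι : Type) (_ : Fintype ι) (_ : Nonempty ι) (k Fb : Type) (_ : Field k) (_ : Field Fb)
        (_ : Algebra k Fb) (R : ι → h39_RedDatum Qb (modularFunctionFieldBar N) k Fb),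
        (∀ i, (R i).A = A) ∧
        (∀ i, ∃ t : modularFunctionFieldBar N, (∀ j, t ∈ (R j).O) ∧ (R i).redF t = 1 ∧
          ∀ j, j ≠ i → (R j).redF t = 0) ∧
        (∀ τ ∈ A.inertiaSubgroupIn ℚ, ∀ i (f : modularFunctionFieldBar N), f ∈ (R i).O →
          arithmeticRingAut (modularFunctionFieldFull N) τ f ∈ (R i).O ∧
          (R i).redF (arithmeticRingAut (modularFunctionFieldFull N) τ f) = (R i).redF f) ∧
        (∀ τ' ∈ A.inertiaSubgroupIn ℚ, ∀ (E : Divisor Qb (modularFunctionFieldBar N))
          (u : modularFunctionFieldBar N), Divisor.degree E = 0 → u ≠ 0 →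
          (∀ v : Place Qb (modularFunctionFieldBar N), (m : ℤ) * E v = v.ord u) →
          (∀ i, u ∈ (R i).O ∧ (R i).redF u = 1) →
          arithmeticGalois (modularFunctionFieldFull N) τ' • E - E ∈
            Divisor.principal (K := Qb) (F := modularFunctionFieldBar N))) :
    h29_UnipGeom N q := by
  refine h87_unipGeom_of_toric N q hq (fun A hA m hm => ?_)
  obtain ⟨ι, hfin, hne, k, Fb, hk, hFb, halg, R, hRA, hsep, hgal, hG⟩ := h A hA m hm
  refine ⟨ι, hfin, hne, fun _ => Fb, fun _ => hFb, fun i => (R i).O, fun i => (R i).red,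
    fun i f hf => (R i).exists_scale f hf, fun i => ?_, fun i a ha => ?_,
    fun τ hτ i f hf => ?_, fun τ' hτ' E u hE hu hdiv hred => ?_⟩
  · obtain ⟨t, ht, ht1, ht0⟩ := hsep i
    refine ⟨t, ht, ?_, fun j hj => ?_⟩
    · rw [← (R i).redF_of_mem (ht i)]
      exact ht1
    · rw [← (R j).redF_of_mem (ht j)]
      exact ht0 j hj
  · have h1 : a ∈ (R i).A := by
      rw [hRA i]
      exact ha
    exact ((R i).mem_iff a).mp h1
  · obtain ⟨h1, h2⟩ := hgal τ hτ i f hf
    refine ⟨h1, ?_⟩
    rw [← (R i).redF_of_mem h1, ← (R i).redF_of_mem hf]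
    exact h2
  · refine hG τ' hτ' E u hE hu hdiv (fun i => ?_)
    obtain ⟨h1, h2⟩ := hred i
    refine ⟨h1, ?_⟩
    rw [(R i).redF_of_mem h1]
    exact h2

end Fermat.Agent.S34

end
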