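import Mathlib
import Fermat.Agent.S34.h87_ToricFam
import Fermat.Agent.S34.h87_GalMod
import Fermat.Agent.S34.h51_Last
import Fermat.Agent.S18.GR_RedAPI

/-!
# S34 row TOP: the wiring from the chart package to `h29_UnipGeom`

* `h87_ChartProp D m G` : the whole chart package of `h51_G_of_last` (polar divisor `D0`,
  special-fibre spaces `P n`, node functionals, (NODE), (IND), (ROOT), (RR), the last step along
  `c • D0`, and `g' • D0 = D0` for `g' ∈ G`) as ONE proposition about a lattice datum `D`;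
* `h87_G_of_chartProp` : the toric statement (G) from the chart package (`h51_G_of_last`);
* `h87_pair_hinv` : `hinv` for the pair lattice `h22_latOfPair R₁ R₂ ..`;
* `h87_unipGeom_of_pair` : **`h29_UnipGeom N q` from two S18 reduction data `R₁`, `R₂` of
  `F(N)` over `A`** with a separating element, trivial inertia action on both reductions, an
  orthonormal frame and the chart package for the pair lattice.
-/

set_option autoImplicit false

noncomputable section

open AlgebraicCurve ModularCurve Module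
open Fermat.Agent.S18

namespace Fermat.Agent.S34

section Generic

variable {K F k Rb : Type*} [Field K] [Field F] [Algebra K F] [Field k] [CommRing Rb]
  [Algebra k Rb]

/-- The chart package of `h51_G_of_last` for a lattice datum `D`, an exponent `m` and a set `G`
of semilinear automorphisms fixing the polar divisor. -/
def h87_ChartProp (D : h22_Lat K F k Rb) (m : ℕ) (G : Set (SemilinearAut K F)) : Prop :=
  ∃ (D0 : Divisor K F) (P : ℕ → Submodule k Rb) (_ : ∀ n, FiniteDimensional k (P n))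
    (Bs : Subalgebra k Rb) (hPB : ∀ n, ∀ a ∈ P n, a ∈ Bs)
    (Z : Type) (_ : Fintype Z) (e1 e2 : Z → (Bs →ₐ[k] k)) (n0 c N0 : ℕ),
    (∀ n, n0 ≤ n → ∀ a : Rb, a ∈ h51_Rd D (n • D0) ↔
        ∃ h : a ∈ P n, ∀ ν, e2 ν ⟨a, hPB n a h⟩ = e1 ν ⟨a, hPB n a h⟩) ∧
    (∀ n, n0 ≤ n → ∀ s t : Z → k, ∃ a, ∃ h : a ∈ P n,
        (∀ ν, e1 ν ⟨a, hPB n a h⟩ = s ν) ∧ (∀ ν, e2 ν ⟨a, hPB n a h⟩ = t ν)) ∧
    (∀ n, ∀ a : Rb, a ^ m ∈ P (m * n) → a ∈ P n) ∧
    (∀ n, n0 ≤ n → ∀ E : Divisor K F, Divisor.degree E = 0 →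
        Module.Finite K (riemannRochSpace (n • D0 + E)) ∧
        Module.finrank K (riemannRochSpace (n • D0 + E)) =
          Module.finrank K (riemannRochSpace (n • D0))) ∧
    0 < c ∧ 2 * n0 ≤ N0 ∧ h51_LastStep D (c • D0) N0 m ∧ ∀ g' ∈ G, g' • D0 = D0

/-- **(G) from the chart package.** -/
theorem h87_G_of_chartProp (D : h22_Lat K F k Rb) (hON : h22_ON D)
    (hinv : ∀ (f : F) (hf : f ∈ D.O), IsUnit (D.red ⟨f, hf⟩) → f⁻¹ ∈ D.O)
    {m : ℕ} (hm : m ≠ 0) (G : Set (SemilinearAut K F)) (hC : h87_ChartProp D m G)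
    [HasPrincipalDivisors K F] (hdeg1 : ∀ P : Place K F, P.deg = 1)
    (g' : SemilinearAut K F) (hg' : g' ∈ G) (hgO : ∀ f, f ∈ D.O → g' • f ∈ D.O)
    (hgred : ∀ f, f ∈ D.O → D.redF (g' • f) = D.redF f)
    (E : Divisor K F) (hE : Divisor.degree E = 0) (u : F) (hu : u ≠ 0)
    (hdiv : ∀ v : Place K F, (m : ℤ) * E v = v.ord u) (huO : u ∈ D.O)
    (hured : D.red ⟨u, huO⟩ = 1) :
    g' • E - E ∈ Divisor.principal (K := K) (F := F) := by
  obtain ⟨D0, P, hP, Bs, hPB, Z, hZ, e1, e2, n0, c, N0, hnode, hind, hroot, hRR, hc, hN0,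
    hlast, hGD0⟩ := hC
  exact h51_G_of_last D hON hinv D0 P Bs hPB e1 e2 n0 hm hnode hind hroot hRR c N0 hc hN0 hlast
    hdeg1 g' hgO hgred (hGD0 g' hg') E hE u hu hdiv huO hured

end Generic

section Pair

variable {K F k Fb₁ Fb₂ : Type*} [Field K] [Field F] [Algebra K F] [Field k]
  [Field Fb₁] [Algebra k Fb₁] [Field Fb₂] [Algebra k Fb₂]

/-- `hinv` for the pair lattice: an element whose reduction is a unit of `Fb₁ × Fb₂` is
invertible in `O₁ ∩ O₂`. -/
theorem h87_pair_hinv (R₁ : h39_RedDatum K F k Fb₁) (R₂ : h39_RedDatum K F k Fb₂)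
    (A : ValuationSubring K) (res : A →+* k) (hres_surj : Function.Surjective res)
    (hA₁ : R₁.A = A) (hA₂ : R₂.A = A)
    (hres₁ : ∀ (a : K) (ha : a ∈ A), R₁.resK a = res ⟨a, ha⟩)
    (hres₂ : ∀ (a : K) (ha : a ∈ A), R₂.resK a = res ⟨a, ha⟩)
    (f : F) (hf : f ∈ (h22_latOfPair R₁ R₂ A res hres_surj hA₁ hA₂ hres₁ hres₂).O)
    (hu : IsUnit ((h22_latOfPair R₁ R₂ A res hres_surj hA₁ hA₂ hres₁ hres₂).red ⟨f, hf⟩)) :
    f⁻¹ ∈ (h22_latOfPair R₁ R₂ A res hres_surj hA₁ hA₂ hres₁ hres₂).O := by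
  have hf' := (h22_latOfPair_mem R₁ R₂ A res hres_surj hA₁ hA₂ hres₁ hres₂).mp hf
  have hred : (h22_latOfPair R₁ R₂ A res hres_surj hA₁ hA₂ hres₁ hres₂).red ⟨f, hf⟩ =
      (R₁.redF f, R₂.redF f) := by
    rw [← (h22_latOfPair R₁ R₂ A res hres_surj hA₁ hA₂ hres₁ hres₂).redF_of_mem hf]
    exact h22_latOfPair_redF R₁ R₂ A res hres_surj hA₁ hA₂ hres₁ hres₂ hf'.1 hf'.2
  rw [hred, Prod.isUnit_iff] at hu
  have h1 : R₁.redF f ≠ 0 := hu.1.ne_zero
  have h2 : R₂.redF f ≠ 0 := hu.2.ne_zero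
  refine (h22_latOfPair_mem R₁ R₂ A res hres_surj hA₁ hA₂ hres₁ hres₂).mpr ⟨?_, ?_⟩
  · by_contra hcon
    exact h1 ((h39_redF_eq_zero_iff R₁ hf'.1).mpr (Or.inr hcon))
  · by_contra hcon
    exact h2 ((h39_redF_eq_zero_iff R₂ hf'.2).mpr (Or.inr hcon))

end Pair

local notation "Qb" => AlgebraicClosure ℚ

/-- **S34 TOP, pair form.**  `h29_UnipGeom N q` from two S18 reduction data of `F(N)` over every
valuation ring `A` of `ℚ̄` above `q` (common constants, a separating element, trivial inertia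
action on both reductions, an orthonormal frame and the chart package for the pair lattice). -/
theorem h87_unipGeom_of_pair (N : ℕ) [NeZero N] (q : ℕ) (hq : q.Prime)
    (h : ∀ A : ValuationSubring Qb, A.LiesOverPrime q → ∀ m : ℕ, ¬ q ∣ m →
      ∃ (Fb : Type) (_ : Field Fb) (_ : Algebra (IsLocalRing.ResidueField A) Fb)
        (R₁ R₂ : h39_RedDatum Qb (modularFunctionFieldBar N) (IsLocalRing.ResidueField A) Fb)
        (hA₁ : R₁.A = A) (hA₂ : R₂.A = A)
        (hres₁ : ∀ (a : Qb) (ha : a ∈ A), R₁.resK a = IsLocalRing.residue A ⟨a, ha⟩)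
        (hres₂ : ∀ (a : Qb) (ha : a ∈ A), R₂.resK a = IsLocalRing.residue A ⟨a, ha⟩),
        (∃ t : modularFunctionFieldBar N, t ∈ R₁.O ∧ t ∈ R₂.O ∧ R₁.redF t = 1 ∧
          R₂.redF t = 0) ∧
        (∀ τ ∈ A.inertiaSubgroupIn ℚ, ∀ f : modularFunctionFieldBar N, f ∈ R₁.O →
          arithmeticRingAut (modularFunctionFieldFull N) τ f ∈ R₁.O ∧
          R₁.redF (arithmeticRingAut (modularFunctionFieldFull N) τ f) = R₁.redF f) ∧
        (∀ τ ∈ A.inertiaSubgroupIn ℚ, ∀ f : modularFunctionFieldBar N, f ∈ R₂.O →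
          arithmeticRingAut (modularFunctionFieldFull N) τ f ∈ R₂.O ∧
          R₂.redF (arithmeticRingAut (modularFunctionFieldFull N) τ f) = R₂.redF f) ∧
        h22_ON (h22_latOfPair R₁ R₂ A (IsLocalRing.residue A) IsLocalRing.residue_surjective
          hA₁ hA₂ hres₁ hres₂) ∧
        h87_ChartProp (h22_latOfPair R₁ R₂ A (IsLocalRing.residue A)
          IsLocalRing.residue_surjective hA₁ hA₂ hres₁ hres₂) m
          {g' | ∃ τ ∈ A.inertiaSubgroupIn ℚ,
            g' = arithmeticGalois (modularFunctionFieldFull N) τ}) :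
    h29_UnipGeom N q := by
  refine h87_unipGeom_of_family N q hq (fun A hA m hm => ?_)
  obtain ⟨Fb, hFb, halg, R₁, R₂, hA₁, hA₂, hres₁, hres₂, ⟨t, ht1, ht2, htr1, htr2⟩, hgal₁,
    hgal₂, hON, hC⟩ := h A hA m hm
  have hm0 : m ≠ 0 := fun h0 => hm (h0 ▸ dvd_zero q)
  have hPD : HasPrincipalDivisors Qb (modularFunctionFieldBar N) :=
    Fermat.Agent.S37.h88_hasPrincipalDivisors N
  have hdeg1 : ∀ P : Place Qb (modularFunctionFieldBar N), P.deg = 1 :=
    Fermat.Agent.S24.h73_deg_eq_one (Fermat.Agent.S37.h88_isFF N)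
  set D := h22_latOfPair R₁ R₂ A (IsLocalRing.residue A) IsLocalRing.residue_surjective
    hA₁ hA₂ hres₁ hres₂ with hD
  refine ⟨Bool, inferInstance, inferInstance, IsLocalRing.ResidueField A, Fb, inferInstance, hFb,
    halg, fun b => if b then R₁ else R₂, ?_, ?_, ?_, ?_⟩
  · intro b
    cases b
    · exact hA₂
    · exact hA₁
  · intro b
    cases b
    · -- index `false` = `R₂`: the separating element is `1 - t`
      refine ⟨1 - t, fun j => ?_, ?_, fun j hj => ?_⟩
      · cases j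
        · exact R₂.O.sub_mem R₂.O.one_mem ht2
        · exact R₁.O.sub_mem R₁.O.one_mem ht1
      · show R₂.redF (1 - t) = 1
        have hmem : (1 - t) ∈ R₂.O := R₂.O.sub_mem R₂.O.one_mem ht2
        rw [R₂.redF_of_mem hmem]
        have : (⟨1 - t, hmem⟩ : R₂.O) = 1 - ⟨t, ht2⟩ := rfl
        rw [this, map_sub, map_one, ← R₂.redF_of_mem ht2, htr2, sub_zero]
      · cases j
        · exact absurd rfl hj
        · show R₁.redF (1 - t) = 0
          have hmem : (1 - t) ∈ R₁.O := R₁.O.sub_mem R₁.O.one_mem ht1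
          rw [R₁.redF_of_mem hmem]
          have : (⟨1 - t, hmem⟩ : R₁.O) = 1 - ⟨t, ht1⟩ := rfl
          rw [this, map_sub, map_one, ← R₁.redF_of_mem ht1, htr1, sub_self]
    · -- index `true` = `R₁`: the separating element is `t`
      refine ⟨t, fun j => ?_, htr1, fun j hj => ?_⟩
      · cases j
        · exact ht2
        · exact ht1
      · cases j
        · exact htr2
        · exact absurd rfl hj
  · intro τ hτ b f hf
    cases b
    · exact hgal₂ τ hτ f hf
    · exact hgal₁ τ hτ f hf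
  · intro τ' hτ' E u hE hu hdiv hred
    have h1 := hred true
    have h2 := hred false
    have huO : u ∈ D.O :=
      (h22_latOfPair_mem R₁ R₂ A _ IsLocalRing.residue_surjective hA₁ hA₂ hres₁ hres₂).mpr
        ⟨h1.1, h2.1⟩
    have hured : D.red ⟨u, huO⟩ = 1 := by
      rw [← D.redF_of_mem huO,
        h22_latOfPair_redF R₁ R₂ A _ IsLocalRing.residue_surjective hA₁ hA₂ hres₁ hres₂
          h1.1 h2.1]
      exact Prod.ext h1.2 h2.2
    obtain ⟨hgO, hgred⟩ := h87_pair_gal R₁ R₂ A (IsLocalRing.residue A)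
      IsLocalRing.residue_surjective hA₁ hA₂ hres₁ hres₂
      (arithmeticGalois (modularFunctionFieldFull N) τ')
      (fun f hf => hgal₁ τ' hτ' f hf) (fun f hf => hgal₂ τ' hτ' f hf)
    exact h87_G_of_chartProp D hON
      (h87_pair_hinv R₁ R₂ A _ IsLocalRing.residue_surjective hA₁ hA₂ hres₁ hres₂) hm0 _ hC
      hdeg1 (arithmeticGalois (modularFunctionFieldFull N) τ') ⟨τ', hτ', rfl⟩ hgO hgred
      E hE u hu hdiv huO hured

end Fermat.Agent.S34

end
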