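import Mathlib
import Fermat.Agent.S34.h87_Top
import Fermat.Agent.S34.h60_Pair
import Fermat.Agent.S34.h70_UnipDescent

/-!
# S34 row TOP at level `Mq`: the geometric target from the chart package for `(h60_R1, h60_R2)`

* `h87_D M q hqM A hA` : THE lattice datum of `F(Mq)` at a valuation ring `A` of `ℚ̄` over
  `q ∤ M`: `h22_latOfPair (h60_R1 ..) (h60_R2 ..) A (residue A) ..`, i.e. `O = O₁ ∩ O₂`,
  `red = (red₁, red₂) : O → Fb(M) × Fb(M)`;
* `h87_inertiaSet N A` : the semilinear automorphisms of `F(N)` induced by the inertia group of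
  `A`;
* `h87_unipGeom_of_chart` : `h29_UnipGeom (M * q) q` from an orthonormal frame and the chart
  package `h87_ChartProp` for `h87_D`;
* `h87_geom_of_chart` : the target `<geom>` of `Fermat/Agent/S34.lean`
  (`∀ N q, q.Prime → q ∣ N → ¬ q ^ 2 ∣ N → h29_UnipGeom N q`) from the same two inputs at the
  levels carrying a chart (`5 ≤ q ∨ 2 ∣ M ∨ 3 ∣ M`).
-/

set_option autoImplicit false

noncomputable section

open AlgebraicCurve ModularCurve Module
open Fermat.Agent.S18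

namespace Fermat.Agent.S34

local notation "Qb" => AlgebraicClosure ℚ

/-- The semilinear automorphisms of `F(N)` induced by the inertia group of `A`. -/
def h87_inertiaSet (N : ℕ) (A : ValuationSubring Qb) :
    Set (SemilinearAut Qb (modularFunctionFieldBar N)) :=
  {g' | ∃ τ ∈ A.inertiaSubgroupIn ℚ, g' = arithmeticGalois (modularFunctionFieldFull N) τ}

section Mq

variable (M q : ℕ) [NeZero M] [NeZero q] [Fact q.Prime] (hqM : ¬ q ∣ M)
  (A : ValuationSubring Qb) (hA : A.LiesOverPrime q)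

theorem h87_R1_resK (a : Qb) (ha : a ∈ A) :
    (h60_R1 M q hqM A hA).resK a = IsLocalRing.residue A ⟨a, ha⟩ := by
  have ha' : a ∈ (h60_R1 M q hqM A hA).A := by
    rw [h60_R1_A]
    exact ha
  rw [(h60_R1 M q hqM A hA).resK_of_mem ha']
  exact h60_R1_res M q hqM A hA a ha' ha

theorem h87_R2_resK (a : Qb) (ha : a ∈ A) :
    (h60_R2 M q hqM A hA).resK a = IsLocalRing.residue A ⟨a, ha⟩ := by
  have ha' : a ∈ (h60_R2 M q hqM A hA).A := by
    rw [h60_R2_A]
    exact ha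
  rw [(h60_R2 M q hqM A hA).resK_of_mem ha']
  exact h60_R2_res M q hqM A hA a ha' ha

/-- **The lattice datum of `F(Mq)` at `A`**: `O = O₁ ∩ O₂`, `red = (red₁, red₂)`. -/
def h87_D : h22_Lat Qb ↥(modularFunctionFieldBar (M * q)) (IsLocalRing.ResidueField A)
    (↥(modularFunctionFieldFullC (IsLocalRing.ResidueField A) M) ×
      ↥(modularFunctionFieldFullC (IsLocalRing.ResidueField A) M)) :=
  h22_latOfPair (h60_R1 M q hqM A hA) (h60_R2 M q hqM A hA) A (IsLocalRing.residue A)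
    IsLocalRing.residue_surjective (h60_R1_A M q hqM A hA) (h60_R2_A M q hqM A hA)
    (h87_R1_resK M q hqM A hA) (h87_R2_resK M q hqM A hA)

theorem h87_D_mem {f : ↥(modularFunctionFieldBar (M * q))} :
    f ∈ (h87_D M q hqM A hA).O ↔
      f ∈ (h60_R1 M q hqM A hA).O ∧ f ∈ (h60_R2 M q hqM A hA).O := Iff.rfl

theorem h87_D_A : (h87_D M q hqM A hA).A = A := rfl

theorem h87_D_redF {f : ↥(modularFunctionFieldBar (M * q))}
    (hf₁ : f ∈ (h60_R1 M q hqM A hA).O) (hf₂ : f ∈ (h60_R2 M q hqM A hA).O) :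
    (h87_D M q hqM A hA).redF f =
      ((h60_R1 M q hqM A hA).redF f, (h60_R2 M q hqM A hA).redF f) :=
  h22_latOfPair_redF _ _ _ _ _ _ _ _ _ hf₁ hf₂

/-- `hinv` for `h87_D`. -/
theorem h87_D_hinv (f : ↥(modularFunctionFieldBar (M * q))) (hf : f ∈ (h87_D M q hqM A hA).O)
    (hu : IsUnit ((h87_D M q hqM A hA).red ⟨f, hf⟩)) : f⁻¹ ∈ (h87_D M q hqM A hA).O :=
  h87_pair_hinv _ _ _ _ _ _ _ _ _ f hf hu

/-- `hgO ∧ hgred` for `h87_D` and an inertia element. -/
theorem h87_D_gal (τ : Qb ≃ₐ[ℚ] Qb) (hτ : τ ∈ A.inertiaSubgroupIn ℚ) :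
    (∀ f, f ∈ (h87_D M q hqM A hA).O →
        arithmeticGalois (modularFunctionFieldFull (M * q)) τ • f ∈ (h87_D M q hqM A hA).O) ∧
      (∀ f, f ∈ (h87_D M q hqM A hA).O →
        (h87_D M q hqM A hA).redF (arithmeticGalois (modularFunctionFieldFull (M * q)) τ • f) =
          (h87_D M q hqM A hA).redF f) :=
  h87_pair_gal _ _ _ _ _ _ _ _ _ (arithmeticGalois (modularFunctionFieldFull (M * q)) τ)
    (fun f hf => h60_R1_galois M q hqM A hA τ hτ f hf)
    (fun f hf => h60_R2_galois M q hqM A hA τ hτ f hf)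

end Mq

/-- **S34 TOP at level `Mq`.** -/
theorem h87_unipGeom_of_chart (M q : ℕ) [NeZero M] [NeZero q] [Fact q.Prime] (hqM : ¬ q ∣ M)
    (hchart : ∀ (A : ValuationSubring Qb) (hA : A.LiesOverPrime q) (m : ℕ), ¬ q ∣ m →
      h22_ON (h87_D M q hqM A hA) ∧
        h87_ChartProp (h87_D M q hqM A hA) m (h87_inertiaSet (M * q) A)) :
    h29_UnipGeom (M * q) q := by
  refine h87_unipGeom_of_pair (M * q) q Fact.out (fun A hA m hm => ?_)
  obtain ⟨hON, hC⟩ := hchart A hA m hm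
  exact ⟨_, inferInstance, inferInstance, h60_R1 M q hqM A hA, h60_R2 M q hqM A hA,
    h60_R1_A M q hqM A hA, h60_R2_A M q hqM A hA, h87_R1_resK M q hqM A hA,
    h87_R2_resK M q hqM A hA, h60_exists_sep M q hqM A hA,
    fun τ hτ f hf => h60_R1_galois M q hqM A hA τ hτ f hf,
    fun τ hτ f hf => h60_R2_galois M q hqM A hA τ hτ f hf, hON, hC⟩

/-- **S34: the target `<geom>` from the chart package at the charted levels.** -/
theorem h87_geom_of_chart
    (hchart : ∀ (M q : ℕ) [NeZero M] [NeZero q] [Fact q.Prime] (hqM : ¬ q ∣ M),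
      (5 ≤ q ∨ 2 ∣ M ∨ 3 ∣ M) →
      ∀ (A : ValuationSubring Qb) (hA : A.LiesOverPrime q) (m : ℕ), ¬ q ∣ m →
        h22_ON (h87_D M q hqM A hA) ∧
          h87_ChartProp (h87_D M q hqM A hA) m (h87_inertiaSet (M * q) A))
    (N q : ℕ) [NeZero N] (hq : q.Prime) (hqN : q ∣ N) (hq2 : ¬ q ^ 2 ∣ N) :
    h29_UnipGeom N q := by
  refine h70_unipGeom_reduce (fun M q _ _ hq' hqM hch => ?_) N q hq hqN hq2
  have : Fact q.Prime := ⟨hq'⟩
  exact h87_unipGeom_of_chart M q hqM (fun A hA m hm => hchart M q hqM hch A hA m hm)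

end Fermat.Agent.S34

end
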