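/-
S34 (helper10): X-MOD, the instance for the canonical lattice `h87_D M q hqM A hA`
(`O = O₁ ∩ O₂`, `red = (red₁, red₂)`, `R₂ = R₁ ∘ w`, `w = h60_w`), in the binder shapes of
`h87_chartProp_of_rows` / `h51_G_of_sf`.

* `h10_D0_nonneg`, `h10_D0_degree`, `h10_D0_inertia` : the cuspidal divisor `D0 = (∞) + (0')` is
  effective of degree `2` and fixed by the inertia set;
* `h10_xmod_inst` : for all large `ν` the chart unit `x = α(b_ν) β(b_ν)`: `x ≠ 0`, `x, x⁻¹ ∈ O`,
  `div x = E2 - ((q+1)ν) • D0` with `E2 ≥ 0` disjoint from `D0`, and both coordinates of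
  `D.redF x` are nonzero with a pole of exact order `(q+1)ν` at the cusp of the special fibre.
-/
import Mathlib
import Fermat.Agent.S34.h10_XMod
import Fermat.Agent.S34.h87_TopMq

set_option autoImplicit false
set_option synthInstance.maxHeartbeats 400000
set_option linter.style.haveILetI false

noncomputable section

namespace Fermat.Agent.S34

open AlgebraicCurve HahnSeries ModularCurve IntermediateField
open Fermat.Agent.S24 Fermat.Agent.S18 Fermat.Agent.S37

local notation "Qb" => AlgebraicClosure ℚ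

section D0

variable {K F : Type*} [Field K] [Field F] [Algebra K F]

/-- `(P₁) + (P₂)` is effective. -/
theorem h10_D0_nonneg (P₁ P₂ : Place K F) :
    0 ≤ (Finsupp.single P₁ (1 : ℤ) + Finsupp.single P₂ (1 : ℤ) : Divisor K F) := by
  classical
  intro v
  rw [Finsupp.add_apply, Finsupp.single_apply, Finsupp.single_apply]
  show (0 : ℤ) ≤ _
  split_ifs <;> norm_num

/-- `(P₁) + (P₂)` has degree `2` when all places have degree `1`. -/
theorem h10_D0_degree (hdeg : ∀ P : Place K F, P.deg = 1) (P₁ P₂ : Place K F) :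
    Divisor.degree (Finsupp.single P₁ (1 : ℤ) + Finsupp.single P₂ (1 : ℤ) : Divisor K F) = 2 := by
  rw [map_add, Divisor.degree_single, Divisor.degree_single, hdeg P₁, hdeg P₂]
  norm_num

end D0

section Inst

variable (M q : ℕ) [NeZero M] [NeZero q] [Fact q.Prime] (hqM : ¬ q ∣ M)
  (A : ValuationSubring Qb) (hA : A.LiesOverPrime q)

/-- The cuspidal divisor is fixed by the arithmetic Galois action (all `σ`). -/
theorem h10_D0_galois (σ : Qb ≃ₐ[ℚ] Qb)
    {Pinf P0 : Place Qb ↥(modularFunctionFieldBar (M * q))}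
    (hPinf : h10_IsCusp (modularFunctionFieldBar (M * q)) Pinf)
    (hP0 : h10_IsCusp0 M q (h60_w M q hqM) P0) :
    arithmeticGalois (modularFunctionFieldFull (M * q)) σ •
        (Finsupp.single Pinf (1 : ℤ) + Finsupp.single P0 (1 : ℤ) :
          Divisor Qb ↥(modularFunctionFieldBar (M * q)))
      = Finsupp.single Pinf (1 : ℤ) + Finsupp.single P0 (1 : ℤ) :=
  h10_hgD0 (h60_w M q hqM) (fun τ x => h60_w_galois M q hqM τ x) σ hPinf hP0

/-- **`hG`**: the cuspidal divisor is fixed by the inertia set. -/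
theorem h10_D0_inertia
    {Pinf P0 : Place Qb ↥(modularFunctionFieldBar (M * q))}
    (hPinf : h10_IsCusp (modularFunctionFieldBar (M * q)) Pinf)
    (hP0 : h10_IsCusp0 M q (h60_w M q hqM) P0) :
    ∀ g' ∈ h87_inertiaSet (M * q) A,
      g' • (Finsupp.single Pinf (1 : ℤ) + Finsupp.single P0 (1 : ℤ) :
          Divisor Qb ↥(modularFunctionFieldBar (M * q)))
        = Finsupp.single Pinf (1 : ℤ) + Finsupp.single P0 (1 : ℤ) := by
  rintro g' ⟨τ, -, rfl⟩
  exact h10_D0_galois M q hqM τ hPinf hP0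

/-- **X-MOD for the canonical lattice** `D = h87_D M q hqM A hA`, in the binder shapes of
`h87_chartProp_of_rows` (`c := (q + 1) * ν`, `D0 := (∞) + (0')`). -/
theorem h10_xmod_inst (hch : 5 ≤ q ∨ 2 ∣ M ∨ 3 ∣ M)
    {Pinf P0 : Place Qb ↥(modularFunctionFieldBar (M * q))}
    (hPinf : h10_IsCusp (modularFunctionFieldBar (M * q)) Pinf)
    (hP0 : h10_IsCusp0 M q (h60_w M q hqM) P0)
    {Qinf : Place (IsLocalRing.ResidueField A)
      ↥(modularFunctionFieldFullC (IsLocalRing.ResidueField A) M)}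
    (hQ : h10_IsCusp (modularFunctionFieldFullC (IsLocalRing.ResidueField A) M) Qinf) :
    ∃ ν₀ : ℕ, ∀ ν : ℕ, ν₀ ≤ ν → ∃ (x : ↥(modularFunctionFieldBar (M * q)))
      (E2 : Divisor Qb ↥(modularFunctionFieldBar (M * q))),
      x ≠ 0 ∧ x ∈ (h87_D M q hqM A hA).O ∧ x⁻¹ ∈ (h87_D M q hqM A hA).O ∧
      (∀ v, 0 ≤ E2 v) ∧
      (∀ v, (((q + 1) * ν) • (Finsupp.single Pinf (1 : ℤ) + Finsupp.single P0 (1 : ℤ) :
        Divisor Qb ↥(modularFunctionFieldBar (M * q)))) v = 0 ∨ E2 v = 0) ∧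
      (∀ v : Place Qb ↥(modularFunctionFieldBar (M * q)),
        v.ord x = E2 v - (((q + 1) * ν) • (Finsupp.single Pinf (1 : ℤ) +
          Finsupp.single P0 (1 : ℤ) : Divisor Qb ↥(modularFunctionFieldBar (M * q)))) v) ∧
      ((h87_D M q hqM A hA).redF x).1 ≠ 0 ∧ ((h87_D M q hqM A hA).redF x).2 ≠ 0 ∧
      Qinf.ord ((h87_D M q hqM A hA).redF x).1 = -(((q + 1) * ν : ℕ) : ℤ) ∧
      Qinf.ord ((h87_D M q hqM A hA).redF x).2 = -(((q + 1) * ν : ℕ) : ℤ) := by
  haveI : IsAlgClosed (IsLocalRing.ResidueField A) := h19_residueField_isAlgClosed A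
  haveI : CharP (IsLocalRing.ResidueField A) q := h19_residueField_charP A q hA
  have hPM : h10_IsCusp (modularFunctionFieldBar M) (h11_placeInfty M) :=
    fun f hf => h11_placeInfty_ord M hf
  have hRM := h39_modRed_spec M hqM A hA
  obtain ⟨ν₀, h⟩ := h10_exists_b M hqM A hA hch hPM hQ
  refine ⟨ν₀, fun ν hν => ?_⟩
  obtain ⟨b, hb, hb0, hbi, hbord, hreg, -, hrne, hrord, -⟩ := h ν hν
  obtain ⟨-, hx0, -, E2, hE2, hdisj, hdivx⟩ :=
    h10_xmod_div (h60_w M q hqM) (h60_w_alpha M q hqM) (h60_w_beta M q hqM) (h60_w_w M q hqM)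
      (Fact.out : q.Prime) hqM hPM hPinf hP0 b hb0 ν hbord hreg
  obtain ⟨⟨hx1, hx2⟩, ⟨hxi1, hxi2⟩⟩ :=
    h10_xmod_mem q hqM hA hRM (h60_w M q hqM) (h60_w_alpha M q hqM) (h60_w_beta M q hqM)
      (h60_R2 M q hqM A hA) (fun f => h60_R2_mem_iff M q hqM A hA f) b hb hbi
  obtain ⟨hr1, hr2⟩ :=
    h10_xmod_red q hqM hA hRM (h60_w M q hqM) (h60_w_alpha M q hqM) (h60_w_beta M q hqM)
      (h60_R2 M q hqM A hA) (fun f => h60_R2_mem_iff M q hqM A hA f)
      (fun f _ => h60_R2_redF M q hqM A hA f) b hb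
  have hred := h87_D_redF M q hqM A hA hx1 hx2
  have hphi : h60_phi M q (IsLocalRing.ResidueField A) ((h39_modRed M hqM A hA).red ⟨b, hb⟩) ≠ 0 :=
    (map_ne_zero _).mpr hrne
  have hcne : (h39_modRed M hqM A hA).red ⟨b, hb⟩ *
      h60_phi M q (IsLocalRing.ResidueField A) ((h39_modRed M hqM A hA).red ⟨b, hb⟩) ≠ 0 :=
    mul_ne_zero hrne hphi
  have hord : Qinf.ord ((h39_modRed M hqM A hA).red ⟨b, hb⟩ *
      h60_phi M q (IsLocalRing.ResidueField A) ((h39_modRed M hqM A hA).red ⟨b, hb⟩))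
      = -(((q + 1) * ν : ℕ) : ℤ) := by
    rw [h10_xbar_ord q hQ _ hrne, ← hQ _ hrne, hrord]
    push_cast
    ring
  refine ⟨_, E2, hx0, ⟨hx1, hx2⟩, ⟨hxi1, hxi2⟩, hE2, hdisj, hdivx, ?_, ?_, ?_, ?_⟩
  · rw [hred, hr1]
    exact hcne
  · rw [hred, hr2]
    exact hcne
  · rw [hred, hr1]
    exact hord
  · rw [hred, hr2]
    exact hord

end Inst

end Fermat.Agent.S34

end
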