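import Mathlib
import Fermat.Agent.S18.GR_Integral
import Fermat.Agent.S34.h22_LatFamily

/-!
# S34 / integrality transfer on a lattice datum (helper22)

Port of S18 `GR_Integral` (GR3, `h66_*`) from a reduction datum with a *valuation ring* to a
lattice datum `D : h22_Lat K F k Rb` (a subring `O`, reduction into a `k`-algebra `Rb`), with a
chart `x` (Gauss hypotheses `hG`, `hU`) and a `K(x)`-frame `b` (`hb`):

* `h22_gaussRing` : `K(x) ∩ O` is a valuation ring of `K(x)`;
* `h22_isIntegral_gaussRing` : `O` is integral over it;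
* `h22_exists_monic_eq` : an element of `O` integral over `K[x]` satisfies a monic equation with
  coefficients in `A[x]`;
* `h22_red_eq`, `h22_isIntegral_red` : its reduction is integral over `k[x̄]` in `Rb`;
* `h22_eval_root`, `h22_eval_integral` : (EV) its values at the places `P` with `x(P) ∈ A` lie
  in `A`;
* `h22_ord_eq_zero_of_red_one` : if moreover its reduction is `1`, it is a unit at those places.

Pair / family versions (`h22_pair_*`, `h22_fam_*`) for `h22_latOfPair`, `h22_latOfFamily`: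
componentwise integrality of the reductions.
-/

set_option autoImplicit false

noncomputable section

open AlgebraicCurve IntermediateField Polynomial Module
open Fermat.Agent.S18

namespace Fermat.Agent.S34

section Abs

variable {K F k Rb : Type*} [Field K] [Field F] [Algebra K F] [Field k] [CommRing Rb]
  [Algebra k Rb]

/-! ### The Gauss ring -/

/-- The Gauss ring `K(x) ∩ O`: a valuation ring of `K(x)` because every nonzero polynomial in
`x` is a constant times a unit of `O` (`hU`). -/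
def h22_gaussRing (D : h22_Lat K F k Rb) (x : F)
    (hU : ∀ p : K[X], aeval x p ≠ 0 → ∃ c : K, c ≠ 0 ∧ algebraMap K F c * aeval x p ∈ D.O ∧
      (algebraMap K F c * aeval x p)⁻¹ ∈ D.O) : ValuationSubring K⟮x⟯ :=
  { D.O.comap (algebraMap K⟮x⟯ F) with
    mem_or_inv_mem' := by
      intro c
      obtain ⟨p, q, hc⟩ := (IntermediateField.mem_adjoin_simple_iff K (c : F)).mp c.2
      by_cases hp : aeval x p = 0
      · left
        show ((c : K⟮x⟯) : F) ∈ D.O
        rw [hc, hp, zero_div]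
        exact D.O.zero_mem
      by_cases hq : aeval x q = 0
      · left
        show ((c : K⟮x⟯) : F) ∈ D.O
        rw [hc, hq, div_zero]
        exact D.O.zero_mem
      obtain ⟨c₁, hc₁, hu₁, hu₁'⟩ := hU p hp
      obtain ⟨c₂, hc₂, hu₂, hu₂'⟩ := hU q hq
      have hc₁F : algebraMap K F c₁ ≠ 0 := by
        rw [Ne, map_eq_zero]
        exact hc₁
      have hc₂F : algebraMap K F c₂ ≠ 0 := by
        rw [Ne, map_eq_zero]
        exact hc₂
      rcases D.A.mem_or_inv_mem (c₂ / c₁) with h | h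
      · left
        show ((c : K⟮x⟯) : F) ∈ D.O
        have h1 : (c : F) = algebraMap K F (c₂ / c₁) *
            ((algebraMap K F c₁ * aeval x p) * (algebraMap K F c₂ * aeval x q)⁻¹) := by
          rw [hc, map_div₀]
          field_simp
        rw [h1]
        exact D.O.mul_mem ((D.mem_iff _).mp h) (D.O.mul_mem hu₁ hu₂')
      · right
        show ((c⁻¹ : K⟮x⟯) : F) ∈ D.O
        have h1 : ((c⁻¹ : K⟮x⟯) : F) = algebraMap K F (c₂ / c₁)⁻¹ *
            ((algebraMap K F c₂ * aeval x q) * (algebraMap K F c₁ * aeval x p)⁻¹) := by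
          rw [IntermediateField.coe_inv, hc, map_inv₀, map_div₀]
          field_simp
        rw [h1]
        exact D.O.mul_mem ((D.mem_iff _).mp h) (D.O.mul_mem hu₂ hu₁') }

theorem h22_mem_gaussRing (D : h22_Lat K F k Rb) (x : F)
    (hU : ∀ p : K[X], aeval x p ≠ 0 → ∃ c : K, c ≠ 0 ∧ algebraMap K F c * aeval x p ∈ D.O ∧
      (algebraMap K F c * aeval x p)⁻¹ ∈ D.O) (c : K⟮x⟯) :
    c ∈ h22_gaussRing D x hU ↔ (c : F) ∈ D.O := Iff.rfl

/-- the elements of a frame lie in `O` -/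
theorem h22_frame_mem (D : h22_Lat K F k Rb) {x : F} {ι : Type*} [Finite ι]
    (b : Module.Basis ι K⟮x⟯ F)
    (hb : ∀ f : F, f ∈ D.O ↔ ∀ i, ((b.repr f i : K⟮x⟯) : F) ∈ D.O) (i : ι) : b i ∈ D.O := by
  classical
  rw [hb]
  intro j
  rw [b.repr_self, Finsupp.single_apply]
  split_ifs
  · exact D.O.one_mem
  · exact D.O.zero_mem

/-- With a frame, `O` is a finite module over `K(x) ∩ O`, hence integral. -/
theorem h22_isIntegral_gaussRing (D : h22_Lat K F k Rb) (x : F)
    (hU : ∀ p : K[X], aeval x p ≠ 0 → ∃ c : K, c ≠ 0 ∧ algebraMap K F c * aeval x p ∈ D.O ∧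
      (algebraMap K F c * aeval x p)⁻¹ ∈ D.O)
    {ι : Type*} [Finite ι] (b : Module.Basis ι K⟮x⟯ F)
    (hb : ∀ f : F, f ∈ D.O ↔ ∀ i, ((b.repr f i : K⟮x⟯) : F) ∈ D.O)
    {f : F} (hf : f ∈ D.O) : IsIntegral (h22_gaussRing D x hU) f := by
  classical
  have := Fintype.ofFinite ι
  let N : Submodule (h22_gaussRing D x hU) F :=
    Submodule.span (h22_gaussRing D x hU) (Set.range b)
  have hNO : ∀ g ∈ N, g ∈ D.O := by
    intro g hg
    induction hg using Submodule.span_induction with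
    | mem y hy =>
      obtain ⟨i, rfl⟩ := hy
      exact h22_frame_mem D b hb i
    | zero => exact D.O.zero_mem
    | add y z _ _ hy hz => exact D.O.add_mem hy hz
    | smul s y _ hy =>
      rw [Algebra.smul_def]
      exact D.O.mul_mem s.2 hy
  have hON : ∀ g ∈ D.O, g ∈ N := by
    intro g hg
    rw [← b.sum_repr g]
    refine Submodule.sum_mem _ fun i _ => ?_
    have h1 : (b.repr g i) • b i =
        (⟨b.repr g i, (hb g).mp hg i⟩ : h22_gaussRing D x hU) • b i := rfl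
    rw [h1]
    exact Submodule.smul_mem _ _ (Submodule.subset_span ⟨i, rfl⟩)
  refine isIntegral_of_smul_mem_submodule N ?_ ?_ f ?_
  · intro h
    have h1 : (1 : F) ∈ N := hON 1 D.O.one_mem
    rw [h] at h1
    exact one_ne_zero ((Submodule.mem_bot _).1 h1)
  · exact Submodule.fg_span (Set.finite_range b)
  · intro n hn
    exact hON _ (D.O.mul_mem hf (hNO n hn))

/-- The coefficients of the minimal polynomial over `K(x)` of an element of `O` lie in `O`. -/
theorem h22_minpoly_coeff_mem_O (D : h22_Lat K F k Rb) (x : F)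
    (hU : ∀ p : K[X], aeval x p ≠ 0 → ∃ c : K, c ≠ 0 ∧ algebraMap K F c * aeval x p ∈ D.O ∧
      (algebraMap K F c * aeval x p)⁻¹ ∈ D.O)
    {ι : Type*} [Finite ι] (b : Module.Basis ι K⟮x⟯ F)
    (hb : ∀ f : F, f ∈ D.O ↔ ∀ i, ((b.repr f i : K⟮x⟯) : F) ∈ D.O)
    {f : F} (hf : f ∈ D.O) (n : ℕ) : (((minpoly K⟮x⟯ f).coeff n : K⟮x⟯) : F) ∈ D.O := by
  have h := minpoly.isIntegrallyClosed_eq_field_fractions' K⟮x⟯
    (h22_isIntegral_gaussRing D x hU b hb hf)
  rw [h, Polynomial.coeff_map]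
  exact ((minpoly (h22_gaussRing D x hU) f).coeff n).2

/-! ### The monic equation -/

/-- The evaluation `A[X] → F`, `p ↦ p(x)`. -/
abbrev h22_evalF (A : ValuationSubring K) (x : F) : Polynomial A →+* F :=
  ((aeval x : K[X] →ₐ[K] F) : K[X] →+* F).comp (Polynomial.mapRingHom (algebraMap A K))

theorem h22_evalF_apply (A : ValuationSubring K) (x : F) (p : Polynomial A) :
    h22_evalF A x p = aeval x (p.map (algebraMap A K)) := rfl

/-- **(INT-EQ)** an element of `O` integral over `K[x]` satisfies a monic equation with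
coefficients in `A[x]`. -/
theorem h22_exists_monic_eq (D : h22_Lat K F k Rb) {x : F} (htr : Transcendental K x)
    (hG : ∀ p : K[X], aeval x p ∈ D.O ↔ ∀ i, p.coeff i ∈ D.A)
    (hU : ∀ p : K[X], aeval x p ≠ 0 → ∃ c : K, c ≠ 0 ∧ algebraMap K F c * aeval x p ∈ D.O ∧
      (algebraMap K F c * aeval x p)⁻¹ ∈ D.O)
    {ι : Type*} [Finite ι] (b : Module.Basis ι K⟮x⟯ F)
    (hb : ∀ f : F, f ∈ D.O ↔ ∀ i, ((b.repr f i : K⟮x⟯) : F) ∈ D.O)
    {f : F} (hf : f ∈ D.O) (hint : IsIntegral (Algebra.adjoin K {x}) f) :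
    ∃ G : Polynomial (Polynomial D.A), G.Monic ∧
      Polynomial.eval₂ (h22_evalF D.A x) f G = 0 := by
  have hint' : IsIntegral K⟮x⟯ f := by
    have := Module.Finite.of_basis b
    exact Algebra.IsIntegral.isIntegral f
  set P : F[X] := (minpoly K⟮x⟯ f).map (algebraMap K⟮x⟯ F) with hP
  have hPm : P.Monic := (minpoly.monic hint').map _
  have hlift : P ∈ Polynomial.lifts (h22_evalF D.A x) := by
    rw [Polynomial.lifts_iff_coeff_lifts]
    intro n
    rw [hP, Polynomial.coeff_map]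
    have h1 := h22_minpoly_coeff_mem_O D x hU b hb hf n
    have h2 := h66_minpoly_coeff_mem_adjoin htr hint n
    rw [Algebra.adjoin_singleton_eq_range_aeval] at h2
    obtain ⟨p, hp⟩ := h2
    have hp' : aeval x p = (((minpoly K⟮x⟯ f).coeff n : K⟮x⟯) : F) := hp
    have hpA := (hG p).mp (by rw [hp']; exact h1)
    have hpl : p ∈ Polynomial.lifts (algebraMap D.A K) := by
      rw [Polynomial.lifts_iff_coeff_lifts]
      intro i
      exact ⟨⟨p.coeff i, hpA i⟩, rfl⟩
    obtain ⟨q, hq⟩ := hpl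
    refine ⟨q, ?_⟩
    rw [h22_evalF_apply]
    have hq' : q.map (algebraMap D.A K) = p := hq
    rw [hq', hp']
    rfl
  obtain ⟨G, hG1, -, hGm⟩ := Polynomial.lifts_and_natDegree_eq_and_monic hlift hPm
  refine ⟨G, hGm, ?_⟩
  rw [← Polynomial.eval_map, hG1, hP, Polynomial.eval_map, ← Polynomial.aeval_def, minpoly.aeval]

/-! ### Reduction of a monic equation -/

/-- The evaluation `k[X] → S`, `p ↦ p(y)`. -/
abbrev h22_evalS (k : Type*) {S : Type*} [Field k] [CommRing S] [Algebra k S] (y : S) :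
    Polynomial k →+* S :=
  ((aeval y : k[X] →ₐ[k] S) : k[X] →+* S)

/-- The evaluation `A[X] → O`, `p ↦ p(x)`. -/
def h22_evalO (D : h22_Lat K F k Rb) {x : F} (hx : x ∈ D.O) : Polynomial D.A →+* D.O :=
  Polynomial.eval₂RingHom
    (((algebraMap K F).comp D.A.subtype).codRestrict D.O (fun a => (D.mem_iff a).mp a.2))
    ⟨x, hx⟩

theorem h22_evalO_coe (D : h22_Lat K F k Rb) {x : F} (hx : x ∈ D.O) :
    D.O.subtype.comp (h22_evalO D hx) = h22_evalF D.A x := by
  apply Polynomial.ringHom_ext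
  · intro a
    rw [RingHom.comp_apply, h22_evalF_apply, Polynomial.map_C, aeval_C]
    show ((Polynomial.eval₂RingHom _ _ (C a) : D.O) : F) = _
    rw [Polynomial.coe_eval₂RingHom, Polynomial.eval₂_C]
    rfl
  · rw [RingHom.comp_apply, h22_evalF_apply, Polynomial.map_X, aeval_X]
    show ((Polynomial.eval₂RingHom _ _ X : D.O) : F) = _
    rw [Polynomial.coe_eval₂RingHom, Polynomial.eval₂_X]

theorem h22_red_evalO (D : h22_Lat K F k Rb) {x : F} (hx : x ∈ D.O) :
    D.red.comp (h22_evalO D hx) =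
      (h22_evalS k (D.redF x)).comp (Polynomial.mapRingHom D.res) := by
  apply Polynomial.ringHom_ext
  · intro a
    have h1 : h22_evalO D hx (C a) = ⟨algebraMap K F (a : K), (D.mem_iff a).mp a.2⟩ := by
      unfold h22_evalO
      rw [Polynomial.coe_eval₂RingHom, Polynomial.eval₂_C]
      rfl
    rw [RingHom.comp_apply, h1, D.red_algebraMap (a : K) a.2, RingHom.comp_apply,
      Polynomial.coe_mapRingHom, Polynomial.map_C]
    show _ = aeval (D.redF x) (C (D.res a))
    rw [aeval_C]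
  · have h1 : h22_evalO D hx X = ⟨x, hx⟩ := by
      unfold h22_evalO
      rw [Polynomial.coe_eval₂RingHom, Polynomial.eval₂_X]
    rw [RingHom.comp_apply, h1, ← D.redF_of_mem hx, RingHom.comp_apply,
      Polynomial.coe_mapRingHom, Polynomial.map_X]
    show _ = aeval (D.redF x) X
    rw [aeval_X]

/-- An equation `G(x, f) = 0` with `G ∈ A[X][T]`, `x, f ∈ O` reduces to `Ḡ(x̄, f̄) = 0`. -/
theorem h22_red_eq (D : h22_Lat K F k Rb) {x f : F} (hx : x ∈ D.O) (hf : f ∈ D.O)
    (G : Polynomial (Polynomial D.A)) (hG0 : Polynomial.eval₂ (h22_evalF D.A x) f G = 0) :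
    Polynomial.eval₂ (h22_evalS k (D.redF x)) (D.redF f)
      (G.map (Polynomial.mapRingHom D.res)) = 0 := by
  have h1 : Polynomial.eval₂ (h22_evalO D hx) (⟨f, hf⟩ : D.O) G = 0 := by
    apply Subtype.ext
    have h2 := Polynomial.hom_eval₂ G (h22_evalO D hx) D.O.subtype ⟨f, hf⟩
    rw [h22_evalO_coe D hx] at h2
    have h3 : D.O.subtype ⟨f, hf⟩ = f := rfl
    rw [h3, hG0] at h2
    exact h2
  have h4 := congrArg D.red h1
  rw [Polynomial.hom_eval₂, map_zero, h22_red_evalO D hx] at h4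
  rw [Polynomial.eval₂_map, D.redF_of_mem hf]
  exact h4

/-- A root of a monic polynomial over `k[y]` is integral over `k[y]`. -/
theorem h22_isIntegral_of_eval₂ {k S : Type*} [Field k] [CommRing S] [Algebra k S] (y z : S)
    (H : Polynomial (Polynomial k)) (hm : H.Monic)
    (h0 : Polynomial.eval₂ (h22_evalS k y) z H = 0) :
    IsIntegral (Algebra.adjoin k {y}) z := by
  let y' : Algebra.adjoin k {y} := ⟨y, Algebra.self_mem_adjoin_singleton k _⟩
  let ψ : Polynomial k →+* Algebra.adjoin k {y} :=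
    ((aeval y' : k[X] →ₐ[k] Algebra.adjoin k {y}) : k[X] →+* Algebra.adjoin k {y})
  have hψ : (algebraMap (Algebra.adjoin k {y}) S).comp ψ = h22_evalS k y := by
    refine RingHom.ext fun p => ?_
    exact (Polynomial.aeval_algebraMap_apply S y' p).symm
  refine ⟨H.map ψ, hm.map _, ?_⟩
  rw [Polynomial.eval₂_map, hψ]
  exact h0

/-- **(I1), ring form**: the reduction of an element of `O` integral over `K[x]` is integral
over `k[x̄]` in `Rb`. -/
theorem h22_isIntegral_red (D : h22_Lat K F k Rb) {x : F} (htr : Transcendental K x)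
    (hx : x ∈ D.O)
    (hG : ∀ p : K[X], aeval x p ∈ D.O ↔ ∀ i, p.coeff i ∈ D.A)
    (hU : ∀ p : K[X], aeval x p ≠ 0 → ∃ c : K, c ≠ 0 ∧ algebraMap K F c * aeval x p ∈ D.O ∧
      (algebraMap K F c * aeval x p)⁻¹ ∈ D.O)
    {ι : Type*} [Finite ι] (b : Module.Basis ι K⟮x⟯ F)
    (hb : ∀ f : F, f ∈ D.O ↔ ∀ i, ((b.repr f i : K⟮x⟯) : F) ∈ D.O)
    {f : F} (hf : f ∈ D.O) (hint : IsIntegral (Algebra.adjoin K {x}) f) :
    IsIntegral (Algebra.adjoin k {D.redF x}) (D.redF f) := by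
  obtain ⟨G, hGm, hG0⟩ := h22_exists_monic_eq D htr hG hU b hb hf hint
  exact h22_isIntegral_of_eval₂ _ _ _ (hGm.map _) (h22_red_eq D hx hf G hG0)

/-- Integrality over `k[y]` is preserved by `k`-algebra maps. -/
theorem h22_isIntegral_map {k S T : Type*} [Field k] [CommRing S] [Algebra k S] [CommRing T]
    [Algebra k T] (φ : S →ₐ[k] T) {y z : S} (h : IsIntegral (Algebra.adjoin k {y}) z) :
    IsIntegral (Algebra.adjoin k {φ y}) (φ z) := by
  obtain ⟨p, hpm, hp⟩ := h
  -- the restriction of `φ` to `k[y] → k[φ y]`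
  have hmem : ∀ s : Algebra.adjoin k {y}, φ (s : S) ∈ Algebra.adjoin k {φ y} := by
    intro s
    have h1 : (Algebra.adjoin k {y}).map φ = Algebra.adjoin k {φ y} := by
      rw [AlgHom.map_adjoin, Set.image_singleton]
    rw [← h1]
    exact ⟨s, s.2, rfl⟩
  let ψ : Algebra.adjoin k {y} →+* Algebra.adjoin k {φ y} :=
    ((φ : S →+* T).comp (algebraMap (Algebra.adjoin k {y}) S)).codRestrict
      (Algebra.adjoin k {φ y}).toSubring (fun s => hmem s)
  have hψ : (algebraMap (Algebra.adjoin k {φ y}) T).comp ψ =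
      (φ : S →+* T).comp (algebraMap (Algebra.adjoin k {y}) S) := by
    refine RingHom.ext fun s => ?_
    rfl
  refine ⟨p.map ψ, hpm.map _, ?_⟩
  rw [Polynomial.eval₂_map, hψ]
  have h2 := Polynomial.hom_eval₂ p (algebraMap (Algebra.adjoin k {y}) S) (φ : S →+* T) z
  rw [hp, map_zero] at h2
  exact h2.symm

/-- Integrality over `k[y]` is preserved by `k`-algebra maps (with the images named). -/
theorem h22_isIntegral_map' {k S T : Type*} [Field k] [CommRing S] [Algebra k S] [CommRing T]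
    [Algebra k T] (φ : S →ₐ[k] T) {y z : S} {y' z' : T} (hy : φ y = y') (hz : φ z = z')
    (h : IsIntegral (Algebra.adjoin k {y}) z) : IsIntegral (Algebra.adjoin k {y'}) z' := by
  subst hy hz
  exact h22_isIntegral_map φ h

/-! ### Values at places -/

/-- The evaluation `A[X] → K`, `p ↦ p(a)`. -/
abbrev h22_evalK (A : ValuationSubring K) (a : K) : Polynomial A →+* K :=
  Polynomial.eval₂RingHom (algebraMap A K) a

omit [Field k] in
/-- If `G(x, f) = 0`, `x(P) = a` and `f(P) = b`, then `G(a, b) = 0`. -/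
theorem h22_eval_root (A : ValuationSubring K) {x f : F} (P : Place K F) (a b : K)
    (hPa : x = algebraMap K F a ∨ 0 < P.ord (x - algebraMap K F a))
    (hPb : f = algebraMap K F b ∨ 0 < P.ord (f - algebraMap K F b))
    (G : Polynomial (Polynomial A)) (hG0 : Polynomial.eval₂ (h22_evalF A x) f G = 0) :
    Polynomial.eval₂ (h22_evalK A a) b G = 0 := by
  have hx : x ∈ P.toValuationSubring := h66_mem_of_value P hPa
  have hf : f ∈ P.toValuationSubring := h66_mem_of_value P hPb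
  let π := IsLocalRing.residue P.toValuationSubring
  let ιP : Polynomial A →+* P.toValuationSubring :=
    Polynomial.eval₂RingHom ((algebraMap K P.toValuationSubring).comp (algebraMap A K)) ⟨x, hx⟩
  have hc1 : P.toValuationSubring.subtype.comp ιP = h22_evalF A x := by
    apply Polynomial.ringHom_ext
    · intro c
      simp [ιP, h22_evalF]
    · simp [ιP, h22_evalF]
  have hc2 : π.comp ιP = (π.comp (algebraMap K P.toValuationSubring)).comp (h22_evalK A a) := by
    apply Polynomial.ringHom_ext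
    · intro c
      simp [ιP, h22_evalK]
    · have := h66_residue_of_value P hPa hx
      simp only [ιP, h22_evalK, RingHom.comp_apply, Polynomial.coe_eval₂RingHom,
        Polynomial.eval₂_X]
      exact this
  have h1 : Polynomial.eval₂ ιP (⟨f, hf⟩ : P.toValuationSubring) G = 0 := by
    apply Subtype.ext
    have h2 := Polynomial.hom_eval₂ G ιP P.toValuationSubring.subtype ⟨f, hf⟩
    rw [hc1] at h2
    have h3 : P.toValuationSubring.subtype ⟨f, hf⟩ = f := rfl
    rw [h3, hG0] at h2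
    exact h2
  have h4 := congrArg π h1
  rw [Polynomial.hom_eval₂, map_zero, hc2] at h4
  have h5 : π ⟨f, hf⟩ = (π.comp (algebraMap K P.toValuationSubring)) b :=
    h66_residue_of_value P hPb hf
  rw [h5, ← Polynomial.hom_eval₂] at h4
  exact (map_eq_zero_iff _ (RingHom.injective _)).1 h4

omit [Field k] in
/-- Values of a root of a monic equation over `A[x]` at places with `x(P) ∈ A` lie in `A`. -/
theorem h22_eval_integral_of_monic (A : ValuationSubring K) {x f : F}
    (G : Polynomial (Polynomial A)) (hGm : G.Monic)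
    (hG0 : Polynomial.eval₂ (h22_evalF A x) f G = 0)
    (P : Place K F) (a b : K) (ha : a ∈ A)
    (hPa : x = algebraMap K F a ∨ 0 < P.ord (x - algebraMap K F a))
    (hPb : f = algebraMap K F b ∨ 0 < P.ord (f - algebraMap K F b)) : b ∈ A := by
  have h0 := h22_eval_root A P a b hPa hPb G hG0
  have hI : IsIntegral A b := by
    refine ⟨G.map (Polynomial.evalRingHom (⟨a, ha⟩ : A)), hGm.map _, ?_⟩
    rw [Polynomial.eval₂_map]
    have hc : (algebraMap A K).comp (Polynomial.evalRingHom (⟨a, ha⟩ : A)) =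
        h22_evalK A a := by
      apply Polynomial.ringHom_ext
      · intro c
        simp [h22_evalK]
      · simp [h22_evalK]
    rw [hc]
    exact h0
  obtain ⟨y, hy⟩ := IsIntegrallyClosed.isIntegral_iff.1 hI
  rw [← hy]
  exact y.2

/-- **(EV)** values of `f ∈ O` integral over `K[x]` at the places of the unit disc `x(P) ∈ A`
lie in `A`. -/
theorem h22_eval_integral (D : h22_Lat K F k Rb) {x : F} (htr : Transcendental K x)
    (hG : ∀ p : K[X], aeval x p ∈ D.O ↔ ∀ i, p.coeff i ∈ D.A)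
    (hU : ∀ p : K[X], aeval x p ≠ 0 → ∃ c : K, c ≠ 0 ∧ algebraMap K F c * aeval x p ∈ D.O ∧
      (algebraMap K F c * aeval x p)⁻¹ ∈ D.O)
    {ι : Type*} [Finite ι] (b : Module.Basis ι K⟮x⟯ F)
    (hb : ∀ f : F, f ∈ D.O ↔ ∀ i, ((b.repr f i : K⟮x⟯) : F) ∈ D.O)
    {f : F} (hf : f ∈ D.O) (hint : IsIntegral (Algebra.adjoin K {x}) f)
    (P : Place K F) (a c : K) (ha : a ∈ D.A)
    (hPa : x = algebraMap K F a ∨ 0 < P.ord (x - algebraMap K F a))
    (hPc : f = algebraMap K F c ∨ 0 < P.ord (f - algebraMap K F c)) : c ∈ D.A := by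
  obtain ⟨G, hGm, hG0⟩ := h22_exists_monic_eq D htr hG hU b hb hf hint
  exact h22_eval_integral_of_monic D.A G hGm hG0 P a c ha hPa hPc

/-- **(EV), unit form**: if `e ∈ O` is integral over `K[x]` and has reduction `1`, then `e` has
neither a zero nor a pole at the places `P` of the unit disc `x(P) ∈ A`. -/
theorem h22_ord_eq_zero_of_red_one [IsAlgClosed K] (D : h22_Lat K F k Rb) {x : F}
    (hch : h75_IsChart K x)
    (hG : ∀ p : K[X], aeval x p ∈ D.O ↔ ∀ i, p.coeff i ∈ D.A)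
    (hU : ∀ p : K[X], aeval x p ≠ 0 → ∃ c : K, c ≠ 0 ∧ algebraMap K F c * aeval x p ∈ D.O ∧
      (algebraMap K F c * aeval x p)⁻¹ ∈ D.O)
    {ι : Type*} [Finite ι] (b : Module.Basis ι K⟮x⟯ F)
    (hb : ∀ f : F, f ∈ D.O ↔ ∀ i, ((b.repr f i : K⟮x⟯) : F) ∈ D.O)
    {e : F} (he : e ∈ D.O) (hint : IsIntegral (Algebra.adjoin K {x}) e)
    (hred : D.redF e = 1) (P : Place K F) (a : K) (ha : a ∈ D.A)
    (hPa : 0 < P.ord (x - algebraMap K F a)) : P.ord e = 0 := by
  have hxP : x ∈ P.toValuationSubring := h66_mem_of_value P (Or.inr hPa)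
  have heP : e ∈ P.toValuationSubring := (h75_isIntegral_iff hch e).mp hint P hxP
  -- `e - 1 = a₁ g` with `a₁ ∈ 𝔪_A`, `g ∈ O`
  have he1 : e - 1 ∈ D.O := D.O.sub_mem he D.O.one_mem
  have hred1 : D.red ⟨e - 1, he1⟩ = 0 := by
    have h1 : (⟨e - 1, he1⟩ : D.O) = ⟨e, he⟩ - 1 := rfl
    rw [h1, map_sub, map_one, ← D.redF_of_mem he, hred, sub_self]
  obtain ⟨a₁, ha₁, g, hg, hge⟩ := D.ker _ he1 hred1
  -- the value of `e` at `P` is a nonzero constant `u`
  have hval : ∃ u : K, u ≠ 0 ∧ (e = algebraMap K F u ∨ 0 < P.ord (e - algebraMap K F u)) := by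
    rcases eq_or_ne a₁ 0 with ha0 | ha0
    · refine ⟨1, one_ne_zero, Or.inl ?_⟩
      rw [ha0, map_zero, zero_mul, sub_eq_zero] at hge
      rw [hge, map_one]
    have ha₁F : algebraMap K F a₁ ≠ 0 := by
      rw [Ne, map_eq_zero]
      exact ha0
    have hgP : g ∈ P.toValuationSubring := by
      have h1 : g = algebraMap K F a₁⁻¹ * (e - 1) := by
        rw [hge, map_inv₀]
        field_simp
      rw [h1]
      exact P.toValuationSubring.mul_mem _ _ (P.algebraMap_mem' _)
        (sub_mem heP P.toValuationSubring.one_mem)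
    have hgint : IsIntegral (Algebra.adjoin K {x}) g := by
      rw [h75_isIntegral_iff hch]
      intro Q hQ
      have heQ : e ∈ Q.toValuationSubring := (h75_isIntegral_iff hch e).mp hint Q hQ
      have h1 : g = algebraMap K F a₁⁻¹ * (e - 1) := by
        rw [hge, map_inv₀]
        field_simp
      rw [h1]
      exact Q.toValuationSubring.mul_mem _ _ (Q.algebraMap_mem' _)
        (sub_mem heQ Q.toValuationSubring.one_mem)
    obtain ⟨c, hc⟩ := h75_exists_const hch P g hgP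
    have hcA : c ∈ D.A :=
      h22_eval_integral D hch.tr hG hU b hb hg hgint P a c ha (Or.inr hPa) hc
    have hu : 1 + a₁ * c ≠ 0 := by
      intro h0
      have h1 : a₁ * c = -1 := by
        rw [← add_eq_zero_iff_eq_neg']
        exact h0
      have h2 : D.A.valuation (a₁ * c) = 1 := by
        rw [h1, Valuation.map_neg, map_one]
      have h3 : D.A.valuation a₁ < 1 := (ValuationSubring.mem_nonunits_iff D.A).mp ha₁
      have h4 : D.A.valuation c ≤ 1 := (D.A.valuation_le_one_iff c).mpr hcA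
      rw [map_mul] at h2
      have h5 : D.A.valuation a₁ * D.A.valuation c ≤ D.A.valuation a₁ :=
        mul_le_of_le_one_right' h4
      rw [h2] at h5
      exact absurd h3 (not_lt.mpr h5)
    refine ⟨1 + a₁ * c, hu, ?_⟩
    have hdiff : e - algebraMap K F (1 + a₁ * c) =
        algebraMap K F a₁ * (g - algebraMap K F c) := by
      have h1 : e = 1 + algebraMap K F a₁ * g := by
        rw [← hge]
        ring
      rw [h1, map_add, map_one, map_mul]
      ring
    rcases hc with hc | hc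
    · left
      rw [← sub_eq_zero, hdiff, hc, sub_self, mul_zero]
    · right
      have hgc0 : g - algebraMap K F c ≠ 0 := by
        intro h0
        rw [h0, P.ord_zero] at hc
        exact lt_irrefl 0 hc
      rw [hdiff, P.ord_mul ha₁F hgc0, Fermat.Agent.S24.h35_ord_algebraMap, zero_add]
      exact hc
  obtain ⟨u, hu0, hu⟩ := hval
  -- hence `e` is a unit of the valuation ring of `P`
  have hres := h66_residue_of_value P hu heP
  have hunit : IsUnit (⟨e, heP⟩ : P.toValuationSubring) := by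
    rw [← IsLocalRing.residue_ne_zero_iff_isUnit, hres, IsLocalRing.residue_ne_zero_iff_isUnit]
    exact (isUnit_iff_ne_zero.mpr hu0).map (algebraMap K P.toValuationSubring)
  obtain ⟨w, hw⟩ := hunit.exists_right_inv
  have hw' : e * (w : F) = 1 := congrArg Subtype.val hw
  have he0 : e ≠ 0 := by
    rintro rfl
    rw [zero_mul] at hw'
    exact zero_ne_one hw'
  have hinv : e⁻¹ ∈ P.toValuationSubring := by
    have h1 : e⁻¹ = (w : F) := inv_eq_of_mul_eq_one_right hw'
    rw [h1]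
    exact w.2
  have h1 := (Fermat.Agent.S24.h35_mem_iff_ord_nonneg P he0).1 heP
  have h2 := (Fermat.Agent.S24.h35_mem_iff_ord_nonneg P (inv_ne_zero he0)).1 hinv
  rw [P.ord_inv] at h2
  omega

end Abs

/-! ### Transport of a frame to the inverse chart -/

section FrameInv

variable {K F : Type*} [Field K] [Field F] [Algebra K F]

/-- A frame over `K(x)` is a frame over `K(x⁻¹) = K(x)`. -/
theorem h22_frame_inv (x : F) {ι : Type*} (b : Module.Basis ι K⟮x⟯ F) :
    ∃ b' : Module.Basis ι K⟮x⁻¹⟯ F,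
      ∀ (f : F) (i : ι), ((b'.repr f i : K⟮x⁻¹⟯) : F) = ((b.repr f i : K⟮x⟯) : F) := by
  have key : ∀ (L₁ L₂ : IntermediateField K F) (_ : L₁ = L₂) (b : Module.Basis ι L₂ F),
      ∃ b' : Module.Basis ι L₁ F,
        ∀ (f : F) (i : ι), ((b'.repr f i : L₁) : F) = ((b.repr f i : L₂) : F) := by
    rintro L₁ _ rfl b
    exact ⟨b, fun _ _ => rfl⟩
  exact key _ _ (h62_adjoin_inv x) b

end FrameInv

/-! ### One datum: transcendence, the inverse chart -/

section Datum

variable {K F k Fb : Type*} [Field K] [Field F] [Algebra K F] [Field k] [Field Fb] [Algebra k Fb]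

/-- A chart is transcendental over the constants (no hypothesis on `K`). -/
theorem h22_transcendental_of_red (R : h39_RedDatum K F k Fb) {x : F} (hx : x ∈ R.O)
    (htr : Transcendental k (R.redF x)) : Transcendental K x := by
  rw [transcendental_iff]
  intro p hp
  by_contra hp0
  obtain ⟨c, q, j, hc0, hqj, hpq⟩ := h89_exists_primitive R.A hp0
  have h1 := (h89_primitive_unit R hx htr hqj).1
  have h2 : aeval x (q.map R.A.subtype) = 0 := by
    rw [hpq, map_mul, aeval_C] at hp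
    rcases mul_eq_zero.mp hp with h | h
    · rw [map_eq_zero] at h
      exact absurd h hc0
    · exact h
  rw [h2, h39_redF_zero] at h1
  exact h1 rfl

/-- The inverse of a chart is a chart. -/
theorem h22_chart_inv (R : h39_RedDatum K F k Fb) {x : F}
    (htr : Transcendental k (R.redF x)) :
    x⁻¹ ∈ R.O ∧ Transcendental k (R.redF x⁻¹) := by
  have hne : R.redF x ≠ 0 := by
    intro h0
    exact htr (h0 ▸ isAlgebraic_zero)
  obtain ⟨h1, h2⟩ := h39_inv_of_redF_ne_zero R hne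
  refine ⟨h1, ?_⟩
  rw [h2]
  intro h
  exact htr (by simpa using h.inv)

end Datum

/-! ### Two data -/

section Pair

variable {K F k Fb₁ Fb₂ : Type*} [Field K] [Field F] [Algebra K F] [Field k]
  [Field Fb₁] [Algebra k Fb₁] [Field Fb₂] [Algebra k Fb₂]

/-- (INT-EQ) for two data. -/
theorem h22_pair_exists_monic_eq (R₁ : h39_RedDatum K F k Fb₁) (R₂ : h39_RedDatum K F k Fb₂)
    (A : ValuationSubring K) (res : A →+* k) (hres_surj : Function.Surjective res)
    (hA₁ : R₁.A = A) (hA₂ : R₂.A = A)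
    (hres₁ : ∀ (a : K) (ha : a ∈ A), R₁.resK a = res ⟨a, ha⟩)
    (hres₂ : ∀ (a : K) (ha : a ∈ A), R₂.resK a = res ⟨a, ha⟩)
    {x : F} (hx₁ : x ∈ R₁.O) (hx₂ : x ∈ R₂.O)
    (htr₁ : Transcendental k (R₁.redF x)) (htr₂ : Transcendental k (R₂.redF x))
    {ι : Type*} [Finite ι] (b : Module.Basis ι K⟮x⟯ F)
    (hb : ∀ f : F, (f ∈ R₁.O ∧ f ∈ R₂.O) ↔
      ∀ j, ((b.repr f j : K⟮x⟯) : F) ∈ R₁.O ∧ ((b.repr f j : K⟮x⟯) : F) ∈ R₂.O)
    {f : F} (hf₁ : f ∈ R₁.O) (hf₂ : f ∈ R₂.O) (hint : IsIntegral (Algebra.adjoin K {x}) f) :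
    ∃ G : Polynomial (Polynomial A), G.Monic ∧ Polynomial.eval₂ (h22_evalF A x) f G = 0 :=
  h22_exists_monic_eq (h22_latOfPair R₁ R₂ A res hres_surj hA₁ hA₂ hres₁ hres₂)
    (h22_transcendental_of_red R₁ hx₁ htr₁)
    (h22_latOfPair_hG R₁ R₂ A res hres_surj hA₁ hA₂ hres₁ hres₂ hx₁ hx₂ htr₁ htr₂)
    (h22_latOfPair_hU R₁ R₂ A res hres_surj hA₁ hA₂ hres₁ hres₂ hx₁ hx₂ htr₁ htr₂) b hb
    ⟨hf₁, hf₂⟩ hint

/-- **(I1) for two data**: the reductions of an element of `O₁ ∩ O₂` integral over `K[x]` are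
integral over `k[x̄₁]`, resp. `k[x̄₂]`. -/
theorem h22_pair_isIntegral_red (R₁ : h39_RedDatum K F k Fb₁) (R₂ : h39_RedDatum K F k Fb₂)
    (A : ValuationSubring K) (res : A →+* k) (hres_surj : Function.Surjective res)
    (hA₁ : R₁.A = A) (hA₂ : R₂.A = A)
    (hres₁ : ∀ (a : K) (ha : a ∈ A), R₁.resK a = res ⟨a, ha⟩)
    (hres₂ : ∀ (a : K) (ha : a ∈ A), R₂.resK a = res ⟨a, ha⟩)
    {x : F} (hx₁ : x ∈ R₁.O) (hx₂ : x ∈ R₂.O)
    (htr₁ : Transcendental k (R₁.redF x)) (htr₂ : Transcendental k (R₂.redF x))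
    {ι : Type*} [Finite ι] (b : Module.Basis ι K⟮x⟯ F)
    (hb : ∀ f : F, (f ∈ R₁.O ∧ f ∈ R₂.O) ↔
      ∀ j, ((b.repr f j : K⟮x⟯) : F) ∈ R₁.O ∧ ((b.repr f j : K⟮x⟯) : F) ∈ R₂.O)
    {f : F} (hf₁ : f ∈ R₁.O) (hf₂ : f ∈ R₂.O) (hint : IsIntegral (Algebra.adjoin K {x}) f) :
    IsIntegral (Algebra.adjoin k {R₁.redF x}) (R₁.redF f) ∧
      IsIntegral (Algebra.adjoin k {R₂.redF x}) (R₂.redF f) := by
  have h := h22_isIntegral_red (h22_latOfPair R₁ R₂ A res hres_surj hA₁ hA₂ hres₁ hres₂)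
    (h22_transcendental_of_red R₁ hx₁ htr₁) ⟨hx₁, hx₂⟩
    (h22_latOfPair_hG R₁ R₂ A res hres_surj hA₁ hA₂ hres₁ hres₂ hx₁ hx₂ htr₁ htr₂)
    (h22_latOfPair_hU R₁ R₂ A res hres_surj hA₁ hA₂ hres₁ hres₂ hx₁ hx₂ htr₁ htr₂) b hb
    ⟨hf₁, hf₂⟩ hint
  have hxeq := h22_latOfPair_redF R₁ R₂ A res hres_surj hA₁ hA₂ hres₁ hres₂ hx₁ hx₂
  have hfeq := h22_latOfPair_redF R₁ R₂ A res hres_surj hA₁ hA₂ hres₁ hres₂ hf₁ hf₂
  refine ⟨h22_isIntegral_map' (AlgHom.fst k Fb₁ Fb₂) ?_ ?_ h,
    h22_isIntegral_map' (AlgHom.snd k Fb₁ Fb₂) ?_ ?_ h⟩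
  · rw [hxeq]
    rfl
  · rw [hfeq]
    rfl
  · rw [hxeq]
    rfl
  · rw [hfeq]
    rfl

/-- (I1) for two data on the inverse chart, with the frame given over `K(x)`. -/
theorem h22_pair_isIntegral_red_inv (R₁ : h39_RedDatum K F k Fb₁) (R₂ : h39_RedDatum K F k Fb₂)
    (A : ValuationSubring K) (res : A →+* k) (hres_surj : Function.Surjective res)
    (hA₁ : R₁.A = A) (hA₂ : R₂.A = A)
    (hres₁ : ∀ (a : K) (ha : a ∈ A), R₁.resK a = res ⟨a, ha⟩)
    (hres₂ : ∀ (a : K) (ha : a ∈ A), R₂.resK a = res ⟨a, ha⟩)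
    {x : F} (htr₁ : Transcendental k (R₁.redF x)) (htr₂ : Transcendental k (R₂.redF x))
    {ι : Type*} [Finite ι] (b : Module.Basis ι K⟮x⟯ F)
    (hb : ∀ f : F, (f ∈ R₁.O ∧ f ∈ R₂.O) ↔
      ∀ j, ((b.repr f j : K⟮x⟯) : F) ∈ R₁.O ∧ ((b.repr f j : K⟮x⟯) : F) ∈ R₂.O)
    {f : F} (hf₁ : f ∈ R₁.O) (hf₂ : f ∈ R₂.O)
    (hint : IsIntegral (Algebra.adjoin K {x⁻¹}) f) :
    IsIntegral (Algebra.adjoin k {(R₁.redF x)⁻¹}) (R₁.redF f) ∧
      IsIntegral (Algebra.adjoin k {(R₂.redF x)⁻¹}) (R₂.redF f) := by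
  obtain ⟨b', hb'⟩ := h22_frame_inv x b
  have hne₁ : R₁.redF x ≠ 0 := fun h0 => htr₁ (h0 ▸ isAlgebraic_zero)
  have hne₂ : R₂.redF x ≠ 0 := fun h0 => htr₂ (h0 ▸ isAlgebraic_zero)
  obtain ⟨hxi₁, htri₁⟩ := h22_chart_inv R₁ htr₁
  obtain ⟨hxi₂, htri₂⟩ := h22_chart_inv R₂ htr₂
  have h := h22_pair_isIntegral_red R₁ R₂ A res hres_surj hA₁ hA₂ hres₁ hres₂ hxi₁ hxi₂
    htri₁ htri₂ b' (fun g => by
      rw [hb g]
      exact forall_congr' fun j => by rw [hb' g j]) hf₁ hf₂ hint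
  rw [(h39_inv_of_redF_ne_zero R₁ hne₁).2, (h39_inv_of_redF_ne_zero R₂ hne₂).2] at h
  exact h

/-- **(EV) for two data.** -/
theorem h22_pair_eval_integral (R₁ : h39_RedDatum K F k Fb₁) (R₂ : h39_RedDatum K F k Fb₂)
    (A : ValuationSubring K) (res : A →+* k) (hres_surj : Function.Surjective res)
    (hA₁ : R₁.A = A) (hA₂ : R₂.A = A)
    (hres₁ : ∀ (a : K) (ha : a ∈ A), R₁.resK a = res ⟨a, ha⟩)
    (hres₂ : ∀ (a : K) (ha : a ∈ A), R₂.resK a = res ⟨a, ha⟩)
    {x : F} (hx₁ : x ∈ R₁.O) (hx₂ : x ∈ R₂.O)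
    (htr₁ : Transcendental k (R₁.redF x)) (htr₂ : Transcendental k (R₂.redF x))
    {ι : Type*} [Finite ι] (b : Module.Basis ι K⟮x⟯ F)
    (hb : ∀ f : F, (f ∈ R₁.O ∧ f ∈ R₂.O) ↔
      ∀ j, ((b.repr f j : K⟮x⟯) : F) ∈ R₁.O ∧ ((b.repr f j : K⟮x⟯) : F) ∈ R₂.O)
    {f : F} (hf₁ : f ∈ R₁.O) (hf₂ : f ∈ R₂.O) (hint : IsIntegral (Algebra.adjoin K {x}) f)
    (P : Place K F) (a c : K) (ha : a ∈ A)
    (hPa : x = algebraMap K F a ∨ 0 < P.ord (x - algebraMap K F a))
    (hPc : f = algebraMap K F c ∨ 0 < P.ord (f - algebraMap K F c)) : c ∈ A := by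
  obtain ⟨G, hGm, hG0⟩ := h22_pair_exists_monic_eq R₁ R₂ A res hres_surj hA₁ hA₂ hres₁ hres₂
    hx₁ hx₂ htr₁ htr₂ b hb hf₁ hf₂ hint
  exact h22_eval_integral_of_monic A G hGm hG0 P a c ha hPa hPc

end Pair

/-! ### A finite family -/

section Family

variable {K F k : Type*} [Field K] [Field F] [Algebra K F] [Field k]
variable {ι₀ : Type*} {Fb : ι₀ → Type*} [∀ i, Field (Fb i)] [∀ i, Algebra k (Fb i)]
variable [Fintype ι₀] [Nonempty ι₀]

/-- (INT-EQ) for a family. -/
theorem h22_fam_exists_monic_eq (R : ∀ i, h39_RedDatum K F k (Fb i)) (A : ValuationSubring K)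
    (res : A →+* k) (hres_surj : Function.Surjective res) (hA : ∀ i, (R i).A = A)
    (hres : ∀ (i : ι₀) (a : K) (ha : a ∈ A), (R i).resK a = res ⟨a, ha⟩)
    {x : F} (hx : ∀ i, x ∈ (R i).O) (htr : ∀ i, Transcendental k ((R i).redF x))
    {ι : Type*} [Finite ι] (b : Module.Basis ι K⟮x⟯ F)
    (hb : ∀ f : F, (∀ i, f ∈ (R i).O) ↔ ∀ j i, ((b.repr f j : K⟮x⟯) : F) ∈ (R i).O)
    {f : F} (hf : ∀ i, f ∈ (R i).O) (hint : IsIntegral (Algebra.adjoin K {x}) f) :
    ∃ G : Polynomial (Polynomial A), G.Monic ∧ Polynomial.eval₂ (h22_evalF A x) f G = 0 := by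
  obtain ⟨i₀⟩ := ‹Nonempty ι₀›
  exact h22_exists_monic_eq (h22_latOfFamily R A res hres_surj hA hres)
    (h22_transcendental_of_red (R i₀) (hx i₀) (htr i₀))
    (h22_latOfFamily_hG R A res hres_surj hA hres hx htr)
    (h22_latOfFamily_hU R A res hres_surj hA hres hx htr) b hb hf hint

/-- **(I1) for a family**: componentwise integrality of the reductions. -/
theorem h22_fam_isIntegral_red (R : ∀ i, h39_RedDatum K F k (Fb i)) (A : ValuationSubring K)
    (res : A →+* k) (hres_surj : Function.Surjective res) (hA : ∀ i, (R i).A = A)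
    (hres : ∀ (i : ι₀) (a : K) (ha : a ∈ A), (R i).resK a = res ⟨a, ha⟩)
    {x : F} (hx : ∀ i, x ∈ (R i).O) (htr : ∀ i, Transcendental k ((R i).redF x))
    {ι : Type*} [Finite ι] (b : Module.Basis ι K⟮x⟯ F)
    (hb : ∀ f : F, (∀ i, f ∈ (R i).O) ↔ ∀ j i, ((b.repr f j : K⟮x⟯) : F) ∈ (R i).O)
    {f : F} (hf : ∀ i, f ∈ (R i).O) (hint : IsIntegral (Algebra.adjoin K {x}) f) (i : ι₀) :
    IsIntegral (Algebra.adjoin k {(R i).redF x}) ((R i).redF f) := by
  obtain ⟨i₀⟩ := ‹Nonempty ι₀›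
  have h := h22_isIntegral_red (h22_latOfFamily R A res hres_surj hA hres)
    (h22_transcendental_of_red (R i₀) (hx i₀) (htr i₀)) hx
    (h22_latOfFamily_hG R A res hres_surj hA hres hx htr)
    (h22_latOfFamily_hU R A res hres_surj hA hres hx htr) b hb hf hint
  refine h22_isIntegral_map' (Pi.evalAlgHom k Fb i) ?_ ?_ h
  · rw [Pi.evalAlgHom_apply]
    exact h22_latOfFamily_redF R A res hres_surj hA hres hx i
  · rw [Pi.evalAlgHom_apply]
    exact h22_latOfFamily_redF R A res hres_surj hA hres hf i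

/-- **(EV) for a family.** -/
theorem h22_fam_eval_integral (R : ∀ i, h39_RedDatum K F k (Fb i)) (A : ValuationSubring K)
    (res : A →+* k) (hres_surj : Function.Surjective res) (hA : ∀ i, (R i).A = A)
    (hres : ∀ (i : ι₀) (a : K) (ha : a ∈ A), (R i).resK a = res ⟨a, ha⟩)
    {x : F} (hx : ∀ i, x ∈ (R i).O) (htr : ∀ i, Transcendental k ((R i).redF x))
    {ι : Type*} [Finite ι] (b : Module.Basis ι K⟮x⟯ F)
    (hb : ∀ f : F, (∀ i, f ∈ (R i).O) ↔ ∀ j i, ((b.repr f j : K⟮x⟯) : F) ∈ (R i).O)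
    {f : F} (hf : ∀ i, f ∈ (R i).O) (hint : IsIntegral (Algebra.adjoin K {x}) f)
    (P : Place K F) (a c : K) (ha : a ∈ A)
    (hPa : x = algebraMap K F a ∨ 0 < P.ord (x - algebraMap K F a))
    (hPc : f = algebraMap K F c ∨ 0 < P.ord (f - algebraMap K F c)) : c ∈ A := by
  obtain ⟨G, hGm, hG0⟩ := h22_fam_exists_monic_eq R A res hres_surj hA hres hx htr b hb hf hint
  exact h22_eval_integral_of_monic A G hGm hG0 P a c ha hPa hPc

end Family

end Fermat.Agent.S34
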