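import Mathlib
import Fermat.Agent.S34.h22_LatFamily
import Fermat.Agent.S34.h22_FrameTower

/-!
# S34 / ON in a tower (helper22)

`h22_gauss_transfer`: integrality of an element of `K(x)` only depends on its expression as a
rational function in the chart (Gauss), so it transfers between reduction data on different
function fields with the same constants.

`h22_on_of_pair_tower`, `h22_on_of_family_tower`: the lattice datum of a pair / family of
reduction data on `F` has orthonormal bases (`h22_ON`) as soon as `F` has an `E`-basis `y`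
detecting integrality over a subfield `E` (embedded by `α`) which carries reduction data with a
frame — e.g. level `Mq` over level `M` with the power basis `j_q^i`, or a Kummer step.
-/

set_option autoImplicit false

noncomputable section

open IntermediateField Polynomial Module
open Fermat.Agent.S18

namespace Fermat.Agent.S34

section Transfer

variable {K k : Type*} [Field K] [Field k]

/-- An element of `K(x) ∩ O` is `p(x)/q(x)` with `p, q ∈ A[X]`, `q` primitive (constants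
renamed). -/
theorem h22_gauss_ratfunc {F Fb : Type*} [Field F] [Algebra K F] [Field Fb] [Algebra k Fb]
    (R : h39_RedDatum K F k Fb) {A : ValuationSubring K} (hA : R.A = A)
    {x : F} (hx : x ∈ R.O) (htr : Transcendental k (R.redF x)) {c : F} (hc : c ∈ K⟮x⟯)
    (hcO : c ∈ R.O) :
    ∃ (p q : Polynomial A) (j : ℕ), q.coeff j = 1 ∧
      c * aeval x (q.map A.subtype) = aeval x (p.map A.subtype) := by
  subst hA
  exact h89_gauss_ratfunc R hx htr hc hcO

/-- A primitive polynomial in a chart does not vanish (constants renamed). -/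
theorem h22_primitive_ne_zero {F Fb : Type*} [Field F] [Algebra K F] [Field Fb] [Algebra k Fb]
    (R : h39_RedDatum K F k Fb) {A : ValuationSubring K} (hA : R.A = A)
    {x : F} (hx : x ∈ R.O) (htr : Transcendental k (R.redF x)) (q : Polynomial A) (j : ℕ)
    (hq : q.coeff j = 1) : aeval x (q.map A.subtype) ≠ 0 := by
  subst hA
  intro h0
  have h1 := (h89_primitive_unit R hx htr hq).1
  rw [h0, h39_redF_zero] at h1
  exact h1 rfl

/-- **Gauss transfer**: if `t₁ ∈ K(x₁) ∩ O₁` and `t₂` satisfies every relation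
`t q(x) = p(x)` that `t₁` satisfies, then `t₂ ∈ O₂`. -/
theorem h22_gauss_transfer {F₁ Fb₁ F₂ Fb₂ : Type*} [Field F₁] [Algebra K F₁] [Field Fb₁]
    [Algebra k Fb₁] [Field F₂] [Algebra K F₂] [Field Fb₂] [Algebra k Fb₂]
    (R₁ : h39_RedDatum K F₁ k Fb₁) (R₂ : h39_RedDatum K F₂ k Fb₂) {A : ValuationSubring K}
    (hA₁ : R₁.A = A) (hA₂ : R₂.A = A)
    {x₁ : F₁} (hx₁ : x₁ ∈ R₁.O) (htr₁ : Transcendental k (R₁.redF x₁))
    {x₂ : F₂} (hx₂ : x₂ ∈ R₂.O) (htr₂ : Transcendental k (R₂.redF x₂))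
    {t₁ : F₁} {t₂ : F₂} (ht₁ : t₁ ∈ K⟮x₁⟯) (ht₁O : t₁ ∈ R₁.O)
    (hcorr : ∀ p q : K[X], t₁ * aeval x₁ q = aeval x₁ p → t₂ * aeval x₂ q = aeval x₂ p) :
    t₂ ∈ R₂.O := by
  obtain ⟨p, q, j, hqj, hpq⟩ := h22_gauss_ratfunc R₁ hA₁ hx₁ htr₁ ht₁ ht₁O
  have h2 := hcorr _ _ hpq
  have hq0 := h22_primitive_ne_zero R₂ hA₂ hx₂ htr₂ q j hqj
  have hG := h22_gauss_datum R₂ hA₂ hx₂ htr₂
  have h3 : t₂ = aeval x₂ (p.map A.subtype) * (aeval x₂ (q.map A.subtype))⁻¹ := by
    rw [← h2, mul_assoc, mul_inv_cancel₀ hq0, mul_one]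
  rw [h3]
  refine R₂.O.mul_mem _ _ ((hG.1 _).mpr fun n => ?_) (hG.2 q j hqj)
  rw [coeff_map]
  exact (p.coeff n).2

/-- Gauss transfer along an embedding `α : E → F`: integrality of elements of `K(x_E)` is the
same for a datum on `E` and a datum on `F` with the same constants. -/
theorem h22_gauss_transfer_map {E FbE F Fb : Type*} [Field E] [Algebra K E] [Field FbE]
    [Algebra k FbE] [Field F] [Algebra K F] [Field Fb] [Algebra k Fb]
    (RE : h39_RedDatum K E k FbE) (R : h39_RedDatum K F k Fb) {A : ValuationSubring K}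
    (hAE : RE.A = A) (hA : R.A = A) (α : E →ₐ[K] F)
    {xE : E} (hxE : xE ∈ RE.O) (htrE : Transcendental k (RE.redF xE))
    (hx : α xE ∈ R.O) (htr : Transcendental k (R.redF (α xE))) (t : K⟮xE⟯) :
    (t : E) ∈ RE.O ↔ α (t : E) ∈ R.O := by
  constructor
  · intro h
    refine h22_gauss_transfer RE R hAE hA hxE htrE hx htr t.2 h fun p q hpq => ?_
    have h1 := congrArg α hpq
    rw [map_mul, ← aeval_algHom_apply, ← aeval_algHom_apply] at h1
    exact h1
  · intro h
    refine h22_gauss_transfer R RE hA hAE hx htr hxE htrE (h22_adjoin_map_mem α xE t) h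
      fun p q hpq => ?_
    have hinj : Function.Injective (α : E → F) := (α : E →+* F).injective
    apply hinj
    rw [map_mul, ← aeval_algHom_apply, ← aeval_algHom_apply]
    exact hpq

end Transfer

section Tower

variable {K k E FbE F : Type*} [Field K] [Field k] [Field E] [Algebra K E] [Field FbE]
  [Algebra k FbE] [Field F] [Algebra K F]

/-- **ON at the top of a tower, two data.**  `RE` a reduction datum on `E` with chart `x_E` and
frame `b`; `R₁, R₂` reduction data on `F ⊇ α(E)` for which `α x_E` is a chart; `y` an `E`-basis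
of `F` detecting `O₁ ∩ O₂` coordinatewise.  Then the pair lattice has orthonormal bases. -/
theorem h22_on_of_pair_tower {Fb₁ Fb₂ : Type*} [Field Fb₁] [Algebra k Fb₁] [Field Fb₂]
    [Algebra k Fb₂]
    (RE : h39_RedDatum K E k FbE) (R₁ : h39_RedDatum K F k Fb₁) (R₂ : h39_RedDatum K F k Fb₂)
    (A : ValuationSubring K) (res : A →+* k) (hres_surj : Function.Surjective res)
    (hAE : RE.A = A) (hA₁ : R₁.A = A) (hA₂ : R₂.A = A)
    (hres₁ : ∀ (a : K) (ha : a ∈ A), R₁.resK a = res ⟨a, ha⟩)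
    (hres₂ : ∀ (a : K) (ha : a ∈ A), R₂.resK a = res ⟨a, ha⟩)
    (α : E →ₐ[K] F) {xE : E} (hxE : xE ∈ RE.O) (htrE : Transcendental k (RE.redF xE))
    (hx₁ : α xE ∈ R₁.O) (hx₂ : α xE ∈ R₂.O)
    (htr₁ : Transcendental k (R₁.redF (α xE))) (htr₂ : Transcendental k (R₂.redF (α xE)))
    {ι κ : Type*} [Fintype ι] [Fintype κ] (b : Module.Basis ι K⟮xE⟯ E)
    (hb : ∀ g : E, g ∈ RE.O ↔ ∀ i, ((b.repr g i : K⟮xE⟯) : E) ∈ RE.O)
    (y : κ → F)
    (hspan : ∀ f : F, ∃ a : κ → E, f = ∑ j, α (a j) * y j)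
    (hli : ∀ a : κ → E, ∑ j, α (a j) * y j = 0 → ∀ j, a j = 0)
    (hO : ∀ a : κ → E, (∑ j, α (a j) * y j ∈ R₁.O ∧ ∑ j, α (a j) * y j ∈ R₂.O) ↔
      ∀ j, a j ∈ RE.O) :
    h22_ON (h22_latOfPair R₁ R₂ A res hres_surj hA₁ hA₂ hres₁ hres₂) := by
  obtain ⟨B, -, -, hB⟩ := h22_frame_tower_mem α xE b y hspan hli {g | g ∈ RE.O}
    {f | f ∈ R₁.O ∧ f ∈ R₂.O} hb hO (fun t =>
      ⟨fun h => ⟨(h22_gauss_transfer_map RE R₁ hAE hA₁ α hxE htrE hx₁ htr₁ t).mp h,
        (h22_gauss_transfer_map RE R₂ hAE hA₂ α hxE htrE hx₂ htr₂ t).mp h⟩,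
       fun h => (h22_gauss_transfer_map RE R₁ hAE hA₁ α hxE htrE hx₁ htr₁ t).mpr h.1⟩)
  exact h22_on_of_pair R₁ R₂ A res hres_surj hA₁ hA₂ hres₁ hres₂ hx₁ hx₂ htr₁ htr₂ B hB

/-- **ON at the top of a tower, a family over a family.**  `RE i'` reduction data on `E` with
common chart `x_E` and a frame `b` for `⋂ (RE i').O`; `R i` reduction data on `F ⊇ α(E)` for
which `α x_E` is a chart; `y` an `E`-basis of `F` detecting `⋂ (R i).O` coordinatewise. -/
theorem h22_on_of_family_tower {ι' : Type*} [Nonempty ι'] {FbE' : ι' → Type*}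
    [∀ i, Field (FbE' i)] [∀ i, Algebra k (FbE' i)]
    {ι₀ : Type*} [Fintype ι₀] [Nonempty ι₀] {Fb : ι₀ → Type*} [∀ i, Field (Fb i)]
    [∀ i, Algebra k (Fb i)]
    (RE : ∀ i, h39_RedDatum K E k (FbE' i)) (R : ∀ i, h39_RedDatum K F k (Fb i))
    (A : ValuationSubring K) (res : A →+* k) (hres_surj : Function.Surjective res)
    (hAE : ∀ i, (RE i).A = A) (hA : ∀ i, (R i).A = A)
    (hres : ∀ (i : ι₀) (a : K) (ha : a ∈ A), (R i).resK a = res ⟨a, ha⟩)
    (α : E →ₐ[K] F) {xE : E} (hxE : ∀ i, xE ∈ (RE i).O)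
    (htrE : ∀ i, Transcendental k ((RE i).redF xE))
    (hx : ∀ i, α xE ∈ (R i).O) (htr : ∀ i, Transcendental k ((R i).redF (α xE)))
    {ι κ : Type*} [Fintype ι] [Fintype κ] (b : Module.Basis ι K⟮xE⟯ E)
    (hb : ∀ g : E, (∀ i, g ∈ (RE i).O) ↔ ∀ j i, ((b.repr g j : K⟮xE⟯) : E) ∈ (RE i).O)
    (y : κ → F)
    (hspan : ∀ f : F, ∃ a : κ → E, f = ∑ j, α (a j) * y j)
    (hli : ∀ a : κ → E, ∑ j, α (a j) * y j = 0 → ∀ j, a j = 0)
    (hO : ∀ a : κ → E, (∀ i, ∑ j, α (a j) * y j ∈ (R i).O) ↔ ∀ j i, a j ∈ (RE i).O) :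
    h22_ON (h22_latOfFamily R A res hres_surj hA hres) := by
  obtain ⟨i'⟩ := ‹Nonempty ι'›
  obtain ⟨i₀⟩ := ‹Nonempty ι₀›
  have hα : ∀ t : K⟮xE⟯, (∀ i, (t : E) ∈ (RE i).O) ↔ ∀ i, α (t : E) ∈ (R i).O := by
    intro t
    constructor
    · intro h i
      exact (h22_gauss_transfer_map (RE i') (R i) (hAE i') (hA i) α (hxE i') (htrE i') (hx i)
        (htr i) t).mp (h i')
    · intro h i
      exact (h22_gauss_transfer_map (RE i) (R i₀) (hAE i) (hA i₀) α (hxE i) (htrE i) (hx i₀)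
        (htr i₀) t).mpr (h i₀)
  obtain ⟨B, -, -, hB⟩ := h22_frame_tower_mem α xE b y hspan hli {g | ∀ i, g ∈ (RE i).O}
    {f | ∀ i, f ∈ (R i).O} hb hO hα
  exact h22_on_of_family R A res hres_surj hA hres hx htr B hB

end Tower

end Fermat.Agent.S34
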