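import Mathlib
import Fermat.Agent.S34.h22_LatTower
import Fermat.Agent.S34.h60_R1AB
import Fermat.Agent.S18.h54_Mod
import Fermat.Agent.S18.h64_RankOneW
import Fermat.Agent.S18.GR_Basis

/-!
# S34 / row LAT: the lattice datum of level `Mq` (helper22)

* Generic facts on `h22_latOfPair`: `h22_latOfPair_hinv` (elements with unit reduction are units
  of `O`), `h22_latOfPair_red`, and the family packaging `h22_pair_sep_family` of a separating
  element (for `h87_unipGeom_of_family`).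
* `h22_li_of_span_card` : a spanning family of `finrankAlong` elements is free (`hli` of the
  tower frame from `hspan` and the degree).
* Level `Mq`, `q ∤ M` prime, `A` over `q`: `h22_latMq` is the lattice datum of `h60_R1` and a
  second reduction datum `R₂` with the same constants (in the application `R₂ = h60_R1 ∘ w`);
  `h22_on_Mq` : it has orthonormal bases (`h22_ON`), given the description
  `O₁ ∩ O₂ = ⊕ α(O_M) j_q^i` (`hFRAME0`) and that `α(x_M)` is a chart for `R₂`, for any level-`M`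
  weak chart `x_M` (e.g. `j`, no condition on `q`);
  `h22_latMq_hinv`, `h22_latMq_rankOne`.
-/

set_option autoImplicit false
set_option synthInstance.maxHeartbeats 400000

noncomputable section

open ModularCurve AlgebraicCurve IntermediateField Polynomial Module
open Fermat.Agent.S18 Fermat.Agent.S37 Fermat.Agent.S24

namespace Fermat.Agent.S34

/-! ### Generic facts on the pair lattice -/

section PairAux

variable {K F k Fb₁ Fb₂ : Type*} [Field K] [Field F] [Algebra K F] [Field k]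
  [Field Fb₁] [Algebra k Fb₁] [Field Fb₂] [Algebra k Fb₂]

theorem h22_latOfPair_red (R₁ : h39_RedDatum K F k Fb₁) (R₂ : h39_RedDatum K F k Fb₂)
    (A : ValuationSubring K) (res : A →+* k) (hres_surj : Function.Surjective res)
    (hA₁ : R₁.A = A) (hA₂ : R₂.A = A)
    (hres₁ : ∀ (a : K) (ha : a ∈ A), R₁.resK a = res ⟨a, ha⟩)
    (hres₂ : ∀ (a : K) (ha : a ∈ A), R₂.resK a = res ⟨a, ha⟩) (f : F)
    (hf : f ∈ (h22_latOfPair R₁ R₂ A res hres_surj hA₁ hA₂ hres₁ hres₂).O) :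
    (h22_latOfPair R₁ R₂ A res hres_surj hA₁ hA₂ hres₁ hres₂).red ⟨f, hf⟩ =
      (R₁.redF f, R₂.redF f) :=
  h22_pairRed_apply R₁ R₂ ⟨f, hf⟩

/-- **hinv**: an element of `O₁ ∩ O₂` whose reduction is a unit of `Fb₁ × Fb₂` is a unit of
`O₁ ∩ O₂`. -/
theorem h22_latOfPair_hinv (R₁ : h39_RedDatum K F k Fb₁) (R₂ : h39_RedDatum K F k Fb₂)
    (A : ValuationSubring K) (res : A →+* k) (hres_surj : Function.Surjective res)
    (hA₁ : R₁.A = A) (hA₂ : R₂.A = A)
    (hres₁ : ∀ (a : K) (ha : a ∈ A), R₁.resK a = res ⟨a, ha⟩)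
    (hres₂ : ∀ (a : K) (ha : a ∈ A), R₂.resK a = res ⟨a, ha⟩) (f : F)
    (hf : f ∈ (h22_latOfPair R₁ R₂ A res hres_surj hA₁ hA₂ hres₁ hres₂).O)
    (hu : IsUnit ((h22_latOfPair R₁ R₂ A res hres_surj hA₁ hA₂ hres₁ hres₂).red ⟨f, hf⟩)) :
    f⁻¹ ∈ (h22_latOfPair R₁ R₂ A res hres_surj hA₁ hA₂ hres₁ hres₂).O := by
  rw [h22_latOfPair_red, Prod.isUnit_iff] at hu
  exact ⟨(h39_inv_of_redF_ne_zero R₁ hu.1.ne_zero).1, (h39_inv_of_redF_ne_zero R₂ hu.2.ne_zero).1⟩

/-- The reduction of the inverse of a unit. -/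
theorem h22_latOfPair_redF_inv (R₁ : h39_RedDatum K F k Fb₁) (R₂ : h39_RedDatum K F k Fb₂)
    {f : F} (h₁ : R₁.redF f ≠ 0) (h₂ : R₂.redF f ≠ 0) :
    (f⁻¹ ∈ R₁.O ∧ f⁻¹ ∈ R₂.O) ∧ R₁.redF f⁻¹ = (R₁.redF f)⁻¹ ∧ R₂.redF f⁻¹ = (R₂.redF f)⁻¹ :=
  ⟨⟨(h39_inv_of_redF_ne_zero R₁ h₁).1, (h39_inv_of_redF_ne_zero R₂ h₂).1⟩,
    (h39_inv_of_redF_ne_zero R₁ h₁).2, (h39_inv_of_redF_ne_zero R₂ h₂).2⟩

end PairAux

section SepFamily

variable {K F k Fb : Type*} [Field K] [Field F] [Algebra K F] [Field k] [Field Fb] [Algebra k Fb]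

/-- The two data as a family over `Fin 2`. -/
def h22_pairFin (R₁ R₂ : h39_RedDatum K F k Fb) : Fin 2 → h39_RedDatum K F k Fb := ![R₁, R₂]

theorem h22_pairFin_zero (R₁ R₂ : h39_RedDatum K F k Fb) : h22_pairFin R₁ R₂ 0 = R₁ := rfl

theorem h22_pairFin_one (R₁ R₂ : h39_RedDatum K F k Fb) : h22_pairFin R₁ R₂ 1 = R₂ := rfl

/-- **(sep)** in family form (the clause of `h87_unipGeom_of_family`) from one separating
element `t` with `(red₁ t, red₂ t) = (1, 0)`. -/
theorem h22_pair_sep_family (R₁ R₂ : h39_RedDatum K F k Fb) {t : F} (ht₁ : t ∈ R₁.O)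
    (ht₂ : t ∈ R₂.O) (h1 : R₁.redF t = 1) (h2 : R₂.redF t = 0) :
    ∀ i : Fin 2, ∃ s : F, (∀ j, s ∈ (h22_pairFin R₁ R₂ j).O) ∧
      (h22_pairFin R₁ R₂ i).redF s = 1 ∧ ∀ j, j ≠ i → (h22_pairFin R₁ R₂ j).redF s = 0 := by
  have hs₁ : 1 - t ∈ R₁.O := sub_mem R₁.O.one_mem ht₁
  have hs₂ : 1 - t ∈ R₂.O := sub_mem R₂.O.one_mem ht₂
  have hr₁ : R₁.redF (1 - t) = 0 := by
    rw [h39_redF_sub R₁ R₁.O.one_mem ht₁, h39_redF_one, h1, sub_self]
  have hr₂ : R₂.redF (1 - t) = 1 := by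
    rw [h39_redF_sub R₂ R₂.O.one_mem ht₂, h39_redF_one, h2, sub_zero]
  intro i
  fin_cases i
  · refine ⟨t, fun j => ?_, h1, fun j hj => ?_⟩
    · fin_cases j
      · exact ht₁
      · exact ht₂
    · fin_cases j
      · exact absurd rfl hj
      · exact h2
  · refine ⟨1 - t, fun j => ?_, hr₂, fun j hj => ?_⟩
    · fin_cases j
      · exact hs₁
      · exact hs₂
    · fin_cases j
      · exact hr₁
      · exact absurd rfl hj

/-- the constants clause for the family -/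
theorem h22_pairFin_A (R₁ R₂ : h39_RedDatum K F k Fb) {A : ValuationSubring K} (hA₁ : R₁.A = A)
    (hA₂ : R₂.A = A) : ∀ i, (h22_pairFin R₁ R₂ i).A = A := by
  intro i
  fin_cases i
  · exact hA₁
  · exact hA₂

end SepFamily

section Li

variable {K E F : Type*} [Field K] [Field E] [Field F] [Algebra K E] [Algebra K F]

/-- A spanning family with as many elements as the degree is free (the hypothesis `hli` of
`h22_frame_tower` from `hspan` and the degree). -/
theorem h22_li_of_span_card (α : E →ₐ[K] F) {κ : Type*} [Fintype κ] (y : κ → F)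
    (hspan : ∀ f : F, ∃ a : κ → E, f = ∑ j, α (a j) * y j)
    (hcard : Fintype.card κ = finrankAlong K α) :
    ∀ a : κ → E, ∑ j, α (a j) * y j = 0 → ∀ j, a j = 0 := by
  letI := algebraAlong α
  have hsp : ⊤ ≤ Submodule.span E (Set.range y) := by
    intro f _
    obtain ⟨a, rfl⟩ := hspan f
    refine Submodule.sum_mem _ fun j _ => ?_
    have h1 : α (a j) * y j = a j • y j := rfl
    rw [h1]
    exact Submodule.smul_mem _ _ (Submodule.subset_span ⟨j, rfl⟩)
  have hli : LinearIndependent E y :=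
    linearIndependent_of_top_le_span_of_card_eq_finrank hsp hcard
  intro a ha j
  exact (Fintype.linearIndependent_iff.mp hli) a ha j

end Li

/-! ### Level `Mq` -/

local notation "Qb" => AlgebraicClosure ℚ

section Mq

variable (M q : ℕ) [NeZero M] [NeZero q] [Fact q.Prime] (hqM : ¬ q ∣ M)
  (A : ValuationSubring Qb) (hA : A.LiesOverPrime q)

/-- the residue map of `h60_R1` on constants, in `resK` form -/
theorem h22_R1_resK (a : Qb) (ha : a ∈ A) :
    (h60_R1 M q hqM A hA).resK a = IsLocalRing.residue A ⟨a, ha⟩ := by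
  have ha' : a ∈ (h60_R1 M q hqM A hA).A := by
    rw [h60_R1_A]
    exact ha
  rw [(h60_R1 M q hqM A hA).resK_of_mem ha']
  exact h60_R1_res M q hqM A hA a ha' ha

/-- The power basis `j_q^i = β(j)^i`, `i ≤ q`, of `F(Mq)` over `α(F(M))`. -/
def h22_yMq : Fin (q + 1) → ↥(modularFunctionFieldBar (M * q)) :=
  fun i => heckeBetaBar Qb M q (h59_jbar M) ^ (i : ℕ)

theorem h22_comb_eq (a : Fin (q + 1) → ↥(modularFunctionFieldBar M)) :
    h60_comb M q a = ∑ i, heckeAlphaBar Qb M q (a i) * h22_yMq M q i := rfl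

include hqM in
/-- (PB), spanning. -/
theorem h22_yMq_span (f : ↥(modularFunctionFieldBar (M * q))) :
    ∃ a : Fin (q + 1) → ↥(modularFunctionFieldBar M),
      f = ∑ i, heckeAlphaBar Qb M q (a i) * h22_yMq M q i :=
  h60_powerBasis M q Fact.out hqM f

include hqM in
/-- (PB), uniqueness. -/
theorem h22_yMq_li (a : Fin (q + 1) → ↥(modularFunctionFieldBar M))
    (h : ∑ i, heckeAlphaBar Qb M q (a i) * h22_yMq M q i = 0) : ∀ i, a i = 0 :=
  h22_li_of_span_card (heckeAlphaBar Qb M q) (h22_yMq M q) (h22_yMq_span M q hqM)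
    (by rw [Fintype.card_fin, h19_DEG M q Fact.out hqM]) a h

include hqM in
theorem h22_comb_li (a : Fin (q + 1) → ↥(modularFunctionFieldBar M))
    (h : h60_comb M q a = 0) : ∀ i, a i = 0 :=
  h22_yMq_li M q hqM a h

/-- **The lattice datum of level `Mq`**: `O = O₁ ∩ O₂`, `red = (red₁, red₂)`, for `R₁ = h60_R1`
and a second reduction datum `R₂` with the same constants. -/
def h22_latMq
    (R₂ : h39_RedDatum Qb ↥(modularFunctionFieldBar (M * q)) (IsLocalRing.ResidueField A)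
      ↥(modularFunctionFieldFullC (IsLocalRing.ResidueField A) M))
    (hA₂ : R₂.A = A)
    (hres₂ : ∀ (a : Qb) (ha : a ∈ A), R₂.resK a = IsLocalRing.residue A ⟨a, ha⟩) :
    h22_Lat Qb ↥(modularFunctionFieldBar (M * q)) (IsLocalRing.ResidueField A)
      (↥(modularFunctionFieldFullC (IsLocalRing.ResidueField A) M) ×
        ↥(modularFunctionFieldFullC (IsLocalRing.ResidueField A) M)) :=
  h22_latOfPair (h60_R1 M q hqM A hA) R₂ A (IsLocalRing.residue A)
    IsLocalRing.residue_surjective (h60_R1_A M q hqM A hA) hA₂ (h22_R1_resK M q hqM A hA) hres₂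

variable (R₂ : h39_RedDatum Qb ↥(modularFunctionFieldBar (M * q)) (IsLocalRing.ResidueField A)
      ↥(modularFunctionFieldFullC (IsLocalRing.ResidueField A) M))
    (hA₂ : R₂.A = A)
    (hres₂ : ∀ (a : Qb) (ha : a ∈ A), R₂.resK a = IsLocalRing.residue A ⟨a, ha⟩)

theorem h22_latMq_mem {f : ↥(modularFunctionFieldBar (M * q))} :
    f ∈ (h22_latMq M q hqM A hA R₂ hA₂ hres₂).O ↔ f ∈ (h60_R1 M q hqM A hA).O ∧ f ∈ R₂.O :=
  Iff.rfl

theorem h22_latMq_A : (h22_latMq M q hqM A hA R₂ hA₂ hres₂).A = A := rfl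

theorem h22_latMq_redF {f : ↥(modularFunctionFieldBar (M * q))}
    (hf₁ : f ∈ (h60_R1 M q hqM A hA).O) (hf₂ : f ∈ R₂.O) :
    (h22_latMq M q hqM A hA R₂ hA₂ hres₂).redF f = ((h60_R1 M q hqM A hA).redF f, R₂.redF f) :=
  h22_latOfPair_redF _ _ _ _ _ _ _ _ _ hf₁ hf₂

theorem h22_latMq_red (f : ↥(modularFunctionFieldBar (M * q)))
    (hf : f ∈ (h22_latMq M q hqM A hA R₂ hA₂ hres₂).O) :
    (h22_latMq M q hqM A hA R₂ hA₂ hres₂).red ⟨f, hf⟩ =
      ((h60_R1 M q hqM A hA).redF f, R₂.redF f) :=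
  h22_pairRed_apply _ R₂ ⟨f, hf⟩

/-- **hinv** at level `Mq`. -/
theorem h22_latMq_hinv (f : ↥(modularFunctionFieldBar (M * q)))
    (hf : f ∈ (h22_latMq M q hqM A hA R₂ hA₂ hres₂).O)
    (hu : IsUnit ((h22_latMq M q hqM A hA R₂ hA₂ hres₂).red ⟨f, hf⟩)) :
    f⁻¹ ∈ (h22_latMq M q hqM A hA R₂ hA₂ hres₂).O :=
  h22_latOfPair_hinv _ _ _ _ _ _ _ _ _ f hf hu

include hA in
/-- **rank one** of the constants. -/
theorem h22_latMq_rankOne : h39_RankOne (h22_latMq M q hqM A hA R₂ hA₂ hres₂).A :=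
  h64_rankOne_h39 (Fact.out : q.Prime) A hA

/-- **[G1] at level `Mq`**: the lattice `O₁ ∩ O₂` has orthonormal bases, given a level-`M` weak
chart `x_M`, that `α(x_M)` is a chart for `R₂`, and `O₁ ∩ O₂ = ⊕ α(O_M) j_q^i`. -/
theorem h22_on_Mq
    {RM : h39_RedDatum Qb ↥(modularFunctionFieldBar M) (IsLocalRing.ResidueField A)
      ↥(modularFunctionFieldFullC (IsLocalRing.ResidueField A) M)}
    (hRM : h54_IsModRed M A RM) {xM : ↥(modularFunctionFieldBar M)} (hxM : h39_WeakChart RM xM)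
    (hx₂ : heckeAlphaBar Qb M q xM ∈ R₂.O)
    (htr₂ : Transcendental (IsLocalRing.ResidueField A) (R₂.redF (heckeAlphaBar Qb M q xM)))
    (hFRAME0 : ∀ a : Fin (q + 1) → ↥(modularFunctionFieldBar M),
      (h60_comb M q a ∈ (h60_R1 M q hqM A hA).O ∧ h60_comb M q a ∈ R₂.O) ↔ ∀ i, a i ∈ RM.O) :
    h22_ON (h22_latMq M q hqM A hA R₂ hA₂ hres₂) := by
  obtain ⟨b, -, -, hb⟩ := h39_exists_basis RM hxM
  have hx₁ := h60_R1_alpha_mem M q hqM A hA hRM ⟨xM, hxM.mem⟩
  have hred₁ : (h60_R1 M q hqM A hA).redF (heckeAlphaBar Qb M q xM) = RM.redF xM := by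
    rw [(h60_R1 M q hqM A hA).redF_of_mem hx₁, RM.redF_of_mem hxM.mem]
    exact h60_R1_alpha M q hqM A hA hRM ⟨xM, hxM.mem⟩
  have htr₁ : Transcendental (IsLocalRing.ResidueField A)
      ((h60_R1 M q hqM A hA).redF (heckeAlphaBar Qb M q xM)) := by
    rw [hred₁]
    exact hxM.transcendental
  exact h22_on_of_pair_tower RM (h60_R1 M q hqM A hA) R₂ A (IsLocalRing.residue A)
    IsLocalRing.residue_surjective hRM.A_eq (h60_R1_A M q hqM A hA) hA₂
    (h22_R1_resK M q hqM A hA) hres₂ (heckeAlphaBar Qb M q) hxM.mem hxM.transcendental hx₁ hx₂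
    htr₁ htr₂ b hb (h22_yMq M q) (h22_yMq_span M q hqM) (h22_yMq_li M q hqM) hFRAME0

/-- The same with the level-`M` datum `h54_redDatum` and the chart `j` (no condition on `q`). -/
theorem h22_on_Mq_j
    (hx₂ : heckeAlphaBar Qb M q (h59_jbar M) ∈ R₂.O)
    (htr₂ : Transcendental (IsLocalRing.ResidueField A)
      (R₂.redF (heckeAlphaBar Qb M q (h59_jbar M))))
    (hFRAME0 : ∀ a : Fin (q + 1) → ↥(modularFunctionFieldBar M),
      (h60_comb M q a ∈ (h60_R1 M q hqM A hA).O ∧ h60_comb M q a ∈ R₂.O) ↔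
        ∀ i, a i ∈ (h54_redDatum M hqM A hA).O) :
    h22_ON (h22_latMq M q hqM A hA R₂ hA₂ hres₂) :=
  h22_on_Mq M q hqM A hA R₂ hA₂ hres₂ (h54_isModRed M hqM A hA) (h54_weakChart_j M hqM A hA)
    hx₂ htr₂ hFRAME0

end Mq

section Phi

variable (M q : ℕ) [NeZero q] [Fact q.Prime] (k : Type) [Field k] [CharP k q] [PerfectField k]

/-- `φ` (the `V`-operator) preserves transcendence over `k`: so `red₂(α x_M) = φ(x̄_M)` is
transcendental. -/
theorem h22_transcendental_phi {x : ↥(modularFunctionFieldFullC k M)}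
    (hx : Transcendental k x) : Transcendental k (h60_phi M q k x) := by
  rw [transcendental_iff] at hx ⊢
  intro p hp
  apply hx p
  have h1 : h60_phi M q k (aeval x p) = aeval (h60_phi M q k x) p := by
    rw [aeval_def, aeval_def, Polynomial.hom_eval₂]
    congr 1
    exact RingHom.ext fun c => h60_phi_algebraMap M q k c
  have h2 : h60_phi M q k (aeval x p) = 0 := by rw [h1, hp]
  exact (map_eq_zero_iff _ (h60_phi M q k).injective).mp h2

end Phi

end Fermat.Agent.S34
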