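import Mathlib
import Fermat.Agent.S18.GR_RedAPI

/-!
# S34 / MOD-B, generic part (helper39): transport of a reduction datum, (SEP), (FRAME0)

Generic (no modular input).  `R : h39_RedDatum K F k Fb` a reduction datum (S18) and
`w : F →+* F` an involution of `F` fixing the constants `K`.

* `h39_transport R w hwK hww` : **(V2)** the transported datum, `O₂ = w⁻¹ O`, `red₂ = red ∘ w`;
  `h39_mem_transport`, `h39_transport_redF`, `h39_transport_A`, `h39_transport_resK`;
* `h39_transport_stable` : **(GAL), transport step**: a map `g` commuting with `w` which preserves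
  `O` and the reductions preserves `O₂` and the reductions of the transported datum;
* `h39_sep` : **(SEP)** from two elements `a`, `b = w a` of `O` with `red b = (red a) ^ n` and
  `red a ≠ (red b) ^ n` (for the modular tower: `a = j`, `b = j_q`, `n = q`): an element
  `t` with `t, w t ∈ O`, `red t = 1`, `red (w t) = 0`;
* `h39_sep_transport` : the same in terms of the transported datum, both ways round;
* `h39_pair_lift`, `h39_pair_surjective` : with a separating element the simultaneous reduction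
  `O₁ ∩ O₂ → Fb₁ × Fb₂` of two reduction data is surjective;
* `h39_frame0` : **(FRAME0)** in the shape of the hypothesis `hO` of `h22_on_of_pair_tower`:
  if `RE` is a reduction datum on a subfield `E` (embedded by `α`), `y j ∈ O₁ ∩ O₂`,
  `α (RE.O) ⊆ O₁ ∩ O₂` and the kernel statement (KER) holds, then
  `∑ α (a j) y j ∈ O₁ ∩ O₂ ↔ ∀ j, a j ∈ RE.O`.
-/

set_option autoImplicit false

noncomputable section

open Fermat.Agent.S18

namespace Fermat.Agent.S34

variable {K F k Fb : Type*} [Field K] [Field F] [Algebra K F] [Field k] [Field Fb] [Algebra k Fb]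

/-! ### (V2) transport along an involution -/

/-- The map `w⁻¹ O → O` induced by `w`. -/
def h39_transportHom (R : h39_RedDatum K F k Fb) (w : F →+* F) : ↥(R.O.comap w) →+* ↥R.O where
  toFun f := ⟨w f.1, f.2⟩
  map_one' := Subtype.ext (map_one w)
  map_mul' f g := Subtype.ext (map_mul w f.1 g.1)
  map_zero' := Subtype.ext (map_zero w)
  map_add' f g := Subtype.ext (map_add w f.1 g.1)

/-- **(V2)** The transport of a reduction datum along an involution `w` of `F` fixing the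
constants: `O₂ = {f | w f ∈ O}`, `red₂ f = red (w f)`. -/
def h39_transport (R : h39_RedDatum K F k Fb) (w : F →+* F)
    (hwK : ∀ c : K, w (algebraMap K F c) = algebraMap K F c) (hww : ∀ x : F, w (w x) = x) :
    h39_RedDatum K F k Fb where
  A := R.A
  O := R.O.comap w
  res := R.res
  red := R.red.comp (h39_transportHom R w)
  res_surjective := R.res_surjective
  red_surjective := by
    intro fb
    obtain ⟨f, hf⟩ := R.red_surjective fb
    have hmem : w (f : F) ∈ R.O.comap w := by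
      rw [ValuationSubring.mem_comap, hww]
      exact f.2
    refine ⟨⟨w (f : F), hmem⟩, ?_⟩
    have h1 : h39_transportHom R w ⟨w (f : F), hmem⟩ = f := Subtype.ext (hww _)
    rw [RingHom.comp_apply, h1, hf]
  mem_iff := by
    intro a
    rw [ValuationSubring.mem_comap, hwK]
    exact R.mem_iff a
  red_algebraMap := by
    intro a ha ha'
    have h0 : algebraMap K F a ∈ R.O := (R.mem_iff a).mp ha
    have h1 : h39_transportHom R w ⟨algebraMap K F a, ha'⟩ = ⟨algebraMap K F a, h0⟩ :=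
      Subtype.ext (hwK a)
    rw [RingHom.comp_apply, h1]
    exact R.red_algebraMap a ha h0
  exists_scale := by
    intro f hf
    obtain ⟨c, hc, h1, h2⟩ := R.exists_scale (w f) ((map_ne_zero w).mpr hf)
    refine ⟨c, hc, ?_, ?_⟩
    · rw [ValuationSubring.mem_comap, map_mul, hwK]
      exact h1
    · rw [ValuationSubring.mem_comap, map_inv₀, map_mul, hwK]
      exact h2

section TransportAPI

variable (R : h39_RedDatum K F k Fb) (w : F →+* F)
  (hwK : ∀ c : K, w (algebraMap K F c) = algebraMap K F c) (hww : ∀ x : F, w (w x) = x)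

theorem h39_mem_transport {f : F} : f ∈ (h39_transport R w hwK hww).O ↔ w f ∈ R.O :=
  Iff.rfl

theorem h39_transport_A : (h39_transport R w hwK hww).A = R.A := rfl

theorem h39_transport_res : (h39_transport R w hwK hww).res = R.res := rfl

theorem h39_transport_resK (a : K) : (h39_transport R w hwK hww).resK a = R.resK a := rfl

theorem h39_transport_red (f : F) (hf : f ∈ (h39_transport R w hwK hww).O) :
    (h39_transport R w hwK hww).red ⟨f, hf⟩ = R.red ⟨w f, hf⟩ := rfl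

theorem h39_transport_redF (f : F) : (h39_transport R w hwK hww).redF f = R.redF (w f) := by
  by_cases h : w f ∈ R.O
  · rw [(h39_transport R w hwK hww).redF_of_mem ((h39_mem_transport R w hwK hww).mpr h),
      R.redF_of_mem h]
    rfl
  · rw [h62_redF_of_not_mem R h,
      h62_redF_of_not_mem (h39_transport R w hwK hww)
        (fun h' => h ((h39_mem_transport R w hwK hww).mp h'))]

/-- **(GAL), transport step.**  A map `g` of `F` commuting with `w` which preserves `O` and the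
reductions of `R` does the same for the transported datum. -/
theorem h39_transport_stable (g : F → F) (hwg : ∀ f : F, w (g f) = g (w f))
    (hR : ∀ (f : F) (h : f ∈ R.O), ∃ h' : g f ∈ R.O, R.red ⟨g f, h'⟩ = R.red ⟨f, h⟩)
    (f : F) (h : f ∈ (h39_transport R w hwK hww).O) :
    ∃ h' : g f ∈ (h39_transport R w hwK hww).O,
      (h39_transport R w hwK hww).red ⟨g f, h'⟩ = (h39_transport R w hwK hww).red ⟨f, h⟩ := by
  have h0 : w f ∈ R.O := (h39_mem_transport R w hwK hww).mp h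
  obtain ⟨h1, h2⟩ := hR (w f) h0
  have h3 : w (g f) ∈ R.O := by
    rw [hwg]
    exact h1
  refine ⟨(h39_mem_transport R w hwK hww).mpr h3, ?_⟩
  rw [h39_transport_red, h39_transport_red]
  have h4 : (⟨w (g f), h3⟩ : R.O) = ⟨g (w f), h1⟩ := Subtype.ext (hwg f)
  rw [h4]
  exact h2

end TransportAPI

/-! ### (SEP) -/

/-- **(SEP)**: if `a` and `b = w a` lie in `O` with `red b = (red a) ^ n` and
`red a ≠ (red b) ^ n`, then `t = (a - b ^ n) / ((b - a ^ n) + (a - b ^ n))` satisfies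
`t, w t ∈ O`, `red t = 1`, `red (w t) = 0`. -/
theorem h39_sep (R : h39_RedDatum K F k Fb) (w : F →+* F) (hww : ∀ x : F, w (w x) = x)
    {a b : F} (hab : w a = b) (ha : a ∈ R.O) (hb : b ∈ R.O) (n : ℕ)
    (h0 : R.redF b = R.redF a ^ n) (h1 : R.redF a ≠ R.redF b ^ n) :
    ∃ t : F, t ∈ R.O ∧ w t ∈ R.O ∧ R.redF t = 1 ∧ R.redF (w t) = 0 := by
  have hba : w b = a := by rw [← hab, hww]
  have hyO : b - a ^ n ∈ R.O := sub_mem hb (pow_mem ha n)
  have hzO : a - b ^ n ∈ R.O := sub_mem ha (pow_mem hb n)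
  have hwy : w (b - a ^ n) = a - b ^ n := by rw [map_sub, map_pow, hab, hba]
  have hwz : w (a - b ^ n) = b - a ^ n := by rw [map_sub, map_pow, hab, hba]
  have hredy : R.redF (b - a ^ n) = 0 := by
    rw [h39_redF_sub R hb (pow_mem ha n), h39_redF_pow R ha, h0, sub_self]
  have hredz : R.redF (a - b ^ n) ≠ 0 := by
    rw [h39_redF_sub R ha (pow_mem hb n), h39_redF_pow R hb]
    exact sub_ne_zero.mpr h1
  have hsO : (b - a ^ n) + (a - b ^ n) ∈ R.O := add_mem hyO hzO
  have hreds : R.redF ((b - a ^ n) + (a - b ^ n)) = R.redF (a - b ^ n) := by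
    rw [h39_redF_add R hyO hzO, hredy, zero_add]
  have hsne : R.redF ((b - a ^ n) + (a - b ^ n)) ≠ 0 := by
    rw [hreds]
    exact hredz
  obtain ⟨hsinv, hsinvred⟩ := h39_inv_of_redF_ne_zero R hsne
  have hws : w ((b - a ^ n) + (a - b ^ n)) = (b - a ^ n) + (a - b ^ n) := by
    rw [map_add, hwy, hwz, add_comm]
  have hwt : w ((a - b ^ n) * ((b - a ^ n) + (a - b ^ n))⁻¹)
      = (b - a ^ n) * ((b - a ^ n) + (a - b ^ n))⁻¹ := by
    rw [map_mul, map_inv₀, hws, hwz]
  refine ⟨(a - b ^ n) * ((b - a ^ n) + (a - b ^ n))⁻¹, mul_mem hzO hsinv, ?_, ?_, ?_⟩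
  · rw [hwt]
    exact mul_mem hyO hsinv
  · rw [h39_redF_mul R hzO hsinv, hsinvred, hreds, mul_inv_cancel₀ hredz]
  · rw [hwt, h39_redF_mul R hyO hsinv, hredy, zero_mul]

/-- **(SEP)** for a datum and its transport: separating elements both ways round. -/
theorem h39_sep_transport (R : h39_RedDatum K F k Fb) (w : F →+* F)
    (hwK : ∀ c : K, w (algebraMap K F c) = algebraMap K F c) (hww : ∀ x : F, w (w x) = x)
    {a b : F} (hab : w a = b) (ha : a ∈ R.O) (hb : b ∈ R.O) (n : ℕ)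
    (h0 : R.redF b = R.redF a ^ n) (h1 : R.redF a ≠ R.redF b ^ n) :
    (∃ t : F, t ∈ R.O ∧ t ∈ (h39_transport R w hwK hww).O ∧ R.redF t = 1 ∧
        (h39_transport R w hwK hww).redF t = 0) ∧
    (∃ t : F, t ∈ R.O ∧ t ∈ (h39_transport R w hwK hww).O ∧ R.redF t = 0 ∧
        (h39_transport R w hwK hww).redF t = 1) := by
  obtain ⟨t, ht, hwt, hr, hwr⟩ := h39_sep R w hww hab ha hb n h0 h1
  refine ⟨⟨t, ht, (h39_mem_transport R w hwK hww).mpr hwt, hr, ?_⟩,
    ⟨w t, hwt, (h39_mem_transport R w hwK hww).mpr (by rw [hww]; exact ht), hwr, ?_⟩⟩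
  · rw [h39_transport_redF]
    exact hwr
  · rw [h39_transport_redF, hww]
    exact hr

/-! ### Surjectivity of the simultaneous reduction -/

section PairSurj

variable {Fb₁ Fb₂ : Type*} [Field Fb₁] [Algebra k Fb₁] [Field Fb₂] [Algebra k Fb₂]

/-- With a separating element `t` (`red₁ t = 1`, `red₂ t = 0`) every residue `u` at `O₁` is the
reduction of an element of `O₁ ∩ O₂` whose reduction at `O₂` is `0`. -/
theorem h39_pair_lift (R₁ : h39_RedDatum K F k Fb₁) (R₂ : h39_RedDatum K F k Fb₂)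
    {t : F} (ht₁ : t ∈ R₁.O) (ht₂ : t ∈ R₂.O) (h1 : R₁.redF t = 1) (h2 : R₂.redF t = 0)
    (u : Fb₁) : ∃ f : F, f ∈ R₁.O ∧ f ∈ R₂.O ∧ R₁.redF f = u ∧ R₂.redF f = 0 := by
  obtain ⟨u', hu', hu'red⟩ := h39_redF_surjective R₁ u
  by_cases hu2 : u' ∈ R₂.O
  · refine ⟨u' * t, mul_mem hu' ht₁, mul_mem hu2 ht₂, ?_, ?_⟩
    · rw [h39_redF_mul R₁ hu' ht₁, h1, mul_one, hu'red]
    · rw [h39_redF_mul R₂ hu2 ht₂, h2, mul_zero]
  · -- `u' ∉ O₂`: `u'⁻¹` is a non-unit of `O₂`
    have hu0 : u' ≠ 0 := by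
      rintro rfl
      exact hu2 R₂.O.zero_mem
    have hinv2 : u'⁻¹ ∈ R₂.O := (R₂.O.mem_or_inv_mem u').resolve_left hu2
    have hinvred : R₂.redF u'⁻¹ = 0 := by
      rw [h39_redF_eq_zero_iff R₂ hinv2, inv_inv]
      exact Or.inr hu2
    have h1t₁ : 1 - t ∈ R₁.O := sub_mem R₁.O.one_mem ht₁
    have h1t₂ : 1 - t ∈ R₂.O := sub_mem R₂.O.one_mem ht₂
    have hr1t₁ : R₁.redF (1 - t) = 0 := by
      rw [h39_redF_sub R₁ R₁.O.one_mem ht₁, h39_redF_one, h1, sub_self]
    have hr1t₂ : R₂.redF (1 - t) = 1 := by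
      rw [h39_redF_sub R₂ R₂.O.one_mem ht₂, h39_redF_one, h2, sub_zero]
    -- the denominators
    have hd₁O : t + u' * (1 - t) ∈ R₁.O := add_mem ht₁ (mul_mem hu' h1t₁)
    have hd₁red : R₁.redF (t + u' * (1 - t)) = 1 := by
      rw [h39_redF_add R₁ ht₁ (mul_mem hu' h1t₁), h39_redF_mul R₁ hu' h1t₁, hr1t₁, mul_zero,
        add_zero, h1]
    have hd₁ne : R₁.redF (t + u' * (1 - t)) ≠ 0 := by
      rw [hd₁red]
      exact one_ne_zero
    obtain ⟨hd₁inv, hd₁invred⟩ := h39_inv_of_redF_ne_zero R₁ hd₁ne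
    have hd₂O : t * u'⁻¹ + (1 - t) ∈ R₂.O := add_mem (mul_mem ht₂ hinv2) h1t₂
    have hd₂red : R₂.redF (t * u'⁻¹ + (1 - t)) = 1 := by
      rw [h39_redF_add R₂ (mul_mem ht₂ hinv2) h1t₂, h39_redF_mul R₂ ht₂ hinv2, h2, zero_mul,
        zero_add, hr1t₂]
    have hd₂ne : R₂.redF (t * u'⁻¹ + (1 - t)) ≠ 0 := by
      rw [hd₂red]
      exact one_ne_zero
    obtain ⟨hd₂inv, hd₂invred⟩ := h39_inv_of_redF_ne_zero R₂ hd₂ne
    have hd₁0 : t + u' * (1 - t) ≠ 0 := by
      intro h
      rw [h, h39_redF_zero] at hd₁red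
      exact zero_ne_one hd₁red
    have hd₂0 : t * u'⁻¹ + (1 - t) ≠ 0 := by
      intro h
      rw [h, h39_redF_zero] at hd₂red
      exact zero_ne_one hd₂red
    have hEq : u' * (t * (t + u' * (1 - t))⁻¹) = t * (t * u'⁻¹ + (1 - t))⁻¹ := by
      have h3 : t + u' * (1 - t) = u' * (t * u'⁻¹ + (1 - t)) := by
        field_simp
      rw [h3, mul_inv]
      field_simp
    refine ⟨u' * (t * (t + u' * (1 - t))⁻¹), mul_mem hu' (mul_mem ht₁ hd₁inv), ?_, ?_, ?_⟩
    · rw [hEq]
      exact mul_mem ht₂ hd₂inv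
    · rw [h39_redF_mul R₁ hu' (mul_mem ht₁ hd₁inv), h39_redF_mul R₁ ht₁ hd₁inv, hd₁invred,
        hd₁red, h1, inv_one, mul_one, mul_one, hu'red]
    · rw [hEq, h39_redF_mul R₂ ht₂ hd₂inv, h2, zero_mul]

/-- With separating elements both ways round, the simultaneous reduction
`O₁ ∩ O₂ → Fb₁ × Fb₂` is surjective. -/
theorem h39_pair_surjective (R₁ : h39_RedDatum K F k Fb₁) (R₂ : h39_RedDatum K F k Fb₂)
    (hsep₁ : ∃ t : F, t ∈ R₁.O ∧ t ∈ R₂.O ∧ R₁.redF t = 1 ∧ R₂.redF t = 0)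
    (hsep₂ : ∃ t : F, t ∈ R₁.O ∧ t ∈ R₂.O ∧ R₁.redF t = 0 ∧ R₂.redF t = 1)
    (u : Fb₁) (v : Fb₂) :
    ∃ f : F, f ∈ R₁.O ∧ f ∈ R₂.O ∧ R₁.redF f = u ∧ R₂.redF f = v := by
  obtain ⟨t, ht₁, ht₂, h1, h2⟩ := hsep₁
  obtain ⟨t', ht'₁, ht'₂, h1', h2'⟩ := hsep₂
  obtain ⟨f, hf₁, hf₂, hfu, hf0⟩ := h39_pair_lift R₁ R₂ ht₁ ht₂ h1 h2 u
  obtain ⟨g, hg₂, hg₁, hgv, hg0⟩ := h39_pair_lift R₂ R₁ ht'₂ ht'₁ h2' h1' v
  refine ⟨f + g, add_mem hf₁ hg₁, add_mem hf₂ hg₂, ?_, ?_⟩
  · rw [h39_redF_add R₁ hf₁ hg₁, hfu, hg0, add_zero]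
  · rw [h39_redF_add R₂ hf₂ hg₂, hf0, hgv, zero_add]

end PairSurj

/-! ### (FRAME0) -/

section Frame0

variable {E FbE Fb₁ Fb₂ : Type*} [Field E] [Algebra K E] [Field FbE] [Algebra k FbE]
  [Field Fb₁] [Algebra k Fb₁] [Field Fb₂] [Algebra k Fb₂]

/-- the reduction of a non-unit constant vanishes -/
theorem h39_redF_const_mul_of_nonunit (R : h39_RedDatum K F k Fb) {c : K} (hc : c ∈ R.A)
    (hcinv : c⁻¹ ∉ R.A) {f : F} (hf : f ∈ R.O) : R.redF (algebraMap K F c * f) = 0 := by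
  have hcO : algebraMap K F c ∈ R.O := (R.mem_iff c).mp hc
  rw [h39_redF_mul R hcO hf, h39_redF_algebraMap R hc,
    (h39_resK_eq_zero_iff R hc).mpr (Or.inr hcinv), map_zero, zero_mul]

/-- **(FRAME0)**, in the shape of the hypothesis `hO` of `h22_on_of_pair_tower`.  `RE` a
reduction datum on `E`, `R₁, R₂` reduction data on `F ⊇ α(E)` with the same constants,
`α (RE.O) ⊆ O₁ ∩ O₂`, `y j ∈ O₁ ∩ O₂`, and **(KER)**: a combination `∑ α (a j) y j` with
coefficients in `RE.O` whose two reductions vanish has all `RE.red (a j) = 0`.  Then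
integrality of a combination is detected coefficientwise. -/
theorem h39_frame0 (RE : h39_RedDatum K E k FbE) (R₁ : h39_RedDatum K F k Fb₁)
    (R₂ : h39_RedDatum K F k Fb₂) (hA₁ : R₁.A = RE.A) (hA₂ : R₂.A = RE.A)
    (α : E →ₐ[K] F) {κ : Type*} [Fintype κ] (y : κ → F)
    (hα₁ : ∀ g : E, g ∈ RE.O → α g ∈ R₁.O) (hα₂ : ∀ g : E, g ∈ RE.O → α g ∈ R₂.O)
    (hy₁ : ∀ j, y j ∈ R₁.O) (hy₂ : ∀ j, y j ∈ R₂.O)
    (hker : ∀ a : κ → E, (∀ j, a j ∈ RE.O) → R₁.redF (∑ j, α (a j) * y j) = 0 →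
      R₂.redF (∑ j, α (a j) * y j) = 0 → ∀ j, RE.redF (a j) = 0)
    (a : κ → E) :
    (∑ j, α (a j) * y j ∈ R₁.O ∧ ∑ j, α (a j) * y j ∈ R₂.O) ↔ ∀ j, a j ∈ RE.O := by
  classical
  constructor
  · rintro ⟨hf₁, hf₂⟩
    by_cases hall : ∀ j, a j = 0
    · intro j
      rw [hall j]
      exact RE.O.zero_mem
    push Not at hall
    obtain ⟨j₁, hj₁⟩ := hall
    -- a coefficient of maximal size
    obtain ⟨j₀, -, hmax⟩ := Finset.exists_max_image Finset.univ
      (fun j => RE.O.valuation (a j)) ⟨j₁, Finset.mem_univ j₁⟩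
    have hj₀ : a j₀ ≠ 0 := by
      intro h0
      have h1 := hmax j₁ (Finset.mem_univ j₁)
      rw [h0, map_zero] at h1
      exact hj₁ ((map_eq_zero _).mp (le_antisymm h1 zero_le))
    obtain ⟨c, hc0, hcO, hcinv⟩ := RE.exists_scale (a j₀) hj₀
    have hcE : algebraMap K E c ≠ 0 := by
      rw [Ne, map_eq_zero]
      exact hc0
    -- all scaled coefficients are integral
    have hscaled : ∀ j, algebraMap K E c * a j ∈ RE.O := by
      intro j
      rw [← ValuationSubring.valuation_le_one_iff, map_mul]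
      have h1 : RE.O.valuation (algebraMap K E c * a j₀) ≤ 1 :=
        (ValuationSubring.valuation_le_one_iff _ _).mpr hcO
      rw [map_mul] at h1
      exact le_trans (mul_le_mul' le_rfl (hmax j (Finset.mem_univ j))) h1
    by_cases hcA : c⁻¹ ∈ RE.A
    · intro j
      have h1 : a j = algebraMap K E c⁻¹ * (algebraMap K E c * a j) := by
        rw [← mul_assoc, ← map_mul, inv_mul_cancel₀ hc0, map_one, one_mul]
      rw [h1]
      exact RE.O.mul_mem _ _ ((RE.mem_iff _).mp hcA) (hscaled j)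
    · exfalso
      have hcmem : c ∈ RE.A := (RE.A.mem_or_inv_mem c).resolve_right hcA
      have hsum : ∑ j, α (algebraMap K E c * a j) * y j
          = algebraMap K F c * ∑ j, α (a j) * y j := by
        rw [Finset.mul_sum]
        refine Finset.sum_congr rfl fun j _ => ?_
        rw [map_mul, AlgHom.commutes, mul_assoc]
      have hr₁ : R₁.redF (∑ j, α (algebraMap K E c * a j) * y j) = 0 := by
        rw [hsum]
        exact h39_redF_const_mul_of_nonunit R₁ (hA₁ ▸ hcmem) (hA₁ ▸ hcA) hf₁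
      have hr₂ : R₂.redF (∑ j, α (algebraMap K E c * a j) * y j) = 0 := by
        rw [hsum]
        exact h39_redF_const_mul_of_nonunit R₂ (hA₂ ▸ hcmem) (hA₂ ▸ hcA) hf₂
      have h0 := hker (fun j => algebraMap K E c * a j) hscaled hr₁ hr₂ j₀
      rcases (h39_redF_eq_zero_iff RE hcO).mp h0 with h | h
      · exact (mul_ne_zero hcE hj₀) h
      · exact h hcinv
  · intro h
    exact ⟨sum_mem fun j _ => mul_mem (hα₁ _ (h j)) (hy₁ j),
      sum_mem fun j _ => mul_mem (hα₂ _ (h j)) (hy₂ j)⟩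

end Frame0

end Fermat.Agent.S34

end
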