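import Mathlib
import Fermat.Agent.S34.h60_Pair
import Fermat.Agent.S34.h39_Transport

/-!
# S34, modular foundation (helper60): (FRAME0) for the pair `(R₁, R₂)`

* `h60_not_le` : neither of `O₁`, `O₂` contains the other;
* `h60_betaJ_pow_mem1/2` : `β(j)^i ∈ O₁ ∩ O₂`;
* `h60_R1_redF_comb_coe`, `h60_R2_redF_comb_coe` : the reductions of `∑ α(aᵢ) β(j)^i`
  (`aᵢ` integral) as series;
* `h60_ker_redF` : **(KER)** in `redF` form;
* `h60_frame0` : **(FRAME0)** `∑ α(aᵢ) β(j)^i ∈ O₁ ∩ O₂ ↔ ∀ i, aᵢ ∈ O_M`;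
* `h60_mem_inter_iff` : `f ∈ O₁ ∩ O₂ ↔ f = h60_comb a` with all `aᵢ ∈ O_M`.
-/

set_option autoImplicit false
set_option synthInstance.maxHeartbeats 400000

noncomputable section

open ModularCurve AlgebraicCurve IntermediateField

namespace Fermat.Agent.S34

open Fermat.Agent.S18 Fermat.Agent.S37 Fermat.Agent.S24

local notation "Qb" => AlgebraicClosure ℚ

section Frame0

variable (M q : ℕ) [NeZero M] [NeZero q] [Fact q.Prime] (hqM : ¬ q ∣ M)
  (A : ValuationSubring Qb) (hA : A.LiesOverPrime q)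

/-- Neither valuation ring of the pair contains the other. -/
theorem h60_not_le :
    ¬ (h60_R1 M q hqM A hA).O ≤ (h60_R2 M q hqM A hA).O ∧
      ¬ (h60_R2 M q hqM A hA).O ≤ (h60_R1 M q hqM A hA).O := by
  constructor
  · intro hle
    obtain ⟨t, h1, h2, h3, h4⟩ := h60_exists_sep M q hqM A hA
    have hne : (h60_R1 M q hqM A hA).redF t ≠ 0 := by
      rw [h3]
      exact one_ne_zero
    obtain ⟨hinv, -⟩ := h39_inv_of_redF_ne_zero (h60_R1 M q hqM A hA) hne
    have hinv2 : t⁻¹ ∈ (h60_R2 M q hqM A hA).O := hle hinv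
    have ht0 : t ≠ 0 := by
      rintro rfl
      rw [h39_redF_zero] at h3
      exact zero_ne_one h3
    have h5 := h39_redF_mul (h60_R2 M q hqM A hA) h2 hinv2
    rw [mul_inv_cancel₀ ht0, h39_redF_one, h4, zero_mul] at h5
    exact one_ne_zero h5
  · intro hle
    obtain ⟨t, h1, h2, h3, h4⟩ := h60_exists_sep' M q hqM A hA
    have hne : (h60_R2 M q hqM A hA).redF t ≠ 0 := by
      rw [h4]
      exact one_ne_zero
    obtain ⟨hinv, -⟩ := h39_inv_of_redF_ne_zero (h60_R2 M q hqM A hA) hne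
    have hinv1 : t⁻¹ ∈ (h60_R1 M q hqM A hA).O := hle hinv
    have ht0 : t ≠ 0 := by
      rintro rfl
      rw [h39_redF_zero] at h4
      exact zero_ne_one h4
    have h5 := h39_redF_mul (h60_R1 M q hqM A hA) h1 hinv1
    rw [mul_inv_cancel₀ ht0, h39_redF_one, h3, zero_mul] at h5
    exact one_ne_zero h5

variable {RM : h39_RedDatum Qb ↥(modularFunctionFieldBar M) (IsLocalRing.ResidueField A)
      ↥(modularFunctionFieldFullC (IsLocalRing.ResidueField A) M)}
  (hRM : h54_IsModRed M A RM)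

include hRM in
theorem h60_jbar_mem : h59_jbar M ∈ RM.O :=
  hRM.mem_of_integral _ _ (h54_coe_jbar M A)

include hRM in
theorem h60_betaJ_pow_mem1 (i : ℕ) :
    heckeBetaBar Qb M q (h59_jbar M) ^ i ∈ (h60_R1 M q hqM A hA).O :=
  pow_mem ((h60_R1_beta_mem_iff M q hqM A hA hRM _).mpr (h60_jbar_mem M A hRM)) i

include hRM in
theorem h60_betaJ_pow_mem2 (i : ℕ) :
    heckeBetaBar Qb M q (h59_jbar M) ^ i ∈ (h60_R2 M q hqM A hA).O :=
  pow_mem ((h60_R2_beta_mem_iff M q hqM A hA hRM _).mpr (h60_jbar_mem M A hRM)) i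

include hRM in
/-- `red₁(∑ α(aᵢ) β(j)^i) = ∑ āᵢ (j̄(q^ℓ))^i` for integral `aᵢ`. -/
theorem h60_R1_redF_comb_coe (a : Fin (q + 1) → ↥(modularFunctionFieldBar M))
    (ha : ∀ i, a i ∈ RM.O) :
    (((h60_R1 M q hqM A hA).redF (h60_comb M q a) :
        ↥(modularFunctionFieldFullC (IsLocalRing.ResidueField A) M)) :
          LaurentSeries (IsLocalRing.ResidueField A))
      = ∑ i, ((RM.redF (a i) : ↥(modularFunctionFieldFullC (IsLocalRing.ResidueField A) M)) :
            LaurentSeries (IsLocalRing.ResidueField A)) *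
          qExpand (IsLocalRing.ResidueField A) q (jqModC (IsLocalRing.ResidueField A)) ^ (i : ℕ) := by
  have hj := h60_jbar_mem M A hRM
  have hb : heckeBetaBar Qb M q (h59_jbar M) ∈ (h60_R1 M q hqM A hA).O :=
    (h60_R1_beta_mem_iff M q hqM A hA hRM _).mpr hj
  have hα : ∀ i, heckeAlphaBar Qb M q (a i) ∈ (h60_R1 M q hqM A hA).O := fun i =>
    (h60_R1_alpha_mem_iff M q hqM A hA hRM _).mpr (ha i)
  rw [h60_comb, h39_redF_sum _ _ _ (fun i _ => mul_mem (hα i) (pow_mem hb _))]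
  push_cast
  refine Finset.sum_congr rfl fun i _ => ?_
  rw [h39_redF_mul _ (hα i) (pow_mem hb _), h39_redF_pow _ hb,
    h60_R1_redF_alpha M q hqM A hA hRM]
  push_cast
  rw [h60_R1_redF_beta_coe M q hqM A hA hRM, h54_redF_jbar hRM]
  rfl

include hRM in
/-- `red₂(∑ α(aᵢ) β(j)^i) = ∑ āᵢ(q^ℓ) j̄^i` for integral `aᵢ`. -/
theorem h60_R2_redF_comb_coe (a : Fin (q + 1) → ↥(modularFunctionFieldBar M))
    (ha : ∀ i, a i ∈ RM.O) :
    (((h60_R2 M q hqM A hA).redF (h60_comb M q a) :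
        ↥(modularFunctionFieldFullC (IsLocalRing.ResidueField A) M)) :
          LaurentSeries (IsLocalRing.ResidueField A))
      = ∑ i, qExpand (IsLocalRing.ResidueField A) q
            ((RM.redF (a i) : ↥(modularFunctionFieldFullC (IsLocalRing.ResidueField A) M)) :
              LaurentSeries (IsLocalRing.ResidueField A)) *
          jqModC (IsLocalRing.ResidueField A) ^ (i : ℕ) := by
  have hj := h60_jbar_mem M A hRM
  have hb : heckeBetaBar Qb M q (h59_jbar M) ∈ (h60_R2 M q hqM A hA).O :=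
    (h60_R2_beta_mem_iff M q hqM A hA hRM _).mpr hj
  have hα : ∀ i, heckeAlphaBar Qb M q (a i) ∈ (h60_R2 M q hqM A hA).O := fun i =>
    (h60_R2_alpha_mem_iff M q hqM A hA hRM _).mpr (ha i)
  rw [h60_comb, h39_redF_sum _ _ _ (fun i _ => mul_mem (hα i) (pow_mem hb _))]
  push_cast
  refine Finset.sum_congr rfl fun i _ => ?_
  rw [h39_redF_mul _ (hα i) (pow_mem hb _), h39_redF_pow _ hb,
    h60_R2_redF_beta M q hqM A hA hRM]
  push_cast
  rw [h60_R2_redF_alpha_coe M q hqM A hA hRM, h54_redF_jbar hRM]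
  rfl

include hRM in
/-- **(KER)**: if both reductions of `∑ α(aᵢ) β(j)^i` (`aᵢ` integral) vanish then all `āᵢ`
vanish. -/
theorem h60_ker_redF (a : Fin (q + 1) → ↥(modularFunctionFieldBar M)) (ha : ∀ i, a i ∈ RM.O)
    (h1 : (h60_R1 M q hqM A hA).redF (h60_comb M q a) = 0)
    (h2 : (h60_R2 M q hqM A hA).redF (h60_comb M q a) = 0) :
    ∀ i, RM.redF (a i) = 0 := by
  have : CharP (IsLocalRing.ResidueField A) q := h19_residueField_charP A q hA
  have e1 := h60_R1_redF_comb_coe M q hqM A hA hRM a ha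
  have e2 := h60_R2_redF_comb_coe M q hqM A hA hRM a ha
  rw [h1] at e1
  rw [h2] at e2
  intro i
  exact Subtype.ext (h60_ker_series (IsLocalRing.ResidueField A) q
    (fun i => ((RM.redF (a i) : ↥(modularFunctionFieldFullC (IsLocalRing.ResidueField A) M)) :
      LaurentSeries (IsLocalRing.ResidueField A))) e1.symm e2.symm i)

include hRM in
/-- **(FRAME0)**: `∑ α(aᵢ) β(j)^i ∈ O₁ ∩ O₂` iff all `aᵢ` are integral at level `M`. -/
theorem h60_frame0 (a : Fin (q + 1) → ↥(modularFunctionFieldBar M)) :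
    (h60_comb M q a ∈ (h60_R1 M q hqM A hA).O ∧ h60_comb M q a ∈ (h60_R2 M q hqM A hA).O)
      ↔ ∀ i, a i ∈ RM.O :=
  h39_frame0 RM (h60_R1 M q hqM A hA) (h60_R2 M q hqM A hA)
    ((h60_R1_A M q hqM A hA).trans hRM.A_eq.symm) ((h60_R2_A M q hqM A hA).trans hRM.A_eq.symm)
    (heckeAlphaBar Qb M q) (fun i : Fin (q + 1) => heckeBetaBar Qb M q (h59_jbar M) ^ (i : ℕ))
    (fun g hg => (h60_R1_alpha_mem_iff M q hqM A hA hRM g).mpr hg)
    (fun g hg => (h60_R2_alpha_mem_iff M q hqM A hA hRM g).mpr hg)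
    (fun i => h60_betaJ_pow_mem1 M q hqM A hA hRM i)
    (fun i => h60_betaJ_pow_mem2 M q hqM A hA hRM i)
    (fun a ha h1 h2 => h60_ker_redF M q hqM A hA hRM a ha h1 h2) a

include hRM in
/-- `O₁ ∩ O₂` is the `O_M`-span of the power basis. -/
theorem h60_mem_inter_iff (f : ↥(modularFunctionFieldBar (M * q))) :
    (f ∈ (h60_R1 M q hqM A hA).O ∧ f ∈ (h60_R2 M q hqM A hA).O)
      ↔ ∃ a : Fin (q + 1) → ↥(modularFunctionFieldBar M), (∀ i, a i ∈ RM.O) ∧
          f = h60_comb M q a := by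
  constructor
  · intro hf
    obtain ⟨a, rfl⟩ := h60_powerBasis M q Fact.out hqM f
    exact ⟨a, (h60_frame0 M q hqM A hA hRM a).mp hf, rfl⟩
  · rintro ⟨a, ha, rfl⟩
    exact (h60_frame0 M q hqM A hA hRM a).mpr ha

end Frame0

end Fermat.Agent.S34

end
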