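import Mathlib
import Fermat.Agent.S34.h22_LatMq
import Fermat.Agent.S34.h22_LatInt
import Fermat.Agent.S34.h60_Frame0

/-!
# S34 / row LAT, final instantiation (helper22)

`h22_DMq M q hqM A hA` is the canonical lattice datum of level `Mq` (`q ∤ M` prime, `A` a
valuation ring of `ℚ̄` over `q`): `O = O₁ ∩ O₂` for `R₁ = h60_R1`, `R₂ = h60_R2 = R₁ ∘ w`, with
`red = (red₁, red₂) : O → Fb(M) × Fb(M)`.

* `h22_DMq_on` : **[G1]** — it has orthonormal bases (`h22_ON`), unconditionally (all `q`);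
* `h22_DMq_hinv`, `h22_DMq_rankOne`, `h22_DMq_ker`, `h22_DMq_mem`, `h22_DMq_redF`, `h22_DMq_red`;
* `h22_DMq_exists_frame` : a `K(x)`-frame for the chart `x = α(j)`, so that the integrality
  transfer of `h22_LatInt` applies: `h22_DMq_isIntegral_red`, `h22_DMq_exists_monic_eq`;
* `h22_DMq_surjective` : `red` is onto `Fb × Fb`.
-/

set_option autoImplicit false
set_option synthInstance.maxHeartbeats 400000

noncomputable section

open ModularCurve AlgebraicCurve IntermediateField Polynomial Module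
open Fermat.Agent.S18 Fermat.Agent.S37 Fermat.Agent.S24

namespace Fermat.Agent.S34

local notation "Qb" => AlgebraicClosure ℚ

section DMq

variable (M q : ℕ) [NeZero M] [NeZero q] [Fact q.Prime] (hqM : ¬ q ∣ M)
  (A : ValuationSubring Qb) (hA : A.LiesOverPrime q)

/-- the residue map of `h60_R2` on constants, in `resK` form -/
theorem h22_R2_resK (a : Qb) (ha : a ∈ A) :
    (h60_R2 M q hqM A hA).resK a = IsLocalRing.residue A ⟨a, ha⟩ := by
  have ha' : a ∈ (h60_R2 M q hqM A hA).A := by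
    rw [h60_R2_A]
    exact ha
  rw [(h60_R2 M q hqM A hA).resK_of_mem ha']
  exact h60_R2_res M q hqM A hA a ha' ha

/-- **The lattice datum of level `Mq`** (canonical name): `O = O₁ ∩ O₂`,
`red = (red₁, red₂) : O → Fb(M) × Fb(M)`. -/
def h22_DMq : h22_Lat Qb ↥(modularFunctionFieldBar (M * q)) (IsLocalRing.ResidueField A)
    (↥(modularFunctionFieldFullC (IsLocalRing.ResidueField A) M) ×
      ↥(modularFunctionFieldFullC (IsLocalRing.ResidueField A) M)) :=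
  h22_latMq M q hqM A hA (h60_R2 M q hqM A hA) (h60_R2_A M q hqM A hA)
    (h22_R2_resK M q hqM A hA)

theorem h22_DMq_eq : h22_DMq M q hqM A hA =
    h22_latOfPair (h60_R1 M q hqM A hA) (h60_R2 M q hqM A hA) A (IsLocalRing.residue A)
      IsLocalRing.residue_surjective (h60_R1_A M q hqM A hA) (h60_R2_A M q hqM A hA)
      (h22_R1_resK M q hqM A hA) (h22_R2_resK M q hqM A hA) := rfl

theorem h22_DMq_mem {f : ↥(modularFunctionFieldBar (M * q))} :
    f ∈ (h22_DMq M q hqM A hA).O ↔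
      f ∈ (h60_R1 M q hqM A hA).O ∧ f ∈ (h60_R2 M q hqM A hA).O := Iff.rfl

theorem h22_DMq_A : (h22_DMq M q hqM A hA).A = A := rfl

theorem h22_DMq_res : (h22_DMq M q hqM A hA).res = IsLocalRing.residue A := rfl

theorem h22_DMq_redF {f : ↥(modularFunctionFieldBar (M * q))}
    (hf₁ : f ∈ (h60_R1 M q hqM A hA).O) (hf₂ : f ∈ (h60_R2 M q hqM A hA).O) :
    (h22_DMq M q hqM A hA).redF f =
      ((h60_R1 M q hqM A hA).redF f, (h60_R2 M q hqM A hA).redF f) :=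
  h22_latMq_redF M q hqM A hA _ _ _ hf₁ hf₂

theorem h22_DMq_red (f : ↥(modularFunctionFieldBar (M * q)))
    (hf : f ∈ (h22_DMq M q hqM A hA).O) :
    (h22_DMq M q hqM A hA).red ⟨f, hf⟩ =
      ((h60_R1 M q hqM A hA).redF f, (h60_R2 M q hqM A hA).redF f) :=
  h22_latMq_red M q hqM A hA _ _ _ f hf

/-- **hinv**: an element of `O₁ ∩ O₂` with unit reduction is a unit of `O₁ ∩ O₂`. -/
theorem h22_DMq_hinv (f : ↥(modularFunctionFieldBar (M * q)))
    (hf : f ∈ (h22_DMq M q hqM A hA).O)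
    (hu : IsUnit ((h22_DMq M q hqM A hA).red ⟨f, hf⟩)) : f⁻¹ ∈ (h22_DMq M q hqM A hA).O :=
  h22_latMq_hinv M q hqM A hA _ _ _ f hf hu

/-- **rank one** of the constants. -/
theorem h22_DMq_rankOne : h39_RankOne (h22_DMq M q hqM A hA).A :=
  h64_rankOne_h39 (Fact.out : q.Prime) A hA

/-- `red₂(α j) = φ(j̄)` is transcendental. -/
theorem h22_R2_alpha_j :
    heckeAlphaBar Qb M q (h59_jbar M) ∈ (h60_R2 M q hqM A hA).O ∧
      Transcendental (IsLocalRing.ResidueField A)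
        ((h60_R2 M q hqM A hA).redF (heckeAlphaBar Qb M q (h59_jbar M))) := by
  have hRM := h54_isModRed M hqM A hA
  have hw := h54_weakChart_j M hqM A hA
  haveI : CharP (IsLocalRing.ResidueField A) q := h19_residueField_charP A q hA
  haveI : IsAlgClosed (IsLocalRing.ResidueField A) := h19_residueField_isAlgClosed A
  refine ⟨(h60_R2_alpha_mem_iff M q hqM A hA hRM (h59_jbar M)).mpr hw.mem, ?_⟩
  have h1 : (h60_R2 M q hqM A hA).redF (heckeAlphaBar Qb M q (h59_jbar M)) =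
      h60_phi M q (IsLocalRing.ResidueField A)
        ((h54_redDatum M hqM A hA).redF (h59_jbar M)) :=
    Subtype.ext (h60_R2_redF_alpha_coe M q hqM A hA hRM (h59_jbar M))
  rw [h1]
  exact h22_transcendental_phi M q _ hw.transcendental

/-- `red₁(α j) = j̄` is transcendental. -/
theorem h22_R1_alpha_j :
    heckeAlphaBar Qb M q (h59_jbar M) ∈ (h60_R1 M q hqM A hA).O ∧
      Transcendental (IsLocalRing.ResidueField A)
        ((h60_R1 M q hqM A hA).redF (heckeAlphaBar Qb M q (h59_jbar M))) := by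
  have hRM := h54_isModRed M hqM A hA
  have hw := h54_weakChart_j M hqM A hA
  refine ⟨(h60_R1_alpha_mem_iff M q hqM A hA hRM (h59_jbar M)).mpr hw.mem, ?_⟩
  rw [h60_R1_redF_alpha M q hqM A hA hRM]
  exact hw.transcendental

/-- **[G1] at level `Mq`**: every finite-dimensional `ℚ̄`-subspace `V` of `F(Mq)` has a basis in
`V ∩ O₁ ∩ O₂` with `k`-linearly independent reductions in `Fb × Fb`. -/
theorem h22_DMq_on : h22_ON (h22_DMq M q hqM A hA) :=
  h22_on_Mq_j M q hqM A hA (h60_R2 M q hqM A hA) (h60_R2_A M q hqM A hA)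
    (h22_R2_resK M q hqM A hA) (h22_R2_alpha_j M q hqM A hA).1 (h22_R2_alpha_j M q hqM A hA).2
    (h60_frame0 M q hqM A hA (h54_isModRed M hqM A hA))

/-- **`ker`**: an element of `O₁ ∩ O₂` with reduction `(0, 0)` is `a g` with `a ∈ 𝔪_A`,
`g ∈ O₁ ∩ O₂`. -/
theorem h22_DMq_ker (f : ↥(modularFunctionFieldBar (M * q)))
    (hf₁ : f ∈ (h60_R1 M q hqM A hA).O) (hf₂ : f ∈ (h60_R2 M q hqM A hA).O)
    (h1 : (h60_R1 M q hqM A hA).redF f = 0) (h2 : (h60_R2 M q hqM A hA).redF f = 0) :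
    ∃ a : Qb, a ∈ A.nonunits ∧ ∃ g : ↥(modularFunctionFieldBar (M * q)),
      (g ∈ (h60_R1 M q hqM A hA).O ∧ g ∈ (h60_R2 M q hqM A hA).O) ∧
        f = algebraMap Qb ↥(modularFunctionFieldBar (M * q)) a * g := by
  have h0 : (h22_DMq M q hqM A hA).red ⟨f, ⟨hf₁, hf₂⟩⟩ = 0 := by
    rw [h22_DMq_red, h1, h2]
    rfl
  exact (h22_DMq M q hqM A hA).ker f ⟨hf₁, hf₂⟩ h0

/-- A `K(x)`-frame of `F(Mq)` for the chart `x = α(j)`. -/
theorem h22_DMq_exists_frame :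
    ∃ (ι : Type) (_ : Fintype ι)
      (b : Module.Basis ι Qb⟮heckeAlphaBar Qb M q (h59_jbar M)⟯
        ↥(modularFunctionFieldBar (M * q))),
      ∀ f : ↥(modularFunctionFieldBar (M * q)),
        (f ∈ (h60_R1 M q hqM A hA).O ∧ f ∈ (h60_R2 M q hqM A hA).O) ↔
          ∀ j, ((b.repr f j : Qb⟮heckeAlphaBar Qb M q (h59_jbar M)⟯) :
              ↥(modularFunctionFieldBar (M * q))) ∈ (h60_R1 M q hqM A hA).O ∧
            ((b.repr f j : Qb⟮heckeAlphaBar Qb M q (h59_jbar M)⟯) :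
              ↥(modularFunctionFieldBar (M * q))) ∈ (h60_R2 M q hqM A hA).O := by
  have hRM := h54_isModRed M hqM A hA
  have hw := h54_weakChart_j M hqM A hA
  obtain ⟨b, -, -, hb⟩ := h39_exists_basis (h54_redDatum M hqM A hA) hw
  obtain ⟨B, -, -, hB⟩ := h22_frame_tower_mem (heckeAlphaBar Qb M q) (h59_jbar M) b
    (h22_yMq M q) (h22_yMq_span M q hqM) (h22_yMq_li M q hqM)
    {g | g ∈ (h54_redDatum M hqM A hA).O}
    {f | f ∈ (h60_R1 M q hqM A hA).O ∧ f ∈ (h60_R2 M q hqM A hA).O} hb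
    (h60_frame0 M q hqM A hA hRM)
    (fun t => ⟨fun h =>
        ⟨(h60_R1_alpha_mem_iff M q hqM A hA hRM _).mpr h,
          (h60_R2_alpha_mem_iff M q hqM A hA hRM _).mpr h⟩,
      fun h => (h60_R1_alpha_mem_iff M q hqM A hA hRM _).mp h.1⟩)
  exact ⟨_, inferInstance, B, hB⟩

/-- **(I1) at level `Mq`**: for `f ∈ O₁ ∩ O₂` integral over `ℚ̄[α j]` (i.e. regular off the
cusps), `red₁ f` is integral over `k[j̄]` and `red₂ f` is integral over `k[φ j̄]`. -/
theorem h22_DMq_isIntegral_red {f : ↥(modularFunctionFieldBar (M * q))}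
    (hf₁ : f ∈ (h60_R1 M q hqM A hA).O) (hf₂ : f ∈ (h60_R2 M q hqM A hA).O)
    (hint : IsIntegral (Algebra.adjoin Qb {heckeAlphaBar Qb M q (h59_jbar M)}) f) :
    IsIntegral (Algebra.adjoin (IsLocalRing.ResidueField A)
        {(h60_R1 M q hqM A hA).redF (heckeAlphaBar Qb M q (h59_jbar M))})
        ((h60_R1 M q hqM A hA).redF f) ∧
      IsIntegral (Algebra.adjoin (IsLocalRing.ResidueField A)
        {(h60_R2 M q hqM A hA).redF (heckeAlphaBar Qb M q (h59_jbar M))})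
        ((h60_R2 M q hqM A hA).redF f) := by
  obtain ⟨ι, _, b, hb⟩ := h22_DMq_exists_frame M q hqM A hA
  exact h22_pair_isIntegral_red (h60_R1 M q hqM A hA) (h60_R2 M q hqM A hA) A
    (IsLocalRing.residue A) IsLocalRing.residue_surjective (h60_R1_A M q hqM A hA)
    (h60_R2_A M q hqM A hA) (h22_R1_resK M q hqM A hA) (h22_R2_resK M q hqM A hA)
    (h22_R1_alpha_j M q hqM A hA).1 (h22_R2_alpha_j M q hqM A hA).1
    (h22_R1_alpha_j M q hqM A hA).2 (h22_R2_alpha_j M q hqM A hA).2 b hb hf₁ hf₂ hint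

/-- (INT-EQ) at level `Mq`: a monic equation over `A[α j]`. -/
theorem h22_DMq_exists_monic_eq {f : ↥(modularFunctionFieldBar (M * q))}
    (hf₁ : f ∈ (h60_R1 M q hqM A hA).O) (hf₂ : f ∈ (h60_R2 M q hqM A hA).O)
    (hint : IsIntegral (Algebra.adjoin Qb {heckeAlphaBar Qb M q (h59_jbar M)}) f) :
    ∃ G : Polynomial (Polynomial A), G.Monic ∧
      Polynomial.eval₂ (h22_evalF A (heckeAlphaBar Qb M q (h59_jbar M))) f G = 0 := by
  obtain ⟨ι, _, b, hb⟩ := h22_DMq_exists_frame M q hqM A hA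
  exact h22_pair_exists_monic_eq (h60_R1 M q hqM A hA) (h60_R2 M q hqM A hA) A
    (IsLocalRing.residue A) IsLocalRing.residue_surjective (h60_R1_A M q hqM A hA)
    (h60_R2_A M q hqM A hA) (h22_R1_resK M q hqM A hA) (h22_R2_resK M q hqM A hA)
    (h22_R1_alpha_j M q hqM A hA).1 (h22_R2_alpha_j M q hqM A hA).1
    (h22_R1_alpha_j M q hqM A hA).2 (h22_R2_alpha_j M q hqM A hA).2 b hb hf₁ hf₂ hint

/-- `red = (red₁, red₂) : O₁ ∩ O₂ → Fb × Fb` is surjective. -/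
theorem h22_DMq_surjective
    (u v : ↥(modularFunctionFieldFullC (IsLocalRing.ResidueField A) M)) :
    ∃ f : ↥(modularFunctionFieldBar (M * q)), ∃ hf : f ∈ (h22_DMq M q hqM A hA).O,
      (h22_DMq M q hqM A hA).red ⟨f, hf⟩ = (u, v) := by
  obtain ⟨t, ht₁, ht₂, h1, h2⟩ := h60_exists_sep M q hqM A hA
  obtain ⟨s, hs₁, hs₂, h3, h4⟩ := h60_exists_sep' M q hqM A hA
  obtain ⟨a, ha₁, hau⟩ := h39_redF_surjective (h60_R1 M q hqM A hA) u
  obtain ⟨c, hc₂, hcv⟩ := h39_redF_surjective (h60_R2 M q hqM A hA) v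
  -- scale `a` into `O₂` and `c` into `O₁` is not needed: use `t a' + s c'` with lifts in `O₁ ∩ O₂`
  -- lifts of `u` and `v` in `O₁ ∩ O₂` via the other component's separating element
  have key₁ : ∃ f, f ∈ (h60_R1 M q hqM A hA).O ∧ f ∈ (h60_R2 M q hqM A hA).O ∧
      (h60_R1 M q hqM A hA).redF f = u ∧ (h60_R2 M q hqM A hA).redF f = 0 := by
    by_cases hu : u = 0
    · refine ⟨0, zero_mem _, zero_mem _, ?_, h39_redF_zero _⟩
      rw [h39_redF_zero, hu]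
    have ha0 : a ≠ 0 := by
      rintro rfl
      rw [h39_redF_zero] at hau
      exact hu hau.symm
    -- `t a` if `a ∈ O₂`, else `t / (t + s a⁻¹ ...)`: use the valuation ring property of `O₂`
    rcases (h60_R2 M q hqM A hA).O.mem_or_inv_mem a with ha₂ | ha₂
    · refine ⟨t * a, mul_mem ht₁ ha₁, mul_mem ht₂ ha₂, ?_, ?_⟩
      · rw [h39_redF_mul _ ht₁ ha₁, h1, one_mul, hau]
      · rw [h39_redF_mul _ ht₂ ha₂, h2, zero_mul]
    · -- `a⁻¹ ∈ O₂` and `a⁻¹ ∈ O₁` with `red₁ a⁻¹ = u⁻¹`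
      have hau' : (h60_R1 M q hqM A hA).redF a ≠ 0 := by
        rw [hau]
        exact hu
      obtain ⟨hai₁, hai⟩ := h39_inv_of_redF_ne_zero (h60_R1 M q hqM A hA) hau'
      -- `g := t a⁻¹ + s` has reductions `(u⁻¹, 1)`, so `g⁻¹ ∈ O₁ ∩ O₂` with reductions `(u, 1)`
      set g := t * a⁻¹ + s with hg
      have hg₁ : g ∈ (h60_R1 M q hqM A hA).O := add_mem (mul_mem ht₁ hai₁) hs₁
      have hg₂ : g ∈ (h60_R2 M q hqM A hA).O := add_mem (mul_mem ht₂ ha₂) hs₂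
      have hgr₁ : (h60_R1 M q hqM A hA).redF g = u⁻¹ := by
        rw [hg, h39_redF_add _ (mul_mem ht₁ hai₁) hs₁, h39_redF_mul _ ht₁ hai₁, h1, h3, hai, hau,
          one_mul, add_zero]
      have hgr₂ : (h60_R2 M q hqM A hA).redF g = 1 := by
        rw [hg, h39_redF_add _ (mul_mem ht₂ ha₂) hs₂, h39_redF_mul _ ht₂ ha₂, h2, h4, zero_mul,
          zero_add]
      have hne₁ : (h60_R1 M q hqM A hA).redF g ≠ 0 := by
        rw [hgr₁]
        exact inv_ne_zero hu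
      have hne₂ : (h60_R2 M q hqM A hA).redF g ≠ 0 := by
        rw [hgr₂]
        exact one_ne_zero
      obtain ⟨hgi₁, hgir₁⟩ := h39_inv_of_redF_ne_zero (h60_R1 M q hqM A hA) hne₁
      obtain ⟨hgi₂, hgir₂⟩ := h39_inv_of_redF_ne_zero (h60_R2 M q hqM A hA) hne₂
      refine ⟨t * g⁻¹, mul_mem ht₁ hgi₁, mul_mem ht₂ hgi₂, ?_, ?_⟩
      · rw [h39_redF_mul _ ht₁ hgi₁, h1, one_mul, hgir₁, hgr₁, inv_inv]
      · rw [h39_redF_mul _ ht₂ hgi₂, h2, zero_mul]
  have key₂ : ∃ f, f ∈ (h60_R1 M q hqM A hA).O ∧ f ∈ (h60_R2 M q hqM A hA).O ∧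
      (h60_R1 M q hqM A hA).redF f = 0 ∧ (h60_R2 M q hqM A hA).redF f = v := by
    by_cases hv : v = 0
    · refine ⟨0, zero_mem _, zero_mem _, h39_redF_zero _, ?_⟩
      rw [h39_redF_zero, hv]
    have hc0 : c ≠ 0 := by
      rintro rfl
      rw [h39_redF_zero] at hcv
      exact hv hcv.symm
    rcases (h60_R1 M q hqM A hA).O.mem_or_inv_mem c with hc₁ | hc₁
    · refine ⟨s * c, mul_mem hs₁ hc₁, mul_mem hs₂ hc₂, ?_, ?_⟩
      · rw [h39_redF_mul _ hs₁ hc₁, h3, zero_mul]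
      · rw [h39_redF_mul _ hs₂ hc₂, h4, one_mul, hcv]
    · have hcv' : (h60_R2 M q hqM A hA).redF c ≠ 0 := by
        rw [hcv]
        exact hv
      obtain ⟨hci₂, hci⟩ := h39_inv_of_redF_ne_zero (h60_R2 M q hqM A hA) hcv'
      set g := s * c⁻¹ + t with hg
      have hg₁ : g ∈ (h60_R1 M q hqM A hA).O := add_mem (mul_mem hs₁ hc₁) ht₁
      have hg₂ : g ∈ (h60_R2 M q hqM A hA).O := add_mem (mul_mem hs₂ hci₂) ht₂
      have hgr₁ : (h60_R1 M q hqM A hA).redF g = 1 := by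
        rw [hg, h39_redF_add _ (mul_mem hs₁ hc₁) ht₁, h39_redF_mul _ hs₁ hc₁, h3, h1, zero_mul,
          zero_add]
      have hgr₂ : (h60_R2 M q hqM A hA).redF g = v⁻¹ := by
        rw [hg, h39_redF_add _ (mul_mem hs₂ hci₂) ht₂, h39_redF_mul _ hs₂ hci₂, h4, h2, hci, hcv,
          one_mul, add_zero]
      have hne₁ : (h60_R1 M q hqM A hA).redF g ≠ 0 := by
        rw [hgr₁]
        exact one_ne_zero
      have hne₂ : (h60_R2 M q hqM A hA).redF g ≠ 0 := by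
        rw [hgr₂]
        exact inv_ne_zero hv
      obtain ⟨hgi₁, hgir₁⟩ := h39_inv_of_redF_ne_zero (h60_R1 M q hqM A hA) hne₁
      obtain ⟨hgi₂, hgir₂⟩ := h39_inv_of_redF_ne_zero (h60_R2 M q hqM A hA) hne₂
      refine ⟨s * g⁻¹, mul_mem hs₁ hgi₁, mul_mem hs₂ hgi₂, ?_, ?_⟩
      · rw [h39_redF_mul _ hs₁ hgi₁, h3, zero_mul]
      · rw [h39_redF_mul _ hs₂ hgi₂, h4, one_mul, hgir₂, hgr₂, inv_inv]
  obtain ⟨f₁, hf₁₁, hf₁₂, hr₁₁, hr₁₂⟩ := key₁
  obtain ⟨f₂, hf₂₁, hf₂₂, hr₂₁, hr₂₂⟩ := key₂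
  refine ⟨f₁ + f₂, ⟨add_mem hf₁₁ hf₂₁, add_mem hf₁₂ hf₂₂⟩, ?_⟩
  rw [h22_DMq_red, h39_redF_add _ hf₁₁ hf₂₁, h39_redF_add _ hf₁₂ hf₂₂, hr₁₁, hr₁₂, hr₂₁, hr₂₂,
    add_zero, zero_add]

end DMq

end Fermat.Agent.S34
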