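import Mathlib
import Fermat.Agent.S34.h11_CuspLift
import Fermat.Agent.S34.h10_CuspMq
import Fermat.Agent.S34.h60_Pair
import Fermat.Agent.S34.h51_Glue

/-!
# S34, (GRAPH on R∞) (helper31)

Level `M`, `q ∤ M` a prime, `A` a valuation ring of `ℚ̄` over `q`, `k` its residue field,
`Fb = Fb(M)` the reduced function field, `Qinf = h11_placeInftyC k M` its cusp.  `R₁ = h60_R1`,
`R₂ = h60_R2` the two reductions of `F = F(Mq)`, `Pinf`, `P0` the two cusps of `F` over the cusp
of level `M` (`h10_IsCusp`, `h10_IsCusp0` for the swap `h60_w`), `D0 = (Pinf) + (P0)`.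

* `h31_lift_off_cusp` : every `b ∈ Fb` regular off `Qinf` is the reduction of a `g ∈ F(M)`,
  integral, regular off the cusp of level `M`;
* `h31_graph_exists` : for such `b` there are `n` and `g` with `α g, β g ∈ L(n D0) ∩ O₁ ∩ O₂`,
  `red₁ (α g) = b = red₂ (β g)`, `red₁ (β g) = φ b = red₂ (α g)` (`φ b = b(q^q)`);
* `h31_graph` : **(GRAPH)** for every lattice datum `D` with `D.O = O₁ ∩ O₂` and
  `D.redF = (red₁, red₂)`: `(b, φ b)` and `(φ b, b)` lie in `red (L(n D0) ∩ O)` for some `n`.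
-/

set_option autoImplicit false
set_option synthInstance.maxHeartbeats 400000

noncomputable section

open AlgebraicCurve ModularCurve IntermediateField

namespace Fermat.Agent.S34

open Fermat.Agent.S18 Fermat.Agent.S24 Fermat.Agent.S37

local notation "Qb" => AlgebraicClosure ℚ

section Generic

/-- Membership in `L(n ((P₁) + (P₂)))`: regular off `{P₁, P₂}` with pole orders `≤ n` there. -/
theorem h31_mem_rr_two {K F : Type*} [Field K] [Field F] [Algebra K F] (P1 P2 : Place K F)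
    (n : ℕ) (f : F) (h0 : ∀ P : Place K F, P ≠ P1 → P ≠ P2 → 0 ≤ P.ord f)
    (h1 : -(n : ℤ) ≤ P1.ord f) (h2 : -(n : ℤ) ≤ P2.ord f) :
    f ∈ riemannRochSpace (n • (Finsupp.single P1 (1 : ℤ) + Finsupp.single P2 (1 : ℤ))) := by
  classical
  rw [mem_riemannRochSpace_iff]
  intro P
  right
  rw [Finsupp.smul_apply, Finsupp.add_apply, Finsupp.single_apply, Finsupp.single_apply,
    nsmul_eq_mul]
  have hn : (0 : ℤ) ≤ (n : ℤ) := Int.natCast_nonneg n
  by_cases hP1 : P1 = P
  · subst hP1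
    by_cases hP2 : P2 = P1
    · rw [if_pos rfl, if_pos hP2]
      linarith
    · rw [if_pos rfl, if_neg hP2]
      linarith
  · by_cases hP2 : P2 = P
    · subst hP2
      rw [if_neg hP1, if_pos rfl]
      linarith
    · rw [if_neg hP1, if_neg hP2]
      have := h0 P (Ne.symm hP1) (Ne.symm hP2)
      linarith

end Generic

section Lift

variable (M : ℕ) [NeZero M] {q : ℕ} [Fact q.Prime] (hqM : ¬ q ∣ M)
  (A : ValuationSubring Qb) (hA : A.LiesOverPrime q)

/-- **(LIFT off the cusp)** every function of the reduced field `Fb(M)` regular off the cusp is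
the reduction of an integral function of `F(M)` regular off the cusp. -/
theorem h31_lift_off_cusp (hch : 5 ≤ q ∨ 2 ∣ M ∨ 3 ∣ M)
    (b : ↥(modularFunctionFieldFullC (IsLocalRing.ResidueField A) M))
    (hb : ∀ Q : Place (IsLocalRing.ResidueField A)
        ↥(modularFunctionFieldFullC (IsLocalRing.ResidueField A) M),
      Q ≠ h11_placeInftyC (IsLocalRing.ResidueField A) M → b ∈ Q.toValuationSubring) :
    ∃ g : ↥(modularFunctionFieldBar M), g ∈ (h39_modRed M hqM A hA).O ∧
      (h39_modRed M hqM A hA).redF g = b ∧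
      ∀ P : Place Qb ↥(modularFunctionFieldBar M), P ≠ h11_placeInfty M →
        g ∈ P.toValuationSubring := by
  classical
  have hk : IsAlgClosed (IsLocalRing.ResidueField A) := h19_residueField_isAlgClosed A
  obtain ⟨x, yx, hx, hyx, hLT⟩ := h11_exists_chart_LT M hqM A hA hch
  have hR := h39_modRed_spec M hqM A hA
  have hw : h39_WeakChart (h39_modRed M hqM A hA) x := hx.toh39_WeakChart
  have hxK : h75_IsChart Qb x := h39_weakChart_isChart (h39_modRed M hqM A hA) hw
  obtain ⟨S, -, hS⟩ := h39_placeRed_of_chart (h39_modRed M hqM A hA) hx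
  have hr0 := h11_r0_infty_of_chart hA hR hx yx hyx hLT S hS
  by_cases hb0 : b = 0
  · refine ⟨0, (h39_modRed M hqM A hA).O.zero_mem, ?_, fun P _ => P.toValuationSubring.zero_mem⟩
    rw [(h39_modRed M hqM A hA).redF_of_mem (h39_modRed M hqM A hA).O.zero_mem, hb0]
    exact map_zero (h39_modRed M hqM A hA).red
  obtain ⟨ν, hν1, hν2⟩ : ∃ ν : ℕ, S.c ≤ (ν : ℤ) ∧
      -(ν : ℤ) ≤ (h11_placeInftyC (IsLocalRing.ResidueField A) M).ord b := by
    refine ⟨(max S.c (-(h11_placeInftyC (IsLocalRing.ResidueField A) M).ord b)).toNat, ?_, ?_⟩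
    · exact (le_max_left _ _).trans (Int.self_le_toNat _)
    · have := (le_max_right S.c (-(h11_placeInftyC (IsLocalRing.ResidueField A) M).ord b)).trans
        (Int.self_le_toNat _)
      linarith
  have hdegD : Divisor.degree (Finsupp.single (h11_placeInfty M) (ν : ℤ) :
      Divisor Qb ↥(modularFunctionFieldBar M)) = ν := by
    rw [Divisor.degree_single, h75_deg_eq_one hxK]
    simp
  have hmap : Finsupp.mapDomain S.r0 (Finsupp.single (h11_placeInfty M) (ν : ℤ) :
      Divisor Qb ↥(modularFunctionFieldBar M))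
      = Finsupp.single (h11_placeInftyC (IsLocalRing.ResidueField A) M) (ν : ℤ) := by
    rw [Finsupp.mapDomain_single, hr0]
  have hbD : b ∈ riemannRochSpace
      (Finsupp.single (h11_placeInftyC (IsLocalRing.ResidueField A) M) (ν : ℤ)) := by
    rw [mem_riemannRochSpace_iff]
    intro Q
    right
    by_cases hQ : Q = h11_placeInftyC (IsLocalRing.ResidueField A) M
    · subst hQ
      rw [Finsupp.single_eq_same]
      exact hν2
    · rw [Finsupp.single_eq_of_ne hQ, neg_zero]
      exact (h35_mem_iff_ord_nonneg Q hb0).1 (hb Q hQ)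
  obtain ⟨f, hfO, hfD, hfred⟩ := S.lift _ (by rw [hdegD]; exact hν1) b (by rw [hmap]; exact hbD)
  refine ⟨f, hfO, ?_, fun P hP => ?_⟩
  · rw [(h39_modRed M hqM A hA).redF_of_mem hfO, hfred]
  · rcases mem_riemannRochSpace_iff.1 hfD P with h | h
    · rw [h]
      exact P.toValuationSubring.zero_mem
    · rw [Finsupp.single_eq_of_ne hP, neg_zero] at h
      exact h24_mem_of_ord_nonneg P h

end Lift

section Graph

variable (M q : ℕ) [NeZero M] [NeZero q] [Fact q.Prime] (hqM : ¬ q ∣ M)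
  (A : ValuationSubring Qb) (hA : A.LiesOverPrime q)

/-- **(GRAPH), elementwise**: for `b ∈ Fb(M)` regular off the cusp there are `n` and an integral
`g ∈ F(M)` with `α g, β g ∈ L(n ((Pinf) + (P0)))`, `α g, β g ∈ O₁ ∩ O₂`, `red₁ (α g) = b`,
`red₂ (β g) = b`, `red₁ (β g) = b(q^q) = red₂ (α g)`. -/
theorem h31_graph_exists (hch : 5 ≤ q ∨ 2 ∣ M ∨ 3 ∣ M)
    {Pinf P0 : Place Qb ↥(modularFunctionFieldBar (M * q))}
    (hPinf : h10_IsCusp (modularFunctionFieldBar (M * q)) Pinf)
    (hP0 : h10_IsCusp0 M q (h60_w M q hqM) P0)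
    (b : ↥(modularFunctionFieldFullC (IsLocalRing.ResidueField A) M))
    (hb : ∀ Q : Place (IsLocalRing.ResidueField A)
        ↥(modularFunctionFieldFullC (IsLocalRing.ResidueField A) M),
      Q ≠ h11_placeInftyC (IsLocalRing.ResidueField A) M → b ∈ Q.toValuationSubring) :
    ∃ (n : ℕ) (g : ↥(modularFunctionFieldBar M)),
      heckeAlphaBar Qb M q g ∈ riemannRochSpace
        (n • (Finsupp.single Pinf (1 : ℤ) + Finsupp.single P0 (1 : ℤ))) ∧
      heckeBetaBar Qb M q g ∈ riemannRochSpace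
        (n • (Finsupp.single Pinf (1 : ℤ) + Finsupp.single P0 (1 : ℤ))) ∧
      heckeAlphaBar Qb M q g ∈ (h60_R1 M q hqM A hA).O ∧
      heckeAlphaBar Qb M q g ∈ (h60_R2 M q hqM A hA).O ∧
      heckeBetaBar Qb M q g ∈ (h60_R1 M q hqM A hA).O ∧
      heckeBetaBar Qb M q g ∈ (h60_R2 M q hqM A hA).O ∧
      (h60_R1 M q hqM A hA).redF (heckeAlphaBar Qb M q g) = b ∧
      (h60_R2 M q hqM A hA).redF (heckeBetaBar Qb M q g) = b ∧
      (((h60_R1 M q hqM A hA).redF (heckeBetaBar Qb M q g) :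
          ↥(modularFunctionFieldFullC (IsLocalRing.ResidueField A) M)) :
            LaurentSeries (IsLocalRing.ResidueField A))
        = qExpand (IsLocalRing.ResidueField A) q (b : LaurentSeries (IsLocalRing.ResidueField A)) ∧
      (((h60_R2 M q hqM A hA).redF (heckeAlphaBar Qb M q g) :
          ↥(modularFunctionFieldFullC (IsLocalRing.ResidueField A) M)) :
            LaurentSeries (IsLocalRing.ResidueField A))
        = qExpand (IsLocalRing.ResidueField A) q
            (b : LaurentSeries (IsLocalRing.ResidueField A)) := by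
  classical
  have hq : q.Prime := Fact.out
  have hq1 : (1 : ℤ) ≤ (q : ℤ) := by exact_mod_cast hq.one_le
  obtain ⟨g, hgO, hgred, hgreg⟩ := h31_lift_off_cusp M hqM A hA hch b hb
  have hRM := h39_modRed_spec M hqM A hA
  have hPM : h10_IsCusp (modularFunctionFieldBar M) (h11_placeInfty M) :=
    fun _ hf => h11_placeInfty_ord M hf
  have hwα := h60_w_alpha M q hqM
  have hwβ := h60_w_beta M q hqM
  have hww := h60_w_w M q hqM
  have hgv : ∀ v : Place Qb ↥(modularFunctionFieldBar M), v ≠ h11_placeInfty M → 0 ≤ v.ord g := by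
    intro v hv
    by_cases hg0 : g = 0
    · rw [hg0, Place.ord_zero]
    · exact (h35_mem_iff_ord_nonneg v hg0).1 (hgreg v hv)
  obtain ⟨ν, hν⟩ : ∃ ν : ℕ, -(ν : ℤ) ≤ (g : LaurentSeries Qb).order := by
    refine ⟨(-(g : LaurentSeries Qb).order).toNat, ?_⟩
    have := Int.self_le_toNat (-(g : LaurentSeries Qb).order)
    linarith
  have hν0 : (0 : ℤ) ≤ (ν : ℤ) := Int.natCast_nonneg ν
  have hνq : -((q * ν : ℕ) : ℤ) ≤ (q : ℤ) * (g : LaurentSeries Qb).order := by
    push_cast
    nlinarith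
  have hνq' : -((q * ν : ℕ) : ℤ) ≤ (g : LaurentSeries Qb).order := by
    push_cast
    nlinarith
  refine ⟨q * ν, g, ?_, ?_, (h60_R1_alpha_mem_iff M q hqM A hA hRM g).mpr hgO,
    (h60_R2_alpha_mem_iff M q hqM A hA hRM g).mpr hgO,
    (h60_R1_beta_mem_iff M q hqM A hA hRM g).mpr hgO,
    (h60_R2_beta_mem_iff M q hqM A hA hRM g).mpr hgO, ?_, ?_, ?_, ?_⟩
  · refine h31_mem_rr_two Pinf P0 (q * ν) _
      (fun P h1 h2 => h10_polar_alpha hwα hq hqM hPM hPinf hP0 g hgv P h1 h2) ?_ ?_
    · rw [h10_ord_alpha hPinf g]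
      exact hνq'
    · rw [h10_ord0_alpha hwα hP0 g]
      exact hνq
  · refine h31_mem_rr_two Pinf P0 (q * ν) _
      (fun P h1 h2 => h10_polar_beta hwα hq hqM hww hPM hPinf hP0 g hgv P h1 h2) ?_ ?_
    · rw [h10_ord_beta hPinf g]
      exact hνq
    · rw [h10_ord0_beta hwβ hP0 g]
      exact hνq'
  · rw [h60_R1_redF_alpha M q hqM A hA hRM g, hgred]
  · rw [h60_R2_redF_beta M q hqM A hA hRM g, hgred]
  · rw [h60_R1_redF_beta_coe M q hqM A hA hRM g, hgred]
  · rw [h60_R2_redF_alpha_coe M q hqM A hA hRM g, hgred]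

/-- **(GRAPH on R∞)**: for every lattice datum `D` on `F(Mq)` with `D.O = O₁ ∩ O₂` and
`D.redF = (red₁, red₂)` (e.g. `h22_latOfPair (h60_R1 ..) (h60_R2 ..) ..`), every `φ` with
`φ b = b(q^q)` (e.g. `h60_phi M q k`) and every `b ∈ Fb(M)` regular off the cusp, the two graph
points `(b, φ b)`, `(φ b, b)` lie in `red (L(n D0) ∩ O)` for some `n`, `D0 = (Pinf) + (P0)`. -/
theorem h31_graph (hch : 5 ≤ q ∨ 2 ∣ M ∨ 3 ∣ M)
    {Pinf P0 : Place Qb ↥(modularFunctionFieldBar (M * q))}
    (hPinf : h10_IsCusp (modularFunctionFieldBar (M * q)) Pinf)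
    (hP0 : h10_IsCusp0 M q (h60_w M q hqM) P0)
    (D : h22_Lat Qb ↥(modularFunctionFieldBar (M * q)) (IsLocalRing.ResidueField A)
      (↥(modularFunctionFieldFullC (IsLocalRing.ResidueField A) M) ×
        ↥(modularFunctionFieldFullC (IsLocalRing.ResidueField A) M)))
    (hDO : ∀ f : ↥(modularFunctionFieldBar (M * q)),
      f ∈ D.O ↔ f ∈ (h60_R1 M q hqM A hA).O ∧ f ∈ (h60_R2 M q hqM A hA).O)
    (hDred : ∀ f : ↥(modularFunctionFieldBar (M * q)), f ∈ D.O →
      D.redF f = ((h60_R1 M q hqM A hA).redF f, (h60_R2 M q hqM A hA).redF f))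
    (φ : ↥(modularFunctionFieldFullC (IsLocalRing.ResidueField A) M) →
      ↥(modularFunctionFieldFullC (IsLocalRing.ResidueField A) M))
    (hφ : ∀ b : ↥(modularFunctionFieldFullC (IsLocalRing.ResidueField A) M),
      ((φ b : ↥(modularFunctionFieldFullC (IsLocalRing.ResidueField A) M)) :
        LaurentSeries (IsLocalRing.ResidueField A))
        = qExpand (IsLocalRing.ResidueField A) q (b : LaurentSeries (IsLocalRing.ResidueField A)))
    (b : ↥(modularFunctionFieldFullC (IsLocalRing.ResidueField A) M))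
    (hb : ∀ Q : Place (IsLocalRing.ResidueField A)
        ↥(modularFunctionFieldFullC (IsLocalRing.ResidueField A) M),
      Q ≠ h11_placeInftyC (IsLocalRing.ResidueField A) M → b ∈ Q.toValuationSubring) :
    ∃ n : ℕ,
      (b, φ b) ∈ h51_Rd D (n • (Finsupp.single Pinf (1 : ℤ) + Finsupp.single P0 (1 : ℤ))) ∧
      (φ b, b) ∈ h51_Rd D (n • (Finsupp.single Pinf (1 : ℤ) + Finsupp.single P0 (1 : ℤ))) := by
  obtain ⟨n, g, hα, hβ, hα1, hα2, hβ1, hβ2, e1, e2, e3, e4⟩ :=
    h31_graph_exists M q hqM A hA hch hPinf hP0 b hb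
  have hαO : heckeAlphaBar Qb M q g ∈ D.O := (hDO _).mpr ⟨hα1, hα2⟩
  have hβO : heckeBetaBar Qb M q g ∈ D.O := (hDO _).mpr ⟨hβ1, hβ2⟩
  refine ⟨n, ⟨heckeAlphaBar Qb M q g, hα, hαO, ?_⟩, ⟨heckeBetaBar Qb M q g, hβ, hβO, ?_⟩⟩
  · rw [hDred _ hαO, e1]
    exact Prod.ext rfl (Subtype.ext (e4.trans (hφ b).symm))
  · rw [hDred _ hβO, e2]
    exact Prod.ext (Subtype.ext (e3.trans (hφ b).symm)) rfl

/-- **(GRAPH on R∞), in the shape of `hB1`/`hB2` of `h98_frob_nodes_off`**: every set `B`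
(e.g. a subalgebra) containing all `red (L(n D0) ∩ O)` contains the two graphs over the
functions regular off the cusp. -/
theorem h31_graph_mem (hch : 5 ≤ q ∨ 2 ∣ M ∨ 3 ∣ M)
    {Pinf P0 : Place Qb ↥(modularFunctionFieldBar (M * q))}
    (hPinf : h10_IsCusp (modularFunctionFieldBar (M * q)) Pinf)
    (hP0 : h10_IsCusp0 M q (h60_w M q hqM) P0)
    (D : h22_Lat Qb ↥(modularFunctionFieldBar (M * q)) (IsLocalRing.ResidueField A)
      (↥(modularFunctionFieldFullC (IsLocalRing.ResidueField A) M) ×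
        ↥(modularFunctionFieldFullC (IsLocalRing.ResidueField A) M)))
    (hDO : ∀ f : ↥(modularFunctionFieldBar (M * q)),
      f ∈ D.O ↔ f ∈ (h60_R1 M q hqM A hA).O ∧ f ∈ (h60_R2 M q hqM A hA).O)
    (hDred : ∀ f : ↥(modularFunctionFieldBar (M * q)), f ∈ D.O →
      D.redF f = ((h60_R1 M q hqM A hA).redF f, (h60_R2 M q hqM A hA).redF f))
    (φ : ↥(modularFunctionFieldFullC (IsLocalRing.ResidueField A) M) →
      ↥(modularFunctionFieldFullC (IsLocalRing.ResidueField A) M))
    (hφ : ∀ b : ↥(modularFunctionFieldFullC (IsLocalRing.ResidueField A) M),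
      ((φ b : ↥(modularFunctionFieldFullC (IsLocalRing.ResidueField A) M)) :
        LaurentSeries (IsLocalRing.ResidueField A))
        = qExpand (IsLocalRing.ResidueField A) q (b : LaurentSeries (IsLocalRing.ResidueField A)))
    {S : Type*} [SetLike S (↥(modularFunctionFieldFullC (IsLocalRing.ResidueField A) M) ×
        ↥(modularFunctionFieldFullC (IsLocalRing.ResidueField A) M))] (B : S)
    (hB : ∀ n : ℕ, ∀ a ∈ h51_Rd D
      (n • (Finsupp.single Pinf (1 : ℤ) + Finsupp.single P0 (1 : ℤ))), a ∈ B) :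
    (∀ b : ↥(modularFunctionFieldFullC (IsLocalRing.ResidueField A) M),
      (∀ Q : Place (IsLocalRing.ResidueField A)
          ↥(modularFunctionFieldFullC (IsLocalRing.ResidueField A) M),
        Q ≠ h11_placeInftyC (IsLocalRing.ResidueField A) M → b ∈ Q.toValuationSubring) →
      (b, φ b) ∈ B) ∧
    (∀ b : ↥(modularFunctionFieldFullC (IsLocalRing.ResidueField A) M),
      (∀ Q : Place (IsLocalRing.ResidueField A)
          ↥(modularFunctionFieldFullC (IsLocalRing.ResidueField A) M),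
        Q ≠ h11_placeInftyC (IsLocalRing.ResidueField A) M → b ∈ Q.toValuationSubring) →
      (φ b, b) ∈ B) := by
  refine ⟨fun b hb => ?_, fun b hb => ?_⟩
  · obtain ⟨n, h1, -⟩ := h31_graph M q hqM A hA hch hPinf hP0 D hDO hDred φ hφ b hb
    exact hB n _ h1
  · obtain ⟨n, -, h2⟩ := h31_graph M q hqM A hA hch hPinf hP0 D hDO hDred φ hφ b hb
    exact hB n _ h2

end Graph

end Fermat.Agent.S34

end
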