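import Mathlib
import Fermat.Agent.S34.h31_Graph
import Fermat.Agent.S34.h87_TopMq

/-!
# S34, (GRAPH on R∞): the closed instance for `h87_D` (helper31)

`h31_graph_D` : the binders `hB1`, `hB2` of `h51_node_of_frob` / `h51_G_of_frob` /
`h20_node_final` / `h98_frob_nodes_off`, verbatim, for `D := h87_D M q hqM A hA`,
`D0 := (Pinf) + (P0)`, `Qinf := h11_placeInftyC k M`, `φ := h60_phi M q k`.
-/

set_option autoImplicit false
set_option synthInstance.maxHeartbeats 400000

noncomputable section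

open AlgebraicCurve ModularCurve IntermediateField

namespace Fermat.Agent.S34

open Fermat.Agent.S18 Fermat.Agent.S24 Fermat.Agent.S37

local notation "Qb" => AlgebraicClosure ℚ

variable (M q : ℕ) [NeZero M] [NeZero q] [Fact q.Prime] (hqM : ¬ q ∣ M)
  (A : ValuationSubring Qb) (hA : A.LiesOverPrime q)

/-- **(GRAPH) `hB1`** for `h87_D`. -/
theorem h31_graph_D₁ [CharP (IsLocalRing.ResidueField A) q]
    [PerfectField (IsLocalRing.ResidueField A)] (hch : 5 ≤ q ∨ 2 ∣ M ∨ 3 ∣ M)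
    {Pinf P0 : Place Qb ↥(modularFunctionFieldBar (M * q))}
    (hPinf : h10_IsCusp (modularFunctionFieldBar (M * q)) Pinf)
    (hP0 : h10_IsCusp0 M q (h60_w M q hqM) P0) :
    ∀ b : ↥(modularFunctionFieldFullC (IsLocalRing.ResidueField A) M),
      (∀ Q : Place (IsLocalRing.ResidueField A)
          ↥(modularFunctionFieldFullC (IsLocalRing.ResidueField A) M),
        Q ≠ h11_placeInftyC (IsLocalRing.ResidueField A) M → b ∈ Q.toValuationSubring) →
      ∃ n : ℕ, (b, h60_phi M q (IsLocalRing.ResidueField A) b) ∈ h51_Rd (h87_D M q hqM A hA)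
        (n • (Finsupp.single Pinf (1 : ℤ) + Finsupp.single P0 (1 : ℤ))) := by
  intro b hb
  obtain ⟨n, h1, -⟩ := h31_graph M q hqM A hA hch hPinf hP0 (h87_D M q hqM A hA)
    (fun _ => Iff.rfl) (fun _ hf => h87_D_redF M q hqM A hA hf.1 hf.2)
    (h60_phi M q (IsLocalRing.ResidueField A)) (fun _ => rfl) b hb
  exact ⟨n, h1⟩

/-- **(GRAPH) `hB2`** for `h87_D`. -/
theorem h31_graph_D₂ [CharP (IsLocalRing.ResidueField A) q]
    [PerfectField (IsLocalRing.ResidueField A)] (hch : 5 ≤ q ∨ 2 ∣ M ∨ 3 ∣ M)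
    {Pinf P0 : Place Qb ↥(modularFunctionFieldBar (M * q))}
    (hPinf : h10_IsCusp (modularFunctionFieldBar (M * q)) Pinf)
    (hP0 : h10_IsCusp0 M q (h60_w M q hqM) P0) :
    ∀ b : ↥(modularFunctionFieldFullC (IsLocalRing.ResidueField A) M),
      (∀ Q : Place (IsLocalRing.ResidueField A)
          ↥(modularFunctionFieldFullC (IsLocalRing.ResidueField A) M),
        Q ≠ h11_placeInftyC (IsLocalRing.ResidueField A) M → b ∈ Q.toValuationSubring) →
      ∃ n : ℕ, (h60_phi M q (IsLocalRing.ResidueField A) b, b) ∈ h51_Rd (h87_D M q hqM A hA)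
        (n • (Finsupp.single Pinf (1 : ℤ) + Finsupp.single P0 (1 : ℤ))) := by
  intro b hb
  obtain ⟨n, -, h2⟩ := h31_graph M q hqM A hA hch hPinf hP0 (h87_D M q hqM A hA)
    (fun _ => Iff.rfl) (fun _ hf => h87_D_redF M q hqM A hA hf.1 hf.2)
    (h60_phi M q (IsLocalRing.ResidueField A)) (fun _ => rfl) b hb
  exact ⟨n, h2⟩

end Fermat.Agent.S34

end
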