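import Mathlib
import Fermat.Agent.S34.h60_Pair
import Fermat.Agent.S37.h24_Decomp

/-!
# S34/S35, modular foundation (helper60): decomposition group and Frobenius on the pair

* `h60_psi M k ψ` : the coefficientwise action of a ring endomorphism `ψ` of `k` on the reduced
  field `modularFunctionFieldFullC k M` (`h60_coe_psi`, `h60_psi_algebraMap`, `h60_psi_jk`,
  `h60_psi_phi`, `h60_phi_psi_frobenius : φ (Frob x) = x ^ q`);
* `h60_R1_transfer`, `h60_R2_transfer` : an automorphism `τ` of `Qb` which transfers integral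
  series with reduction twisted by `ψ` preserves `Oᵢ` and acts on `redᵢ` through `ψ`;
* `h60_R1_frob`, `h60_R2_frob`, `h60_pair_frob` : the Frobenius twin of (GAL).
-/

set_option autoImplicit false
set_option synthInstance.maxHeartbeats 400000

noncomputable section

open ModularCurve AlgebraicCurve IntermediateField

namespace Fermat.Agent.S34

open Fermat.Agent.S18 Fermat.Agent.S37 Fermat.Agent.S24

local notation "Qb" => AlgebraicClosure ℚ

section Psi

variable (M : ℕ) [NeZero M] (k : Type) [Field k] (ψ : k →+* k)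

omit [NeZero M] in
/-- The reduced modular function field is stable under coefficientwise ring endomorphisms. -/
theorem h60_coeffMap_mem_fullC {f : LaurentSeries k} (hf : f ∈ modularFunctionFieldFullC k M) :
    coeffMap ψ f ∈ modularFunctionFieldFullC k M := by
  have key : (modularFunctionFieldFullC k M).toSubfield
      ≤ ((modularFunctionFieldFullC k M).toSubfield).comap (coeffMap ψ) := by
    conv_lhs => rw [modularFunctionFieldFullC, IntermediateField.adjoin_toSubfield]
    rw [Subfield.closure_le]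
    rintro x (⟨c, rfl⟩ | hx)
    · show coeffMap ψ (algebraMap k (LaurentSeries k) c) ∈ modularFunctionFieldFullC k M
      rw [coeffMap_algebraMap]
      exact (modularFunctionFieldFullC k M).algebraMap_mem _
    · obtain ⟨d, hd0, hd, rfl⟩ := hx
      show coeffMap ψ (qExpand k d (jqModC k)) ∈ modularFunctionFieldFullC k M
      rw [coeffMap_qExpand, coeffMap_jqModC]
      exact jqModCd_mem_full k M hd
  exact key hf

/-- The coefficientwise action of `ψ : k →+* k` on the reduced field of level `M`. -/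
def h60_psi : ↥(modularFunctionFieldFullC k M) →+* ↥(modularFunctionFieldFullC k M) where
  toFun x := ⟨coeffMap ψ (x : LaurentSeries k), h60_coeffMap_mem_fullC M k ψ x.2⟩
  map_one' := Subtype.ext (map_one (coeffMap ψ))
  map_mul' _ _ := Subtype.ext (map_mul (coeffMap ψ) _ _)
  map_zero' := Subtype.ext (map_zero (coeffMap ψ))
  map_add' _ _ := Subtype.ext (map_add (coeffMap ψ) _ _)

theorem h60_coe_psi (x : ↥(modularFunctionFieldFullC k M)) :
    ((h60_psi M k ψ x : ↥(modularFunctionFieldFullC k M)) : LaurentSeries k)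
      = coeffMap ψ (x : LaurentSeries k) := rfl

theorem h60_psi_algebraMap (c : k) :
    h60_psi M k ψ (algebraMap k ↥(modularFunctionFieldFullC k M) c)
      = algebraMap k ↥(modularFunctionFieldFullC k M) (ψ c) := by
  apply Subtype.ext
  show coeffMap ψ (algebraMap k (LaurentSeries k) c) = algebraMap k (LaurentSeries k) (ψ c)
  rw [coeffMap_algebraMap]

theorem h60_psi_jk : h60_psi M k ψ (h54_jk k M) = h54_jk k M := by
  apply Subtype.ext
  show coeffMap ψ (jqModC k) = jqModC k
  rw [coeffMap_jqModC]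

/-- Coefficientwise maps are injective on series. -/
theorem h60_coeffMap_eq_zero {x : LaurentSeries k} (h : coeffMap ψ x = 0) : x = 0 := by
  ext n
  have h1 : (coeffMap ψ x).coeff n = 0 := by rw [h]; rfl
  rw [coeffMap_coeff] at h1
  exact (map_eq_zero ψ).mp h1

end Psi

section PsiPhi

variable (M q : ℕ) [NeZero M] [NeZero q] [Fact q.Prime] (k : Type) [Field k] [CharP k q]
  [PerfectField k]

/-- `ψ` commutes with the `V`-operator `φ`. -/
theorem h60_psi_phi (ψ : k →+* k) (x : ↥(modularFunctionFieldFullC k M)) :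
    h60_psi M k ψ (h60_phi M q k x) = h60_phi M q k (h60_psi M k ψ x) := by
  apply Subtype.ext
  show coeffMap ψ (qExpand k q (x : LaurentSeries k)) = qExpand k q (coeffMap ψ (x : LaurentSeries k))
  rw [coeffMap_qExpand]

/-- In characteristic `q`: `φ (Frob x) = x ^ q`. -/
theorem h60_phi_psi_frobenius (x : ↥(modularFunctionFieldFullC k M)) :
    h60_phi M q k (h60_psi M k (frobenius k q) x) = x ^ q := by
  apply Subtype.ext
  show qExpand k q (coeffMap (frobenius k q) (x : LaurentSeries k)) = ((x ^ q : ↥(modularFunctionFieldFullC k M)) : LaurentSeries k)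
  push_cast
  exact (h87_pow_char k q (x : LaurentSeries k)).symm

end PsiPhi

section Transfer

variable (M q : ℕ) [NeZero M] [NeZero q] [Fact q.Prime] (hqM : ¬ q ∣ M)
  (A : ValuationSubring Qb) (hA : A.LiesOverPrime q)

/-- **Transfer for `R₁`**: if `τ` maps `A`-integral series to `A`-integral series, twisting
reductions by `ψ`, then `τ` preserves `O₁` and acts on `red₁` through `ψ`. -/
theorem h60_R1_transfer (τ : Qb ≃ₐ[ℚ] Qb)
    (ψ : IsLocalRing.ResidueField A →+* IsLocalRing.ResidueField A)
    (htr : ∀ y : LaurentSeries A, ∃ y' : LaurentSeries A,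
      coeffMap A.subtype y' = coeffMap ((τ : Qb ≃+* Qb) : Qb →+* Qb) (coeffMap A.subtype y) ∧
      coeffMap (IsLocalRing.residue A) y' = coeffMap ψ (coeffMap (IsLocalRing.residue A) y))
    (f : ↥(modularFunctionFieldBar (M * q))) (hf : f ∈ (h60_R1 M q hqM A hA).O) :
    arithmeticRingAut (modularFunctionFieldFull (M * q)) τ f ∈ (h60_R1 M q hqM A hA).O ∧
      (h60_R1 M q hqM A hA).redF (arithmeticRingAut (modularFunctionFieldFull (M * q)) τ f)
        = h60_psi M (IsLocalRing.ResidueField A) ψ ((h60_R1 M q hqM A hA).redF f) := by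
  obtain ⟨y₁, y₂, hy, h⟩ := (h60_R1_mem_iff M q hqM A hA f).mp hf
  obtain ⟨y₁', e1, r1⟩ := htr y₁
  obtain ⟨y₂', e2, r2⟩ := htr y₂
  have h' : ((arithmeticRingAut (modularFunctionFieldFull (M * q)) τ f :
      ↥(modularFunctionFieldBar (M * q))) : LaurentSeries Qb) * coeffMap A.subtype y₂'
      = coeffMap A.subtype y₁' := by
    rw [coe_arithmeticRingAut_apply, e1, e2, ← h, map_mul]
    rfl
  have hy0 : coeffMap ψ (coeffMap (IsLocalRing.residue A) y₂) ≠ 0 := fun h0 =>
    hy (h60_coeffMap_eq_zero _ ψ h0)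
  have hy' : coeffMap (IsLocalRing.residue A) y₂' ≠ 0 := by
    rw [r2]
    exact hy0
  have hmem : arithmeticRingAut (modularFunctionFieldFull (M * q)) τ f
      ∈ (h60_R1 M q hqM A hA).O :=
    (h60_R1_mem_iff M q hqM A hA _).mpr ⟨y₁', y₂', hy', h'⟩
  refine ⟨hmem, ?_⟩
  rw [(h60_R1 M q hqM A hA).redF_of_mem hmem, (h60_R1 M q hqM A hA).redF_of_mem hf]
  apply Subtype.ext
  rw [h60_coe_psi]
  have e1' := h60_R1_red_eq M q hqM A hA _ hmem _ _ h'
  have e2' := h60_R1_red_eq M q hqM A hA f hf y₁ y₂ h
  rw [r1, r2, ← e2', map_mul] at e1'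
  exact mul_right_cancel₀ hy0 e1'

/-- **Transfer for `R₂`**. -/
theorem h60_R2_transfer (τ : Qb ≃ₐ[ℚ] Qb)
    (ψ : IsLocalRing.ResidueField A →+* IsLocalRing.ResidueField A)
    (htr : ∀ y : LaurentSeries A, ∃ y' : LaurentSeries A,
      coeffMap A.subtype y' = coeffMap ((τ : Qb ≃+* Qb) : Qb →+* Qb) (coeffMap A.subtype y) ∧
      coeffMap (IsLocalRing.residue A) y' = coeffMap ψ (coeffMap (IsLocalRing.residue A) y))
    (f : ↥(modularFunctionFieldBar (M * q))) (hf : f ∈ (h60_R2 M q hqM A hA).O) :
    arithmeticRingAut (modularFunctionFieldFull (M * q)) τ f ∈ (h60_R2 M q hqM A hA).O ∧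
      (h60_R2 M q hqM A hA).redF (arithmeticRingAut (modularFunctionFieldFull (M * q)) τ f)
        = h60_psi M (IsLocalRing.ResidueField A) ψ ((h60_R2 M q hqM A hA).redF f) := by
  have h1 := h60_R1_transfer M q hqM A hA τ ψ htr (h60_w M q hqM f)
    ((h60_R2_mem_iff M q hqM A hA f).mp hf)
  rw [← h60_w_galois] at h1
  refine ⟨(h60_R2_mem_iff M q hqM A hA _).mpr h1.1, ?_⟩
  rw [h60_R2_redF, h60_R2_redF]
  exact h1.2

/-- **Decomposition group on `R₁`**: `σ` in the decomposition group of `A` preserves `O₁` and acts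
on reductions through its residual automorphism. -/
theorem h60_R1_decomp (τ : Qb ≃ₐ[ℚ] Qb) (hτ : τ ∈ A.decompositionSubgroup ℚ)
    (f : ↥(modularFunctionFieldBar (M * q))) (hf : f ∈ (h60_R1 M q hqM A hA).O) :
    arithmeticRingAut (modularFunctionFieldFull (M * q)) τ f ∈ (h60_R1 M q hqM A hA).O ∧
      (h60_R1 M q hqM A hA).redF (arithmeticRingAut (modularFunctionFieldFull (M * q)) τ f)
        = h60_psi M (IsLocalRing.ResidueField A)
            (h24_resAut A ⟨τ, hτ⟩ : IsLocalRing.ResidueField A →+* IsLocalRing.ResidueField A)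
            ((h60_R1 M q hqM A hA).redF f) :=
  h60_R1_transfer M q hqM A hA τ _ (fun y => h24_decomp_transfer A τ hτ y) f hf

/-- **Decomposition group on `R₂`**. -/
theorem h60_R2_decomp (τ : Qb ≃ₐ[ℚ] Qb) (hτ : τ ∈ A.decompositionSubgroup ℚ)
    (f : ↥(modularFunctionFieldBar (M * q))) (hf : f ∈ (h60_R2 M q hqM A hA).O) :
    arithmeticRingAut (modularFunctionFieldFull (M * q)) τ f ∈ (h60_R2 M q hqM A hA).O ∧
      (h60_R2 M q hqM A hA).redF (arithmeticRingAut (modularFunctionFieldFull (M * q)) τ f)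
        = h60_psi M (IsLocalRing.ResidueField A)
            (h24_resAut A ⟨τ, hτ⟩ : IsLocalRing.ResidueField A →+* IsLocalRing.ResidueField A)
            ((h60_R2 M q hqM A hA).redF f) :=
  h60_R2_transfer M q hqM A hA τ _ (fun y => h24_decomp_transfer A τ hτ y) f hf

variable [CharP (IsLocalRing.ResidueField A) q]

/-- **Frobenius on `R₁`**: a Frobenius element at `q` preserves `O₁` and acts on reductions by the
coefficientwise Frobenius. -/
theorem h60_R1_frob (s : Qb ≃ₐ[ℚ] Qb) (hs : A.IsFrobeniusAt s q)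
    (f : ↥(modularFunctionFieldBar (M * q))) (hf : f ∈ (h60_R1 M q hqM A hA).O) :
    arithmeticRingAut (modularFunctionFieldFull (M * q)) s f ∈ (h60_R1 M q hqM A hA).O ∧
      (h60_R1 M q hqM A hA).redF (arithmeticRingAut (modularFunctionFieldFull (M * q)) s f)
        = h60_psi M (IsLocalRing.ResidueField A) (frobenius (IsLocalRing.ResidueField A) q)
            ((h60_R1 M q hqM A hA).redF f) :=
  h60_R1_transfer M q hqM A hA s _ (fun y => h24_transfer_frob A s q hs y) f hf

/-- **Frobenius on `R₂`**. -/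
theorem h60_R2_frob (s : Qb ≃ₐ[ℚ] Qb) (hs : A.IsFrobeniusAt s q)
    (f : ↥(modularFunctionFieldBar (M * q))) (hf : f ∈ (h60_R2 M q hqM A hA).O) :
    arithmeticRingAut (modularFunctionFieldFull (M * q)) s f ∈ (h60_R2 M q hqM A hA).O ∧
      (h60_R2 M q hqM A hA).redF (arithmeticRingAut (modularFunctionFieldFull (M * q)) s f)
        = h60_psi M (IsLocalRing.ResidueField A) (frobenius (IsLocalRing.ResidueField A) q)
            ((h60_R2 M q hqM A hA).redF f) :=
  h60_R2_transfer M q hqM A hA s _ (fun y => h24_transfer_frob A s q hs y) f hf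

/-- **Frobenius on the pair**. -/
theorem h60_pair_frob (s : Qb ≃ₐ[ℚ] Qb) (hs : A.IsFrobeniusAt s q) (i : Fin 2)
    (f : ↥(modularFunctionFieldBar (M * q))) (hf : f ∈ (h60_pair M q hqM A hA i).O) :
    arithmeticRingAut (modularFunctionFieldFull (M * q)) s f ∈ (h60_pair M q hqM A hA i).O ∧
      (h60_pair M q hqM A hA i).redF (arithmeticRingAut (modularFunctionFieldFull (M * q)) s f)
        = h60_psi M (IsLocalRing.ResidueField A) (frobenius (IsLocalRing.ResidueField A) q)
            ((h60_pair M q hqM A hA i).redF f) := by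
  fin_cases i
  · exact h60_R1_frob M q hqM A hA s hs f hf
  · exact h60_R2_frob M q hqM A hA s hs f hf

end Transfer

end Fermat.Agent.S34

end
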