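import Fermat.Agent.S34.h96_FrobNodesPl
import Fermat.Agent.S34.h60_R1AB
import Fermat.Agent.S34.h11_QPlace
import Fermat.Agent.S34.h10_CuspPlace
import Fermat.Agent.S18.h39_Mod
import Fermat.Agent.S18.GR_RedAPI

/-!
# S34 (helper84): the modular Frobenius chart at level `M`

`q` a prime not dividing `M`, `A` a valuation ring of `ℚ̄` over `q`, `k` its residue field,
`Fb = modularFunctionFieldFullC k M`, `φ = h60_phi M q k` (the `V`-operator `h(q) ↦ h(q^q)`),
`j̄ = h54_jk k M`.

* `h84_isChart_jk` : `j̄` is a chart of `Fb / k` (every `q ∤ M`, `2` and `3` included);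
* `h84_isFrobChart_jk` : `h96_IsFrobChart k q j̄ φ`;
* `h84_frobPerm_cusp` : the permutation `Φ` of the places induced by `φ` fixes the cusp
  (any place whose order function is the `q`-order), `h84_frobPerm_eq_cusp_iff`;
* `h84_stab_of_pole` : a function whose only pole is the cusp has a `Φ`-stable domain of
  regularity (the hypothesis `hstab` of the two-chart node theorem).
-/

set_option autoImplicit false
set_option synthInstance.maxHeartbeats 400000

noncomputable section

open ModularCurve AlgebraicCurve IntermediateField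

namespace Fermat.Agent.S34

open Fermat.Agent.S18 Fermat.Agent.S37 Fermat.Agent.S24 Fermat.Agent.S27

local notation "Qb" => AlgebraicClosure ℚ

section Chart

variable (M q : ℕ) [NeZero M] [Fact q.Prime] (hqM : ¬ q ∣ M)
  (A : ValuationSubring Qb) (hA : A.LiesOverPrime q)

include hqM hA in
/-- `j̄` is a chart of the level-`M` field in characteristic `q ∤ M`. -/
theorem h84_isChart_jk :
    h75_IsChart (IsLocalRing.ResidueField A) (h54_jk (IsLocalRing.ResidueField A) M) := by
  have h := h39_weakChart_isChart_red (h39_modRed M hqM A hA) (h39_modRed_weakChart_j M hqM A hA)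
  rwa [h54_redF_jbar (h39_modRed_spec M hqM A hA)] at h

end Chart

section Frob

variable (M q : ℕ) [NeZero M] [NeZero q] [Fact q.Prime] (k : Type) [Field k] [CharP k q]
  [PerfectField k]

/-- `φ(j̄) = j̄ ^ q`. -/
theorem h84_phi_jk : h60_phi M q k (h54_jk k M) = h54_jk k M ^ q := by
  apply Subtype.ext
  show qExpand k q (jqModC k) = (jqModC k) ^ q
  exact (h60_jq_pow k q).symm

/-- a chart `j̄` gives the Frobenius chart `(j̄, φ)`. -/
theorem h84_isFrobChart_of_chart (hx : h75_IsChart k (h54_jk k M)) :
    h96_IsFrobChart k q (h54_jk k M) (h60_phi M q k) :=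
  ⟨hx, h60_phi_algebraMap M q k, h84_phi_jk M q k⟩

end Frob

section FrobA

variable (M q : ℕ) [NeZero M] [NeZero q] [Fact q.Prime] (hqM : ¬ q ∣ M)
  (A : ValuationSubring Qb) (hA : A.LiesOverPrime q)
  [CharP (IsLocalRing.ResidueField A) q] [PerfectField (IsLocalRing.ResidueField A)]

include hqM hA in
/-- **The modular Frobenius chart** at level `M`, for every prime `q ∤ M`. -/
theorem h84_isFrobChart_jk :
    h96_IsFrobChart (IsLocalRing.ResidueField A) q (h54_jk (IsLocalRing.ResidueField A) M)
      (h60_phi M q (IsLocalRing.ResidueField A)) :=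
  h84_isFrobChart_of_chart M q _ (h84_isChart_jk M q hqM A hA)

end FrobA

section Cusp

variable {M q : ℕ} [NeZero q] [Fact q.Prime] {k : Type} [Field k] [CharP k q]
  [PerfectField k] [IsAlgClosed k] {x : ↥(modularFunctionFieldFullC k M)}

/-- `Φ` fixes the cusp: `ord_∞(φ f) = q · ord_∞ f`. -/
theorem h84_frobPerm_cusp (h : h96_IsFrobChart k q x (h60_phi M q k))
    {P : Place k ↥(modularFunctionFieldFullC k M)}
    (hP : h10_IsCusp (modularFunctionFieldFullC k M) P) : h96_frobPerm h P = P := by
  refine h10_IsCusp.unique (fun f hf => ?_) hP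
  have hq : (q : ℤ) ≠ 0 := by exact_mod_cast (Fact.out : q.Prime).ne_zero
  have h1 := h96_ord_frob h P f
  have hφf : h60_phi M q k f ≠ 0 := (map_ne_zero _).mpr hf
  rw [hP _ hφf, h60_coe_phi, h64_order_qExpand] at h1
  exact (mul_left_cancel₀ hq h1).symm

theorem h84_frobPerm_eq_cusp_iff (h : h96_IsFrobChart k q x (h60_phi M q k))
    {P : Place k ↥(modularFunctionFieldFullC k M)}
    (hP : h10_IsCusp (modularFunctionFieldFullC k M) P)
    (Q : Place k ↥(modularFunctionFieldFullC k M)) : h96_frobPerm h Q = P ↔ Q = P := by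
  constructor
  · intro hQ
    apply (h96_frobPerm h).injective
    rw [hQ, h84_frobPerm_cusp h hP]
  · rintro rfl
    exact h84_frobPerm_cusp h hP

omit [NeZero q] [Fact q.Prime] [CharP k q] [PerfectField k] [IsAlgClosed k] in
/-- the cusp `h11_placeInftyC k M` is a cusp in the sense of `h10_IsCusp`. -/
theorem h84_isCusp_placeInftyC [NeZero M] :
    h10_IsCusp (modularFunctionFieldFullC k M) (h11_placeInftyC k M) :=
  fun _ hf => h11_placeInftyC_ord k M hf

theorem h84_frobPerm_placeInftyC [NeZero M] (h : h96_IsFrobChart k q x (h60_phi M q k)) :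
    h96_frobPerm h (h11_placeInftyC k M) = h11_placeInftyC k M :=
  h84_frobPerm_cusp h h84_isCusp_placeInftyC

/-- **`hstab`**: a function whose only pole is the cusp has a `Φ`-stable domain of regularity. -/
theorem h84_stab_of_pole (h : h96_IsFrobChart k q x (h60_phi M q k))
    {P : Place k ↥(modularFunctionFieldFullC k M)}
    (hP : h10_IsCusp (modularFunctionFieldFullC k M) P)
    {y : ↥(modularFunctionFieldFullC k M)}
    (hy : ∀ Q : Place k ↥(modularFunctionFieldFullC k M), y ∈ Q.toValuationSubring ↔ Q ≠ P)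
    (Q : Place k ↥(modularFunctionFieldFullC k M)) :
    y ∈ (h96_frobPerm h Q).toValuationSubring ↔ y ∈ Q.toValuationSubring := by
  rw [hy, hy, Ne, Ne, h84_frobPerm_eq_cusp_iff h hP]

end Cusp

end Fermat.Agent.S34

end
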