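import Mathlib
import Fermat.Agent.S34.h60_PairFrob
import Fermat.Agent.S34.h84_FrobMod
import Fermat.Agent.S34.h87_TopMq

/-!
# S34/S35, modular foundation (helper60): the coefficientwise Frobenius as a semilinear
automorphism of the reduced field, and the Frobenius action on the pair lattice

* `h60_psiEquiv M k e`, `h60_psiSemi M k e` : the coefficientwise action of `e : k ≃+* k` on
  `Fb = modularFunctionFieldFullC k M`, as a ring automorphism / element of `h57_SemiAut k Fb`;
* `h60_psiSemi_isFrob` : it is a `q`-Frobenius structure when `e c = c ^ q`;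
* `h60_frobSemi_eq`, `h60_frobPerm_eq` : for every Frobenius chart `h` of the `V`-operator
  `φ = h60_phi M q k`, `h96_frobSemi h = ψ⁻¹` and `h96_frobPerm h Q = ψ • Q`;
* `h60_val_smul` : values at places under a Frobenius structure;
* `h60_D_transfer`, `h60_D_frob`, `h60_D_frob_sq` : `hsO`/`hsred` for the lattice `h87_D` and a
  Frobenius element (resp. its square).
-/

set_option autoImplicit false
set_option synthInstance.maxHeartbeats 400000

noncomputable section

open ModularCurve AlgebraicCurve IntermediateField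

namespace Fermat.Agent.S34

open Fermat.Agent.S18 Fermat.Agent.S37 Fermat.Agent.S24 Fermat.Agent.S27

local notation "Qb" => AlgebraicClosure ℚ

section PsiEquiv

variable (M : ℕ) [NeZero M] (k : Type) [Field k]

/-- The coefficientwise action of a ring automorphism of `k`, as a ring automorphism of `Fb`. -/
def h60_psiEquiv (e : k ≃+* k) :
    ↥(modularFunctionFieldFullC k M) ≃+* ↥(modularFunctionFieldFullC k M) :=
  RingEquiv.ofRingHom (h60_psi M k (e : k →+* k)) (h60_psi M k (e.symm : k →+* k))
    (RingHom.ext fun x => Subtype.ext (by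
      show coeffMap (e : k →+* k) (coeffMap (e.symm : k →+* k) (x : LaurentSeries k))
        = (x : LaurentSeries k)
      rw [coeffMap_coeffMap]
      exact (coeffMap_congr (RingHom.ext fun c => e.apply_symm_apply c) _).trans (coeffMap_id _)))
    (RingHom.ext fun x => Subtype.ext (by
      show coeffMap (e.symm : k →+* k) (coeffMap (e : k →+* k) (x : LaurentSeries k))
        = (x : LaurentSeries k)
      rw [coeffMap_coeffMap]
      exact (coeffMap_congr (RingHom.ext fun c => e.symm_apply_apply c) _).trans (coeffMap_id _)))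

theorem h60_psiEquiv_apply (e : k ≃+* k) (f : ↥(modularFunctionFieldFullC k M)) :
    h60_psiEquiv M k e f = h60_psi M k (e : k →+* k) f := rfl

/-- The coefficientwise action of a ring automorphism of `k`, as a semilinear automorphism. -/
def h60_psiSemi (e : k ≃+* k) : h57_SemiAut k ↥(modularFunctionFieldFullC k M) :=
  ⟨h60_psiEquiv M k e, h57_mem_semiAut_of_map (fun c => e c) e.surjective
    (fun c => h60_psi_algebraMap M k (e : k →+* k) c)⟩

theorem h60_psiSemi_apply (e : k ≃+* k) (f : ↥(modularFunctionFieldFullC k M)) :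
    ((h60_psiSemi M k e : h57_SemiAut k ↥(modularFunctionFieldFullC k M)) :
      ↥(modularFunctionFieldFullC k M) ≃+* ↥(modularFunctionFieldFullC k M)) f
      = h60_psi M k (e : k →+* k) f := rfl

theorem h60_psiSemi_isFrob (n : ℕ) (e : k ≃+* k) (he : ∀ c, e c = c ^ n) :
    h57_IsFrob n (h60_psiSemi M k e) := by
  intro c
  rw [h60_psiSemi_apply, h60_psi_algebraMap]
  exact congrArg _ (he c)

end PsiEquiv

section Val

variable {K F : Type*} [Field K] [Field F] [Algebra K F]

/-- Values at places under a Frobenius structure: `(σ f)(σ • Q) = f(Q) ^ n`. -/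
theorem h60_val_smul {n : ℕ} {σ : h57_SemiAut K F} (hσ : h57_IsFrob n σ) (Q : Place K F) {f : F}
    {c : K} (hv : h39_Val Q f c) : h39_Val (σ • Q) ((σ : F ≃+* F) f) (c ^ n) := by
  rcases hv with hv | hv
  · left
    rw [hv, hσ c]
  · right
    have h1 : (σ : F ≃+* F) f - algebraMap K F (c ^ n) = (σ : F ≃+* F) (f - algebraMap K F c) := by
      rw [map_sub, hσ c]
    rw [h1, h57_ord_smul]
    exact hv

/-- Orders at places under a semilinear automorphism fixing the place. -/
theorem h60_ord_apply_of_fixed (σ : h57_SemiAut K F) (Q : Place K F) (hQ : σ • Q = Q) (f : F) :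
    Q.ord ((σ : F ≃+* F) f) = Q.ord f := by
  conv_lhs => rw [← hQ]
  exact h57_ord_smul σ Q f

end Val

section FrobSemi

variable (M q : ℕ) [NeZero M] [NeZero q] [Fact q.Prime] (k : Type) [Field k] [CharP k q]
  [PerfectField k] [IsAlgClosed k]

/-- For every Frobenius chart of the `V`-operator `φ`, the semilinear automorphism
`Frob⁻¹ ∘ φ` is inverse to the coefficientwise Frobenius. -/
theorem h60_frobSemi_apply_psi {x : ↥(modularFunctionFieldFullC k M)}
    (h : h96_IsFrobChart k q x (h60_phi M q k)) (e : k ≃+* k) (he : ∀ c, e c = c ^ q)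
    (f : ↥(modularFunctionFieldFullC k M)) :
    ((h96_frobSemi h : h57_SemiAut k ↥(modularFunctionFieldFullC k M)) :
      ↥(modularFunctionFieldFullC k M) ≃+* ↥(modularFunctionFieldFullC k M))
        (h60_psi M k (e : k →+* k) f) = f := by
  apply h96_pow_inj k q
  rw [h96_frobSemi_pow]
  have he' : (e : k →+* k) = frobenius k q := RingHom.ext fun c => he c
  rw [he']
  exact h60_phi_psi_frobenius M q k f

theorem h60_frobSemi_eq {x : ↥(modularFunctionFieldFullC k M)}
    (h : h96_IsFrobChart k q x (h60_phi M q k)) (e : k ≃+* k) (he : ∀ c, e c = c ^ q) :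
    h96_frobSemi h = (h60_psiSemi M k e)⁻¹ := by
  rw [eq_inv_iff_mul_eq_one]
  apply Subtype.ext
  apply RingEquiv.ext
  intro f
  show ((h96_frobSemi h : h57_SemiAut k ↥(modularFunctionFieldFullC k M)) :
      ↥(modularFunctionFieldFullC k M) ≃+* ↥(modularFunctionFieldFullC k M))
        (h60_psi M k (e : k →+* k) f) = f
  exact h60_frobSemi_apply_psi M q k h e he f

/-- The permutation of places induced by `φ` is the action of the coefficientwise Frobenius. -/
theorem h60_frobPerm_eq {x : ↥(modularFunctionFieldFullC k M)}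
    (h : h96_IsFrobChart k q x (h60_phi M q k)) (e : k ≃+* k) (he : ∀ c, e c = c ^ q)
    (Q : Place k ↥(modularFunctionFieldFullC k M)) :
    h96_frobPerm h Q = h60_psiSemi M k e • Q := by
  rw [h96_frobPerm_apply, h60_frobSemi_eq M q k h e he, inv_inv]

end FrobSemi

section Cusp

variable (M : ℕ) [NeZero M] (k : Type) [Field k]

/-- The coefficientwise action of an automorphism of `k` fixes the cusp. -/
theorem h60_psiSemi_smul_cusp (e : k ≃+* k) :
    h60_psiSemi M k e • h11_placeInftyC k M = h11_placeInftyC k M := by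
  refine h10_IsCusp.unique (fun f hf => ?_) h84_isCusp_placeInftyC
  rw [h57_ord_smul']
  have h1 : ((h60_psiSemi M k e : h57_SemiAut k ↥(modularFunctionFieldFullC k M)) :
      ↥(modularFunctionFieldFullC k M) ≃+* ↥(modularFunctionFieldFullC k M)).symm f
      = h60_psi M k (e.symm : k →+* k) f := rfl
  have hne : h60_psi M k (e.symm : k →+* k) f ≠ 0 := (map_ne_zero _).mpr hf
  rw [h1, h84_isCusp_placeInftyC _ hne, h60_coe_psi]
  exact h64_order_coeffMap _ e.symm.injective _

/-- The coefficientwise action preserves orders at the cusp. -/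
theorem h60_ord_cusp_psi (e : k ≃+* k) (f : ↥(modularFunctionFieldFullC k M)) :
    (h11_placeInftyC k M).ord (h60_psi M k (e : k →+* k) f) = (h11_placeInftyC k M).ord f :=
  h60_ord_apply_of_fixed (h60_psiSemi M k e) _ (h60_psiSemi_smul_cusp M k e) f

end Cusp

section DFrob

variable (M q : ℕ) [NeZero M] [NeZero q] [Fact q.Prime] (hqM : ¬ q ∣ M)
  (A : ValuationSubring Qb) (hA : A.LiesOverPrime q)

/-- `hsO`/`hsred` for the pair lattice `h87_D` and an automorphism of `Qb` that transfers integral
series with reductions twisted by `ψ`. -/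
theorem h60_D_transfer (τ : Qb ≃ₐ[ℚ] Qb)
    (ψ : IsLocalRing.ResidueField A →+* IsLocalRing.ResidueField A)
    (htr : ∀ y : LaurentSeries A, ∃ y' : LaurentSeries A,
      coeffMap A.subtype y' = coeffMap ((τ : Qb ≃+* Qb) : Qb →+* Qb) (coeffMap A.subtype y) ∧
      coeffMap (IsLocalRing.residue A) y' = coeffMap ψ (coeffMap (IsLocalRing.residue A) y)) :
    (∀ f, f ∈ (h87_D M q hqM A hA).O →
        arithmeticGalois (modularFunctionFieldFull (M * q)) τ • f ∈ (h87_D M q hqM A hA).O) ∧
      (∀ f, f ∈ (h87_D M q hqM A hA).O →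
        (h87_D M q hqM A hA).redF (arithmeticGalois (modularFunctionFieldFull (M * q)) τ • f) =
          Prod.map (h60_psi M (IsLocalRing.ResidueField A) ψ)
            (h60_psi M (IsLocalRing.ResidueField A) ψ) ((h87_D M q hqM A hA).redF f)) := by
  refine ⟨fun f hf => ?_, fun f hf => ?_⟩
  · have hf' := (h87_D_mem M q hqM A hA).mp hf
    exact (h87_D_mem M q hqM A hA).mpr
      ⟨(h60_R1_transfer M q hqM A hA τ ψ htr f hf'.1).1,
        (h60_R2_transfer M q hqM A hA τ ψ htr f hf'.2).1⟩
  · have hf' := (h87_D_mem M q hqM A hA).mp hf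
    have h1 := h60_R1_transfer M q hqM A hA τ ψ htr f hf'.1
    have h2 := h60_R2_transfer M q hqM A hA τ ψ htr f hf'.2
    have e1 : (h87_D M q hqM A hA).redF
        (arithmeticGalois (modularFunctionFieldFull (M * q)) τ • f)
        = ((h60_R1 M q hqM A hA).redF (arithmeticRingAut (modularFunctionFieldFull (M * q)) τ f),
            (h60_R2 M q hqM A hA).redF (arithmeticRingAut (modularFunctionFieldFull (M * q)) τ f)) :=
      h87_D_redF M q hqM A hA h1.1 h2.1
    rw [e1, h87_D_redF M q hqM A hA hf'.1 hf'.2, h1.2, h2.2]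
    rfl

variable [CharP (IsLocalRing.ResidueField A) q]

/-- `hsO`/`hsred` for `h87_D` and a Frobenius element `s`: `Φ = (ψ, ψ)`, `ψ` the coefficientwise
Frobenius. -/
theorem h60_D_frob (s : Qb ≃ₐ[ℚ] Qb) (hs : A.IsFrobeniusAt s q) :
    (∀ f, f ∈ (h87_D M q hqM A hA).O →
        arithmeticGalois (modularFunctionFieldFull (M * q)) s • f ∈ (h87_D M q hqM A hA).O) ∧
      (∀ f, f ∈ (h87_D M q hqM A hA).O →
        (h87_D M q hqM A hA).redF (arithmeticGalois (modularFunctionFieldFull (M * q)) s • f) =
          Prod.map
            (h60_psi M (IsLocalRing.ResidueField A) (frobenius (IsLocalRing.ResidueField A) q))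
            (h60_psi M (IsLocalRing.ResidueField A) (frobenius (IsLocalRing.ResidueField A) q))
            ((h87_D M q hqM A hA).redF f)) :=
  h60_D_transfer M q hqM A hA s _ (fun y => h24_transfer_frob A s q hs y)

/-- `hsO`/`hsred` for `h87_D` and the square of a Frobenius element: `Φ = (ψ², ψ²)`. -/
theorem h60_D_frob_sq (s : Qb ≃ₐ[ℚ] Qb) (hs : A.IsFrobeniusAt s q) :
    (∀ f, f ∈ (h87_D M q hqM A hA).O →
        arithmeticGalois (modularFunctionFieldFull (M * q)) (s * s) • f
          ∈ (h87_D M q hqM A hA).O) ∧
      (∀ f, f ∈ (h87_D M q hqM A hA).O →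
        (h87_D M q hqM A hA).redF
            (arithmeticGalois (modularFunctionFieldFull (M * q)) (s * s) • f) =
          Prod.map
            (fun a => h60_psi M (IsLocalRing.ResidueField A)
              (frobenius (IsLocalRing.ResidueField A) q)
              (h60_psi M (IsLocalRing.ResidueField A)
                (frobenius (IsLocalRing.ResidueField A) q) a))
            (fun a => h60_psi M (IsLocalRing.ResidueField A)
              (frobenius (IsLocalRing.ResidueField A) q)
              (h60_psi M (IsLocalRing.ResidueField A)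
                (frobenius (IsLocalRing.ResidueField A) q) a))
            ((h87_D M q hqM A hA).redF f)) := by
  obtain ⟨h1, h2⟩ := h60_D_frob M q hqM A hA s hs
  have hmul : ∀ f : ↥(modularFunctionFieldBar (M * q)),
      arithmeticGalois (modularFunctionFieldFull (M * q)) (s * s) • f
        = arithmeticGalois (modularFunctionFieldFull (M * q)) s •
            (arithmeticGalois (modularFunctionFieldFull (M * q)) s • f) := by
    intro f
    rw [map_mul, mul_smul]
  refine ⟨fun f hf => ?_, fun f hf => ?_⟩
  · rw [hmul]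
    exact h1 _ (h1 f hf)
  · rw [hmul, h2 _ (h1 f hf), h2 f hf]
    rfl

end DFrob

end Fermat.Agent.S34

end
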