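import Mathlib
import Fermat.Agent.S34.h51_Last

/-!
# S34 / LAST step: the lattice layer and (DEC) from the list (L)  (helper42)

Generic (no modular input, no node / chart input).  Setting = the hypothesis list (L) of the
last-step statement `h51_LastStep`: a lattice datum `D : h22_Lat K F k Rb` with orthonormal
bases, a unit `x` of `O` with `div x = E2 - E1`, `E1, E2 ≥ 0`, and (STRICT)
`G^(n+1) = G^n + x̄ G^n` for `G^n = red (L(n E1) ∩ O)`, `n ≥ N0`.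

* `h42_Lint D B` : `L(B) ∩ O` as a module over the valuation ring `D.A`;
* `h42_lint_span`, `h42_Lint_fg` : it is finitely generated (orthonormal basis);
* `h42_lint_ker` : an element of `L(B) ∩ O` with zero reduction is `a • g`, `a ∈ 𝔪_A`,
  `g ∈ L(B) ∩ O`;
* `h42_xshift`, `h42_xshift_O` : `f ∈ L(a E1 + b E2 + E') ↔ x ^ b f ∈ L((a + b) E1 + E')`;
* `h42_cap` : `L(a E1 + E') ∩ L(b E2 + E') ⊆ L(E')` when `E1`, `E2` have disjoint supports;
* `h42_step` : for a divisor `E'` with trivial gluing (`red (L(n E1 + E') ∩ O) = G^n`, `n ≥ N0`):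
  `L((n+1) E1 + E') ∩ O = L(n E1 + E') ∩ O + x (L(n E1 + E') ∩ O)` for `n ≥ N0` (Nakayama);
* `h42_dec` : **(DEC)** every `f ∈ L(a E1 + b E2 + E') ∩ O` is `y + z + w` with
  `y ∈ L(a' E1 + E') ∩ O`, `z ∈ L(b' E2 + E') ∩ O`, `w ∈ L(N0 E1 + N0 E2 + E') ∩ O`.
-/

set_option autoImplicit false

noncomputable section

open AlgebraicCurve Module

namespace Fermat.Agent.S34

variable {K F k Rb : Type*} [Field K] [Field F] [Algebra K F] [Field k] [CommRing Rb]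
  [Algebra k Rb]

/-! ### The lattices `L(B) ∩ O` -/

/-- `L(B) ∩ O` as a submodule over the valuation ring `A` of the constants. -/
def h42_Lint (D : h22_Lat K F k Rb) (B : Divisor K F) : Submodule D.A F where
  carrier := {f | f ∈ riemannRochSpace B ∧ f ∈ D.O}
  zero_mem' := ⟨Submodule.zero_mem _, D.O.zero_mem⟩
  add_mem' := fun hf hg => ⟨Submodule.add_mem _ hf.1 hg.1, D.O.add_mem hf.2 hg.2⟩
  smul_mem' := fun a f hf => ⟨Submodule.smul_mem _ (a : K) hf.1, by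
    show (a : K) • f ∈ D.O
    rw [Algebra.smul_def]
    exact D.O.mul_mem ((D.mem_iff _).mp a.2) hf.2⟩

theorem h42_mem_Lint (D : h22_Lat K F k Rb) (B : Divisor K F) (f : F) :
    f ∈ h42_Lint D B ↔ f ∈ riemannRochSpace B ∧ f ∈ D.O := Iff.rfl

/-- `L(B) ∩ O` is spanned over `A` by an orthonormal family. -/
theorem h42_lint_span (D : h22_Lat K F k Rb) (hON : h22_ON D) (B : Divisor K F)
    [FiniteDimensional K (riemannRochSpace B)] :
    ∃ (n : ℕ) (e : Fin n → F), (∀ i, e i ∈ riemannRochSpace B) ∧ (∀ i, e i ∈ D.O) ∧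
      LinearIndependent k (fun i => D.redF (e i)) ∧
      ∀ f ∈ riemannRochSpace B, f ∈ D.O →
        ∃ c : Fin n → K, (∀ i, c i ∈ D.A) ∧ f = ∑ i, c i • e i := by
  obtain ⟨e, heV, heO, hind⟩ := hON (riemannRochSpace B) inferInstance
  refine ⟨_, e, heV, heO, hind, fun f hf hfO => ?_⟩
  obtain ⟨c, hc, hcA⟩ := h22_on_span D (riemannRochSpace B) e heV heO hind f hf
  exact ⟨c, hcA hfO, hc⟩

/-- `L(B) ∩ O` is a finitely generated `A`-module. -/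
theorem h42_Lint_fg (D : h22_Lat K F k Rb) (hON : h22_ON D) (B : Divisor K F)
    [FiniteDimensional K (riemannRochSpace B)] : (h42_Lint D B).FG := by
  classical
  obtain ⟨n, e, heV, heO, -, hspan⟩ := h42_lint_span D hON B
  refine ⟨Finset.univ.image e, le_antisymm ?_ ?_⟩
  · rw [Submodule.span_le]
    intro y hy
    rw [Finset.coe_image, Set.mem_image] at hy
    obtain ⟨i, -, rfl⟩ := hy
    exact ⟨heV i, heO i⟩
  · intro f hf
    obtain ⟨c, hcA, rfl⟩ := hspan f hf.1 hf.2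
    refine Submodule.sum_mem _ fun i _ => ?_
    have h1 : c i • e i = (⟨c i, hcA i⟩ : D.A) • e i := rfl
    rw [h1]
    refine Submodule.smul_mem _ _ (Submodule.subset_span ?_)
    rw [Finset.coe_image]
    exact ⟨i, Finset.mem_coe.mpr (Finset.mem_univ i), rfl⟩

/-- The kernel of the reduction on `L(B) ∩ O` is `𝔪_A (L(B) ∩ O)`, with one scalar. -/
theorem h42_lint_ker (D : h22_Lat K F k Rb) (B : Divisor K F) {f : F}
    (hf : f ∈ riemannRochSpace B) (hfO : f ∈ D.O) (hred : D.redF f = 0) :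
    ∃ a : K, a ∈ D.A.nonunits ∧ ∃ g : F, g ∈ riemannRochSpace B ∧ g ∈ D.O ∧ f = a • g := by
  obtain ⟨a, ha, g, hg, hfg⟩ := (h22_redF_eq_zero_iff D hfO).mp hred
  by_cases ha0 : a = 0
  · refine ⟨0, ?_, 0, Submodule.zero_mem _, D.O.zero_mem, ?_⟩
    · rw [← ha0]
      exact ha
    · rw [hfg, ha0, map_zero, zero_mul, smul_zero]
  · refine ⟨a, ha, g, ?_, hg, by rw [hfg, Algebra.smul_def]⟩
    have h1 : g = a⁻¹ • f := by
      rw [hfg, Algebra.smul_def, ← mul_assoc, ← map_mul, inv_mul_cancel₀ ha0, map_one, one_mul]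
    rw [h1]
    exact Submodule.smul_mem _ _ hf

/-- reduction of a difference -/
theorem h42_redF_sub (D : h22_Lat K F k Rb) {f g : F} (hf : f ∈ D.O) (hg : g ∈ D.O) :
    D.redF (f - g) = D.redF f - D.redF g := by
  rw [D.redF_of_mem (D.O.sub_mem hf hg), D.redF_of_mem hf, D.redF_of_mem hg, ← map_sub]
  rfl

/-! ### The `x`-shift -/

/-- `f ∈ L(a E1 + b E2 + E') ↔ x ^ b f ∈ L((a + b) E1 + E')` for `div x = E2 - E1`. -/
theorem h42_xshift (x : F) (hx0 : x ≠ 0) (E1 E2 : Divisor K F)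
    (hdivx : ∀ v : Place K F, v.ord x = E2 v - E1 v) (a b : ℕ) (E' : Divisor K F) (f : F) :
    f ∈ riemannRochSpace (a • E1 + b • E2 + E') ↔
      x ^ b * f ∈ riemannRochSpace ((a + b) • E1 + E') := by
  rw [mem_riemannRochSpace_iff, mem_riemannRochSpace_iff]
  by_cases hf : f = 0
  · subst hf
    simp
  have hxb : x ^ b ≠ 0 := pow_ne_zero b hx0
  have hord : ∀ v : Place K F, v.ord (x ^ b * f) = b * (E2 v - E1 v) + v.ord f := by
    intro v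
    rw [v.ord_mul hxb hf, ← zpow_natCast, v.ord_zpow, hdivx]
  constructor
  · intro h v
    right
    have h1 := (h v).resolve_left hf
    rw [hord v]
    simp only [Finsupp.add_apply, Finsupp.smul_apply, nsmul_eq_mul] at h1 ⊢
    push_cast
    linarith
  · intro h v
    right
    have h1 := (h v).resolve_left (mul_ne_zero hxb hf)
    rw [hord v] at h1
    simp only [Finsupp.add_apply, Finsupp.smul_apply, nsmul_eq_mul] at h1 ⊢
    push_cast at h1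
    linarith

/-- `x ^ b f ∈ O ↔ f ∈ O` for a unit `x` of `O`. -/
theorem h42_xshift_O (D : h22_Lat K F k Rb) {x : F} (hx0 : x ≠ 0) (hx : x ∈ D.O)
    (hxi : x⁻¹ ∈ D.O) (b : ℕ) (f : F) : x ^ b * f ∈ D.O ↔ f ∈ D.O := by
  constructor
  · intro h
    have h1 : f = x⁻¹ ^ b * (x ^ b * f) := by
      rw [← mul_assoc, ← mul_pow, inv_mul_cancel₀ hx0, one_pow, one_mul]
    rw [h1]
    exact D.O.mul_mem (D.O.pow_mem hxi b) h
  · intro h
    exact D.O.mul_mem (D.O.pow_mem hx b) h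

/-- `x ∈ L(E1)`. -/
theorem h42_x_mem (x : F) (E1 E2 : Divisor K F) (hE2 : ∀ v, 0 ≤ E2 v)
    (hdivx : ∀ v : Place K F, v.ord x = E2 v - E1 v) : x ∈ riemannRochSpace E1 := by
  rw [mem_riemannRochSpace_iff]
  intro v
  right
  rw [hdivx v]
  linarith [hE2 v]

/-- `L(a E1 + E') ∩ L(b E2 + E') ⊆ L(E')` when `E1`, `E2 ≥ 0` have disjoint supports. -/
theorem h42_cap (E1 E2 : Divisor K F) (hdisj : ∀ v, E1 v = 0 ∨ E2 v = 0) (a b : ℕ)
    (E' : Divisor K F) {f : F} (h1 : f ∈ riemannRochSpace (a • E1 + E'))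
    (h2 : f ∈ riemannRochSpace (b • E2 + E')) : f ∈ riemannRochSpace E' := by
  rw [mem_riemannRochSpace_iff] at h1 h2 ⊢
  intro v
  by_cases hf : f = 0
  · exact Or.inl hf
  right
  have h1v := (h1 v).resolve_left hf
  have h2v := (h2 v).resolve_left hf
  simp only [Finsupp.add_apply, Finsupp.smul_apply, nsmul_eq_mul] at h1v h2v
  rcases hdisj v with hv | hv
  · rw [hv] at h1v
    linarith
  · rw [hv] at h2v
    linarith

/-- monotonicity in the multiple of an effective divisor -/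
theorem h42_rr_mono_nsmul (E1 : Divisor K F) (hE1 : ∀ v, 0 ≤ E1 v) {a a' : ℕ} (h : a ≤ a')
    (E' : Divisor K F) {f : F} (hf : f ∈ riemannRochSpace (a • E1 + E')) :
    f ∈ riemannRochSpace (a' • E1 + E') := by
  refine h51_rr_mono (fun v => ?_) hf
  simp only [Finsupp.add_apply, Finsupp.smul_apply, nsmul_eq_mul]
  have h1 : (a : ℤ) ≤ a' := by exact_mod_cast h
  nlinarith [hE1 v]

/-! ### One step of (DEC): Nakayama -/

/-- For a divisor `E'` with trivial gluing and `n ≥ N0`: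
`L((n+1) E1 + E') ∩ O = L(n E1 + E') ∩ O + x (L(n E1 + E') ∩ O)`. -/
theorem h42_step (D : h22_Lat K F k Rb) (hON : h22_ON D)
    (hfin : ∀ D' : Divisor K F, FiniteDimensional K (riemannRochSpace D'))
    (x : F) (hx : x ∈ D.O)
    (E1 E2 : Divisor K F) (hE1 : ∀ v, 0 ≤ E1 v) (hE2 : ∀ v, 0 ≤ E2 v)
    (hdivx : ∀ v : Place K F, v.ord x = E2 v - E1 v)
    (N0 : ℕ)
    (hstrict : ∀ n, N0 ≤ n → ∀ a ∈ h51_Rd D ((n + 1) • E1), ∃ b ∈ h51_Rd D (n • E1),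
      ∃ c ∈ h51_Rd D (n • E1), a = b + D.redF x * c)
    (E' : Divisor K F)
    (htriv : ∀ n, N0 ≤ n → h51_Rd D (n • E1 + E') = h51_Rd D (n • E1))
    (n : ℕ) (hn : N0 ≤ n) (h : F) (hh : h ∈ riemannRochSpace ((n + 1) • E1 + E'))
    (hhO : h ∈ D.O) :
    ∃ h₁ h₂ : F, h₁ ∈ riemannRochSpace (n • E1 + E') ∧ h₁ ∈ D.O ∧
      h₂ ∈ riemannRochSpace (n • E1 + E') ∧ h₂ ∈ D.O ∧ h = h₁ + x * h₂ := by
  classical
  have := hfin ((n + 1) • E1 + E')
  set Λ : Submodule D.A F := h42_Lint D ((n + 1) • E1 + E') with hΛ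
  set Λ' : Submodule D.A F := h42_Lint D (n • E1 + E') with hΛ'
  set N : Submodule D.A F := Λ' ⊔ Λ'.map (LinearMap.mulLeft D.A x) with hN
  have hxL : x ∈ riemannRochSpace E1 := h42_x_mem x E1 E2 hE2 hdivx
  -- `x Λ' ⊆ Λ`
  have hxΛ : ∀ g : F, g ∈ riemannRochSpace (n • E1 + E') →
      x * g ∈ riemannRochSpace ((n + 1) • E1 + E') := by
    intro g hg
    have h1 := h51_mul_mem_rr hxL hg
    have e : E1 + (n • E1 + E') = (n + 1) • E1 + E' := by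
      rw [succ_nsmul]
      abel
    rw [e] at h1
    exact h1
  have hΛ'Λ : ∀ g : F, g ∈ riemannRochSpace (n • E1 + E') →
      g ∈ riemannRochSpace ((n + 1) • E1 + E') :=
    fun g hg => h42_rr_mono_nsmul E1 hE1 (Nat.le_succ n) E' hg
  -- Nakayama
  have hNN : Λ ≤ N ⊔ IsLocalRing.maximalIdeal D.A • Λ := by
    intro f hf
    obtain ⟨hfL, hfO⟩ := hf
    have hred : D.redF f ∈ h51_Rd D ((n + 1) • E1) := by
      rw [← htriv (n + 1) (le_trans hn (Nat.le_succ n))]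
      exact ⟨f, hfL, hfO, rfl⟩
    obtain ⟨β, hβ, γ, hγ, hβγ⟩ := hstrict n hn _ hred
    rw [← htriv n hn] at hβ hγ
    obtain ⟨h₁, h₁L, h₁O, rfl⟩ := hβ
    obtain ⟨h₂, h₂L, h₂O, rfl⟩ := hγ
    have hxh₂O : x * h₂ ∈ D.O := D.O.mul_mem hx h₂O
    have hsumO : h₁ + x * h₂ ∈ D.O := D.O.add_mem h₁O hxh₂O
    have hrL : f - (h₁ + x * h₂) ∈ riemannRochSpace ((n + 1) • E1 + E') :=
      Submodule.sub_mem _ hfL (Submodule.add_mem _ (hΛ'Λ h₁ h₁L) (hxΛ h₂ h₂L))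
    have hrO : f - (h₁ + x * h₂) ∈ D.O := D.O.sub_mem hfO hsumO
    have hr0 : D.redF (f - (h₁ + x * h₂)) = 0 := by
      rw [h42_redF_sub D hfO hsumO, h51_redF_add D h₁O hxh₂O, h51_redF_mul D hx h₂O, hβγ,
        sub_self]
    obtain ⟨a, ha, g, hgL, hgO, hfg⟩ := h42_lint_ker D _ hrL hrO hr0
    have hdecomp : f = (h₁ + x * h₂) + a • g := by
      rw [← hfg]
      ring
    rw [hdecomp]
    refine Submodule.add_mem_sup ?_ ?_
    · refine Submodule.add_mem_sup ⟨h₁L, h₁O⟩ ?_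
      exact Submodule.mem_map.mpr ⟨h₂, ⟨h₂L, h₂O⟩, rfl⟩
    · have haA : a ∈ D.A := D.A.nonunits_le ha
      have ham : (⟨a, haA⟩ : D.A) ∈ IsLocalRing.maximalIdeal D.A :=
        (ValuationSubring.coe_mem_nonunits_iff (A := D.A)).mp ha
      have h1 : a • g = (⟨a, haA⟩ : D.A) • g := rfl
      rw [h1]
      exact Submodule.smul_mem_smul ham ⟨hgL, hgO⟩
  have hle : Λ ≤ N :=
    Submodule.le_of_le_smul_of_le_jacobson_bot (h42_Lint_fg D hON _)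
      (IsLocalRing.maximalIdeal_le_jacobson _) hNN
  have hmem : h ∈ N := hle ⟨hh, hhO⟩
  obtain ⟨h₁, hh₁, y, hy, hsum⟩ := Submodule.mem_sup.mp hmem
  obtain ⟨h₂, hh₂, rfl⟩ := Submodule.mem_map.mp hy
  exact ⟨h₁, h₂, hh₁.1, hh₁.2, hh₂.1, hh₂.2, hsum.symm⟩

/-! ### (DEC) -/

/-- **(DEC)** for a divisor `E'` with trivial gluing along `E1`: every element of
`L(a E1 + b E2 + E') ∩ O` is a sum of an element of `L(a' E1 + E') ∩ O`, an element of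
`L(b' E2 + E') ∩ O` and an element of `L(N0 E1 + N0 E2 + E') ∩ O`. -/
theorem h42_dec (D : h22_Lat K F k Rb) (hON : h22_ON D)
    (hfin : ∀ D' : Divisor K F, FiniteDimensional K (riemannRochSpace D'))
    (x : F) (hx0 : x ≠ 0) (hx : x ∈ D.O) (hxi : x⁻¹ ∈ D.O)
    (E1 E2 : Divisor K F) (hE1 : ∀ v, 0 ≤ E1 v) (hE2 : ∀ v, 0 ≤ E2 v)
    (hdivx : ∀ v : Place K F, v.ord x = E2 v - E1 v)
    (N0 : ℕ)
    (hstrict : ∀ n, N0 ≤ n → ∀ a ∈ h51_Rd D ((n + 1) • E1), ∃ b ∈ h51_Rd D (n • E1),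
      ∃ c ∈ h51_Rd D (n • E1), a = b + D.redF x * c)
    (E' : Divisor K F)
    (htriv : ∀ n, N0 ≤ n → h51_Rd D (n • E1 + E') = h51_Rd D (n • E1))
    (a b : ℕ) (f : F) (hf : f ∈ riemannRochSpace (a • E1 + b • E2 + E')) (hfO : f ∈ D.O) :
    ∃ y z w : F, f = y + z + w ∧ (∃ a' : ℕ, y ∈ riemannRochSpace (a' • E1 + E')) ∧ y ∈ D.O ∧
      (∃ b' : ℕ, z ∈ riemannRochSpace (b' • E2 + E')) ∧ z ∈ D.O ∧
      w ∈ riemannRochSpace (N0 • E1 + N0 • E2 + E') ∧ w ∈ D.O := by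
  classical
  induction' hs : a + b using Nat.strong_induction_on with s ih generalizing a b f
  rcases Nat.eq_zero_or_pos a with ha0 | hapos
  · -- `a = 0`
    subst ha0
    rw [zero_smul, zero_add] at hf
    exact ⟨0, f, 0, by ring, ⟨0, Submodule.zero_mem _⟩, D.O.zero_mem, ⟨b, hf⟩, hfO,
      Submodule.zero_mem _, D.O.zero_mem⟩
  rcases Nat.eq_zero_or_pos b with hb0 | hbpos
  · -- `b = 0`
    subst hb0
    rw [zero_smul, add_zero] at hf
    exact ⟨f, 0, 0, by ring, ⟨a, hf⟩, hfO, ⟨0, Submodule.zero_mem _⟩, D.O.zero_mem,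
      Submodule.zero_mem _, D.O.zero_mem⟩
  by_cases hsmall : a + b ≤ N0
  · -- small pole orders
    refine ⟨0, 0, f, by ring, ⟨0, Submodule.zero_mem _⟩, D.O.zero_mem,
      ⟨0, Submodule.zero_mem _⟩, D.O.zero_mem, ?_, hfO⟩
    refine h51_rr_mono (fun v => ?_) hf
    simp only [Finsupp.add_apply, Finsupp.smul_apply, nsmul_eq_mul]
    have h1 : (a : ℤ) ≤ N0 := by exact_mod_cast (by omega : a ≤ N0)
    have h2 : (b : ℤ) ≤ N0 := by exact_mod_cast (by omega : b ≤ N0)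
    nlinarith [hE1 v, hE2 v]
  -- the inductive step
  obtain ⟨a₀, rfl⟩ : ∃ a₀, a = a₀ + 1 := ⟨a - 1, by omega⟩
  obtain ⟨b₀, rfl⟩ : ∃ b₀, b = b₀ + 1 := ⟨b - 1, by omega⟩
  set n : ℕ := a₀ + b₀ + 1 with hn
  have hnN0 : N0 ≤ n := by omega
  -- `h := x ^ b f`
  have hhL : x ^ (b₀ + 1) * f ∈ riemannRochSpace ((n + 1) • E1 + E') := by
    have h1 := (h42_xshift x hx0 E1 E2 hdivx (a₀ + 1) (b₀ + 1) E' f).mp hf
    have e : a₀ + 1 + (b₀ + 1) = n + 1 := by omega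
    rw [e] at h1
    exact h1
  have hhO : x ^ (b₀ + 1) * f ∈ D.O := (h42_xshift_O D hx0 hx hxi (b₀ + 1) f).mpr hfO
  obtain ⟨h₁, h₂, h₁L, h₁O, h₂L, h₂O, hsum⟩ :=
    h42_step D hON hfin x hx E1 E2 hE1 hE2 hdivx N0 hstrict E' htriv n hnN0 _ hhL hhO
  -- `f = f₁ + f₂`
  set f₁ : F := x⁻¹ ^ (b₀ + 1) * h₁ with hf₁
  set f₂ : F := x⁻¹ ^ b₀ * h₂ with hf₂
  have hxx : ∀ c : ℕ, x ^ c * x⁻¹ ^ c = 1 := by
    intro c
    rw [← mul_pow, mul_inv_cancel₀ hx0, one_pow]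
  have hf₁x : x ^ (b₀ + 1) * f₁ = h₁ := by
    rw [hf₁, ← mul_assoc, hxx, one_mul]
  have hf₂x : x ^ b₀ * f₂ = h₂ := by
    rw [hf₂, ← mul_assoc, hxx, one_mul]
  have hff : f = f₁ + f₂ := by
    have h1 : f = x⁻¹ ^ (b₀ + 1) * (x ^ (b₀ + 1) * f) := by
      rw [← mul_assoc, mul_comm (x⁻¹ ^ (b₀ + 1)), hxx, one_mul]
    rw [h1, hsum, hf₁, hf₂, mul_add]
    congr 1
    rw [pow_succ, mul_assoc, ← mul_assoc x⁻¹ x, inv_mul_cancel₀ hx0, one_mul]
  have hf₁O : f₁ ∈ D.O := D.O.mul_mem (D.O.pow_mem hxi _) h₁O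
  have hf₂O : f₂ ∈ D.O := D.O.mul_mem (D.O.pow_mem hxi _) h₂O
  have hf₁L : f₁ ∈ riemannRochSpace (a₀ • E1 + (b₀ + 1) • E2 + E') := by
    rw [h42_xshift x hx0 E1 E2 hdivx a₀ (b₀ + 1) E' f₁, hf₁x]
    have e : a₀ + (b₀ + 1) = n := by omega
    rw [e]
    exact h₁L
  have hf₂L : f₂ ∈ riemannRochSpace ((a₀ + 1) • E1 + b₀ • E2 + E') := by
    rw [h42_xshift x hx0 E1 E2 hdivx (a₀ + 1) b₀ E' f₂, hf₂x]
    have e : a₀ + 1 + b₀ = n := by omega
    rw [e]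
    exact h₂L
  obtain ⟨y₁, z₁, w₁, e₁, ⟨a₁, hy₁⟩, hy₁O, ⟨b₁, hz₁⟩, hz₁O, hw₁, hw₁O⟩ :=
    ih (a₀ + (b₀ + 1)) (by omega) a₀ (b₀ + 1) f₁ hf₁L hf₁O rfl
  obtain ⟨y₂, z₂, w₂, e₂, ⟨a₂, hy₂⟩, hy₂O, ⟨b₂, hz₂⟩, hz₂O, hw₂, hw₂O⟩ :=
    ih (a₀ + 1 + b₀) (by omega) (a₀ + 1) b₀ f₂ hf₂L hf₂O rfl
  refine ⟨y₁ + y₂, z₁ + z₂, w₁ + w₂, by rw [hff, e₁, e₂]; ring, ⟨max a₁ a₂, ?_⟩,
    D.O.add_mem hy₁O hy₂O, ⟨max b₁ b₂, ?_⟩, D.O.add_mem hz₁O hz₂O,
    Submodule.add_mem _ hw₁ hw₂, D.O.add_mem hw₁O hw₂O⟩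
  · exact Submodule.add_mem _ (h42_rr_mono_nsmul E1 hE1 (le_max_left _ _) E' hy₁)
      (h42_rr_mono_nsmul E1 hE1 (le_max_right _ _) E' hy₂)
  · exact Submodule.add_mem _ (h42_rr_mono_nsmul E2 hE2 (le_max_left _ _) E' hz₁)
      (h42_rr_mono_nsmul E2 hE2 (le_max_right _ _) E' hz₂)

end Fermat.Agent.S34

end
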