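import Mathlib
import Fermat.Agent.S34.h51_Last
import Fermat.Agent.S34.h63_PatchFinal
import Fermat.Agent.S34.h42_LastDec

/-!
# S34 / LAST step in the canonical shape (helper42)

`h42_last_of_L` : the last-step statement `h51_LastStep D E1 N0 m` (helper51, `h51_Last.lean`)
from EXACTLY the hypothesis list (L): a lattice datum with orthonormal bases, inverses of units,
rank one, finite-dimensional Riemann-Roch spaces, a unit `x` of `O` with `div x = E2 - E1`
(`E1, E2 ≥ 0` with disjoint supports), (STRICT) along `E1` and `m` invertible in the residue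
field.  No nonzero nonunit of `D.A` is required.

Proof: if `D.A` has a nonzero nonunit this is `h63_exists_section` (helper63, two-chart patching)
with the trivial gluing at `j = 1`; if not, the reduction is injective on `O` and the two local
sections coincide.
-/

set_option autoImplicit false

noncomputable section

open AlgebraicCurve Module
open Fermat.Agent.S18

namespace Fermat.Agent.S34

variable {K F k Rb : Type*} [Field K] [Field F] [Algebra K F] [Field k] [CommRing Rb]
  [Algebra k Rb]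

/-- A natural number with nonzero residue is a unit of the valuation ring of a lattice datum. -/
theorem h42_natCast_unit (D : h22_Lat K F k Rb) (m : ℕ) (hm : (m : k) ≠ 0) :
    (m : K) ≠ 0 ∧ ((m : K))⁻¹ ∈ D.A := by
  have hmA : (m : K) ∈ D.A := natCast_mem D.A m
  have hres : D.res ⟨(m : K), hmA⟩ = (m : k) := by
    have h1 : (⟨(m : K), hmA⟩ : D.A) = ((m : ℕ) : D.A) := Subtype.ext (by simp)
    rw [h1, map_natCast]
  have hnon : (m : K) ∉ D.A.nonunits := by
    intro h
    have h2 := (h22_res_eq_zero_iff D ⟨(m : K), hmA⟩).mpr h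
    rw [hres] at h2
    exact hm h2
  rw [ValuationSubring.mem_nonunits_iff_or] at hnon
  push Not at hnon
  exact hnon

/-- `x ^ n ∈ L(n E1)` for `div x = E2 - E1`, `E2 ≥ 0`. -/
theorem h42_pow_mem_rr (x : F) (E1 E2 : Divisor K F) (hE2 : ∀ v, 0 ≤ E2 v)
    (hdivx : ∀ v : Place K F, v.ord x = E2 v - E1 v) (n : ℕ) :
    x ^ n ∈ riemannRochSpace (n • E1) := by
  rw [mem_riemannRochSpace_iff]
  intro v
  right
  rw [← zpow_natCast, v.ord_zpow, hdivx v, Finsupp.smul_apply, nsmul_eq_mul]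
  have h1 : (0 : ℤ) ≤ (n : ℤ) * E2 v := mul_nonneg (Int.natCast_nonneg n) (hE2 v)
  linarith

/-- **The last step from the list (L)**, in the canonical shape `h51_LastStep`. -/
theorem h42_last_of_L [Nontrivial Rb] (D : h22_Lat K F k Rb) (hON : h22_ON D)
    (hinv : ∀ (f : F) (hf : f ∈ D.O), IsUnit (D.red ⟨f, hf⟩) → f⁻¹ ∈ D.O)
    (hrank : h39_RankOne D.A)
    (hfin : ∀ D' : Divisor K F, FiniteDimensional K (riemannRochSpace D'))
    (x : F) (hx0 : x ≠ 0) (hx : x ∈ D.O) (hxi : x⁻¹ ∈ D.O)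
    (E1 E2 : Divisor K F) (hE1 : ∀ v, 0 ≤ E1 v) (hE2 : ∀ v, 0 ≤ E2 v)
    (hdisj : ∀ v, E1 v = 0 ∨ E2 v = 0)
    (hdivx : ∀ v : Place K F, v.ord x = E2 v - E1 v)
    (N0 : ℕ)
    (hstrict : ∀ n, N0 ≤ n → ∀ a ∈ h51_Rd D ((n + 1) • E1), ∃ b ∈ h51_Rd D (n • E1),
      ∃ c ∈ h51_Rd D (n • E1), a = b + D.redF x * c)
    (m : ℕ) (hm : (m : k) ≠ 0) : h51_LastStep D E1 N0 m := by
  classical
  intro Ez uz _hdeg huz hdiv huzmem htriv
  obtain ⟨huzO, huzred⟩ := huzmem
  have htg : ∀ n, N0 ≤ n → h51_Rd D (n • E1 + Ez) = h51_Rd D (n • E1) := by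
    intro n hn
    have h1 := htriv 1 n hn
    rwa [one_smul] at h1
  -- a section with reduction `1`
  have key : ∃ e : F, e ∈ riemannRochSpace Ez ∧ e ∈ D.O ∧ D.redF e = 1 := by
    by_cases hπ : ∃ π : K, π ∈ D.A.nonunits ∧ π ≠ 0
    · obtain ⟨π, hπ, hπ0⟩ := hπ
      obtain ⟨hm0, hminv⟩ := h42_natCast_unit D m hm
      exact h63_exists_section D hON hinv hrank π hπ hπ0 m hm0 hminv (fun B => hfin B)
        E1 E2 hE1 hE2 hdisj x hx0 hx hxi hdivx Ez uz huz hdiv huzO huzred N0 htg hstrict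
    · -- trivially valued constants: the reduction is injective on `O`
      push Not at hπ
      have hinj : ∀ f : F, f ∈ D.O → D.redF f = 0 → f = 0 := by
        intro f hf hred
        obtain ⟨a, ha, g, -, hfg⟩ := (h22_redF_eq_zero_iff D hf).mp hred
        rw [hfg, hπ a ha, map_zero, zero_mul]
      -- the section on the first chart
      have hone : (1 : F) ∈ riemannRochSpace (N0 • E1) := by
        rw [mem_riemannRochSpace_iff]
        intro v
        right
        rw [Place.ord_one, Finsupp.smul_apply, nsmul_eq_mul, neg_nonpos]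
        exact mul_nonneg (Int.natCast_nonneg N0) (hE1 v)
      have h1mem : D.redF (1 : F) ∈ h51_Rd D (N0 • E1 + Ez) := by
        rw [htg N0 le_rfl]
        exact ⟨1, hone, D.O.one_mem, rfl⟩
      obtain ⟨g₁, hg₁L, hg₁O, hg₁red⟩ := h1mem
      -- the section on the second chart, multiplied by `x ^ N0`
      have hxmem : D.redF (x ^ N0) ∈ h51_Rd D (N0 • E1 + Ez) := by
        rw [htg N0 le_rfl]
        exact ⟨x ^ N0, h42_pow_mem_rr x E1 E2 hE2 hdivx N0, D.O.pow_mem hx N0, rfl⟩
      obtain ⟨g₂, hg₂L, hg₂O, hg₂red⟩ := hxmem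
      have hxg₁O : x ^ N0 * g₁ ∈ D.O := D.O.mul_mem (D.O.pow_mem hx N0) hg₁O
      have heq : g₂ = x ^ N0 * g₁ := by
        have h0 : D.redF (g₂ - x ^ N0 * g₁) = 0 := by
          rw [h42_redF_sub D hg₂O hxg₁O, h51_redF_mul D (D.O.pow_mem hx N0) hg₁O, hg₁red,
            hg₂red, h51_redF_one, mul_one, sub_self]
        exact sub_eq_zero.mp (hinj _ (D.O.sub_mem hg₂O hxg₁O) h0)
      have hg₁L2 : g₁ ∈ riemannRochSpace (N0 • E2 + Ez) := by
        have h3 : x ^ N0 * g₁ ∈ riemannRochSpace ((0 + N0) • E1 + Ez) := by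
          rw [zero_add, ← heq]
          exact hg₂L
        have h4 := (h42_xshift x hx0 E1 E2 hdivx 0 N0 Ez g₁).mpr h3
        rwa [zero_smul, zero_add] at h4
      exact ⟨g₁, h42_cap E1 E2 hdisj N0 N0 Ez hg₁L hg₁L2, hg₁O, by
        rw [hg₁red, h51_redF_one]⟩
  obtain ⟨e, heL, heO, hered⟩ := key
  refine ⟨e, ?_, heL⟩
  rintro rfl
  have h0 : D.redF (0 : F) = 0 := by
    rw [D.redF_of_mem D.O.zero_mem]
    exact map_zero D.red
  rw [h0] at hered
  exact zero_ne_one hered

end Fermat.Agent.S34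

end
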