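import Mathlib

/-!
# Approximation theorem for finitely many incomparable valuation subrings (helper44)

`O : ι → ValuationSubring L`, `ι` finite, pairwise incomparable.  Then the intersection
`R = ⋂ O i` maps onto `∏ κ_i`: for `a i ∈ O i` there is `b ∈ R` with `b ≡ a i` modulo the maximal
ideal of `O i`, for all `i` (`h44_val_crt`).  Mathlib only.

* `h44_val_frac` : every `a : L` is `z / y` with `y, z ∈ R` and `y` a unit of `O j` wherever
  `a ∈ O j` (no incomparability needed);
* `h44_val_avoid` : prime avoidance for the centres of the `O i` on `R`;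
* `h44_val_approx`, `h44_val_crt` : approximation.
-/

set_option autoImplicit false

namespace Fermat.Agent.S34

open Finset

section Geom

variable {L : Type*} [Field L] {Γ : Type*} [LinearOrderedCommGroupWithZero Γ] (v : Valuation L Γ)

/-- `v a < 1 ⟹ v (1 + a + ⋯ + a^t) = 1`. -/
theorem h44_geom_unit_of_lt {a : L} (ha : v a < 1) (t : ℕ) :
    v (∑ i ∈ range (t + 1), a ^ i) = 1 := by
  rw [geom_sum_succ, add_comm]
  apply Valuation.map_one_add_of_lt
  rw [map_mul]
  have h1 : v (∑ i ∈ range t, a ^ i) ≤ 1 := by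
    apply Valuation.map_sum_le
    intro i _
    rw [map_pow]
    exact pow_le_one₀ zero_le ha.le
  exact mul_lt_one_of_lt_of_le ha h1

/-- `1 < v a ⟹ v (1 + a + ⋯ + a^t) = (v a)^t`. -/
theorem h44_geom_of_gt {a : L} (ha : 1 < v a) (t : ℕ) :
    v (∑ i ∈ range (t + 1), a ^ i) = v a ^ t := by
  induction t with
  | zero => simp
  | succ n ih =>
    rw [geom_sum_succ']
    have h : v (∑ i ∈ range (n + 1), a ^ i) < v (a ^ (n + 1)) := by
      rw [ih, map_pow]
      exact pow_lt_pow_right₀ ha (Nat.lt_succ_self n)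
    rw [Valuation.map_add_eq_of_lt_left v h, map_pow]

theorem h44_geom_le_one {a : L} (ha : v a ≤ 1) (t : ℕ) :
    v (∑ i ∈ range t, a ^ i) ≤ 1 := by
  apply Valuation.map_sum_le
  intro i _
  rw [map_pow]
  exact pow_le_one₀ zero_le ha

/-- For a unit `a` the set of `t` with `1 + ⋯ + a^(t-1)` a non-unit is stable under shifts by
any of its elements. -/
theorem h44_geom_shift {a : L} (ha : v a = 1) {d : ℕ} (hd : v (∑ i ∈ range d, a ^ i) < 1)
    (t : ℕ) : v (∑ i ∈ range (d + t), a ^ i) < 1 ↔ v (∑ i ∈ range t, a ^ i) < 1 := by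
  have e : ∑ i ∈ range (d + t), a ^ i = ∑ i ∈ range d, a ^ i + a ^ d * ∑ i ∈ range t, a ^ i := by
    rw [sum_range_add, mul_sum]
    congr 1
    exact sum_congr rfl fun i _ => pow_add a d i
  have hv : v (a ^ d * ∑ i ∈ range t, a ^ i) = v (∑ i ∈ range t, a ^ i) := by
    rw [map_mul, map_pow, ha, one_pow, one_mul]
  constructor
  · intro h
    have h2 : a ^ d * ∑ i ∈ range t, a ^ i =
        ∑ i ∈ range (d + t), a ^ i - ∑ i ∈ range d, a ^ i := by
      rw [e]
      ring
    rw [← hv, h2]
    exact Valuation.map_sub_lt v h hd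
  · intro h
    rw [e]
    exact Valuation.map_add_lt v hd (hv ▸ h)

/-- For a unit `a` there is `d ≥ 2` dividing every `t` with `1 + ⋯ + a^(t-1)` a non-unit. -/
theorem h44_exists_period {a : L} (ha : v a = 1) :
    ∃ d : ℕ, 2 ≤ d ∧ ∀ t : ℕ, v (∑ i ∈ range t, a ^ i) < 1 → d ∣ t := by
  classical
  by_cases hex : ∃ t : ℕ, 0 < t ∧ v (∑ i ∈ range t, a ^ i) < 1
  · have hd := Nat.find_spec hex
    have hmin := fun m => Nat.find_min hex (m := m)
    set d := Nat.find hex with hdd
    have hd1 : d ≠ 1 := by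
      intro h1
      rw [h1] at hd
      simp at hd
    refine ⟨d, by omega, ?_⟩
    -- reduction modulo `d`
    have key : ∀ q r : ℕ, v (∑ i ∈ range (d * q + r), a ^ i) < 1 →
        v (∑ i ∈ range r, a ^ i) < 1 := by
      intro q
      induction q with
      | zero =>
        intro r h
        simpa using h
      | succ n ih =>
        intro r h
        apply ih r
        have e : d * (n + 1) + r = d + (d * n + r) := by ring
        rw [e] at h
        exact (h44_geom_shift v ha hd.2 _).mp h
    intro t ht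
    have hr := key (t / d) (t % d) (by rw [Nat.div_add_mod]; exact ht)
    by_contra hnd
    have hpos : 0 < t % d := Nat.pos_of_ne_zero fun h0 => hnd (Nat.dvd_of_mod_eq_zero h0)
    exact hmin (t % d) (Nat.mod_lt _ (by omega)) ⟨hpos, hr⟩
  · refine ⟨2, le_refl 2, ?_⟩
    intro t ht
    rcases Nat.eq_zero_or_pos t with h0 | hpos
    · rw [h0]
      exact dvd_zero 2
    · exact absurd ⟨t, hpos, ht⟩ hex

end Geom

section Approx

variable {L : Type*} [Field L] {ι : Type*} [Finite ι] (O : ι → ValuationSubring L)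

/-- Every `a : L` is `(a * y) / y` with `y` and `a * y` in all `O j`, where `y` is a unit of
`O j` if `a ∈ O j` and a non-unit otherwise. -/
theorem h44_val_frac (a : L) :
    ∃ y : L, (∀ j, y ∈ O j) ∧ (∀ j, a * y ∈ O j) ∧
      (∀ j, a ∈ O j → (O j).valuation y = 1) ∧ (∀ j, a ∉ O j → (O j).valuation y < 1) := by
  classical
  have := Fintype.ofFinite ι
  -- the periods
  have hper : ∀ j, ∃ d : ℕ, 2 ≤ d ∧ ((O j).valuation a = 1 →
      ∀ t : ℕ, (O j).valuation (∑ i ∈ range t, a ^ i) < 1 → d ∣ t) := by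
    intro j
    by_cases h1 : (O j).valuation a = 1
    · obtain ⟨d, hd, hdt⟩ := h44_exists_period (O j).valuation h1
      exact ⟨d, hd, fun _ => hdt⟩
    · exact ⟨2, le_refl 2, fun h => absurd h h1⟩
  choose d hd2 hd using hper
  set P := ∏ j, d j with hP
  have hPpos : 0 < P := Finset.prod_pos fun j _ => by have := hd2 j; omega
  set u := ∑ i ∈ range (P + 1), a ^ i with hu
  -- the valuations of `u`
  have hu1 : ∀ j, (O j).valuation a ≤ 1 → (O j).valuation u = 1 := by
    intro j hle
    rcases lt_or_eq_of_le hle with hlt | heq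
    · exact h44_geom_unit_of_lt _ hlt P
    · refine le_antisymm (h44_geom_le_one _ hle _) (not_lt.mp fun hlt => ?_)
      have hdvd := hd j heq (P + 1) hlt
      have hdP : d j ∣ P := Finset.dvd_prod_of_mem d (Finset.mem_univ j)
      have h1 : d j ∣ 1 := (Nat.dvd_add_right hdP).mp hdvd
      have := Nat.le_of_dvd one_pos h1
      have := hd2 j
      omega
  have hu2 : ∀ j, 1 < (O j).valuation a → (O j).valuation u = (O j).valuation a ^ P :=
    fun j hgt => h44_geom_of_gt _ hgt P
  refine ⟨u⁻¹, ?_, ?_, ?_, ?_⟩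
  · intro j
    rw [← ValuationSubring.valuation_le_one_iff, map_inv₀]
    rcases le_or_gt ((O j).valuation a) 1 with hle | hgt
    · rw [hu1 j hle, inv_one]
    · rw [hu2 j hgt]
      exact (inv_le_one₀ (zero_lt_one.trans (one_lt_pow₀ hgt hPpos.ne'))).mpr
        (one_lt_pow₀ hgt hPpos.ne').le
  · intro j
    rw [← ValuationSubring.valuation_le_one_iff, map_mul, map_inv₀]
    rcases le_or_gt ((O j).valuation a) 1 with hle | hgt
    · rw [hu1 j hle, inv_one, mul_one]
      exact hle
    · rw [hu2 j hgt, mul_inv_le_iff₀ (zero_lt_one.trans (one_lt_pow₀ hgt hPpos.ne')), one_mul]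
      exact le_self_pow₀ hgt.le hPpos.ne'
  · intro j haj
    rw [map_inv₀, hu1 j ((ValuationSubring.valuation_le_one_iff _ _).mpr haj), inv_one]
  · intro j haj
    have hgt : 1 < (O j).valuation a := by
      rw [← not_le, ValuationSubring.valuation_le_one_iff]
      exact haj
    rw [map_inv₀, hu2 j hgt]
    exact (inv_lt_one₀ (zero_lt_one.trans (one_lt_pow₀ hgt hPpos.ne'))).mpr
      (one_lt_pow₀ hgt hPpos.ne')

variable (hinc : ∀ i j, i ≠ j → ¬ O i ≤ O j)

include hinc in
/-- Separating elements. -/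
theorem h44_val_sep (i j : ι) (hij : i ≠ j) :
    ∃ y : L, (∀ l, y ∈ O l) ∧ (O i).valuation y = 1 ∧ (O j).valuation y < 1 := by
  obtain ⟨a, hai, haj⟩ := SetLike.not_le_iff_exists.mp (hinc i j hij)
  obtain ⟨y, hy, -, h1, h2⟩ := h44_val_frac O a
  exact ⟨y, hy, h1 i hai, h2 j haj⟩

include hinc in
/-- Prime avoidance: non-units on `T₁`, units on `T₂`. -/
theorem h44_val_avoid (T₁ T₂ : Finset ι) (h : Disjoint T₁ T₂) :
    ∃ s : L, (∀ j, s ∈ O j) ∧ (∀ j ∈ T₁, (O j).valuation s < 1) ∧
      (∀ j ∈ T₂, (O j).valuation s = 1) := by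
  classical
  have hsep : ∀ i j, ∃ y : L, (∀ l, y ∈ O l) ∧
      (i ≠ j → (O i).valuation y = 1 ∧ (O j).valuation y < 1) := by
    intro i j
    by_cases hij : i = j
    · exact ⟨1, fun l => (O l).one_mem, fun h => absurd hij h⟩
    · obtain ⟨y, hy, h1, h2⟩ := h44_val_sep O hinc i j hij
      exact ⟨y, hy, fun _ => ⟨h1, h2⟩⟩
  choose sep hsepmem hsep using hsep
  induction T₂ using Finset.induction_on with
  | empty =>
    exact ⟨0, fun j => (O j).zero_mem, fun j _ => by rw [map_zero]; exact zero_lt_one,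
      fun j hj => absurd hj (Finset.notMem_empty j)⟩
  | insert j₀ J hj₀ ih =>
    rw [Finset.disjoint_insert_right] at h
    obtain ⟨s, hs, hs1, hs2⟩ := ih h.2
    by_cases hc : (O j₀).valuation s = 1
    · refine ⟨s, hs, hs1, ?_⟩
      intro j hj
      rcases Finset.mem_insert.mp hj with rfl | hj
      · exact hc
      · exact hs2 j hj
    · have hlt : (O j₀).valuation s < 1 :=
        lt_of_le_of_ne ((ValuationSubring.valuation_le_one_iff _ _).mpr (hs j₀)) hc
      set t := ∏ j ∈ T₁ ∪ J, sep j₀ j with ht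
      have htmem : ∀ l, t ∈ O l := fun l => prod_mem fun j _ => hsepmem j₀ j l
      have hne : ∀ j ∈ T₁ ∪ J, j₀ ≠ j := by
        intro j hj hjj
        rcases Finset.mem_union.mp hj with hj | hj
        · exact h.1 (hjj ▸ hj)
        · exact hj₀ (hjj ▸ hj)
      have ht0 : (O j₀).valuation t = 1 := by
        rw [ht, map_prod]
        exact Finset.prod_eq_one fun j hj => (hsep j₀ j (hne j hj)).1
      have htj : ∀ j ∈ T₁ ∪ J, (O j).valuation t < 1 := by
        intro j hj
        rw [ht, ← Finset.mul_prod_erase _ _ hj, map_mul]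
        refine mul_lt_one_of_lt_of_le (hsep j₀ j (hne j hj)).2 ?_
        rw [ValuationSubring.valuation_le_one_iff]
        exact prod_mem fun l _ => hsepmem j₀ l j
      refine ⟨s + t, fun l => (O l).add_mem _ _ (hs l) (htmem l), ?_, ?_⟩
      · intro j hj
        exact Valuation.map_add_lt _ (hs1 j hj) (htj j (Finset.mem_union_left _ hj))
      · intro j hj
        rcases Finset.mem_insert.mp hj with rfl | hj
        · rw [Valuation.map_add_eq_of_lt_right _ (by rw [ht0]; exact hlt), ht0]
        · have h1 := hs2 j hj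
          have h2 : (O j).valuation t < (O j).valuation s := by
            rw [h1]
            exact htj j (Finset.mem_union_right _ hj)
          rw [Valuation.map_add_eq_of_lt_left _ h2, h1]

include hinc in
/-- **Approximation.** `b ≡ a` at `i`, `b ≡ 0` at the other places. -/
theorem h44_val_approx (i : ι) (a : L) (ha : a ∈ O i) :
    ∃ b : L, (∀ j, b ∈ O j) ∧ (O i).valuation (b - a) < 1 ∧
      ∀ j, j ≠ i → (O j).valuation b < 1 := by
  classical
  have := Fintype.ofFinite ι
  obtain ⟨w, hw, hw1, hw2⟩ := h44_val_avoid O hinc (Finset.univ.erase i) {i}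
    (by rw [Finset.disjoint_singleton_right]; exact Finset.notMem_erase i _)
  obtain ⟨s, hs, hs1, hs2⟩ := h44_val_avoid O hinc {i} (Finset.univ.erase i)
    (by rw [Finset.disjoint_singleton_left]; exact Finset.notMem_erase i _)
  obtain ⟨y, hy, hay, hy1, -⟩ := h44_val_frac O a
  have hwi : (O i).valuation w = 1 := hw2 i (Finset.mem_singleton_self i)
  have hsi : (O i).valuation s < 1 := hs1 i (Finset.mem_singleton_self i)
  have hyi : (O i).valuation y = 1 := hy1 i ha
  have hwj : ∀ j, j ≠ i → (O j).valuation w < 1 :=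
    fun j hj => hw1 j (Finset.mem_erase.mpr ⟨hj, Finset.mem_univ j⟩)
  have hsj : ∀ j, j ≠ i → (O j).valuation s = 1 :=
    fun j hj => hs2 j (Finset.mem_erase.mpr ⟨hj, Finset.mem_univ j⟩)
  have hle : ∀ (j : ι) (z : L), z ∈ O j → (O j).valuation z ≤ 1 :=
    fun j z hz => (ValuationSubring.valuation_le_one_iff _ _).mpr hz
  -- the denominator is a unit everywhere
  have hD : ∀ j, (O j).valuation (y * w + s) = 1 := by
    intro j
    by_cases hj : j = i
    · subst hj
      have h1 : (O j).valuation (y * w) = 1 := by rw [map_mul, hyi, hwi, one_mul]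
      rw [Valuation.map_add_eq_of_lt_left _ (by rw [h1]; exact hsi), h1]
    · have h1 : (O j).valuation (y * w) < 1 := by
        rw [map_mul, mul_comm]
        exact mul_lt_one_of_lt_of_le (hwj j hj) (hle j y (hy j))
      rw [Valuation.map_add_eq_of_lt_right _ (by rw [hsj j hj]; exact h1), hsj j hj]
  have hD0 : y * w + s ≠ 0 := by
    intro h0
    have := hD i
    rw [h0, map_zero] at this
    exact zero_ne_one this
  refine ⟨a * y * w / (y * w + s), ?_, ?_, ?_⟩
  · intro j
    rw [← ValuationSubring.valuation_le_one_iff, map_div₀, hD j, div_one, map_mul]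
    exact mul_le_one' (hle j _ (hay j)) (hle j _ (hw j))
  · have e : a * y * w / (y * w + s) - a = -(a * s) / (y * w + s) := by
      field_simp
      ring
    rw [e, map_div₀, hD i, div_one, Valuation.map_neg, map_mul]
    rw [mul_comm]
    exact mul_lt_one_of_lt_of_le hsi (hle i a ha)
  · intro j hj
    rw [map_div₀, hD j, div_one, map_mul, mul_comm]
    exact mul_lt_one_of_lt_of_le (hwj j hj) (hle j _ (hay j))

include hinc in
/-- **Chinese remainder theorem** for incomparable valuation subrings: the intersection maps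
onto the product of the residue fields. -/
theorem h44_val_crt (a : ι → L) (ha : ∀ i, a i ∈ O i) :
    ∃ b : L, (∀ j, b ∈ O j) ∧ ∀ i, (O i).valuation (b - a i) < 1 := by
  classical
  have := Fintype.ofFinite ι
  choose b hb hb1 hb2 using fun i => h44_val_approx O hinc i (a i) (ha i)
  refine ⟨∑ i, b i, fun j => sum_mem fun i _ => hb i j, ?_⟩
  intro i
  have e : ∑ l, b l - a i = (b i - a i) + ∑ l ∈ Finset.univ.erase i, b l := by
    rw [← Finset.add_sum_erase _ _ (Finset.mem_univ i)]
    ring
  rw [e]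
  refine Valuation.map_add_lt _ (hb1 i) (Valuation.map_sum_lt _ one_ne_zero ?_)
  intro l hl
  exact hb2 l i (Finset.ne_of_mem_erase hl).symm

end Approx

end Fermat.Agent.S34
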