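import Mathlib
import Fermat.Agent.S18.GR_ON

/-!
# S34 foundation: orthonormal bases from a frame, abstract form (helper75)

Port of the S18 layer `h20_ONCore` / `GR_ON` from "a valuation ring `O` of `F` with a residue
map" to an arbitrary SUBRING `O` of `F` (for instance the intersection of finitely many valuation
rings, or the ring `O` of a "model" of `F`).  No residue data occur.

* `h75_gauss_elim` : Gaussian elimination over a valuation ring, orthonormal form;
* `h75_on_of_coord` : orthonormal bases of finite-dimensional subspaces of the range of a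
  coordinatised map whose integrality is detected on the coordinates;
* `h75_den_of_prim` : denominators from "primitive polynomials in `x` are units of `O`";
* `h75_exists_on_of_frame` : **(ON)** from a Gauss lemma for `x` and a `K(x)`-basis `b` of `F`
  with `f ∈ O ↔` all coordinates of `f` lie in `O`: every finite-dimensional `K`-subspace `V` of
  `F` has a `K`-basis `e` in `V ∩ O` with `∑ aⱼ eⱼ ∈ O → ∀ j, aⱼ ∈ A`.
-/

set_option autoImplicit false

noncomputable section

open IntermediateField Polynomial Module

namespace Fermat.Agent.S34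

open Fermat.Agent.S18

/-- **Gaussian elimination over a valuation ring, orthonormal form.**  `coord` is an injective
coordinate map with finitely many nonzero coordinates on each vector.  Every `n`-dimensional
subspace `V` has a basis `e` with integral coordinates such that a combination `∑ aᵢ eᵢ` has
integral coordinates only if all `aᵢ` are integral. -/
theorem h75_gauss_elim {K : Type*} [Field K] (A : ValuationSubring K)
    {E : Type*} [AddCommGroup E] [Module K E] {J : Type*} (coord : E →ₗ[K] (J → K))
    (hfin : ∀ p, (Function.support (coord p)).Finite)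
    (hinj : ∀ p, coord p = 0 → p = 0) :
    ∀ (n : ℕ) (V : Submodule K E), Module.Finite K V → Module.finrank K V = n →
      ∃ e : Fin n → E, (∀ i, e i ∈ V) ∧ (∀ i j, coord (e i) j ∈ A) ∧
        LinearIndependent K e ∧
        ∀ a : Fin n → K, (∀ j, ∑ i, a i * coord (e i) j ∈ A) → ∀ i, a i ∈ A := by
  classical
  intro n
  induction n with
  | zero =>
    intro V _ _
    exact ⟨Fin.elim0, fun i => i.elim0, fun i => i.elim0, linearIndependent_empty_type,
      fun _ _ i => i.elim0⟩
  | succ n ih =>
    intro V hVfin hV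
    have hVne : V ≠ ⊥ := by
      intro h
      rw [h, finrank_bot] at hV
      omega
    obtain ⟨v, hvV, hv0⟩ := (Submodule.ne_bot_iff V).mp hVne
    have hcv : coord v ≠ 0 := fun h => hv0 (hinj v h)
    have hne : (hfin v).toFinset.Nonempty := by
      obtain ⟨j, hj⟩ := Function.ne_iff.mp hcv
      exact ⟨j, by simpa using hj⟩
    obtain ⟨j₀, hj₀, hmax⟩ := Finset.exists_max_image (hfin v).toFinset
      (fun j => A.valuation (coord v j)) hne
    have hj₀' : coord v j₀ ≠ 0 := by simpa using hj₀
    set w : E := (coord v j₀)⁻¹ • v with hw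
    have hwV : w ∈ V := V.smul_mem _ hvV
    have hwc : ∀ j, coord w j = (coord v j₀)⁻¹ * coord v j := by
      intro j
      rw [hw, map_smul, Pi.smul_apply, smul_eq_mul]
    have hwj₀ : coord w j₀ = 1 := by
      rw [hwc, inv_mul_cancel₀ hj₀']
    have hwA : ∀ j, coord w j ∈ A := by
      intro j
      rw [hwc]
      by_cases hj : coord v j = 0
      · rw [hj, mul_zero]
        exact A.zero_mem
      · have hjm : j ∈ (hfin v).toFinset := by simpa using hj
        have hle := hmax j hjm
        rw [← A.valuation_le_one_iff, map_mul, map_inv₀]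
        have hpos : 0 < A.valuation (coord v j₀) :=
          lt_of_le_of_ne zero_le (Ne.symm ((Valuation.ne_zero_iff _).mpr hj₀'))
        rw [inv_mul_le_iff₀ hpos, mul_one]
        exact hle
    set ℓ : E →ₗ[K] K := (LinearMap.proj j₀) ∘ₗ coord with hℓ
    have hℓw : ℓ w = 1 := hwj₀
    set V₁ : Submodule K E := V ⊓ LinearMap.ker ℓ with hV₁
    have hw0 : w ≠ 0 := by
      intro h
      rw [h, map_zero] at hℓw
      exact zero_ne_one hℓw
    have hsup : (K ∙ w) ⊔ V₁ = V := by
      apply le_antisymm
      · exact sup_le ((Submodule.span_singleton_le_iff_mem _ _).mpr hwV) inf_le_left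
      · intro u hu
        refine Submodule.mem_sup.mpr ⟨ℓ u • w, Submodule.smul_mem _ _
          (Submodule.mem_span_singleton_self w), u - ℓ u • w, ⟨V.sub_mem hu (V.smul_mem _ hwV), ?_⟩,
          by abel⟩
        show u - ℓ u • w ∈ LinearMap.ker ℓ
        rw [LinearMap.mem_ker, map_sub, map_smul, hℓw, smul_eq_mul, mul_one, sub_self]
    have hinf : (K ∙ w) ⊓ V₁ = ⊥ := by
      rw [eq_bot_iff]
      rintro u ⟨hu1, hu2⟩
      obtain ⟨a, rfl⟩ := Submodule.mem_span_singleton.mp hu1
      have h3 : ℓ (a • w) = 0 := hu2.2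
      rw [map_smul, hℓw, smul_eq_mul, mul_one] at h3
      rw [h3, zero_smul]
      exact Submodule.zero_mem _
    have hV₁fin : Module.Finite K V₁ := Submodule.finiteDimensional_of_le (inf_le_left : V₁ ≤ V)
    have hdim : Module.finrank K V₁ = n := by
      have h := Submodule.finrank_sup_add_finrank_inf_eq (K ∙ w) V₁
      rw [hsup, hinf, finrank_bot, finrank_span_singleton hw0, hV] at h
      omega
    obtain ⟨e', he'V, he'A, he'ind, he'on⟩ := ih V₁ hV₁fin hdim
    have hz : ∀ i, coord (e' i) j₀ = 0 := fun i => (he'V i).2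
    refine ⟨Fin.cons w e', ?_, ?_, ?_, ?_⟩
    · intro i
      refine Fin.cases ?_ (fun i => ?_) i
      · simpa using hwV
      · simpa using (he'V i).1
    · intro i
      refine Fin.cases ?_ (fun i => ?_) i
      · simpa using hwA
      · simpa using he'A i
    · rw [linearIndependent_finCons]
      refine ⟨he'ind, fun hmem => ?_⟩
      have hle : Submodule.span K (Set.range e') ≤ LinearMap.ker ℓ := by
        rw [Submodule.span_le]
        rintro _ ⟨i, rfl⟩
        exact (he'V i).2
      have h5 := hle hmem
      rw [LinearMap.mem_ker, hℓw] at h5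
      exact one_ne_zero h5
    · intro a ha
      have hsplit : ∀ j, ∑ i, a i * coord ((Fin.cons w e' : Fin (n + 1) → E) i) j =
          a 0 * coord w j + ∑ i : Fin n, a i.succ * coord (e' i) j := by
        intro j
        rw [Fin.sum_univ_succ]
        simp only [Fin.cons_zero, Fin.cons_succ]
      have h0 : a 0 ∈ A := by
        have h1 := ha j₀
        rw [hsplit, hwj₀, mul_one] at h1
        have h2 : ∑ i : Fin n, a i.succ * coord (e' i) j₀ = 0 :=
          Finset.sum_eq_zero fun i _ => by rw [hz i, mul_zero]
        rw [h2, add_zero] at h1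
        exact h1
      have hrest : ∀ i : Fin n, a i.succ ∈ A := by
        apply he'on (fun i => a i.succ)
        intro j
        have h1 := ha j
        rw [hsplit] at h1
        have h2 : ∑ i : Fin n, a i.succ * coord (e' i) j =
            (a 0 * coord w j + ∑ i : Fin n, a i.succ * coord (e' i) j) - a 0 * coord w j := by
          ring
        rw [h2]
        exact sub_mem h1 (A.mul_mem _ _ h0 (hwA j))
      intro i
      exact Fin.cases h0 hrest i

/-- **Orthonormal bases of subspaces (abstract form, any subring `O`).**  `Ψ : E → F` is a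
`K`-linear map from a coordinatised space (`coord` injective, finitely many nonzero coordinates)
such that `Ψ p ∈ O` exactly when all coordinates of `p` lie in `A`.  Then every
finite-dimensional subspace of the range of `Ψ` has an orthonormal basis. -/
theorem h75_on_of_coord {K F : Type*} [Field K] [Field F] [Algebra K F]
    (A : ValuationSubring K) (O : Subring F)
    {E : Type*} [AddCommGroup E] [Module K E] {J : Type*} (coord : E →ₗ[K] (J → K))
    (hfin : ∀ p, (Function.support (coord p)).Finite)
    (hinj : ∀ p, coord p = 0 → p = 0)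
    (Ψ : E →ₗ[K] F) (hΨ : ∀ p, Ψ p ∈ O ↔ ∀ j, coord p j ∈ A)
    (V : Submodule K F) [Module.Finite K V] (hV : V ≤ LinearMap.range Ψ) :
    ∃ e : Fin (Module.finrank K V) → F, (∀ i, e i ∈ V) ∧ (∀ i, e i ∈ O) ∧
      LinearIndependent K e ∧
      ∀ a : Fin (Module.finrank K V) → K, ∑ i, a i • e i ∈ O → ∀ i, a i ∈ A := by
  classical
  by_cases hA : A = ⊤
  · let β := Module.finBasis K V
    refine ⟨fun i => ((β i : V) : F), fun i => (β i).2, fun i => ?_, ?_,
      fun a _ i => by rw [hA]; trivial⟩
    · obtain ⟨p, hp⟩ := hV (β i).2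
      show ((β i : V) : F) ∈ O
      rw [← hp, hΨ]
      intro j
      rw [hA]
      trivial
    · exact β.linearIndependent.map' V.subtype (Submodule.ker_subtype V)
  · obtain ⟨t, ht⟩ : ∃ t : K, t ∉ A := by
      by_contra h
      push Not at h
      exact hA (eq_top_iff.mpr fun x _ => h x)
    have hΨinj : Function.Injective Ψ := by
      rw [← LinearMap.ker_eq_bot, eq_bot_iff]
      intro c hc
      rw [LinearMap.mem_ker] at hc
      have h2 : ∀ j, coord c j = 0 := by
        intro j
        by_contra hne
        have h3 : Ψ ((t * (coord c j)⁻¹) • c) ∈ O := by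
          rw [map_smul, hc, smul_zero]
          exact O.zero_mem
        have h4 := (hΨ _).mp h3 j
        rw [map_smul, Pi.smul_apply, smul_eq_mul, mul_assoc, inv_mul_cancel₀ hne, mul_one] at h4
        exact ht h4
      exact (Submodule.mem_bot K).mpr (hinj c (funext h2))
    set V' : Submodule K E := V.comap Ψ with hV'
    have hmap : V'.map Ψ = V := Submodule.map_comap_eq_of_le hV
    let eqv : V' ≃ₗ[K] V := (Submodule.equivMapOfInjective Ψ hΨinj V').trans
      (LinearEquiv.ofEq _ _ hmap)
    have hV'fin : Module.Finite K V' := Module.Finite.equiv eqv.symm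
    have hdim : Module.finrank K V' = Module.finrank K V := LinearEquiv.finrank_eq eqv
    obtain ⟨e', he'V, he'A, he'ind, he'on⟩ := h75_gauss_elim A coord hfin hinj
      (Module.finrank K V) V' hV'fin hdim
    refine ⟨fun i => Ψ (e' i), fun i => he'V i, fun i => (hΨ _).mpr (he'A i), ?_, ?_⟩
    · exact he'ind.map' Ψ (LinearMap.ker_eq_bot.mpr hΨinj)
    · intro a ha
      apply he'on a
      intro j
      have h1 : Ψ (∑ i, a i • e' i) ∈ O := by
        rw [map_sum]
        simpa only [map_smul] using ha
      have h2 := (hΨ _).mp h1 j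
      rw [map_sum] at h2
      simpa only [map_smul, Finset.sum_apply, Pi.smul_apply, smul_eq_mul] using h2

/-- Denominators: if polynomials in `x` with coefficients in `A`, one of them `1`, are units of
`O`, then every element of `K(x)` has a denominator `q(x)` which is a unit of `O`. -/
theorem h75_den_of_prim {K F : Type*} [Field K] [Field F] [Algebra K F]
    (A : ValuationSubring K) (O : Subring F) {x : F}
    (hU : ∀ q : K[X], (∀ i, q.coeff i ∈ A) → (∃ j, q.coeff j = 1) →
      aeval x q ≠ 0 ∧ aeval x q ∈ O ∧ (aeval x q)⁻¹ ∈ O)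
    (c : F) (hc : c ∈ K⟮x⟯) :
    ∃ q p : K[X], aeval x q ≠ 0 ∧ aeval x q ∈ O ∧ (aeval x q)⁻¹ ∈ O ∧
      c * aeval x q = aeval x p := by
  obtain ⟨r, s, hrs⟩ := (IntermediateField.mem_adjoin_simple_iff K c).mp hc
  by_cases hs : aeval x s = 0
  · refine ⟨1, 0, ?_, ?_, ?_, ?_⟩
    · rw [map_one]
      exact one_ne_zero
    · rw [map_one]
      exact O.one_mem
    · rw [map_one, inv_one]
      exact O.one_mem
    · rw [hrs, hs, div_zero, zero_mul, map_zero]
  · have hs0 : s ≠ 0 := by
      rintro rfl
      exact hs (map_zero _)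
    obtain ⟨d, q, j, hd0, hqj, hsq⟩ := h89_exists_primitive A hs0
    have hq1 : (q.map A.subtype).coeff j = 1 := by
      rw [Polynomial.coeff_map, hqj]
      rfl
    obtain ⟨h0, h1, h2⟩ := hU (q.map A.subtype)
      (fun i => by rw [Polynomial.coeff_map]; exact (q.coeff i).2) ⟨j, hq1⟩
    have hd : algebraMap K F d ≠ 0 := by
      rw [Ne, map_eq_zero]
      exact hd0
    refine ⟨q.map A.subtype, C d⁻¹ * r, h0, h1, h2, ?_⟩
    rw [hrs, hsq, map_mul, map_mul, aeval_C, aeval_C, map_inv₀]
    field_simp

/-- **(ON) from a frame.**  `O` a subring of `F`, `A` a valuation ring of `K`, `x : F` with the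
Gauss lemma `p(x) ∈ O ↔ p ∈ A[X]` and unit denominators, `b` a `K(x)`-basis of `F` such that
`f ∈ O` iff all coordinates of `f` lie in `O`.  Then every finite-dimensional `K`-subspace `V` of
`F` has a `K`-basis `e` in `V ∩ O` which is orthonormal: `∑ aⱼ eⱼ ∈ O → ∀ j, aⱼ ∈ A`. -/
theorem h75_exists_on_of_frame {K F : Type*} [Field K] [Field F] [Algebra K F]
    (A : ValuationSubring K) (O : Subring F) {x : F}
    (hG : ∀ p : K[X], aeval x p ∈ O ↔ ∀ i, p.coeff i ∈ A)
    (hden : ∀ c : F, c ∈ K⟮x⟯ → ∃ q p : K[X], aeval x q ≠ 0 ∧ aeval x q ∈ O ∧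
      (aeval x q)⁻¹ ∈ O ∧ c * aeval x q = aeval x p)
    {ι : Type*} [Fintype ι] (b : Module.Basis ι K⟮x⟯ F)
    (hb : ∀ f : F, f ∈ O ↔ ∀ i, ((b.repr f i : K⟮x⟯) : F) ∈ O)
    (V : Submodule K F) [FiniteDimensional K V] :
    ∃ e : Fin (Module.finrank K V) → F, (∀ i, e i ∈ V) ∧ (∀ i, e i ∈ O) ∧
      LinearIndependent K e ∧
      ∀ a : Fin (Module.finrank K V) → K, ∑ i, a i • e i ∈ O → ∀ i, a i ∈ A := by
  classical
  let β := Module.finBasis K V
  -- denominators of the coordinates of a basis of `V`
  have hden' : ∀ jl : Fin (Module.finrank K V) × ι, ∃ q p : K[X], aeval x q ≠ 0 ∧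
      aeval x q ∈ O ∧ (aeval x q)⁻¹ ∈ O ∧
      ((b.repr ((β jl.1 : V) : F) jl.2 : K⟮x⟯) : F) * aeval x q = aeval x p :=
    fun jl => hden _ (b.repr ((β jl.1 : V) : F) jl.2).2
  choose q p hq0 hqO hqinv hqp using hden'
  set D : K[X] := ∏ jl, q jl with hD
  have hDe : aeval x D = ∏ jl, aeval x (q jl) := by
    rw [hD, map_prod]
  set u : F := (aeval x D)⁻¹ with hu
  have hD0 : aeval x D ≠ 0 := by
    rw [hDe]
    exact Finset.prod_ne_zero_iff.mpr fun jl _ => hq0 jl
  have hu0 : u ≠ 0 := inv_ne_zero hD0
  have huO : u ∈ O := by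
    rw [hu, hDe, ← Finset.prod_inv_distrib]
    exact prod_mem fun jl _ => hqinv jl
  have huinv : u⁻¹ ∈ O := by
    rw [hu, inv_inv, hDe]
    exact prod_mem fun jl _ => hqO jl
  -- integrality is detected on the coordinates
  have hΨ : ∀ P : ι → K[X], h20_synth K x (fun i => b i) u P ∈ O ↔
      ∀ j, h20_coord K ι P j ∈ A := by
    intro P
    rw [h20_synth_apply]
    set S : F := ∑ i, aeval x (P i) * b i with hS
    have h1 : u * S ∈ O ↔ S ∈ O := by
      constructor
      · intro h
        have h2 : S = u⁻¹ * (u * S) := by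
          rw [← mul_assoc, inv_mul_cancel₀ hu0, one_mul]
        rw [h2]
        exact O.mul_mem huinv h
      · intro h
        exact O.mul_mem huO h
    have h3 : S = ∑ i, (aeval (AdjoinSimple.gen K x) (P i) : K⟮x⟯) • b i := by
      rw [hS]
      refine Finset.sum_congr rfl fun i _ => ?_
      rw [IntermediateField.smul_def, AdjoinSimple.coe_aeval_gen_apply, smul_eq_mul]
    have h4 : ∀ i, ((b.repr S i : K⟮x⟯) : F) = aeval x (P i) := by
      intro i
      rw [h3, Module.Basis.repr_sum_self, AdjoinSimple.coe_aeval_gen_apply]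
    rw [h1, hb S]
    constructor
    · intro h j
      have h5 := h j.1
      rw [h4, hG] at h5
      exact h5 j.2
    · intro h i
      rw [h4, hG]
      exact fun s => h (i, s)
  -- `V` lies in the range
  have hV : V ≤ LinearMap.range (h20_synth K x (fun i => b i) u) := by
    have hβ : ∀ j, ((β j : V) : F) ∈ LinearMap.range (h20_synth K x (fun i => b i) u) := by
      intro j
      refine ⟨fun i => (∏ jl ∈ Finset.univ.erase (j, i), q jl) * p (j, i), ?_⟩
      rw [h20_synth_apply]
      have h1 : ∀ i, aeval x ((∏ jl ∈ Finset.univ.erase (j, i), q jl) * p (j, i)) * b i =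
          aeval x D * (((b.repr ((β j : V) : F) i : K⟮x⟯) : F) * b i) := by
        intro i
        rw [map_mul, ← hqp (j, i), hD, ← Finset.prod_erase_mul Finset.univ q
          (Finset.mem_univ (j, i)), map_mul]
        ring
      rw [Finset.sum_congr rfl fun i _ => h1 i, ← Finset.mul_sum, hu, ← mul_assoc,
        inv_mul_cancel₀ hD0, one_mul]
      conv_rhs => rw [← b.sum_repr ((β j : V) : F)]
      refine Finset.sum_congr rfl fun i _ => ?_
      rw [IntermediateField.smul_def, smul_eq_mul]
    intro f hf
    have h2 := congrArg (Subtype.val : V → F) (β.sum_repr ⟨f, hf⟩)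
    rw [AddSubmonoidClass.coe_finsetSum] at h2
    have h3 : f = ∑ j, (β.repr ⟨f, hf⟩ j) • ((β j : V) : F) := h2.symm
    rw [h3]
    exact Submodule.sum_mem _ fun j _ => Submodule.smul_mem _ _ (hβ j)
  exact h75_on_of_coord A O (h20_coord K ι) h20_coord_finite h20_coord_inj
    (h20_synth K x (fun i => b i) u) hΨ V hV

end Fermat.Agent.S34

end
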