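import Mathlib
import Fermat.Agent.S18.GR_ON
import Fermat.Agent.S34.h44_ValApprox
import Fermat.Agent.S34.h75_ONFrame

/-!
# S34 foundation: the orthonormal layer for a finite family of reduction data (helper75)

`R i : h39_RedDatum K F k (Fb i)`, `i : ι` finite: finitely many valuation rings `O i` of the
function field `F` with residue maps onto `Fb i`, over ONE valuation ring `A` of the constants
(`hA`, `hres`), pairwise incomparable (`hinc`).  `x : F` lies in all `O i` with transcendental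
reductions `x̄ᵢ`, every `Fb i` is finite over `k(x̄ᵢ)` and
`[F : K(x)] ≤ ∑ᵢ [Fb i : k(x̄ᵢ)]` (`hdeg`; so the `O i` are all the extensions of the Gauss
valuation of `K(x)`, without defect).  No separability, no rank one, no algebraic closedness.

* `h75_prim_unit`, `h75_gauss_mem_of_mem` : all `O i` restrict to the same (Gauss) ring on `K(x)`;
* `h75_val_family` : orthonormality of lifts of residue bases (with reduction `0` at the other
  valuations);
* `h75_exists_valFrame` : **(FRAME)** a `K(x)`-basis `b` of `F` with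
  `f ∈ ⋂ O i ↔` all coordinates of `f` lie in the Gauss ring;
* `h75_exists_scale_of_red_zero` : **(ker)** `f ∈ ⋂ O i` with all reductions `0` is `c⁻¹ g`,
  `c ∉ A`, `g ∈ ⋂ O i`;
* `h75_exists_on_family` : **(ON)** every finite-dimensional `K`-subspace `V` of `F` has a
  `K`-basis `e` in `V ∩ ⋂ O i` such that `V ∩ ⋂ O i = ⊕ A eⱼ` and the reduction vectors
  `(redᵢ eⱼ)ᵢ ∈ ∏ᵢ Fb i` are `k`-linearly independent;
* `h75_redSpace`, `h75_mem_redSpace`, `h75_finrank_redSpace` : **(G1)** the reduction of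
  `V ∩ ⋂ O i` is a `k`-subspace of `∏ᵢ Fb i` of dimension `dim_K V`.
-/

set_option autoImplicit false

noncomputable section

open IntermediateField Polynomial Module

namespace Fermat.Agent.S34

open Fermat.Agent.S18

section One

variable {K F k Fb : Type*} [Field K] [Field F] [Algebra K F] [Field k] [Field Fb] [Algebra k Fb]

/-- A polynomial over `K` with coefficients in `A`, one of them `1`, has a unit value at `x`
when `x̄` is transcendental. -/
theorem h75_prim_unit (R : h39_RedDatum K F k Fb) {x : F} (hx : x ∈ R.O)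
    (htr : Transcendental k (R.redF x)) {P : K[X]} (hP : ∀ n, P.coeff n ∈ R.A) {j : ℕ}
    (hj : P.coeff j = 1) : aeval x P ≠ 0 ∧ aeval x P ∈ R.O ∧ (aeval x P)⁻¹ ∈ R.O := by
  have hlift : P ∈ Polynomial.lifts R.A.subtype := by
    rw [Polynomial.lifts_iff_coeff_lifts]
    exact fun n => ⟨⟨P.coeff n, hP n⟩, rfl⟩
  obtain ⟨q, rfl⟩ := (Polynomial.mem_lifts _).mp hlift
  have hqj : q.coeff j = 1 := by
    apply Subtype.ext
    rw [Polynomial.coeff_map] at hj
    exact hj
  obtain ⟨hred, hinv⟩ := h89_primitive_unit R hx htr hqj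
  refine ⟨?_, h89_gauss_red_mem R hx q, hinv⟩
  intro h0
  rw [h0] at hred
  exact hred (h39_redF_zero R)

variable {Fb' : Type*} [Field Fb'] [Algebra k Fb']

/-- Two reduction data over the same `A` in which `x` has transcendental reduction induce the
same ring on `K(x)`. -/
theorem h75_gauss_mem_of_mem (R : h39_RedDatum K F k Fb) (R' : h39_RedDatum K F k Fb')
    (hA : R.A = R'.A) {x : F} (hx : x ∈ R.O) (htr : Transcendental k (R.redF x))
    (hx' : x ∈ R'.O) (htr' : Transcendental k (R'.redF x)) {c : F} (hc : c ∈ K⟮x⟯)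
    (hcO : c ∈ R.O) : c ∈ R'.O := by
  obtain ⟨p, q, j, hqj, hcq⟩ := h89_gauss_ratfunc R hx htr hc hcO
  have hQ : ∀ n, (q.map R.A.subtype).coeff n ∈ R'.A := fun n => by
    rw [Polynomial.coeff_map, ← hA]
    exact (q.coeff n).2
  have hP : ∀ n, (p.map R.A.subtype).coeff n ∈ R'.A := fun n => by
    rw [Polynomial.coeff_map, ← hA]
    exact (p.coeff n).2
  have hQj : (q.map R.A.subtype).coeff j = 1 := by
    rw [Polynomial.coeff_map, hqj]
    rfl
  obtain ⟨hne, -, hinv⟩ := h75_prim_unit R' hx' htr' hQ hQj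
  have hPmem := (h89_gauss_mem_iff R' hx' htr' _).mpr hP
  have h1 : c = aeval x (p.map R.A.subtype) * (aeval x (q.map R.A.subtype))⁻¹ := by
    rw [← hcq, mul_assoc, mul_inv_cancel₀ hne, mul_one]
  rw [h1]
  exact R'.O.mul_mem _ _ hPmem hinv

/-- An element of `O` has reduction zero iff its valuation is `< 1`. -/
theorem h75_redF_eq_zero_iff_lt (R : h39_RedDatum K F k Fb) {f : F} (hf : f ∈ R.O) :
    R.redF f = 0 ↔ R.O.valuation f < 1 := by
  rw [R.redF_of_mem hf]
  exact h44_red_eq_zero_iff R ⟨f, hf⟩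

end One

section Family

variable {K F k : Type*} [Field K] [Field F] [Algebra K F] [Field k]
variable {ι : Type*} [Fintype ι] {Fb : ι → Type*} [∀ i, Field (Fb i)] [∀ i, Algebra k (Fb i)]
variable (R : ∀ i, h39_RedDatum K F k (Fb i))

/-- The intersection of the valuation rings of the family. -/
def h75_interO : Subring F := ⨅ i, (R i).O.toSubring

omit [Fintype ι] in
theorem h75_mem_interO {f : F} : f ∈ h75_interO R ↔ ∀ i, f ∈ (R i).O := by
  unfold h75_interO
  rw [Subring.mem_iInf]
  exact Iff.rfl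

/-- **Orthonormality of lifted residue bases.**  `b ⟨i, l⟩` lies in all `O i'`, reduces to `0`
at `i' ≠ i`, and the reductions at `i` of the `b ⟨i, ·⟩` are `k(x̄ᵢ)`-independent.  If `c J ≠ 0`
has maximal valuation among the coefficients, then `∑ c_I b_I` has the valuation of `c J` at the
index of `J`. -/
theorem h75_val_family {x : F}
    (hx : ∀ i, x ∈ (R i).O) (htr : ∀ i, Transcendental k ((R i).redF x))
    {n : ι → ℕ} (b : (Σ i, Fin (n i)) → F) (hbO : ∀ j i, b j ∈ (R i).O)
    (hb0 : ∀ j i, i ≠ j.1 → (R i).redF (b j) = 0)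
    (hli : ∀ i, LinearIndependent k⟮(R i).redF x⟯ (fun l : Fin (n i) => (R i).redF (b ⟨i, l⟩)))
    (c : (Σ i, Fin (n i)) → K⟮x⟯) (J : Σ i, Fin (n i)) (hJ : c J ≠ 0)
    (hmax : ∀ I, ((c I / c J : K⟮x⟯) : F) ∈ (R J.1).O) :
    (R J.1).O.valuation (∑ I, c I • b I) = (R J.1).O.valuation (c J : F) := by
  classical
  obtain ⟨i₁, l₁⟩ := J
  simp only at hmax ⊢
  set v := (R i₁).O.valuation with hv
  have hJF : (c ⟨i₁, l₁⟩ : F) ≠ 0 := fun h => hJ (Subtype.ext h)
  -- the normalised sum
  set d : (Σ i, Fin (n i)) → K⟮x⟯ := fun I => c I / c ⟨i₁, l₁⟩ with hd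
  have hdO : ∀ I, v (d I : F) ≤ 1 := fun I => (ValuationSubring.valuation_le_one_iff _ _).mpr (hmax I)
  have hsum : ∑ I, c I • b I = (c ⟨i₁, l₁⟩ : F) * ∑ I, d I • b I := by
    rw [Finset.mul_sum]
    refine Finset.sum_congr rfl fun I _ => ?_
    rw [IntermediateField.smul_def, IntermediateField.smul_def, smul_eq_mul, smul_eq_mul, hd]
    push_cast
    field_simp
  -- split off the block `i₁`
  have hsplit : ∑ I, d I • b I = ∑ l : Fin (n i₁), d ⟨i₁, l⟩ • b ⟨i₁, l⟩ +
      ∑ i ∈ Finset.univ.erase i₁, ∑ l : Fin (n i), d ⟨i, l⟩ • b ⟨i, l⟩ := by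
    rw [Fintype.sum_sigma, ← Finset.add_sum_erase Finset.univ _ (Finset.mem_univ i₁)]
  -- the block `i₁` has valuation `1`
  have h1 : v (∑ l : Fin (n i₁), d ⟨i₁, l⟩ • b ⟨i₁, l⟩) = 1 := by
    have hd1 : d ⟨i₁, l₁⟩ = 1 := by
      rw [hd]
      exact div_self hJ
    have h := h44_val_sum (R i₁) x
      (fun c _ => h89_gauss_redF_mem (R i₁) (hx i₁) (htr i₁) c.2)
      (fun l : Fin (n i₁) => b ⟨i₁, l⟩) (fun l => hbO _ i₁) (hli i₁)
      (fun l => d ⟨i₁, l⟩) l₁ (by rw [hd1]; exact one_ne_zero)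
      (fun l => by
        rw [hd1]
        push_cast
        rw [map_one]
        exact hdO _)
    rw [← hv] at h
    rw [h, hd1]
    push_cast
    exact map_one v
  -- the other blocks have valuation `< 1`
  have h2 : v (∑ i ∈ Finset.univ.erase i₁, ∑ l : Fin (n i), d ⟨i, l⟩ • b ⟨i, l⟩) < 1 := by
    refine Valuation.map_sum_lt v one_ne_zero fun i hi => ?_
    refine Valuation.map_sum_lt v one_ne_zero fun l _ => ?_
    have hne : i₁ ≠ i := fun h => (Finset.ne_of_mem_erase hi) h.symm
    have hb1 : v (b ⟨i, l⟩) < 1 :=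
      (h75_redF_eq_zero_iff_lt (R i₁) (hbO _ i₁)).mp (hb0 ⟨i, l⟩ i₁ hne)
    rw [IntermediateField.smul_def, smul_eq_mul, map_mul]
    calc v (d ⟨i, l⟩ : F) * v (b ⟨i, l⟩) ≤ 1 * v (b ⟨i, l⟩) := by
          exact mul_le_mul_left (hdO _) _
      _ = v (b ⟨i, l⟩) := one_mul _
      _ < 1 := hb1
  rw [hsum, map_mul, hsplit, Valuation.map_add_eq_of_lt_left v (by rw [h1]; exact h2), h1, mul_one]

/-- **(FRAME).**  Lifts of `k(x̄ᵢ)`-bases of the residue fields, with reduction `0` at the other
valuations, form a `K(x)`-basis `b` of `F`, and `f` lies in all `O i` iff all coordinates of `f`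
do (i.e. lie in the Gauss ring of `K(x)`). -/
theorem h75_exists_valFrame (hA : ∀ i j, (R i).A = (R j).A)
    (hinc : ∀ i j, i ≠ j → ¬ (R i).O ≤ (R j).O) {x : F}
    (hx : ∀ i, x ∈ (R i).O) (htr : ∀ i, Transcendental k ((R i).redF x))
    [hfin : ∀ i, Module.Finite k⟮(R i).redF x⟯ (Fb i)] [hF : Module.Finite K⟮x⟯ F]
    (hdeg : Module.finrank K⟮x⟯ F ≤ ∑ i, Module.finrank k⟮(R i).redF x⟯ (Fb i)) :
    ∃ b : Module.Basis (Σ i, Fin (Module.finrank k⟮(R i).redF x⟯ (Fb i))) K⟮x⟯ F,
      (∀ j i, b j ∈ (R i).O) ∧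
      (∀ j i, i ≠ j.1 → (R i).redF (b j) = 0) ∧
      (∀ i, LinearIndependent k⟮(R i).redF x⟯ (fun l => (R i).redF (b ⟨i, l⟩))) ∧
      ∀ f : F, (∀ i, f ∈ (R i).O) ↔ ∀ j i, ((b.repr f j : K⟮x⟯) : F) ∈ (R i).O := by
  classical
  set n : ι → ℕ := fun i => Module.finrank k⟮(R i).redF x⟯ (Fb i) with hn
  let β : ∀ i, Module.Basis (Fin (n i)) k⟮(R i).redF x⟯ (Fb i) := fun i => Module.finBasis _ _
  -- lifts with reduction zero at the other valuations
  have hlift : ∀ j : (Σ i, Fin (n i)), ∃ y : F, (∀ i, y ∈ (R i).O) ∧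
      (R j.1).redF y = β j.1 j.2 ∧ ∀ i, i ≠ j.1 → (R i).redF y = 0 := by
    intro j
    obtain ⟨y, hy⟩ := (R j.1).red_surjective (β j.1 j.2)
    obtain ⟨z, hz, hz1, hz2⟩ := h44_val_approx (fun i => (R i).O) hinc j.1 (y : F) y.2
    refine ⟨z, hz, ?_, fun i hi => ?_⟩
    · have h1 : (R j.1).redF (z - (y : F)) = 0 :=
        (h75_redF_eq_zero_iff_lt (R j.1) (sub_mem (hz j.1) y.2)).mpr hz1
      rw [h39_redF_sub (R j.1) (hz j.1) y.2, sub_eq_zero] at h1
      rw [h1, (R j.1).redF_of_mem y.2]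
      exact hy
    · exact (h75_redF_eq_zero_iff_lt (R i) (hz i)).mpr (hz2 i hi)
  choose b0 hb0O hb0red hb0zero using hlift
  have hli : ∀ i, LinearIndependent k⟮(R i).redF x⟯
      (fun l : Fin (n i) => (R i).redF (b0 ⟨i, l⟩)) := by
    intro i
    have h1 : (fun l : Fin (n i) => (R i).redF (b0 ⟨i, l⟩)) = β i := by
      funext l
      exact hb0red ⟨i, l⟩
    rw [h1]
    exact (β i).linearIndependent
  have hval := h75_val_family R hx htr b0 hb0O hb0zero hli
  -- the rings `O i ∩ K(x)` coincide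
  have hcomm : ∀ (c : K⟮x⟯) (i i' : ι), (c : F) ∈ (R i).O → (c : F) ∈ (R i').O :=
    fun c i i' h => h75_gauss_mem_of_mem (R i) (R i') (hA i i') (hx i) (htr i) (hx i') (htr i')
      c.2 h
  -- a coefficient of maximal valuation
  have hexmax : ∀ c : (Σ i, Fin (n i)) → K⟮x⟯, (∃ I, c I ≠ 0) →
      ∃ J, c J ≠ 0 ∧ ∀ I, ((c I / c J : K⟮x⟯) : F) ∈ (R J.1).O := by
    rintro c ⟨I₀, hI₀⟩
    have : Nonempty (Σ i, Fin (n i)) := ⟨I₀⟩
    obtain ⟨J, hJ⟩ := Finite.exists_max (fun I => (R I₀.1).O.valuation (c I : F))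
    have hJ0 : c J ≠ 0 := by
      intro h0
      have h1 := hJ I₀
      rw [h0] at h1
      simp only [ZeroMemClass.coe_zero, map_zero, nonpos_iff_eq_zero, Valuation.zero_iff] at h1
      exact hI₀ (Subtype.ext h1)
    refine ⟨J, hJ0, fun I => ?_⟩
    apply hcomm _ I₀.1 J.1
    rw [← ValuationSubring.valuation_le_one_iff]
    push_cast
    rw [map_div₀]
    exact div_le_one_of_le₀ (hJ I) zero_le
  -- linear independence over `K(x)`
  have hliK : LinearIndependent K⟮x⟯ b0 := by
    rw [Fintype.linearIndependent_iff]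
    intro c hc I
    by_contra hI
    obtain ⟨J, hJ0, hJ⟩ := hexmax c ⟨I, hI⟩
    have h2 := hval c J hJ0 hJ
    rw [hc, map_zero] at h2
    have h3 : (c J : F) = 0 := by
      rw [← Valuation.zero_iff (R J.1).O.valuation]
      exact h2.symm
    exact hJ0 (Subtype.ext h3)
  have hcard : Fintype.card (Σ i, Fin (n i)) = Module.finrank K⟮x⟯ F := by
    apply le_antisymm hliK.fintype_card_le_finrank
    rw [Fintype.card_sigma]
    simpa [hn] using hdeg
  have hne : Nonempty (Σ i, Fin (n i)) := by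
    rw [← Fintype.card_pos_iff, hcard]
    exact Module.finrank_pos
  let b : Module.Basis (Σ i, Fin (n i)) K⟮x⟯ F :=
    basisOfLinearIndependentOfCardEqFinrank hliK hcard
  have hbb : ∀ I, b I = b0 I := fun I => by
    simp [b]
  refine ⟨b, fun j i => by rw [hbb]; exact hb0O j i, fun j i hi => by rw [hbb]; exact hb0zero j i hi,
    fun i => ?_, fun f => ?_⟩
  · have h1 : (fun l : Fin (n i) => (R i).redF (b ⟨i, l⟩)) =
        fun l : Fin (n i) => (R i).redF (b0 ⟨i, l⟩) := by
      funext l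
      rw [hbb]
    rw [h1]
    exact hli i
  · have hf : f = ∑ I, b.repr f I • b0 I := by
      conv_lhs => rw [← b.sum_repr f]
      exact Finset.sum_congr rfl fun I _ => by rw [hbb]
    constructor
    · intro hfO I i
      by_cases hall : ∃ I, b.repr f I ≠ 0
      · obtain ⟨J, hJ0, hJ⟩ := hexmax (fun I => b.repr f I) hall
        have h2 := hval (fun I => b.repr f I) J hJ0 hJ
        rw [← hf] at h2
        have hJO : ((b.repr f J : K⟮x⟯) : F) ∈ (R J.1).O := by
          rw [← ValuationSubring.valuation_le_one_iff, ← h2]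
          exact (ValuationSubring.valuation_le_one_iff _ _).mpr (hfO J.1)
        apply hcomm _ J.1 i
        have h3 : ((b.repr f I : K⟮x⟯) : F) =
            ((b.repr f I / b.repr f J : K⟮x⟯) : F) * ((b.repr f J : K⟮x⟯) : F) := by
          have hJF : ((b.repr f J : K⟮x⟯) : F) ≠ 0 := fun h => hJ0 (Subtype.ext h)
          push_cast
          field_simp
        rw [h3]
        exact (R J.1).O.mul_mem _ _ (hJ I) hJO
      · push Not at hall
        rw [hall I]
        exact (R i).O.zero_mem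
    · intro h i
      rw [hf]
      refine sum_mem fun I _ => ?_
      rw [IntermediateField.smul_def, smul_eq_mul]
      exact (R i).O.mul_mem _ _ (h I i) (hb0O I i)

/-- **(ker).**  A nonzero `g` in all `O i` whose reductions all vanish is `c⁻¹` times an element
of all `O i`, with `c ∉ A`. -/
theorem h75_exists_scale_of_red_zero [Nonempty ι] (hA : ∀ i j, (R i).A = (R j).A) {g : F}
    (hg0 : g ≠ 0) (hgO : ∀ i, g ∈ (R i).O) (hred : ∀ i, (R i).redF g = 0) :
    ∃ c : K, (∀ i, c ∉ (R i).A) ∧ ∀ i, algebraMap K F c * g ∈ (R i).O := by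
  classical
  have hsc : ∀ i, ∃ c : K, c ≠ 0 ∧ c ∉ (R i).A ∧ algebraMap K F c * g ∈ (R i).O := by
    intro i
    obtain ⟨c, hc0, h1, h2⟩ := (R i).exists_scale g hg0
    refine ⟨c, hc0, fun hcA => ?_, h1⟩
    have h3 : (R i).O.valuation g < 1 := (h75_redF_eq_zero_iff_lt (R i) (hgO i)).mp (hred i)
    have h4 : (R i).O.valuation (algebraMap K F c) ≤ 1 :=
      (ValuationSubring.valuation_le_one_iff _ _).mpr (((R i).mem_iff c).mp hcA)
    have h5 : (R i).O.valuation (algebraMap K F c * g) < 1 := by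
      rw [map_mul]
      calc (R i).O.valuation (algebraMap K F c) * (R i).O.valuation g
          ≤ 1 * (R i).O.valuation g := mul_le_mul_left h4 _
        _ = (R i).O.valuation g := one_mul _
        _ < 1 := h3
    have h6 : (R i).O.valuation (algebraMap K F c * g)⁻¹ ≤ 1 :=
      (ValuationSubring.valuation_le_one_iff _ _).mpr h2
    rw [map_inv₀] at h6
    have hne : (R i).O.valuation (algebraMap K F c * g) ≠ 0 := by
      rw [Ne, Valuation.zero_iff]
      exact mul_ne_zero (by rw [Ne, map_eq_zero]; exact hc0) hg0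
    have h7 : 1 ≤ (R i).O.valuation (algebraMap K F c * g) := by
      rw [← inv_le_one₀ (zero_lt_iff.mpr hne)]
      exact h6
    exact absurd h5 (not_lt.mpr h7)
  choose c hc0 hcA hcO using hsc
  set i₀ : ι := Classical.arbitrary ι with hi₀
  obtain ⟨m, hm⟩ := Finite.exists_min (fun i => (R i₀).A.valuation (c i))
  refine ⟨c m, fun i => ?_, fun i => ?_⟩
  · rw [hA i m]
    exact hcA m
  · have h1 : c m / c i ∈ (R i).A := by
      rw [hA i i₀, ← ValuationSubring.valuation_le_one_iff, map_div₀]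
      exact div_le_one_of_le₀ (hm i) zero_le
    have h2 : algebraMap K F (c m) * g = algebraMap K F (c m / c i) * (algebraMap K F (c i) * g) := by
      rw [← mul_assoc, ← map_mul, div_mul_cancel₀ _ (hc0 i)]
    rw [h2]
    exact (R i).O.mul_mem _ _ (((R i).mem_iff _).mp h1) (hcO i)

/-- **(ON) for a family.**  Every finite-dimensional `K`-subspace `V` of `F` has a `K`-basis
`e` contained in all `O i` such that `V ∩ ⋂ O i` is the free `A`-module on `e` and the reduction
vectors `(redᵢ eⱼ)ᵢ ∈ ∏ᵢ Fb i` are `k`-linearly independent. -/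
theorem h75_exists_on_family [Nonempty ι] (hA : ∀ i j, (R i).A = (R j).A)
    (hres : ∀ i j, (R i).resK = (R j).resK)
    (hinc : ∀ i j, i ≠ j → ¬ (R i).O ≤ (R j).O) {x : F}
    (hx : ∀ i, x ∈ (R i).O) (htr : ∀ i, Transcendental k ((R i).redF x))
    [hfin : ∀ i, Module.Finite k⟮(R i).redF x⟯ (Fb i)] [hF : Module.Finite K⟮x⟯ F]
    (hdeg : Module.finrank K⟮x⟯ F ≤ ∑ i, Module.finrank k⟮(R i).redF x⟯ (Fb i))
    (V : Submodule K F) [FiniteDimensional K V] :
    ∃ e : Fin (Module.finrank K V) → F, (∀ j, e j ∈ V) ∧ (∀ j i, e j ∈ (R i).O) ∧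
      LinearIndependent K e ∧
      (∀ a : Fin (Module.finrank K V) → K, (∀ i, ∑ j, a j • e j ∈ (R i).O) →
        ∀ j i, a j ∈ (R i).A) ∧
      (∀ f ∈ V, (∀ i, f ∈ (R i).O) → ∃ a : Fin (Module.finrank K V) → K,
        (∀ j i, a j ∈ (R i).A) ∧ f = ∑ j, a j • e j) ∧
      LinearIndependent k (fun j => (fun i => (R i).redF (e j) : ∀ i, Fb i)) := by
  classical
  set i₀ : ι := Classical.arbitrary ι with hi₀
  obtain ⟨b, -, -, -, hb⟩ := h75_exists_valFrame R hA hinc hx htr hdeg
  -- the Gauss lemma for the intersection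
  have hG : ∀ p : K[X], aeval x p ∈ h75_interO R ↔ ∀ n, p.coeff n ∈ (R i₀).A := by
    intro p
    rw [h75_mem_interO]
    constructor
    · intro h
      exact (h89_gauss_mem_iff (R i₀) (hx i₀) (htr i₀) p).mp (h i₀)
    · intro h i
      refine (h89_gauss_mem_iff (R i) (hx i) (htr i) p).mpr fun n => ?_
      rw [hA i i₀]
      exact h n
  have hden := h75_den_of_prim (R i₀).A (h75_interO R) (x := x) (by
    rintro q hq ⟨j, hj⟩
    have h := fun i => h75_prim_unit (R i) (hx i) (htr i)
      (fun n => by rw [hA i i₀]; exact hq n) hj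
    exact ⟨(h i₀).1, (h75_mem_interO R).mpr fun i => (h i).2.1,
      (h75_mem_interO R).mpr fun i => (h i).2.2⟩)
  have hb' : ∀ f : F, f ∈ h75_interO R ↔ ∀ j, ((b.repr f j : K⟮x⟯) : F) ∈ h75_interO R := by
    intro f
    rw [h75_mem_interO, hb f]
    exact forall_congr' fun j => (h75_mem_interO R).symm
  obtain ⟨e, heV, heO, hind, hon⟩ := h75_exists_on_of_frame (R i₀).A (h75_interO R) hG hden b hb' V
  have heO' : ∀ j i, e j ∈ (R i).O := fun j => (h75_mem_interO R).mp (heO j)
  have hon' : ∀ a : Fin (Module.finrank K V) → K, (∀ i, ∑ j, a j • e j ∈ (R i).O) →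
      ∀ j i, a j ∈ (R i).A := by
    intro a ha j i
    rw [hA i i₀]
    exact hon a ((h75_mem_interO R).mpr ha) j
  refine ⟨e, heV, heO', hind, hon', ?_, ?_⟩
  · -- spanning
    intro f hfV hfO
    have hind' : LinearIndependent K (fun j => (⟨e j, heV j⟩ : V)) :=
      LinearIndependent.of_comp V.subtype hind
    have hspan := hind'.span_eq_top_of_card_eq_finrank' (by simp)
    have hmem : (⟨f, hfV⟩ : V) ∈ Submodule.span K (Set.range fun j => (⟨e j, heV j⟩ : V)) := by
      rw [hspan]
      trivial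
    obtain ⟨a, ha⟩ := (Submodule.mem_span_range_iff_exists_fun K).mp hmem
    have hf : f = ∑ j, a j • e j := by
      have h6 := congrArg (Subtype.val : V → F) ha
      rw [AddSubmonoidClass.coe_finsetSum] at h6
      exact h6.symm
    exact ⟨a, hon' a (fun i => by rw [← hf]; exact hfO i), hf⟩
  · -- independence of the reduction vectors
    rw [Fintype.linearIndependent_iff]
    intro l hl j
    choose a haA har using fun j => h39_resK_surjective (R i₀) (l j)
    have haA' : ∀ i j, a j ∈ (R i).A := fun i j => by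
      rw [hA i i₀]
      exact haA j
    have har' : ∀ i j, (R i).resK (a j) = l j := fun i j => by
      rw [hres i i₀]
      exact har j
    set g : F := ∑ j, a j • e j with hg
    have hgO : ∀ i, g ∈ (R i).O := fun i =>
      h20_sum_smul_mem (R i) Finset.univ a e (haA' i) (fun j => heO' j i)
    have hgred : ∀ i, (R i).redF g = 0 := by
      intro i
      rw [hg, h20_redF_sum_smul (R i) Finset.univ a e (haA' i) (fun j => heO' j i)]
      have h1 := congrFun hl i
      rw [Finset.sum_apply] at h1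
      have h2 : (0 : ∀ i, Fb i) i = 0 := rfl
      rw [h2] at h1
      rw [← h1]
      refine Finset.sum_congr rfl fun j _ => ?_
      rw [har' i j]
      rfl
    by_cases hg0 : g = 0
    · have h1 := Fintype.linearIndependent_iff.mp hind a hg0 j
      rw [← har j, h1, (R i₀).resK_of_mem (R i₀).A.zero_mem]
      exact map_zero _
    · obtain ⟨c, hcA, hcO⟩ := h75_exists_scale_of_red_zero R hA hg0 hgO hgred
      have hc0 : c ≠ 0 := by
        rintro rfl
        exact hcA i₀ (R i₀).A.zero_mem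
      have h1 : ∀ i, ∑ j, (c * a j) • e j ∈ (R i).O := by
        intro i
        have h2 : ∑ j, (c * a j) • e j = algebraMap K F c * g := by
          rw [hg, Finset.mul_sum]
          refine Finset.sum_congr rfl fun j _ => ?_
          rw [mul_smul, Algebra.smul_def c]
        rw [h2]
        exact hcO i
      have h3 := hon' (fun j => c * a j) h1 j i₀
      rw [← har j]
      refine (h20_resK_eq_zero_iff (R i₀) (haA j)).mpr ?_
      rw [ValuationSubring.mem_nonunits_iff_or]
      by_cases haj : a j = 0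
      · exact Or.inl haj
      · refine Or.inr fun hinv => hcA i₀ ?_
        have h4 : c = c * a j * (a j)⁻¹ := by
          rw [mul_assoc, mul_inv_cancel₀ haj, mul_one]
        rw [h4]
        exact (R i₀).A.mul_mem _ _ h3 hinv

/-- **(G1)** the reduction of `V ∩ ⋂ O i`, as a `k`-subspace of `∏ᵢ Fb i`. -/
def h75_redSpace (V : Submodule K F) : Submodule k (∀ i, Fb i) :=
  Submodule.span k {φ | ∃ f ∈ V, (∀ i, f ∈ (R i).O) ∧ ∀ i, (R i).redF f = φ i}

omit [Fintype ι] in
theorem h75_mem_redSpace [Nonempty ι] (hA : ∀ i j, (R i).A = (R j).A)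
    (hres : ∀ i j, (R i).resK = (R j).resK) (V : Submodule K F) (φ : ∀ i, Fb i) :
    φ ∈ h75_redSpace R V ↔ ∃ f ∈ V, (∀ i, f ∈ (R i).O) ∧ ∀ i, (R i).redF f = φ i := by
  constructor
  · intro h
    unfold h75_redSpace at h
    induction h using Submodule.span_induction with
    | mem φ h => exact h
    | zero => exact ⟨0, V.zero_mem, fun i => (R i).O.zero_mem, fun i => h39_redF_zero (R i)⟩
    | add φ ψ _ _ h1 h2 =>
      obtain ⟨f, hfV, hfO, hf⟩ := h1
      obtain ⟨g, hgV, hgO, hg⟩ := h2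
      refine ⟨f + g, V.add_mem hfV hgV, fun i => (R i).O.add_mem _ _ (hfO i) (hgO i), fun i => ?_⟩
      rw [h39_redF_add (R i) (hfO i) (hgO i), hf i, hg i]
      rfl
    | smul c φ _ h1 =>
      obtain ⟨f, hfV, hfO, hf⟩ := h1
      set i₀ : ι := Classical.arbitrary ι
      obtain ⟨a, haA, har⟩ := h39_resK_surjective (R i₀) c
      have haA' : ∀ i, a ∈ (R i).A := fun i => by
        rw [hA i i₀]
        exact haA
      refine ⟨a • f, V.smul_mem a hfV, fun i => ?_, fun i => ?_⟩
      · rw [Algebra.smul_def]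
        exact (R i).O.mul_mem _ _ (((R i).mem_iff a).mp (haA' i)) (hfO i)
      · rw [Algebra.smul_def, h39_redF_mul (R i) (((R i).mem_iff a).mp (haA' i)) (hfO i),
          h39_redF_algebraMap (R i) (haA' i), hres i i₀, har, hf i, Pi.smul_apply,
          Algebra.smul_def]
  · intro h
    exact Submodule.subset_span h

omit [Fintype ι] in
theorem h75_redSpace_mono {V W : Submodule K F} (h : V ≤ W) :
    h75_redSpace R V ≤ h75_redSpace R W := by
  unfold h75_redSpace
  apply Submodule.span_mono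
  rintro φ ⟨f, hfV, hfO, hf⟩
  exact ⟨f, h hfV, hfO, hf⟩

/-- **(G1)** reduction does not change dimensions:
`dim_k red(V ∩ ⋂ O i) = dim_K V`. -/
theorem h75_finrank_redSpace [Nonempty ι] (hA : ∀ i j, (R i).A = (R j).A)
    (hres : ∀ i j, (R i).resK = (R j).resK)
    (hinc : ∀ i j, i ≠ j → ¬ (R i).O ≤ (R j).O) {x : F}
    (hx : ∀ i, x ∈ (R i).O) (htr : ∀ i, Transcendental k ((R i).redF x))
    [hfin : ∀ i, Module.Finite k⟮(R i).redF x⟯ (Fb i)] [hF : Module.Finite K⟮x⟯ F]
    (hdeg : Module.finrank K⟮x⟯ F ≤ ∑ i, Module.finrank k⟮(R i).redF x⟯ (Fb i))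
    (V : Submodule K F) [FiniteDimensional K V] :
    Module.finrank k (h75_redSpace R V) = Module.finrank K V := by
  classical
  obtain ⟨e, heV, heO, -, -, hspan, hli⟩ := h75_exists_on_family R hA hres hinc hx htr hdeg V
  set i₀ : ι := Classical.arbitrary ι
  have heq : h75_redSpace R V =
      Submodule.span k (Set.range fun j => (fun i => (R i).redF (e j) : ∀ i, Fb i)) := by
    apply le_antisymm
    · unfold h75_redSpace
      rw [Submodule.span_le]
      rintro φ ⟨f, hfV, hfO, hf⟩
      obtain ⟨a, haA, rfl⟩ := hspan f hfV hfO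
      rw [SetLike.mem_coe, Submodule.mem_span_range_iff_exists_fun]
      refine ⟨fun j => (R i₀).resK (a j), ?_⟩
      funext i
      rw [← hf i, h20_redF_sum_smul (R i) Finset.univ a e (fun j => haA j i) (fun j => heO j i),
        Finset.sum_apply]
      refine Finset.sum_congr rfl fun j _ => ?_
      rw [hres i i₀]
      rfl
    · rw [Submodule.span_le]
      rintro _ ⟨j, rfl⟩
      exact Submodule.subset_span ⟨e j, heV j, heO j, fun i => rfl⟩
  rw [heq, finrank_span_eq_card hli, Fintype.card_fin]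

end Family

end Fermat.Agent.S34

end
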