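import Fermat.Agent.S18.GR_Integral
import Fermat.Agent.S34.h75_ONFamily
import Fermat.Agent.S34.h31_IntSeriesMod

/-!
# S34 foundation: integrality transfer for a finite family of reduction data (helper16)

This is R63 `[P0](iv)` / the step "(a) `f` is integral over `A[x]` (characteristic polynomial)"
of the (INT) lemma, for the intersection `⋂ O i` of finitely many valuation rings
(`R i : h39_RedDatum K F k (Fb i)`), in the setting of `h75_exists_valFrame`.

`f ∈ ⋂ O i` integral over `K[x]` (poles only at the poles of `x`)  ⟹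

* `h16_exists_monic_eq_family` : `f` is a root of a MONIC polynomial with coefficients in `A[x]`
  (the minimal polynomial of `f` over `K(x)`: its coefficients lie in the Gauss ring because
  `⋂ O i` is a finite module over it - the frame -, and in `K[x]` because `K[x]` is integrally
  closed; Gauss lemma);
* `h16_isIntegral_red_family` : every reduction `redᵢ f` is integral over `k[x̄ᵢ]`
  (no pole outside the poles of `x̄ᵢ`);
* `h16_qint_of_monic`, `h16_qint_family` : if moreover `F` sits in `K((q))`, `x` has an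
  `A`-integral `q`-expansion and `f` is a ratio of `A`-integral `q`-series (`A` of rank one), then
  the `q`-expansion of `f` is `A`-integral  ((QINT) of `h31_IntSeriesMod`).

The `_core` versions take the frame as a hypothesis (any `K(x)`-basis `b` of `F` contained in
`⋂ O i` such that the coordinates of the elements of `⋂ O i` lie in `⋂ O i`).
-/

set_option autoImplicit false

noncomputable section

open IntermediateField Polynomial Module AlgebraicCurve

namespace Fermat.Agent.S34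

open Fermat.Agent.S18 ModularCurve

section One

variable {K F k Fb : Type*} [Field K] [Field F] [Algebra K F] [Field k] [Field Fb] [Algebra k Fb]

/-- A function in `O` whose reduction is transcendental over `k` is transcendental over `K`
(no hypothesis on `K`). -/
theorem h16_transcendental_of_redF (R : h39_RedDatum K F k Fb) {x : F} (hx : x ∈ R.O)
    (htr : Transcendental k (R.redF x)) : Transcendental K x := by
  intro halg
  obtain ⟨p, hp0, hp⟩ := halg
  obtain ⟨c, q, j, hc0, hqj, hpq⟩ := h89_exists_primitive R.A hp0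
  have h1 : aeval x (q.map R.A.subtype) = 0 := by
    rw [hpq, map_mul, Polynomial.aeval_C] at hp
    rcases mul_eq_zero.mp hp with h | h
    · exact absurd ((map_eq_zero _).mp h) hc0
    · exact h
  have h2 := (h89_primitive_unit R hx htr hqj).1
  rw [h1] at h2
  exact h2 (h39_redF_zero R)

end One

section Family

variable {K F k : Type*} [Field K] [Field F] [Algebra K F] [Field k]
variable {ι : Type*} {Fb : ι → Type*} [∀ i, Field (Fb i)] [∀ i, Algebra k (Fb i)]
variable (R : ∀ i, h39_RedDatum K F k (Fb i))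

/-- With a frame, `⋂ O i` is a finite module over the Gauss ring `K(x) ∩ O i₀`, hence its
elements are integral over it. -/
theorem h16_isIntegral_gauss_family {x : F} {κ : Type*} [Finite κ]
    (b : Module.Basis κ K⟮x⟯ F) (hbO : ∀ j i, b j ∈ (R i).O)
    (hcoord : ∀ f : F, (∀ i, f ∈ (R i).O) → ∀ j i, ((b.repr f j : K⟮x⟯) : F) ∈ (R i).O)
    (hcomm : ∀ (c : K⟮x⟯) (i i' : ι), (c : F) ∈ (R i).O → (c : F) ∈ (R i').O)
    (i₀ : ι) {f : F} (hf : ∀ i, f ∈ (R i).O) :
    IsIntegral (h66_gaussRing (R i₀) x) f := by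
  classical
  have := Fintype.ofFinite κ
  let N : Submodule (h66_gaussRing (R i₀) x) F :=
    Submodule.span (h66_gaussRing (R i₀) x) (Set.range b)
  have hNO : ∀ g ∈ N, ∀ i, g ∈ (R i).O := by
    intro g hg
    induction hg using Submodule.span_induction with
    | mem y hy =>
      obtain ⟨j, rfl⟩ := hy
      exact hbO j
    | zero => exact fun i => (R i).O.zero_mem
    | add y z _ _ hy hz => exact fun i => (R i).O.add_mem _ _ (hy i) (hz i)
    | smul s y _ hy =>
      intro i
      rw [Algebra.smul_def]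
      exact (R i).O.mul_mem _ _ (hcomm (s : K⟮x⟯) i₀ i s.2) (hy i)
  have hON : ∀ g : F, (∀ i, g ∈ (R i).O) → g ∈ N := by
    intro g hg
    rw [← b.sum_repr g]
    refine Submodule.sum_mem _ fun j _ => ?_
    have h1 : (b.repr g j) • b j =
        (⟨b.repr g j, hcoord g hg j i₀⟩ : h66_gaussRing (R i₀) x) • b j := rfl
    rw [h1]
    exact Submodule.smul_mem _ _ (Submodule.subset_span ⟨j, rfl⟩)
  refine isIntegral_of_smul_mem_submodule N ?_ ?_ f ?_
  · intro h
    have h1 : (1 : F) ∈ N := hON 1 fun i => (R i).O.one_mem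
    rw [h] at h1
    exact one_ne_zero ((Submodule.mem_bot _).1 h1)
  · exact Submodule.fg_span (Set.finite_range b)
  · intro n hn
    exact hON _ fun i => (R i).O.mul_mem _ _ (hf i) (hNO n hn i)

/-- The coefficients of the minimal polynomial over `K(x)` of an element of `⋂ O i` lie in
`⋂ O i`. -/
theorem h16_minpoly_coeff_mem_family {x : F} {κ : Type*} [Finite κ]
    (b : Module.Basis κ K⟮x⟯ F) (hbO : ∀ j i, b j ∈ (R i).O)
    (hcoord : ∀ f : F, (∀ i, f ∈ (R i).O) → ∀ j i, ((b.repr f j : K⟮x⟯) : F) ∈ (R i).O)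
    (hcomm : ∀ (c : K⟮x⟯) (i i' : ι), (c : F) ∈ (R i).O → (c : F) ∈ (R i').O)
    {f : F} (hf : ∀ i, f ∈ (R i).O) (n : ℕ) (i : ι) :
    (((minpoly K⟮x⟯ f).coeff n : K⟮x⟯) : F) ∈ (R i).O := by
  have h := minpoly.isIntegrallyClosed_eq_field_fractions' K⟮x⟯
    (h16_isIntegral_gauss_family R b hbO hcoord hcomm i hf)
  rw [h, Polynomial.coeff_map]
  exact ((minpoly (h66_gaussRing (R i) x) f).coeff n).2

/-- **(INT-EQ) for a family, core form** (frame and Gauss lemma as hypotheses): an element of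
`⋂ O i` which is integral over `K[x]` is a root of a monic polynomial over `A[x]`. -/
theorem h16_exists_monic_eq_family_core {x : F} (htrK : Transcendental K x)
    {κ : Type*} [Finite κ]
    (b : Module.Basis κ K⟮x⟯ F) (hbO : ∀ j i, b j ∈ (R i).O)
    (hcoord : ∀ f : F, (∀ i, f ∈ (R i).O) → ∀ j i, ((b.repr f j : K⟮x⟯) : F) ∈ (R i).O)
    (hcomm : ∀ (c : K⟮x⟯) (i i' : ι), (c : F) ∈ (R i).O → (c : F) ∈ (R i').O)
    (i : ι) (hgauss : ∀ p : K[X], aeval x p ∈ (R i).O → ∀ n, p.coeff n ∈ (R i).A)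
    {f : F} (hf : ∀ i, f ∈ (R i).O) (hint : IsIntegral (Algebra.adjoin K {x}) f) :
    ∃ G : Polynomial (Polynomial (R i).A), G.Monic ∧
      Polynomial.eval₂ (h66_evalF (R i) x) f G = 0 := by
  have hint' : IsIntegral K⟮x⟯ f := by
    have := Module.Finite.of_basis b
    exact Algebra.IsIntegral.isIntegral f
  set P : F[X] := (minpoly K⟮x⟯ f).map (algebraMap K⟮x⟯ F) with hP
  have hPm : P.Monic := (minpoly.monic hint').map _
  have hlift : P ∈ Polynomial.lifts (h66_evalF (R i) x) := by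
    rw [Polynomial.lifts_iff_coeff_lifts]
    intro n
    rw [hP, Polynomial.coeff_map]
    have h1 := h16_minpoly_coeff_mem_family R b hbO hcoord hcomm hf n i
    have h2 := h66_minpoly_coeff_mem_adjoin htrK hint n
    rw [Algebra.adjoin_singleton_eq_range_aeval] at h2
    obtain ⟨p, hp⟩ := h2
    have hp' : aeval x p = (((minpoly K⟮x⟯ f).coeff n : K⟮x⟯) : F) := hp
    have hpA := hgauss p (by rw [hp']; exact h1)
    have hpl : p ∈ Polynomial.lifts (algebraMap (R i).A K) := by
      rw [Polynomial.lifts_iff_coeff_lifts]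
      intro m
      exact ⟨⟨p.coeff m, hpA m⟩, rfl⟩
    obtain ⟨q, hq⟩ := hpl
    refine ⟨q, ?_⟩
    rw [h66_evalF_apply]
    have hq' : q.map (algebraMap (R i).A K) = p := hq
    rw [hq', hp']
    rfl
  obtain ⟨G, hG, -, hGm⟩ := Polynomial.lifts_and_natDegree_eq_and_monic hlift hPm
  refine ⟨G, hGm, ?_⟩
  rw [← Polynomial.eval_map, hG, hP, Polynomial.eval_map, ← Polynomial.aeval_def, minpoly.aeval]

/-- **(INT-EQ) for a family**, in the setting of `h75_exists_valFrame`: `f ∈ ⋂ O i` integral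
over `K[x]` is a root of a monic polynomial with coefficients in `A[x]`. -/
theorem h16_exists_monic_eq_family [Fintype ι] (hA : ∀ i j, (R i).A = (R j).A)
    (hinc : ∀ i j, i ≠ j → ¬ (R i).O ≤ (R j).O) {x : F}
    (hx : ∀ i, x ∈ (R i).O) (htr : ∀ i, Transcendental k ((R i).redF x))
    [hfin : ∀ i, Module.Finite k⟮(R i).redF x⟯ (Fb i)] [hF : Module.Finite K⟮x⟯ F]
    (hdeg : Module.finrank K⟮x⟯ F ≤ ∑ i, Module.finrank k⟮(R i).redF x⟯ (Fb i))
    {f : F} (hf : ∀ i, f ∈ (R i).O) (hint : IsIntegral (Algebra.adjoin K {x}) f) (i : ι) :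
    ∃ G : Polynomial (Polynomial (R i).A), G.Monic ∧
      Polynomial.eval₂ (h66_evalF (R i) x) f G = 0 := by
  obtain ⟨b, hbO, -, -, hb⟩ := h75_exists_valFrame R hA hinc hx htr hdeg
  have hcomm : ∀ (c : K⟮x⟯) (i i' : ι), (c : F) ∈ (R i).O → (c : F) ∈ (R i').O :=
    fun c i i' h => h75_gauss_mem_of_mem (R i) (R i') (hA i i') (hx i) (htr i) (hx i') (htr i')
      c.2 h
  exact h16_exists_monic_eq_family_core R (h16_transcendental_of_redF (R i) (hx i) (htr i)) b hbO
    (fun f hf => (hb f).mp hf) hcomm i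
    (fun p hp => (h89_gauss_mem_iff (R i) (hx i) (htr i) p).mp hp) hf hint

/-- **(REG) for a family**: the reductions of an element of `⋂ O i` which is integral over
`K[x]` are integral over `k[x̄ᵢ]`. -/
theorem h16_isIntegral_red_family [Fintype ι] (hA : ∀ i j, (R i).A = (R j).A)
    (hinc : ∀ i j, i ≠ j → ¬ (R i).O ≤ (R j).O) {x : F}
    (hx : ∀ i, x ∈ (R i).O) (htr : ∀ i, Transcendental k ((R i).redF x))
    [hfin : ∀ i, Module.Finite k⟮(R i).redF x⟯ (Fb i)] [hF : Module.Finite K⟮x⟯ F]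
    (hdeg : Module.finrank K⟮x⟯ F ≤ ∑ i, Module.finrank k⟮(R i).redF x⟯ (Fb i))
    {f : F} (hf : ∀ i, f ∈ (R i).O) (hint : IsIntegral (Algebra.adjoin K {x}) f) (i : ι) :
    IsIntegral (Algebra.adjoin k {(R i).redF x}) ((R i).redF f) := by
  obtain ⟨G, hGm, hG⟩ := h16_exists_monic_eq_family R hA hinc hx htr hdeg hf hint i
  exact h66_isIntegral_red (R i) (hx i) (hf i) G hGm hG

/-- **(REG) for a family, place form**: an element of `⋂ O i` regular on the chart `x` has
reductions regular on the charts `x̄ᵢ` (no separability needed on the residue side). -/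
theorem h16_red_reg_family [Fintype ι] (hA : ∀ i j, (R i).A = (R j).A)
    (hinc : ∀ i j, i ≠ j → ¬ (R i).O ≤ (R j).O) {x : F}
    (hx : ∀ i, x ∈ (R i).O) (htr : ∀ i, Transcendental k ((R i).redF x))
    [hfin : ∀ i, Module.Finite k⟮(R i).redF x⟯ (Fb i)] [hF : Module.Finite K⟮x⟯ F]
    (hdeg : Module.finrank K⟮x⟯ F ≤ ∑ i, Module.finrank k⟮(R i).redF x⟯ (Fb i))
    (hsep : Algebra.IsSeparable K⟮x⟯ F)
    {f : F} (hf : ∀ i, f ∈ (R i).O)
    (hreg : ∀ P : Place K F, x ∈ P.toValuationSubring → f ∈ P.toValuationSubring) (i : ι) :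
    ∀ Q : Place k (Fb i), (R i).redF x ∈ Q.toValuationSubring →
      (R i).redF f ∈ Q.toValuationSubring := by
  intro Q hQ
  have hch : h75_IsChart K x := ⟨h16_transcendental_of_redF (R i) (hx i) (htr i), hF, hsep⟩
  have hI : IsIntegral (Algebra.adjoin K {x}) f := (h75_isIntegral_iff hch f).2 hreg
  have h1 := h16_isIntegral_red_family R hA hinc hx htr hdeg hf hI i
  exact Fermat.Agent.S24.h24_integral_mem Q (h75_ringA k ((R i).redF x)) (h75_ringA_le Q hQ) _ h1

/-- **`L(n (x)_∞) ∩ ⋂ O i` reduces into `L(n (x̄ᵢ)_∞)`** for every `i`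
(the family version of `h39_Lx_red`). -/
theorem h16_Lx_red_family [Fintype ι] (hA : ∀ i j, (R i).A = (R j).A)
    (hinc : ∀ i j, i ≠ j → ¬ (R i).O ≤ (R j).O) {x : F}
    (hx : ∀ i, x ∈ (R i).O) (htr : ∀ i, Transcendental k ((R i).redF x))
    [hfin : ∀ i, Module.Finite k⟮(R i).redF x⟯ (Fb i)] [hF : Module.Finite K⟮x⟯ F]
    (hdeg : Module.finrank K⟮x⟯ F ≤ ∑ i, Module.finrank k⟮(R i).redF x⟯ (Fb i))
    (hsep : Algebra.IsSeparable K⟮x⟯ F) (n : ℕ)
    {f : F} (hf : f ∈ h39_Lx K x n) (hfO : ∀ i, f ∈ (R i).O) (i : ι) :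
    (R i).redF f ∈ h39_Lx k ((R i).redF x) n := by
  have hne : ∀ i, (R i).redF x ≠ 0 := by
    intro i h0
    exact htr i (h0 ▸ isAlgebraic_zero)
  have hx0 : x ≠ 0 := by
    rintro rfl
    exact hne i (h39_redF_zero (R i))
  have hinv : ∀ i, x⁻¹ ∈ (R i).O ∧ (R i).redF x⁻¹ = ((R i).redF x)⁻¹ :=
    fun i => h39_inv_of_redF_ne_zero (R i) (hne i)
  have hK : K⟮x⁻¹⟯ = K⟮x⟯ := h62_adjoin_inv x
  have hk : ∀ i, k⟮(R i).redF x⁻¹⟯ = k⟮(R i).redF x⟯ := by
    intro i
    rw [(hinv i).2]
    exact h62_adjoin_inv _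
  have htr' : ∀ i, Transcendental k ((R i).redF x⁻¹) := by
    intro i
    rw [(hinv i).2]
    intro h
    exact htr i (by simpa using h.inv)
  have hfin' : ∀ i, Module.Finite k⟮(R i).redF x⁻¹⟯ (Fb i) := by
    intro i
    rw [hk i]
    exact hfin i
  have hF' : Module.Finite K⟮x⁻¹⟯ F := by
    rw [hK]
    exact hF
  have hdeg' : Module.finrank K⟮x⁻¹⟯ F ≤ ∑ i, Module.finrank k⟮(R i).redF x⁻¹⟯ (Fb i) := by
    have h1 : ∀ i, Module.finrank k⟮(R i).redF x⁻¹⟯ (Fb i) =
        Module.finrank k⟮(R i).redF x⟯ (Fb i) := by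
      intro i
      rw [hk i]
    rw [hK, Finset.sum_congr rfl fun i _ => h1 i]
    exact hdeg
  have hsep' : Algebra.IsSeparable K⟮x⁻¹⟯ F := by
    rw [hK]
    exact hsep
  obtain ⟨h1, h2⟩ := (h66_mem_Lx_iff hx0).1 hf
  have hgO : ∀ i, f * x⁻¹ ^ n ∈ (R i).O :=
    fun i => (R i).O.mul_mem _ _ (hfO i) (pow_mem (hinv i).1 n)
  have h3 := h16_red_reg_family R hA hinc hx htr hdeg hsep hfO h1 i
  have h4 := h16_red_reg_family R hA hinc (fun i => (hinv i).1) htr' hdeg' hsep' hgO
    (by simpa using h2) i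
  rw [h39_redF_mul (R i) (hfO i) (pow_mem (hinv i).1 n), h39_redF_pow (R i) (hinv i).1,
    (hinv i).2] at h4
  exact (h66_mem_Lx_iff (hne i)).2 ⟨h3, h4⟩

end Family

section QInt

variable {K F k Fb : Type*} [Field K] [Field F] [Algebra K F] [Field k] [Field Fb] [Algebra k Fb]

/-- Constants `a ∈ A` as `A`-integral `q`-series. -/
theorem h16_coeffMap_C (A : ValuationSubring K) (a : A) :
    coeffMap A.subtype (HahnSeries.C a : LaurentSeries A) =
      algebraMap K (LaurentSeries K) (a : K) := by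
  rw [HahnSeries.algebraMap_apply', PowerSeries.algebraMap_apply, Algebra.algebraMap_self,
    RingHom.id_apply, HahnSeries.ofPowerSeries_C]
  ext m
  rw [coeffMap_coeff, HahnSeries.C_apply, HahnSeries.C_apply, HahnSeries.coeff_single,
    HahnSeries.coeff_single]
  split_ifs
  · rfl
  · rfl

/-- **(QINT) from a monic equation over `A[x]`.**  `e : F → K((q))` a `K`-algebra map
(`q`-expansion), `x` with `A`-integral expansion, `f` a ratio of `A`-integral series and a root
of a monic polynomial over `A[x]`, `A` of rank one.  Then the expansion of `f` is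
`A`-integral. -/
theorem h16_qint_of_monic (R : h39_RedDatum K F k Fb)
    (hR : ∀ a : K, a ∈ R.A → a⁻¹ ∉ R.A → ∀ δ : K, δ ≠ 0 → ∃ n : ℕ, a ^ n * δ⁻¹ ∈ R.A)
    (e : F →ₐ[K] LaurentSeries K) {x f : F} (X : LaurentSeries R.A)
    (hX : e x = coeffMap R.A.subtype X) (y₁ y₂ : LaurentSeries R.A)
    (hy₂ : coeffMap R.A.subtype y₂ ≠ 0)
    (hf : e f * coeffMap R.A.subtype y₂ = coeffMap R.A.subtype y₁)
    (G : Polynomial (Polynomial R.A)) (hGm : G.Monic)
    (hG : Polynomial.eval₂ (h66_evalF R x) f G = 0) :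
    ∃ y : LaurentSeries R.A, coeffMap R.A.subtype y = e f := by
  refine h31_qint R.A hR (e f) y₁ y₂ hy₂ hf ?_
  -- the ring hom `A[X] → A((q))_int`, `p ↦ p(X)`
  let XS : h31_intSeries R.A := ⟨coeffMap R.A.subtype X, h31_coeffMap_mem R.A X⟩
  let c0 : R.A →+* h31_intSeries R.A :=
    ((coeffMap R.A.subtype).codRestrict (h31_intSeries R.A) (h31_coeffMap_mem R.A)).comp
      (HahnSeries.C : R.A →+* LaurentSeries R.A)
  let ψ : Polynomial R.A →+* h31_intSeries R.A := Polynomial.eval₂RingHom c0 XS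
  have hc0 : ∀ a : R.A, ((c0 a : h31_intSeries R.A) : LaurentSeries K) =
      algebraMap K (LaurentSeries K) (a : K) := fun a => h16_coeffMap_C R.A a
  have hψ : ∀ p : Polynomial R.A,
      ((ψ p : h31_intSeries R.A) : LaurentSeries K) = e (h66_evalF R x p) := by
    intro p
    rw [h66_evalF_apply, ← Polynomial.aeval_algHom_apply, hX]
    induction p using Polynomial.induction_on' with
    | add p q hp hq =>
      rw [map_add, Polynomial.map_add, map_add, ← hp, ← hq]
      rfl
    | monomial n a =>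
      rw [Polynomial.map_monomial, Polynomial.aeval_monomial]
      show ((Polynomial.eval₂ c0 XS (Polynomial.monomial n a) : h31_intSeries R.A) :
        LaurentSeries K) = _
      rw [Polynomial.eval₂_monomial, Subring.coe_mul, SubmonoidClass.coe_pow, hc0]
      rfl
  refine ⟨G.map ψ, hGm.map ψ, ?_⟩
  have h1 := congrArg (e : F →+* LaurentSeries K) hG
  rw [map_zero, Polynomial.hom_eval₂] at h1
  rw [Polynomial.eval₂_map]
  have hcomp : (algebraMap (h31_intSeries R.A) (LaurentSeries K)).comp ψ =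
      (e : F →+* LaurentSeries K).comp (h66_evalF R x) := by
    refine RingHom.ext fun p => ?_
    exact hψ p
  rw [hcomp]
  exact h1

end QInt

section QIntFamily

variable {K F k : Type*} [Field K] [Field F] [Algebra K F] [Field k]
variable {ι : Type*} [Fintype ι] {Fb : ι → Type*} [∀ i, Field (Fb i)] [∀ i, Algebra k (Fb i)]
variable (R : ∀ i, h39_RedDatum K F k (Fb i))

/-- **(INT) for a family**: in the setting of `h75_exists_valFrame`, with a `q`-expansion map
`e : F → K((q))`, `x` of `A`-integral expansion and `A` of rank one: every `f ∈ ⋂ O i`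
integral over `K[x]` which is a ratio of `A`-integral series has an `A`-integral expansion. -/
theorem h16_qint_family (hA : ∀ i j, (R i).A = (R j).A)
    (hinc : ∀ i j, i ≠ j → ¬ (R i).O ≤ (R j).O) {x : F}
    (hx : ∀ i, x ∈ (R i).O) (htr : ∀ i, Transcendental k ((R i).redF x))
    [hfin : ∀ i, Module.Finite k⟮(R i).redF x⟯ (Fb i)] [hF : Module.Finite K⟮x⟯ F]
    (hdeg : Module.finrank K⟮x⟯ F ≤ ∑ i, Module.finrank k⟮(R i).redF x⟯ (Fb i))
    {f : F} (hf : ∀ i, f ∈ (R i).O) (hint : IsIntegral (Algebra.adjoin K {x}) f) (i : ι)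
    (hR : ∀ a : K, a ∈ (R i).A → a⁻¹ ∉ (R i).A → ∀ δ : K, δ ≠ 0 →
      ∃ n : ℕ, a ^ n * δ⁻¹ ∈ (R i).A)
    (e : F →ₐ[K] LaurentSeries K) (X : LaurentSeries (R i).A)
    (hX : e x = coeffMap (R i).A.subtype X) (y₁ y₂ : LaurentSeries (R i).A)
    (hy₂ : coeffMap (R i).A.subtype y₂ ≠ 0)
    (hfy : e f * coeffMap (R i).A.subtype y₂ = coeffMap (R i).A.subtype y₁) :
    ∃ y : LaurentSeries (R i).A, coeffMap (R i).A.subtype y = e f := by
  obtain ⟨G, hGm, hG⟩ := h16_exists_monic_eq_family R hA hinc hx htr hdeg hf hint i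
  exact h16_qint_of_monic (R i) hR e X hX y₁ y₂ hy₂ hfy G hGm hG

end QIntFamily

end Fermat.Agent.S34
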