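import Mathlib
import Fermat.Agent.S34.h10_XMod
import Fermat.Agent.S34.h60_Frame0
import Fermat.Agent.S34.h16_IntFamily
import Fermat.Agent.S34.h16_NodeChart
import Fermat.Agent.S34.h84_FrobMod
import Fermat.Agent.S27.h70_WtOrd
import Fermat.Agent.S37.h89_EFFCore
import Fermat.Agent.S37.h88_HICore

/-!
# S34, (INT) at level `Mq` (helper17)

Level `M`, `q ∤ M` a prime, `A` a valuation ring of `ℚ̄` over `q`, `k` its residue field,
`Fb = Fb(M)` the reduced function field, `Qinf = h11_placeInftyC k M` its cusp.  `R₁ = h60_R1`,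
`R₂ = h60_R2` the two reductions of `F = F(Mq)`, `Pinf`, `P0` the two cusps of `F` over the cusp
of level `M`, `D0 = (Pinf) + (P0)`.

* `h17_le_finrank_of_pole` : a pole order is at most the degree (no separability);
* `h17_finrank_two_poles` : the degree of a chart with exactly two poles;
* `h17_exists_chart` : the chart `x = α(b)` of `F(Mq)` with poles exactly `{Pinf, P0}`, for the
  pair `(R₁, R₂)`: the degree inequality `[F : K(x)] ≤ [Fb : k(x̄₁)] + [Fb : k(x̄₂)]`
  (`(q+1)ν ≤ ν + qν`), reductions regular off `Qinf`, integral `q`-expansions of `x`, `w x`;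
* `h17_int_pair` : **(INT)** `f ∈ L(n D0) ∩ O₁ ∩ O₂ ⟹ red₁ f, red₂ f ∈ L(n Qinf)`;
* `h17_int` : the same for every lattice datum `D` with `D.O = O₁ ∩ O₂`, `D.redF = (red₁, red₂)`,
  in the binder shape `hreg` of `h20_G_of_chart_final` / `h16_node_chart`.
(The instance `D := h87_D M q hqM A hA` is `h17_int_mod` in `h17_IntModInst.lean`.)
-/

set_option autoImplicit false
set_option synthInstance.maxHeartbeats 400000

noncomputable section

open AlgebraicCurve ModularCurve IntermediateField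

namespace Fermat.Agent.S34

open Fermat.Agent.S18 Fermat.Agent.S24 Fermat.Agent.S37 Fermat.Agent.S27

local notation "Qb" => AlgebraicClosure ℚ

section Generic

variable {K F : Type*} [Field K] [Field F] [Algebra K F]

/-- A pole order is at most the degree (no separability hypothesis): if `x` has a pole of order
`n > 0` at `v` and some `y` has a pole of order `n + 1` there, then `n ≤ [F : K(x)]`. -/
theorem h17_le_finrank_of_pole (v : Place K F) {x y : F} {n : ℕ} (hn : 0 < n)
    (hx : v.ord x = -(n : ℤ)) (hy : v.ord y = -((n : ℤ) + 1)) [Module.Finite K⟮x⟯ F] :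
    n ≤ Module.finrank K⟮x⟯ F := by
  have h := (h70_linearIndependent_pow v hn hx hy).fintype_card_le_finrank
  rwa [Fintype.card_fin] at h

/-- The degree of a chart with exactly two poles, of orders `n1`, `n2`. -/
theorem h17_finrank_two_poles [IsAlgClosed K] {x : F} (hx : h75_IsChart K x)
    {P1 P2 : Place K F} (hne : P1 ≠ P2) {n1 n2 : ℕ} (hn1 : 0 < n1) (hn2 : 0 < n2)
    (h1 : P1.ord x = -(n1 : ℤ)) (h2 : P2.ord x = -(n2 : ℤ))
    (hreg : ∀ P : Place K F, P ≠ P1 → P ≠ P2 → 0 ≤ P.ord x) :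
    Module.finrank K⟮x⟯ F = n1 + n2 := by
  classical
  have hxi := h75_isChart_inv hx
  have hs : ∀ P : Place K F, P ∈ ({P1, P2} : Finset (Place K F)) ↔
      0 < P.ord (x⁻¹ - algebraMap K F 0) := by
    intro P
    rw [map_zero, sub_zero, Place.ord_inv, Finset.mem_insert, Finset.mem_singleton]
    constructor
    · rintro (rfl | rfl)
      · rw [h1]
        omega
      · rw [h2]
        omega
    · intro h
      by_contra hcon
      push Not at hcon
      have := hreg P hcon.1 hcon.2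
      omega
  have hsum := h75_fibre_sum hxi 0 {P1, P2} hs
  rw [Finset.sum_pair hne, map_zero, sub_zero, Place.ord_inv, Place.ord_inv, h1, h2] at hsum
  have := hx.fin
  have hfr : Module.finrank K⟮x⁻¹⟯ F = Module.finrank K⟮x⟯ F :=
    (h35_finrank_congr (h24_adjoin_inv_eq x).symm).2
  rw [hfr] at hsum
  omega

end Generic

section QIntAux

variable {K F k : Type*} [Field K] [Field F] [Algebra K F] [Field k]
variable {ι : Type*} [Fintype ι] {Fb : ι → Type*} [∀ i, Field (Fb i)] [∀ i, Algebra k (Fb i)]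
variable (R : ∀ i, h39_RedDatum K F k (Fb i))

/-- `h16_qint_family` with a fixed ring of constants `A = (R i).A`. -/
theorem h17_qint_aux (A : ValuationSubring K) (hA : ∀ i, (R i).A = A)
    (hinc : ∀ i j, i ≠ j → ¬ (R i).O ≤ (R j).O) {x : F}
    (hx : ∀ i, x ∈ (R i).O) (htr : ∀ i, Transcendental k ((R i).redF x))
    [hfin : ∀ i, Module.Finite k⟮(R i).redF x⟯ (Fb i)] [hF : Module.Finite K⟮x⟯ F]
    (hdeg : Module.finrank K⟮x⟯ F ≤ ∑ i, Module.finrank k⟮(R i).redF x⟯ (Fb i))
    {f : F} (hf : ∀ i, f ∈ (R i).O) (hint : IsIntegral (Algebra.adjoin K {x}) f) (i : ι)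
    (hR : h39_RankOne A)
    (e : F →ₐ[K] LaurentSeries K) (X : LaurentSeries A)
    (hX : e x = coeffMap A.subtype X) (y₁ y₂ : LaurentSeries A)
    (hy₂ : coeffMap A.subtype y₂ ≠ 0)
    (hfy : e f * coeffMap A.subtype y₂ = coeffMap A.subtype y₁) :
    ∃ y : LaurentSeries A, coeffMap A.subtype y = e f := by
  have h := h16_qint_family R (fun i j => (hA i).trans (hA j).symm) hinc hx htr hdeg hf hint i
  rw [hA i] at h
  exact h hR e X hX y₁ y₂ hy₂ hfy

end QIntAux

section Mod

variable (M q : ℕ) [NeZero M] [NeZero q] [Fact q.Prime] (hqM : ¬ q ∣ M)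
  (A : ValuationSubring Qb) (hA : A.LiesOverPrime q)

/-- **The chart `x = α(b)` of `F(Mq)` for the pair `(R₁, R₂)`**: poles exactly `{Pinf, P0}`,
`x ∈ O₁ ∩ O₂` with transcendental reductions `b̄`, `φ(b̄)`, regular off the cusp of the special
fibre, the degree inequality `[F : K(x)] ≤ [Fb : k(b̄)] + [Fb : k(φ b̄)]`, and `A`-integral
`q`-expansions of `x` and `w x`. -/
theorem h17_exists_chart (hch : 5 ≤ q ∨ 2 ∣ M ∨ 3 ∣ M)
    {Pinf P0 : Place Qb ↥(modularFunctionFieldBar (M * q))}
    (hPinf : h10_IsCusp (modularFunctionFieldBar (M * q)) Pinf)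
    (hP0 : h10_IsCusp0 M q (h60_w M q hqM) P0) :
    ∃ x : ↥(modularFunctionFieldBar (M * q)),
      (∀ i, x ∈ (h60_pair M q hqM A hA i).O) ∧
      (∀ i, Transcendental (IsLocalRing.ResidueField A) ((h60_pair M q hqM A hA i).redF x)) ∧
      (∀ i, Module.Finite (IsLocalRing.ResidueField A)⟮(h60_pair M q hqM A hA i).redF x⟯
        ↥(modularFunctionFieldFullC (IsLocalRing.ResidueField A) M)) ∧
      h75_IsChart Qb x ∧
      Module.finrank Qb⟮x⟯ ↥(modularFunctionFieldBar (M * q)) ≤
        ∑ i, Module.finrank (IsLocalRing.ResidueField A)⟮(h60_pair M q hqM A hA i).redF x⟯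
          ↥(modularFunctionFieldFullC (IsLocalRing.ResidueField A) M) ∧
      (∀ P : Place Qb ↥(modularFunctionFieldBar (M * q)),
        x ∈ P.toValuationSubring → P ≠ Pinf ∧ P ≠ P0) ∧
      (∀ i, ∀ Q : Place (IsLocalRing.ResidueField A)
          ↥(modularFunctionFieldFullC (IsLocalRing.ResidueField A) M),
        Q ≠ h11_placeInftyC (IsLocalRing.ResidueField A) M →
          (h60_pair M q hqM A hA i).redF x ∈ Q.toValuationSubring) ∧
      (∃ X : LaurentSeries A,
        ((x : ↥(modularFunctionFieldBar (M * q))) : LaurentSeries Qb) = coeffMap A.subtype X) ∧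
      (∃ X : LaurentSeries A,
        ((h60_w M q hqM x : ↥(modularFunctionFieldBar (M * q))) : LaurentSeries Qb)
          = coeffMap A.subtype X) := by
  classical
  have hq : q.Prime := Fact.out
  haveI hk : IsAlgClosed (IsLocalRing.ResidueField A) := h19_residueField_isAlgClosed A
  haveI hchar : CharP (IsLocalRing.ResidueField A) q := h19_residueField_charP A q hA
  have hRM := h39_modRed_spec M hqM A hA
  have hPM : h10_IsCusp (modularFunctionFieldBar M) (h11_placeInfty M) :=
    fun _ hf => h11_placeInfty_ord M hf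
  have hQ : h10_IsCusp (modularFunctionFieldFullC (IsLocalRing.ResidueField A) M)
      (h11_placeInftyC (IsLocalRing.ResidueField A) M) :=
    fun _ hf => h11_placeInftyC_ord (IsLocalRing.ResidueField A) M hf
  have hwα := h60_w_alpha M q hqM
  obtain ⟨ν₀, hν⟩ := h10_exists_b M hqM A hA hch hPM hQ
  have hν1 : 0 < max ν₀ 1 := lt_of_lt_of_le Nat.one_pos (le_max_right _ _)
  have hqν : 0 < q * max ν₀ 1 := Nat.mul_pos hq.pos hν1
  obtain ⟨b, hbO, hb0, -, hbord, hbreg, ⟨y, hy, -, -⟩, hrne, hrord, hrreg⟩ :=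
    hν (max ν₀ 1) (le_max_left _ _)
  obtain ⟨b1, hb1O, -, -, -, -, -, -, hr1ord, -⟩ :=
    hν (max ν₀ 1 + 1) (le_trans (le_max_left _ _) (Nat.le_succ _))
  obtain ⟨b2, hb2O, -, -, -, -, -, -, hr2ord, -⟩ :=
    hν (q * max ν₀ 1 + 1) (le_trans (le_max_left ν₀ 1)
      (le_trans (Nat.le_mul_of_pos_left _ hq.pos) (Nat.le_succ _)))
  -- the reductions of `x = α b`
  have hx1 : heckeAlphaBar Qb M q b ∈ (h60_R1 M q hqM A hA).O :=
    (h60_R1_alpha_mem_iff M q hqM A hA hRM b).mpr hbO
  have hx2 : heckeAlphaBar Qb M q b ∈ (h60_R2 M q hqM A hA).O :=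
    (h60_R2_alpha_mem_iff M q hqM A hA hRM b).mpr hbO
  have hred1 : (h60_R1 M q hqM A hA).redF (heckeAlphaBar Qb M q b)
      = (h39_modRed M hqM A hA).red ⟨b, hbO⟩ := by
    rw [h60_R1_redF_alpha M q hqM A hA hRM b, (h39_modRed M hqM A hA).redF_of_mem hbO]
  have hred2 : (h60_R2 M q hqM A hA).redF (heckeAlphaBar Qb M q b)
      = h60_phi M q (IsLocalRing.ResidueField A) ((h39_modRed M hqM A hA).red ⟨b, hbO⟩) := by
    apply Subtype.ext
    rw [h60_R2_redF_alpha_coe M q hqM A hA hRM b, (h39_modRed M hqM A hA).redF_of_mem hbO]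
    rfl
  have hphi0 : h60_phi M q (IsLocalRing.ResidueField A)
      ((h39_modRed M hqM A hA).red ⟨b, hbO⟩) ≠ 0 := (map_ne_zero _).mpr hrne
  have hordphi : (h11_placeInftyC (IsLocalRing.ResidueField A) M).ord
      (h60_phi M q (IsLocalRing.ResidueField A) ((h39_modRed M hqM A hA).red ⟨b, hbO⟩))
      = -((q * max ν₀ 1 : ℕ) : ℤ) := by
    rw [hQ _ hphi0, h60_coe_phi, h64_order_qExpand, ← hQ _ hrne, hrord]
    push_cast
    ring
  have htr_of_pole : ∀ c : ↥(modularFunctionFieldFullC (IsLocalRing.ResidueField A) M),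
      (h11_placeInftyC (IsLocalRing.ResidueField A) M).ord c ≠ 0 →
        Transcendental (IsLocalRing.ResidueField A) c := by
    intro c hc halg
    obtain ⟨a, rfl⟩ := h73_mem_range_of_isAlgebraic halg
    exact hc (h35_ord_algebraMap _ a)
  have hj := h84_isChart_jk M q hqM A hA
  have hfin_of_tr : ∀ c : ↥(modularFunctionFieldFullC (IsLocalRing.ResidueField A) M),
      Transcendental (IsLocalRing.ResidueField A) c →
        Module.Finite (IsLocalRing.ResidueField A)⟮c⟯
          ↥(modularFunctionFieldFullC (IsLocalRing.ResidueField A) M) := by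
    intro c hc
    have := hj.fin
    exact h35_finiteDimensional_of_transcendental hj.tr hc
  have htr1 : Transcendental (IsLocalRing.ResidueField A)
      ((h39_modRed M hqM A hA).red ⟨b, hbO⟩) := by
    apply htr_of_pole
    rw [hrord]
    omega
  have htr2 : Transcendental (IsLocalRing.ResidueField A)
      (h60_phi M q (IsLocalRing.ResidueField A) ((h39_modRed M hqM A hA).red ⟨b, hbO⟩)) := by
    apply htr_of_pole
    rw [hordphi]
    omega
  have hD1 : max ν₀ 1 ≤ Module.finrank
      (IsLocalRing.ResidueField A)⟮(h39_modRed M hqM A hA).red ⟨b, hbO⟩⟯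
      ↥(modularFunctionFieldFullC (IsLocalRing.ResidueField A) M) := by
    have := hfin_of_tr _ htr1
    refine h17_le_finrank_of_pole (h11_placeInftyC (IsLocalRing.ResidueField A) M) hν1 hrord
      (y := (h39_modRed M hqM A hA).red ⟨b1, hb1O⟩) ?_
    rw [hr1ord]
    push_cast
    ring
  have hD2 : q * max ν₀ 1 ≤ Module.finrank
      (IsLocalRing.ResidueField A)⟮h60_phi M q (IsLocalRing.ResidueField A)
        ((h39_modRed M hqM A hA).red ⟨b, hbO⟩)⟯
      ↥(modularFunctionFieldFullC (IsLocalRing.ResidueField A) M) := by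
    have := hfin_of_tr _ htr2
    refine h17_le_finrank_of_pole (h11_placeInftyC (IsLocalRing.ResidueField A) M) hqν hordphi
      (y := (h39_modRed M hqM A hA).red ⟨b2, hb2O⟩) ?_
    rw [hr2ord]
    push_cast
    ring
  -- the generic fibre
  have hordx : Pinf.ord (heckeAlphaBar Qb M q b) = -((max ν₀ 1 : ℕ) : ℤ) := by
    rw [h10_ord_alpha hPinf b, hbord]
  have hord0x : P0.ord (heckeAlphaBar Qb M q b) = -((q * max ν₀ 1 : ℕ) : ℤ) := by
    rw [h10_ord0_alpha hwα hP0 b, hbord]
    push_cast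
    ring
  have hregx : ∀ P : Place Qb ↥(modularFunctionFieldBar (M * q)), P ≠ Pinf → P ≠ P0 →
      0 ≤ P.ord (heckeAlphaBar Qb M q b) :=
    fun P h1 h2 => h10_polar_alpha hwα hq hqM hPM hPinf hP0 b hbreg P h1 h2
  have hx0 : heckeAlphaBar Qb M q b ≠ 0 := (map_ne_zero _).mpr hb0
  have htrx : Transcendental Qb (heckeAlphaBar Qb M q b) := by
    intro halg
    obtain ⟨a, ha⟩ := h73_mem_range_of_isAlgebraic halg
    rw [← ha, h35_ord_algebraMap] at hordx
    omega
  have hxch : h75_IsChart Qb (heckeAlphaBar Qb M q b) :=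
    h89_isChart_of_transcendental (h88_isFF (M * q)) htrx
  have hne : Pinf ≠ P0 := h10_cusp_ne_cusp0 hwα hq.two_le hPinf hP0
  have hdegF : Module.finrank Qb⟮heckeAlphaBar Qb M q b⟯ ↥(modularFunctionFieldBar (M * q))
      = max ν₀ 1 + q * max ν₀ 1 :=
    h17_finrank_two_poles hxch hne hν1 hqν hordx hord0x hregx
  refine ⟨heckeAlphaBar Qb M q b, ?_, ?_, ?_, hxch, ?_, ?_, ?_, ?_, ?_⟩
  · intro i
    fin_cases i
    · exact hx1
    · exact hx2
  · intro i
    fin_cases i
    · show Transcendental _ ((h60_R1 M q hqM A hA).redF (heckeAlphaBar Qb M q b))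
      rw [hred1]
      exact htr1
    · show Transcendental _ ((h60_R2 M q hqM A hA).redF (heckeAlphaBar Qb M q b))
      rw [hred2]
      exact htr2
  · intro i
    fin_cases i
    · exact hfin_of_tr ((h60_R1 M q hqM A hA).redF (heckeAlphaBar Qb M q b))
        (by rw [hred1]; exact htr1)
    · exact hfin_of_tr ((h60_R2 M q hqM A hA).redF (heckeAlphaBar Qb M q b))
        (by rw [hred2]; exact htr2)
  · rw [Fin.sum_univ_two, hdegF]
    show max ν₀ 1 + q * max ν₀ 1 ≤
      Module.finrank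
          (IsLocalRing.ResidueField A)⟮(h60_R1 M q hqM A hA).redF (heckeAlphaBar Qb M q b)⟯
          ↥(modularFunctionFieldFullC (IsLocalRing.ResidueField A) M) +
        Module.finrank
          (IsLocalRing.ResidueField A)⟮(h60_R2 M q hqM A hA).redF (heckeAlphaBar Qb M q b)⟯
          ↥(modularFunctionFieldFullC (IsLocalRing.ResidueField A) M)
    rw [hred1, hred2]
    exact Nat.add_le_add hD1 hD2
  · intro P hP
    have h0 := (h35_mem_iff_ord_nonneg P hx0).1 hP
    constructor
    · rintro rfl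
      rw [hordx] at h0
      omega
    · rintro rfl
      rw [hord0x] at h0
      omega
  · intro i Q hQ'
    fin_cases i
    · show (h60_R1 M q hqM A hA).redF (heckeAlphaBar Qb M q b) ∈ Q.toValuationSubring
      rw [hred1]
      exact h24_mem_of_ord_nonneg Q (hrreg Q hQ')
    · show (h60_R2 M q hqM A hA).redF (heckeAlphaBar Qb M q b) ∈ Q.toValuationSubring
      rw [hred2]
      have hF := h84_isFrobChart_jk M q hqM A hA
      rw [h96_mem_frob hF Q]
      exact h24_mem_of_ord_nonneg _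
        (hrreg _ (fun h => hQ' ((h84_frobPerm_eq_cusp_iff hF hQ Q).mp h)))
  · exact ⟨y, by rw [coe_heckeAlphaBar]; exact hy⟩
  · refine ⟨qExpand A q y, ?_⟩
    rw [hwα, coe_heckeBetaBar, hy, coeffMap_qExpand]

/-- The reduction `red₁` of a function with `A`-integral `q`-expansion has `q`-order at least
the `q`-order of the function. -/
theorem h17_ord_red_ge (g : ↥(modularFunctionFieldBar (M * q)))
    (hg : g ∈ (h60_R1 M q hqM A hA).O) (y : LaurentSeries A)
    (hy : coeffMap A.subtype y = ((g : ↥(modularFunctionFieldBar (M * q))) : LaurentSeries Qb))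
    (hne : (h60_R1 M q hqM A hA).redF g ≠ 0) :
    ((g : ↥(modularFunctionFieldBar (M * q))) : LaurentSeries Qb).order ≤
      (h11_placeInftyC (IsLocalRing.ResidueField A) M).ord ((h60_R1 M q hqM A hA).redF g) := by
  have h1 := h60_R1_red_eq M q hqM A hA g hg y 1 (by rw [map_one, mul_one, hy])
  rw [map_one, mul_one] at h1
  rw [(h60_R1 M q hqM A hA).redF_of_mem hg] at hne ⊢
  rw [h11_placeInftyC_ord (IsLocalRing.ResidueField A) M hne, h1, ← hy,
    h64_order_coeffMap A.subtype A.subtype_injective y]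
  have hz : coeffMap (IsLocalRing.residue A) y ≠ 0 := by
    rw [← h1]
    intro h0
    exact hne (Subtype.ext h0)
  have hc : (coeffMap (IsLocalRing.residue A) y).coeff
      (coeffMap (IsLocalRing.residue A) y).order ≠ 0 := fun h =>
    hz (HahnSeries.coeff_order_eq_zero.mp h)
  rw [coeffMap_coeff] at hc
  refine HahnSeries.order_le_of_coeff_ne_zero (fun h0 => hc ?_)
  rw [h0, map_zero]

/-- **(INT)**, elementwise: a function of `L(n ((Pinf) + (P0))) ∩ O₁ ∩ O₂` has both reductions
in `L(n Qinf)`. -/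
theorem h17_int_pair (hch : 5 ≤ q ∨ 2 ∣ M ∨ 3 ∣ M)
    {Pinf P0 : Place Qb ↥(modularFunctionFieldBar (M * q))}
    (hPinf : h10_IsCusp (modularFunctionFieldBar (M * q)) Pinf)
    (hP0 : h10_IsCusp0 M q (h60_w M q hqM) P0) (n : ℕ)
    (f : ↥(modularFunctionFieldBar (M * q)))
    (hfL : f ∈ riemannRochSpace
      (n • (Finsupp.single Pinf (1 : ℤ) + Finsupp.single P0 (1 : ℤ))))
    (hf1 : f ∈ (h60_R1 M q hqM A hA).O) (hf2 : f ∈ (h60_R2 M q hqM A hA).O) :
    (h60_R1 M q hqM A hA).redF f ∈ h16_Linf (h11_placeInftyC (IsLocalRing.ResidueField A) M) n ∧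
    (h60_R2 M q hqM A hA).redF f ∈
      h16_Linf (h11_placeInftyC (IsLocalRing.ResidueField A) M) n := by
  classical
  have hq : q.Prime := Fact.out
  obtain ⟨x, hxO, htr, hfin, hxch, hdeg, hpole, hredreg, ⟨X, hX⟩, ⟨X', hX'⟩⟩ :=
    h17_exists_chart M q hqM A hA hch hPinf hP0
  have hne : Pinf ≠ P0 := h10_cusp_ne_cusp0 (h60_w_alpha M q hqM) hq.two_le hPinf hP0
  have hAeq : ∀ i, (h60_pair M q hqM A hA i).A = A := (h60_pair_spec M q hqM A hA).1
  have hinc : ∀ i j, i ≠ j →
      ¬ (h60_pair M q hqM A hA i).O ≤ (h60_pair M q hqM A hA j).O := by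
    intro i j hij
    fin_cases i <;> fin_cases j
    · exact absurd rfl hij
    · exact (h60_not_le M q hqM A hA).1
    · exact (h60_not_le M q hqM A hA).2
    · exact absurd rfl hij
  have hfO : ∀ i, f ∈ (h60_pair M q hqM A hA i).O := by
    intro i
    fin_cases i
    · exact hf1
    · exact hf2
  -- the orders of `f`
  have hford := mem_riemannRochSpace_iff.1 hfL
  have hDinf : (n • (Finsupp.single Pinf (1 : ℤ) + Finsupp.single P0 (1 : ℤ) :
      Divisor Qb ↥(modularFunctionFieldBar (M * q)))) Pinf = n := by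
    rw [Finsupp.smul_apply, Finsupp.add_apply, Finsupp.single_eq_same,
      Finsupp.single_eq_of_ne hne, add_zero, nsmul_eq_mul, mul_one]
  have hD0 : (n • (Finsupp.single Pinf (1 : ℤ) + Finsupp.single P0 (1 : ℤ) :
      Divisor Qb ↥(modularFunctionFieldBar (M * q)))) P0 = n := by
    rw [Finsupp.smul_apply, Finsupp.add_apply, Finsupp.single_eq_same,
      Finsupp.single_eq_of_ne hne.symm, zero_add, nsmul_eq_mul, mul_one]
  have hDother : ∀ P : Place Qb ↥(modularFunctionFieldBar (M * q)), P ≠ Pinf → P ≠ P0 →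
      (n • (Finsupp.single Pinf (1 : ℤ) + Finsupp.single P0 (1 : ℤ) :
        Divisor Qb ↥(modularFunctionFieldBar (M * q)))) P = 0 := by
    intro P h1 h2
    rw [Finsupp.smul_apply, Finsupp.add_apply, Finsupp.single_eq_of_ne h1,
      Finsupp.single_eq_of_ne h2, add_zero, smul_zero]
  have hreg : ∀ P : Place Qb ↥(modularFunctionFieldBar (M * q)),
      x ∈ P.toValuationSubring → f ∈ P.toValuationSubring := by
    intro P hP
    obtain ⟨h1, h2⟩ := hpole P hP
    rcases hford P with h | h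
    · rw [h]
      exact zero_mem _
    · rw [hDother P h1 h2, neg_zero] at h
      exact h24_mem_of_ord_nonneg P h
  haveI := hxch.fin
  haveI := hfin
  have hREG := fun i => h16_red_reg_family (h60_pair M q hqM A hA)
    (fun i j => (hAeq i).trans (hAeq j).symm) hinc hxO htr hdeg hxch.sep hfO hreg i
  have hint : IsIntegral (Algebra.adjoin Qb {x}) f := (h75_isIntegral_iff hxch f).2 hreg
  have hrk : h39_RankOne A := h64_rankOne_h39 hq A hA
  have hsub : ∀ y₂ : LaurentSeries A, coeffMap (IsLocalRing.residue A) y₂ ≠ 0 →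
      coeffMap A.subtype y₂ ≠ 0 := by
    intro y₂ h h0
    apply h
    have : y₂ = 0 := h19_coeffMap_subtype_injective A (by rw [h0, map_zero])
    rw [this, map_zero]
  by_cases hf0 : f = 0
  · subst hf0
    rw [h39_redF_zero, h39_redF_zero]
    exact ⟨Submodule.zero_mem _, Submodule.zero_mem _⟩
  have hwf0 : h60_w M q hqM f ≠ 0 := (map_ne_zero _).mpr hf0
  have hwf1 : h60_w M q hqM f ∈ (h60_R1 M q hqM A hA).O := (h60_R2_mem_iff M q hqM A hA f).mp hf2
  -- the `q`-expansions of `f` and `w f` are `A`-integral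
  obtain ⟨y, hy⟩ : ∃ y : LaurentSeries A,
      coeffMap A.subtype y = ((f : ↥(modularFunctionFieldBar (M * q))) : LaurentSeries Qb) := by
    obtain ⟨y₁, y₂, hy₂, hfy⟩ := (h60_R1_mem_iff M q hqM A hA f).mp hf1
    exact h17_qint_aux (h60_pair M q hqM A hA) A hAeq hinc hxO htr hdeg hfO hint 0 hrk
      (modularFunctionFieldBar (M * q)).val X hX y₁ y₂ (hsub y₂ hy₂) hfy
  obtain ⟨y', hy'⟩ : ∃ y : LaurentSeries A,
      coeffMap A.subtype y
        = ((h60_w M q hqM f : ↥(modularFunctionFieldBar (M * q))) : LaurentSeries Qb) := by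
    obtain ⟨y₁, y₂, hy₂, hfy⟩ := (h60_R1_mem_iff M q hqM A hA (h60_w M q hqM f)).mp hwf1
    exact h17_qint_aux (h60_pair M q hqM A hA) A hAeq hinc hxO htr hdeg hfO hint 0 hrk
      ((modularFunctionFieldBar (M * q)).val.comp
        (h10_swapAut (h60_w_algebraMap M q hqM) (h60_w_w M q hqM) :
          ↥(modularFunctionFieldBar (M * q)) →ₐ[Qb] ↥(modularFunctionFieldBar (M * q))))
      X' hX' y₁ y₂ (hsub y₂ hy₂) hfy
  have hordinf : -(n : ℤ) ≤
      ((f : ↥(modularFunctionFieldBar (M * q))) : LaurentSeries Qb).order := by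
    have h := (hford Pinf).resolve_left hf0
    rwa [hDinf, hPinf f hf0] at h
  have hord0 : -(n : ℤ) ≤
      ((h60_w M q hqM f : ↥(modularFunctionFieldBar (M * q))) : LaurentSeries Qb).order := by
    have h := (hford P0).resolve_left hf0
    rwa [hD0, hP0 f hf0] at h
  constructor
  · rw [h16_mem_Linf]
    by_cases hz : (h60_R1 M q hqM A hA).redF f = 0
    · exact Or.inl hz
    · refine Or.inr ⟨fun Q hQ' => ?_, hordinf.trans (h17_ord_red_ge M q hqM A hA f hf1 y hy hz)⟩
      exact (h35_mem_iff_ord_nonneg Q hz).1 (hREG 0 Q (hredreg 0 Q hQ'))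
  · rw [h16_mem_Linf]
    by_cases hz : (h60_R2 M q hqM A hA).redF f = 0
    · exact Or.inl hz
    · refine Or.inr ⟨fun Q hQ' => ?_, ?_⟩
      · exact (h35_mem_iff_ord_nonneg Q hz).1 (hREG 1 Q (hredreg 1 Q hQ'))
      · rw [h60_R2_redF] at hz ⊢
        exact hord0.trans (h17_ord_red_ge M q hqM A hA _ hwf1 y' hy' hz)

/-- **(INT) at level `Mq`**, in the binder shape `hreg` of `h20_G_of_chart_final` /
`h16_node_chart`: for every lattice datum `D` on `F(Mq)` with `D.O = O₁ ∩ O₂` and
`D.redF = (red₁, red₂)`, `red (L(n D0) ∩ O) ⊆ L(n Qinf) × L(n Qinf)`, `D0 = (Pinf) + (P0)`. -/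
theorem h17_int (hch : 5 ≤ q ∨ 2 ∣ M ∨ 3 ∣ M)
    {Pinf P0 : Place Qb ↥(modularFunctionFieldBar (M * q))}
    (hPinf : h10_IsCusp (modularFunctionFieldBar (M * q)) Pinf)
    (hP0 : h10_IsCusp0 M q (h60_w M q hqM) P0)
    (D : h22_Lat Qb ↥(modularFunctionFieldBar (M * q)) (IsLocalRing.ResidueField A)
      (↥(modularFunctionFieldFullC (IsLocalRing.ResidueField A) M) ×
        ↥(modularFunctionFieldFullC (IsLocalRing.ResidueField A) M)))
    (hDO : ∀ f : ↥(modularFunctionFieldBar (M * q)),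
      f ∈ D.O ↔ f ∈ (h60_R1 M q hqM A hA).O ∧ f ∈ (h60_R2 M q hqM A hA).O)
    (hDred : ∀ f : ↥(modularFunctionFieldBar (M * q)), f ∈ D.O →
      D.redF f = ((h60_R1 M q hqM A hA).redF f, (h60_R2 M q hqM A hA).redF f)) :
    ∀ n : ℕ, ∀ a ∈ h51_Rd D
        (n • (Finsupp.single Pinf (1 : ℤ) + Finsupp.single P0 (1 : ℤ))),
      a.1 ∈ h16_Linf (h11_placeInftyC (IsLocalRing.ResidueField A) M) n ∧
      a.2 ∈ h16_Linf (h11_placeInftyC (IsLocalRing.ResidueField A) M) n := by
  rintro n a ⟨f, hfL, hfO, rfl⟩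
  obtain ⟨hf1, hf2⟩ := (hDO f).mp hfO
  rw [hDred f hfO]
  exact h17_int_pair M q hqM A hA hch hPinf hP0 n f hfL hf1 hf2

end Mod

end Fermat.Agent.S34

end
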