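import Mathlib
import Fermat.Agent.S34.h17_IntMod
import Fermat.Agent.S34.h87_TopMq

/-!
# S34, (INT) at level `Mq`: the closed instance for `h87_D` (helper17)

`h17_int_mod` : the binder `hreg` of `h20_G_of_chart_final` / `h16_node_chart`, verbatim, for
`D := h87_D M q hqM A hA`, `D0 := (Pinf) + (P0)`, `Qinf := h11_placeInftyC k M`.
-/

set_option autoImplicit false
set_option synthInstance.maxHeartbeats 400000

noncomputable section

open AlgebraicCurve ModularCurve IntermediateField

namespace Fermat.Agent.S34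

open Fermat.Agent.S18 Fermat.Agent.S24 Fermat.Agent.S37

local notation "Qb" => AlgebraicClosure ℚ

variable (M q : ℕ) [NeZero M] [NeZero q] [Fact q.Prime] (hqM : ¬ q ∣ M)
  (A : ValuationSubring Qb) (hA : A.LiesOverPrime q)

/-- **(INT) for the canonical lattice `h87_D`** (`hreg` of `h20_G_of_chart_final`, verbatim). -/
theorem h17_int_mod (hch : 5 ≤ q ∨ 2 ∣ M ∨ 3 ∣ M)
    {Pinf P0 : Place Qb ↥(modularFunctionFieldBar (M * q))}
    (hPinf : h10_IsCusp (modularFunctionFieldBar (M * q)) Pinf)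
    (hP0 : h10_IsCusp0 M q (h60_w M q hqM) P0) :
    ∀ n : ℕ, ∀ a ∈ h51_Rd (h87_D M q hqM A hA)
        (n • (Finsupp.single Pinf (1 : ℤ) + Finsupp.single P0 (1 : ℤ))),
      a.1 ∈ h16_Linf (h11_placeInftyC (IsLocalRing.ResidueField A) M) n ∧
      a.2 ∈ h16_Linf (h11_placeInftyC (IsLocalRing.ResidueField A) M) n :=
  h17_int M q hqM A hA hch hPinf hP0 (h87_D M q hqM A hA)
    (fun _ => h87_D_mem M q hqM A hA)
    (fun _ hf => h87_D_redF M q hqM A hA ((h87_D_mem M q hqM A hA).mp hf).1
      ((h87_D_mem M q hqM A hA).mp hf).2)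

end Fermat.Agent.S34

end
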