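import Mathlib
import Fermat.Agent.S34.h31_Graph
import Fermat.Agent.S34.h87_TopMq
import Fermat.Agent.S34.h16_NodeChart
import Fermat.Agent.S34.h84_FrobMod

/-!
# S34, (LEAD) (helper31)

Level `M`, `q ∤ M` prime, `A` a valuation ring of `ℚ̄` over `q`, `k` its residue field,
`D = h87_D M q hqM A hA` the lattice datum of `F(Mq)` (`O = O₁ ∩ O₂`, `red = (red₁, red₂)`),
`D0 = (Pinf) + (P0)` the two cusps over the cusp of level `M`, `Qinf` the cusp of `Fb(M)`.

* `h31_lead_arith` : for `n ≥ ν₀ + q (ν₀ + q)` there are `ν₀ ≤ ν`, `ν₀ ≤ ν'` with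
  `ν + q ν' = n + 1` and `q ν + ν' ≤ n`;
* `h31_cusp_fn` : the cusp functions `b_ν` of level `M` (pole of exact order `ν` at the cusp,
  regular elsewhere, integral, with reduction of exact pole order `ν` at `Qinf`, regular
  elsewhere);
* `h31_lead` : **(LEAD)** there is `n₁` such that for `n ≥ n₁` the space
  `red (L((n + 1) D0) ∩ O)` contains `x` with `x.1 ∉ L(n Qinf)`, `x.2 ∈ L(n Qinf)` and `y` with
  `y.1 ∈ L(n Qinf)`, `y.2 ∉ L(n Qinf)`: `x = red (α(b_ν) β(b_ν'))`, `y = red (β(b_ν) α(b_ν'))`.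
-/

set_option autoImplicit false
set_option synthInstance.maxHeartbeats 400000

noncomputable section

open AlgebraicCurve ModularCurve IntermediateField

namespace Fermat.Agent.S34

open Fermat.Agent.S18 Fermat.Agent.S24 Fermat.Agent.S37 Fermat.Agent.S27

local notation "Qb" => AlgebraicClosure ℚ

/-- The arithmetic of (LEAD). -/
theorem h31_lead_arith (q ν₀ n : ℕ) (hq : 2 ≤ q) (hn : ν₀ + q * (ν₀ + q) ≤ n) :
    ∃ ν ν' : ℕ, ν₀ ≤ ν ∧ ν₀ ≤ ν' ∧ ν + q * ν' = n + 1 ∧ q * ν + ν' ≤ n := by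
  have h1 : q * ((n + 1 - ν₀) / q) + (n + 1 - ν₀) % q = n + 1 - ν₀ := Nat.div_add_mod _ _
  have h2 : (n + 1 - ν₀) % q < q := Nat.mod_lt _ (by omega)
  generalize (n + 1 - ν₀) / q = d at h1
  generalize (n + 1 - ν₀) % q = t at h1 h2
  have hle : ν₀ ≤ n + 1 := by
    have : 0 ≤ q * (ν₀ + q) := Nat.zero_le _
    omega
  have h1' : q * d + t + ν₀ = n + 1 := by omega
  have h3 : ν₀ + q ≤ d := by
    by_contra hlt
    push Not at hlt
    have h4 : q * d ≤ q * (ν₀ + q - 1) := Nat.mul_le_mul_left q (by omega)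
    have h5 : q * (ν₀ + q - 1) + q = q * (ν₀ + q) := by
      have : ν₀ + q - 1 + 1 = ν₀ + q := by omega
      rw [← Nat.mul_succ, Nat.succ_eq_add_one, this]
    omega
  refine ⟨ν₀ + t, d, by omega, by omega, by omega, ?_⟩
  have hq' : (2 : ℤ) ≤ (q : ℤ) := by exact_mod_cast hq
  have hds : ((ν₀ + t : ℕ) : ℤ) + 1 ≤ (d : ℤ) := by
    have : ν₀ + t + 1 ≤ d := by omega
    exact_mod_cast this
  have e1 : (q : ℤ) * d + t + ν₀ = n + 1 := by exact_mod_cast h1'
  have hgoal : (q : ℤ) * ((ν₀ + t : ℕ) : ℤ) + d ≤ n := by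
    push_cast at hds ⊢
    nlinarith [mul_nonneg (sub_nonneg.mpr hq') (sub_nonneg.mpr (le_of_lt (lt_of_lt_of_le (lt_add_one _) hds)))]
  exact_mod_cast hgoal

section CuspFn

variable (M q : ℕ) [NeZero M] [NeZero q] [Fact q.Prime] (hqM : ¬ q ∣ M)
  (A : ValuationSubring Qb) (hA : A.LiesOverPrime q)

omit [NeZero q] in
/-- The cusp functions `b_ν` of level `M`, with the orders of `b_ν` and of its reduction. -/
theorem h31_cusp_fn (hch : 5 ≤ q ∨ 2 ∣ M ∨ 3 ∣ M) :
    ∃ ν₀ : ℕ, ∀ ν : ℕ, ν₀ ≤ ν → ∃ b : ↥(modularFunctionFieldBar M),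
      b ∈ (h39_modRed M hqM A hA).O ∧ b ≠ 0 ∧ (b : LaurentSeries Qb).order = -(ν : ℤ) ∧
      (∀ v : Place Qb ↥(modularFunctionFieldBar M), v ≠ h11_placeInfty M → 0 ≤ v.ord b) ∧
      (h39_modRed M hqM A hA).redF b ≠ 0 ∧
      (((h39_modRed M hqM A hA).redF b :
          ↥(modularFunctionFieldFullC (IsLocalRing.ResidueField A) M)) :
            LaurentSeries (IsLocalRing.ResidueField A)).order = -(ν : ℤ) ∧
      (∀ Q : Place (IsLocalRing.ResidueField A)
          ↥(modularFunctionFieldFullC (IsLocalRing.ResidueField A) M),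
        Q ≠ h11_placeInftyC (IsLocalRing.ResidueField A) M →
          (h39_modRed M hqM A hA).redF b ∈ Q.toValuationSubring) := by
  classical
  have hR := h39_modRed_spec M hqM A hA
  obtain ⟨ν₀, hν₀⟩ := h11_exists_cusp_fn M hqM A hA hch
  refine ⟨ν₀, fun ν hν => ?_⟩
  obtain ⟨b, ys, hbs, hord, hunit, hbreg, hredreg⟩ := hν₀ ν hν
  have hycoe : (((h39_modRed M hqM A hA).redF b :
      ↥(modularFunctionFieldFullC (IsLocalRing.ResidueField A) M)) :
      LaurentSeries (IsLocalRing.ResidueField A)) = coeffMap (IsLocalRing.residue A) ys :=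
    hR.redF_of_integral b ys hbs
  have hcoeff : (coeffMap (IsLocalRing.residue A) ys).coeff (-(ν : ℤ)) ≠ 0 := by
    rw [coeffMap_coeff]
    intro h0
    exact ((IsLocalRing.residue_eq_zero_iff _).1 h0) hunit
  have hyne : coeffMap (IsLocalRing.residue A) ys ≠ 0 := by
    intro h0
    rw [h0] at hcoeff
    exact hcoeff rfl
  have hyord : (coeffMap (IsLocalRing.residue A) ys).order = -(ν : ℤ) := by
    apply le_antisymm
    · exact HahnSeries.order_le_of_coeff_ne_zero hcoeff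
    · by_contra hlt
      push Not at hlt
      apply hyne
      apply HahnSeries.coeff_order_eq_zero.1
      rw [coeffMap_coeff, HahnSeries.coeff_eq_zero_of_lt_order (by rw [hord]; exact hlt),
        map_zero]
  have hred0 : (h39_modRed M hqM A hA).redF b ≠ 0 := by
    intro h0
    apply hyne
    rw [← hycoe, h0]
    rfl
  have hbord : (b : LaurentSeries Qb).order = -(ν : ℤ) := by
    rw [hbs, h64_order_coeffMap A.subtype A.subtype_injective, hord]
  have hb0 : b ≠ 0 := by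
    rintro rfl
    apply hred0
    rw [(h39_modRed M hqM A hA).redF_of_mem (h39_modRed M hqM A hA).O.zero_mem]
    exact map_zero (h39_modRed M hqM A hA).red
  refine ⟨b, hR.mem_of_integral b ys hbs, hb0, hbord, fun v hv => ?_, hred0, ?_, hredreg⟩
  · exact (h35_mem_iff_ord_nonneg v hb0).1 (hbreg v hv)
  · rw [hycoe, hyord]

end CuspFn

section Lead

variable (M q : ℕ) [NeZero M] [NeZero q] [Fact q.Prime] (hqM : ¬ q ∣ M)
  (A : ValuationSubring Qb) (hA : A.LiesOverPrime q)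

set_option maxHeartbeats 4000000 in
/-- **(LEAD) for one pair of cusp functions** `b`, `b'` of pole orders `ν`, `ν'` with
`ν + q ν' = n + 1`, `q ν + ν' ≤ n`: `x = red (α b · β b')` and `y = red (β b · α b')`. -/
theorem h31_lead_pair
    {Pinf P0 : Place Qb ↥(modularFunctionFieldBar (M * q))}
    (hPinf : h10_IsCusp (modularFunctionFieldBar (M * q)) Pinf)
    (hP0 : h10_IsCusp0 M q (h60_w M q hqM) P0)
    (b b' : ↥(modularFunctionFieldBar M)) (ν ν' n : ℕ)
    (hbO : b ∈ (h39_modRed M hqM A hA).O) (hb0 : b ≠ 0)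
    (hbord : (b : LaurentSeries Qb).order = -(ν : ℤ))
    (hbreg : ∀ v : Place Qb ↥(modularFunctionFieldBar M), v ≠ h11_placeInfty M → 0 ≤ v.ord b)
    (hr0 : (h39_modRed M hqM A hA).redF b ≠ 0)
    (hrord : (((h39_modRed M hqM A hA).redF b :
          ↥(modularFunctionFieldFullC (IsLocalRing.ResidueField A) M)) :
            LaurentSeries (IsLocalRing.ResidueField A)).order = -(ν : ℤ))
    (hrreg : ∀ Q : Place (IsLocalRing.ResidueField A)
          ↥(modularFunctionFieldFullC (IsLocalRing.ResidueField A) M),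
        Q ≠ h11_placeInftyC (IsLocalRing.ResidueField A) M →
          (h39_modRed M hqM A hA).redF b ∈ Q.toValuationSubring)
    (hbO' : b' ∈ (h39_modRed M hqM A hA).O) (hb0' : b' ≠ 0)
    (hbord' : (b' : LaurentSeries Qb).order = -(ν' : ℤ))
    (hbreg' : ∀ v : Place Qb ↥(modularFunctionFieldBar M), v ≠ h11_placeInfty M → 0 ≤ v.ord b')
    (hr0' : (h39_modRed M hqM A hA).redF b' ≠ 0)
    (hrord' : (((h39_modRed M hqM A hA).redF b' :
          ↥(modularFunctionFieldFullC (IsLocalRing.ResidueField A) M)) :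
            LaurentSeries (IsLocalRing.ResidueField A)).order = -(ν' : ℤ))
    (hrreg' : ∀ Q : Place (IsLocalRing.ResidueField A)
          ↥(modularFunctionFieldFullC (IsLocalRing.ResidueField A) M),
        Q ≠ h11_placeInftyC (IsLocalRing.ResidueField A) M →
          (h39_modRed M hqM A hA).redF b' ∈ Q.toValuationSubring)
    (h1 : ν + q * ν' = n + 1) (h2 : q * ν + ν' ≤ n) :
    (∃ x ∈ h51_Rd (h87_D M q hqM A hA)
        ((n + 1) • (Finsupp.single Pinf (1 : ℤ) + Finsupp.single P0 (1 : ℤ))),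
      x.1 ∉ h16_Linf (h11_placeInftyC (IsLocalRing.ResidueField A) M) n ∧
      x.2 ∈ h16_Linf (h11_placeInftyC (IsLocalRing.ResidueField A) M) n) ∧
    (∃ y ∈ h51_Rd (h87_D M q hqM A hA)
        ((n + 1) • (Finsupp.single Pinf (1 : ℤ) + Finsupp.single P0 (1 : ℤ))),
      y.1 ∈ h16_Linf (h11_placeInftyC (IsLocalRing.ResidueField A) M) n ∧
      y.2 ∉ h16_Linf (h11_placeInftyC (IsLocalRing.ResidueField A) M) n) := by
  classical
  have hq : q.Prime := Fact.out
  have hk : IsAlgClosed (IsLocalRing.ResidueField A) := h19_residueField_isAlgClosed A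
  have hc : CharP (IsLocalRing.ResidueField A) q := h19_residueField_charP A q hA
  have hRM := h39_modRed_spec M hqM A hA
  have hPM : h10_IsCusp (modularFunctionFieldBar M) (h11_placeInfty M) :=
    fun _ hf => h11_placeInfty_ord M hf
  have hQ : h10_IsCusp (modularFunctionFieldFullC (IsLocalRing.ResidueField A) M)
      (h11_placeInftyC (IsLocalRing.ResidueField A) M) :=
    fun _ hf => h11_placeInftyC_ord _ M hf
  have hwα := h60_w_alpha M q hqM
  have hwβ := h60_w_beta M q hqM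
  have hww := h60_w_w M q hqM
  have hF := h84_isFrobChart_jk M q hqM A hA
  -- the four reductions of `α b`, `β b`, `α b'`, `β b'`
  have e1 : (h60_R1 M q hqM A hA).redF (heckeAlphaBar Qb M q b)
      = (h39_modRed M hqM A hA).redF b := h60_R1_redF_alpha M q hqM A hA hRM b
  have e2 : (h60_R2 M q hqM A hA).redF (heckeBetaBar Qb M q b)
      = (h39_modRed M hqM A hA).redF b := h60_R2_redF_beta M q hqM A hA hRM b
  have e3 : (h60_R1 M q hqM A hA).redF (heckeBetaBar Qb M q b)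
      = h60_phi M q (IsLocalRing.ResidueField A) ((h39_modRed M hqM A hA).redF b) :=
    Subtype.ext (h60_R1_redF_beta_coe M q hqM A hA hRM b)
  have e4 : (h60_R2 M q hqM A hA).redF (heckeAlphaBar Qb M q b)
      = h60_phi M q (IsLocalRing.ResidueField A) ((h39_modRed M hqM A hA).redF b) :=
    Subtype.ext (h60_R2_redF_alpha_coe M q hqM A hA hRM b)
  have e1' : (h60_R1 M q hqM A hA).redF (heckeAlphaBar Qb M q b')
      = (h39_modRed M hqM A hA).redF b' := h60_R1_redF_alpha M q hqM A hA hRM b'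
  have e2' : (h60_R2 M q hqM A hA).redF (heckeBetaBar Qb M q b')
      = (h39_modRed M hqM A hA).redF b' := h60_R2_redF_beta M q hqM A hA hRM b'
  have e3' : (h60_R1 M q hqM A hA).redF (heckeBetaBar Qb M q b')
      = h60_phi M q (IsLocalRing.ResidueField A) ((h39_modRed M hqM A hA).redF b') :=
    Subtype.ext (h60_R1_redF_beta_coe M q hqM A hA hRM b')
  have e4' : (h60_R2 M q hqM A hA).redF (heckeAlphaBar Qb M q b')
      = h60_phi M q (IsLocalRing.ResidueField A) ((h39_modRed M hqM A hA).redF b') :=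
    Subtype.ext (h60_R2_redF_alpha_coe M q hqM A hA hRM b')
  -- memberships
  have m1 := (h60_R1_alpha_mem_iff M q hqM A hA hRM b).mpr hbO
  have m2 := (h60_R2_alpha_mem_iff M q hqM A hA hRM b).mpr hbO
  have m3 := (h60_R1_beta_mem_iff M q hqM A hA hRM b).mpr hbO
  have m4 := (h60_R2_beta_mem_iff M q hqM A hA hRM b).mpr hbO
  have m1' := (h60_R1_alpha_mem_iff M q hqM A hA hRM b').mpr hbO'
  have m2' := (h60_R2_alpha_mem_iff M q hqM A hA hRM b').mpr hbO'
  have m3' := (h60_R1_beta_mem_iff M q hqM A hA hRM b').mpr hbO'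
  have m4' := (h60_R2_beta_mem_iff M q hqM A hA hRM b').mpr hbO'
  -- nonvanishing
  have hα0 : heckeAlphaBar Qb M q b ≠ 0 := (map_ne_zero (heckeAlphaBar Qb M q)).mpr hb0
  have hβ0 : heckeBetaBar Qb M q b ≠ 0 := (map_ne_zero (heckeBetaBar Qb M q)).mpr hb0
  have hα0' : heckeAlphaBar Qb M q b' ≠ 0 := (map_ne_zero (heckeAlphaBar Qb M q)).mpr hb0'
  have hβ0' : heckeBetaBar Qb M q b' ≠ 0 := (map_ne_zero (heckeBetaBar Qb M q)).mpr hb0'
  -- abbreviations on the special fibre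
  generalize hcdef : (h39_modRed M hqM A hA).redF b = c at *
  generalize hcdef' : (h39_modRed M hqM A hA).redF b' = c' at *
  have hφ0 : h60_phi M q (IsLocalRing.ResidueField A) c ≠ 0 := (map_ne_zero _).mpr hr0
  have hφ0' : h60_phi M q (IsLocalRing.ResidueField A) c' ≠ 0 := (map_ne_zero _).mpr hr0'
  -- orders at the cusp of the special fibre
  have oc : (h11_placeInftyC (IsLocalRing.ResidueField A) M).ord c = -(ν : ℤ) := by
    rw [h11_placeInftyC_ord _ M hr0, hrord]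
  have oc' : (h11_placeInftyC (IsLocalRing.ResidueField A) M).ord c' = -(ν' : ℤ) := by
    rw [h11_placeInftyC_ord _ M hr0', hrord']
  have oφ : (h11_placeInftyC (IsLocalRing.ResidueField A) M).ord
      (h60_phi M q (IsLocalRing.ResidueField A) c) = (q : ℤ) * (-(ν : ℤ)) := by
    rw [h11_placeInftyC_ord _ M hφ0, h60_coe_phi, h64_order_qExpand, hrord]
  have oφ' : (h11_placeInftyC (IsLocalRing.ResidueField A) M).ord
      (h60_phi M q (IsLocalRing.ResidueField A) c') = (q : ℤ) * (-(ν' : ℤ)) := by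
    rw [h11_placeInftyC_ord _ M hφ0', h60_coe_phi, h64_order_qExpand, hrord']
  -- `φ c`, `φ c'` are regular off the cusp
  have rφ : ∀ Q : Place (IsLocalRing.ResidueField A)
      ↥(modularFunctionFieldFullC (IsLocalRing.ResidueField A) M),
      Q ≠ h11_placeInftyC (IsLocalRing.ResidueField A) M →
        h60_phi M q (IsLocalRing.ResidueField A) c ∈ Q.toValuationSubring := by
    intro Q hQ'
    rw [h96_mem_frob hF Q c]
    exact hrreg _ fun h => hQ' ((h84_frobPerm_eq_cusp_iff hF hQ Q).mp h)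
  have rφ' : ∀ Q : Place (IsLocalRing.ResidueField A)
      ↥(modularFunctionFieldFullC (IsLocalRing.ResidueField A) M),
      Q ≠ h11_placeInftyC (IsLocalRing.ResidueField A) M →
        h60_phi M q (IsLocalRing.ResidueField A) c' ∈ Q.toValuationSubring := by
    intro Q hQ'
    rw [h96_mem_frob hF Q c']
    exact hrreg' _ fun h => hQ' ((h84_frobPerm_eq_cusp_iff hF hQ Q).mp h)
  have h1z : (ν : ℤ) + (q : ℤ) * (ν' : ℤ) = (n : ℤ) + 1 := by exact_mod_cast h1
  have h2z : (q : ℤ) * (ν : ℤ) + (ν' : ℤ) ≤ (n : ℤ) := by exact_mod_cast h2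
  -- the two coordinates
  have key1 : c * h60_phi M q (IsLocalRing.ResidueField A) c'
      ∉ h16_Linf (h11_placeInftyC (IsLocalRing.ResidueField A) M) n := by
    rw [h16_mem_Linf]
    rintro (h0 | ⟨-, h⟩)
    · exact mul_ne_zero hr0 hφ0' h0
    · rw [Place.ord_mul _ hr0 hφ0', oc, oφ'] at h
      linarith
  have key2 : h60_phi M q (IsLocalRing.ResidueField A) c * c'
      ∈ h16_Linf (h11_placeInftyC (IsLocalRing.ResidueField A) M) n := by
    rw [h16_mem_Linf]
    refine Or.inr ⟨fun P hP => ?_, ?_⟩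
    · exact (h35_mem_iff_ord_nonneg P (mul_ne_zero hφ0 hr0')).1
        (P.toValuationSubring.mul_mem _ _ (rφ P hP) (hrreg' P hP))
    · rw [Place.ord_mul _ hφ0 hr0', oφ, oc']
      linarith
  have hn1 : (((n + 1 : ℕ) : ℤ)) = (n : ℤ) + 1 := by push_cast; ring
  refine ⟨⟨(c * h60_phi M q (IsLocalRing.ResidueField A) c',
      h60_phi M q (IsLocalRing.ResidueField A) c * c'),
      ⟨heckeAlphaBar Qb M q b * heckeBetaBar Qb M q b', ?_,
        ⟨(h60_R1 M q hqM A hA).O.mul_mem _ _ m1 m3', (h60_R2 M q hqM A hA).O.mul_mem _ _ m2 m4'⟩,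
        ?_⟩, key1, key2⟩,
    ⟨(h60_phi M q (IsLocalRing.ResidueField A) c * c',
      c * h60_phi M q (IsLocalRing.ResidueField A) c'),
      ⟨heckeBetaBar Qb M q b * heckeAlphaBar Qb M q b', ?_,
        ⟨(h60_R1 M q hqM A hA).O.mul_mem _ _ m3 m1', (h60_R2 M q hqM A hA).O.mul_mem _ _ m4 m2'⟩,
        ?_⟩, key2, key1⟩⟩
  · refine h31_mem_rr_two Pinf P0 (n + 1) _ (fun P hP1 hP2 => ?_) ?_ ?_
    · rw [Place.ord_mul _ hα0 hβ0']
      exact add_nonneg (h10_polar_alpha hwα hq hqM hPM hPinf hP0 b hbreg P hP1 hP2)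
        (h10_polar_beta hwα hq hqM hww hPM hPinf hP0 b' hbreg' P hP1 hP2)
    · rw [Place.ord_mul _ hα0 hβ0', h10_ord_alpha hPinf b, h10_ord_beta hPinf b', hbord, hbord',
        hn1]
      linarith
    · rw [Place.ord_mul _ hα0 hβ0', h10_ord0_alpha hwα hP0 b, h10_ord0_beta hwβ hP0 b', hbord,
        hbord', hn1]
      linarith
  · rw [h87_D_redF M q hqM A hA ((h60_R1 M q hqM A hA).O.mul_mem _ _ m1 m3')
        ((h60_R2 M q hqM A hA).O.mul_mem _ _ m2 m4'),
      h39_redF_mul (h60_R1 M q hqM A hA) m1 m3', h39_redF_mul (h60_R2 M q hqM A hA) m2 m4',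
      e1, e3', e4, e2']
  · refine h31_mem_rr_two Pinf P0 (n + 1) _ (fun P hP1 hP2 => ?_) ?_ ?_
    · rw [Place.ord_mul _ hβ0 hα0']
      exact add_nonneg (h10_polar_beta hwα hq hqM hww hPM hPinf hP0 b hbreg P hP1 hP2)
        (h10_polar_alpha hwα hq hqM hPM hPinf hP0 b' hbreg' P hP1 hP2)
    · rw [Place.ord_mul _ hβ0 hα0', h10_ord_beta hPinf b, h10_ord_alpha hPinf b', hbord, hbord',
        hn1]
      linarith
    · rw [Place.ord_mul _ hβ0 hα0', h10_ord0_beta hwβ hP0 b, h10_ord0_alpha hwα hP0 b', hbord,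
        hbord', hn1]
      linarith
  · rw [h87_D_redF M q hqM A hA ((h60_R1 M q hqM A hA).O.mul_mem _ _ m3 m1')
        ((h60_R2 M q hqM A hA).O.mul_mem _ _ m4 m2'),
      h39_redF_mul (h60_R1 M q hqM A hA) m3 m1', h39_redF_mul (h60_R2 M q hqM A hA) m4 m2',
      e3, e1', e2, e4']

/-- **(LEAD)** `hlead₁ ∧ hlead₂` of `h16_node_chart` / `h51_G_of_frob` / `h87_chartProp_of_rows`
for `D := h87_D M q hqM A hA`, `D0 := (Pinf) + (P0)`, `Qinf := h11_placeInftyC k M`, with one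
threshold `n₁`. -/
theorem h31_lead (hch : 5 ≤ q ∨ 2 ∣ M ∨ 3 ∣ M)
    {Pinf P0 : Place Qb ↥(modularFunctionFieldBar (M * q))}
    (hPinf : h10_IsCusp (modularFunctionFieldBar (M * q)) Pinf)
    (hP0 : h10_IsCusp0 M q (h60_w M q hqM) P0) :
    ∃ n₁ : ℕ,
      (∀ n, n₁ ≤ n → ∃ x ∈ h51_Rd (h87_D M q hqM A hA)
          ((n + 1) • (Finsupp.single Pinf (1 : ℤ) + Finsupp.single P0 (1 : ℤ))),
        x.1 ∉ h16_Linf (h11_placeInftyC (IsLocalRing.ResidueField A) M) n ∧
        x.2 ∈ h16_Linf (h11_placeInftyC (IsLocalRing.ResidueField A) M) n) ∧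
      (∀ n, n₁ ≤ n → ∃ y ∈ h51_Rd (h87_D M q hqM A hA)
          ((n + 1) • (Finsupp.single Pinf (1 : ℤ) + Finsupp.single P0 (1 : ℤ))),
        y.1 ∈ h16_Linf (h11_placeInftyC (IsLocalRing.ResidueField A) M) n ∧
        y.2 ∉ h16_Linf (h11_placeInftyC (IsLocalRing.ResidueField A) M) n) := by
  have hq : q.Prime := Fact.out
  obtain ⟨ν₀, hν₀⟩ := h31_cusp_fn M q hqM A hA hch
  have key : ∀ n, ν₀ + q * (ν₀ + q) ≤ n →
      (∃ x ∈ h51_Rd (h87_D M q hqM A hA)
          ((n + 1) • (Finsupp.single Pinf (1 : ℤ) + Finsupp.single P0 (1 : ℤ))),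
        x.1 ∉ h16_Linf (h11_placeInftyC (IsLocalRing.ResidueField A) M) n ∧
        x.2 ∈ h16_Linf (h11_placeInftyC (IsLocalRing.ResidueField A) M) n) ∧
      (∃ y ∈ h51_Rd (h87_D M q hqM A hA)
          ((n + 1) • (Finsupp.single Pinf (1 : ℤ) + Finsupp.single P0 (1 : ℤ))),
        y.1 ∈ h16_Linf (h11_placeInftyC (IsLocalRing.ResidueField A) M) n ∧
        y.2 ∉ h16_Linf (h11_placeInftyC (IsLocalRing.ResidueField A) M) n) := by
    intro n hn
    obtain ⟨ν, ν', hν, hν', h1, h2⟩ := h31_lead_arith q ν₀ n hq.two_le hn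
    obtain ⟨b, hbO, hb0, hbord, hbreg, hr0, hrord, hrreg⟩ := hν₀ ν hν
    obtain ⟨b', hbO', hb0', hbord', hbreg', hr0', hrord', hrreg'⟩ := hν₀ ν' hν'
    exact h31_lead_pair M q hqM A hA hPinf hP0 b b' ν ν' n hbO hb0 hbord hbreg hr0 hrord hrreg
      hbO' hb0' hbord' hbreg' hr0' hrord' hrreg' h1 h2
  exact ⟨ν₀ + q * (ν₀ + q), fun n hn => (key n hn).1, fun n hn => (key n hn).2⟩

end Lead

end Fermat.Agent.S34

end
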