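import Mathlib
import Fermat.Agent.S34.h11_CuspLift
import Fermat.Agent.S34.h84_FrobMod
import Fermat.Agent.S27.h6w_Sep

/-!
# S34, (y-CHART) (helper31)

`h31_ychart` : at a level carrying a chart (`5 ≤ q ∨ 2 ∣ M ∨ 3 ∣ M`) the reduced function field
`Fb(M)` in characteristic `q ∤ M` has a chart `y` (a separating transcendental function) whose
only pole is the cusp `Qinf = h11_placeInftyC k M`: `y` is the reduction of a cusp function
`b_ν` of pole order `ν` prime to `q`.
-/

set_option autoImplicit false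
set_option synthInstance.maxHeartbeats 400000

noncomputable section

open AlgebraicCurve ModularCurve IntermediateField

namespace Fermat.Agent.S34

open Fermat.Agent.S18 Fermat.Agent.S24 Fermat.Agent.S27

local notation "Qb" => AlgebraicClosure ℚ

set_option maxHeartbeats 1000000 in
/-- **(y-CHART)** a chart of the reduced field whose only pole is the cusp. -/
theorem h31_ychart (M q : ℕ) [NeZero M] [NeZero q] [Fact q.Prime] (hqM : ¬ q ∣ M)
    (A : ValuationSubring Qb) (hA : A.LiesOverPrime q) (hch : 5 ≤ q ∨ 2 ∣ M ∨ 3 ∣ M) :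
    ∃ y : ↥(modularFunctionFieldFullC (IsLocalRing.ResidueField A) M),
      h75_IsChart (IsLocalRing.ResidueField A) y ∧
      ∀ Q : Place (IsLocalRing.ResidueField A)
          ↥(modularFunctionFieldFullC (IsLocalRing.ResidueField A) M),
        y ∈ Q.toValuationSubring ↔ Q ≠ h11_placeInftyC (IsLocalRing.ResidueField A) M := by
  classical
  have hq : q.Prime := Fact.out
  have hk : IsAlgClosed (IsLocalRing.ResidueField A) := h19_residueField_isAlgClosed A
  have hc : CharP (IsLocalRing.ResidueField A) q := h19_residueField_charP A q hA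
  have hR := h39_modRed_spec M hqM A hA
  obtain ⟨ν₀, hν₀⟩ := h11_exists_cusp_fn M hqM A hA hch
  -- a pole order `ν ≥ max ν₀ 1` prime to `q`
  obtain ⟨ν, hνν₀, hν1, hνq⟩ : ∃ ν : ℕ, ν₀ ≤ ν ∧ 1 ≤ ν ∧ ¬ q ∣ ν := by
    by_cases h : q ∣ max ν₀ 1
    · refine ⟨max ν₀ 1 + 1, (le_max_left _ _).trans (Nat.le_succ _), Nat.succ_le_succ (Nat.zero_le _),
        fun h' => ?_⟩
      have h1 : q ∣ 1 := (Nat.dvd_add_right h).mp h'
      exact hq.one_lt.ne' (Nat.dvd_one.mp h1)
    · exact ⟨max ν₀ 1, le_max_left _ _, le_max_right _ _, h⟩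
  obtain ⟨b, ys, hbs, hord, hunit, -, hredreg⟩ := hν₀ ν hνν₀
  set y := (h39_modRed M hqM A hA).redF b with hy
  have hycoe : ((y : ↥(modularFunctionFieldFullC (IsLocalRing.ResidueField A) M)) :
      LaurentSeries (IsLocalRing.ResidueField A)) = coeffMap (IsLocalRing.residue A) ys :=
    hR.redF_of_integral b ys hbs
  have hcoeff : (coeffMap (IsLocalRing.residue A) ys).coeff (-(ν : ℤ)) ≠ 0 := by
    rw [coeffMap_coeff]
    intro h0
    exact ((IsLocalRing.residue_eq_zero_iff _).1 h0) hunit
  have hyne : coeffMap (IsLocalRing.residue A) ys ≠ 0 := by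
    intro h0
    rw [h0] at hcoeff
    exact hcoeff rfl
  have hyord : (coeffMap (IsLocalRing.residue A) ys).order = -(ν : ℤ) := by
    apply le_antisymm
    · exact HahnSeries.order_le_of_coeff_ne_zero hcoeff
    · by_contra hlt
      push Not at hlt
      apply hyne
      apply HahnSeries.coeff_order_eq_zero.1
      rw [coeffMap_coeff, HahnSeries.coeff_eq_zero_of_lt_order (by rw [hord]; exact hlt),
        map_zero]
  have hy0 : y ≠ 0 := by
    intro h0
    apply hyne
    rw [← hycoe, h0]
    rfl
  have hQy : (h11_placeInftyC (IsLocalRing.ResidueField A) M).ord y = -(ν : ℤ) := by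
    rw [h11_placeInftyC_ord _ M hy0, hycoe, hyord]
  have hν1' : (1 : ℤ) ≤ (ν : ℤ) := by exact_mod_cast hν1
  refine ⟨y, ?_, fun Q => ⟨?_, fun hQ => hredreg Q hQ⟩⟩
  · -- `y` is not a `q`-th power
    have hcF : CharP ↥(modularFunctionFieldFullC (IsLocalRing.ResidueField A) M) q :=
      charP_of_injective_algebraMap
        (algebraMap (IsLocalRing.ResidueField A)
          ↥(modularFunctionFieldFullC (IsLocalRing.ResidueField A) M)).injective q
    have he : ExpChar ↥(modularFunctionFieldFullC (IsLocalRing.ResidueField A) M) q :=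
      ExpChar.prime hq
    refine h34_isChart_of_not_mem q hq (h84_isChart_jk M q hqM A hA) y ?_
    rw [h34_mem_pthPowers]
    rintro ⟨g, hg⟩
    have h1 : (h11_placeInftyC (IsLocalRing.ResidueField A) M).ord (g ^ q)
        = (q : ℤ) * (h11_placeInftyC (IsLocalRing.ResidueField A) M).ord g := by
      rw [← zpow_natCast, Place.ord_zpow]
    rw [hg, hQy] at h1
    apply hνq
    have h2 : (q : ℤ) ∣ (ν : ℤ) :=
      ⟨-(h11_placeInftyC (IsLocalRing.ResidueField A) M).ord g, by linarith⟩
    exact_mod_cast h2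
  · rintro hmem rfl
    have := (h35_mem_iff_ord_nonneg _ hy0).1 hmem
    rw [hQy] at this
    linarith

/-- **(y-CHART)**, for any place `Qinf` which is the cusp (`h10_IsCusp`). -/
theorem h31_ychart_cusp (M q : ℕ) [NeZero M] [NeZero q] [Fact q.Prime] (hqM : ¬ q ∣ M)
    (A : ValuationSubring Qb) (hA : A.LiesOverPrime q) (hch : 5 ≤ q ∨ 2 ∣ M ∨ 3 ∣ M)
    {Qinf : Place (IsLocalRing.ResidueField A)
      ↥(modularFunctionFieldFullC (IsLocalRing.ResidueField A) M)}
    (hQ : h10_IsCusp (modularFunctionFieldFullC (IsLocalRing.ResidueField A) M) Qinf) :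
    ∃ y : ↥(modularFunctionFieldFullC (IsLocalRing.ResidueField A) M),
      h75_IsChart (IsLocalRing.ResidueField A) y ∧
      ∀ Q : Place (IsLocalRing.ResidueField A)
          ↥(modularFunctionFieldFullC (IsLocalRing.ResidueField A) M),
        y ∈ Q.toValuationSubring ↔ Q ≠ Qinf := by
  have h : Qinf = h11_placeInftyC (IsLocalRing.ResidueField A) M :=
    hQ.unique (fun _ hf => h11_placeInftyC_ord _ M hf)
  rw [h]
  exact h31_ychart M q hqM A hA hch

end Fermat.Agent.S34

end
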