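import Mathlib
import Fermat.Agent.S34.h22_LatMqFinal
import Fermat.Agent.S34.h87_TopMq
import Fermat.Agent.S18.h54_ModLevel

/-!
# S34 / row LAT: bridge to `h87_D` (helper22)

`h87_D M q hqM A hA` (helper87, `h87_TopMq.lean`) and `h22_DMq M q hqM A hA`
(`h22_LatMqFinal.lean`) are the same lattice datum; this file states the LAT facts for `h87_D`:

* `h22_on_h87_D : h22_ON (h87_D M q hqM A hA)` (**[G1]**, the input `hON` of `h51_G_of_sf`);
* `h22_rankOne_h87_D`, `h22_ker_h87_D`, `h22_h87_D_red`;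
* `h22_isChart_alpha_j`, `h22_isChart_jMq` : charts of `F(Mq)` over `ℚ̄` (the input `hxF`).
-/

set_option autoImplicit false
set_option synthInstance.maxHeartbeats 400000

noncomputable section

open ModularCurve AlgebraicCurve IntermediateField Polynomial Module
open Fermat.Agent.S18 Fermat.Agent.S37 Fermat.Agent.S24

namespace Fermat.Agent.S34

local notation "Qb" => AlgebraicClosure ℚ

section Bridge

variable (M q : ℕ) [NeZero M] [NeZero q] [Fact q.Prime] (hqM : ¬ q ∣ M)
  (A : ValuationSubring Qb) (hA : A.LiesOverPrime q)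

theorem h22_h87_D_eq : h87_D M q hqM A hA = h22_DMq M q hqM A hA := rfl

/-- **[G1] for `h87_D`** (closed form of `hON`). -/
theorem h22_on_h87_D : h22_ON (h87_D M q hqM A hA) :=
  h22_DMq_on M q hqM A hA

/-- rank one of the constants of `h87_D`. -/
theorem h22_rankOne_h87_D : h39_RankOne (h87_D M q hqM A hA).A :=
  h64_rankOne_h39 (Fact.out : q.Prime) A hA

theorem h22_h87_D_red (f : ↥(modularFunctionFieldBar (M * q)))
    (hf : f ∈ (h87_D M q hqM A hA).O) :
    (h87_D M q hqM A hA).red ⟨f, hf⟩ =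
      ((h60_R1 M q hqM A hA).redF f, (h60_R2 M q hqM A hA).redF f) :=
  h22_DMq_red M q hqM A hA f hf

theorem h22_ker_h87_D (f : ↥(modularFunctionFieldBar (M * q)))
    (hf₁ : f ∈ (h60_R1 M q hqM A hA).O) (hf₂ : f ∈ (h60_R2 M q hqM A hA).O)
    (h1 : (h60_R1 M q hqM A hA).redF f = 0) (h2 : (h60_R2 M q hqM A hA).redF f = 0) :
    ∃ a : Qb, a ∈ A.nonunits ∧ ∃ g : ↥(modularFunctionFieldBar (M * q)),
      (g ∈ (h60_R1 M q hqM A hA).O ∧ g ∈ (h60_R2 M q hqM A hA).O) ∧
        f = algebraMap Qb ↥(modularFunctionFieldBar (M * q)) a * g :=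
  h22_DMq_ker M q hqM A hA f hf₁ hf₂ h1 h2

end Bridge

section Charts

variable (M q : ℕ) [NeZero M] [NeZero q]

/-- `j` (at level `Mq`) is a chart of `F(Mq)` over `ℚ̄`. -/
theorem h22_isChart_jMq : h75_IsChart Qb (h59_jbar (M * q)) :=
  h54_isChart_jbar (M * q)

end Charts

end Fermat.Agent.S34
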