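import Fermat.Agent.S34.h84_FrobMod
import Fermat.Agent.S34.h10_XMod
import Fermat.Agent.S27.h6w_Sep
import Fermat.Agent.S18.h19_ResField

/-!
# S34 (helper84): the row (y-CHART)

`q` a prime not dividing `M` (with `5 ≤ q ∨ 2 ∣ M ∨ 3 ∣ M`), `A` a valuation ring of `ℚ̄` over
`q`, `k` its residue field, `Fb = modularFunctionFieldFullC k M`, `Qinf` the cusp of `Fb`.

* `h84_not_pthPower_of_ord` : a function whose order at some place is prime to `p` is not a
  `p`-th power;
* `h84_yChart_of_pole` (generic): in characteristic `p`, a function whose only pole is `Qinf`, of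
  order prime to `p`, is a chart, and its domain of regularity is the complement of `Qinf`;
* `h84_exists_yChart_cusp` : the modular instance with all the data (`y = red b_ν`, `q ∤ ν`,
  `ν` as large as wanted);
* `h84_exists_yChart` : **(y-CHART)** `∃ y, h75_IsChart k y ∧ ∀ Q', y ∈ Q' ↔ Q' ≠ Qinf`
  for `Qinf = h11_placeInftyC k M` (the binder shapes `hy`, `hpole` of `h51_G_of_frob`).
-/

set_option autoImplicit false
set_option synthInstance.maxHeartbeats 400000

noncomputable section

open ModularCurve AlgebraicCurve IntermediateField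

namespace Fermat.Agent.S34

open Fermat.Agent.S18 Fermat.Agent.S37 Fermat.Agent.S24 Fermat.Agent.S27

local notation "Qb" => AlgebraicClosure ℚ

section Generic

variable {K F : Type*} [Field K] [Field F] [Algebra K F]

/-- a function whose order at some place is prime to `p` is not a `p`-th power. -/
theorem h84_not_pthPower_of_ord (p : ℕ) [ExpChar F p] (Q : Place K F) (u : F)
    (hord : ¬ (p : ℤ) ∣ Q.ord u) : u ∉ h34_pthPowers F p := by
  intro hmem
  obtain ⟨g, hg⟩ := (h34_mem_pthPowers p u).mp hmem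
  have h2 : Q.ord (g ^ (p : ℤ)) = (p : ℤ) * Q.ord g := Q.ord_zpow g p
  rw [zpow_natCast, hg] at h2
  exact hord ⟨Q.ord g, h2⟩

variable [IsAlgClosed K]

/-- **(y-CHART), generic.**  In characteristic `p`, a function whose only pole is `Qinf`, of
order prime to `p`, is a chart whose domain of regularity is the complement of `Qinf`. -/
theorem h84_yChart_of_pole (p : ℕ) (hp : p.Prime) [ExpChar F p] {x' : F}
    (hx' : h75_IsChart K x') (Qinf : Place K F) (y : F) (hy0 : y ≠ 0) (ν : ℕ) (hν : ¬ p ∣ ν)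
    (hord : Qinf.ord y = -(ν : ℤ)) (hreg : ∀ Q : Place K F, Q ≠ Qinf → 0 ≤ Q.ord y) :
    h75_IsChart K y ∧ ∀ Q : Place K F, y ∈ Q.toValuationSubring ↔ Q ≠ Qinf := by
  refine ⟨h34_isChart_of_not_mem p hp hx' y (h84_not_pthPower_of_ord p Qinf y ?_), fun Q => ?_⟩
  · rw [hord, dvd_neg]
    exact_mod_cast hν
  · rw [h35_mem_iff_ord_nonneg Q hy0]
    constructor
    · rintro h rfl
      rw [hord] at h
      have hν0 : ν ≠ 0 := by rintro rfl; exact hν (dvd_zero p)
      have : (0 : ℤ) < ν := by exact_mod_cast Nat.pos_of_ne_zero hν0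
      omega
    · exact hreg Q

end Generic

section Mod

variable (M q : ℕ) [NeZero M] [Fact q.Prime] (hqM : ¬ q ∣ M)
  (A : ValuationSubring Qb) (hA : A.LiesOverPrime q)

/-- **(y-CHART) with all the data**: for every bound `ν₁` there are `ν ≥ ν₁` prime to `q` and a
level-`M` function `b` in the valuation ring, regular off the cusp, of `q`-order `-ν`, whose
reduction `y` is a chart of the special fibre with a pole of exact order `ν` at the cusp `Qinf`
and no other pole. -/
theorem h84_exists_yChart_cusp (hch : 5 ≤ q ∨ 2 ∣ M ∨ 3 ∣ M)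
    {Qinf : Place (IsLocalRing.ResidueField A)
      ↥(modularFunctionFieldFullC (IsLocalRing.ResidueField A) M)}
    (hQ : h10_IsCusp (modularFunctionFieldFullC (IsLocalRing.ResidueField A) M) Qinf)
    (ν₁ : ℕ) :
    ∃ (ν : ℕ) (b : ↥(modularFunctionFieldBar M)) (hb : b ∈ (h39_modRed M hqM A hA).O),
      ν₁ ≤ ν ∧ ¬ q ∣ ν ∧ (b : LaurentSeries Qb).order = -(ν : ℤ) ∧
      (∀ P : Place Qb ↥(modularFunctionFieldBar M), P ≠ h11_placeInfty M → 0 ≤ P.ord b) ∧
      (h39_modRed M hqM A hA).red ⟨b, hb⟩ ≠ 0 ∧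
      h75_IsChart (IsLocalRing.ResidueField A) ((h39_modRed M hqM A hA).red ⟨b, hb⟩) ∧
      Qinf.ord ((h39_modRed M hqM A hA).red ⟨b, hb⟩) = -(ν : ℤ) ∧
      ∀ Q' : Place (IsLocalRing.ResidueField A)
          ↥(modularFunctionFieldFullC (IsLocalRing.ResidueField A) M),
        (h39_modRed M hqM A hA).red ⟨b, hb⟩ ∈ Q'.toValuationSubring ↔ Q' ≠ Qinf := by
  have hq : q.Prime := Fact.out
  haveI : IsAlgClosed (IsLocalRing.ResidueField A) := h19_residueField_isAlgClosed A
  haveI : CharP (IsLocalRing.ResidueField A) q := h19_residueField_charP A q hA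
  haveI : CharP ↥(modularFunctionFieldFullC (IsLocalRing.ResidueField A) M) q :=
    charP_of_injective_algebraMap (algebraMap (IsLocalRing.ResidueField A)
      ↥(modularFunctionFieldFullC (IsLocalRing.ResidueField A) M)).injective q
  haveI : ExpChar ↥(modularFunctionFieldFullC (IsLocalRing.ResidueField A) M) q :=
    ExpChar.prime hq
  have hPM : h10_IsCusp (modularFunctionFieldBar M) (h11_placeInfty M) :=
    fun f hf => h11_placeInfty_ord M hf
  obtain ⟨ν₀, h⟩ := h10_exists_b M hqM A hA hch hPM hQ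
  set ν : ℕ := q * max ν₀ ν₁ + 1 with hνdef
  have hq1 : 1 ≤ q := hq.one_le
  have hmul : max ν₀ ν₁ ≤ q * max ν₀ ν₁ := Nat.le_mul_of_pos_left _ hq.pos
  have hν0 : ν₀ ≤ ν := by have := le_max_left ν₀ ν₁; omega
  have hν1 : ν₁ ≤ ν := by have := le_max_right ν₀ ν₁; omega
  have hqν : ¬ q ∣ ν := by
    intro hdvd
    have h1 : q ∣ 1 := (Nat.dvd_add_right (dvd_mul_right q (max ν₀ ν₁))).mp hdvd
    exact hq.one_lt.ne' (Nat.dvd_one.mp h1)
  obtain ⟨b, hb, -, -, hbord, hbreg, -, hrne, hrord, hrreg⟩ := h ν hν0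
  have hx' := h84_isChart_jk M q hqM A hA
  obtain ⟨hy, hpole⟩ := h84_yChart_of_pole q hq hx' Qinf
    ((h39_modRed M hqM A hA).red ⟨b, hb⟩) hrne ν hqν hrord hrreg
  exact ⟨ν, b, hb, hν1, hqν, hbord, hbreg, hrne, hy, hrord, hpole⟩

include hqM hA in
/-- **(y-CHART)** in the binder shapes `hy`, `hpole` of `h51_G_of_frob` / `h98_frob_nodes_off`,
for `Qinf = h11_placeInftyC k M`. -/
theorem h84_exists_yChart (hch : 5 ≤ q ∨ 2 ∣ M ∨ 3 ∣ M) :
    ∃ y : ↥(modularFunctionFieldFullC (IsLocalRing.ResidueField A) M),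
      h75_IsChart (IsLocalRing.ResidueField A) y ∧
      ∀ Q' : Place (IsLocalRing.ResidueField A)
          ↥(modularFunctionFieldFullC (IsLocalRing.ResidueField A) M),
        y ∈ Q'.toValuationSubring ↔ Q' ≠ h11_placeInftyC (IsLocalRing.ResidueField A) M := by
  obtain ⟨ν, b, hb, -, -, -, -, -, hy, -, hpole⟩ :=
    h84_exists_yChart_cusp M q hqM A hA hch
      (Qinf := h11_placeInftyC (IsLocalRing.ResidueField A) M) h84_isCusp_placeInftyC 0
  exact ⟨_, hy, hpole⟩

end Mod

end Fermat.Agent.S34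

end
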