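import Mathlib
import Fermat.Agent.S34.h87_Top
import Fermat.Agent.S34.h20_ChartNode
import Fermat.Agent.S34.h42_LastFinal

/-!
# S34 row TOP / CHART-INSTANCE, generic half: the chart package from the rows

`h87_chartProp_of_rows` : for a lattice datum `D : h22_Lat K F k (Fb × Fb)` over function fields
`F / K`, `Fb / k` with charts (`K`, `k` algebraically closed), the chart package
`h87_ChartProp D m G` of `h51_G_of_last` follows from the ROWS, each in the shape its owner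
announced:

* (LAT)   `hON`, `hinv`, `hrank`;
* (CUSP)  `D0 ≥ 0` of degree `2`, a place `Qinf` of `Fb`, `g' • D0 = D0` for `g' ∈ G`;
* (INT)   `hreg`  : `red (L(n D0) ∩ O) ⊆ L(n Qinf) × L(n Qinf)`;
* (LEAD)  `hlead₁`, `hlead₂` (helper16's shapes);
* (NODE)  `hunion` : the ring `⋃ₙ red (L(n D0) ∩ O)` is cut out in `⋃ₙ L(n Qinf) × L(n Qinf)` by
  the node conditions `a.1(Φ Q) = a.2(Q)`, `Q ∈ Sg` (`Φ` injective, `Q, Φ Q ≠ Qinf`);
* (X-MOD) a unit `x` of `O` with `div x = E2 - c • D0`, `E2 ≥ 0` disjoint from `D0`, whose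
  reduction has exact pole order `c` at `Qinf` in both coordinates;
* `m` invertible in `k`.

Everything is generic; the proof is the composition of `h16_node_chart` (SAT + NODE),
`h20_chart_hnode`, `h20_chart_hind_nodes`, `h20_chart_root`, `h20_chart_rr`, `h20_chart_hPx`,
`h20_chart_hdim`, `h51_strict_of_chart` and `h42_last_of_L`.
-/

set_option autoImplicit false

noncomputable section

open AlgebraicCurve Module
open Fermat.Agent.S18 Fermat.Agent.S24 Fermat.Agent.S27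

namespace Fermat.Agent.S34

/-- **The chart package from the rows** (generic). -/
theorem h87_chartProp_of_rows {K F k Fb : Type} [Field K] [Field F] [Algebra K F] [Field k]
    [Field Fb] [Algebra k Fb] [IsAlgClosed K] [IsAlgClosed k]
    {xF : F} (hxF : h75_IsChart K xF) {xb : Fb} (hxb : h75_IsChart k xb)
    (D : h22_Lat K F k (Fb × Fb)) (hON : h22_ON D)
    (hinv : ∀ (f : F) (hf : f ∈ D.O), IsUnit (D.red ⟨f, hf⟩) → f⁻¹ ∈ D.O)
    (hrank : h39_RankOne D.A)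
    (D0 : Divisor K F) (hD0 : 0 ≤ D0) (hdeg : Divisor.degree D0 = 2) (Qinf : Place k Fb)
    (hreg : ∀ n, ∀ a ∈ h51_Rd D (n • D0), a.1 ∈ h16_Linf Qinf n ∧ a.2 ∈ h16_Linf Qinf n)
    (n₁ : ℕ)
    (hlead₁ : ∀ n, n₁ ≤ n → ∃ x ∈ h51_Rd D ((n + 1) • D0),
      x.1 ∉ h16_Linf Qinf n ∧ x.2 ∈ h16_Linf Qinf n)
    (hlead₂ : ∀ n, n₁ ≤ n → ∃ y ∈ h51_Rd D ((n + 1) • D0),
      y.1 ∈ h16_Linf Qinf n ∧ y.2 ∉ h16_Linf Qinf n)
    (Sg : Finset (Place k Fb)) (Φ : Place k Fb → Place k Fb) (hΦ : Function.Injective Φ)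
    (hSg : ∀ Q ∈ Sg, Q ≠ Qinf ∧ Φ Q ≠ Qinf)
    (hunion : ∀ a : Fb × Fb, (∃ n : ℕ, a ∈ h51_Rd D (n • D0)) ↔
      (∃ n : ℕ, a.1 ∈ h16_Linf Qinf n ∧ a.2 ∈ h16_Linf Qinf n) ∧
        ∀ Q ∈ Sg, ∃ c : k, h39_Val (Φ Q) a.1 c ∧ h39_Val Q a.2 c)
    (c : ℕ) (hc : 0 < c) (x : F) (hx0 : x ≠ 0) (hxO : x ∈ D.O) (hxi : x⁻¹ ∈ D.O)
    (E2 : Divisor K F) (hE2 : ∀ v, 0 ≤ E2 v) (hdisj : ∀ v, (c • D0) v = 0 ∨ E2 v = 0)
    (hdivx : ∀ v : Place K F, v.ord x = E2 v - (c • D0) v)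
    (hx1 : (D.redF x).1 ≠ 0) (hx2 : (D.redF x).2 ≠ 0)
    (ho1 : Qinf.ord (D.redF x).1 = -(c : ℤ)) (ho2 : Qinf.ord (D.redF x).2 = -(c : ℤ))
    (m : ℕ) (hm : (m : k) ≠ 0)
    (G : Set (SemilinearAut K F)) (hG : ∀ g' ∈ G, g' • D0 = D0) :
    h87_ChartProp D m G := by
  classical
  have hm0 : m ≠ 0 := by
    rintro rfl
    exact hm Nat.cast_zero
  have hD0v : ∀ v, 0 ≤ D0 v := fun v => hD0 v
  have hdeg1 : 1 ≤ Divisor.degree D0 := by rw [hdeg]; norm_num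
  -- the threshold
  set gF := h75_genus K xF with hgF
  set gb := h75_genus k xb with hgb
  set n0 : ℕ := n₁ + 2 * gF + 2 * gb + Sg.card with hn0
  -- (NODE) in place language at every level `n ≥ n0`
  have hnodeP : ∀ n, n0 ≤ n → ∀ a : Fb × Fb, a ∈ h51_Rd D (n • D0) ↔
      (a.1 ∈ h16_Linf Qinf n ∧ a.2 ∈ h16_Linf Qinf n) ∧
        ∀ Q ∈ Sg, ∃ c : k, h39_Val (Φ Q) a.1 c ∧ h39_Val Q a.2 c := by
    intro n hn a
    exact h16_node_chart hxF hxb D hON D0 hD0 hdeg Qinf hreg n₁ hlead₁ hlead₂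
      (fun a => ∀ Q ∈ Sg, ∃ c : k, h39_Val (Φ Q) a.1 c ∧ h39_Val Q a.2 c) hunion n
      (by rw [max_le_iff]; constructor <;> omega) a
  have hnode := h20_chart_hnode hxb Qinf Sg Φ hSg D D0 n0 hnodeP
  have hind : ∀ n, n0 ≤ n → ∀ s t : {Q // Q ∈ Sg} → k, ∃ a,
      ∃ h : a ∈ h20_P Qinf n,
        (∀ ν, h20_e1 hxb Qinf (h20_nodeQ1 Sg Φ) (h20_nodeQ1_ne Qinf Sg Φ hSg) ν
          ⟨a, h20_P_le_Bs Qinf n a h⟩ = s ν) ∧
        (∀ ν, h20_e2 hxb Qinf (h20_nodeQ2 Sg) (h20_nodeQ2_ne Qinf Sg Φ hSg) ν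
          ⟨a, h20_P_le_Bs Qinf n a h⟩ = t ν) := by
    intro n hn
    exact h20_chart_hind_nodes hxb Qinf Sg Φ hSg hΦ n (by omega)
  have hroot := h20_chart_root Qinf hm0
  have hRR := h20_chart_rr hxF D0 hdeg1 n0 (by omega)
  -- the last step along `c • D0`
  have hE1 : ∀ v, 0 ≤ (c • D0) v := by
    intro v
    rw [Finsupp.smul_apply, nsmul_eq_mul]
    exact mul_nonneg (Nat.cast_nonneg c) (hD0v v)
  have hxL : x ∈ riemannRochSpace (c • D0) := by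
    rw [mem_riemannRochSpace_iff]
    intro v
    right
    rw [hdivx v]
    have := hE2 v
    linarith
  have hfin : ∀ D' : Divisor K F, FiniteDimensional K (riemannRochSpace D') :=
    h20_chart_hfin hxF
  have hPx := h20_chart_hPx Qinf c (D.redF x) hx1 hx2 ho1 ho2
  have hdim := h20_chart_hdim hxF D0 hdeg1 c hc
  have hstrict : ∀ n, 2 * n0 + 1 ≤ n → ∀ a ∈ h51_Rd D ((n + 1) • (c • D0)),
      ∃ b ∈ h51_Rd D (n • (c • D0)), ∃ c' ∈ h51_Rd D (n • (c • D0)),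
        a = b + D.redF x * c' := by
    intro n hn
    exact h51_strict_of_chart D hON D0 hD0v (h20_P Qinf) (h20_Bs Qinf) (h20_P_le_Bs Qinf)
      (h20_e1 hxb Qinf (h20_nodeQ1 Sg Φ) (h20_nodeQ1_ne Qinf Sg Φ hSg))
      (h20_e2 hxb Qinf (h20_nodeQ2 Sg) (h20_nodeQ2_ne Qinf Sg Φ hSg)) n0 hnode c hc x hxO hxL
      hPx (fun n => hfin _) ((c : ℤ) * Divisor.degree D0) (1 - (gF : ℤ)) (2 * gF) hdim n
      (by omega) (by omega)
  have hlast : h51_LastStep D (c • D0) (2 * n0 + 1) m :=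
    h42_last_of_L D hON hinv hrank hfin x hx0 hxO hxi (c • D0) E2 hE1 hE2 hdisj hdivx
      (2 * n0 + 1) hstrict m hm
  exact ⟨D0, h20_P Qinf, fun n => h20_P_finite hxb Qinf n, h20_Bs Qinf, h20_P_le_Bs Qinf,
    {Q // Q ∈ Sg}, inferInstance,
    h20_e1 hxb Qinf (h20_nodeQ1 Sg Φ) (h20_nodeQ1_ne Qinf Sg Φ hSg),
    h20_e2 hxb Qinf (h20_nodeQ2 Sg) (h20_nodeQ2_ne Qinf Sg Φ hSg), n0, c, 2 * n0 + 1,
    hnode, hind, hroot, hRR, hc, by omega, hlast, hG⟩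

end Fermat.Agent.S34

end
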