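import Mathlib
import Fermat.Agent.S34.h87_ChartRows
import Fermat.Agent.S34.h51_NodeAsm
import Fermat.Agent.S34.h10_XModInst
import Fermat.Agent.S34.h22_LatMqBridge
import Fermat.Agent.S34.h31_Lead
import Fermat.Agent.S34.h31_GraphInst
import Fermat.Agent.S34.h84_YChart
import Fermat.Agent.S34.h84_FrobMod
import Fermat.Agent.S34.h17_IntModInst

/-!
# S34: the chart instance for the canonical lattice `h87_D M q hqM A hA` (helper65)

`h65_chart_inst` : for a prime `q ∤ M` with `5 ≤ q ∨ 2 ∣ M ∨ 3 ∣ M`, a valuation ring `A` of `ℚ̄`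
over `q` and `m` prime to `q`, the lattice `h87_D M q hqM A hA` has an orthonormal frame and the
chart package `h87_ChartProp`.  This is the hypothesis `hchart` of `h87_geom_of_chart`.

Pure assembly of the rows: (LAT) `h22_on_h87_D`, `h87_D_hinv`, `h22_rankOne_h87_D`; (CUSP)
`h10_D0_nonneg`, `h10_D0_degree`, `h10_D0_inertia`; (INT) `h17_int_mod`; (LEAD) `h31_lead`;
(GRAPH) `h31_graph_D₁`, `h31_graph_D₂`; (FROB) `h84_isFrobChart_jk`, `h84_frobPerm_placeInftyC`;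
(y-CHART) `h84_exists_yChart`; (NODE) `h98_frob_nodes_off`; (X-MOD) `h10_xmod_inst`; and the
generic `h87_chartProp_of_rows`.
-/

set_option autoImplicit false
set_option synthInstance.maxHeartbeats 400000
set_option linter.style.haveILetI false

noncomputable section

open AlgebraicCurve ModularCurve Module
open Fermat.Agent.S18 Fermat.Agent.S24 Fermat.Agent.S27 Fermat.Agent.S37

namespace Fermat.Agent.S34

local notation "Qb" => AlgebraicClosure ℚ

/-- **The chart instance** for `h87_D M q hqM A hA`. -/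
theorem h65_chart_inst (M q : ℕ) [NeZero M] [NeZero q] [Fact q.Prime] (hqM : ¬ q ∣ M)
    (hch : 5 ≤ q ∨ 2 ∣ M ∨ 3 ∣ M) (A : ValuationSubring Qb) (hA : A.LiesOverPrime q)
    (m : ℕ) (hm : ¬ q ∣ m) :
    h22_ON (h87_D M q hqM A hA) ∧
      h87_ChartProp (h87_D M q hqM A hA) m (h87_inertiaSet (M * q) A) := by
  classical
  haveI : IsAlgClosed (IsLocalRing.ResidueField A) := h19_residueField_isAlgClosed A
  haveI : CharP (IsLocalRing.ResidueField A) q := h19_residueField_charP A q hA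
  have hq : q.Prime := Fact.out
  have hON := h22_on_h87_D M q hqM A hA
  refine ⟨hON, ?_⟩
  -- the two cusps of level `Mq` and the cusp of the special fibre
  obtain ⟨Pinf, hPinf⟩ := h10_exists_cusp (F := modularFunctionFieldBar (M * q))
    ⟨h59_jbar (M * q), h10_order_jbar (M * q)⟩
  obtain ⟨P0, hP0⟩ := h10_exists_cusp0 (h60_w M q hqM) (h60_w_alpha M q hqM)
    (h60_w_beta M q hqM)
  have hQ : h10_IsCusp (modularFunctionFieldFullC (IsLocalRing.ResidueField A) M)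
      (h11_placeInftyC (IsLocalRing.ResidueField A) M) := h84_isCusp_placeInftyC
  have hD0 : 0 ≤ (Finsupp.single Pinf (1 : ℤ) + Finsupp.single P0 (1 : ℤ) :
      Divisor Qb ↥(modularFunctionFieldBar (M * q))) := h10_D0_nonneg Pinf P0
  have hD0v : ∀ v, 0 ≤ (Finsupp.single Pinf (1 : ℤ) + Finsupp.single P0 (1 : ℤ) :
      Divisor Qb ↥(modularFunctionFieldBar (M * q))) v := fun v => hD0 v
  have hdeg1 : ∀ P : Place Qb (modularFunctionFieldBar (M * q)), P.deg = 1 :=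
    Fermat.Agent.S24.h73_deg_eq_one (Fermat.Agent.S37.h88_isFF (M * q))
  have hdeg : Divisor.degree (Finsupp.single Pinf (1 : ℤ) + Finsupp.single P0 (1 : ℤ) :
      Divisor Qb ↥(modularFunctionFieldBar (M * q))) = 2 := h10_D0_degree hdeg1 Pinf P0
  -- the rows
  have hreg := h17_int_mod M q hqM A hA hch hPinf hP0
  obtain ⟨n₁, hlead₁, hlead₂⟩ := h31_lead M q hqM A hA hch hPinf hP0
  have hB1 := h31_graph_D₁ M q hqM A hA hch hPinf hP0
  have hB2 := h31_graph_D₂ M q hqM A hA hch hPinf hP0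
  have hF := h84_isFrobChart_jk M q hqM A hA
  obtain ⟨y, hy, hpole⟩ := h84_exists_yChart M q hqM A hA hch
  have hfix := h84_frobPerm_placeInftyC hF
  -- (NODE): the ring `⋃ₙ red (L(n D0) ∩ O)` is cut out by node conditions
  have hBR : ∀ a ∈ h51_RdUnion (h87_D M q hqM A hA) _ hD0v,
      ∀ Q : Place (IsLocalRing.ResidueField A)
        ↥(modularFunctionFieldFullC (IsLocalRing.ResidueField A) M),
      Q ≠ h11_placeInftyC (IsLocalRing.ResidueField A) M →
        a.1 ∈ Q.toValuationSubring ∧ a.2 ∈ Q.toValuationSubring := by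
    rintro a ⟨n, ha⟩ Q hQ'
    obtain ⟨h1, h2⟩ := hreg n a ha
    exact ⟨(h51_reg_iff_Linf _ a.1).mpr ⟨n, h1⟩ Q hQ', (h51_reg_iff_Linf _ a.2).mpr ⟨n, h2⟩ Q hQ'⟩
  obtain ⟨Sg, hSg, hmem⟩ := h98_frob_nodes_off hF hy
    (h11_placeInftyC (IsLocalRing.ResidueField A) M) hpole hfix
    (h51_RdUnion (h87_D M q hqM A hA) _ hD0v) hBR hB1 hB2
  have hunion : ∀ a : ↥(modularFunctionFieldFullC (IsLocalRing.ResidueField A) M) ×
        ↥(modularFunctionFieldFullC (IsLocalRing.ResidueField A) M),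
      (∃ n : ℕ, a ∈ h51_Rd (h87_D M q hqM A hA)
        (n • (Finsupp.single Pinf (1 : ℤ) + Finsupp.single P0 (1 : ℤ)))) ↔
      (∃ n : ℕ, a.1 ∈ h16_Linf (h11_placeInftyC (IsLocalRing.ResidueField A) M) n ∧
          a.2 ∈ h16_Linf (h11_placeInftyC (IsLocalRing.ResidueField A) M) n) ∧
        ∀ Q ∈ Sg, ∃ c : IsLocalRing.ResidueField A,
          h39_Val (h96_frobPerm hF Q) a.1 c ∧ h39_Val Q a.2 c := by
    intro a
    rw [← h51_mem_RdUnion (h87_D M q hqM A hA) _ hD0v a, hmem a]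
    refine and_congr ?_ Iff.rfl
    constructor
    · intro hr
      obtain ⟨n1, h1⟩ := (h51_reg_iff_Linf _ a.1).mp (fun Q hQ' => (hr Q hQ').1)
      obtain ⟨n2, h2⟩ := (h51_reg_iff_Linf _ a.2).mp (fun Q hQ' => (hr Q hQ').2)
      exact ⟨max n1 n2, h16_Linf_mono _ (le_max_left n1 n2) h1,
        h16_Linf_mono _ (le_max_right n1 n2) h2⟩
    · rintro ⟨n, h1, h2⟩ Q hQ'
      exact ⟨(h51_reg_iff_Linf _ a.1).mpr ⟨n, h1⟩ Q hQ',
        (h51_reg_iff_Linf _ a.2).mpr ⟨n, h2⟩ Q hQ'⟩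
  -- (X-MOD): the chart unit
  obtain ⟨ν₀, hx⟩ := h10_xmod_inst M q hqM A hA hch hPinf hP0 hQ
  obtain ⟨x, E2, hx0, hxO, hxi, hE2, hdisj, hdivx, hx1, hx2, ho1, ho2⟩ :=
    hx (ν₀ + 1) (Nat.le_succ ν₀)
  have hc : 0 < (q + 1) * (ν₀ + 1) := Nat.mul_pos (Nat.succ_pos q) (Nat.succ_pos ν₀)
  have hmk : (m : IsLocalRing.ResidueField A) ≠ 0 := by
    intro h0
    exact hm ((CharP.cast_eq_zero_iff (IsLocalRing.ResidueField A) q m).mp h0)
  exact h87_chartProp_of_rows (h22_isChart_jMq M q) hy (h87_D M q hqM A hA) hON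
    (h87_D_hinv M q hqM A hA) (h22_rankOne_h87_D M q hqM A hA)
    (Finsupp.single Pinf (1 : ℤ) + Finsupp.single P0 (1 : ℤ)) hD0 hdeg
    (h11_placeInftyC (IsLocalRing.ResidueField A) M) hreg n₁ hlead₁ hlead₂ Sg
    (h96_frobPerm hF) (h96_frobPerm hF).injective
    (fun Q hQS => ⟨(hSg Q hQS).1, (hSg Q hQS).2.1⟩) hunion
    ((q + 1) * (ν₀ + 1)) hc x hx0 hxO hxi E2 hE2 hdisj hdivx hx1 hx2 ho1 ho2 m hmk
    (h87_inertiaSet (M * q) A) (h10_D0_inertia M q hqM A hPinf hP0)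

end Fermat.Agent.S34

end
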