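import Mathlib
import Fermat.Agent.S27.h44_UnramExt
import Fermat.Agent.S34.h44_ValApprox

/-!
# Split unramified extensions of a valuation ring (helper44)

`V` a valuation subring of `L` (rank one for the value-group clause), `F = L(y)` of degree `n`,
`Φ ∈ V[Y]` monic of degree `n` with `Φ(y) = 0`, and the reduction `Φ̄ = ∏ q i` a product of
pairwise coprime irreducible polynomials over the residue field `κ`.  Then `V` has exactly
`card ι` extensions `O i` to `F`; `O i` has residue field `κ[Y]/(q i)` and the value group of `V`;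
`⋂ O i = V[y]` and `1, y, …, y^(n-1)` is orthonormal for the sup-norm (`h44_splitExt`).

Also: two comparable valuation subrings of an algebraic extension with the same restriction to
`L` are equal (`h44_eq_of_le_of_algebraic`).
-/

set_option autoImplicit false

noncomputable section

namespace Fermat.Agent.S34

open Polynomial Fermat.Agent.S27

section Restrict

variable {L F : Type*} [Field L] [Field F] [Algebra L F] (V : ValuationSubring L)
  (W : ValuationSubring F) (hW : ∀ a : L, algebraMap L F a ∈ W ↔ a ∈ V)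

include hW in
theorem h44_val_algebraMap_lt_one (a : L) (ha : a⁻¹ ∉ V) :
    W.valuation (algebraMap L F a) < 1 := by
  have ha0 : a ≠ 0 := by
    rintro rfl
    rw [inv_zero] at ha
    exact ha V.zero_mem
  have h1 : ¬ W.valuation (algebraMap L F a⁻¹) ≤ 1 := by
    rw [ValuationSubring.valuation_le_one_iff, hW]
    exact ha
  rw [not_le, map_inv₀, map_inv₀] at h1
  have hpos : 0 < W.valuation (algebraMap L F a) := by
    rw [pos_iff_ne_zero, Ne, map_eq_zero, map_eq_zero]
    exact ha0
  exact (one_lt_inv₀ hpos).mp h1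

include hW in
theorem h44_val_algebraMap_le_one (a : L) (ha : a ∈ V) :
    W.valuation (algebraMap L F a) ≤ 1 :=
  (ValuationSubring.valuation_le_one_iff _ _).mpr ((hW a).mpr ha)

include hW in
theorem h44_val_algebraMap_eq_one (a : L) (ha0 : a ≠ 0) (ha : a ∈ V) (ha' : a⁻¹ ∈ V) :
    W.valuation (algebraMap L F a) = 1 := by
  refine le_antisymm (h44_val_algebraMap_le_one V W hW a ha) ?_
  have h1 := h44_val_algebraMap_le_one V W hW a⁻¹ ha'
  rw [map_inv₀, map_inv₀] at h1
  have hpos : 0 < W.valuation (algebraMap L F a) := by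
    rw [pos_iff_ne_zero, Ne, map_eq_zero, map_eq_zero]
    exact ha0
  exact (inv_le_one₀ hpos).mp h1

end Restrict

section Comparable

variable {L F : Type*} [Field L] [Field F] [Algebra L F]

/-- Two comparable valuation subrings of an algebraic extension `F / L` with the same restriction
to `L` are equal. -/
theorem h44_eq_of_le_of_algebraic [Algebra.IsAlgebraic L F] (V : ValuationSubring L)
    (W₁ W₂ : ValuationSubring F) (h1 : ∀ a : L, algebraMap L F a ∈ W₁ ↔ a ∈ V)
    (h2 : ∀ a : L, algebraMap L F a ∈ W₂ ↔ a ∈ V) (hle : W₁ ≤ W₂) : W₁ = W₂ := by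
  classical
  refine le_antisymm hle fun f hf => ?_
  by_contra hf1
  have hf0 : f ≠ 0 := fun h => hf1 (h ▸ W₁.zero_mem)
  have hgt : 1 < W₁.valuation f := by
    rw [← not_le, ValuationSubring.valuation_le_one_iff]
    exact hf1
  have ht1 : W₁.valuation f⁻¹ < 1 := by
    rw [map_inv₀]
    exact (inv_lt_one₀ (zero_lt_one.trans hgt)).mpr hgt
  have ht0 : f⁻¹ ≠ 0 := inv_ne_zero hf0
  have hpos1 : 0 < W₁.valuation f⁻¹ := by
    rw [pos_iff_ne_zero, Ne, map_eq_zero]
    exact ht0
  have ht2 : W₂.valuation f⁻¹ = 1 := by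
    have hle1 : W₂.valuation f⁻¹ ≤ 1 := (ValuationSubring.valuation_le_one_iff _ _).mpr
      (hle ((ValuationSubring.valuation_le_one_iff _ _).mp ht1.le))
    have hle2 : W₂.valuation f ≤ 1 := (ValuationSubring.valuation_le_one_iff _ _).mpr hf
    refine le_antisymm hle1 ?_
    rw [map_inv₀]
    have hpos : 0 < W₂.valuation f := by
      rw [pos_iff_ne_zero, Ne, map_eq_zero]
      exact hf0
    exact (one_le_inv₀ hpos).mpr hle2
  set t := f⁻¹ with ht
  -- an algebraic relation for `t`
  obtain ⟨p, hp0, hp⟩ := Algebra.IsAlgebraic.isAlgebraic (R := L) t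
  have hsupp : p.support.Nonempty := by
    rw [Finset.nonempty_iff_ne_empty, Ne, Polynomial.support_eq_empty]
    exact hp0
  obtain ⟨m, hm, hmax⟩ := Finset.exists_max_image p.support
    (fun l => V.valuation (p.coeff l)) hsupp
  have hcm : p.coeff m ≠ 0 := Polynomial.mem_support_iff.mp hm
  have hvm : V.valuation (p.coeff m) ≠ 0 := by
    rw [Ne, map_eq_zero]
    exact hcm
  -- the normalised coefficients
  set c : ℕ → L := fun l => p.coeff l / p.coeff m with hc
  have hcV : ∀ l ∈ p.support, V.valuation (c l) ≤ 1 := by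
    intro l hl
    rw [hc]
    show V.valuation (p.coeff l / p.coeff m) ≤ 1
    rw [map_div₀]
    exact div_le_one_of_le₀ (hmax l hl) zero_le
  have hcm1 : c m = 1 := div_self hcm
  have hrel : ∑ l ∈ p.support, algebraMap L F (c l) * t ^ l = 0 := by
    have h0 : ∑ l ∈ p.support, algebraMap L F (p.coeff l) * t ^ l = 0 := by
      rw [← hp, Polynomial.aeval_def, Polynomial.eval₂_eq_sum, Polynomial.sum_def]
    have h3 : ∑ l ∈ p.support, algebraMap L F (c l) * t ^ l =
        (algebraMap L F (p.coeff m))⁻¹ * ∑ l ∈ p.support, algebraMap L F (p.coeff l) * t ^ l := by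
      rw [Finset.mul_sum]
      refine Finset.sum_congr rfl fun l _ => ?_
      rw [hc]
      show algebraMap L F (p.coeff l / p.coeff m) * t ^ l = _
      rw [map_div₀]
      ring
    rw [h3, h0, mul_zero]
  -- the first unit coefficient
  have hex : ∃ l, l ∈ p.support ∧ V.valuation (c l) = 1 := ⟨m, hm, by rw [hcm1, map_one]⟩
  have hl₀ := Nat.find_spec hex
  have hmin := fun l => Nat.find_min hex (m := l)
  set l₀ := Nat.find hex with hl₀def
  have hc0 : ∀ l ∈ p.support, c l ≠ 0 := by
    intro l hl
    rw [hc]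
    exact div_ne_zero (Polynomial.mem_support_iff.mp hl) hcm
  have hcmem : ∀ l ∈ p.support, c l ∈ V :=
    fun l hl => (ValuationSubring.valuation_le_one_iff _ _).mp (hcV l hl)
  -- every other term is smaller than `t ^ l₀`
  have hsmall : ∀ l ∈ p.support.erase l₀,
      W₁.valuation (algebraMap L F (c l) * t ^ l) < W₁.valuation t ^ l₀ := by
    intro l hl
    obtain ⟨hne, hls⟩ := Finset.mem_erase.mp hl
    rcases lt_or_gt_of_ne hne with hlt | hgt'
    · -- `l < l₀`: the coefficient is a non-unit
      have hcl : V.valuation (c l) < 1 :=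
        lt_of_le_of_ne (hcV l hls) fun h => hmin l hlt ⟨hls, h⟩
      have hinv : (c l)⁻¹ ∉ V := by
        rw [← ValuationSubring.valuation_le_one_iff, map_inv₀, not_le]
        have hpos : 0 < V.valuation (c l) := by
          rw [pos_iff_ne_zero, Ne, map_eq_zero]
          exact hc0 l hls
        exact (one_lt_inv₀ hpos).mpr hcl
      have hx2 : W₂.valuation (algebraMap L F (c l) * t ^ l * (t ^ l₀)⁻¹) < 1 := by
        rw [map_mul, map_mul, map_inv₀, map_pow, map_pow, ht2, one_pow, one_pow, inv_one, mul_one,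
          mul_one]
        exact h44_val_algebraMap_lt_one V W₂ h2 (c l) hinv
      have hx1 : W₁.valuation (algebraMap L F (c l) * t ^ l * (t ^ l₀)⁻¹) < 1 := by
        rw [← ValuationSubring.mem_nonunits_iff] at hx2 ⊢
        exact (ValuationSubring.nonunits_le_nonunits.mpr hle) hx2
      have hpow : 0 < W₁.valuation t ^ l₀ := pow_pos hpos1 l₀
      have e : algebraMap L F (c l) * t ^ l =
          algebraMap L F (c l) * t ^ l * (t ^ l₀)⁻¹ * t ^ l₀ := by
        rw [inv_mul_cancel_right₀ (pow_ne_zero _ ht0)]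
      rw [e, map_mul (W₁.valuation) _ (t ^ l₀), map_pow]
      exact mul_lt_of_lt_one_left hpow hx1
    · -- `l > l₀`
      rw [map_mul, map_pow]
      exact mul_lt_of_le_one_of_lt (h44_val_algebraMap_le_one V W₁ h1 _ (hcmem l hls))
        (pow_lt_pow_right_of_lt_one₀ hpos1 ht1 hgt')
  have hsum : W₁.valuation (∑ l ∈ p.support.erase l₀, algebraMap L F (c l) * t ^ l) <
      W₁.valuation t ^ l₀ :=
    Valuation.map_sum_lt _ (pow_pos hpos1 l₀).ne' hsmall
  have hterm : algebraMap L F (c l₀) * t ^ l₀ =
      -∑ l ∈ p.support.erase l₀, algebraMap L F (c l) * t ^ l := by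
    rw [← Finset.add_sum_erase _ _ hl₀.1] at hrel
    exact eq_neg_of_add_eq_zero_left hrel
  have hv : W₁.valuation (algebraMap L F (c l₀) * t ^ l₀) = W₁.valuation t ^ l₀ := by
    have hinv : (c l₀)⁻¹ ∈ V := by
      rw [← ValuationSubring.valuation_le_one_iff, map_inv₀, hl₀.2, inv_one]
    rw [map_mul, map_pow, h44_val_algebraMap_eq_one V W₁ h1 _ (hc0 l₀ hl₀.1) (hcmem l₀ hl₀.1) hinv,
      one_mul]
  rw [hterm, Valuation.map_neg] at hv
  exact absurd hv hsum.ne

end Comparable

section Split

variable {L F : Type*} [Field L] [Field F] [Algebra L F] (V : ValuationSubring L) (y : F)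
  {n : ℕ} {Φ : Polynomial V} {κ : Type*} [Field κ] (res : V →+* κ)

/-- An element `D(y)` with `D̄ = 0` is a non-unit constant times an element of `V[y]`. -/
theorem h44_ev_of_map_eq_zero (hmon : Φ.Monic) (hdeg : Φ.natDegree = n)
    (hroot : h44_ev V y Φ = 0) (D : Polynomial V) (hD : D.map res = 0) :
    ∃ (a₀ : V) (p₀ : Polynomial V), res a₀ = 0 ∧
      h44_ev V y D = algebraMap L F (a₀ : L) * h44_ev V y p₀ := by
  classical
  have hcoef : ∀ l : ℕ, res ((D %ₘ Φ).coeff l) = 0 := by
    intro l
    rw [← Polynomial.coeff_map, Polynomial.map_modByMonic res hmon, hD, zero_modByMonic,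
      coeff_zero]
  rw [h44_ev_eq_sum V y hmon hdeg hroot D]
  by_cases hall : ∀ l : Fin n, (((D %ₘ Φ).coeff l : V) : L) = 0
  · refine ⟨0, 0, map_zero _, ?_⟩
    rw [map_zero, mul_zero]
    exact Finset.sum_eq_zero fun l _ => by rw [hall l, map_zero, zero_mul]
  · simp only [not_forall] at hall
    obtain ⟨j, hj0, hj⟩ := h44_exists_max V (fun l : Fin n => (((D %ₘ Φ).coeff l : V) : L)) hall
    refine ⟨(D %ₘ Φ).coeff j, h44_poly (fun l : Fin n => ⟨_, hj l⟩), hcoef j, ?_⟩
    rw [h44_ev_poly, Finset.mul_sum]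
    refine Finset.sum_congr rfl fun l _ => ?_
    rw [← mul_assoc, ← map_mul, mul_div_cancel₀ _ hj0]

/-- Constants reducing to zero are non-units of any extension of `V`. -/
theorem h44_val_lt_one_of_res_eq_zero (W : ValuationSubring F)
    (hW : ∀ a : L, algebraMap L F a ∈ W ↔ a ∈ V) (a₀ : V) (ha₀ : res a₀ = 0) :
    W.valuation (algebraMap L F (a₀ : L)) < 1 := by
  by_cases ha0 : (a₀ : L) = 0
  · rw [ha0, map_zero, map_zero]
    exact zero_lt_one
  · apply h44_val_algebraMap_lt_one V W hW
    intro hin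
    have h1 : res a₀ * res ⟨(a₀ : L)⁻¹, hin⟩ = 1 := by
      rw [← map_mul]
      have h2 : a₀ * ⟨(a₀ : L)⁻¹, hin⟩ = 1 := Subtype.ext (mul_inv_cancel₀ ha0)
      rw [h2, map_one]
    rw [ha₀, zero_mul] at h1
    exact zero_ne_one h1

/-- If `W ⊇ V[y]` is centred on the maximal ideal of `qi`, the elements outside it are units. -/
theorem h44_val_eq_one_of_not_dvd (hres : Function.Surjective res) (W : ValuationSubring F)
    (hW : ∀ p : Polynomial V, h44_ev V y p ∈ W) (qi : Polynomial κ) (hqi : Irreducible qi)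
    (hc : ∀ p : Polynomial V, qi ∣ p.map res → W.valuation (h44_ev V y p) < 1)
    (p : Polynomial V) (hp : ¬ qi ∣ p.map res) : W.valuation (h44_ev V y p) = 1 := by
  have hle : W.valuation (h44_ev V y p) ≤ 1 :=
    (ValuationSubring.valuation_le_one_iff _ _).mpr (hW p)
  refine le_antisymm hle (not_lt.mp fun hlt => ?_)
  obtain ⟨a, b, hab⟩ := hqi.coprime_iff_not_dvd.mpr hp
  obtain ⟨b', hb'⟩ := Polynomial.map_surjective res hres b
  have h1 : qi ∣ (b' * p - 1).map res := by
    rw [Polynomial.map_sub, Polynomial.map_mul, Polynomial.map_one, hb']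
    exact ⟨-a, by linear_combination hab⟩
  have h2 := hc _ h1
  rw [map_sub, map_mul, map_one] at h2
  have h3 : W.valuation (h44_ev V y b' * h44_ev V y p) < 1 := by
    rw [map_mul, mul_comm]
    exact mul_lt_one_of_lt_of_le hlt ((ValuationSubring.valuation_le_one_iff _ _).mpr (hW b'))
  have h4 : W.valuation (1 : F) < 1 := by
    have e : (1 : F) = h44_ev V y b' * h44_ev V y p - (h44_ev V y b' * h44_ev V y p - 1) := by
      ring
    rw [e]
    exact Valuation.map_sub_lt _ h3 h2
  rw [map_one] at h4
  exact lt_irrefl _ h4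

/-- A valuation subring of `F` containing `V` contains `V[y]` (`y` is integral). -/
theorem h44_ev_mem_of_le (hmon : Φ.Monic) (hroot : h44_ev V y Φ = 0) (W : ValuationSubring F)
    (hW : ∀ a : L, a ∈ V → algebraMap L F a ∈ W) (p : Polynomial V) : h44_ev V y p ∈ W := by
  have hy : y ∈ W := by
    by_contra hy
    have hgt : 1 < W.valuation y := by
      rw [← not_le, ValuationSubring.valuation_le_one_iff]
      exact hy
    have hpos : 0 < W.valuation y := zero_lt_one.trans hgt
    have h0 : h44_ev V y (X ^ Φ.natDegree +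
        ∑ i ∈ Finset.range Φ.natDegree, C (Φ.coeff i) * X ^ i) = 0 := by
      rw [← hmon.as_sum]
      exact hroot
    rw [map_add, map_pow, h44_ev_X, map_sum] at h0
    have h1 : y ^ Φ.natDegree =
        -∑ i ∈ Finset.range Φ.natDegree, h44_ev V y (C (Φ.coeff i) * X ^ i) :=
      eq_neg_of_add_eq_zero_left h0
    have h2 : W.valuation (∑ i ∈ Finset.range Φ.natDegree, h44_ev V y (C (Φ.coeff i) * X ^ i))
        < W.valuation y ^ Φ.natDegree := by
      refine Valuation.map_sum_lt _ (pow_pos hpos _).ne' fun i hi => ?_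
      rw [map_mul, map_pow, h44_ev_C, h44_ev_X, map_mul, map_pow]
      exact mul_lt_of_le_one_of_lt
        ((ValuationSubring.valuation_le_one_iff _ _).mpr (hW _ (Φ.coeff i).2))
        (pow_lt_pow_right₀ hgt (Finset.mem_range.mp hi))
    have h3 := congrArg W.valuation h1
    rw [Valuation.map_neg, map_pow] at h3
    exact absurd h3.symm h2.ne
  rw [h44_ev_apply, eval₂_eq_sum_range]
  refine sum_mem fun i _ => mul_mem ?_ (pow_mem hy _)
  exact hW _ (p.coeff i).2

end Split

section Main

variable {L F : Type*} [Field L] [Field F] [Algebra L F]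

/-- **Split unramified extension.** -/
theorem h44_splitExt (V : ValuationSubring L)
    (hV1 : ∀ a : L, a ∈ V → a⁻¹ ∉ V → ∀ δ : L, δ ≠ 0 → ∃ N : ℕ, a ^ N * δ⁻¹ ∈ V)
    (y : F) (n : ℕ) (Φ : Polynomial V) (hmon : Φ.Monic) (hdeg : Φ.natDegree = n)
    (hroot : Φ.eval₂ ((algebraMap L F).comp V.subtype) y = 0)
    (hspan : ∀ f : F, ∃ c : Fin n → L, f = ∑ l, algebraMap L F (c l) * y ^ (l : ℕ))
    (hli : ∀ c : Fin n → L, ∑ l, algebraMap L F (c l) * y ^ (l : ℕ) = 0 → ∀ l, c l = 0)
    {κ : Type*} [Field κ] (res : V →+* κ) (hres : Function.Surjective res)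
    {ι : Type*} [Fintype ι] (q : ι → Polynomial κ) (hq : ∀ i, Irreducible (q i))
    (hcop : ∀ i j, i ≠ j → IsCoprime (q i) (q j)) (hprod : Φ.map res = ∏ i, q i) :
    ∃ (O : ι → ValuationSubring F) (red : ∀ i, O i →+* AdjoinRoot (q i)),
      (∀ i, Function.Surjective (red i)) ∧
      (∀ f : F, (∀ i, f ∈ O i) ↔
        ∃ p : Polynomial V, p.eval₂ ((algebraMap L F).comp V.subtype) y = f) ∧
      (∀ c : Fin n → L, (∀ i, ∑ l, algebraMap L F (c l) * y ^ (l : ℕ) ∈ O i) ↔ ∀ l, c l ∈ V) ∧
      (∀ i (p : Polynomial V), ∃ h : p.eval₂ ((algebraMap L F).comp V.subtype) y ∈ O i,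
        red i ⟨_, h⟩ = AdjoinRoot.mk (q i) (p.map res)) ∧
      (∀ i (a : L), algebraMap L F a ∈ O i ↔ a ∈ V) ∧
      (∀ i (f : F), f ≠ 0 → ∃ c : L, c ≠ 0 ∧ algebraMap L F c * f ∈ O i ∧
        (algebraMap L F c * f)⁻¹ ∈ O i) ∧
      (∀ i j, i ≠ j → ¬ O i ≤ O j) ∧
      (∀ O' : ValuationSubring F, (∀ a : L, algebraMap L F a ∈ O' ↔ a ∈ V) → ∃ i, O' = O i) := by
  classical
  have hroot' : h44_ev V y Φ = 0 := hroot
  have hker : ∀ p : Polynomial V, h44_ev V y p = 0 → Φ ∣ p :=
    h44_dvd_of_ev_eq_zero V y hmon hdeg hroot' hli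
  have hqdvd : ∀ i, q i ∣ Φ.map res := fun i => by
    rw [hprod]
    exact Finset.dvd_prod_of_mem q (Finset.mem_univ i)
  have hle1 : ∀ (W : ValuationSubring F) (z : F), z ∈ W → W.valuation z ≤ 1 :=
    fun W z hz => (ValuationSubring.valuation_le_one_iff _ _).mpr hz
  -- well-definedness of the centres
  have hwd : ∀ i (p p' : Polynomial V), h44_ev V y p = h44_ev V y p' → q i ∣ p.map res →
      q i ∣ p'.map res := by
    intro i p p' h hdvd
    have h0 : h44_ev V y (p' - p) = 0 := by rw [map_sub, h, sub_self]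
    obtain ⟨r, hr⟩ := hker _ h0
    have e : p'.map res = p.map res + Φ.map res * r.map res := by
      rw [← Polynomial.map_mul, ← hr, ← Polynomial.map_add]
      congr 1
      ring
    rw [e]
    exact dvd_add hdvd (Dvd.dvd.mul_right (hqdvd i) _)
  -- Chevalley: a valuation ring centred at each maximal ideal of `V[y]`
  have hchev : ∀ i, ∃ B : ValuationSubring F, (∀ p, h44_ev V y p ∈ B) ∧
      ∀ p : Polynomial V, q i ∣ p.map res → B.valuation (h44_ev V y p) < 1 := by
    intro i
    let ψ : Polynomial V →+* AdjoinRoot (q i) :=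
      (AdjoinRoot.mk (q i)).comp (Polynomial.mapRingHom res)
    let I : Ideal (h44_ev V y).range := Ideal.map (h44_ev V y).rangeRestrict (RingHom.ker ψ)
    have hI : I ≠ ⊤ := by
      intro htop
      have h1 : (1 : (h44_ev V y).range) ∈ I := by
        rw [htop]
        exact Submodule.mem_top
      obtain ⟨p, hp, hp1⟩ := (Ideal.mem_map_iff_of_surjective (h44_ev V y).rangeRestrict
        (RingHom.rangeRestrict_surjective (h44_ev V y))).mp h1
      have hp' : q i ∣ p.map res := AdjoinRoot.mk_eq_zero.mp (RingHom.mem_ker.mp hp)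
      have hev : h44_ev V y p = h44_ev V y 1 := by
        have h2 := congrArg Subtype.val hp1
        rw [map_one]
        exact h2
      have h3 := hwd i p 1 hev hp'
      rw [Polynomial.map_one] at h3
      exact (hq i).not_isUnit (isUnit_of_dvd_one h3)
    obtain ⟨B, hB1, hB2⟩ := Ideal.image_subset_nonunits_valuationSubring I hI
    refine ⟨B, fun p => hB1 ⟨p, rfl⟩, fun p hp => ?_⟩
    rw [← ValuationSubring.mem_nonunits_iff]
    apply hB2
    exact ⟨(h44_ev V y).rangeRestrict p,
      Ideal.mem_map_of_mem _ (RingHom.mem_ker.mpr (AdjoinRoot.mk_eq_zero.mpr hp)), rfl⟩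
  choose O hOmem hOcen using hchev
  have hOunit : ∀ i (p : Polynomial V), ¬ q i ∣ p.map res →
      (O i).valuation (h44_ev V y p) = 1 :=
    fun i p hp => h44_val_eq_one_of_not_dvd V y res hres (O i) (hOmem i) (q i) (hq i)
      (hOcen i) p hp
  -- constants
  have hconst : ∀ i (a : L), algebraMap L F a ∈ O i ↔ a ∈ V := by
    intro i a
    constructor
    · intro ha
      by_contra haV
      have ha' : a⁻¹ ∈ V := (V.mem_or_inv_mem a).resolve_left haV
      have hres0 : res ⟨a⁻¹, ha'⟩ = 0 := h44_res_eq_zero V res hres ⟨a⁻¹, ha'⟩ (by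
        show (a⁻¹)⁻¹ ∉ V
        rw [inv_inv]
        exact haV)
      have h1 := hOcen i (C ⟨a⁻¹, ha'⟩) (by
        rw [Polynomial.map_C, hres0, map_zero]
        exact dvd_zero _)
      rw [h44_ev_C] at h1
      have h1' : (O i).valuation (algebraMap L F a⁻¹) < 1 := h1
      have ha0 : a ≠ 0 := fun h => haV (h ▸ V.zero_mem)
      have h3 : (O i).valuation (algebraMap L F a⁻¹ * algebraMap L F a) < 1 := by
        rw [map_mul]
        exact mul_lt_one_of_lt_of_le h1' (hle1 _ _ ha)
      rw [← map_mul, inv_mul_cancel₀ ha0, map_one, map_one] at h3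
      exact lt_irrefl _ h3
    · intro ha
      have h1 := hOmem i (C ⟨a, ha⟩)
      rw [h44_ev_C] at h1
      exact h1
  -- a primitive element is a unit at some place
  have hprim : ∀ (c : Fin n → V) (j : Fin n), c j = 1 →
      ∃ i, (O i).valuation (h44_ev V y (h44_poly c)) = 1 := by
    intro c j hcj
    by_contra hcon
    simp only [not_exists] at hcon
    have hall : ∀ i, q i ∣ (h44_poly c).map res := by
      intro i
      by_contra hnd
      exact hcon i (hOunit i _ hnd)
    have hdvd : Φ.map res ∣ (h44_poly c).map res := by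
      rw [hprod]
      refine Finset.prod_dvd_of_coprime ?_ (fun i _ => hall i)
      intro i _ j' _ hij
      exact hcop i j' hij
    rw [h44_poly_map] at hdvd
    have hlt : (h44_poly (fun i => res (c i))).degree < (Φ.map res).degree := by
      rw [degree_eq_natDegree (hmon.map res).ne_zero, hmon.natDegree_map, hdeg]
      exact h44_poly_degree_lt _
    have h0 := eq_zero_of_dvd_of_degree_lt hdvd hlt
    have h1 := h44_poly_coeff (fun i => res (c i)) j
    rw [h0, coeff_zero, hcj, map_one] at h1
    exact zero_ne_one h1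
  -- `⋂ O i = V[y]`
  have hinter : ∀ f : F, (∀ i, f ∈ O i) → ∃ p : Polynomial V, h44_ev V y p = f := by
    intro f hf
    by_cases hf0 : f = 0
    · exact ⟨0, by rw [map_zero, hf0]⟩
    obtain ⟨a, c, j, ha0, hcj, hdec⟩ := h44_decomp V y hspan f hf0
    obtain ⟨i, hi⟩ := hprim c j hcj
    have haV : a ∈ V := by
      rw [← hconst i, ← ValuationSubring.valuation_le_one_iff]
      have h1 := hle1 _ _ (hf i)
      rw [hdec, map_mul, hi, mul_one] at h1
      exact h1
    exact ⟨C ⟨a, haV⟩ * h44_poly c, by rw [map_mul, h44_ev_C, hdec]⟩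
  -- incomparability
  have hinc : ∀ i j, i ≠ j → ¬ O i ≤ O j := by
    intro i j hij hle
    obtain ⟨P, hP⟩ := Polynomial.map_surjective res hres (q j)
    have h1 := hOcen j P (by rw [hP])
    have h2 : (O i).valuation (h44_ev V y P) < 1 := by
      rw [← ValuationSubring.mem_nonunits_iff] at h1 ⊢
      exact (ValuationSubring.nonunits_le_nonunits.mpr hle) h1
    have h3 := hOunit i P (by
      rw [hP]
      intro hdvd
      exact (hq i).not_isUnit ((hcop i j hij).isUnit_of_dvd' dvd_rfl hdvd))
    rw [h3] at h2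
    exact lt_irrefl _ h2
  -- residues
  have hresid : ∀ i (f : F), f ∈ O i →
      ∃ p : Polynomial V, (O i).valuation (f - h44_ev V y p) < 1 := by
    intro i f hf
    obtain ⟨b, hb, hb1⟩ := h44_val_crt O hinc (fun j => if j = i then f else 0) (by
      intro j
      by_cases hj : j = i
      · subst hj
        rw [if_pos rfl]
        exact hf
      · rw [if_neg hj]
        exact (O j).zero_mem)
    obtain ⟨p, hp⟩ := hinter b hb
    refine ⟨p, ?_⟩
    have h1 := hb1 i
    rw [if_pos rfl, Valuation.map_sub_swap] at h1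
    rw [hp]
    exact h1
  -- the residue maps
  have hred : ∀ i, ∃ red : O i →+* AdjoinRoot (q i), Function.Surjective red ∧
      ∀ p : Polynomial V, ∃ h : h44_ev V y p ∈ O i,
        red ⟨_, h⟩ = AdjoinRoot.mk (q i) (p.map res) := by
    intro i
    let ψ : Polynomial V →+* AdjoinRoot (q i) :=
      (AdjoinRoot.mk (q i)).comp (Polynomial.mapRingHom res)
    let ρ : Polynomial V →+* IsLocalRing.ResidueField (O i) :=
      (IsLocalRing.residue (O i)).comp ((h44_ev V y).codRestrict (O i).toSubring (hOmem i))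
    have hρ0 : ∀ p : Polynomial V, ρ p = 0 ↔ (O i).valuation (h44_ev V y p) < 1 := by
      intro p
      show IsLocalRing.residue (O i) (⟨h44_ev V y p, hOmem i p⟩ : O i) = 0 ↔ _
      rw [IsLocalRing.residue_eq_zero_iff, ValuationSubring.valuation_lt_one_iff]
    have hρ : Function.Surjective ρ := by
      intro z
      obtain ⟨f, rfl⟩ := IsLocalRing.residue_surjective z
      obtain ⟨p, hp⟩ := hresid i f f.2
      refine ⟨p, ?_⟩
      rw [← sub_eq_zero]
      show IsLocalRing.residue (O i) (⟨h44_ev V y p, hOmem i p⟩ : O i) -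
        IsLocalRing.residue (O i) f = 0
      rw [← map_sub, IsLocalRing.residue_eq_zero_iff, ValuationSubring.valuation_lt_one_iff]
      show (O i).valuation (h44_ev V y p - (f : F)) < 1
      rw [Valuation.map_sub_swap]
      exact hp
    have hker' : RingHom.ker ρ ≤ RingHom.ker ψ := by
      intro p hp
      rw [RingHom.mem_ker] at hp ⊢
      have h1 := (hρ0 p).mp hp
      by_contra hne
      have hnd : ¬ q i ∣ p.map res := fun hd => hne (AdjoinRoot.mk_eq_zero.mpr hd)
      rw [hOunit i p hnd] at h1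
      exact lt_irrefl _ h1
    let lift : IsLocalRing.ResidueField (O i) →+* AdjoinRoot (q i) :=
      ρ.liftOfSurjective hρ ⟨ψ, hker'⟩
    have hlift : ∀ p, lift (ρ p) = ψ p :=
      fun p => RingHom.liftOfRightInverse_comp_apply ρ _ _ ⟨ψ, hker'⟩ p
    refine ⟨lift.comp (IsLocalRing.residue (O i)), ?_, ?_⟩
    · intro z
      obtain ⟨g, rfl⟩ := AdjoinRoot.mk_surjective z
      obtain ⟨p, rfl⟩ := Polynomial.map_surjective res hres g
      exact ⟨⟨h44_ev V y p, hOmem i p⟩, hlift p⟩
    · intro p
      exact ⟨hOmem i p, hlift p⟩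
  choose red hredsurj hredform using hred
  -- the value group (rank one)
  have hscale : ∀ i (f : F), f ≠ 0 →
      ∃ c : L, c ≠ 0 ∧ (O i).valuation (algebraMap L F c * f) = 1 := by
    intro i
    obtain ⟨Qi, hQi⟩ := Polynomial.map_surjective res hres (q i)
    obtain ⟨Pi, hPi⟩ := Polynomial.map_surjective res hres (∏ j ∈ Finset.univ.erase i, q j)
    have hD : (Pi * Qi - Φ).map res = 0 := by
      rw [Polynomial.map_sub, Polynomial.map_mul, hPi, hQi, hprod,
        Finset.prod_erase_mul _ _ (Finset.mem_univ i), sub_self]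
    obtain ⟨a₀, p₀, ha₀, hev₀⟩ := h44_ev_of_map_eq_zero V y res hmon hdeg hroot' (Pi * Qi - Φ) hD
    rw [map_sub, map_mul, hroot', sub_zero] at hev₀
    have hπi : (O i).valuation (h44_ev V y Pi) = 1 := hOunit i Pi (by
      rw [hPi]
      intro hdvd
      have hcp : IsCoprime (q i) (∏ j ∈ Finset.univ.erase i, q j) :=
        IsCoprime.prod_right fun j hj => hcop i j (Finset.ne_of_mem_erase hj).symm
      exact (hq i).not_isUnit (hcp.isUnit_of_dvd' dvd_rfl hdvd))
    have hπ0 : h44_ev V y Pi ≠ 0 := by
      intro h0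
      rw [h0, map_zero] at hπi
      exact zero_ne_one hπi
    have hQj : ∀ j, j ≠ i → (O j).valuation (h44_ev V y Qi) = 1 := fun j hj =>
      hOunit j Qi (by
        rw [hQi]
        intro hdvd
        exact (hq j).not_isUnit ((hcop j i hj).isUnit_of_dvd' dvd_rfl hdvd))
    have hπj : ∀ j, j ≠ i →
        (O j).valuation (h44_ev V y Pi) ≤ (O j).valuation (algebraMap L F (a₀ : L)) := by
      intro j hj
      have h1 := congrArg (O j).valuation hev₀
      rw [map_mul, map_mul, hQj j hj, mul_one] at h1
      rw [h1]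
      exact mul_le_of_le_one_right' (hle1 _ _ (hOmem j p₀))
    have hpow : ∀ δ : L, δ ≠ 0 → ∃ N : ℕ, ∀ j, j ≠ i →
        (O j).valuation (h44_ev V y Pi ^ N) ≤ (O j).valuation (algebraMap L F δ) := by
      intro δ hδ
      by_cases ha0 : (a₀ : L) = 0
      · refine ⟨1, fun j hj => ?_⟩
        have h1 := hπj j hj
        rw [ha0, map_zero, map_zero] at h1
        rw [pow_one]
        exact h1.trans zero_le
      · have hinv : (a₀ : L)⁻¹ ∉ V := by
          intro hin
          have h1 : res a₀ * res ⟨(a₀ : L)⁻¹, hin⟩ = 1 := by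
            rw [← map_mul]
            have h2 : a₀ * ⟨(a₀ : L)⁻¹, hin⟩ = 1 := Subtype.ext (mul_inv_cancel₀ ha0)
            rw [h2, map_one]
          rw [ha₀, zero_mul] at h1
          exact zero_ne_one h1
        obtain ⟨N, hN⟩ := hV1 a₀ a₀.2 hinv δ hδ
        refine ⟨N, fun j hj => ?_⟩
        have e : algebraMap L F (a₀ : L) ^ N =
            algebraMap L F ((a₀ : L) ^ N * δ⁻¹) * algebraMap L F δ := by
          rw [← map_pow, ← map_mul, inv_mul_cancel_right₀ hδ]
        calc (O j).valuation (h44_ev V y Pi ^ N)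
            = (O j).valuation (h44_ev V y Pi) ^ N := map_pow _ _ _
          _ ≤ (O j).valuation (algebraMap L F (a₀ : L)) ^ N :=
              pow_le_pow_left₀ zero_le (hπj j hj) N
          _ = (O j).valuation (algebraMap L F ((a₀ : L) ^ N * δ⁻¹)) *
                (O j).valuation (algebraMap L F δ) := by
              rw [← map_pow, e, map_mul]
          _ ≤ (O j).valuation (algebraMap L F δ) :=
              mul_le_of_le_one_left' (hle1 _ _ ((hconst j _).mpr hN))
    -- primitive elements
    have hprimscale : ∀ (c : Fin n → V) (j : Fin n), c j = 1 →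
        ∃ a' : L, a' ≠ 0 ∧
          (O i).valuation (algebraMap L F a' * h44_ev V y (h44_poly c)) = 1 := by
      intro c j hcj
      obtain ⟨i₁, hi₁⟩ := hprim c j hcj
      have hg0 : h44_ev V y (h44_poly c) ≠ 0 := by
        intro h0
        rw [h0, map_zero] at hi₁
        exact zero_ne_one hi₁
      by_cases hgi : (O i).valuation (h44_ev V y (h44_poly c)) = 1
      · exact ⟨1, one_ne_zero, by rw [map_one, one_mul]; exact hgi⟩
      have hgi' : (O i).valuation (h44_ev V y (h44_poly c)) < 1 :=
        lt_of_le_of_ne (hle1 _ _ (hOmem i _)) hgi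
      have hgpos : 0 < (O i).valuation (h44_ev V y (h44_poly c)) := by
        rw [pos_iff_ne_zero, Ne, map_eq_zero]
        exact hg0
      obtain ⟨a₁, c₁, j₁, ha₁0, hc₁, hdec₁⟩ := h44_decomp V y hspan _ (inv_ne_zero hg0)
      have ha₁V : a₁ ∉ V := by
        intro hin
        have h1 : (h44_ev V y (h44_poly c))⁻¹ ∈ O i := by
          rw [hdec₁]
          exact (O i).mul_mem _ _ ((hconst i a₁).mpr hin) (hOmem i _)
        have h2 := hle1 _ _ h1
        rw [map_inv₀] at h2
        exact absurd hgi' (not_lt.mpr ((inv_le_one₀ hgpos).mp h2))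
      have hbV : a₁⁻¹ ∈ V := (V.mem_or_inv_mem a₁).resolve_left ha₁V
      have hb0 : a₁⁻¹ ≠ 0 := inv_ne_zero ha₁0
      have hbinv : (a₁⁻¹)⁻¹ ∉ V := by
        rw [inv_inv]
        exact ha₁V
      have hbg : algebraMap L F a₁⁻¹ * (h44_ev V y (h44_poly c))⁻¹ = h44_ev V y (h44_poly c₁) := by
        rw [hdec₁, ← mul_assoc, ← map_mul, inv_mul_cancel₀ ha₁0, map_one, one_mul]
      obtain ⟨N, hN⟩ := hpow (a₁⁻¹ * a₁⁻¹) (mul_ne_zero hb0 hb0)
      have hG0 : h44_ev V y Pi ^ N * h44_ev V y (h44_poly c) ≠ 0 :=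
        mul_ne_zero (pow_ne_zero _ hπ0) hg0
      obtain ⟨c', c₂, j₂, hc'0, hc₂, hdec₂⟩ := h44_decomp V y hspan _ hG0
      obtain ⟨j₀, hj₀⟩ := hprim c₂ j₂ hc₂
      have hc'F : algebraMap L F c' ≠ 0 := by
        rw [Ne, map_eq_zero]
        exact hc'0
      have hg₂ : h44_ev V y (h44_poly c₂) =
          h44_ev V y Pi ^ N * h44_ev V y (h44_poly c) * (algebraMap L F c')⁻¹ := by
        rw [hdec₂, mul_comm (algebraMap L F c') _, mul_inv_cancel_right₀ hc'F]
      -- `g / c'` is integral at `i`
      have hgc : (O i).valuation (h44_ev V y (h44_poly c) * (algebraMap L F c')⁻¹) ≤ 1 := by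
        have h1 := hle1 _ _ (hOmem i (h44_poly c₂))
        rw [hg₂, mul_assoc, map_mul, map_pow, hπi, one_pow, one_mul] at h1
        exact h1
      by_cases hji : j₀ = i
      · subst hji
        refine ⟨c'⁻¹, inv_ne_zero hc'0, ?_⟩
        rw [hg₂, mul_assoc, map_mul, map_pow, hπi, one_pow, one_mul] at hj₀
        rw [map_inv₀, mul_comm]
        exact hj₀
      · exfalso
        have hbb : (O i).valuation (algebraMap L F (a₁⁻¹ * a₁⁻¹ / c')) < 1 := by
          have e : algebraMap L F (a₁⁻¹ * a₁⁻¹ / c') =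
              algebraMap L F a₁⁻¹ * ((algebraMap L F a₁⁻¹ * (h44_ev V y (h44_poly c))⁻¹) *
                (h44_ev V y (h44_poly c) * (algebraMap L F c')⁻¹)) := by
            rw [map_div₀, map_mul]
            field_simp
          rw [e, map_mul, map_mul]
          have hb1 : (O i).valuation (algebraMap L F a₁⁻¹) < 1 :=
            h44_val_algebraMap_lt_one V (O i) (hconst i) a₁⁻¹ hbinv
          have hb2 : (O i).valuation (algebraMap L F a₁⁻¹ * (h44_ev V y (h44_poly c))⁻¹) ≤ 1 := by
            rw [hbg]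
            exact hle1 _ _ (hOmem i _)
          exact mul_lt_one_of_lt_of_le hb1 (mul_le_one' hb2 hgc)
        have hbbV : (a₁⁻¹ * a₁⁻¹ / c')⁻¹ ∉ V := by
          intro hin
          have h1 := h44_val_algebraMap_le_one V (O i) (hconst i) _ hin
          rw [map_inv₀, map_inv₀] at h1
          have hpos : 0 < (O i).valuation (algebraMap L F (a₁⁻¹ * a₁⁻¹ / c')) := by
            rw [pos_iff_ne_zero, Ne, map_eq_zero, map_eq_zero]
            exact div_ne_zero (mul_ne_zero hb0 hb0) hc'0
          exact absurd hbb (not_lt.mpr ((inv_le_one₀ hpos).mp h1))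
        have hbbj : (O j₀).valuation (algebraMap L F (a₁⁻¹ * a₁⁻¹ / c')) < 1 :=
          h44_val_algebraMap_lt_one V (O j₀) (hconst j₀) _ hbbV
        have h2 : (O j₀).valuation (h44_ev V y (h44_poly c₂)) ≤
            (O j₀).valuation (algebraMap L F (a₁⁻¹ * a₁⁻¹ / c')) := by
          rw [hg₂, map_mul, map_mul, map_div₀, map_div₀, map_inv₀, div_eq_mul_inv]
          refine mul_le_mul_left ?_ _
          calc (O j₀).valuation (h44_ev V y Pi ^ N) * (O j₀).valuation (h44_ev V y (h44_poly c))
              ≤ (O j₀).valuation (h44_ev V y Pi ^ N) * 1 :=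
                mul_le_mul_right (hle1 _ _ (hOmem j₀ _)) _
            _ = (O j₀).valuation (h44_ev V y Pi ^ N) := mul_one _
            _ ≤ (O j₀).valuation (algebraMap L F (a₁⁻¹ * a₁⁻¹)) := hN j₀ hji
        rw [hj₀] at h2
        exact absurd (lt_of_le_of_lt h2 hbbj) (lt_irrefl _)
    intro f hf
    obtain ⟨a, c, j, ha0, hcj, hdec⟩ := h44_decomp V y hspan f hf
    obtain ⟨a', ha'0, ha'⟩ := hprimscale c j hcj
    refine ⟨a' / a, div_ne_zero ha'0 ha0, ?_⟩
    have e : algebraMap L F (a' / a) * f = algebraMap L F a' * h44_ev V y (h44_poly c) := by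
      have haF : algebraMap L F a ≠ 0 := by
        rw [Ne, map_eq_zero]
        exact ha0
      rw [hdec, map_div₀]
      field_simp
    rw [e]
    exact ha'
  -- all extensions
  have hallext : ∀ O' : ValuationSubring F, (∀ a : L, algebraMap L F a ∈ O' ↔ a ∈ V) →
      ∃ i, O' = O i := by
    intro O' hO'
    have hSO' : ∀ p, h44_ev V y p ∈ O' :=
      h44_ev_mem_of_le V y hmon hroot' O' (fun a ha => (hO' a).mpr ha)
    have hmV : ∀ D : Polynomial V, D.map res = 0 → O'.valuation (h44_ev V y D) < 1 := by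
      intro D hD
      obtain ⟨a₀, p₀, ha₀, hev⟩ := h44_ev_of_map_eq_zero V y res hmon hdeg hroot' D hD
      rw [hev, map_mul]
      exact mul_lt_one_of_lt_of_le (h44_val_lt_one_of_res_eq_zero V res O' hO' a₀ ha₀)
        (hle1 _ _ (hSO' p₀))
    choose Q hQ using fun j => Polynomial.map_surjective res hres (q j)
    have hprodQ : O'.valuation (h44_ev V y (∏ j, Q j)) < 1 := by
      have hD : (∏ j, Q j - Φ).map res = 0 := by
        rw [Polynomial.map_sub, Polynomial.map_prod, hprod]
        simp only [hQ, sub_self]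
      have h1 := hmV _ hD
      rwa [map_sub, hroot', sub_zero] at h1
    have hexi : ∃ i, O'.valuation (h44_ev V y (Q i)) < 1 := by
      by_contra hcon
      simp only [not_exists, not_lt] at hcon
      have h1 : ∀ j, O'.valuation (h44_ev V y (Q j)) = 1 :=
        fun j => le_antisymm (hle1 _ _ (hSO' _)) (hcon j)
      rw [map_prod, map_prod, Finset.prod_eq_one (fun j _ => h1 j)] at hprodQ
      exact lt_irrefl _ hprodQ
    obtain ⟨i, hi⟩ := hexi
    have hcen' : ∀ p : Polynomial V, q i ∣ p.map res → O'.valuation (h44_ev V y p) < 1 := by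
      intro p hp
      obtain ⟨h, hh⟩ := hp
      obtain ⟨H, hH⟩ := Polynomial.map_surjective res hres h
      have hD : (p - Q i * H).map res = 0 := by
        rw [Polynomial.map_sub, Polynomial.map_mul, hQ, hH, hh, sub_self]
      have h1 := hmV _ hD
      have e : h44_ev V y p = h44_ev V y (p - Q i * H) + h44_ev V y (Q i) * h44_ev V y H := by
        rw [map_sub, map_mul]
        ring
      rw [e]
      refine Valuation.map_add_lt _ h1 ?_
      rw [map_mul]
      exact mul_lt_one_of_lt_of_le hi (hle1 _ _ (hSO' H))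
    have hunit' : ∀ p : Polynomial V, ¬ q i ∣ p.map res → O'.valuation (h44_ev V y p) = 1 :=
      fun p hp => h44_val_eq_one_of_not_dvd V y res hres O' hSO' (q i) (hq i) hcen' p hp
    refine ⟨i, ?_⟩
    by_contra hne
    have hfin : Module.Finite L F := by
      refine Module.Finite.of_surjective (Fintype.linearCombination L (fun l : Fin n => y ^ (l : ℕ)))
        fun f => ?_
      obtain ⟨c, hc⟩ := hspan f
      refine ⟨c, ?_⟩
      rw [Fintype.linearCombination_apply, hc]
      exact Finset.sum_congr rfl fun l _ => Algebra.smul_def _ _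
    have halg : Algebra.IsAlgebraic L F := Algebra.IsAlgebraic.of_finite L F
    have hinc'' : ∀ a b : Option ι, a ≠ b →
        ¬ (fun o : Option ι => o.elim O' O) a ≤ (fun o : Option ι => o.elim O' O) b := by
      intro a b hab hle
      rcases a with _ | j <;> rcases b with _ | j'
      · exact hab rfl
      · have hle' : O' ≤ O j' := hle
        by_cases hj : j' = i
        · subst hj
          exact hne (h44_eq_of_le_of_algebraic V O' (O j') hO' (hconst j') hle')
        · have h1 := hOcen j' (Q j') (by rw [hQ])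
          have h2 : O'.valuation (h44_ev V y (Q j')) < 1 := by
            rw [← ValuationSubring.mem_nonunits_iff] at h1 ⊢
            exact (ValuationSubring.nonunits_le_nonunits.mpr hle') h1
          have h3 := hunit' (Q j') (by
            rw [hQ]
            intro hdvd
            exact (hq i).not_isUnit ((hcop i j' (Ne.symm hj)).isUnit_of_dvd' dvd_rfl hdvd))
          rw [h3] at h2
          exact lt_irrefl _ h2
      · have hle' : O j ≤ O' := hle
        by_cases hj : j = i
        · subst hj
          exact hne (h44_eq_of_le_of_algebraic V (O j) O' (hconst j) hO' hle').symm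
        · have h2 : (O j).valuation (h44_ev V y (Q i)) < 1 := by
            rw [← ValuationSubring.mem_nonunits_iff] at hi ⊢
            exact (ValuationSubring.nonunits_le_nonunits.mpr hle') hi
          have h3 := hOunit j (Q i) (by
            rw [hQ]
            intro hdvd
            exact (hq j).not_isUnit ((hcop j i hj).isUnit_of_dvd' dvd_rfl hdvd))
          rw [h3] at h2
          exact lt_irrefl _ h2
      · have hle' : O j ≤ O j' := hle
        exact hinc j j' (fun h => hab (congrArg some h)) hle'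
    obtain ⟨b, hb, hb1⟩ := h44_val_crt (fun o : Option ι => o.elim O' O) hinc''
      (fun o => o.elim 0 (fun j => if j = i then 1 else 0)) (by
        intro o
        rcases o with _ | j
        · exact O'.zero_mem
        · show (if j = i then (1 : F) else 0) ∈ O j
          split_ifs
          · exact (O j).one_mem
          · exact (O j).zero_mem)
    obtain ⟨p, hp⟩ := hinter b (fun j => hb (some j))
    have h0 : O'.valuation (b - 0) < 1 := hb1 none
    have h1 : (O i).valuation (b - (if i = i then (1 : F) else 0)) < 1 := hb1 (some i)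
    rw [sub_zero, ← hp] at h0
    rw [if_pos rfl, ← hp] at h1
    have hdvd : q i ∣ p.map res := by
      by_contra hnd
      rw [hunit' p hnd] at h0
      exact lt_irrefl _ h0
    have h2 := hOcen i p hdvd
    have h3 : (O i).valuation (1 : F) < 1 := by
      have e : (1 : F) = h44_ev V y p - (h44_ev V y p - 1) := by ring
      rw [e]
      exact Valuation.map_sub_lt _ h2 h1
    rw [map_one] at h3
    exact lt_irrefl _ h3
  refine ⟨O, red, hredsurj, ?_, ?_, hredform, hconst, ?_, hinc, hallext⟩
  · intro f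
    exact ⟨hinter f, fun ⟨p, hp⟩ i => hp ▸ hOmem i p⟩
  · intro c
    constructor
    · intro h
      obtain ⟨p, hp⟩ := hinter _ h
      exact (h44_mem_range_iff V y hmon hdeg hroot' hli c).mp ⟨p, hp⟩
    · intro hc i
      obtain ⟨p, hp⟩ := (h44_mem_range_iff V y hmon hdeg hroot' hli c).mpr hc
      rw [← hp]
      exact hOmem i p
  · intro i f hf
    obtain ⟨c, hc0, hc⟩ := hscale i f hf
    refine ⟨c, hc0, ?_, ?_⟩
    · rw [← ValuationSubring.valuation_le_one_iff, hc]
    · rw [← ValuationSubring.valuation_le_one_iff, map_inv₀, hc, inv_one]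

end Main

end Fermat.Agent.S34
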