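import Mathlib
import Fermat.Agent.S18.Defs
import Fermat.Agent.S34.h44_SplitExt

/-!
# Split steps for S18 reduction data (helper44)

`h44_splitStep`: `R : h39_RedDatum K F k Fb` with rank-one constants, `F' = F(y)` with power basis
`1, …, y^(n-1)`, `Φ ∈ R.O[X]` monic of degree `n` with `Φ(y) = 0` whose reduction has `n` distinct
roots `β i` in `Fb`.  Then `R.O` has exactly `n` extensions to `F'`, each a reduction datum with the
same residue field `Fb`, and the power basis is orthonormal for the sup-norm.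
-/

set_option autoImplicit false

noncomputable section

namespace Fermat.Agent.S34

open Polynomial IntermediateField Fermat.Agent.S18

section Step

variable {K F F' k Fb : Type*} [Field K] [Field F] [Algebra K F] [Field F'] [Algebra K F']
  [Algebra F F'] [IsScalarTower K F F'] [Field k] [Field Fb] [Algebra k Fb]

/-- Rank one passes from the constants to the valuation ring of a reduction datum. -/
theorem h44_rankOne_O (R : h39_RedDatum K F k Fb) (hA1 : h39_RankOne R.A) :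
    ∀ a : F, a ∈ R.O → a⁻¹ ∉ R.O → ∀ δ : F, δ ≠ 0 → ∃ N : ℕ, a ^ N * δ⁻¹ ∈ R.O := by
  intro a ha hainv δ hδ
  have ha0 : a ≠ 0 := by
    rintro rfl
    apply hainv
    rw [inv_zero]
    exact R.O.zero_mem
  obtain ⟨c, hc0, hc1, hc2⟩ := R.exists_scale a ha0
  obtain ⟨e, he0, he1, he2⟩ := R.exists_scale δ hδ
  have hcF : algebraMap K F c ≠ 0 := by
    rw [Ne, map_eq_zero]
    exact hc0
  have heF : algebraMap K F e ≠ 0 := by
    rw [Ne, map_eq_zero]
    exact he0
  have hcinv : c⁻¹ ∈ R.A := by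
    rw [R.mem_iff, map_inv₀]
    have e1 : (algebraMap K F c)⁻¹ = a * (algebraMap K F c * a)⁻¹ := by
      field_simp
    rw [e1]
    exact R.O.mul_mem _ _ ha hc2
  have hcnot : (c⁻¹)⁻¹ ∉ R.A := by
    rw [inv_inv]
    intro hcA
    apply hainv
    have e1 : a⁻¹ = algebraMap K F c * (algebraMap K F c * a)⁻¹ := by
      field_simp
    rw [e1]
    exact R.O.mul_mem _ _ ((R.mem_iff c).mp hcA) hc2
  obtain ⟨N, hN⟩ := hA1 c⁻¹ hcinv hcnot e⁻¹ (inv_ne_zero he0)
  refine ⟨N, ?_⟩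
  rw [inv_inv] at hN
  have e1 : a ^ N * δ⁻¹ = (algebraMap K F c * a) ^ N * (algebraMap K F e * δ)⁻¹ *
      algebraMap K F (c⁻¹ ^ N * e) := by
    rw [map_mul, map_pow, map_inv₀, mul_pow, inv_pow]
    field_simp
  rw [e1]
  exact R.O.mul_mem _ _ (R.O.mul_mem _ _ (R.O.pow_mem hc1 N) he2) ((R.mem_iff _).mp hN)

/-- **Split step.** -/
theorem h44_splitStep (R : h39_RedDatum K F k Fb) (hA1 : h39_RankOne R.A)
    (y : F') (n : ℕ) (Φ : Polynomial R.O) (hmon : Φ.Monic) (hdeg : Φ.natDegree = n)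
    (hroot : Φ.eval₂ ((algebraMap F F').comp R.O.subtype) y = 0)
    (hspan : ∀ f : F', ∃ c : Fin n → F, f = ∑ l, algebraMap F F' (c l) * y ^ (l : ℕ))
    (hli : ∀ c : Fin n → F, ∑ l, algebraMap F F' (c l) * y ^ (l : ℕ) = 0 → ∀ l, c l = 0)
    (β : Fin n → Fb) (hβ : Function.Injective β)
    (hprod : Φ.map R.red = ∏ i, (X - C (β i))) :
    ∃ R' : Fin n → h39_RedDatum K F' k Fb,
      (∀ i, (R' i).A = R.A) ∧ (∀ i a, (R' i).resK a = R.resK a) ∧
      (∀ i (f : F), algebraMap F F' f ∈ (R' i).O ↔ f ∈ R.O) ∧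
      (∀ i (f : F), (R' i).redF (algebraMap F F' f) = R.redF f) ∧
      (∀ i, y ∈ (R' i).O ∧ (R' i).redF y = β i) ∧
      (∀ i j, i ≠ j → ¬ (R' i).O ≤ (R' j).O) ∧
      (∀ O' : ValuationSubring F', (∀ f : F, algebraMap F F' f ∈ O' ↔ f ∈ R.O) →
        ∃ i, O' = (R' i).O) ∧
      (∀ c : Fin n → F, (∀ i, ∑ l, algebraMap F F' (c l) * y ^ (l : ℕ) ∈ (R' i).O) ↔
        ∀ l, c l ∈ R.O) := by
  classical
  have hq : ∀ i, Irreducible (X - C (β i) : Polynomial Fb) := fun i => irreducible_X_sub_C _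
  have hcop : ∀ i j, i ≠ j → IsCoprime (X - C (β i) : Polynomial Fb) (X - C (β j)) := by
    intro i j hij
    apply isCoprime_X_sub_C_of_isUnit_sub
    exact (sub_ne_zero.mpr (fun h => hij (hβ h))).isUnit
  obtain ⟨O, red, -, -, hframe, hredp, hconst, hscale, hinc, hall⟩ :=
    h44_splitExt R.O (h44_rankOne_O R hA1) y n Φ hmon hdeg hroot hspan hli R.red R.red_surjective
      (fun i => X - C (β i)) hq hcop hprod
  -- evaluation at the root
  have hev0 : ∀ i, (X - C (β i) : Polynomial Fb).eval₂ (RingHom.id Fb) (β i) = 0 := by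
    intro i
    rw [eval₂_sub, eval₂_X, eval₂_C, RingHom.id_apply, sub_self]
  let ev : ∀ i, AdjoinRoot (X - C (β i) : Polynomial Fb) →+* Fb :=
    fun i => AdjoinRoot.lift (RingHom.id Fb) (β i) (hev0 i)
  let red' : ∀ i, O i →+* Fb := fun i => (ev i).comp (red i)
  have hred' : ∀ i (p : Polynomial R.O) (z : F') (hz : z ∈ O i),
      z = p.eval₂ ((algebraMap F F').comp R.O.subtype) y →
      red' i ⟨z, hz⟩ = (p.map R.red).eval (β i) := by
    intro i p z hz hzp
    subst hzp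
    obtain ⟨h, hh⟩ := hredp i p
    change ev i (red i ⟨_, hz⟩) = _
    rw [hh]
    change AdjoinRoot.lift (RingHom.id Fb) (β i) (hev0 i) (AdjoinRoot.mk _ (p.map R.red)) = _
    rw [AdjoinRoot.lift_mk]
    rfl
  have hredc : ∀ i (f : F) (hf : f ∈ R.O) (z : F') (hz : z ∈ O i), z = algebraMap F F' f →
      red' i ⟨z, hz⟩ = R.red ⟨f, hf⟩ := by
    intro i f hf z hz hzf
    rw [hred' i (C ⟨f, hf⟩) z hz (by rw [eval₂_C, hzf]; rfl), Polynomial.map_C, eval_C]
  have hymem : ∀ i, y ∈ O i := by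
    intro i
    obtain ⟨h, -⟩ := hredp i X
    rw [eval₂_X] at h
    exact h
  have hredy : ∀ i, red' i ⟨y, hymem i⟩ = β i := by
    intro i
    rw [hred' i X y (hymem i) (by rw [eval₂_X]), Polynomial.map_X, eval_X]
  have hsurj : ∀ i, Function.Surjective (red' i) := by
    intro i b
    obtain ⟨f, hf⟩ := R.red_surjective b
    refine ⟨⟨algebraMap F F' f.1, (hconst i f.1).mpr f.2⟩, ?_⟩
    rw [hredc i f.1 f.2 _ _ rfl]
    exact hf
  have hmem : ∀ i (a : K), a ∈ R.A ↔ algebraMap K F' a ∈ O i := by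
    intro i a
    rw [IsScalarTower.algebraMap_apply K F F', hconst i, R.mem_iff]
  have hredalg : ∀ i (a : K) (ha : a ∈ R.A) (ha' : algebraMap K F' a ∈ O i),
      red' i ⟨algebraMap K F' a, ha'⟩ = algebraMap k Fb (R.res ⟨a, ha⟩) := by
    intro i a ha ha'
    rw [hredc i (algebraMap K F a) ((R.mem_iff a).mp ha) _ _
      (IsScalarTower.algebraMap_apply K F F' a)]
    exact R.red_algebraMap a ha _
  have hsc : ∀ i (f : F'), f ≠ 0 → ∃ c : K, c ≠ 0 ∧ algebraMap K F' c * f ∈ O i ∧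
      (algebraMap K F' c * f)⁻¹ ∈ O i := by
    intro i f hf
    obtain ⟨c, hc0, hc1, hc2⟩ := hscale i f hf
    obtain ⟨e, he0, he1, he2⟩ := R.exists_scale c hc0
    have hcF : algebraMap F F' c ≠ 0 := by
      rw [Ne, map_eq_zero]
      exact hc0
    have heF : algebraMap F F' (algebraMap K F e) ≠ 0 := by
      rw [Ne, map_eq_zero, map_eq_zero]
      exact he0
    refine ⟨e⁻¹, inv_ne_zero he0, ?_, ?_⟩
    · have e1 : algebraMap K F' e⁻¹ * f = algebraMap F F' (algebraMap K F e * c)⁻¹ *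
          (algebraMap F F' c * f) := by
        rw [IsScalarTower.algebraMap_apply K F F', map_inv₀, map_inv₀, map_inv₀, map_mul]
        field_simp
      rw [e1]
      exact (O i).mul_mem _ _ ((hconst i _).mpr he2) hc1
    · have e1 : (algebraMap K F' e⁻¹ * f)⁻¹ = algebraMap F F' (algebraMap K F e * c) *
          (algebraMap F F' c * f)⁻¹ := by
        rw [IsScalarTower.algebraMap_apply K F F', map_inv₀, map_inv₀, map_mul]
        field_simp
      rw [e1]
      exact (O i).mul_mem _ _ ((hconst i _).mpr he1) hc2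
  refine ⟨fun i =>
    { A := R.A
      O := O i
      res := R.res
      red := red' i
      res_surjective := R.res_surjective
      red_surjective := hsurj i
      mem_iff := hmem i
      red_algebraMap := hredalg i
      exists_scale := hsc i }, fun i => rfl, fun i a => rfl, hconst, ?_, ?_, hinc, hall, hframe⟩
  · intro i f
    by_cases hf : f ∈ R.O
    · rw [h39_RedDatum.redF_of_mem _ ((hconst i f).mpr hf), h39_RedDatum.redF_of_mem _ hf]
      exact hredc i f hf _ _ rfl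
    · have hf' : algebraMap F F' f ∉ O i := fun h => hf ((hconst i f).mp h)
      unfold h39_RedDatum.redF
      rw [dif_neg hf, dif_neg hf']
  · intro i
    refine ⟨hymem i, ?_⟩
    rw [h39_RedDatum.redF_of_mem _ (hymem i)]
    exact hredy i

/-- **Kummer step.** `θ ^ d = v` with `v` a unit of `R.O` with constant reduction, `d` prime to
the residue characteristic: `R.O` splits completely in `F' = F(θ)`. -/
theorem h44_kummerStep [IsAlgClosed k] (R : h39_RedDatum K F k Fb) (hA1 : h39_RankOne R.A)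
    (θ : F') (d : ℕ) (hd : 0 < d) (hdk : (d : k) ≠ 0) (v : F) (hθ : θ ^ d = algebraMap F F' v)
    (hspan : ∀ f : F', ∃ c : Fin d → F, f = ∑ l, algebraMap F F' (c l) * θ ^ (l : ℕ))
    (hli : ∀ c : Fin d → F, ∑ l, algebraMap F F' (c l) * θ ^ (l : ℕ) = 0 → ∀ l, c l = 0)
    (hv : v ∈ R.O) (c₀ : k) (hc₀ : c₀ ≠ 0) (hvred : R.redF v = algebraMap k Fb c₀) :
    ∃ R' : Fin d → h39_RedDatum K F' k Fb,
      (∀ i, (R' i).A = R.A) ∧ (∀ i a, (R' i).resK a = R.resK a) ∧
      (∀ i (f : F), algebraMap F F' f ∈ (R' i).O ↔ f ∈ R.O) ∧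
      (∀ i (f : F), (R' i).redF (algebraMap F F' f) = R.redF f) ∧
      (∀ i, θ ∈ (R' i).O ∧ ∃ ξ : k, ξ ≠ 0 ∧ ξ ^ d = c₀ ∧ (R' i).redF θ = algebraMap k Fb ξ) ∧
      (∀ i j, i ≠ j → (R' i).redF θ ≠ (R' j).redF θ) ∧
      (∀ i j, i ≠ j → ¬ (R' i).O ≤ (R' j).O) ∧
      (∀ O' : ValuationSubring F', (∀ f : F, algebraMap F F' f ∈ O' ↔ f ∈ R.O) →
        ∃ i, O' = (R' i).O) ∧
      (∀ c : Fin d → F, (∀ i, ∑ l, algebraMap F F' (c l) * θ ^ (l : ℕ) ∈ (R' i).O) ↔
        ∀ l, c l ∈ R.O) := by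
  classical
  have : NeZero (d : k) := ⟨hdk⟩
  obtain ⟨ω, hω⟩ := HasEnoughRootsOfUnity.exists_primitiveRoot k d
  obtain ⟨ξ₀, hξ₀⟩ := IsAlgClosed.exists_pow_nat_eq c₀ hd
  have hξ₀0 : ξ₀ ≠ 0 := by
    rintro rfl
    rw [zero_pow hd.ne'] at hξ₀
    exact hc₀ hξ₀.symm
  have hinj : Function.Injective (algebraMap k Fb) := (algebraMap k Fb).injective
  let β : Fin d → Fb := fun i => algebraMap k Fb (ω ^ (i : ℕ) * ξ₀)
  have hβ : Function.Injective β := by
    intro i j hij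
    have h1 : ω ^ (i : ℕ) * ξ₀ = ω ^ (j : ℕ) * ξ₀ := hinj hij
    exact Fin.ext (hω.pow_inj i.2 j.2 (mul_right_cancel₀ hξ₀0 h1))
  have hvred' : R.red ⟨v, hv⟩ = algebraMap k Fb c₀ := by
    rw [← h39_RedDatum.redF_of_mem R hv]
    exact hvred
  let Φ : Polynomial R.O := X ^ d - C ⟨v, hv⟩
  have hmon : Φ.Monic := monic_X_pow_sub_C _ hd.ne'
  have hdeg : Φ.natDegree = d := natDegree_X_pow_sub_C
  have hroot : Φ.eval₂ ((algebraMap F F').comp R.O.subtype) θ = 0 := by
    change (X ^ d - C (⟨v, hv⟩ : R.O)).eval₂ ((algebraMap F F').comp R.O.subtype) θ = 0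
    rw [eval₂_sub, eval₂_pow, eval₂_X, eval₂_C, hθ]
    exact sub_self _
  have hprod : Φ.map R.red = ∏ i, (X - C (β i)) := by
    change (X ^ d - C (⟨v, hv⟩ : R.O)).map R.red = _
    rw [Polynomial.map_sub, Polynomial.map_pow, Polynomial.map_X, Polynomial.map_C, hvred']
    have hω' : IsPrimitiveRoot (algebraMap k Fb ω) d := hω.map_of_injective hinj
    have e1 : (algebraMap k Fb ξ₀) ^ d = algebraMap k Fb c₀ := by rw [← map_pow, hξ₀]
    rw [X_pow_sub_C_eq_prod hω' hd e1, ← Fin.prod_univ_eq_prod_range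
      (fun i => (X - C ((algebraMap k Fb ω) ^ i * algebraMap k Fb ξ₀) : Polynomial Fb)) d]
    refine Finset.prod_congr rfl fun i _ => ?_
    have e2 : algebraMap k Fb (ω ^ (i : ℕ) * ξ₀) =
        (algebraMap k Fb ω) ^ (i : ℕ) * algebraMap k Fb ξ₀ := by rw [map_mul, map_pow]
    change _ = X - C (algebraMap k Fb (ω ^ (i : ℕ) * ξ₀))
    rw [e2]
  obtain ⟨R', h1, h2, h3, h4, h5, h6, h7, h8⟩ :=
    h44_splitStep R hA1 θ d Φ hmon hdeg hroot hspan hli β hβ hprod
  refine ⟨R', h1, h2, h3, h4, ?_, ?_, h6, h7, h8⟩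
  · intro i
    refine ⟨(h5 i).1, ω ^ (i : ℕ) * ξ₀, mul_ne_zero (pow_ne_zero _ (hω.ne_zero hd.ne')) hξ₀0,
      ?_, (h5 i).2⟩
    rw [mul_pow, ← pow_mul, mul_comm (i : ℕ) d, pow_mul, hω.pow_eq_one, one_pow, one_mul, hξ₀]
  · intro i j hij h
    rw [(h5 i).2, (h5 j).2] at h
    exact hij (hβ h)

end Step

section KummerDegree

variable {E F' : Type*} [Field E] [Field F'] [Algebra E F']

/-- In a Kummer situation the power `θ ^ e`, `e` the degree of `θ` over `E`, lies in `E`. -/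
theorem h44_pow_minpoly_degree_mem (m : ℕ) (hm : 0 < m) (ζ : E) (hζ : IsPrimitiveRoot ζ m)
    (θ : F') (hθ0 : θ ≠ 0) (u : E) (hθ : θ ^ m = algebraMap E F' u) :
    ∃ v : E, θ ^ (minpoly E θ).natDegree = algebraMap E F' v := by
  have : NeZero m := ⟨hm.ne'⟩
  have hint : IsIntegral E θ := by
    refine ⟨X ^ m - C u, monic_X_pow_sub_C u hm.ne', ?_⟩
    rw [eval₂_sub, eval₂_pow, eval₂_X, eval₂_C, hθ, sub_self]
  let pb := IntermediateField.adjoin.powerBasis hint
  have hgen : ((pb.gen : E⟮θ⟯) : F') = θ := IntermediateField.AdjoinSimple.coe_gen E θ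
  have hdim : pb.dim = (minpoly E θ).natDegree := rfl
  have hgm : pb.gen ^ m = algebraMap E E⟮θ⟯ u := by
    apply Subtype.ext
    rw [IntermediateField.coe_pow, hgen, hθ]
    rfl
  set N : E := Algebra.norm E pb.gen with hN
  have h1 : N ^ m = u ^ (minpoly E θ).natDegree := by
    rw [hN, ← map_pow, hgm, Algebra.norm_algebraMap, PowerBasis.finrank pb, hdim]
  have h2 : (algebraMap E F' N / θ ^ (minpoly E θ).natDegree) ^ m = 1 := by
    rw [div_pow, ← map_pow, h1, map_pow, ← hθ, ← pow_mul, ← pow_mul, mul_comm]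
    exact div_self (pow_ne_zero _ hθ0)
  have hζ' : IsPrimitiveRoot (algebraMap E F' ζ) m :=
    hζ.map_of_injective (algebraMap E F').injective
  obtain ⟨i, -, hi⟩ := hζ'.eq_pow_of_pow_eq_one h2
  have hζ0 : ζ ≠ 0 := hζ.ne_zero hm.ne'
  refine ⟨N / ζ ^ i, ?_⟩
  rw [map_div₀, map_pow, hi]
  have h3 : algebraMap E F' N ≠ 0 := by
    intro h0
    rw [h0, zero_div] at hi
    exact (pow_ne_zero i ((_root_.map_ne_zero _).mpr hζ0)) hi
  field_simp

/-- **Kummer degree.** -/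
theorem h44_kummer_degree (m : ℕ) (hm : 0 < m) (ζ : E) (hζ : IsPrimitiveRoot ζ m)
    (θ : F') (hθ0 : θ ≠ 0) (u : E) (hθ : θ ^ m = algebraMap E F' u) :
    ∃ (d : ℕ) (v : E), 0 < d ∧ d ∣ m ∧ θ ^ d = algebraMap E F' v ∧
      (minpoly E θ).natDegree = d := by
  classical
  have hex : ∃ d : ℕ, 0 < d ∧ ∃ v : E, θ ^ d = algebraMap E F' v := ⟨m, hm, u, hθ⟩
  obtain ⟨hd, v, hv⟩ := Nat.find_spec hex
  set d := Nat.find hex with hdd
  have hint : IsIntegral E θ := by
    refine ⟨X ^ m - C u, monic_X_pow_sub_C u hm.ne', ?_⟩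
    rw [eval₂_sub, eval₂_pow, eval₂_X, eval₂_C, hθ, sub_self]
  have hv0 : v ≠ 0 := by
    rintro rfl
    rw [map_zero] at hv
    exact pow_ne_zero _ hθ0 hv
  refine ⟨d, v, hd, ?_, hv, ?_⟩
  · -- `d ∣ m`
    apply Nat.dvd_of_mod_eq_zero
    by_contra hr
    have hr0 : 0 < m % d := Nat.pos_of_ne_zero hr
    have hlt : m % d < d := Nat.mod_lt _ hd
    have h1 : θ ^ (m % d) = algebraMap E F' (u / v ^ (m / d)) := by
      have h2 : θ ^ m = (θ ^ d) ^ (m / d) * θ ^ (m % d) := by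
        rw [← pow_mul, ← pow_add, Nat.div_add_mod]
      rw [hθ, hv] at h2
      rw [map_div₀, map_pow, h2]
      have h3 : algebraMap E F' v ≠ 0 := (_root_.map_ne_zero _).mpr hv0
      field_simp
    exact absurd (Nat.find_min' hex ⟨hr0, _, h1⟩) (not_le.mpr hlt)
  · apply le_antisymm
    · have hp : (X ^ d - C v : Polynomial E) ≠ 0 := (monic_X_pow_sub_C v hd.ne').ne_zero
      have hroot : aeval θ (X ^ d - C v : Polynomial E) = 0 := by
        rw [map_sub, map_pow, aeval_X, aeval_C, hv, sub_self]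
      have h1 := natDegree_le_natDegree (minpoly.degree_le_of_ne_zero E θ hp hroot)
      rwa [natDegree_X_pow_sub_C] at h1
    · obtain ⟨w, hw⟩ := h44_pow_minpoly_degree_mem m hm ζ hζ θ hθ0 u hθ
      exact Nat.find_min' hex ⟨minpoly.natDegree_pos hint, w, hw⟩

/-- Linear independence of `1, θ, …, θ^(d-1)` from the degree of the minimal polynomial. -/
theorem h44_li_of_natDegree (θ : F') (d : ℕ) (hd : (minpoly E θ).natDegree = d)
    (c : Fin d → E) (h : ∑ l, algebraMap E F' (c l) * θ ^ (l : ℕ) = 0) : ∀ l, c l = 0 := by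
  subst hd
  have hli := linearIndependent_pow (K := E) θ
  rw [Fintype.linearIndependent_iff] at hli
  apply hli c
  rw [← h]
  refine Finset.sum_congr rfl fun l _ => ?_
  rw [Algebra.smul_def]

/-- Spanning of `E(θ) = F'` by `1, θ, …, θ^(d-1)`. -/
theorem h44_span_of_natDegree (θ : F') (hint : IsIntegral E θ) (d : ℕ)
    (hd : (minpoly E θ).natDegree = d) (htop : IntermediateField.adjoin E {θ} = ⊤) (f : F') :
    ∃ c : Fin d → E, f = ∑ l, algebraMap E F' (c l) * θ ^ (l : ℕ) := by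
  subst hd
  let pb := IntermediateField.adjoin.powerBasis hint
  have hgen : ((pb.gen : E⟮θ⟯) : F') = θ := IntermediateField.AdjoinSimple.coe_gen E θ
  have hf : f ∈ E⟮θ⟯ := by
    rw [htop]
    exact IntermediateField.mem_top
  have key : ∀ g : E⟮θ⟯, ∃ c : Fin (minpoly E θ).natDegree → E,
      (g : F') = ∑ l, algebraMap E F' (c l) * θ ^ (l : ℕ) := by
    intro g
    have hrepr := pb.basis.sum_repr g
    refine ⟨fun l => pb.basis.repr g l, ?_⟩
    have h1 := congrArg (Subtype.val : E⟮θ⟯ → F') hrepr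
    rw [← h1, IntermediateField.coe_sum]
    refine Finset.sum_congr rfl fun l _ => ?_
    rw [IntermediateField.coe_smul, pb.basis_eq_pow, IntermediateField.coe_pow, hgen,
      Algebra.smul_def]
  exact key ⟨f, hf⟩

end KummerDegree

end Fermat.Agent.S34
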