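import Mathlib
import Fermat.Agent.S18.Defs
import Fermat.Agent.S34.h44_KummerSplit

/-!
# Complete splitting of reduction data in multi-Kummer extensions (helper44)

`(R j)_{j ∈ J}` a family of S18 reduction data on `F` (rank-one constants, algebraically closed
residue field `k` of the constants), `F' = F(θ₁, …, θ_r)` with `θ_i ^ m = u_i ∈ F`, every `u_i` a
unit with constant reduction at every `R j`, `m` prime to the residue characteristic, `μ_m ⊆ F`.
Then every `(R j).O` has exactly `[F' : F]` extensions to `F'`, each a reduction datum with the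
same residue field, and `F'` has a monomial `F`-basis which is orthonormal for the sup-norm over
the extensions of each `R j` (`h44_kummerSplit`, conclusion `h44_KummerSplitConcl`).
-/

set_option autoImplicit false

noncomputable section

namespace Fermat.Agent.S34

open Polynomial IntermediateField Fermat.Agent.S18

universe u

/-- An element of an extension of an algebraically closed field `k` with a power in `k` lies in
`k`. -/
theorem h44_const_of_pow {k Fb : Type*} [Field k] [IsAlgClosed k] [Field Fb] [Algebra k Fb]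
    (e : ℕ) (he : 0 < e) (b : Fb) (c : k) (h : b ^ e = algebraMap k Fb c) :
    ∃ c' : k, b = algebraMap k Fb c' := by
  have hint : IsIntegral k b := by
    refine ⟨X ^ e - C c, monic_X_pow_sub_C c he.ne', ?_⟩
    rw [eval₂_sub, eval₂_pow, eval₂_X, eval₂_C, h, sub_self]
  have hdeg := IsAlgClosed.degree_eq_one_of_irreducible k (minpoly.irreducible hint)
  obtain ⟨c', hc'⟩ := minpoly.mem_range_of_degree_eq_one k b hdeg
  exact ⟨c', hc'.symm⟩

section Tower

variable {K F k : Type*} [Field K] [Field F] [Algebra K F] [Field k]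
  {J : Type*} {Fb : J → Type*} [∀ j, Field (Fb j)] [∀ j, Algebra k (Fb j)]

/-- The conclusion of the Kummer splitting theorem for the family `R` on `F`, the extension `F'`
and the set `T` of Kummer generators: a finite set `Ω` of sheets, data `R' j w` on `F'` extending
`R j` (all of them), and a monomial `F`-basis `b` of `F'` orthonormal over each `j`. -/
def h44_KummerSplitConcl (R : ∀ j, h39_RedDatum K F k (Fb j)) (F' : Type u) [Field F']
    [Algebra K F'] [Algebra F F'] (T : Set F') : Prop :=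
  ∃ (Ω : Type) (_ : Fintype Ω) (B : Type) (_ : Fintype B) (b : B → F'),
    Fintype.card Ω = Fintype.card B ∧
    (∀ f : F', ∃ c : B → F, f = ∑ l, algebraMap F F' (c l) * b l) ∧
    (∀ c : B → F, ∑ l, algebraMap F F' (c l) * b l = 0 → ∀ l, c l = 0) ∧
    (∀ l, b l ∈ Submonoid.closure T) ∧
    ∃ R' : ∀ j : J, Ω → h39_RedDatum K F' k (Fb j),
      (∀ j w, (R' j w).A = (R j).A) ∧ (∀ j w a, (R' j w).resK a = (R j).resK a) ∧
      (∀ j w (f : F), algebraMap F F' f ∈ (R' j w).O ↔ f ∈ (R j).O) ∧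
      (∀ j w (f : F), (R' j w).redF (algebraMap F F' f) = (R j).redF f) ∧
      (∀ j w, ∀ θ ∈ T, θ ∈ (R' j w).O ∧
        ∃ c : k, c ≠ 0 ∧ (R' j w).redF θ = algebraMap k (Fb j) c) ∧
      (∀ j w w', w ≠ w' → ∃ θ ∈ T, (R' j w).redF θ ≠ (R' j w').redF θ) ∧
      (∀ j w w', w ≠ w' → ¬ (R' j w).O ≤ (R' j w').O) ∧
      (∀ j (O' : ValuationSubring F'), (∀ f : F, algebraMap F F' f ∈ O' ↔ f ∈ (R j).O) →
        ∃ w, O' = (R' j w).O) ∧
      (∀ j (c : B → F), (∀ w, ∑ l, algebraMap F F' (c l) * b l ∈ (R' j w).O) ↔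
        ∀ l, c l ∈ (R j).O)

/-- Base case: `F' = F`. -/
theorem h44_kummerSplit_base (R : ∀ j, h39_RedDatum K F k (Fb j))
    (hA1 : ∀ j, h39_RankOne (R j).A) (F' : Type u) [Field F'] [Algebra K F'] [Algebra F F']
    [IsScalarTower K F F'] (hsurj : Function.Surjective (algebraMap F F')) :
    h44_KummerSplitConcl R F' (∅ : Set F') := by
  classical
  have step : ∀ j, ∃ R' : Fin 1 → h39_RedDatum K F' k (Fb j),
      (∀ i, (R' i).A = (R j).A) ∧ (∀ i a, (R' i).resK a = (R j).resK a) ∧
      (∀ i (f : F), algebraMap F F' f ∈ (R' i).O ↔ f ∈ (R j).O) ∧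
      (∀ i (f : F), (R' i).redF (algebraMap F F' f) = (R j).redF f) ∧
      (∀ i, (1 : F') ∈ (R' i).O ∧ (R' i).redF (1 : F') = (fun _ : Fin 1 => (1 : Fb j)) i) ∧
      (∀ i i', i ≠ i' → ¬ (R' i).O ≤ (R' i').O) ∧
      (∀ O' : ValuationSubring F', (∀ f : F, algebraMap F F' f ∈ O' ↔ f ∈ (R j).O) →
        ∃ i, O' = (R' i).O) ∧
      (∀ c : Fin 1 → F, (∀ i, ∑ l, algebraMap F F' (c l) * (1 : F') ^ (l : ℕ) ∈ (R' i).O) ↔
        ∀ l, c l ∈ (R j).O) := by
    intro j
    refine h44_splitStep (R j) (hA1 j) (1 : F') 1 (X - C 1) (monic_X_sub_C 1)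
      (natDegree_X_sub_C 1) ?_ ?_ ?_ (fun _ => 1) (Function.injective_of_subsingleton _) ?_
    · rw [eval₂_sub, eval₂_X, eval₂_C, map_one, sub_self]
    · intro f
      obtain ⟨f₀, rfl⟩ := hsurj f
      refine ⟨fun _ => f₀, ?_⟩
      rw [Fin.sum_univ_one, one_pow, mul_one]
    · intro c h l
      rw [Fin.sum_univ_one, one_pow, mul_one] at h
      have h0 : c 0 = 0 := (_root_.map_eq_zero _).mp h
      rw [Subsingleton.elim l 0]
      exact h0
    · rw [Polynomial.map_sub, Polynomial.map_X, Polynomial.map_C, map_one, Fin.prod_univ_one]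
  choose R₁ s1 s2 s3 s4 s5 s6 s7 s8 using step
  refine ⟨Fin 1, inferInstance, Fin 1, inferInstance, fun l => (1 : F') ^ (l : ℕ), rfl, ?_, ?_, ?_,
    R₁, s1, s2, s3, s4, ?_, ?_, s6, s7, s8⟩
  · intro f
    obtain ⟨f₀, rfl⟩ := hsurj f
    refine ⟨fun _ => f₀, ?_⟩
    simp only [Fin.sum_univ_one, one_pow, mul_one]
  · intro c h l
    simp only [Fin.sum_univ_one, one_pow, mul_one] at h
    have h0 : c 0 = 0 := (_root_.map_eq_zero _).mp h
    rw [Subsingleton.elim l 0]
    exact h0
  · intro l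
    simp only [one_pow]
    exact Submonoid.one_mem _
  · intro j w θ hθ
    exact absurd hθ (Set.notMem_empty θ)
  · intro j w w' h
    exact absurd (Subsingleton.elim w w') h

/-- Inductive step: one more Kummer generator. -/
theorem h44_kummerSplit_step [IsAlgClosed k] (R : ∀ j, h39_RedDatum K F k (Fb j))
    (hA1 : ∀ j, h39_RankOne (R j).A) (m : ℕ) (hm : (m : k) ≠ 0) (ζ : F)
    (hζ : IsPrimitiveRoot ζ m) {F' : Type u} [Field F'] [Algebra K F'] [Algebra F F']
    [IsScalarTower K F F'] (E : IntermediateField F F') (T₀ : Set E)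
    (h0 : h44_KummerSplitConcl R E T₀) (θ : F')
    (htop : IntermediateField.adjoin E ({θ} : Set F') = ⊤) (u : F) (hu0 : u ≠ 0)
    (hθ : θ ^ m = algebraMap F F' u)
    (hu : ∀ j, u ∈ (R j).O ∧ ∃ c : k, c ≠ 0 ∧ (R j).redF u = algebraMap k (Fb j) c) :
    h44_KummerSplitConcl R F' (insert θ ((fun x : E => (x : F')) '' T₀)) := by
  classical
  obtain ⟨Ω₀, hΩ₀, B₀, hB₀, b₀, hcard, hspan₀, hli₀, hmon₀, R₀, c1, c2, c3, c4, c5, csep, c6, c7,
    c8⟩ := h0
  let _ : Fintype Ω₀ := hΩ₀
  let _ : Fintype B₀ := hB₀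
  have : IsScalarTower K E F' := IsScalarTower.of_algebraMap_eq (fun a => rfl)
  have hm0 : 0 < m := by
    apply Nat.pos_of_ne_zero
    rintro rfl
    exact hm Nat.cast_zero
  have hθ0 : θ ≠ 0 := by
    rintro rfl
    rw [zero_pow hm0.ne'] at hθ
    exact hu0 ((_root_.map_eq_zero _).mp hθ.symm)
  have hθE : θ ^ m = algebraMap E F' (algebraMap F E u) := hθ
  have hζE : IsPrimitiveRoot (algebraMap F E ζ) m :=
    hζ.map_of_injective (algebraMap F E).injective
  obtain ⟨d, v, hd, hdm, hθd, hnat⟩ := h44_kummer_degree m hm0 _ hζE θ hθ0 _ hθE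
  have hint : IsIntegral E θ := by
    refine ⟨X ^ d - C v, monic_X_pow_sub_C v hd.ne', ?_⟩
    rw [eval₂_sub, eval₂_pow, eval₂_X, eval₂_C, hθd, sub_self]
  have hspan := h44_span_of_natDegree θ hint d hnat htop
  have hli := h44_li_of_natDegree (E := E) θ d hnat
  obtain ⟨e, he⟩ := hdm
  have hdk : (d : k) ≠ 0 := by
    intro h0
    apply hm
    rw [he, Nat.cast_mul, h0, zero_mul]
  have he0 : 0 < e := by
    apply Nat.pos_of_ne_zero
    rintro rfl
    rw [mul_zero] at he
    exact hm0.ne' he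
  have hve : v ^ e = algebraMap F E u := by
    apply (algebraMap E F').injective
    rw [map_pow, ← hθd, ← pow_mul, ← he]
    exact hθE
  have hv : ∀ j w, v ∈ (R₀ j w).O ∧
      ∃ c : k, c ≠ 0 ∧ (R₀ j w).redF v = algebraMap k (Fb j) c := by
    intro j w
    obtain ⟨huO, c, hc0, hcu⟩ := hu j
    have h1 : v ^ e ∈ (R₀ j w).O := by
      rw [hve]
      exact (c3 j w u).mpr huO
    have hvO : v ∈ (R₀ j w).O := by
      rw [← ValuationSubring.valuation_le_one_iff] at h1 ⊢
      rw [map_pow] at h1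
      exact (pow_le_one_iff_of_nonneg zero_le he0.ne').mp h1
    refine ⟨hvO, ?_⟩
    have h2 : ((R₀ j w).redF v) ^ e = algebraMap k (Fb j) c := by
      rw [h39_RedDatum.redF_of_mem _ hvO, ← map_pow]
      have e1 : (⟨v, hvO⟩ : (R₀ j w).O) ^ e = ⟨v ^ e, h1⟩ := rfl
      rw [e1, ← h39_RedDatum.redF_of_mem _ h1, hve, c4 j w u, hcu]
    obtain ⟨c', hc'⟩ := h44_const_of_pow e he0 _ c h2
    refine ⟨c', ?_, hc'⟩
    rintro rfl
    rw [hc', map_zero, zero_pow he0.ne'] at h2
    exact hc0 ((_root_.map_eq_zero _).mp h2.symm)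
  have step : ∀ j w, ∃ R' : Fin d → h39_RedDatum K F' k (Fb j),
      (∀ i, (R' i).A = (R₀ j w).A) ∧ (∀ i a, (R' i).resK a = (R₀ j w).resK a) ∧
      (∀ i (f : E), algebraMap E F' f ∈ (R' i).O ↔ f ∈ (R₀ j w).O) ∧
      (∀ i (f : E), (R' i).redF (algebraMap E F' f) = (R₀ j w).redF f) ∧
      (∀ i, θ ∈ (R' i).O ∧ ∃ ξ : k, ξ ≠ 0 ∧ ξ ^ d = (hv j w).2.choose ∧
        (R' i).redF θ = algebraMap k (Fb j) ξ) ∧
      (∀ i i', i ≠ i' → (R' i).redF θ ≠ (R' i').redF θ) ∧
      (∀ i i', i ≠ i' → ¬ (R' i).O ≤ (R' i').O) ∧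
      (∀ O' : ValuationSubring F', (∀ f : E, algebraMap E F' f ∈ O' ↔ f ∈ (R₀ j w).O) →
        ∃ i, O' = (R' i).O) ∧
      (∀ c : Fin d → E, (∀ i, ∑ l, algebraMap E F' (c l) * θ ^ (l : ℕ) ∈ (R' i).O) ↔
        ∀ l, c l ∈ (R₀ j w).O) := by
    intro j w
    have hA : h39_RankOne (R₀ j w).A := by
      rw [c1 j w]
      exact hA1 j
    exact h44_kummerStep (R₀ j w) hA θ d hd hdk v hθd hspan hli (hv j w).1 (hv j w).2.choose
      (hv j w).2.choose_spec.1 (hv j w).2.choose_spec.2
  choose R₁ s1 s2 s3 s4 s5 s6 s7 s8 s9 using step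
  -- resummation
  have hsum : ∀ c : B₀ × Fin d → F,
      ∑ p, algebraMap F F' (c p) * (algebraMap E F' (b₀ p.1) * θ ^ (p.2 : ℕ)) =
        ∑ l : Fin d, algebraMap E F' (∑ i, algebraMap F E (c (i, l)) * b₀ i) * θ ^ (l : ℕ) := by
    intro c
    rw [Fintype.sum_prod_type_right]
    refine Finset.sum_congr rfl fun l _ => ?_
    rw [map_sum, Finset.sum_mul]
    refine Finset.sum_congr rfl fun i _ => ?_
    rw [map_mul, ← mul_assoc]
    rfl
  refine ⟨Ω₀ × Fin d, inferInstance, B₀ × Fin d, inferInstance,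
    fun p => algebraMap E F' (b₀ p.1) * θ ^ (p.2 : ℕ), ?_, ?_, ?_, ?_,
    fun j p => R₁ j p.1 p.2, ?_, ?_, ?_, ?_, ?_, ?_, ?_, ?_, ?_⟩
  · rw [Fintype.card_prod, Fintype.card_prod, hcard]
  · intro f
    obtain ⟨C, hC⟩ := hspan f
    choose c hc using fun l => hspan₀ (C l)
    refine ⟨fun p => c p.2 p.1, ?_⟩
    rw [hsum, hC]
    refine Finset.sum_congr rfl fun l _ => ?_
    rw [hc l]
  · intro c h p
    rw [hsum] at h
    exact hli₀ (fun i => c (i, p.2)) (hli _ h p.2) p.1
  · intro p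
    refine mul_mem ?_ (pow_mem (Submonoid.subset_closure (Set.mem_insert _ _)) _)
    have key : ∀ x : E, x ∈ Submonoid.closure T₀ →
        (x : F') ∈ Submonoid.closure (insert θ ((fun x : E => (x : F')) '' T₀)) := by
      intro x hx
      induction hx using Submonoid.closure_induction with
      | mem x hx => exact Submonoid.subset_closure (Set.mem_insert_of_mem _ ⟨x, hx, rfl⟩)
      | one => exact Submonoid.one_mem _
      | mul x y _ _ hx hy => exact mul_mem hx hy
    exact key _ (hmon₀ p.1)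
  · exact fun j p => (s1 j p.1 p.2).trans (c1 j p.1)
  · exact fun j p a => (s2 j p.1 p.2 a).trans (c2 j p.1 a)
  · exact fun j p f => (s3 j p.1 p.2 (algebraMap F E f)).trans (c3 j p.1 f)
  · exact fun j p f => (s4 j p.1 p.2 (algebraMap F E f)).trans (c4 j p.1 f)
  · rintro j p θ' (rfl | ⟨x, hx, rfl⟩)
    · obtain ⟨h1, ξ, hξ0, -, hξ⟩ := s5 j p.1 p.2
      exact ⟨h1, ξ, hξ0, hξ⟩
    · obtain ⟨h1, c, hc0, hc⟩ := c5 j p.1 x hx
      exact ⟨(s3 j p.1 p.2 x).mpr h1, c, hc0, (s4 j p.1 p.2 x).trans hc⟩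
  · rintro j ⟨w, i⟩ ⟨w', i'⟩ hne
    by_cases h : w = w'
    · subst h
      have hii : i ≠ i' := fun h => hne (by rw [h])
      exact ⟨θ, Set.mem_insert _ _, s6 j w i i' hii⟩
    · obtain ⟨x, hx, hxne⟩ := csep j w w' h
      refine ⟨(x : F'), Set.mem_insert_of_mem _ ⟨x, hx, rfl⟩, ?_⟩
      change (R₁ j w i).redF (algebraMap E F' x) ≠ (R₁ j w' i').redF (algebraMap E F' x)
      rw [s4, s4]
      exact hxne
  · rintro j ⟨w, i⟩ ⟨w', i'⟩ hne
    by_cases h : w = w'
    · subst h
      have hii : i ≠ i' := fun h => hne (by rw [h])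
      exact s7 j w i i' hii
    · intro hle
      apply c6 j w w' h
      intro x hx
      exact (s3 j w' i' x).mp (hle ((s3 j w i x).mpr hx))
  · intro j O' hO'
    obtain ⟨w, hw⟩ := c7 j (O'.comap (algebraMap E F')) (fun f => hO' f)
    obtain ⟨i, hi⟩ := s8 j w O' (fun x => by rw [← hw]; exact Iff.rfl)
    exact ⟨(w, i), hi⟩
  · intro j c
    simp only [hsum c]
    constructor
    · intro h p
      have h1 : ∀ w l, (∑ i, algebraMap F E (c (i, l)) * b₀ i) ∈ (R₀ j w).O :=
        fun w => (s9 j w _).mp (fun i => h (w, i))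
      exact (c8 j (fun i => c (i, p.2))).mp (fun w => h1 w p.2) p.1
    · intro h p
      exact (s9 j p.1 _).mpr (fun l => (c8 j (fun i => c (i, l))).mpr (fun i => h (i, l)) p.1) p.2

/-- **Kummer splitting, finset form.** -/
theorem h44_kummerSplit_finset [IsAlgClosed k] (R : ∀ j, h39_RedDatum K F k (Fb j))
    (hA1 : ∀ j, h39_RankOne (R j).A) (m : ℕ) (hm : (m : k) ≠ 0) (ζ : F)
    (hζ : IsPrimitiveRoot ζ m) :
    ∀ (n : ℕ) (F' : Type u) [Field F'] [Algebra K F'] [Algebra F F'] [IsScalarTower K F F']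
      (S : Finset F'), S.card ≤ n →
      (∀ θ ∈ S, ∃ u : F, u ≠ 0 ∧ θ ^ m = algebraMap F F' u ∧
        ∀ j, u ∈ (R j).O ∧ ∃ c : k, c ≠ 0 ∧ (R j).redF u = algebraMap k (Fb j) c) →
      IntermediateField.adjoin F (S : Set F') = ⊤ →
      h44_KummerSplitConcl R F' (S : Set F') := by
  have hbase : ∀ (F' : Type u) [Field F'] [Algebra K F'] [Algebra F F'] [IsScalarTower K F F'],
      IntermediateField.adjoin F ((∅ : Finset F') : Set F') = ⊤ →
      h44_KummerSplitConcl R F' ((∅ : Finset F') : Set F') := by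
    intro F' _ _ _ _ hgen
    rw [Finset.coe_empty] at hgen ⊢
    refine h44_kummerSplit_base R hA1 F' ?_
    intro f
    have hf : f ∈ (⊤ : IntermediateField F F') := IntermediateField.mem_top
    rw [← hgen, IntermediateField.adjoin_empty] at hf
    exact IntermediateField.mem_bot.mp hf
  intro n
  induction n with
  | zero =>
    intro F' _ _ _ _ S hcard _ hgen
    have hS0 : S = ∅ := Finset.card_eq_zero.mp (Nat.le_zero.mp hcard)
    subst hS0
    exact hbase F' hgen
  | succ n ih =>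
    intro F' _ _ _ _ S hcard hS hgen
    classical
    by_cases hSe : S = ∅
    · subst hSe
      exact hbase F' hgen
    obtain ⟨θ, hθS⟩ := Finset.nonempty_iff_ne_empty.mpr hSe
    let E : IntermediateField F F' :=
      IntermediateField.adjoin F ((S.erase θ : Finset F') : Set F')
    let S₀' : Finset E := (S.erase θ).subtype (fun x => x ∈ E)
    have hcard' : S₀'.card ≤ n := by
      have h1 : S₀'.card ≤ (S.erase θ).card := by
        rw [Finset.card_subtype]
        exact Finset.card_filter_le _ _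
      have h2 : (S.erase θ).card = S.card - 1 := Finset.card_erase_of_mem hθS
      omega
    have hS' : ∀ θ' ∈ S₀', ∃ u : F, u ≠ 0 ∧ θ' ^ m = algebraMap F E u ∧
        ∀ j, u ∈ (R j).O ∧ ∃ c : k, c ≠ 0 ∧ (R j).redF u = algebraMap k (Fb j) c := by
      intro θ' hθ'
      have h1 : (θ' : F') ∈ S := Finset.mem_of_mem_erase (Finset.mem_subtype.mp hθ')
      obtain ⟨u, hu0, hu1, hu2⟩ := hS _ h1
      exact ⟨u, hu0, Subtype.ext hu1, hu2⟩
    have himg : ((fun x : E => (x : F')) '' (S₀' : Set E)) =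
        ((S.erase θ : Finset F') : Set F') := by
      ext x
      constructor
      · rintro ⟨y, hy, rfl⟩
        exact Finset.mem_coe.mpr (Finset.mem_subtype.mp (Finset.mem_coe.mp hy))
      · intro hx
        exact ⟨⟨x, IntermediateField.subset_adjoin F _ hx⟩,
          Finset.mem_coe.mpr (Finset.mem_subtype.mpr (Finset.mem_coe.mp hx)), rfl⟩
    have hgen' : IntermediateField.adjoin F (S₀' : Set E) = ⊤ := by
      apply IntermediateField.map_injective E.val
      rw [IntermediateField.adjoin_map, ← AlgHom.fieldRange_eq_map,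
        IntermediateField.fieldRange_val]
      have h1 : (E.val '' (S₀' : Set E)) = ((S.erase θ : Finset F') : Set F') := himg
      rw [h1]
    have h0 := ih E S₀' hcard' hS' hgen'
    have htop : IntermediateField.adjoin E ({θ} : Set F') = ⊤ := by
      apply IntermediateField.restrictScalars_injective F
      rw [IntermediateField.restrictScalars_top]
      change (IntermediateField.adjoin
        (IntermediateField.adjoin F ((S.erase θ : Finset F') : Set F'))
        ({θ} : Set F')).restrictScalars F = ⊤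
      rw [IntermediateField.adjoin_adjoin_left, ← hgen, Finset.coe_erase, Set.sdiff_union_self,
        Set.union_singleton, Set.insert_eq_of_mem (Finset.mem_coe.mpr hθS)]
    obtain ⟨u, hu0, hu1, hu2⟩ := hS θ hθS
    have key := h44_kummerSplit_step R hA1 m hm ζ hζ E (S₀' : Set E) h0 θ htop u hu0 hu1 hu2
    have hset : (insert θ ((fun x : E => (x : F')) '' (S₀' : Set E)) : Set F') = (S : Set F') := by
      rw [himg, Finset.coe_erase, Set.insert_sdiff_singleton,
        Set.insert_eq_of_mem (Finset.mem_coe.mpr hθS)]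
    rw [hset] at key
    exact key

/-- **Kummer splitting.** `F' = F(θ i : i)`, `θ i ^ m = u i`, every `u i` a unit with constant
reduction at every `R j`: every `R j` splits completely in `F'`. -/
theorem h44_kummerSplit [IsAlgClosed k] (R : ∀ j, h39_RedDatum K F k (Fb j))
    (hA1 : ∀ j, h39_RankOne (R j).A) (m : ℕ) (hm : (m : k) ≠ 0) (ζ : F)
    (hζ : IsPrimitiveRoot ζ m) {F' : Type u} [Field F'] [Algebra K F'] [Algebra F F']
    [IsScalarTower K F F'] {ι : Type*} [Fintype ι] (u : ι → F) (θ : ι → F')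
    (hθ : ∀ i, θ i ^ m = algebraMap F F' (u i)) (hu0 : ∀ i, u i ≠ 0)
    (hu : ∀ i j, u i ∈ (R j).O ∧ ∃ c : k, c ≠ 0 ∧ (R j).redF (u i) = algebraMap k (Fb j) c)
    (hgen : Algebra.adjoin F (Set.range θ) = ⊤) :
    h44_KummerSplitConcl R F' (Set.range θ) := by
  classical
  have hcoe : ((Finset.univ.image θ : Finset F') : Set F') = Set.range θ := by
    rw [Finset.coe_image, Finset.coe_univ, Set.image_univ]
  have hgen' : IntermediateField.adjoin F ((Finset.univ.image θ : Finset F') : Set F') = ⊤ := by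
    rw [hcoe, eq_top_iff]
    intro x _
    have h1 := IntermediateField.algebra_adjoin_le_adjoin F (Set.range θ)
    have h2 : x ∈ Algebra.adjoin F (Set.range θ) := by
      rw [hgen]
      exact Algebra.mem_top
    exact h1 h2
  have key := h44_kummerSplit_finset R hA1 m hm ζ hζ (Finset.univ.image θ).card F'
    (Finset.univ.image θ) le_rfl ?_ hgen'
  · rw [hcoe] at key
    exact key
  · intro θ' hθ'
    obtain ⟨i, -, rfl⟩ := Finset.mem_image.mp hθ'
    exact ⟨u i, hu0 i, hθ i, hu i⟩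

end Tower

/-- The degree from a basis in sum form. -/
theorem h44_finrank_of_basis {F F' : Type*} [Field F] [Field F'] [Algebra F F'] {B : Type*}
    [Fintype B] (b : B → F')
    (hspan : ∀ f : F', ∃ c : B → F, f = ∑ l, algebraMap F F' (c l) * b l)
    (hli : ∀ c : B → F, ∑ l, algebraMap F F' (c l) * b l = 0 → ∀ l, c l = 0) :
    Module.finrank F F' = Fintype.card B := by
  classical
  have hli' : LinearIndependent F b := by
    rw [Fintype.linearIndependent_iff]
    intro g hg i
    apply hli g _ i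
    rw [← hg]
    refine Finset.sum_congr rfl fun l _ => ?_
    rw [Algebra.smul_def]
  have hsp : ⊤ ≤ Submodule.span F (Set.range b) := by
    intro f _
    obtain ⟨c, rfl⟩ := hspan f
    refine Submodule.sum_mem _ fun l _ => ?_
    rw [← Algebra.smul_def]
    exact Submodule.smul_mem _ _ (Submodule.subset_span ⟨l, rfl⟩)
  rw [Module.finrank_eq_card_basis (Module.Basis.mk hli' hsp)]

end Fermat.Agent.S34
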