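import Mathlib

/-!
# S34 — extending a ring automorphism to a splitting field / a Kummer extension (Mathlib only)

`τ : F ≃+* F` a ring automorphism of a field (NOT the identity on a base), `F'/F` a splitting
field of `p` AND of `p.map τ`.  Then `τ` extends to a ring automorphism of `F'`
(`h34_exists_ext_of_splitting`).  Kummer form (`h34_exists_ext_kummer`): `F' = F(θ_i)`,
`θ_i ^ m = u_i`, `F` contains a primitive `m`-th root of unity, and `τ` permutes the classes of
the `u_i` modulo `m`-th powers.  This is the lift `τ~` of an inertia element to the Kummer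
cover in Step 5 [TOR] of the route R85.
-/

open Polynomial

namespace Fermat.Agent.S34

/-- Two splitting fields, over two base fields identified by a ring isomorphism `τ`, of `p` and
`p.map τ`, are isomorphic over `τ`. -/
theorem h34_exists_equiv_of_splitting {F₁ F₂ L₁ L₂ : Type*} [Field F₁] [Field F₂] [Field L₁]
    [Field L₂] [Algebra F₁ L₁] [Algebra F₂ L₂] (τ : F₁ ≃+* F₂) (p : F₁[X])
    [h1 : IsSplittingField F₁ L₁ p] [h2 : IsSplittingField F₂ L₂ (p.map (τ : F₁ →+* F₂))] :
    ∃ φ : L₁ ≃+* L₂, ∀ a : F₁, φ (algebraMap F₁ L₁ a) = algebraMap F₂ L₂ (τ a) := by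
  let alg : Algebra F₁ L₂ := ((algebraMap F₂ L₂).comp (τ : F₁ →+* F₂)).toAlgebra
  have halg : ∀ a : F₁, algebraMap F₁ L₂ a = algebraMap F₂ L₂ (τ a) := fun a => rfl
  have halg' : algebraMap F₁ L₂ = (algebraMap F₂ L₂).comp (τ : F₁ →+* F₂) := rfl
  have hmap : p.map (algebraMap F₁ L₂) = (p.map (τ : F₁ →+* F₂)).map (algebraMap F₂ L₂) := by
    rw [Polynomial.map_map, halg']
  have hsf : IsSplittingField F₁ L₂ p := by
    refine ⟨?_, ?_⟩
    · rw [hmap]
      exact IsSplittingField.splits L₂ (p.map (τ : F₁ →+* F₂))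
    · have hroot : (p.rootSet L₂ : Set L₂) = (p.map (τ : F₁ →+* F₂)).rootSet L₂ := by
        unfold Polynomial.rootSet Polynomial.aroots
        rw [hmap]
      have key : ∀ x : L₂,
          x ∈ Algebra.adjoin F₂ ((p.map (τ : F₁ →+* F₂)).rootSet L₂ : Set L₂) →
          x ∈ Algebra.adjoin F₁ (p.rootSet L₂ : Set L₂) := by
        intro x hx
        induction hx using Algebra.adjoin_induction with
        | mem y hy => exact Algebra.subset_adjoin (hroot ▸ hy)
        | algebraMap b =>
          have : algebraMap F₂ L₂ b = algebraMap F₁ L₂ (τ.symm b) := by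
            rw [halg, RingEquiv.apply_symm_apply]
          rw [this]
          exact Subalgebra.algebraMap_mem _ _
        | add y z _ _ hy hz => exact Subalgebra.add_mem _ hy hz
        | mul y z _ _ hy hz => exact Subalgebra.mul_mem _ hy hz
      rw [eq_top_iff]
      intro x _
      apply key x
      rw [IsSplittingField.adjoin_rootSet L₂ (p.map (τ : F₁ →+* F₂))]
      exact Algebra.mem_top
  let e1 : L₁ ≃ₐ[F₁] SplittingField p := IsSplittingField.algEquiv L₁ p
  let e2 : L₂ ≃ₐ[F₁] SplittingField p := IsSplittingField.algEquiv L₂ p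
  refine ⟨(e1.trans e2.symm).toRingEquiv, fun a => ?_⟩
  have := (e1.trans e2.symm).commutes a
  rw [halg] at this
  exact this

/-- (EXT) A ring automorphism `τ` of `F` extends to a splitting field `F'` of `p` which is also
a splitting field of `p.map τ`. -/
theorem h34_exists_ext_of_splitting {F F' : Type*} [Field F] [Field F'] [Algebra F F']
    (τ : F ≃+* F) (p : F[X]) (h1 : IsSplittingField F F' p)
    (h2 : IsSplittingField F F' (p.map (τ : F →+* F))) :
    ∃ τ' : F' ≃+* F', ∀ a : F, τ' (algebraMap F F' a) = algebraMap F F' (τ a) :=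
  h34_exists_equiv_of_splitting τ p

/-- A finite product of Kummer polynomials `X ^ m - u i` with roots `θ i` generating `F'` has
`F'` as a splitting field (`F` contains a primitive `m`-th root of unity). -/
theorem h34_isSplittingField_kummer {F F' : Type*} [Field F] [Field F'] [Algebra F F']
    {m : ℕ} {ζ : F} (hζ : IsPrimitiveRoot ζ m) {ι : Type*} [Fintype ι]
    (u : ι → F) (θ : ι → F') (hθ : ∀ i, θ i ^ m = algebraMap F F' (u i)) (hm : 0 < m)
    (hgen : Algebra.adjoin F (Set.range θ) = ⊤) :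
    IsSplittingField F F' (∏ i, (X ^ m - C (u i))) := by
  have hζ' : IsPrimitiveRoot (algebraMap F F' ζ) m :=
    hζ.map_of_injective (algebraMap F F').injective
  have hne : ∀ i, (X ^ m - C (u i) : F[X]) ≠ 0 := fun i =>
    X_pow_sub_C_ne_zero hm (u i)
  refine ⟨?_, ?_⟩
  · rw [Polynomial.map_prod]
    refine Splits.prod fun i _ => ?_
    rw [Polynomial.map_sub, Polynomial.map_pow, Polynomial.map_X, Polynomial.map_C]
    exact X_pow_sub_C_splits_of_isPrimitiveRoot hζ' (hθ i)
  · rw [eq_top_iff, ← hgen]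
    apply Algebra.adjoin_mono
    rintro _ ⟨i, rfl⟩
    rw [Polynomial.mem_rootSet]
    refine ⟨Finset.prod_ne_zero_iff.mpr fun j _ => hne j, ?_⟩
    rw [map_prod]
    refine Finset.prod_eq_zero (Finset.mem_univ i) ?_
    simp [hθ i]

/-- (EXT-KUMMER) `F' = F(θ_i : i ∈ ι)`, `θ_i ^ m = u_i`, `μ_m ⊆ F`; `τ` a ring automorphism
of `F` with `τ (u i) = h i ^ m * u (π i)`, `h i ≠ 0`, `π` surjective.  Then `τ` extends to a
ring automorphism of `F'`. -/
theorem h34_exists_ext_kummer {F F' : Type*} [Field F] [Field F'] [Algebra F F']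
    {m : ℕ} (hm : 0 < m) {ζ : F} (hζ : IsPrimitiveRoot ζ m) {ι : Type*} [Fintype ι]
    (u : ι → F) (θ : ι → F') (hθ : ∀ i, θ i ^ m = algebraMap F F' (u i))
    (hgen : Algebra.adjoin F (Set.range θ) = ⊤)
    (τ : F ≃+* F) (π : ι → ι) (hπ : Function.Surjective π) (h : ι → F) (hh : ∀ i, h i ≠ 0)
    (hτ : ∀ i, τ (u i) = h i ^ m * u (π i)) :
    ∃ τ' : F' ≃+* F', ∀ a : F, τ' (algebraMap F F' a) = algebraMap F F' (τ a) := by
  have h1 := h34_isSplittingField_kummer hζ u θ hθ hm hgen
  -- the transported family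
  have hmap : (∏ i, (X ^ m - C (u i)) : F[X]).map (τ : F →+* F) =
      ∏ i, (X ^ m - C (h i ^ m * u (π i))) := by
    rw [Polynomial.map_prod]
    refine Finset.prod_congr rfl fun i _ => ?_
    rw [Polynomial.map_sub, Polynomial.map_pow, Polynomial.map_X, Polynomial.map_C]
    congr 2
    exact hτ i
  have hθ2 : ∀ i, (algebraMap F F' (h i) * θ (π i)) ^ m =
      algebraMap F F' (h i ^ m * u (π i)) := by
    intro i
    rw [mul_pow, hθ, map_mul, map_pow]
  have hgen2 : Algebra.adjoin F (Set.range fun i => algebraMap F F' (h i) * θ (π i)) = ⊤ := by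
    rw [eq_top_iff, ← hgen]
    apply Algebra.adjoin_le
    rintro _ ⟨j, rfl⟩
    obtain ⟨i, rfl⟩ := hπ j
    have hmem : algebraMap F F' (h i) * θ (π i) ∈
        Algebra.adjoin F (Set.range fun i => algebraMap F F' (h i) * θ (π i)) :=
      Algebra.subset_adjoin ⟨i, rfl⟩
    have h3 := Subalgebra.mul_mem _ (Subalgebra.algebraMap_mem
      (Algebra.adjoin F (Set.range fun i => algebraMap F F' (h i) * θ (π i))) ((h i)⁻¹)) hmem
    have h4 : algebraMap F F' ((h i)⁻¹) * (algebraMap F F' (h i) * θ (π i)) = θ (π i) := by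
      rw [← mul_assoc, ← map_mul, inv_mul_cancel₀ (hh i), map_one, one_mul]
    rw [h4] at h3
    exact h3
  have h2 : IsSplittingField F F' ((∏ i, (X ^ m - C (u i)) : F[X]).map (τ : F →+* F)) := by
    rw [hmap]
    exact h34_isSplittingField_kummer hζ (fun i => h i ^ m * u (π i))
      (fun i => algebraMap F F' (h i) * θ (π i)) hθ2 hm hgen2
  exact h34_exists_ext_of_splitting τ _ h1 h2

end Fermat.Agent.S34
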