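import Mathlib

/-!
# S34 / R85 Step 5 [TOR]: the pure group-theoretic core

Setting of R85 Step 5: `Ω₁`, `Ω₂` are the sheets of the Kummer cover over the two
components, every node `P : ι` gives a bijection `σ P : Ω₁ ≃ Ω₂` (R85 Step 3 =
`h98_pairing_global`), and the graph with edges `w -- σ P w` is connected
(R85 Step 4 = `h98_zariski_core`).

* `h98_conn_of_idem`   : connectedness in the subset form from the idempotent form
                         (the output shape of the Zariski core).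
* `h98_torsor_fix`     : a pair of maps `(t₁, t₂)` commuting with all `σ P` and fixing one
                         sheet fixes every sheet.
* `h98_centralize`     : an element acting trivially on the sheets and normalising a subgroup
                         that acts faithfully on the sheets centralises that subgroup.
* `h98_kummer_descent` : an automorphism `t` of `F'` commuting with `G'`, with
                         `g θ = ζ_g θ`, `t ζ_g = ζ_g`, has `t θ / θ` fixed by `G'`, hence in `F`.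
* `h98_torsor_core`    : the assembly: `t θ = h • θ` with `h ∈ F`.
-/

namespace Fermat.Agent.S34

/-- Connectedness of the sheet graph, subset form, from the idempotent form. -/
theorem h98_conn_of_idem {k : Type*} [Field k] {Ω₁ Ω₂ ι : Type*} (σ : ι → Ω₁ ≃ Ω₂)
    (hidem : ∀ v : Ω₁ ⊕ Ω₂ → k, v * v = v →
      (∀ P w, v (Sum.inr (σ P w)) = v (Sum.inl w)) → v = 0 ∨ v = 1)
    (S : Set (Ω₁ ⊕ Ω₂)) (hS : ∀ P w, Sum.inl w ∈ S ↔ Sum.inr (σ P w) ∈ S) :
    S = ∅ ∨ S = Set.univ := by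
  classical
  let v : Ω₁ ⊕ Ω₂ → k := fun x => if x ∈ S then 1 else 0
  have hv : v * v = v := by
    funext x
    by_cases hx : x ∈ S <;> simp [v, hx]
  have hglue : ∀ P w, v (Sum.inr (σ P w)) = v (Sum.inl w) := by
    intro P w
    by_cases hw : Sum.inl w ∈ S
    · have := (hS P w).1 hw
      simp [v, hw, this]
    · have : Sum.inr (σ P w) ∉ S := fun h => hw ((hS P w).2 h)
      simp [v, hw, this]
  rcases hidem v hv hglue with h | h
  · left
    ext x
    simp only [Set.mem_empty_iff_false, iff_false]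
    intro hx
    have := congrFun h x
    simp [v, hx] at this
  · right
    ext x
    simp only [Set.mem_univ, iff_true]
    by_contra hx
    have := congrFun h x
    simp [v, hx] at this

/-- A pair of maps on the sheets commuting with all gluing bijections and fixing one
sheet fixes every sheet (the sheet graph being connected). -/
theorem h98_torsor_fix {Ω₁ Ω₂ ι : Type*} (σ : ι → Ω₁ ≃ Ω₂)
    (hconn : ∀ S : Set (Ω₁ ⊕ Ω₂),
      (∀ P w, Sum.inl w ∈ S ↔ Sum.inr (σ P w) ∈ S) → S = ∅ ∨ S = Set.univ)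
    (t₁ : Ω₁ → Ω₁) (t₂ : Ω₂ → Ω₂) (hcomm : ∀ P w, σ P (t₁ w) = t₂ (σ P w))
    (w₀ : Ω₁) (h₀ : t₁ w₀ = w₀) : (∀ w, t₁ w = w) ∧ (∀ w, t₂ w = w) := by
  let S : Set (Ω₁ ⊕ Ω₂) := {x | Sum.elim (fun w => t₁ w = w) (fun w => t₂ w = w) x}
  have hS : ∀ P w, Sum.inl w ∈ S ↔ Sum.inr (σ P w) ∈ S := by
    intro P w
    show t₁ w = w ↔ t₂ (σ P w) = σ P w
    rw [← hcomm P w]
    exact ⟨fun h => by rw [h], fun h => (σ P).injective h⟩
  rcases hconn S hS with h | h
  · exfalso
    have : Sum.inl w₀ ∈ S := h₀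
    rw [h] at this
    exact this
  · refine ⟨fun w => ?_, fun w => ?_⟩
    · have : Sum.inl w ∈ S := by rw [h]; trivial
      exact this
    · have : Sum.inr w ∈ S := by rw [h]; trivial
      exact this

/-- Variant for a single map on `Ω₁ ⊕ Ω₂` preserving the two sides. -/
theorem h98_torsor_fix_sum {Ω₁ Ω₂ ι : Type*} (σ : ι → Ω₁ ≃ Ω₂)
    (hconn : ∀ S : Set (Ω₁ ⊕ Ω₂),
      (∀ P w, Sum.inl w ∈ S ↔ Sum.inr (σ P w) ∈ S) → S = ∅ ∨ S = Set.univ)
    (t : Ω₁ ⊕ Ω₂ → Ω₁ ⊕ Ω₂)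
    (hcomm : ∀ P w, ∃ w', t (Sum.inl w) = Sum.inl w' ∧ t (Sum.inr (σ P w)) = Sum.inr (σ P w'))
    (x₀ : Ω₁ ⊕ Ω₂) (h₀ : t x₀ = x₀) : ∀ x, t x = x := by
  let S : Set (Ω₁ ⊕ Ω₂) := {x | t x = x}
  have hS : ∀ P w, Sum.inl w ∈ S ↔ Sum.inr (σ P w) ∈ S := by
    intro P w
    obtain ⟨w', h1, h2⟩ := hcomm P w
    show t (Sum.inl w) = Sum.inl w ↔ t (Sum.inr (σ P w)) = Sum.inr (σ P w)
    rw [h1, h2]
    constructor
    · intro h
      rw [Sum.inl.inj h]
    · intro h
      rw [(σ P).injective (Sum.inr.inj h)]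
  rcases hconn S hS with h | h
  · exfalso
    have : x₀ ∈ S := h₀
    rw [h] at this
    exact this
  · intro x
    have : x ∈ S := by rw [h]; trivial
    exact this

/-- An element acting trivially on `Ω` and normalising a subgroup that acts faithfully on
`Ω` centralises that subgroup. -/
theorem h98_centralize {H Ω : Type*} [Group H] [MulAction H Ω] (G' : Subgroup H)
    (hfaith : ∀ g ∈ G', (∀ w : Ω, g • w = w) → g = 1)
    (t : H) (ht : ∀ w : Ω, t • w = w) (hnorm : ∀ g ∈ G', t * g * t⁻¹ ∈ G') :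
    ∀ g ∈ G', t * g = g * t := by
  intro g hg
  have ht' : ∀ w : Ω, t⁻¹ • w = w := fun w => by
    rw [inv_smul_eq_iff, ht]
  have hc : t * g * t⁻¹ * g⁻¹ = 1 := by
    apply hfaith _ (G'.mul_mem (hnorm g hg) (G'.inv_mem hg))
    intro w
    rw [mul_smul, mul_smul, mul_smul, ht', ht, smul_inv_smul]
  have h1 : t * g * t⁻¹ = g := by
    rw [mul_inv_eq_one] at hc
    exact hc
  calc t * g = t * g * t⁻¹ * t := by group
    _ = g * t := by rw [h1]

/-- Kummer descent: if `t` commutes with every `g ∈ G'`, and every `g ∈ G'` multiplies `θ`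
by a constant `ζ` fixed by `t`, then `t θ / θ` is fixed by `G'`. -/
theorem h98_kummer_fixed {F' : Type*} [Field F'] (G' : Subgroup (F' ≃+* F'))
    (t : F' ≃+* F') (hcomm : ∀ g ∈ G', t * g = g * t) (θ : F') (hθ : θ ≠ 0)
    (hev : ∀ g ∈ G', ∃ ζ : F', t ζ = ζ ∧ g θ = ζ * θ) :
    ∀ g ∈ G', g (t θ / θ) = t θ / θ := by
  intro g hg
  obtain ⟨ζ, hζ, hgθ⟩ := hev g hg
  have hζ0 : ζ ≠ 0 := by
    rintro rfl
    rw [zero_mul] at hgθ
    exact hθ ((map_eq_zero_iff g g.injective).1 hgθ)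
  have h1 : g (t θ) = t (g θ) := by
    have := congrArg (fun f : F' ≃+* F' => f θ) (hcomm g hg)
    simpa [RingAut.mul_apply] using this.symm
  have htθ : t θ ≠ 0 := fun h => hθ ((map_eq_zero_iff t t.injective).1 h)
  rw [map_div₀, h1, hgθ, map_mul, hζ]
  field_simp

/-- Kummer descent: as above, with the fixed field of `G'` equal to (the image of) `F`. -/
theorem h98_kummer_descent {F F' : Type*} [Field F] [Field F'] [Algebra F F']
    (G' : Subgroup (F' ≃+* F'))
    (hfix : ∀ y : F', (∀ g ∈ G', g y = y) → ∃ h : F, algebraMap F F' h = y)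
    (t : F' ≃+* F') (hcomm : ∀ g ∈ G', t * g = g * t) (θ : F') (hθ : θ ≠ 0)
    (hev : ∀ g ∈ G', ∃ ζ : F', t ζ = ζ ∧ g θ = ζ * θ) :
    ∃ h : F, h ≠ 0 ∧ t θ = algebraMap F F' h * θ := by
  obtain ⟨h, hh⟩ := hfix _ (h98_kummer_fixed G' t hcomm θ hθ hev)
  have htθ : t θ ≠ 0 := fun h => hθ ((map_eq_zero_iff t t.injective).1 h)
  refine ⟨h, ?_, ?_⟩
  · rintro rfl
    rw [map_zero] at hh
    exact (div_ne_zero htθ hθ) hh.symm
  · rw [hh, div_mul_cancel₀ _ hθ]

/-- **R85 Step 5, assembled core.**  `H = Aut(F')` acts on the sheets `Ω₁`, `Ω₂`; `G'` acts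
faithfully on `Ω₁`; `t` normalises `G'`, commutes with the gluing bijections `σ P` (whose graph
is connected) and fixes one sheet.  Then `t` centralises `G'`; if moreover every `g ∈ G'`
multiplies `θ` by a constant fixed by `t`, then `t θ = h θ` with `h ∈ F`, hence
`t (θ ^ m) = h ^ m * θ ^ m`. -/
theorem h98_torsor_core {F F' : Type*} [Field F] [Field F'] [Algebra F F']
    {Ω₁ Ω₂ ι : Type*} [MulAction (F' ≃+* F') Ω₁] [MulAction (F' ≃+* F') Ω₂]
    (σ : ι → Ω₁ ≃ Ω₂)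
    (hconn : ∀ S : Set (Ω₁ ⊕ Ω₂),
      (∀ P w, Sum.inl w ∈ S ↔ Sum.inr (σ P w) ∈ S) → S = ∅ ∨ S = Set.univ)
    (G' : Subgroup (F' ≃+* F'))
    (hfix : ∀ y : F', (∀ g ∈ G', g y = y) → ∃ h : F, algebraMap F F' h = y)
    (hfaith : ∀ g ∈ G', (∀ w : Ω₁, g • w = w) → g = 1)
    (t : F' ≃+* F') (hnorm : ∀ g ∈ G', t * g * t⁻¹ ∈ G')
    (hσ : ∀ P w, σ P (t • w) = t • σ P w)
    (w₀ : Ω₁) (h₀ : t • w₀ = w₀)
    (θ : F') (hθ : θ ≠ 0) (hev : ∀ g ∈ G', ∃ ζ : F', t ζ = ζ ∧ g θ = ζ * θ) (m : ℕ) :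
    ∃ h : F, h ≠ 0 ∧ t θ = algebraMap F F' h * θ ∧
      t (θ ^ m) = algebraMap F F' (h ^ m) * θ ^ m := by
  have hfixall := h98_torsor_fix σ hconn (fun w => t • w) (fun w => t • w) hσ w₀ h₀
  have hcomm := h98_centralize G' hfaith t hfixall.1 hnorm
  obtain ⟨h, hh0, hh⟩ := h98_kummer_descent G' hfix t hcomm θ hθ hev
  refine ⟨h, hh0, hh, ?_⟩
  rw [map_pow, hh, mul_pow, map_pow]

end Fermat.Agent.S34
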