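/-
S34 (helper10): (y-CHART) — a chart of the special fibre `Fb(M)` whose only pole is the cusp.

`h10_ychart` : at a charted level (`5 ≤ q ∨ 2 ∣ M ∨ 3 ∣ M`) there is `y ∈ Fb(M)` which is a
chart (`h75_IsChart`) and is regular exactly off the cusp `Qinf`: `y := red b_ν` with `q ∤ ν`
(`h10_exists_b`), which is not a `q`-th power because `q ∤ ord_Qinf y`.
-/
import Mathlib
import Fermat.Agent.S34.h10_XMod
import Fermat.Agent.S34.h84_FrobMod
import Fermat.Agent.S27.h6w_Sep

set_option autoImplicit false
set_option synthInstance.maxHeartbeats 400000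
set_option linter.style.haveILetI false

noncomputable section

namespace Fermat.Agent.S34

open AlgebraicCurve HahnSeries ModularCurve IntermediateField
open Fermat.Agent.S24 Fermat.Agent.S18 Fermat.Agent.S37 Fermat.Agent.S27

local notation "Qb" => AlgebraicClosure ℚ

section YChart

variable (M q : ℕ) [NeZero M] [NeZero q] [Fact q.Prime] (hqM : ¬ q ∣ M)
  (A : ValuationSubring Qb) (hA : A.LiesOverPrime q)

omit [NeZero q] in
include hqM hA in
/-- **(y-CHART)**: a chart of the special fibre whose only pole is the cusp. -/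
theorem h10_ychart (hch : 5 ≤ q ∨ 2 ∣ M ∨ 3 ∣ M)
    {Qinf : Place (IsLocalRing.ResidueField A)
      ↥(modularFunctionFieldFullC (IsLocalRing.ResidueField A) M)}
    (hQ : h10_IsCusp (modularFunctionFieldFullC (IsLocalRing.ResidueField A) M) Qinf) :
    ∃ y : ↥(modularFunctionFieldFullC (IsLocalRing.ResidueField A) M),
      h75_IsChart (IsLocalRing.ResidueField A) y ∧
      ∀ Q : Place (IsLocalRing.ResidueField A)
          ↥(modularFunctionFieldFullC (IsLocalRing.ResidueField A) M),
        y ∈ Q.toValuationSubring ↔ Q ≠ Qinf := by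
  have hq : q.Prime := Fact.out
  haveI : IsAlgClosed (IsLocalRing.ResidueField A) := h19_residueField_isAlgClosed A
  haveI : CharP (IsLocalRing.ResidueField A) q := h19_residueField_charP A q hA
  haveI : CharP ↥(modularFunctionFieldFullC (IsLocalRing.ResidueField A) M) q :=
    charP_of_injective_algebraMap
      (algebraMap (IsLocalRing.ResidueField A)
        ↥(modularFunctionFieldFullC (IsLocalRing.ResidueField A) M)).injective q
  haveI : ExpChar ↥(modularFunctionFieldFullC (IsLocalRing.ResidueField A) M) q :=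
    ExpChar.prime hq
  have hPM : h10_IsCusp (modularFunctionFieldBar M) (h11_placeInfty M) :=
    fun f hf => h11_placeInfty_ord M hf
  obtain ⟨ν₀, h⟩ := h10_exists_b M hqM A hA hch hPM hQ
  obtain ⟨b, hb, -, -, -, -, -, hrne, hrord, hrreg⟩ := h (q * ν₀ + 1)
    (by nlinarith [hq.pos])
  refine ⟨(h39_modRed M hqM A hA).red ⟨b, hb⟩, ?_, fun Q => ?_⟩
  · refine h34_isChart_of_not_mem q hq (h84_isChart_jk M q hqM A hA) _ ?_
    rw [h34_mem_pthPowers]
    rintro ⟨g, hg⟩
    have hg0 : g ≠ 0 := by
      rintro rfl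
      rw [zero_pow hq.ne_zero] at hg
      exact hrne hg.symm
    have h1 : Qinf.ord (g ^ q) = (q : ℤ) * Qinf.ord g := by
      rw [hQ.ord_eq, hQ.ord_eq]
      have : ((g ^ q : ↥(modularFunctionFieldFullC (IsLocalRing.ResidueField A) M)) :
          LaurentSeries (IsLocalRing.ResidueField A))
          = (g : LaurentSeries (IsLocalRing.ResidueField A)) ^ q := rfl
      rw [this, HahnSeries.order_pow]
      simp
    rw [hg, hrord] at h1
    have h2 : (q : ℤ) ∣ (q : ℤ) * (ν₀ : ℤ) + 1 := by
      refine ⟨-Qinf.ord g, ?_⟩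
      push_cast at h1
      linarith
    have h3 : (q : ℤ) ∣ 1 := by
      have h4 : (q : ℤ) ∣ (q : ℤ) * (ν₀ : ℤ) := dvd_mul_right _ _
      exact (dvd_add_right h4).mp h2
    have h5 : q ∣ 1 := by exact_mod_cast h3
    exact hq.one_lt.ne' (Nat.dvd_one.mp h5)
  · rw [h35_mem_iff_ord_nonneg Q hrne]
    constructor
    · rintro h0 rfl
      rw [hrord] at h0
      have h1 : (1 : ℤ) ≤ ((q * ν₀ + 1 : ℕ) : ℤ) := by
        exact_mod_cast Nat.succ_le_succ (Nat.zero_le (q * ν₀))
      linarith
    · exact hrreg Q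

end YChart

end Fermat.Agent.S34

end
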