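import Fermat.Agent.S34.h16_IntPair
import Fermat.Agent.S34.h60_R1AB
import Fermat.Agent.S34.h10_CuspMq
import Fermat.Agent.S34.h11_CuspLift
import Fermat.Agent.S18.h54_ModLevel

/-!
# S34 / (INT) for the two valuations of `F(Mq)` (helper16)

Context: `q ∤ M` prime, `A` a valuation ring of `ℚ̄` over `q`, `k` its residue field,
`F = F(Mq)`, `Fb = Fb(M)`; `R₁ = h60_R1` the `q`-expansion datum, `R₂` a second datum with
`O₂ = w⁻¹ O₁`, `red₂ = red₁ ∘ w` for the swap `w` (`w ∘ α = β`, `w ∘ β = α`, `w ∘ w = id`), the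
two valuation rings incomparable.  `P∞`, `P0` the two cusps of `F(Mq)` over `∞`, `Q∞` the cusp
of `Fb(M)`.

* `h16_int_mod₁` : `f ∈ L(n (P∞ + P0)) ∩ O₁ ∩ O₂ ⟹ red₁ f ∈ L(n Q∞)`.
* `h16_int_mod`  : the same for both reductions.
-/

set_option autoImplicit false
set_option synthInstance.maxHeartbeats 400000

noncomputable section

open IntermediateField Polynomial Module AlgebraicCurve ModularCurve

namespace Fermat.Agent.S34

open Fermat.Agent.S18 Fermat.Agent.S24 Fermat.Agent.S27 Fermat.Agent.S37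

local notation "Qb" => AlgebraicClosure ℚ

section LevelM

variable (M q : ℕ) [NeZero M] [NeZero q] [Fact q.Prime] (hqM : ¬ q ∣ M)
  (A : ValuationSubring Qb) (hA : A.LiesOverPrime q)
  {RM : h39_RedDatum Qb ↥(modularFunctionFieldBar M) (IsLocalRing.ResidueField A)
      ↥(modularFunctionFieldFullC (IsLocalRing.ResidueField A) M)}
  (hRM : h54_IsModRed M A RM)

include hRM in
/-- `red₁ (α b) = b̄`. -/
theorem h16_R1_redF_alpha {b : ↥(modularFunctionFieldBar M)} (hb : b ∈ RM.O) :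
    (h60_R1 M q hqM A hA).redF (heckeAlphaBar Qb M q b) = RM.redF b := by
  rw [(h60_R1 M q hqM A hA).redF_of_mem (h60_R1_alpha_mem M q hqM A hA hRM ⟨b, hb⟩),
    RM.redF_of_mem hb]
  exact h60_R1_alpha M q hqM A hA hRM ⟨b, hb⟩

include hRM in
/-- `red₁ (β b) = b̄(q^ℓ)`. -/
theorem h16_R1_redF_beta_coe {b : ↥(modularFunctionFieldBar M)} (hb : b ∈ RM.O) :
    (((h60_R1 M q hqM A hA).redF (heckeBetaBar Qb M q b) :
        ↥(modularFunctionFieldFullC (IsLocalRing.ResidueField A) M)) :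
          LaurentSeries (IsLocalRing.ResidueField A))
      = qExpand (IsLocalRing.ResidueField A) q
          ((RM.redF b : ↥(modularFunctionFieldFullC (IsLocalRing.ResidueField A) M)) :
            LaurentSeries (IsLocalRing.ResidueField A)) := by
  rw [(h60_R1 M q hqM A hA).redF_of_mem (h60_R1_beta_mem M q hqM A hA hRM ⟨b, hb⟩),
    RM.redF_of_mem hb]
  exact h60_R1_beta_coe M q hqM A hA hRM ⟨b, hb⟩

end LevelM

section Main

variable (M q : ℕ) [NeZero M] [NeZero q] [Fact q.Prime] (hqM : ¬ q ∣ M)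
  (A : ValuationSubring Qb) (hA : A.LiesOverPrime q)
  (w : ↥(modularFunctionFieldBar (M * q)) →+* ↥(modularFunctionFieldBar (M * q)))
  (hwα : ∀ y : ↥(modularFunctionFieldBar M), w (heckeAlphaBar Qb M q y) = heckeBetaBar Qb M q y)
  (hwβ : ∀ y : ↥(modularFunctionFieldBar M), w (heckeBetaBar Qb M q y) = heckeAlphaBar Qb M q y)
  (hww : ∀ x : ↥(modularFunctionFieldBar (M * q)), w (w x) = x)
  (R₂ : h39_RedDatum Qb ↥(modularFunctionFieldBar (M * q)) (IsLocalRing.ResidueField A)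
      ↥(modularFunctionFieldFullC (IsLocalRing.ResidueField A) M))
  (hR₂A : R₂.A = (h60_R1 M q hqM A hA).A)
  (hR₂O : ∀ f : ↥(modularFunctionFieldBar (M * q)), f ∈ R₂.O ↔ w f ∈ (h60_R1 M q hqM A hA).O)
  (hR₂red : ∀ f : ↥(modularFunctionFieldBar (M * q)),
    R₂.redF f = (h60_R1 M q hqM A hA).redF (w f))
  (hinc₁ : ¬ (h60_R1 M q hqM A hA).O ≤ R₂.O) (hinc₂ : ¬ R₂.O ≤ (h60_R1 M q hqM A hA).O)

include hwα hR₂A hR₂O hR₂red hinc₁ hinc₂ in
set_option maxHeartbeats 1600000 in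
/-- **(INT), first reduction**: `f ∈ L(n (P∞ + P0)) ∩ O₁ ∩ O₂` has `red₁ f ∈ L(n Q∞)`. -/
theorem h16_int_mod₁ (hch : 5 ≤ q ∨ 2 ∣ M ∨ 3 ∣ M)
    {Pinf P0 : Place Qb ↥(modularFunctionFieldBar (M * q))}
    (hPinf : h10_IsCusp (modularFunctionFieldBar (M * q)) Pinf) (hP0 : h10_IsCusp0 M q w P0)
    (n : ℕ) {f : ↥(modularFunctionFieldBar (M * q))}
    (hf : f ∈ riemannRochSpace
      (n • (Finsupp.single Pinf (1 : ℤ) + Finsupp.single P0 (1 : ℤ))))
    (hf₁ : f ∈ (h60_R1 M q hqM A hA).O) (hf₂ : f ∈ R₂.O) :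
    (h60_R1 M q hqM A hA).redF f ∈
      h16_Linf (h11_placeInftyC (IsLocalRing.ResidueField A) M) n := by
  classical
  have hRM : h54_IsModRed M A (h39_modRed M hqM A hA) := h39_modRed_spec M hqM A hA
  have hk : IsAlgClosed (IsLocalRing.ResidueField A) := h19_residueField_isAlgClosed A
  have hq : q.Prime := Fact.out
  have h12 : Pinf ≠ P0 := h10_cusp_ne_cusp0 hwα hq.two_le hPinf hP0
  obtain ⟨ν₀, hν₀⟩ := h11_exists_cusp_fn M hqM A hA hch
  obtain ⟨b, y, hby, hyo, hyu, hbreg, hbbreg⟩ := hν₀ (ν₀ + 1) (Nat.le_succ _)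
  have hνpos : 0 < ν₀ + 1 := Nat.succ_pos _
  -- level `M` facts
  have hbO : b ∈ (h39_modRed M hqM A hA).O := hRM.mem_of_integral b y hby
  have hbred := hRM.redF_of_integral b y hby
  have hlead : IsLocalRing.residue A (y.coeff y.order) ≠ 0 := by
    rw [hyo]
    exact (IsLocalRing.residue_ne_zero_iff_isUnit _).mpr hyu
  obtain ⟨hbne, hbord⟩ := h16_order_coeffMap_lead (IsLocalRing.residue A) y hlead
  have hb0 : (h39_modRed M hqM A hA).redF b ≠ 0 := by
    intro h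
    apply hbne
    rw [← hbred, h]
    rfl
  have hQb : (h11_placeInftyC (IsLocalRing.ResidueField A) M).ord
      ((h39_modRed M hqM A hA).redF b) = -((ν₀ + 1 : ℕ) : ℤ) := by
    rw [h11_placeInftyC_ord _ M hb0, hbred, hbord, hyo]
  -- the chart `x = α b`
  have hx₁ : heckeAlphaBar Qb M q b ∈ (h60_R1 M q hqM A hA).O :=
    h60_R1_alpha_mem M q hqM A hA hRM ⟨b, hbO⟩
  have hx₂ : heckeAlphaBar Qb M q b ∈ R₂.O := by
    rw [hR₂O, hwα]
    exact h60_R1_beta_mem M q hqM A hA hRM ⟨b, hbO⟩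
  have hred₁ : (h60_R1 M q hqM A hA).redF (heckeAlphaBar Qb M q b)
      = (h39_modRed M hqM A hA).redF b := h16_R1_redF_alpha M q hqM A hA hRM hbO
  have hred₂ := h16_R1_redF_beta_coe M q hqM A hA hRM hbO
  rw [← hwα, ← hR₂red] at hred₂
  have hQ₁ : (h11_placeInftyC (IsLocalRing.ResidueField A) M).ord
      ((h60_R1 M q hqM A hA).redF (heckeAlphaBar Qb M q b)) = -((ν₀ + 1 : ℕ) : ℤ) := by
    rw [hred₁]
    exact hQb
  have hord₂ : ((R₂.redF (heckeAlphaBar Qb M q b) :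
      ↥(modularFunctionFieldFullC (IsLocalRing.ResidueField A) M)) :
        LaurentSeries (IsLocalRing.ResidueField A)).order = -((q * (ν₀ + 1) : ℕ) : ℤ) := by
    rw [hred₂, h64_order_qExpand, hbred, hbord, hyo]
    push_cast
    ring
  have hx2ne : R₂.redF (heckeAlphaBar Qb M q b) ≠ 0 := by
    intro h
    rw [h] at hord₂
    have h0 : ((0 : ↥(modularFunctionFieldFullC (IsLocalRing.ResidueField A) M)) :
        LaurentSeries (IsLocalRing.ResidueField A)).order = 0 := HahnSeries.order_zero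
    rw [h0] at hord₂
    have : 0 < q * (ν₀ + 1) := Nat.mul_pos hq.pos hνpos
    omega
  have hQ₂ : (h11_placeInftyC (IsLocalRing.ResidueField A) M).ord
      (R₂.redF (heckeAlphaBar Qb M q b)) = -((q * (ν₀ + 1) : ℕ) : ℤ) := by
    rw [h11_placeInftyC_ord _ M hx2ne, hord₂]
  -- orders of `x` at the cusps
  have hbord' : (b : LaurentSeries Qb).order = -((ν₀ + 1 : ℕ) : ℤ) := by
    rw [hby, h64_order_coeffMap A.subtype Subtype.val_injective, hyo]
  have hP₁ : Pinf.ord (heckeAlphaBar Qb M q b) = -((ν₀ + 1 : ℕ) : ℤ) := by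
    rw [h10_ord_alpha hPinf, hbord']
  have hP₂ : P0.ord (heckeAlphaBar Qb M q b) = -((q * (ν₀ + 1) : ℕ) : ℤ) := by
    rw [h10_ord0_alpha hwα hP0, hbord']
    push_cast
    ring
  have hPM : h10_IsCusp (modularFunctionFieldBar M) (h11_placeInfty M) :=
    fun g hg => h11_placeInfty_ord M hg
  have hxreg : ∀ P : Place Qb ↥(modularFunctionFieldBar (M * q)), P ≠ Pinf → P ≠ P0 →
      0 ≤ P.ord (heckeAlphaBar Qb M q b) := fun P h1 h2 =>
    h10_polar_alpha hwα hq hqM hPM hPinf hP0 b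
      (fun v hv => h24_ord_nonneg_of_mem v (hbreg v hv)) P h1 h2
  -- charts for finiteness
  have hxF : h75_IsChart Qb (h59_jbar (M * q)) := h54_isChart_jbar (M * q)
  have hw := h39_modRed_weakChart_j M hqM A hA
  have ht : Transcendental (IsLocalRing.ResidueField A)
      ((h39_modRed M hqM A hA).redF (h59_jbar M)) := hw.transcendental
  have hfinb := (h39_weakChart_isChart_red (h39_modRed M hqM A hA) hw).fin
  -- membership of `f`
  rcases (h16_mem_L2 h12).mp hf with rfl | ⟨hfreg0, hfinf, -⟩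
  · rw [h39_redF_zero]
    exact Submodule.zero_mem _
  have hfreg : ∀ P : Place Qb ↥(modularFunctionFieldBar (M * q)), P ≠ Pinf → P ≠ P0 →
      f ∈ P.toValuationSubring := fun P h1 h2 => h24_mem_of_ord_nonneg P (hfreg0 P h1 h2)
  -- (REG)
  obtain ⟨hreg₁, -⟩ := h16_red_reg_pair_poles (h60_R1 M q hqM A hA) R₂ hR₂A.symm hinc₁ hinc₂
    hxF ht hx₁ hx₂ Pinf P0 h12 (h11_placeInftyC (IsLocalRing.ResidueField A) M)
    (h11_placeInftyC (IsLocalRing.ResidueField A) M) (ν₀ + 1) (q * (ν₀ + 1)) hνpos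
    (Nat.mul_pos hq.pos hνpos) hP₁ hP₂ hxreg hQ₁ hQ₂ hf₁ hf₂ hfreg
  -- (QINT)
  have hrk : h39_RankOne (h60_R1 M q hqM A hA).A := by
    rw [h60_R1_A]
    exact h64_rankOne_h39 hq A hA
  obtain ⟨X, hX⟩ := h16_coeffMap_cast (h60_R1_A M q hqM A hA).symm y
  obtain ⟨y₁, y₂, hy₂, hfy⟩ := (h60_R1_mem_iff M q hqM A hA f).mp hf₁
  obtain ⟨Y₁, hY₁⟩ := h16_coeffMap_cast (h60_R1_A M q hqM A hA).symm y₁
  obtain ⟨Y₂, hY₂⟩ := h16_coeffMap_cast (h60_R1_A M q hqM A hA).symm y₂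
  have hy₂' : coeffMap A.subtype y₂ ≠ 0 := by
    intro h0
    apply hy₂
    have : y₂ = 0 := by
      ext i
      have h1 := congrArg (fun z : LaurentSeries Qb => z.coeff i) h0
      simp only [coeffMap_coeff, HahnSeries.coeff_zero] at h1
      simpa using h1
    rw [this, map_zero]
  have hxexp : ((heckeAlphaBar Qb M q b : ↥(modularFunctionFieldBar (M * q))) :
      LaurentSeries Qb) = coeffMap A.subtype y := by
    rw [coe_heckeAlphaBar]
    exact hby
  obtain ⟨Y, hY⟩ := h16_qint_pair_poles (h60_R1 M q hqM A hA) R₂ hR₂A.symm hinc₁ hinc₂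
    hxF ht hx₁ hx₂ Pinf P0 h12 (h11_placeInftyC (IsLocalRing.ResidueField A) M)
    (h11_placeInftyC (IsLocalRing.ResidueField A) M) (ν₀ + 1) (q * (ν₀ + 1)) hνpos
    (Nat.mul_pos hq.pos hνpos) hP₁ hP₂ hxreg hQ₁ hQ₂ hf₁ hf₂ hfreg hrk
    (modularFunctionFieldBar (M * q)).val X (hX.trans hxexp.symm).symm Y₁ Y₂
    (by rw [hY₂]; exact hy₂') (by rw [hY₁, hY₂]; exact hfy)
  obtain ⟨y', hy'⟩ := h16_coeffMap_cast (h60_R1_A M q hqM A hA) Y
  have hfexp : (f : LaurentSeries Qb) = coeffMap A.subtype y' := (hy'.trans hY).symm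
  have hredf := h60_R1_red_eq M q hqM A hA f hf₁ y' 1 (by rw [map_one, mul_one, hfexp])
  rw [map_one, mul_one, ← (h60_R1 M q hqM A hA).redF_of_mem hf₁] at hredf
  -- conclusion
  rw [h16_mem_Linf]
  by_cases hfb : (h60_R1 M q hqM A hA).redF f = 0
  · exact Or.inl hfb
  right
  refine ⟨fun P hP => h24_ord_nonneg_of_mem P (hreg₁ P ?_), ?_⟩
  · rw [hred₁]
    exact hbbreg P hP
  · rw [h11_placeInftyC_ord _ M hfb, hredf]
    have hf0 : f ≠ 0 := by
      rintro rfl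
      exact hfb (h39_redF_zero _)
    have hy'o : -(n : ℤ) ≤ y'.order := by
      have h1 := hfinf
      rw [hPinf.ord_eq, hfexp, h64_order_coeffMap A.subtype Subtype.val_injective] at h1
      exact h1
    have hne : coeffMap (IsLocalRing.residue A) y' ≠ 0 := by
      intro h0
      apply hfb
      apply Subtype.ext
      rw [hredf, h0]
      rfl
    exact (h16_le_order_coeffMap (IsLocalRing.residue A) y' _ (Or.inr hy'o)).resolve_left hne

include hwα hww in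
/-- The swap preserves `L(n (P∞ + P0))`. -/
theorem h16_swap_mem_L2 {Pinf P0 : Place Qb ↥(modularFunctionFieldBar (M * q))}
    (hPinf : h10_IsCusp (modularFunctionFieldBar (M * q)) Pinf) (hP0 : h10_IsCusp0 M q w P0)
    (n : ℕ) {f : ↥(modularFunctionFieldBar (M * q))}
    (hf : f ∈ riemannRochSpace
      (n • (Finsupp.single Pinf (1 : ℤ) + Finsupp.single P0 (1 : ℤ)))) :
    w f ∈ riemannRochSpace
      (n • (Finsupp.single Pinf (1 : ℤ) + Finsupp.single P0 (1 : ℤ))) := by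
  have hq : q.Prime := Fact.out
  have h12 : Pinf ≠ P0 := h10_cusp_ne_cusp0 hwα hq.two_le hPinf hP0
  rw [h16_mem_L2 h12] at hf ⊢
  rcases hf with rfl | ⟨h1, h2, h3⟩
  · exact Or.inl (map_zero w)
  by_cases hf0 : f = 0
  · subst hf0
    exact Or.inl (map_zero w)
  right
  have hwf0 : w f ≠ 0 := (map_ne_zero w).mpr hf0
  refine ⟨fun P hP1 hP2 => ?_, ?_, ?_⟩
  · set σ := h10_swapAut (h10_swap_algebraMap w hwα) hww with hσ
    have hP : σ • (σ⁻¹ • P) = P := smul_inv_smul σ P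
    have h := Place.ord_smul σ (σ⁻¹ • P) f
    have hσw : σ f = w f := rfl
    rw [hP, hσw] at h
    rw [h]
    refine h1 _ ?_ ?_
    · intro h4
      apply hP2
      rw [← hP, h4]
      exact (h10_swap_smul_cusp hwα hww hPinf).unique hP0
    · intro h4
      apply hP1
      rw [← hP, h4]
      exact (h10_swap_smul_cusp0 hwα hww hP0).unique hPinf
  · rw [hPinf.ord_eq, ← hP0 f hf0]
    exact h3
  · rw [hP0 _ hwf0, hww, ← hPinf.ord_eq]
    exact h2

include hwα hww hR₂A hR₂O hR₂red hinc₁ hinc₂ in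
/-- **(INT)**: `f ∈ L(n (P∞ + P0)) ∩ O₁ ∩ O₂` has both reductions in `L(n Q∞)`. -/
theorem h16_int_mod (hch : 5 ≤ q ∨ 2 ∣ M ∨ 3 ∣ M)
    {Pinf P0 : Place Qb ↥(modularFunctionFieldBar (M * q))}
    (hPinf : h10_IsCusp (modularFunctionFieldBar (M * q)) Pinf) (hP0 : h10_IsCusp0 M q w P0)
    (n : ℕ) {f : ↥(modularFunctionFieldBar (M * q))}
    (hf : f ∈ riemannRochSpace
      (n • (Finsupp.single Pinf (1 : ℤ) + Finsupp.single P0 (1 : ℤ))))
    (hf₁ : f ∈ (h60_R1 M q hqM A hA).O) (hf₂ : f ∈ R₂.O) :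
    (h60_R1 M q hqM A hA).redF f ∈
        h16_Linf (h11_placeInftyC (IsLocalRing.ResidueField A) M) n ∧
      R₂.redF f ∈ h16_Linf (h11_placeInftyC (IsLocalRing.ResidueField A) M) n := by
  refine ⟨h16_int_mod₁ M q hqM A hA w hwα R₂ hR₂A hR₂O hR₂red hinc₁ hinc₂ hch hPinf hP0 n hf
    hf₁ hf₂, ?_⟩
  rw [hR₂red]
  exact h16_int_mod₁ M q hqM A hA w hwα R₂ hR₂A hR₂O hR₂red hinc₁ hinc₂ hch hPinf hP0 n
    (h16_swap_mem_L2 M q w hwα hww hPinf hP0 n hf) ((hR₂O f).mp hf₂)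
    ((hR₂O (w f)).mpr (by rw [hww]; exact hf₁))

end Main

end Fermat.Agent.S34
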