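import Fermat.Agent.S34.h16_IntFamily
import Fermat.Agent.S34.h16_NodeChart
import Fermat.Agent.S27.h70_WtOrd
import Fermat.Agent.S27.h6w_Sep

/-!
# S34 / (INT) for a pair of valuations — generic two-datum layer (helper16)

`R₁ R₂ : h39_RedDatum K F k Fb` two reduction data of `F / K` with the same constants and
incomparable valuation rings, `x` a common chart whose poles are two places `P₁ ≠ P₂` of orders
`n₁, n₂`, and whose reductions `R₁.redF x`, `R₂.redF x` have poles of orders `n₁`, `n₂` at places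
`Q₁`, `Q₂` of `Fb`.  Then the degree inequality of `h75_exists_valFrame` holds
(`h16_pair_hdeg`), so that:

* `h16_red_reg_pair` : `f ∈ O₁ ∩ O₂` regular on the chart of `x` has reductions regular on the
  charts of the reductions of `x`;
* `h16_qint_pair` : such an `f`, if it is a ratio of `A`-integral series, has an `A`-integral
  expansion.

Generic lemmas: `h16_pole_le_finrank` (a pole order of `x` is at most `[F : K(x)]`, no
separability), `h16_finrank_two_poles` (degree of a chart with exactly two poles),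
`h16_transcendental_of_ord` (a function with a pole is transcendental).
-/

set_option autoImplicit false

noncomputable section

open IntermediateField Polynomial Module AlgebraicCurve

namespace Fermat.Agent.S34

open Fermat.Agent.S18 Fermat.Agent.S24 Fermat.Agent.S27 ModularCurve

section Generic

variable {K F : Type*} [Field K] [Field F] [Algebra K F]

/-- A function with a zero or pole at some place is transcendental over the (algebraically
closed) constants. -/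
theorem h16_transcendental_of_ord [IsAlgClosed K] (v : Place K F) {x : F}
    (hx : v.ord x ≠ 0) : Transcendental K x := by
  intro halg
  obtain ⟨a, rfl⟩ := h35_exists_algebraMap_eq_of_isAlgebraic x halg
  exact hx (h35_ord_algebraMap v a)

/-- A pole order of `x` is at most `[F : K(x)]` (no separability hypothesis). -/
theorem h16_pole_le_finrank (v : Place K F) {x : F} {n : ℕ} (hn : 0 < n)
    (hx : v.ord x = -(n : ℤ)) [Module.Finite K⟮x⟯ F] : n ≤ finrank K⟮x⟯ F := by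
  obtain ⟨π, hπ⟩ := IsDiscreteValuationRing.exists_irreducible v.toValuationSubring
  have hπ1 : v.ord (π : F) = 1 := v.ord_coe_irreducible hπ
  have hπ0 : (π : F) ≠ 0 := by
    intro h
    rw [h, Place.ord_zero] at hπ1
    exact zero_ne_one hπ1
  have hx0 : x ≠ 0 := by
    rintro rfl
    rw [Place.ord_zero] at hx
    omega
  have hy : v.ord (x * (π : F)⁻¹) = -((n : ℤ) + 1) := by
    rw [v.ord_mul hx0 (inv_ne_zero hπ0), v.ord_inv, hx, hπ1]
    ring
  have hli := h70_linearIndependent_pow v hn hx hy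
  have := hli.fintype_card_le_finrank
  simpa using this

/-- The degree of a chart with exactly two poles `P₁ ≠ P₂`, of orders `n₁`, `n₂`. -/
theorem h16_finrank_two_poles [IsAlgClosed K] {x : F} (hx : h75_IsChart K x)
    (P₁ P₂ : Place K F) (h12 : P₁ ≠ P₂) (n₁ n₂ : ℕ) (hn₁ : 0 < n₁) (hn₂ : 0 < n₂)
    (h1 : P₁.ord x = -(n₁ : ℤ)) (h2 : P₂.ord x = -(n₂ : ℤ))
    (hreg : ∀ P : Place K F, P ≠ P₁ → P ≠ P₂ → 0 ≤ P.ord x) :
    finrank K⟮x⟯ F = n₁ + n₂ := by
  classical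
  obtain ⟨s, hs, hsum⟩ := h75_fibre_main (h75_isChart_inv hx) 0
  have hs' : s = {P₁, P₂} := by
    ext P
    rw [hs, map_zero, sub_zero, Place.ord_inv, Finset.mem_insert, Finset.mem_singleton]
    constructor
    · intro hP
      by_contra hne
      push Not at hne
      have := hreg P hne.1 hne.2
      omega
    · rintro (rfl | rfl)
      · rw [h1]
        omega
      · rw [h2]
        omega
  rw [hs', Finset.sum_pair h12, map_zero, sub_zero, Place.ord_inv, Place.ord_inv, h1, h2,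
    h62_adjoin_inv] at hsum
  have : ((n₁ + n₂ : ℕ) : ℤ) = (finrank K⟮x⟯ F : ℤ) := by
    rw [← hsum]
    push_cast
    ring
  exact_mod_cast this.symm

/-- Membership in `L(n (P₁ + P₂))` for two distinct places. -/
theorem h16_mem_L2 {P₁ P₂ : Place K F} (h12 : P₁ ≠ P₂) {n : ℕ} {f : F} :
    f ∈ riemannRochSpace (n • (Finsupp.single P₁ (1 : ℤ) + Finsupp.single P₂ (1 : ℤ))) ↔
      f = 0 ∨ ((∀ P : Place K F, P ≠ P₁ → P ≠ P₂ → 0 ≤ P.ord f) ∧
        -(n : ℤ) ≤ P₁.ord f ∧ -(n : ℤ) ≤ P₂.ord f) := by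
  classical
  rw [mem_riemannRochSpace_iff]
  have hv : ∀ P : Place K F,
      (n • (Finsupp.single P₁ (1 : ℤ) + Finsupp.single P₂ (1 : ℤ)) : Divisor K F) P =
        (n : ℤ) * ((if P₁ = P then 1 else 0) + (if P₂ = P then 1 else 0)) := by
    intro P
    rw [Finsupp.smul_apply, Finsupp.add_apply, Finsupp.single_apply, Finsupp.single_apply,
      nsmul_eq_mul]
  constructor
  · intro h
    by_cases hf : f = 0
    · exact Or.inl hf
    · right
      refine ⟨fun P h1 h2 => ?_, ?_, ?_⟩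
      · have h' := (h P).resolve_left hf
        rw [hv, if_neg (Ne.symm h1), if_neg (Ne.symm h2)] at h'
        simpa using h'
      · have h' := (h P₁).resolve_left hf
        rw [hv, if_pos rfl, if_neg (Ne.symm h12)] at h'
        simpa using h'
      · have h' := (h P₂).resolve_left hf
        rw [hv, if_neg h12, if_pos rfl] at h'
        simpa using h'
  · rintro (rfl | ⟨h1, h2, h3⟩) P
    · exact Or.inl rfl
    · right
      rw [hv]
      by_cases hP1 : P = P₁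
      · subst hP1
        rw [if_pos rfl, if_neg (Ne.symm h12)]
        simpa using h2
      · by_cases hP2 : P = P₂
        · subst hP2
          rw [if_neg h12, if_pos rfl]
          simpa using h3
        · rw [if_neg (Ne.symm hP1), if_neg (Ne.symm hP2)]
          simpa using h1 P hP1 hP2

end Generic

section Series

/-- The order of a coefficientwise image, when the leading coefficient survives. -/
theorem h16_order_coeffMap_lead {R S : Type*} [CommRing R] [CommRing S] (f : R →+* S)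
    (x : LaurentSeries R) (hx : f (x.coeff x.order) ≠ 0) :
    coeffMap f x ≠ 0 ∧ (coeffMap f x).order = x.order := by
  have h1 : (coeffMap f x).coeff x.order ≠ 0 := by
    rw [coeffMap_coeff]
    exact hx
  have hne : coeffMap f x ≠ 0 := HahnSeries.ne_zero_of_coeff_ne_zero h1
  refine ⟨hne, le_antisymm (HahnSeries.order_le_of_coeff_ne_zero h1) ?_⟩
  by_contra hlt
  push Not at hlt
  have h2 : (coeffMap f x).coeff (coeffMap f x).order = 0 := by
    rw [coeffMap_coeff, HahnSeries.coeff_eq_zero_of_lt_order hlt, map_zero]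
  exact hne (HahnSeries.coeff_order_eq_zero.mp h2)

/-- Coefficientwise images do not lower the order. -/
theorem h16_le_order_coeffMap {R S : Type*} [CommRing R] [CommRing S] (f : R →+* S)
    (x : LaurentSeries R) (N : ℤ) (hx : x = 0 ∨ N ≤ x.order) :
    coeffMap f x = 0 ∨ N ≤ (coeffMap f x).order := by
  by_cases h0 : coeffMap f x = 0
  · exact Or.inl h0
  right
  have hx0 : x ≠ 0 := by
    rintro rfl
    exact h0 (map_zero _)
  have hN := hx.resolve_left hx0
  by_contra hlt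
  push Not at hlt
  have h2 : (coeffMap f x).coeff (coeffMap f x).order = 0 := by
    rw [coeffMap_coeff, HahnSeries.coeff_eq_zero_of_lt_order (lt_of_lt_of_le hlt hN), map_zero]
  exact h0 (HahnSeries.coeff_order_eq_zero.mp h2)

/-- Transport of an integral series along an equality of valuation rings. -/
theorem h16_coeffMap_cast {K : Type*} [Field K] {A A' : ValuationSubring K} (h : A = A')
    (y : LaurentSeries A) :
    ∃ y' : LaurentSeries A', coeffMap A'.subtype y' = coeffMap A.subtype y := by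
  subst h
  exact ⟨y, rfl⟩

end Series

section Pair

variable {K F k Fb : Type*} [Field K] [Field F] [Algebra K F] [Field k] [Field Fb] [Algebra k Fb]
variable (R₁ R₂ : h39_RedDatum K F k Fb)

/-- The two data as a family indexed by `Bool` (`true ↦ R₁`, `false ↦ R₂`). -/
def h16_pairFam : Bool → h39_RedDatum K F k Fb := fun i => cond i R₁ R₂

/-- **(REG) for two data**: `f ∈ O₁ ∩ O₂` regular on the chart `x` has reductions regular on
the charts of the reductions of `x`. -/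
theorem h16_red_reg_pair (hA : R₁.A = R₂.A) (hinc₁ : ¬ R₁.O ≤ R₂.O) (hinc₂ : ¬ R₂.O ≤ R₁.O)
    {x : F} (hx₁ : x ∈ R₁.O) (hx₂ : x ∈ R₂.O) (htr₁ : Transcendental k (R₁.redF x))
    (htr₂ : Transcendental k (R₂.redF x))
    [hfin₁ : Module.Finite k⟮R₁.redF x⟯ Fb] [hfin₂ : Module.Finite k⟮R₂.redF x⟯ Fb]
    [hF : Module.Finite K⟮x⟯ F]
    (hdeg : finrank K⟮x⟯ F ≤ finrank k⟮R₁.redF x⟯ Fb + finrank k⟮R₂.redF x⟯ Fb)
    (hsep : Algebra.IsSeparable K⟮x⟯ F) {f : F} (hf₁ : f ∈ R₁.O) (hf₂ : f ∈ R₂.O)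
    (hreg : ∀ P : Place K F, x ∈ P.toValuationSubring → f ∈ P.toValuationSubring) :
    (∀ Q : Place k Fb, R₁.redF x ∈ Q.toValuationSubring → R₁.redF f ∈ Q.toValuationSubring) ∧
    (∀ Q : Place k Fb, R₂.redF x ∈ Q.toValuationSubring →
      R₂.redF f ∈ Q.toValuationSubring) := by
  have hfin : ∀ i : Bool, Module.Finite k⟮(h16_pairFam R₁ R₂ i).redF x⟯ Fb := by
    intro i
    cases i
    · exact hfin₂
    · exact hfin₁
  have key := fun i => h16_red_reg_family (Fb := fun _ : Bool => Fb) (h16_pairFam R₁ R₂)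
    (fun i j => by cases i <;> cases j <;> simp [h16_pairFam, hA])
    (fun i j hij => by
      cases i <;> cases j
      · exact absurd rfl hij
      · exact hinc₂
      · exact hinc₁
      · exact absurd rfl hij)
    (x := x) (fun i => by cases i; exacts [hx₂, hx₁])
    (fun i => by cases i; exacts [htr₂, htr₁])
    (by
      rw [Fintype.sum_bool]
      exact hdeg) hsep (f := f) (fun i => by cases i; exacts [hf₂, hf₁]) hreg i
  exact ⟨key true, key false⟩

/-- **(QINT) for two data**: `f ∈ O₁ ∩ O₂` regular on the chart `x`, which is a ratio of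
`A`-integral series, has an `A`-integral expansion (`A` of rank one, `x` of `A`-integral
expansion). -/
theorem h16_qint_pair [IsAlgClosed K] (hA : R₁.A = R₂.A) (hinc₁ : ¬ R₁.O ≤ R₂.O)
    (hinc₂ : ¬ R₂.O ≤ R₁.O)
    {x : F} (hx₁ : x ∈ R₁.O) (hx₂ : x ∈ R₂.O) (htr₁ : Transcendental k (R₁.redF x))
    (htr₂ : Transcendental k (R₂.redF x))
    [hfin₁ : Module.Finite k⟮R₁.redF x⟯ Fb] [hfin₂ : Module.Finite k⟮R₂.redF x⟯ Fb]
    [hF : Module.Finite K⟮x⟯ F]
    (hdeg : finrank K⟮x⟯ F ≤ finrank k⟮R₁.redF x⟯ Fb + finrank k⟮R₂.redF x⟯ Fb)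
    (hsep : Algebra.IsSeparable K⟮x⟯ F) {f : F} (hf₁ : f ∈ R₁.O) (hf₂ : f ∈ R₂.O)
    (hreg : ∀ P : Place K F, x ∈ P.toValuationSubring → f ∈ P.toValuationSubring)
    (hR : h39_RankOne R₁.A)
    (e : F →ₐ[K] LaurentSeries K) (X : LaurentSeries R₁.A)
    (hX : e x = coeffMap R₁.A.subtype X) (y₁ y₂ : LaurentSeries R₁.A)
    (hy₂ : coeffMap R₁.A.subtype y₂ ≠ 0)
    (hfy : e f * coeffMap R₁.A.subtype y₂ = coeffMap R₁.A.subtype y₁) :
    ∃ y : LaurentSeries R₁.A, coeffMap R₁.A.subtype y = e f := by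
  have hfin : ∀ i : Bool, Module.Finite k⟮(h16_pairFam R₁ R₂ i).redF x⟯ Fb := by
    intro i
    cases i
    · exact hfin₂
    · exact hfin₁
  have hch : h75_IsChart K x := ⟨h16_transcendental_of_redF R₁ hx₁ htr₁, hF, hsep⟩
  have hI : IsIntegral (Algebra.adjoin K {x}) f := (h75_isIntegral_iff hch f).2 hreg
  exact h16_qint_family (Fb := fun _ : Bool => Fb) (h16_pairFam R₁ R₂)
    (fun i j => by cases i <;> cases j <;> simp [h16_pairFam, hA])
    (fun i j hij => by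
      cases i <;> cases j
      · exact absurd rfl hij
      · exact hinc₂
      · exact hinc₁
      · exact absurd rfl hij)
    (x := x) (fun i => by cases i; exacts [hx₂, hx₁])
    (fun i => by cases i; exacts [htr₂, htr₁])
    (by
      rw [Fintype.sum_bool]
      exact hdeg) (f := f) (fun i => by cases i; exacts [hf₂, hf₁]) hI true hR e X hX y₁ y₂ hy₂ hfy

end Pair

section PairPoles

variable {K F k Fb : Type*} [Field K] [Field F] [Algebra K F] [Field k] [Field Fb] [Algebra k Fb]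
variable [IsAlgClosed K] [CharZero K] [IsAlgClosed k]
variable (R₁ R₂ : h39_RedDatum K F k Fb)

/-- The hypotheses of `h75_exists_valFrame` for two data and a common chart `x` whose poles are
`P₁ ≠ P₂` (orders `n₁`, `n₂`) and whose reductions have poles of orders `n₁`, `n₂`. -/
theorem h16_pair_hyps {xF : F} (hxF : h75_IsChart K xF) {t : Fb} (ht : Transcendental k t)
    [FiniteDimensional k⟮t⟯ Fb] {x : F} (hx₁ : x ∈ R₁.O)
    (P₁ P₂ : Place K F) (h12 : P₁ ≠ P₂) (Q₁ Q₂ : Place k Fb) (n₁ n₂ : ℕ) (hn₁ : 0 < n₁)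
    (hn₂ : 0 < n₂) (hP₁ : P₁.ord x = -(n₁ : ℤ)) (hP₂ : P₂.ord x = -(n₂ : ℤ))
    (hreg : ∀ P : Place K F, P ≠ P₁ → P ≠ P₂ → 0 ≤ P.ord x)
    (hQ₁ : Q₁.ord (R₁.redF x) = -(n₁ : ℤ)) (hQ₂ : Q₂.ord (R₂.redF x) = -(n₂ : ℤ)) :
    Transcendental k (R₁.redF x) ∧ Transcendental k (R₂.redF x) ∧
      Module.Finite k⟮R₁.redF x⟯ Fb ∧ Module.Finite k⟮R₂.redF x⟯ Fb ∧ h75_IsChart K x ∧
      finrank K⟮x⟯ F ≤ finrank k⟮R₁.redF x⟯ Fb + finrank k⟮R₂.redF x⟯ Fb := by
  have htr₁ : Transcendental k (R₁.redF x) :=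
    h16_transcendental_of_ord Q₁ (by rw [hQ₁]; omega)
  have htr₂ : Transcendental k (R₂.redF x) :=
    h16_transcendental_of_ord Q₂ (by rw [hQ₂]; omega)
  have hfin₁ : FiniteDimensional k⟮R₁.redF x⟯ Fb :=
    h35_finiteDimensional_of_transcendental ht htr₁
  have hfin₂ : FiniteDimensional k⟮R₂.redF x⟯ Fb :=
    h35_finiteDimensional_of_transcendental ht htr₂
  have hch : h75_IsChart K x :=
    h34_isChart_of_transcendental hxF x (h16_transcendental_of_redF R₁ hx₁ htr₁)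
  refine ⟨htr₁, htr₂, hfin₁, hfin₂, hch, ?_⟩
  rw [h16_finrank_two_poles hch P₁ P₂ h12 n₁ n₂ hn₁ hn₂ hP₁ hP₂ hreg]
  exact Nat.add_le_add (h16_pole_le_finrank Q₁ hn₁ hQ₁) (h16_pole_le_finrank Q₂ hn₂ hQ₂)

/-- **(REG) for two data on a two-pole chart.** -/
theorem h16_red_reg_pair_poles (hA : R₁.A = R₂.A) (hinc₁ : ¬ R₁.O ≤ R₂.O)
    (hinc₂ : ¬ R₂.O ≤ R₁.O) {xF : F} (hxF : h75_IsChart K xF) {t : Fb}
    (ht : Transcendental k t) [FiniteDimensional k⟮t⟯ Fb] {x : F} (hx₁ : x ∈ R₁.O)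
    (hx₂ : x ∈ R₂.O) (P₁ P₂ : Place K F) (h12 : P₁ ≠ P₂) (Q₁ Q₂ : Place k Fb) (n₁ n₂ : ℕ)
    (hn₁ : 0 < n₁) (hn₂ : 0 < n₂) (hP₁ : P₁.ord x = -(n₁ : ℤ)) (hP₂ : P₂.ord x = -(n₂ : ℤ))
    (hreg : ∀ P : Place K F, P ≠ P₁ → P ≠ P₂ → 0 ≤ P.ord x)
    (hQ₁ : Q₁.ord (R₁.redF x) = -(n₁ : ℤ)) (hQ₂ : Q₂.ord (R₂.redF x) = -(n₂ : ℤ))
    {f : F} (hf₁ : f ∈ R₁.O) (hf₂ : f ∈ R₂.O)
    (hfreg : ∀ P : Place K F, P ≠ P₁ → P ≠ P₂ → f ∈ P.toValuationSubring) :
    (∀ Q : Place k Fb, R₁.redF x ∈ Q.toValuationSubring → R₁.redF f ∈ Q.toValuationSubring) ∧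
    (∀ Q : Place k Fb, R₂.redF x ∈ Q.toValuationSubring →
      R₂.redF f ∈ Q.toValuationSubring) := by
  obtain ⟨htr₁, htr₂, hfin₁, hfin₂, hch, hdeg⟩ := h16_pair_hyps R₁ R₂ hxF ht hx₁ P₁ P₂ h12
    Q₁ Q₂ n₁ n₂ hn₁ hn₂ hP₁ hP₂ hreg hQ₁ hQ₂
  have hF := hch.fin
  have hx0 : x ≠ 0 := hch.ne_zero
  refine h16_red_reg_pair R₁ R₂ hA hinc₁ hinc₂ hx₁ hx₂ htr₁ htr₂ hdeg hch.sep hf₁ hf₂ ?_
  intro P hP
  have h0 := (h35_mem_iff_ord_nonneg P hx0).mp hP
  refine hfreg P ?_ ?_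
  · rintro rfl
    rw [hP₁] at h0
    omega
  · rintro rfl
    rw [hP₂] at h0
    omega

/-- **(QINT) for two data on a two-pole chart.** -/
theorem h16_qint_pair_poles (hA : R₁.A = R₂.A) (hinc₁ : ¬ R₁.O ≤ R₂.O)
    (hinc₂ : ¬ R₂.O ≤ R₁.O) {xF : F} (hxF : h75_IsChart K xF) {t : Fb}
    (ht : Transcendental k t) [FiniteDimensional k⟮t⟯ Fb] {x : F} (hx₁ : x ∈ R₁.O)
    (hx₂ : x ∈ R₂.O) (P₁ P₂ : Place K F) (h12 : P₁ ≠ P₂) (Q₁ Q₂ : Place k Fb) (n₁ n₂ : ℕ)
    (hn₁ : 0 < n₁) (hn₂ : 0 < n₂) (hP₁ : P₁.ord x = -(n₁ : ℤ)) (hP₂ : P₂.ord x = -(n₂ : ℤ))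
    (hreg : ∀ P : Place K F, P ≠ P₁ → P ≠ P₂ → 0 ≤ P.ord x)
    (hQ₁ : Q₁.ord (R₁.redF x) = -(n₁ : ℤ)) (hQ₂ : Q₂.ord (R₂.redF x) = -(n₂ : ℤ))
    {f : F} (hf₁ : f ∈ R₁.O) (hf₂ : f ∈ R₂.O)
    (hfreg : ∀ P : Place K F, P ≠ P₁ → P ≠ P₂ → f ∈ P.toValuationSubring)
    (hR : h39_RankOne R₁.A)
    (e : F →ₐ[K] LaurentSeries K) (X : LaurentSeries R₁.A)
    (hX : e x = coeffMap R₁.A.subtype X) (y₁ y₂ : LaurentSeries R₁.A)
    (hy₂ : coeffMap R₁.A.subtype y₂ ≠ 0)
    (hfy : e f * coeffMap R₁.A.subtype y₂ = coeffMap R₁.A.subtype y₁) :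
    ∃ y : LaurentSeries R₁.A, coeffMap R₁.A.subtype y = e f := by
  obtain ⟨htr₁, htr₂, hfin₁, hfin₂, hch, hdeg⟩ := h16_pair_hyps R₁ R₂ hxF ht hx₁ P₁ P₂ h12
    Q₁ Q₂ n₁ n₂ hn₁ hn₂ hP₁ hP₂ hreg hQ₁ hQ₂
  have hF := hch.fin
  have hx0 : x ≠ 0 := hch.ne_zero
  refine h16_qint_pair R₁ R₂ hA hinc₁ hinc₂ hx₁ hx₂ htr₁ htr₂ hdeg hch.sep hf₁ hf₂ ?_ hR e X hX
    y₁ y₂ hy₂ hfy
  intro P hP
  have h0 := (h35_mem_iff_ord_nonneg P hx0).mp hP
  refine hfreg P ?_ ?_
  · rintro rfl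
    rw [hP₁] at h0
    omega
  · rintro rfl
    rw [hP₂] at h0
    omega

end PairPoles

end Fermat.Agent.S34
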