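import Fermat.Agent.S34.h16_IntMod

/-!
# S34 / (LEAD) for the two valuations of `F(Mq)` (helper16)

Context of `h16_IntMod`.  For every large `n` there is `f ∈ L((n+1)(P∞ + P0)) ∩ O₁ ∩ O₂` with
`red₁ f ∉ L(n Q∞)` and `red₂ f ∈ L(n Q∞)`, and another one with the roles exchanged:
`f = α(b_ν) β(b_ν')` with `ν + q ν' = n + 1`, `ν < ν'`, and its swap.

* `h16_cusp_fn` : the level-`M` cusp functions `b_ν` (repackaging of `h11_exists_cusp_fn`).
* `h16_lead_mod` : (LEAD).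
-/

set_option autoImplicit false
set_option synthInstance.maxHeartbeats 400000

noncomputable section

open IntermediateField Polynomial Module AlgebraicCurve ModularCurve

namespace Fermat.Agent.S34

open Fermat.Agent.S18 Fermat.Agent.S24 Fermat.Agent.S27 Fermat.Agent.S37

local notation "Qb" => AlgebraicClosure ℚ

/-- Splitting `n + 1 = ν + q ν'` with `ν₁ ≤ ν < ν'`. -/
theorem h16_splitSum (q ν₁ n : ℕ) (hq : 2 ≤ q) (hn : (q + 1) * (ν₁ + q) ≤ n) :
    ∃ ν ν' : ℕ, ν₁ ≤ ν ∧ ν < ν' ∧ ν + q * ν' = n + 1 := by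
  refine ⟨ν₁ + (n + 1 - ν₁) % q, (n + 1 - ν₁) / q, Nat.le_add_right _ _, ?_, ?_⟩
  · have h1 : (n + 1 - ν₁) % q < q := Nat.mod_lt _ (by omega)
    have h2 : ν₁ + q + 1 ≤ (n + 1 - ν₁) / q := by
      rw [Nat.le_div_iff_mul_le (by omega)]
      have h3 : (q + 1) * (ν₁ + q) = q * ν₁ + q * q + ν₁ + q := by ring
      have h4 : (ν₁ + q + 1) * q = q * ν₁ + q * q + q := by ring
      rw [h4]
      omega
    omega
  · have h1 := Nat.mod_add_div (n + 1 - ν₁) q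
    have h3 : (q + 1) * (ν₁ + q) = q * ν₁ + q * q + ν₁ + q := by ring
    have h5 : ν₁ ≤ n + 1 := by
      have : ν₁ ≤ q * ν₁ := Nat.le_mul_of_pos_left _ (by omega)
      omega
    omega

/-- `q ν + ν' ≤ n` when `ν + q ν' = n + 1`, `ν < ν'`. -/
theorem h16_arith (q ν ν' n : ℕ) (hq : 2 ≤ q) (h : ν < ν') (hsum : ν + q * ν' = n + 1) :
    q * ν + ν' ≤ n := by
  obtain ⟨d, rfl⟩ : ∃ d, ν' = ν + d + 1 := ⟨ν' - ν - 1, by omega⟩
  have h1 : q * (ν + d + 1) = q * ν + q * d + q := by ring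
  have h2 : d ≤ q * d := Nat.le_mul_of_pos_left _ (by omega)
  omega

section LevelM

variable (M q : ℕ) [NeZero M] [NeZero q] [Fact q.Prime] (hqM : ¬ q ∣ M)
  (A : ValuationSubring Qb) (hA : A.LiesOverPrime q)

omit [NeZero q] in
/-- **(III), repackaged**: the level-`M` cusp functions `b_ν`, `ν ≥ ν₀`, `ν > 0`: in `O_M`,
regular off the cusp with a pole of exact order `ν` there, and the same for the reduction. -/
theorem h16_cusp_fn (hch : 5 ≤ q ∨ 2 ∣ M ∨ 3 ∣ M) :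
    ∃ ν₀ : ℕ, ∀ ν : ℕ, ν₀ ≤ ν → 0 < ν → ∃ b : ↥(modularFunctionFieldBar M),
      b ∈ (h39_modRed M hqM A hA).O ∧ (b : LaurentSeries Qb).order = -(ν : ℤ) ∧
      (∀ P : Place Qb ↥(modularFunctionFieldBar M), P ≠ h11_placeInfty M → 0 ≤ P.ord b) ∧
      (h39_modRed M hqM A hA).redF b ≠ 0 ∧
      (h11_placeInftyC (IsLocalRing.ResidueField A) M).ord ((h39_modRed M hqM A hA).redF b)
        = -(ν : ℤ) ∧
      (∀ Q : Place (IsLocalRing.ResidueField A)
          ↥(modularFunctionFieldFullC (IsLocalRing.ResidueField A) M),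
        Q ≠ h11_placeInftyC (IsLocalRing.ResidueField A) M →
          (h39_modRed M hqM A hA).redF b ∈ Q.toValuationSubring) := by
  have hRM : h54_IsModRed M A (h39_modRed M hqM A hA) := h39_modRed_spec M hqM A hA
  obtain ⟨ν₀, hν₀⟩ := h11_exists_cusp_fn M hqM A hA hch
  refine ⟨ν₀, fun ν hν hνpos => ?_⟩
  obtain ⟨b, y, hby, hyo, hyu, hbreg, hbbreg⟩ := hν₀ ν hν
  have hbO : b ∈ (h39_modRed M hqM A hA).O := hRM.mem_of_integral b y hby
  have hbred := hRM.redF_of_integral b y hby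
  have hlead : IsLocalRing.residue A (y.coeff y.order) ≠ 0 := by
    rw [hyo]
    exact (IsLocalRing.residue_ne_zero_iff_isUnit _).mpr hyu
  obtain ⟨hbne, hbord⟩ := h16_order_coeffMap_lead (IsLocalRing.residue A) y hlead
  have hb0 : (h39_modRed M hqM A hA).redF b ≠ 0 := by
    intro h
    apply hbne
    rw [← hbred, h]
    rfl
  refine ⟨b, hbO, ?_, fun P hP => h24_ord_nonneg_of_mem P (hbreg P hP), hb0, ?_, hbbreg⟩
  · rw [hby, h64_order_coeffMap A.subtype Subtype.val_injective, hyo]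
  · rw [h11_placeInftyC_ord _ M hb0, hbred, hbord, hyo]

variable {RM : h39_RedDatum Qb ↥(modularFunctionFieldBar M) (IsLocalRing.ResidueField A)
      ↥(modularFunctionFieldFullC (IsLocalRing.ResidueField A) M)}
  (hRM : h54_IsModRed M A RM)

include hRM in
/-- The pole order of `red₁ (β b)` at the cusp is `q` times that of `b̄`. -/
theorem h16_R1_beta_ord {b : ↥(modularFunctionFieldBar M)} (hb : b ∈ RM.O)
    (hb0 : RM.redF b ≠ 0) :
    (h60_R1 M q hqM A hA).redF (heckeBetaBar Qb M q b) ≠ 0 ∧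
      (h11_placeInftyC (IsLocalRing.ResidueField A) M).ord
          ((h60_R1 M q hqM A hA).redF (heckeBetaBar Qb M q b))
        = (q : ℤ) * (h11_placeInftyC (IsLocalRing.ResidueField A) M).ord (RM.redF b) := by
  have h1 := h16_R1_redF_beta_coe M q hqM A hA hRM hb
  have hne : (h60_R1 M q hqM A hA).redF (heckeBetaBar Qb M q b) ≠ 0 := by
    intro h0
    apply hb0
    apply Subtype.ext
    apply qExpand_injective (R := IsLocalRing.ResidueField A) q
    rw [← h1, h0]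
    simp
  refine ⟨hne, ?_⟩
  rw [h11_placeInftyC_ord _ M hne, h11_placeInftyC_ord _ M hb0, h1, h64_order_qExpand]

end LevelM

section Main

variable (M q : ℕ) [NeZero M] [NeZero q] [Fact q.Prime] (hqM : ¬ q ∣ M)
  (A : ValuationSubring Qb) (hA : A.LiesOverPrime q)
  (w : ↥(modularFunctionFieldBar (M * q)) →+* ↥(modularFunctionFieldBar (M * q)))
  (hwα : ∀ y : ↥(modularFunctionFieldBar M), w (heckeAlphaBar Qb M q y) = heckeBetaBar Qb M q y)
  (hwβ : ∀ y : ↥(modularFunctionFieldBar M), w (heckeBetaBar Qb M q y) = heckeAlphaBar Qb M q y)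
  (hww : ∀ x : ↥(modularFunctionFieldBar (M * q)), w (w x) = x)
  (R₂ : h39_RedDatum Qb ↥(modularFunctionFieldBar (M * q)) (IsLocalRing.ResidueField A)
      ↥(modularFunctionFieldFullC (IsLocalRing.ResidueField A) M))
  (hR₂A : R₂.A = (h60_R1 M q hqM A hA).A)
  (hR₂O : ∀ f : ↥(modularFunctionFieldBar (M * q)), f ∈ R₂.O ↔ w f ∈ (h60_R1 M q hqM A hA).O)
  (hR₂red : ∀ f : ↥(modularFunctionFieldBar (M * q)),
    R₂.redF f = (h60_R1 M q hqM A hA).redF (w f))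
  (hinc₁ : ¬ (h60_R1 M q hqM A hA).O ≤ R₂.O) (hinc₂ : ¬ R₂.O ≤ (h60_R1 M q hqM A hA).O)

include hwα hwβ hww hR₂A hR₂O hR₂red hinc₁ hinc₂ in
set_option maxHeartbeats 1600000 in
/-- **(LEAD)**: for every large `n` there are `f, f' ∈ L((n+1)(P∞ + P0)) ∩ O₁ ∩ O₂` with
`red₁ f ∉ L(n Q∞)`, `red₂ f ∈ L(n Q∞)` and `red₁ f' ∈ L(n Q∞)`, `red₂ f' ∉ L(n Q∞)`. -/
theorem h16_lead_mod (hch : 5 ≤ q ∨ 2 ∣ M ∨ 3 ∣ M)
    {Pinf P0 : Place Qb ↥(modularFunctionFieldBar (M * q))}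
    (hPinf : h10_IsCusp (modularFunctionFieldBar (M * q)) Pinf) (hP0 : h10_IsCusp0 M q w P0) :
    ∃ n₁ : ℕ, ∀ n : ℕ, n₁ ≤ n →
      (∃ f : ↥(modularFunctionFieldBar (M * q)),
        f ∈ riemannRochSpace
          ((n + 1) • (Finsupp.single Pinf (1 : ℤ) + Finsupp.single P0 (1 : ℤ))) ∧
        f ∈ (h60_R1 M q hqM A hA).O ∧ f ∈ R₂.O ∧
        (h60_R1 M q hqM A hA).redF f ∉
          h16_Linf (h11_placeInftyC (IsLocalRing.ResidueField A) M) n ∧
        R₂.redF f ∈ h16_Linf (h11_placeInftyC (IsLocalRing.ResidueField A) M) n) ∧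
      (∃ f : ↥(modularFunctionFieldBar (M * q)),
        f ∈ riemannRochSpace
          ((n + 1) • (Finsupp.single Pinf (1 : ℤ) + Finsupp.single P0 (1 : ℤ))) ∧
        f ∈ (h60_R1 M q hqM A hA).O ∧ f ∈ R₂.O ∧
        (h60_R1 M q hqM A hA).redF f ∈
          h16_Linf (h11_placeInftyC (IsLocalRing.ResidueField A) M) n ∧
        R₂.redF f ∉ h16_Linf (h11_placeInftyC (IsLocalRing.ResidueField A) M) n) := by
  classical
  have hRM : h54_IsModRed M A (h39_modRed M hqM A hA) := h39_modRed_spec M hqM A hA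
  have hq : q.Prime := Fact.out
  have h12 : Pinf ≠ P0 := h10_cusp_ne_cusp0 hwα hq.two_le hPinf hP0
  have hPM : h10_IsCusp (modularFunctionFieldBar M) (h11_placeInfty M) :=
    fun g hg => h11_placeInfty_ord M hg
  obtain ⟨ν₀, hν₀⟩ := h16_cusp_fn M q hqM A hA hch
  refine ⟨(q + 1) * (ν₀ + 1 + q), fun n hn => ?_⟩
  obtain ⟨ν, ν', hν, hνν', hsum⟩ := h16_splitSum q (ν₀ + 1) n hq.two_le hn
  have harith := h16_arith q ν ν' n hq.two_le hνν' hsum
  obtain ⟨b, hbO, hbord, hbreg, hb0, hbQ, -⟩ := hν₀ ν (by omega) (by omega)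
  obtain ⟨b', hbO', hbord', hbreg', hb0', hbQ', -⟩ := hν₀ ν' (by omega) (by omega)
  have hαb : heckeAlphaBar Qb M q b ∈ (h60_R1 M q hqM A hA).O :=
    h60_R1_alpha_mem M q hqM A hA hRM ⟨b, hbO⟩
  have hβb : heckeBetaBar Qb M q b ∈ (h60_R1 M q hqM A hA).O :=
    h60_R1_beta_mem M q hqM A hA hRM ⟨b, hbO⟩
  have hαb' : heckeAlphaBar Qb M q b' ∈ (h60_R1 M q hqM A hA).O :=
    h60_R1_alpha_mem M q hqM A hA hRM ⟨b', hbO'⟩
  have hβb' : heckeBetaBar Qb M q b' ∈ (h60_R1 M q hqM A hA).O :=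
    h60_R1_beta_mem M q hqM A hA hRM ⟨b', hbO'⟩
  have hf₁ : heckeAlphaBar Qb M q b * heckeBetaBar Qb M q b' ∈ (h60_R1 M q hqM A hA).O :=
    mul_mem hαb hβb'
  have hwf : w (heckeAlphaBar Qb M q b * heckeBetaBar Qb M q b')
      = heckeBetaBar Qb M q b * heckeAlphaBar Qb M q b' := by
    rw [map_mul, hwα, hwβ]
  have hf₂ : heckeAlphaBar Qb M q b * heckeBetaBar Qb M q b' ∈ R₂.O := by
    rw [hR₂O, hwf]
    exact mul_mem hβb hαb'
  have hb_ne : b ≠ 0 := by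
    rintro rfl
    exact hb0 (h39_redF_zero _)
  have hb'_ne : b' ≠ 0 := by
    rintro rfl
    exact hb0' (h39_redF_zero _)
  have hα0 : heckeAlphaBar Qb M q b ≠ 0 := (_root_.map_ne_zero _).mpr hb_ne
  have hβ0' : heckeBetaBar Qb M q b' ≠ 0 := (_root_.map_ne_zero _).mpr hb'_ne
  have hsumZ : (ν : ℤ) + (q : ℤ) * (ν' : ℤ) = (n : ℤ) + 1 := by exact_mod_cast hsum
  have harithZ : (q : ℤ) * (ν : ℤ) + (ν' : ℤ) ≤ (n : ℤ) := by exact_mod_cast harith
  -- membership in `L((n+1) D0)`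
  have hfL : heckeAlphaBar Qb M q b * heckeBetaBar Qb M q b' ∈ riemannRochSpace
      ((n + 1) • (Finsupp.single Pinf (1 : ℤ) + Finsupp.single P0 (1 : ℤ))) := by
    rw [h16_mem_L2 h12]
    right
    refine ⟨fun P h1 h2 => ?_, ?_, ?_⟩
    · rw [P.ord_mul hα0 hβ0']
      have e1 := h10_polar_alpha hwα hq hqM hPM hPinf hP0 b hbreg P h1 h2
      have e2 := h10_polar_beta hwα hq hqM hww hPM hPinf hP0 b' hbreg' P h1 h2
      omega
    · rw [Pinf.ord_mul hα0 hβ0', h10_ord_alpha hPinf, h10_ord_beta hPinf, hbord, hbord']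
      push_cast
      linarith [mul_neg (q : ℤ) (ν' : ℤ)]
    · rw [P0.ord_mul hα0 hβ0', h10_ord0_alpha hwα hP0, h10_ord0_beta hwβ hP0, hbord, hbord']
      push_cast
      linarith [mul_neg (q : ℤ) (ν : ℤ)]
  -- the reductions
  have hr1 : (h60_R1 M q hqM A hA).redF (heckeAlphaBar Qb M q b) ≠ 0 ∧
      (h11_placeInftyC (IsLocalRing.ResidueField A) M).ord
        ((h60_R1 M q hqM A hA).redF (heckeAlphaBar Qb M q b)) = -(ν : ℤ) := by
    rw [h16_R1_redF_alpha M q hqM A hA hRM hbO]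
    exact ⟨hb0, hbQ⟩
  have hr1' : (h60_R1 M q hqM A hA).redF (heckeAlphaBar Qb M q b') ≠ 0 ∧
      (h11_placeInftyC (IsLocalRing.ResidueField A) M).ord
        ((h60_R1 M q hqM A hA).redF (heckeAlphaBar Qb M q b')) = -(ν' : ℤ) := by
    rw [h16_R1_redF_alpha M q hqM A hA hRM hbO']
    exact ⟨hb0', hbQ'⟩
  obtain ⟨hr2, hr2o⟩ := h16_R1_beta_ord M q hqM A hA hRM hbO hb0
  obtain ⟨hr2', hr2o'⟩ := h16_R1_beta_ord M q hqM A hA hRM hbO' hb0'
  rw [hbQ] at hr2o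
  rw [hbQ'] at hr2o'
  have hred₁ : (h60_R1 M q hqM A hA).redF (heckeAlphaBar Qb M q b * heckeBetaBar Qb M q b')
      = (h60_R1 M q hqM A hA).redF (heckeAlphaBar Qb M q b)
        * (h60_R1 M q hqM A hA).redF (heckeBetaBar Qb M q b') :=
    h39_redF_mul _ hαb hβb'
  have hred₂ : R₂.redF (heckeAlphaBar Qb M q b * heckeBetaBar Qb M q b')
      = (h60_R1 M q hqM A hA).redF (heckeBetaBar Qb M q b)
        * (h60_R1 M q hqM A hA).redF (heckeAlphaBar Qb M q b') := by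
    rw [hR₂red, hwf]
    exact h39_redF_mul _ hβb hαb'
  have hord₁ : (h11_placeInftyC (IsLocalRing.ResidueField A) M).ord
      ((h60_R1 M q hqM A hA).redF (heckeAlphaBar Qb M q b * heckeBetaBar Qb M q b'))
        = -((n : ℤ) + 1) := by
    rw [hred₁, Place.ord_mul _ hr1.1 hr2', hr1.2, hr2o']
    linarith [mul_neg (q : ℤ) (ν' : ℤ)]
  have hord₂ : -(n : ℤ) ≤ (h11_placeInftyC (IsLocalRing.ResidueField A) M).ord
      (R₂.redF (heckeAlphaBar Qb M q b * heckeBetaBar Qb M q b')) := by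
    rw [hred₂, Place.ord_mul _ hr2 hr1'.1, hr1'.2, hr2o]
    linarith [mul_neg (q : ℤ) (ν : ℤ)]
  have hne₁ : (h60_R1 M q hqM A hA).redF (heckeAlphaBar Qb M q b * heckeBetaBar Qb M q b')
      ≠ 0 := by
    rw [hred₁]
    exact mul_ne_zero hr1.1 hr2'
  have hnot : (h60_R1 M q hqM A hA).redF (heckeAlphaBar Qb M q b * heckeBetaBar Qb M q b') ∉
      h16_Linf (h11_placeInftyC (IsLocalRing.ResidueField A) M) n := by
    rw [h16_mem_Linf]
    rintro (h0 | ⟨-, h⟩)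
    · exact hne₁ h0
    · rw [hord₁] at h
      omega
  have hint := h16_int_mod M q hqM A hA w hwα hww R₂ hR₂A hR₂O hR₂red hinc₁ hinc₂ hch hPinf hP0
    (n + 1) hfL hf₁ hf₂
  have hin : R₂.redF (heckeAlphaBar Qb M q b * heckeBetaBar Qb M q b') ∈
      h16_Linf (h11_placeInftyC (IsLocalRing.ResidueField A) M) n := by
    have h2 := hint.2
    rw [h16_mem_Linf] at h2 ⊢
    rcases h2 with h0 | ⟨hreg, -⟩
    · exact Or.inl h0
    · exact Or.inr ⟨hreg, hord₂⟩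
  refine ⟨⟨_, hfL, hf₁, hf₂, hnot, hin⟩,
    ⟨w (heckeAlphaBar Qb M q b * heckeBetaBar Qb M q b'),
      h16_swap_mem_L2 M q w hwα hww hPinf hP0 (n + 1) hfL, (hR₂O _).mp hf₂,
      (hR₂O _).mpr (by rw [hww]; exact hf₁), ?_, ?_⟩⟩
  · rw [← hR₂red]
    exact hin
  · rw [hR₂red, hww]
    exact hnot

end Main

end Fermat.Agent.S34
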