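import Mathlib
import Fermat.Agent.S34.h16_Sat

/-!
# S34: (SAT) on the cuspidal chart, in `q`-expansion language

`W` is a `k`-subspace of pairs of Laurent series (in the application `W = R × R`, `R` the ring of
functions on the level-`M` curve over `k` regular off the cusp `∞`, embedded by `q`-expansion; the
first coordinate is the reduction at `v₁`, the second the reduction at `v₂ = v₁ ∘ w`).
`h16_polePair W n` is the subspace of pairs with pole order `≤ n` in both coordinates.
`Ob n ≤ h16_polePair W n` is an increasing family (`Ob n = red (L(n ((∞) + (0'))) ∩ O)`).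

If, from `n₀` on,

* (GROW') `dim Ob (n + 1) = dim Ob n + 2` (Riemann on `F(Mq)` + "unit balls have full rank"), and
* (LEAD)  `Ob (n + 1)` contains a pair whose first coordinate has a pole of exact order `n + 1` and
  whose second coordinate has pole order `≤ n`, and a pair with the roles exchanged
  (the reductions of `α^* b_ν · β^* b_ν'`, pole orders `(ν + q ν', q ν + ν')`),

then `Ob` is saturated: `Ob N ⊓ h16_polePair W n = Ob n` for `N ≥ n ≥ n₀`, and the codimension of
`⨆ Ob` in `⨆ h16_polePair W` is exactly `dim (h16_polePair W n₀) - dim (Ob n₀)`.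
-/

set_option autoImplicit false

namespace Fermat.Agent.S34

open Module Submodule

variable {k : Type*} [Field k]

/-- Laurent series with pole order `≤ n`. -/
def h16_poleLe (k : Type*) [Field k] (n : ℕ) : Submodule k (LaurentSeries k) where
  carrier := {f | ∀ i : ℤ, i < -(n : ℤ) → f.coeff i = 0}
  zero_mem' := fun i _ => by simp
  add_mem' := fun {f g} hf hg i hi => by
    rw [HahnSeries.coeff_add, hf i hi, hg i hi, add_zero]
  smul_mem' := fun c f hf i hi => by
    rw [HahnSeries.coeff_smul, hf i hi, smul_zero]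

theorem h16_mem_poleLe {n : ℕ} {f : LaurentSeries k} :
    f ∈ h16_poleLe k n ↔ ∀ i : ℤ, i < -(n : ℤ) → f.coeff i = 0 := Iff.rfl

theorem h16_poleLe_mono : Monotone (h16_poleLe k) := by
  intro m n hmn f hf i hi
  exact hf i (lt_of_lt_of_le hi (by exact_mod_cast neg_le_neg (Int.ofNat_le.2 hmn)))

/-- Pairs in `W` with pole order `≤ n` in both coordinates. -/
def h16_polePair (W : Submodule k (LaurentSeries k × LaurentSeries k)) (n : ℕ) :
    Submodule k (LaurentSeries k × LaurentSeries k) :=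
  W ⊓ (h16_poleLe k n).prod (h16_poleLe k n)

theorem h16_mem_polePair {W : Submodule k (LaurentSeries k × LaurentSeries k)} {n : ℕ}
    {x : LaurentSeries k × LaurentSeries k} :
    x ∈ h16_polePair W n ↔ x ∈ W ∧ x.1 ∈ h16_poleLe k n ∧ x.2 ∈ h16_poleLe k n := by
  unfold h16_polePair
  rw [Submodule.mem_inf, Submodule.mem_prod]

theorem h16_polePair_mono (W : Submodule k (LaurentSeries k × LaurentSeries k)) :
    Monotone (h16_polePair W) := by
  intro m n hmn x hx
  rw [h16_mem_polePair] at hx ⊢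
  exact ⟨hx.1, h16_poleLe_mono hmn hx.2.1, h16_poleLe_mono hmn hx.2.2⟩

/-- The leading coefficients (at `q ^ (-(n+1))`) of a pair. -/
def h16_lead (k : Type*) [Field k] (n : ℕ) : (LaurentSeries k × LaurentSeries k) →ₗ[k] k × k where
  toFun x := (x.1.coeff (-((n : ℤ) + 1)), x.2.coeff (-((n : ℤ) + 1)))
  map_add' x y := by simp
  map_smul' c x := by simp

theorem h16_lead_apply (n : ℕ) (x : LaurentSeries k × LaurentSeries k) :
    h16_lead k n x = (x.1.coeff (-((n : ℤ) + 1)), x.2.coeff (-((n : ℤ) + 1))) := rfl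

/-- An element of `polePair (n+1)` with vanishing leading coefficients lies in `polePair n`. -/
theorem h16_mem_polePair_of_lead_eq_zero {W : Submodule k (LaurentSeries k × LaurentSeries k)}
    {n : ℕ} {x : LaurentSeries k × LaurentSeries k} (hx : x ∈ h16_polePair W (n + 1))
    (h0 : h16_lead k n x = 0) : x ∈ h16_polePair W n := by
  rw [h16_mem_polePair] at hx ⊢
  rw [h16_lead_apply, Prod.mk_eq_zero] at h0
  have key : ∀ f : LaurentSeries k, f ∈ h16_poleLe k (n + 1) → f.coeff (-((n : ℤ) + 1)) = 0 →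
      f ∈ h16_poleLe k n := by
    intro f hf hc i hi
    rcases lt_or_eq_of_le (show i ≤ -((n : ℤ) + 1) by omega) with h | h
    · exact hf i (by push_cast; omega)
    · rw [h]; exact hc
  exact ⟨hx.1, key _ hx.2.1 h0.1, key _ hx.2.2 h0.2⟩

/-- (SURJ) from (LEAD). -/
theorem h16_polePair_succ_le {W : Submodule k (LaurentSeries k × LaurentSeries k)}
    (Ob : ℕ → Submodule k (LaurentSeries k × LaurentSeries k)) (n : ℕ)
    {x y : LaurentSeries k × LaurentSeries k} (hx : x ∈ Ob (n + 1)) (hy : y ∈ Ob (n + 1))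
    (hx1 : x.1.coeff (-((n : ℤ) + 1)) ≠ 0) (hx2 : x.2.coeff (-((n : ℤ) + 1)) = 0)
    (hy1 : y.1.coeff (-((n : ℤ) + 1)) = 0) (hy2 : y.2.coeff (-((n : ℤ) + 1)) ≠ 0)
    (hxW : x ∈ h16_polePair W (n + 1)) (hyW : y ∈ h16_polePair W (n + 1)) :
    h16_polePair W (n + 1) ≤ h16_polePair W n ⊔ Ob (n + 1) := by
  intro z hz
  set a := z.1.coeff (-((n : ℤ) + 1)) / x.1.coeff (-((n : ℤ) + 1)) with ha
  set b := z.2.coeff (-((n : ℤ) + 1)) / y.2.coeff (-((n : ℤ) + 1)) with hb
  have hz' : z - (a • x + b • y) ∈ h16_polePair W n := by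
    apply h16_mem_polePair_of_lead_eq_zero
    · exact Submodule.sub_mem _ hz
        (Submodule.add_mem _ (Submodule.smul_mem _ _ hxW) (Submodule.smul_mem _ _ hyW))
    · rw [map_sub, map_add, map_smul, map_smul, h16_lead_apply, h16_lead_apply, h16_lead_apply,
        hx2, hy1]
      ext
      · simp only [Prod.fst_sub, Prod.fst_add, Prod.smul_fst, smul_eq_mul, mul_zero, add_zero,
          Prod.fst_zero]
        rw [ha, div_mul_cancel₀ _ hx1, sub_self]
      · simp only [Prod.snd_sub, Prod.snd_add, Prod.smul_snd, smul_eq_mul, mul_zero, zero_add,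
          Prod.snd_zero]
        rw [hb, div_mul_cancel₀ _ hy2, sub_self]
  have : z = (z - (a • x + b • y)) + (a • x + b • y) := by abel
  rw [this]
  exact Submodule.add_mem_sup hz'
    (Submodule.add_mem _ (Submodule.smul_mem _ _ hx) (Submodule.smul_mem _ _ hy))

/-- The dimension of `polePair` grows by exactly `2` under (LEAD). -/
theorem h16_finrank_polePair_succ {W : Submodule k (LaurentSeries k × LaurentSeries k)}
    (n : ℕ) [FiniteDimensional k (h16_polePair W (n + 1))]
    {x y : LaurentSeries k × LaurentSeries k}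
    (hx1 : x.1.coeff (-((n : ℤ) + 1)) ≠ 0) (hx2 : x.2.coeff (-((n : ℤ) + 1)) = 0)
    (hy1 : y.1.coeff (-((n : ℤ) + 1)) = 0) (hy2 : y.2.coeff (-((n : ℤ) + 1)) ≠ 0)
    (hxW : x ∈ h16_polePair W (n + 1)) (hyW : y ∈ h16_polePair W (n + 1)) :
    finrank k (h16_polePair W (n + 1)) = finrank k (h16_polePair W n) + 2 := by
  -- the restriction of the leading-coefficient map to `polePair (n+1)`
  set φ : ↥(h16_polePair W (n + 1)) →ₗ[k] k × k :=
    (h16_lead k n).comp (h16_polePair W (n + 1)).subtype with hφ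
  have hsurj : Function.Surjective φ := by
    rintro ⟨c, d⟩
    refine ⟨(c / x.1.coeff (-((n : ℤ) + 1))) • ⟨x, hxW⟩ +
      (d / y.2.coeff (-((n : ℤ) + 1))) • ⟨y, hyW⟩, ?_⟩
    rw [map_add, map_smul, map_smul]
    show (c / x.1.coeff (-((n : ℤ) + 1))) • h16_lead k n x +
      (d / y.2.coeff (-((n : ℤ) + 1))) • h16_lead k n y = (c, d)
    rw [h16_lead_apply, h16_lead_apply, hx2, hy1]
    ext
    · simp only [Prod.smul_mk, smul_eq_mul, mul_zero, Prod.mk_add_mk, add_zero]
      rw [div_mul_cancel₀ _ hx1]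
    · simp only [Prod.smul_mk, smul_eq_mul, mul_zero, Prod.mk_add_mk, zero_add]
      rw [div_mul_cancel₀ _ hy2]
  have hker : LinearMap.ker φ =
      (h16_polePair W n).comap (h16_polePair W (n + 1)).subtype := by
    ext z
    rw [LinearMap.mem_ker, Submodule.mem_comap]
    constructor
    · intro h
      exact h16_mem_polePair_of_lead_eq_zero z.2 h
    · intro h
      rw [h16_mem_polePair] at h
      show h16_lead k n (z : LaurentSeries k × LaurentSeries k) = 0
      rw [h16_lead_apply, Prod.mk_eq_zero]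
      exact ⟨h.2.1 _ (by omega), h.2.2 _ (by omega)⟩
  have hrn := LinearMap.finrank_range_add_finrank_ker φ
  rw [LinearMap.range_eq_top.2 hsurj, finrank_top, Module.finrank_prod, Module.finrank_self,
    hker] at hrn
  have hle : h16_polePair W n ≤ h16_polePair W (n + 1) := h16_polePair_mono W (Nat.le_succ n)
  have hcomap : finrank k ((h16_polePair W n).comap (h16_polePair W (n + 1)).subtype) =
      finrank k (h16_polePair W n) :=
    (Submodule.comapSubtypeEquivOfLe hle).finrank_eq
  omega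

/-- **(SAT) on the cuspidal chart.** -/
theorem h16_sat_laurent (W : Submodule k (LaurentSeries k × LaurentSeries k))
    (Ob : ℕ → Submodule k (LaurentSeries k × LaurentSeries k))
    (hfin : ∀ n, FiniteDimensional k (h16_polePair W n))
    (hOb : ∀ n, Ob n ≤ h16_polePair W n) (hmono : Monotone Ob) (n₀ : ℕ)
    (hgrow : ∀ n, n₀ ≤ n → finrank k (Ob (n + 1)) = finrank k (Ob n) + 2)
    (hlead₁ : ∀ n, n₀ ≤ n → ∃ x ∈ Ob (n + 1),
      x.1.coeff (-((n : ℤ) + 1)) ≠ 0 ∧ x.2.coeff (-((n : ℤ) + 1)) = 0)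
    (hlead₂ : ∀ n, n₀ ≤ n → ∃ y ∈ Ob (n + 1),
      y.1.coeff (-((n : ℤ) + 1)) = 0 ∧ y.2.coeff (-((n : ℤ) + 1)) ≠ 0) :
    (∀ n N, n₀ ≤ n → n ≤ N → Ob N ⊓ h16_polePair W n = Ob n) ∧
    (∀ n, n₀ ≤ n → (⨆ i, Ob i) ⊓ h16_polePair W n = Ob n) ∧
    ∃ C : Submodule k (LaurentSeries k × LaurentSeries k), C ≤ h16_polePair W n₀ ∧
      Disjoint (⨆ i, Ob i) C ∧ (⨆ i, Ob i) ⊔ C = ⨆ i, h16_polePair W i ∧
      finrank k C + finrank k (Ob n₀) = finrank k (h16_polePair W n₀) := by
  have hsurj : ∀ n, n₀ ≤ n →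
      h16_polePair W (n + 1) = h16_polePair W n ⊔ Ob (n + 1) := by
    intro n hn
    obtain ⟨x, hx, hx1, hx2⟩ := hlead₁ n hn
    obtain ⟨y, hy, hy1, hy2⟩ := hlead₂ n hn
    apply le_antisymm
    · exact h16_polePair_succ_le Ob n hx hy hx1 hx2 hy1 hy2 (hOb _ hx) (hOb _ hy)
    · exact sup_le (h16_polePair_mono W (Nat.le_succ n)) (hOb (n + 1))
  have hgrow' : ∀ n, n₀ ≤ n → finrank k (h16_polePair W (n + 1)) + finrank k (Ob n) =
      finrank k (h16_polePair W n) + finrank k (Ob (n + 1)) := by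
    intro n hn
    obtain ⟨x, hx, hx1, hx2⟩ := hlead₁ n hn
    obtain ⟨y, hy, hy1, hy2⟩ := hlead₂ n hn
    have := hfin (n + 1)
    rw [h16_finrank_polePair_succ n hx1 hx2 hy1 hy2 (hOb _ hx) (hOb _ hy), hgrow n hn]
    omega
  refine ⟨fun n N hn hN => ?_, fun n hn => ?_, ?_⟩
  · exact h16_sat (h16_polePair W) Ob hfin hOb (h16_polePair_mono W) hmono n₀ hsurj hgrow' n N
      hn hN
  · exact h16_sat_iSup (h16_polePair W) Ob hfin hOb (h16_polePair_mono W) hmono n₀ hsurj hgrow' n
      hn
  · exact h16_sat_compl (h16_polePair W) Ob hfin hOb (h16_polePair_mono W) hmono n₀ hsurj hgrow'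

end Fermat.Agent.S34
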