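import Mathlib
import Fermat.Agent.S18.h46_LevelTransfer
import Fermat.Agent.GAL.AnThetaAlg

/-!
# S34: exact descent of the unipotency statement along an auxiliary level (helper18)

The geometric argument for S34 works at a level `N = M q` for which the level `M` has a chart
in residue characteristic `q` (`q ≥ 5`, or `2 ∣ M` for `q = 3`, or `3 ∣ M` for `q = 2`).  For
`q ∈ {2, 3}` one therefore raises the level by an auxiliary prime `p ∈ {3, 2}` and has to come
back.  This file proves the descent EXACTLY (no bounded index):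

* `h18_unip_descent` : if `(τ' - 1)(τ - 1) = 0` on `J₀(pN)[m]` and `gcd (p + 1, m) = 1`
  (`p ∤ N` prime), then `(τ' - 1)(τ - 1) = 0` on `J₀(N)[m]`.

Proof: `x = [D]`, `m D = div f`; the class at level `pN` with the same Kummer function `f` is
killed by `(τ' - 1)(τ - 1)`, so `U := τ'(τf / f) / (τf / f)` is a constant times an `m`-th power
in `F(pN)`; the norm (`h46_level_descent`) makes `U ^ (p + 1)` an `m`-th power in `F(N)`, and
Bezout makes `U` itself an `m`-th power in `F(N)`.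
-/

set_option autoImplicit false

open ModularCurve AlgebraicCurve

namespace Fermat.Agent.S34

open Fermat.Agent.GAL Fermat.Agent.S18 Fermat.Agent.S24

local notation "Qb" => AlgebraicClosure ℚ

section Generic

variable {K F : Type*} [Field K] [Field F] [Algebra K F]

/-- Kummer pairs `(D, f)`, `m D = div f`, are transported by semilinear automorphisms. -/
theorem h18_kummer_smul (g : SemilinearAut K F) (m : ℤ)
    (D : Divisor.degZero (K := K) (F := F)) (f : F)
    (h : ∀ v : Place K F, m * (D : Divisor K F) v = v.ord f) :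
    ∀ v : Place K F,
      m * ((SemilinearAut.degZeroSMulHom g D : Divisor.degZero (K := K) (F := F)) :
        Divisor K F) v = v.ord (g • f) := by
  intro v
  rw [SemilinearAut.coe_degZeroSMulHom, SemilinearAut.divisor_smul_apply, h]
  have h1 := SemilinearAut.ord_smul g (g⁻¹ • v) f
  rw [smul_inv_smul] at h1
  exact h1.symm

/-- Kummer pairs: differences. -/
theorem h18_kummer_sub (m : ℤ) (D D' : Divisor.degZero (K := K) (F := F)) (f f' : F)
    (hf : f ≠ 0) (hf' : f' ≠ 0)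
    (h : ∀ v : Place K F, m * (D : Divisor K F) v = v.ord f)
    (h' : ∀ v : Place K F, m * (D' : Divisor K F) v = v.ord f') :
    ∀ v : Place K F,
      m * ((D - D' : Divisor.degZero (K := K) (F := F)) : Divisor K F) v = v.ord (f / f') := by
  intro v
  rw [h35_ord_div v hf hf', ← h v, ← h' v, AddSubgroup.coe_sub, Finsupp.sub_apply]
  ring

theorem h18_smul_ne_zero (g : SemilinearAut K F) {f : F} (hf : f ≠ 0) : g • f ≠ 0 := by
  rw [SemilinearAut.smul_def]
  exact (map_ne_zero (SemilinearAut.toRingAut g)).mpr hf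

end Generic

/-- A torsion class of `J₀(N)` has a Kummer function. -/
theorem h18_exists_kummer (N : ℕ) [NeZero N] (m : ℕ)
    (D : Divisor.degZero (K := Qb) (F := gal_F Qb N)) (hx : m • (Pic0.mk D : JZero N) = 0) :
    ∃ f : gal_F Qb N, f ≠ 0 ∧
      ∀ v : Place Qb (gal_F Qb N), (m : ℤ) * (D : Divisor Qb (gal_F Qb N)) v = v.ord f := by
  have h1 : (QuotientAddGroup.mk (m • D) : Pic0 Qb (gal_F Qb N)) = 0 := hx
  rw [QuotientAddGroup.eq_zero_iff, AddSubgroup.mem_addSubgroupOf] at h1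
  obtain ⟨f, hf0, hf⟩ := h1
  refine ⟨f, hf0, fun v => ?_⟩
  rw [← hf v, AddSubgroup.coe_nsmul, Finsupp.smul_apply, nsmul_eq_mul]

/-- A Kummer pair gives a torsion class. -/
theorem h18_nsmul_mk_eq_zero (N : ℕ) [NeZero N] (m : ℕ)
    (D : Divisor.degZero (K := Qb) (F := gal_F Qb N)) (f : gal_F Qb N) (hf0 : f ≠ 0)
    (hf : ∀ v : Place Qb (gal_F Qb N), (m : ℤ) * (D : Divisor Qb (gal_F Qb N)) v = v.ord f) :
    m • (Pic0.mk D : JZero N) = 0 := by
  show (QuotientAddGroup.mk (m • D) : Pic0 Qb (gal_F Qb N)) = 0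
  rw [QuotientAddGroup.eq_zero_iff, AddSubgroup.mem_addSubgroupOf]
  refine ⟨f, hf0, fun v => ?_⟩
  rw [← hf v, AddSubgroup.coe_nsmul, Finsupp.smul_apply, nsmul_eq_mul]

/-- The class `(τ' - 1)(τ - 1) [D]` in Kummer form: it vanishes iff
`τ'(τ f / f) = c hᵐ (τ f / f)`. -/
theorem h18_unip_iff (N : ℕ) [NeZero N] (m : ℕ) (hm : 0 < m) (τ τ' : Qb ≃ₐ[ℚ] Qb)
    (D : Divisor.degZero (K := Qb) (F := gal_F Qb N)) (f : gal_F Qb N) (hf0 : f ≠ 0)
    (hf : ∀ v : Place Qb (gal_F Qb N), (m : ℤ) * (D : Divisor Qb (gal_F Qb N)) v = v.ord f) :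
    (τ' • (τ • (Pic0.mk D : JZero N) - Pic0.mk D) = τ • (Pic0.mk D : JZero N) - Pic0.mk D) ↔
      ∃ (c : Qb) (h : gal_F Qb N), c ≠ 0 ∧ h ≠ 0 ∧
        arithmeticGalois (modularFunctionFieldFull N) τ' •
            ((arithmeticGalois (modularFunctionFieldFull N) τ • f) / f) =
          algebraMap Qb (gal_F Qb N) c * h ^ m *
            ((arithmeticGalois (modularFunctionFieldFull N) τ • f) / f) := by
  set g := arithmeticGalois (modularFunctionFieldFull N) τ with hg
  set g' := arithmeticGalois (modularFunctionFieldFull N) τ' with hg'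
  have hgf : g • f ≠ 0 := h18_smul_ne_zero g hf0
  have hq : (g • f) / f ≠ 0 := div_ne_zero hgf hf0
  have h1 := h18_kummer_sub (m : ℤ) (SemilinearAut.degZeroSMulHom g D) D (g • f) f hgf hf0
    (h18_kummer_smul g (m : ℤ) D f hf) hf
  have h2 := h18_kummer_smul g' (m : ℤ) (SemilinearAut.degZeroSMulHom g D - D) ((g • f) / f) h1
  have e1 : τ • (Pic0.mk D : JZero N) - Pic0.mk D =
      Pic0.mk (SemilinearAut.degZeroSMulHom g D - D) := rfl
  have e2 : τ' • (Pic0.mk (SemilinearAut.degZeroSMulHom g D - D) : JZero N) =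
      Pic0.mk (SemilinearAut.degZeroSMulHom g' (SemilinearAut.degZeroSMulHom g D - D)) := rfl
  rw [e1, e2]
  exact gal_pic0_mk_eq_iff N m hm _ _ _ _ (h18_smul_ne_zero g' hq) hq h2 h1

/-- **Exact descent of unipotency along an auxiliary prime.** -/
theorem h18_unip_descent (N : ℕ) [NeZero N] (p : ℕ) [NeZero (p * N)] (hp : p.Prime)
    (hpN : ¬ p ∣ N) (m : ℕ) (hcop : Nat.Coprime (p + 1) m) (τ τ' : Qb ≃ₐ[ℚ] Qb)
    (h : ∀ x : JZero (p * N), m • x = 0 → τ' • (τ • x - x) = τ • x - x) :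
    ∀ x : JZero N, m • x = 0 → τ' • (τ • x - x) = τ • x - x := by
  intro x hx
  have hm : 0 < m := by
    rcases Nat.eq_zero_or_pos m with rfl | hm
    · exfalso
      rw [Nat.coprime_zero_right] at hcop
      exact hp.ne_zero (by omega)
    · exact hm
  obtain ⟨D, rfl⟩ := Pic0.mk_surjective x
  obtain ⟨f, hf0, hf⟩ := h18_exists_kummer N m D hx
  rw [h18_unip_iff N m hm τ τ' D f hf0 hf]
  -- the same Kummer function at level `p N`
  have hle : modularFunctionFieldBar N ≤ modularFunctionFieldBar (p * N) :=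
    h46_bar_le (dvd_mul_left N p)
  let f₁ : gal_F Qb (p * N) := ⟨(f : LaurentSeries Qb), hle f.2⟩
  have hf₁0 : f₁ ≠ 0 := by
    intro h0
    apply hf0
    have : (f₁ : LaurentSeries Qb) = 0 := by rw [h0]; rfl
    exact Subtype.ext this
  have hdvd : ∀ v : Place Qb (gal_F Qb (p * N)), (m : ℤ) ∣ v.ord f₁ := by
    intro v
    refine h46_level_ord_dvd (dvd_mul_left N p) (m : ℤ) (f : LaurentSeries Qb) f.2 ?_ v
    intro P
    exact ⟨_, (hf P).symm⟩
  obtain ⟨D₁, hD₁⟩ := gal_div_root (p * N) m hm f₁ hf₁0 hdvd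
  have hx₁ : m • (Pic0.mk D₁ : JZero (p * N)) = 0 := h18_nsmul_mk_eq_zero (p * N) m D₁ f₁ hf₁0 hD₁
  have h3 := h _ hx₁
  rw [h18_unip_iff (p * N) m hm τ τ' D₁ f₁ hf₁0 hD₁] at h3
  obtain ⟨c, h₁, hc0, hh₁, heq⟩ := h3
  obtain ⟨d, hd⟩ := IsAlgClosed.exists_pow_nat_eq c hm
  -- the function `U` at level `N`
  set g := arithmeticGalois (modularFunctionFieldFull N) τ with hg
  set g' := arithmeticGalois (modularFunctionFieldFull N) τ' with hg'
  set g₁ := arithmeticGalois (modularFunctionFieldFull (p * N)) τ with hg₁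
  set g₁' := arithmeticGalois (modularFunctionFieldFull (p * N)) τ' with hg₁'
  have hgf : g • f ≠ 0 := h18_smul_ne_zero g hf0
  have hq : (g • f) / f ≠ 0 := div_ne_zero hgf hf0
  have hg'q : g' • ((g • f) / f) ≠ 0 := h18_smul_ne_zero g' hq
  have hg₁f : g₁ • f₁ ≠ 0 := h18_smul_ne_zero g₁ hf₁0
  have hq₁ : (g₁ • f₁) / f₁ ≠ 0 := div_ne_zero hg₁f hf₁0
  set U : gal_F Qb N := (g' • ((g • f) / f)) / ((g • f) / f) with hU
  have hU0 : U ≠ 0 := div_ne_zero hg'q hq
  -- coercions to Laurent series agree at the two levels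
  have hcq : (((g₁ • f₁) / f₁ : gal_F Qb (p * N)) : LaurentSeries Qb) =
      (((g • f) / f : gal_F Qb N) : LaurentSeries Qb) := by
    rw [IntermediateField.coe_div, IntermediateField.coe_div, coe_arithmeticGalois_smul,
      coe_arithmeticGalois_smul]
  have hcU : ((g₁' • ((g₁ • f₁) / f₁) / ((g₁ • f₁) / f₁) : gal_F Qb (p * N)) :
      LaurentSeries Qb) = (U : LaurentSeries Qb) := by
    have e1 : ((g₁' • ((g₁ • f₁) / f₁) / ((g₁ • f₁) / f₁) : gal_F Qb (p * N)) :
        LaurentSeries Qb) =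
        ModularCurve.coeffMap ((τ' : Qb ≃ₐ[ℚ] Qb) : Qb →+* Qb)
            (((g₁ • f₁) / f₁ : gal_F Qb (p * N)) : LaurentSeries Qb) /
          (((g₁ • f₁) / f₁ : gal_F Qb (p * N)) : LaurentSeries Qb) := rfl
    have e2 : (U : LaurentSeries Qb) =
        ModularCurve.coeffMap ((τ' : Qb ≃ₐ[ℚ] Qb) : Qb →+* Qb)
            (((g • f) / f : gal_F Qb N) : LaurentSeries Qb) /
          (((g • f) / f : gal_F Qb N) : LaurentSeries Qb) := rfl
    rw [e1, e2, hcq]
  -- `U` is an `m`-th power at level `p N`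
  have hpow₁ : ((algebraMap Qb (gal_F Qb (p * N)) d * h₁ : gal_F Qb (p * N)) :
      LaurentSeries Qb) ^ m = (U : LaurentSeries Qb) := by
    rw [← hcU, heq, mul_div_assoc, div_self hq₁, mul_one, ← IntermediateField.coe_pow, mul_pow,
      ← map_pow, hd]
  obtain ⟨G, hG, hGpow⟩ := h46_level_descent N p hp hpN m (U : LaurentSeries Qb) _ U.2
    (SetLike.coe_mem _) hpow₁
  -- Bezout
  let G' : gal_F Qb N := ⟨G, hG⟩
  have hG' : G' ^ m = U ^ (p + 1) := Subtype.ext (by
    rw [IntermediateField.coe_pow, IntermediateField.coe_pow]; exact hGpow)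
  have hG'0 : G' ≠ 0 := by
    intro h0
    rw [h0, zero_pow hm.ne'] at hG'
    exact pow_ne_zero _ hU0 hG'.symm
  obtain ⟨a, b, hab⟩ : ∃ a b : ℤ, a * ((p + 1 : ℕ) : ℤ) + b * (m : ℤ) = 1 := by
    have := (Nat.isCoprime_iff_coprime.mpr hcop)
    obtain ⟨a, b, hab⟩ := this
    exact ⟨a, b, hab⟩
  have hW : (G' ^ a * U ^ b) ^ m = U := by
    have e1 : (G' ^ a * U ^ b) ^ m = (G' ^ m) ^ a * U ^ (b * (m : ℤ)) := by
      rw [mul_pow, ← zpow_natCast (G' ^ a) m, ← zpow_mul, ← zpow_natCast (U ^ b) m, ← zpow_mul,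
        mul_comm a (m : ℤ), zpow_mul, zpow_natCast]
    rw [e1, hG', ← zpow_natCast U (p + 1), ← zpow_mul, ← zpow_add₀ hU0,
      mul_comm ((p + 1 : ℕ) : ℤ) a, hab, zpow_one]
  refine ⟨1, G' ^ a * U ^ b, one_ne_zero, mul_ne_zero (zpow_ne_zero _ hG'0) (zpow_ne_zero _ hU0),
    ?_⟩
  rw [hW, map_one, one_mul, hU, div_mul_cancel₀ _ hq]

end Fermat.Agent.S34
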