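import Fermat.Agent.S34.h18_AuxLevel
import Fermat.Agent.S34.h29_UnipTop

/-!
# S34: the geometric target may assume a chart at level `N / q` (helper18)

* `h18_UnipTwo N q` : the two-element form `(τ' - 1)(τ - 1) = 0` on the prime-to-`q` torsion
  of `J₀(N)`, for all inertia elements `τ, τ'` at all places over `q` (= the hypothesis of
  `h29_unipGeom_of_two`).
* `h18_unipTwo_descent` : `h18_UnipTwo (p N) q → h18_UnipTwo N q` for a prime `p ∤ N` such that
  `p + 1` is prime to every `m` prime to `q`.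
* `h18_unipGeom_of_charted` : it suffices to prove `h18_UnipTwo N q` when `q ≥ 5`, or `q = 3`
  and `2 ∣ N`, or `q = 2` and `3 ∣ N` (exactly the cases in which S18 provides a chart
  `h39_Chart` at level `N / q` in residue characteristic `q`).
-/

set_option autoImplicit false

open ModularCurve AlgebraicCurve

namespace Fermat.Agent.S34

local notation "Qb" => AlgebraicClosure ℚ

/-- The two-element unipotency statement `(τ' - 1)(τ - 1) = 0` on the prime-to-`q` torsion of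
`J₀(N)`, for inertia at `q`. -/
def h18_UnipTwo (N : ℕ) [NeZero N] (q : ℕ) : Prop :=
  ∀ A : ValuationSubring Qb, A.LiesOverPrime q →
    ∀ τ ∈ A.inertiaSubgroupIn ℚ, ∀ τ' ∈ A.inertiaSubgroupIn ℚ, ∀ m : ℕ, ¬ q ∣ m →
      ∀ x : JZero N, m • x = 0 → τ' • (τ • x - x) = τ • x - x

theorem h18_unipGeom_of_unipTwo (N : ℕ) [NeZero N] (q : ℕ) (hq : q.Prime)
    (h : h18_UnipTwo N q) : h29_UnipGeom N q :=
  h29_unipGeom_of_two N q hq h

/-- Descent of `h18_UnipTwo` along an auxiliary prime `p ∤ N`. -/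
theorem h18_unipTwo_descent (N : ℕ) [NeZero N] (p : ℕ) [NeZero (p * N)] (hp : p.Prime)
    (hpN : ¬ p ∣ N) (q : ℕ) (hcop : ∀ m : ℕ, ¬ q ∣ m → Nat.Coprime (p + 1) m)
    (h : h18_UnipTwo (p * N) q) : h18_UnipTwo N q := by
  intro A hA τ hτ τ' hτ' m hm x hx
  exact h18_unip_descent N p hp hpN m (hcop m hm) τ τ'
    (fun y hy => h A hA τ hτ τ' hτ' m hm y hy) x hx

/-- **The geometric target of S34 may assume a chart at level `N / q`.** -/
theorem h18_unipGeom_of_charted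
    (hmain : ∀ (N : ℕ) [NeZero N] (q : ℕ), q.Prime → q ∣ N → ¬ q ^ 2 ∣ N →
      (5 ≤ q ∨ (q = 3 ∧ 2 ∣ N) ∨ (q = 2 ∧ 3 ∣ N)) → h18_UnipTwo N q) :
    ∀ (N : ℕ) [NeZero N] (q : ℕ), q.Prime → q ∣ N → ¬ q ^ 2 ∣ N → h29_UnipGeom N q := by
  intro N _ q hq hqN hq2
  refine h18_unipGeom_of_unipTwo N q hq ?_
  have hN : N ≠ 0 := NeZero.ne N
  by_cases h5 : 5 ≤ q
  · exact hmain N q hq hqN hq2 (Or.inl h5)
  have hq23 : q = 2 ∨ q = 3 := by
    have h2 := hq.two_le
    have hlt : q < 5 := by omega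
    interval_cases q
    · exact Or.inl rfl
    · exact Or.inr rfl
    · exact absurd hq (by decide)
  rcases hq23 with rfl | rfl
  · -- `q = 2`: auxiliary prime `3`
    by_cases h3 : 3 ∣ N
    · exact hmain N 2 hq hqN hq2 (Or.inr (Or.inr ⟨rfl, h3⟩))
    · haveI : NeZero (3 * N) := ⟨by omega⟩
      refine h18_unipTwo_descent N 3 Nat.prime_three h3 2 (fun m hm => ?_)
        (hmain (3 * N) 2 hq (Dvd.dvd.mul_left hqN 3) (fun h4 => hq2 ?_)
          (Or.inr (Or.inr ⟨rfl, Dvd.intro N rfl⟩)))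
      · have h2m : Nat.Coprime 2 m := (Nat.Prime.coprime_iff_not_dvd Nat.prime_two).mpr hm
        exact Nat.Coprime.pow_left 2 h2m
      · exact (Nat.Coprime.dvd_mul_left (by decide : Nat.Coprime (2 ^ 2) 3)).mp h4
  · -- `q = 3`: auxiliary prime `2`
    by_cases h2 : 2 ∣ N
    · exact hmain N 3 hq hqN hq2 (Or.inr (Or.inl ⟨rfl, h2⟩))
    · haveI : NeZero (2 * N) := ⟨by omega⟩
      refine h18_unipTwo_descent N 2 Nat.prime_two h2 3 (fun m hm => ?_)
        (hmain (2 * N) 3 hq (Dvd.dvd.mul_left hqN 2) (fun h9 => hq2 ?_)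
          (Or.inr (Or.inl ⟨rfl, Dvd.intro N rfl⟩)))
      · exact (Nat.Prime.coprime_iff_not_dvd Nat.prime_three).mpr hm
      · exact (Nat.Coprime.dvd_mul_left (by decide : Nat.Coprime (3 ^ 2) 2)).mp h9

end Fermat.Agent.S34
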