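import Mathlib
import Fermat.Agent.S34.h51_Last
import Fermat.Agent.S34.h53_CycFinal

/-!
# S34 / LAST STEP (helper53): `h51_LastStep` from the list (L)

* `h53_cyc_section` : the section form of `h53_cyc_final` (no degree hypothesis, no
  `HasPrincipalDivisors`): lattice datum with orthonormal bases, rank-one constants with a nonzero
  nonunit `π`, a balanced chart function `x` (`E1 = (x)_∞`, `E2 = (x)_0`), strictness
  `Gⁿ⁺¹ = Gⁿ + x̄ Gⁿ` for `Gⁿ = red (L(n E1) ∩ O)`, and a toric witness `(E, u)` with trivial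
  gluing along `E1` ⟹ `L(E)` has a nonzero element.
* `h53_lastStep` : the canonical last-step statement `h51_LastStep D E1 N0 m` from exactly the
  hypothesis list (L) of the S34 project (plus the nonzero nonunit `π`).

The proof is the one of `h53_cyc_final` (cyclic Zariski patching `h53_cyc_zar` on the two charts
of `x`), stopped before the passage from a nonzero section to principality.
-/

set_option autoImplicit false

noncomputable section

open AlgebraicCurve Module IsLocalRing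
open Fermat.Agent.S18

namespace Fermat.Agent.S34

variable {K F k Rb : Type*} [Field K] [Field F] [Algebra K F] [Field k] [CommRing Rb]
  [Algebra k Rb]

/-- **Section form of the endgame.**  Under the hypotheses of `h53_cyc_final` (without the
degree hypothesis), `L(E)` contains a nonzero element. -/
theorem h53_cyc_section (D : h22_Lat K F k Rb) (hON : h22_ON D)
    (hfinL : ∀ B : Divisor K F, Module.Finite K (riemannRochSpace B))
    (hR1 : h39_RankOne D.A) (π : K) (hπ : π ∈ D.A.nonunits) (hπ0 : π ≠ 0)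
    (x : F) (hx0 : x ≠ 0) (hx : x ∈ D.O) (hxinv : x⁻¹ ∈ D.O)
    (D1 D2 : Divisor K F) (hD1 : ∀ v : Place K F, 0 ≤ D1 v) (hD2 : ∀ v : Place K F, 0 ≤ D2 v)
    (hdisj : ∀ v : Place K F, D1 v = 0 ∨ D2 v = 0)
    (hxdiv : ∀ v : Place K F, v.ord x = D2 v - D1 v)
    (n0 : ℕ)
    (hgen : ∀ n, n0 ≤ n → ∀ a ∈ h51_Rd D ((n + 1) • D1),
      ∃ b ∈ h51_Rd D (n • D1), ∃ c ∈ h51_Rd D (n • D1), a = b + D.redF x * c)
    (m : ℕ) (hm : (m : k) ≠ 0)
    (E : Divisor K F) (u : F) (hu : u ≠ 0)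
    (hdiv : ∀ v : Place K F, (m : ℤ) * E v = v.ord u) (huO : u ∈ D.O)
    (hured : D.red ⟨u, huO⟩ = 1)
    (htriv : ∀ n, n0 ≤ n → ∀ j : ℕ, j < m →
      h51_Rd D (n • D1 + (j : ℤ) • E) = h51_Rd D (n • D1)) :
    ∃ f : F, f ≠ 0 ∧ f ∈ riemannRochSpace E := by
  classical
  have hm0 : m ≠ 0 := by
    rintro rfl
    exact hm Nat.cast_zero
  rcases Nat.lt_or_ge m 2 with hm2 | hm2
  · -- `m = 1`: `E = div u`
    have hm1 : m = 1 := by omega
    subst hm1
    refine ⟨u⁻¹, inv_ne_zero hu, mem_riemannRochSpace_iff.mpr fun v => Or.inr ?_⟩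
    have h := hdiv v
    rw [Nat.cast_one, one_mul] at h
    rw [v.ord_inv, h]
  -- the chart
  have C : h53_Chart D x D1 D2 := ⟨hx0, hx, hxinv, hD1, hD2, hdisj, hxdiv⟩
  have hredu : D.redF u = 1 := by rw [D.redF_of_mem huO, hured]
  have hnt : Nontrivial Rb := by
    obtain ⟨c, -, h, hne⟩ := D.exists_scale 1 one_ne_zero
    exact ⟨⟨_, 0, hne⟩⟩
  -- translation of the trivial gluing to the lattices
  have hBd : ∀ n j : ℕ, h53_Bd D1 D2 E n 0 j = n • D1 + (j : ℤ) • E := by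
    intro n j
    rw [h53_Bd, zero_smul, add_zero, natCast_zsmul]
  have hG : ∀ n, n0 ≤ n → ∀ j < m, ∀ c : Rb,
      c ∈ h51_Rd D (n • D1) ↔ ∃ h ∈ h53_Lint D (h53_Bd D1 D2 E n 0 j), D.redF h = c := by
    intro n hn j hj c
    rw [← htriv n hn j hj, ← hBd]
    constructor
    · rintro ⟨f, hf, hfO, rfl⟩
      exact ⟨f, ⟨hf, hfO⟩, rfl⟩
    · rintro ⟨f, ⟨hf, hfO⟩, rfl⟩
      exact ⟨f, hf, hfO, rfl⟩
  have hgenj : ∀ j < m, ∀ n, n0 ≤ n → ∀ c : F,
      c ∈ h53_Lint D (h53_Bd D1 D2 E (n + 1) 0 j) →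
      ∃ c1 ∈ h53_Lint D (h53_Bd D1 D2 E n 0 j), ∃ c2 ∈ h53_Lint D (h53_Bd D1 D2 E n 0 j),
        D.redF c = D.redF c1 + D.redF x * D.redF c2 := by
    intro j hj n hn c hc
    have h1 : D.redF c ∈ h51_Rd D ((n + 1) • D1) :=
      (hG (n + 1) (by omega) j hj _).mpr ⟨c, hc, rfl⟩
    obtain ⟨b', hb', c', hc', hbc⟩ := hgen n hn _ h1
    obtain ⟨c1, hc1, rfl⟩ := (hG n hn j hj _).mp hb'
    obtain ⟨c2, hc2, rfl⟩ := (hG n hn j hj _).mp hc'
    exact ⟨c1, hc1, c2, hc2, hbc⟩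
  -- local generators on the two charts, all with reduction `1`
  have h1mem : (1 : Rb) ∈ h51_Rd D (n0 • D1) :=
    (hG n0 le_rfl 0 (by omega) 1).mpr
      ⟨1, h53_one_mem_Lint D C.nonneg₁ C.nonneg₂ E n0 0, h51_redF_one D⟩
  have hxmem : D.redF x ^ n0 ∈ h51_Rd D (n0 • D1) := by
    have h := h53_shift_up C E (h53_one_mem_Lint D C.nonneg₁ C.nonneg₂ E 0 n0)
    rw [zero_add, one_mul] at h
    exact (hG n0 le_rfl 0 (by omega) _).mpr ⟨x ^ n0, h, h51_redF_pow D hx n0⟩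
  have hex1 : ∀ j, j < m → ∃ g, g ∈ h53_Lint D (h53_Bd D1 D2 E n0 0 j) ∧ D.redF g = 1 :=
    fun j hj => by
      obtain ⟨g, hg, hg1⟩ := (hG n0 le_rfl j hj 1).mp h1mem
      exact ⟨g, hg, hg1⟩
  have hex2 : ∀ j, j < m →
      ∃ h, h ∈ h53_Lint D (h53_Bd D1 D2 E n0 0 j) ∧ D.redF h = D.redF x ^ n0 :=
    fun j hj => by
      obtain ⟨g, hg, hg1⟩ := (hG n0 le_rfl j hj _).mp hxmem
      exact ⟨g, hg, hg1⟩
  choose! g₁ hg₁ using hex1
  choose! h₂ hh₂ using hex2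
  let g₂ : ℕ → F := fun j => h₂ j * x⁻¹ ^ n0
  have hg₂ : ∀ j < m, g₂ j ∈ h53_Lint D (h53_Bd D1 D2 E 0 n0 j) ∧ D.redF (g₂ j) = 1 := by
    intro j hj
    have h := h53_shift_down C E (b := n0) le_rfl (hh₂ j hj).1
    rw [Nat.sub_self] at h
    refine ⟨h, ?_⟩
    show D.redF (h₂ j * x⁻¹ ^ n0) = 1
    rw [h51_redF_mul D (hh₂ j hj).1.2 (D.O.pow_mem hxinv _), (hh₂ j hj).2,
      h51_redF_pow D hxinv, ← mul_pow, C.red_mul_inv, one_pow]
  -- the constants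
  let π' : ↥D.A := ⟨π, D.A.nonunits_le hπ⟩
  have hπ' : π' ∈ maximalIdeal ↥D.A := ValuationSubring.coe_mem_nonunits_iff.mp hπ
  have hπ0' : π' ≠ 0 := fun h => hπ0 (congrArg Subtype.val h)
  have hπinv : π⁻¹ ∉ D.A := (D.A.mem_nonunits_iff_or.mp hπ).resolve_left hπ0
  have hrk : ∀ a : ↥D.A, a ≠ 0 → ∃ n : ℕ, a ∣ π' ^ n := by
    intro a ha
    have ha0 : (a : K) ≠ 0 := fun h => ha (Subtype.ext h)
    obtain ⟨n, hn⟩ := hR1 π (D.A.nonunits_le hπ) hπinv (a : K) ha0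
    refine ⟨n, ⟨⟨π ^ n * (a : K)⁻¹, hn⟩, Subtype.ext ?_⟩⟩
    show π ^ n = (a : K) * (π ^ n * (a : K)⁻¹)
    field_simp
  have hrk' : ∀ a ∈ maximalIdeal ↥D.A, ∃ n : ℕ, π' ∣ a ^ n := by
    intro a ha
    rcases eq_or_ne (a : K) 0 with h0 | h0
    · refine ⟨1, ?_⟩
      rw [pow_one, show a = 0 from Subtype.ext h0]
      exact dvd_zero _
    · have ha' : (a : K) ∈ D.A.nonunits := ValuationSubring.coe_mem_nonunits_iff.mpr ha
      have hainv : (a : K)⁻¹ ∉ D.A := (D.A.mem_nonunits_iff_or.mp ha').resolve_left h0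
      obtain ⟨n, hn⟩ := hR1 (a : K) a.2 hainv π hπ0
      refine ⟨n, ⟨⟨(a : K) ^ n * π⁻¹, hn⟩, Subtype.ext ?_⟩⟩
      show (a : K) ^ n = π * ((a : K) ^ n * π⁻¹)
      field_simp
  have hmunit : IsUnit ((m : ℕ) : ↥D.A) := by
    by_contra hnu
    have h1 : ((m : ℕ) : ↥D.A) ∈ maximalIdeal ↥D.A := (IsLocalRing.mem_maximalIdeal _).mpr hnu
    have h2 : D.res ((m : ℕ) : ↥D.A) = 0 :=
      (h22_res_eq_zero_iff D _).mpr (ValuationSubring.coe_mem_nonunits_iff.mpr h1)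
    rw [map_natCast] at h2
    exact hm h2
  obtain ⟨minv, hminv⟩ := hmunit.exists_right_inv
  -- the patching theorem
  obtain ⟨f, hf1, hf2, hfg⟩ := h53_cyc_zar (A := ↥D.A) (F := F) π' hπ' hπ0' hrk hrk' m hm0
    minv hminv u
    (h53_Fam D D1 D2 E 1 0) (h53_Fam D D1 D2 E 0 1) (h53_Fam D D1 D2 E 1 1)
    (fun j => h53_Lint D (h53_Bd D1 D2 E n0 n0 j))
    (fun j _ => iSup_le fun n => (h53_Lint_mono D fun v =>
      h53_Bd_mono C.nonneg₁ C.nonneg₂ E le_rfl (by simp) j v).trans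
        (h53_le_Fam D D1 D2 E 1 1 j n))
    (fun j _ => iSup_le fun n => (h53_Lint_mono D fun v =>
      h53_Bd_mono C.nonneg₁ C.nonneg₂ E (by simp) le_rfl j v).trans
        (h53_le_Fam D D1 D2 E 1 1 j n))
    (fun j _ => h53_le_Fam11 D D1 D2 E j n0)
    (fun j _ => by
      have := hfinL (h53_Bd D1 D2 E n0 n0 j)
      exact h53_Lint_fg D hON _)
    (fun j hj => iSup_le fun n =>
      h53_dec D hON hfinL C E j n0 (hgenj j hj) _ (n * 1) (n * 1) rfl)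
    (h53_le_Fam D D1 D2 E 1 0 0 0 (h53_one_mem_Lint D C.nonneg₁ C.nonneg₂ E _ _))
    (h53_le_Fam D D1 D2 E 0 1 0 0 (h53_one_mem_Lint D C.nonneg₁ C.nonneg₂ E _ _))
    (h53_fam_mul D C.nonneg₁ C.nonneg₂ E hu huO hdiv 1 0)
    (h53_fam_mul D C.nonneg₁ C.nonneg₂ E hu huO hdiv 0 1)
    (h53_fam_mul D C.nonneg₁ C.nonneg₂ E hu huO hdiv 1 1)
    g₁ g₂
    (fun j hj => h53_le_Fam10 D D1 D2 E j n0 (hg₁ j hj).1)
    (fun j hj => h53_le_Fam01 D D1 D2 E j n0 (hg₂ j hj).1)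
    (h53_gen_mul D C.nonneg₁ C.nonneg₂ E hu huO hredu hdiv 1 0 n0 g₁ (fun j hj => by
      rw [mul_one, mul_zero]
      exact hg₁ j hj))
    (h53_gen_mul D C.nonneg₁ C.nonneg₂ E hu huO hredu hdiv 0 1 n0 g₂ (fun j hj => by
      rw [mul_one, mul_zero]
      exact hg₂ j hj))
    (fun j hj => by
      have ha : g₁ j ∈ h53_Lint D (h53_Bd D1 D2 E n0 n0 j) :=
        h53_Lint_mono D (fun v => h53_Bd_mono C.nonneg₁ C.nonneg₂ E le_rfl (Nat.zero_le _) j v)
          (hg₁ j hj).1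
      have hb : g₂ j ∈ h53_Lint D (h53_Bd D1 D2 E n0 n0 j) :=
        h53_Lint_mono D (fun v => h53_Bd_mono C.nonneg₁ C.nonneg₂ E (Nat.zero_le _) le_rfl j v)
          (hg₂ j hj).1
      have hred : D.redF (g₁ j - g₂ j) = 0 := by
        rw [h53_redF_sub D ha.2 hb.2, (hg₁ j hj).2, (hg₂ j hj).2, sub_self]
      exact Submodule.smul_mono le_rfl (h53_le_Fam11 D D1 D2 E j n0)
        (h53_Lint_ker D _ (Submodule.sub_mem _ ha hb) hred))
    1 (by omega)
  -- `f ∈ L(E) ∩ O`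
  obtain ⟨n1, hfn1⟩ := (h53_mem_Fam D C.nonneg₁ C.nonneg₂ E 1 0 1).mp hf1
  obtain ⟨n2, hfn2⟩ := (h53_mem_Fam D C.nonneg₁ C.nonneg₂ E 0 1 1).mp hf2
  have hfO : f ∈ D.O := hfn1.2
  have hfE : ∀ v : Place K F, f = 0 ∨ -E v ≤ v.ord f := by
    intro v
    rcases mem_riemannRochSpace_iff.mp hfn1.1 v with h | ha
    · exact Or.inl h
    rcases mem_riemannRochSpace_iff.mp hfn2.1 v with h | hb
    · exact Or.inl h
    right
    rw [h53_Bd_apply] at ha hb
    simp only [mul_one, mul_zero, Nat.cast_zero, Nat.cast_one, zero_mul, one_mul, add_zero,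
      zero_add] at ha hb
    rcases C.disj v with h | h
    · rw [h, mul_zero, zero_add] at ha
      exact ha
    · rw [h, mul_zero, zero_add] at hb
      exact hb
  -- `f ≠ 0`: its reduction is the residue class of `1/m`
  have hred := h53_redF_of_mem_smul D (h53_Fam D D1 D2 E 1 0 1)
    (h53_Fam_integral D D1 D2 E 1 0 1) hfg
  have hg1 := hg₁ 1 (by omega)
  have hmg : algebraMap ↥D.A F minv * g₁ 1 ∈ D.O :=
    D.O.mul_mem ((D.mem_iff _).mp minv.2) hg1.1.2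
  have hredf : D.redF f = D.resK (minv : K) • (1 : Rb) := by
    have h3 := h53_redF_sub D hfO hmg
    rw [hred.2] at h3
    have h4 : D.redF (algebraMap ↥D.A F minv * g₁ 1) = D.resK (minv : K) • D.redF (g₁ 1) := by
      have h5 : algebraMap ↥D.A F minv * g₁ 1 = (minv : K) • g₁ 1 := by
        rw [Algebra.smul_def]
        rfl
      rw [h5]
      exact h51_redF_smul D minv.2 hg1.1.2
    rw [h4, hg1.2] at h3
    exact sub_eq_zero.mp h3.symm
  have hf0 : f ≠ 0 := by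
    rintro rfl
    have h5 : D.redF (0 : F) = 0 := by
      rw [D.redF_of_mem D.O.zero_mem]
      exact map_zero D.red
    rw [h5, Algebra.smul_def, mul_one] at hredf
    have h6 : D.resK (minv : K) = 0 :=
      (map_eq_zero_iff _ (algebraMap k Rb).injective).mp hredf.symm
    have h7 : D.res minv = 0 := by
      rw [← D.resK_of_mem minv.2]
      exact h6
    have h8 : D.res ((m : ℕ) : ↥D.A) * D.res minv = 1 := by
      rw [← map_mul, hminv, map_one]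
    rw [h7, mul_zero] at h8
    exact zero_ne_one h8
  exact ⟨f, hf0, mem_riemannRochSpace_iff.mpr hfE⟩

/-- **The last step** `h51_LastStep` from the hypothesis list (L). -/
theorem h53_lastStep (D : h22_Lat K F k Rb) (hON : h22_ON D)
    (hrank : h39_RankOne D.A) (π : K) (hπ : π ∈ D.A.nonunits) (hπ0 : π ≠ 0)
    (hfin : ∀ D' : Divisor K F, FiniteDimensional K (riemannRochSpace D'))
    (x : F) (hx0 : x ≠ 0) (hx : x ∈ D.O) (hxi : x⁻¹ ∈ D.O)
    (E1 E2 : Divisor K F) (hE1 : ∀ v : Place K F, 0 ≤ E1 v) (hE2 : ∀ v : Place K F, 0 ≤ E2 v)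
    (hdisj : ∀ v : Place K F, E1 v = 0 ∨ E2 v = 0)
    (hdivx : ∀ v : Place K F, v.ord x = E2 v - E1 v) (N0 : ℕ)
    (hstrict : ∀ n, N0 ≤ n → ∀ a ∈ h51_Rd D ((n + 1) • E1),
      ∃ b ∈ h51_Rd D (n • E1), ∃ c ∈ h51_Rd D (n • E1), a = b + D.redF x * c)
    (m : ℕ) (hm : (m : k) ≠ 0) : h51_LastStep D E1 N0 m := by
  rintro Ez uz - huz hdivz ⟨huzO, huzred⟩ htriv
  exact h53_cyc_section D hON hfin hrank π hπ hπ0 x hx0 hx hxi E1 E2 hE1 hE2 hdisj hdivx N0
    hstrict m hm Ez uz huz hdivz huzO huzred (fun n hn j _ => htriv (j : ℤ) n hn)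

end Fermat.Agent.S34

end
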