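import Mathlib
import Fermat.Agent.S34.h20_NodeFinal
import Fermat.Agent.S34.h51_Last
import Fermat.Agent.S34.h53_LastStep

/-!
# S34 / CHART-FINAL (helper20): the whole generic chain in one call

`h20_G_of_chart_final` composes

* `h20_node_final` (NODE: helper16's `h16_node_chart` + helper98's `h98_frob_nodes_off`),
* the special-fibre side `h20_ChartSF` / `h20_ChartNode` (`P`, `Bs`, `e1`, `e2`, `hind`, `hroot`,
  `hPx`) and the generic-fibre side `h20_ChartRR` (`hRR`, `hdim`, `hfin`),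
* helper51's `h51_strict_of_chart` and `h51_G_of_last`,
* helper53's `h53_lastStep`,

into the toric statement (G): for a lattice `D` with values in `Fb × Fb` whose reductions of
`L(n D0) ∩ O` are described by (REG) + (LEAD) + (GRAPH) on the ring of functions regular off
`Qinf`, a balanced chart function `t` with polar divisor `c • D0` and a semilinear automorphism
`g'` preserving `O`, the reduction and `D0`: `g' • E - E` is principal for every toric witness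
`(E, u)`.
-/

set_option autoImplicit false

noncomputable section

open AlgebraicCurve Module

namespace Fermat.Agent.S34

open Fermat.Agent.S18 Fermat.Agent.S24 Fermat.Agent.S27

variable {K F k Fb : Type*} [Field K] [Field F] [Algebra K F] [Field k] [Field Fb] [Algebra k Fb]

variable [IsAlgClosed K] [IsAlgClosed k] {q : ℕ} [Fact q.Prime] [CharP k q]

/-- **(G) from the chart instance, in one call.** -/
theorem h20_G_of_chart_final [HasPrincipalDivisors K F]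
    {xF : F} (hxF : h75_IsChart K xF) {xb : Fb} (hxb : h75_IsChart k xb)
    (D : h22_Lat K F k (Fb × Fb)) (hON : h22_ON D)
    (hinv : ∀ (f : F) (hf : f ∈ D.O), IsUnit (D.red ⟨f, hf⟩) → f⁻¹ ∈ D.O)
    (hrank : h39_RankOne D.A) (π : K) (hπ : π ∈ D.A.nonunits) (hπ0 : π ≠ 0)
    (D0 : Divisor K F) (hD0 : 0 ≤ D0) (hdeg : Divisor.degree D0 = 2) (Qinf : Place k Fb)
    (hreg : ∀ n, ∀ a ∈ h51_Rd D (n • D0), a.1 ∈ h16_Linf Qinf n ∧ a.2 ∈ h16_Linf Qinf n)
    (n₁ : ℕ)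
    (hlead₁ : ∀ n, n₁ ≤ n → ∃ x ∈ h51_Rd D ((n + 1) • D0),
      x.1 ∉ h16_Linf Qinf n ∧ x.2 ∈ h16_Linf Qinf n)
    (hlead₂ : ∀ n, n₁ ≤ n → ∃ y ∈ h51_Rd D ((n + 1) • D0),
      y.1 ∈ h16_Linf Qinf n ∧ y.2 ∉ h16_Linf Qinf n)
    {x : Fb} {φ : Fb →+* Fb} (h : h96_IsFrobChart k q x φ) {y : Fb} (hy : h75_IsChart k y)
    (hpole : ∀ Q : Place k Fb, y ∈ Q.toValuationSubring ↔ Q ≠ Qinf)
    (hfix : h96_frobPerm h Qinf = Qinf)
    (hG1 : ∀ b : Fb, (∀ Q : Place k Fb, Q ≠ Qinf → b ∈ Q.toValuationSubring) →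
      ∃ n : ℕ, (b, φ b) ∈ h51_Rd D (n • D0))
    (hG2 : ∀ b : Fb, (∀ Q : Place k Fb, Q ≠ Qinf → b ∈ Q.toValuationSubring) →
      ∃ n : ℕ, (φ b, b) ∈ h51_Rd D (n • D0))
    (c : ℕ) (hc : 0 < c) (t : F) (ht0 : t ≠ 0) (htO : t ∈ D.O) (htiO : t⁻¹ ∈ D.O)
    (htL : t ∈ riemannRochSpace (c • D0))
    (E2 : Divisor K F) (hE2 : ∀ v : Place K F, 0 ≤ E2 v)
    (hdisj : ∀ v : Place K F, (c • D0) v = 0 ∨ E2 v = 0)
    (hdivt : ∀ v : Place K F, v.ord t = E2 v - (c • D0) v)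
    (ht1 : (D.redF t).1 ≠ 0) (ht2 : (D.redF t).2 ≠ 0)
    (ho1 : Qinf.ord (D.redF t).1 = -(c : ℤ)) (ho2 : Qinf.ord (D.redF t).2 = -(c : ℤ))
    {m : ℕ} (hm : (m : k) ≠ 0)
    (g' : SemilinearAut K F) (hgO : ∀ f, f ∈ D.O → g' • f ∈ D.O)
    (hgred : ∀ f, f ∈ D.O → D.redF (g' • f) = D.redF f) (hgD0 : g' • D0 = D0)
    (E : Divisor K F) (hE : Divisor.degree E = 0) (u : F) (hu : u ≠ 0)
    (hdiv : ∀ v : Place K F, (m : ℤ) * E v = v.ord u) (huO : u ∈ D.O)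
    (hured : D.red ⟨u, huO⟩ = 1) :
    g' • E - E ∈ Divisor.principal (K := K) (F := F) := by
  obtain ⟨Sg, hSg, -, hnode⟩ := h20_node_final hxF hxb D hON D0 hD0 hdeg Qinf hreg n₁ hlead₁
    hlead₂ h hy hpole hfix hG1 hG2
  have hm0 : m ≠ 0 := by
    rintro rfl
    exact hm Nat.cast_zero
  have hdeg1 : (1 : ℤ) ≤ Divisor.degree D0 := by
    rw [hdeg]
    norm_num
  have hD0' : ∀ v : Place K F, 0 ≤ D0 v := fun v => hD0 v
  have hE1 : ∀ v : Place K F, 0 ≤ (c • D0) v := by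
    intro v
    rw [Finsupp.smul_apply, nsmul_eq_mul]
    exact mul_nonneg (Nat.cast_nonneg c) (hD0' v)
  have hPfin : ∀ n, FiniteDimensional k (h20_P Qinf n) := h20_P_finite hxb Qinf
  obtain ⟨n0, hn0⟩ : ∃ n0 : ℕ, n0 = max (max n₁ (h75_genus K xF))
      (max (2 * h75_genus k xb + Sg.card) (2 * h75_genus K xF)) := ⟨_, rfl⟩
  have hn0a : max n₁ (h75_genus K xF) ≤ n0 := by rw [hn0]; exact le_max_left _ _
  have hn0b : 2 * h75_genus k xb + Sg.card ≤ n0 := by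
    rw [hn0]; exact le_trans (le_max_left _ _) (le_max_right _ _)
  have hn0c : 2 * h75_genus K xF ≤ n0 := by
    rw [hn0]; exact le_trans (le_max_right _ _) (le_max_right _ _)
  have hnode' := fun n (hn : n0 ≤ n) => hnode n (le_trans hn0a hn)
  have hind := fun n (hn : n0 ≤ n) =>
    h20_chart_hind_nodes hxb Qinf Sg (h96_frobPerm h) hSg (h96_frobPerm h).injective n
      (le_trans hn0b hn)
  have hroot := h20_chart_root Qinf hm0
  have hRR := h20_chart_rr hxF D0 hdeg1 n0 hn0c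
  have hstrict : ∀ n, 2 * n0 + 1 ≤ n → ∀ a ∈ h51_Rd D ((n + 1) • (c • D0)),
      ∃ b ∈ h51_Rd D (n • (c • D0)), ∃ c' ∈ h51_Rd D (n • (c • D0)),
        a = b + D.redF t * c' := fun n hn =>
    h51_strict_of_chart D hON D0 hD0' (h20_P Qinf) (h20_Bs Qinf) (h20_P_le_Bs Qinf)
      (h20_e1 hxb Qinf (h20_nodeQ1 Sg (h96_frobPerm h))
        (h20_nodeQ1_ne Qinf Sg (h96_frobPerm h) hSg))
      (h20_e2 hxb Qinf (h20_nodeQ2 Sg) (h20_nodeQ2_ne Qinf Sg (h96_frobPerm h) hSg))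
      n0 hnode' c hc t htO htL (h20_chart_hPx Qinf c (D.redF t) ht1 ht2 ho1 ho2)
      (fun n => h20_chart_hfin hxF _) ((c : ℤ) * Divisor.degree D0)
      (1 - (h75_genus K xF : ℤ)) (2 * h75_genus K xF) (h20_chart_hdim hxF D0 hdeg1 c hc)
      n (by omega) (by omega)
  have hlast : h51_LastStep D (c • D0) (2 * n0 + 1) m :=
    h53_lastStep D hON hrank π hπ hπ0 (h20_chart_hfin hxF) t ht0 htO htiO (c • D0) E2 hE1 hE2
      hdisj hdivt (2 * n0 + 1) hstrict m hm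
  exact h51_G_of_last D hON hinv D0 (h20_P Qinf) (h20_Bs Qinf) (h20_P_le_Bs Qinf)
    (h20_e1 hxb Qinf (h20_nodeQ1 Sg (h96_frobPerm h))
      (h20_nodeQ1_ne Qinf Sg (h96_frobPerm h) hSg))
    (h20_e2 hxb Qinf (h20_nodeQ2 Sg) (h20_nodeQ2_ne Qinf Sg (h96_frobPerm h) hSg))
    n0 hm0 hnode' hind hroot hRR c (2 * n0 + 1) hc (Nat.le_succ _) hlast
    (h75_deg_eq_one hxF) g' hgO hgred hgD0 E hE u hu hdiv huO hured

end Fermat.Agent.S34

end
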