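import Fermat.Agent.S34.h84_FrobChart

/-!
# S34 — FROB-NODES on a `Φ`-stable chart (generic; no modular input)

`h84_frob_nodes_chart` describes a `k`-subalgebra `T` of `Fb × Fb` of pairs regular on the chart
of `x` containing the two graphs of a Frobenius-type endomorphism `φ`, under the hypothesis
`φ x = x ^ ℓ`.  In the modular application this holds for `x = j̄` (the chart "regular off all
cusps"), but NOT for the cuspidal chart `y` ("regular off the cusp `∞̄` only"), whose chart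
function has no reason to have `𝔽_q`-coefficients.  This file proves the same node description
for ANY chart `y` whose chart is stable under the Frobenius correspondence `Φ` on places:

* `h31_frob_frob_ne` : a function with a zero or a pole is moved by `φ ∘ φ`;
* `h31_fix_finite` : the places fixed by `Φ ∘ Φ` are finitely many (from ONE chart `x` with
  `φ x = x ^ ℓ`);
* `h31_frob_radical` : radicality of the ideal generated by the `b - φ (φ b)` in the chart ring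
  of `y`;
* `h31_frob_nodes_stable` : the node description of `T` on the chart of `y`
  (hypothesis `hstab : y ∈ Φ Q ↔ y ∈ Q`);
* `h31_frob_nodes_stable'` : the same with the stability stated on `φ y`
  (`φ y ∈ Q ↔ y ∈ Q`, i.e. `φ y` and `y` have the same poles);
* `h31_frob_nodes_of_semi` : characteristic `q` form, for a Frobenius structure `σ` with
  `φ = (σ⁻¹ ·) ^ q` (as produced once by `h84_frob_semi` from the chart `x = j̄`).
-/

set_option autoImplicit false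

noncomputable section

open AlgebraicCurve IsDedekindDomain
open Fermat.Agent.S18 Fermat.Agent.S24 Fermat.Agent.S27
open scoped IntermediateField

namespace Fermat.Agent.S34

variable {k Fb : Type*} [Field k] [Field Fb] [Algebra k Fb]

section stable

variable (φ : Fb →+* Fb) (Φ : Place k Fb → Place k Fb) (ℓ : ℕ)

/-- A function with a zero or a pole is moved by `φ ∘ φ`. -/
theorem h31_frob_frob_ne
    (hΦ : ∀ (Q : Place k Fb) (c : Fb), Q.ord (φ c) = (ℓ : ℤ) * (Φ Q).ord c) (hℓ : 2 ≤ ℓ)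
    {y : Fb} (P0 : Place k Fb) (hP0 : P0.ord y ≠ 0) : φ (φ y) ≠ y := by
  classical
  intro h
  have key : ∀ Q : Place k Fb, Q.ord y = (ℓ : ℤ) * ((ℓ : ℤ) * (Φ (Φ Q)).ord y) := by
    intro Q
    conv_lhs => rw [← h]
    rw [hΦ, hΦ]
  have hex : ∃ m : ℕ, 0 < m ∧ ∃ Q : Place k Fb, (Q.ord y).natAbs = m :=
    ⟨(P0.ord y).natAbs, Int.natAbs_pos.mpr hP0, P0, rfl⟩
  obtain ⟨hm0, Q, hQ⟩ := Nat.find_spec hex
  have h2 : (Q.ord y).natAbs = ℓ * (ℓ * ((Φ (Φ Q)).ord y).natAbs) := by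
    conv_lhs => rw [key Q]
    rw [Int.natAbs_mul, Int.natAbs_mul, Int.natAbs_natCast]
  have h3 : 0 < ((Φ (Φ Q)).ord y).natAbs := by
    by_contra h0
    have h0' : ((Φ (Φ Q)).ord y).natAbs = 0 := by omega
    rw [h0', mul_zero, mul_zero] at h2
    omega
  have h4 : ((Φ (Φ Q)).ord y).natAbs < Nat.find hex := by
    rw [← hQ, h2]
    have h5 : ((Φ (Φ Q)).ord y).natAbs * 2 ≤ ℓ * ((Φ (Φ Q)).ord y).natAbs := by
      rw [mul_comm]
      exact Nat.mul_le_mul_right _ hℓ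
    have h6 : (ℓ * ((Φ (Φ Q)).ord y).natAbs) * 2 ≤ ℓ * (ℓ * ((Φ (Φ Q)).ord y).natAbs) := by
      rw [mul_comm]
      exact Nat.mul_le_mul_right _ hℓ
    omega
  exact Nat.find_min hex h4 ⟨h3, Φ (Φ Q), rfl⟩

/-- `φ c` is regular at `Q` iff `c` is regular at `Φ Q`. -/
theorem h31_frob_mem_iff
    (hΦ : ∀ (Q : Place k Fb) (c : Fb), Q.ord (φ c) = (ℓ : ℤ) * (Φ Q).ord c) (hℓ : 0 < ℓ)
    (Q : Place k Fb) (c : Fb) :
    φ c ∈ Q.toValuationSubring ↔ c ∈ (Φ Q).toValuationSubring := by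
  refine ⟨fun h => ?_, fun h => h84_frob_mem φ Φ ℓ hΦ Q h⟩
  rcases eq_or_ne c 0 with rfl | hc
  · exact zero_mem _
  have h1 : 0 ≤ Q.ord (φ c) := h24_ord_nonneg_of_mem Q h
  rw [hΦ] at h1
  apply h24_mem_of_ord_nonneg
  by_contra h2
  have h3 : (Φ Q).ord c < 0 := not_le.mp h2
  have h4 : (0 : ℤ) < ℓ := by exact_mod_cast hℓ
  nlinarith

/-- `φ` preserves regularity on a `Φ`-stable chart. -/
theorem h31_frob_reg
    (hΦ : ∀ (Q : Place k Fb) (c : Fb), Q.ord (φ c) = (ℓ : ℤ) * (Φ Q).ord c)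
    {y : Fb} (hstab : ∀ Q : Place k Fb, y ∈ (Φ Q).toValuationSubring ↔ y ∈ Q.toValuationSubring)
    {b : Fb} (hb : h39_Reg k y b) : h39_Reg k y (φ b) := by
  intro Q hQ
  exact h84_frob_mem φ Φ ℓ hΦ Q (hb (Φ Q) ((hstab Q).mpr hQ))

/-- A chart has a zero. -/
theorem h31_exists_zero [IsAlgClosed k] {y : Fb} (hy : h75_IsChart k y) :
    ∃ P : Place k Fb, 0 < P.ord y := by
  have := hy.fin
  obtain ⟨s, hs, hsum⟩ := h75_fibre_main hy (0 : k)
  have hpos : 0 < Module.finrank k⟮y⟯ Fb := Module.finrank_pos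
  have hne : s.Nonempty := by
    by_contra h0
    rw [Finset.not_nonempty_iff_eq_empty] at h0
    rw [h0, Finset.sum_empty] at hsum
    have : (0 : ℤ) < (Module.finrank k⟮y⟯ Fb : ℤ) := by exact_mod_cast hpos
    omega
  obtain ⟨P, hP⟩ := hne
  have := (hs P).mp hP
  rw [map_zero, sub_zero] at this
  exact ⟨P, this⟩

/-- The places fixed by `Φ ∘ Φ` are finitely many (one chart `x` with `φ x = x ^ ℓ`). -/
theorem h31_fix_finite [IsAlgClosed k]
    (hφk : ∀ a : k, φ (algebraMap k Fb a) = algebraMap k Fb a)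
    (hΦ : ∀ (Q : Place k Fb) (c : Fb), Q.ord (φ c) = (ℓ : ℤ) * (Φ Q).ord c) (hℓ : 2 ≤ ℓ)
    {x : Fb} (hx : h75_IsChart k x) (hφx : φ x = x ^ ℓ) :
    {Q : Place k Fb | Φ (Φ Q) = Q}.Finite := by
  have h1 := h84_fix_finite φ Φ ℓ hφk hΦ hℓ hx hφx
  have h2 : {Q : Place k Fb | 0 < Q.ord (x⁻¹ - algebraMap k Fb 0)}.Finite :=
    h75_fibre_finite (h75_isChart_inv hx) 0
  refine (h1.union h2).subset ?_
  intro Q hfix
  by_cases hxQ : x ∈ Q.toValuationSubring
  · exact Or.inl ⟨hxQ, hfix⟩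
  · right
    show 0 < Q.ord (x⁻¹ - algebraMap k Fb 0)
    rw [map_zero, sub_zero, Place.ord_inv]
    have h3 : ¬ 0 ≤ Q.ord x := fun h => hxQ (h24_mem_of_ord_nonneg Q h)
    omega

/-- **Radicality on a `Φ`-stable chart.** An element of the chart ring of `y` vanishing at all
`Φ ∘ Φ`-fixed places of the chart lies in the ideal generated by the `b - φ (φ b)`. -/
theorem h31_frob_radical [IsAlgClosed k]
    (hφk : ∀ a : k, φ (algebraMap k Fb a) = algebraMap k Fb a)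
    (hΦ : ∀ (Q : Place k Fb) (c : Fb), Q.ord (φ c) = (ℓ : ℤ) * (Φ Q).ord c) (hℓ : 2 ≤ ℓ)
    {y : Fb} (hy : h75_IsChart k y)
    (hstab : ∀ Q : Place k Fb, y ∈ (Φ Q).toValuationSubring ↔ y ∈ Q.toValuationSubring)
    (φR : h75_ringB k y →+* h75_ringB k y)
    (hφR : ∀ b : h75_ringB k y, ((φR b : h75_ringB k y) : Fb) = φ (b : Fb))
    (r : h75_ringB k y)
    (hr : ∀ Q : Place k Fb, y ∈ Q.toValuationSubring → Φ (Φ Q) = Q → h39_Val Q (r : Fb) 0) :
    r ∈ Ideal.span (Set.range fun b : h75_ringB k y => b - φR (φR b)) := by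
  classical
  have := h75_ringB_isDedekindDomain hy
  have := h75_ringB_isFractionRing hy
  have hℓ0 : 0 < ℓ := by omega
  set a : Ideal (h75_ringB k y) :=
    Ideal.span (Set.range fun b : h75_ringB k y => b - φR (φR b)) with ha
  have hmem : ∀ b : h75_ringB k y, b - φR (φR b) ∈ a := fun b => Ideal.subset_span ⟨b, rfl⟩
  have hcoe : ∀ b : h75_ringB k y,
      ((b - φR (φR b) : h75_ringB k y) : Fb) = (b : Fb) - φ (φ (b : Fb)) := by
    intro b
    rw [← hφR b, ← hφR (φR b)]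
    rfl
  -- the maximal ideals above `a` are `Φ ∘ Φ`-fixed places of the chart
  have key : ∀ P : Ideal (h75_ringB k y), P.IsMaximal → a ≤ P →
      ∃ w : HeightOneSpectrum (h75_ringB k y), w.asIdeal = P ∧
        Φ (Φ (Place.ofHeightOneSpectrum (K := k) (F := Fb) w)) =
          Place.ofHeightOneSpectrum (K := k) (F := Fb) w := by
    intro P hP haP
    have hne : P ≠ ⊥ := by
      rintro rfl
      have h1 := haP (hmem ⟨y, h75_self_mem_ringB y⟩)
      rw [Ideal.mem_bot] at h1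
      have h2 : y - φ (φ y) = 0 := by
        have h3 := congrArg (Subtype.val) h1
        rw [hcoe] at h3
        exact h3
      obtain ⟨P0, hP0⟩ := h31_exists_zero hy
      exact h31_frob_frob_ne φ Φ ℓ hΦ hℓ P0 hP0.ne' (sub_eq_zero.mp h2).symm
    let w : HeightOneSpectrum (h75_ringB k y) := ⟨P, hP.isPrime, hne⟩
    refine ⟨w, rfl, ?_⟩
    set Q := Place.ofHeightOneSpectrum (K := k) (F := Fb) w with hQ
    have hQx : y ∈ Q.toValuationSubring := h75_self_mem_ofHeightOneSpectrum w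
    by_contra hfix
    have hQ1 : y ∈ (Φ Q).toValuationSubring := (hstab Q).mpr hQx
    have hQ2 : y ∈ (Φ (Φ Q)).toValuationSubring := (hstab (Φ Q)).mpr hQ1
    obtain ⟨h, hreg, hv1, hv0⟩ := h39_exists_separating hy Q (Φ (Φ Q)) hQx hQ2 (Ne.symm hfix)
    let hb : h75_ringB k y := ⟨h, (h64_reg_iff_mem_ringB hy h).mp hreg⟩
    have h1 : hb - φR (φR hb) ∈ w.asIdeal := haP (hmem hb)
    rw [h64_mem_prime_iff, hcoe] at h1
    have h2 : h39_Val Q (h - φ (φ h)) 0 := (h39_val_zero_iff Q).mpr h1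
    have h3 : h39_Val Q (φ (φ h)) 0 :=
      h84_frob_val φ Φ ℓ hφk hΦ hℓ0 Q (h84_frob_val φ Φ ℓ hφk hΦ hℓ0 (Φ Q) hv0)
    have h4 : h39_Val Q (h - φ (φ h) + φ (φ h)) (0 + 0) := h39_val_add Q h2 h3
    rw [sub_add_cancel, add_zero] at h4
    exact one_ne_zero (h39_val_unique Q hv1 h4)
  refine h34_radical_of_not_le_sq a ?_ r ?_
  · intro P hP haP haP2
    obtain ⟨w, rfl, hfix⟩ := key P hP haP
    set Q := Place.ofHeightOneSpectrum (K := k) (F := Fb) w with hQ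
    have hQx : y ∈ Q.toValuationSubring := h75_self_mem_ofHeightOneSpectrum w
    obtain ⟨a0, ha0⟩ := h39_exists_val hy Q hQx
    obtain ⟨π, hπreg, hπord, -⟩ := h39_exists_uniformizer hy Q a0 ha0
    let t : h75_ringB k y := ⟨π, (h64_reg_iff_mem_ringB hy π).mp hπreg⟩
    have hπ0 : π ≠ 0 := by
      rintro rfl
      simp at hπord
    have hφφ0 : φ (φ π) ≠ 0 := (map_ne_zero φ).mpr ((map_ne_zero φ).mpr hπ0)
    have hord2 : Q.ord (φ (φ π)) = (ℓ : ℤ) * ℓ := by
      rw [hΦ, hΦ, hfix, hπord, mul_one]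
    have hlt : Q.ord π < Q.ord (-(φ (φ π))) := by
      rw [h35_ord_neg, hord2, hπord]
      have : (2 : ℤ) ≤ ℓ := by exact_mod_cast hℓ
      nlinarith
    have hy1 : Q.ord (π - φ (φ π)) = 1 := by
      rw [sub_eq_add_neg, h34_ord_add_eq_of_lt Q hπ0 (neg_ne_zero.mpr hφφ0) hlt, hπord]
    have hy0 : π - φ (φ π) ≠ 0 := by
      intro h0
      rw [h0] at hy1
      simp at hy1
    have h1 : t - φR (φR t) ∈ w.asIdeal ^ 2 := haP2 (hmem t)
    rw [← HeightOneSpectrum.intValuation_le_pow_iff_mem] at h1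
    have h3 : w.valuation Fb (algebraMap (h75_ringB k y) Fb (t - φR (φR t))) =
        w.intValuation (t - φR (φR t)) :=
      w.valuation_of_algebraMap (K := Fb) (t - φR (φR t))
    have e3 : algebraMap (h75_ringB k y) Fb (t - φR (φR t)) = π - φ (φ π) := hcoe t
    rw [e3] at h3
    have h2 := h24_ofHeightOneSpectrum_ord (K := k) (F := Fb) w (π - φ (φ π))
    rw [← hQ, hy1] at h2
    have hv0 : w.valuation Fb (π - φ (φ π)) ≠ 0 := (Valuation.ne_zero_iff _).mpr hy0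
    have hval : w.valuation Fb (π - φ (φ π)) ≤ WithZero.exp (-(2 : ℤ)) := by
      rw [h3]
      exact_mod_cast h1
    rw [← WithZero.exp_log hv0, WithZero.exp_le_exp] at hval
    omega
  · intro P hP haP
    obtain ⟨w, rfl, hfix⟩ := key P hP haP
    rw [h64_mem_prime_iff]
    exact (h39_val_zero_iff _).mp (hr _ (h75_self_mem_ofHeightOneSpectrum w) hfix)

/-- **FROB-NODES on a `Φ`-stable chart.** A `k`-subalgebra `T` of `Fb × Fb` whose elements are
pairs of functions regular on the chart of `y` and which contains the two graphs `(b, φ b)` and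
`(φ b, b)` (`b` regular on the chart) is cut out by the node conditions `a.1 (Φ Q) = a.2 (Q)`
at a finite set `Sg` of places of the chart fixed by `Φ ∘ Φ`.  No hypothesis `φ y = y ^ ℓ`:
only that `Φ` preserves the chart of `y`. -/
theorem h31_frob_nodes_stable [IsAlgClosed k]
    (hφk : ∀ a : k, φ (algebraMap k Fb a) = algebraMap k Fb a)
    (hΦ : ∀ (Q : Place k Fb) (c : Fb), Q.ord (φ c) = (ℓ : ℤ) * (Φ Q).ord c) (hℓ : 2 ≤ ℓ)
    {y : Fb} (hy : h75_IsChart k y)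
    (hstab : ∀ Q : Place k Fb, y ∈ (Φ Q).toValuationSubring ↔ y ∈ Q.toValuationSubring)
    (hfix : {Q : Place k Fb | y ∈ Q.toValuationSubring ∧ Φ (Φ Q) = Q}.Finite)
    (T : Subalgebra k (Fb × Fb))
    (hT : ∀ a ∈ T, h39_Reg k y a.1 ∧ h39_Reg k y a.2)
    (h1 : ∀ b : Fb, h39_Reg k y b → (b, φ b) ∈ T)
    (h2 : ∀ b : Fb, h39_Reg k y b → (φ b, b) ∈ T) :
    ∃ Sg : Set (Place k Fb), Sg.Finite ∧
      (∀ Q ∈ Sg, y ∈ Q.toValuationSubring ∧ Φ (Φ Q) = Q) ∧
      ∀ a : Fb × Fb, a ∈ T ↔ h39_Reg k y a.1 ∧ h39_Reg k y a.2 ∧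
        ∀ Q ∈ Sg, ∀ c : k, h39_Val (Φ Q) a.1 c → h39_Val Q a.2 c := by
  classical
  have := h75_ringB_isDedekindDomain hy
  have := h75_ringB_isFractionRing hy
  have hℓ0 : 0 < ℓ := by omega
  have hregB : ∀ b : Fb, h39_Reg k y b ↔ b ∈ h75_ringB k y := h64_reg_iff_mem_ringB hy
  -- the restriction of `φ` to the chart ring
  let φR : h75_ringB k y →+* h75_ringB k y :=
    { toFun := fun b => ⟨φ (b : Fb),
        (hregB _).mp (h31_frob_reg φ Φ ℓ hΦ hstab ((hregB _).mpr b.2))⟩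
      map_one' := Subtype.ext (map_one φ)
      map_mul' := fun a b => Subtype.ext (map_mul φ _ _)
      map_zero' := Subtype.ext (map_zero φ)
      map_add' := fun a b => Subtype.ext (map_add φ _ _) }
  have hφR : ∀ b : h75_ringB k y, ((φR b : h75_ringB k y) : Fb) = φ (b : Fb) := fun b => rfl
  -- the fixed places of the chart
  let S : Type _ := {Q : Place k Fb // y ∈ Q.toValuationSubring ∧ Φ (Φ Q) = Q}
  have hSfin : Finite S := hfix.to_subtype
  let χ : S → (h75_ringB k y →ₐ[k] k) := fun Q => h84_evalAt hy Q.1 Q.2.1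
  have hχ : Function.Injective χ := by
    intro Q Q' h
    apply Subtype.ext
    apply h39_place_eq_of_val hy Q.1 Q'.1 Q.2.1 Q'.2.1
    intro f hf b hb
    have e1 : χ Q ⟨f, (hregB f).mp hf⟩ = b := h84_evalAt_eq hy Q.1 Q.2.1 _ hb
    have e2 := h84_evalAt_spec hy Q'.1 Q'.2.1 ⟨f, (hregB f).mp hf⟩
    have e3 : χ Q' ⟨f, (hregB f).mp hf⟩ = b := by rw [← h, e1]
    rw [← e3]
    exact e2
  let π : S → S := fun Q => ⟨Φ Q.1, (hstab Q.1).mpr Q.2.1, by rw [Q.2.2]⟩
  have hπ : Function.Injective π := by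
    intro Q Q' h
    have h' : Φ Q.1 = Φ Q'.1 := congrArg Subtype.val h
    apply Subtype.ext
    rw [← Q.2.2, ← Q'.2.2, h']
  have hφχ : ∀ (Q : S) (b : h75_ringB k y), χ Q (φR b) = χ (π Q) b := by
    intro Q b
    apply h84_evalAt_eq
    exact h84_frob_val φ Φ ℓ hφk hΦ hℓ0 Q.1 (h84_evalAt_spec hy (Φ Q.1) (π Q).2.1 b)
  have hrad : ∀ r : h75_ringB k y, (∀ Q, χ Q r = 0) →
      r ∈ Ideal.span (Set.range fun b : h75_ringB k y => b - φR (φR b)) := by
    intro r hr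
    apply h31_frob_radical φ Φ ℓ hφk hΦ hℓ hy hstab φR hφR r
    intro Q hQx hQfix
    have e1 := h84_evalAt_spec hy Q hQx r
    have e2 : χ ⟨Q, hQx, hQfix⟩ r = 0 := hr _
    rw [← e2]
    exact e1
  -- the subalgebra of `R × R`
  let ι : (h75_ringB k y × h75_ringB k y) →ₐ[k] Fb × Fb :=
    AlgHom.prodMap (IsScalarTower.toAlgHom k (h75_ringB k y) Fb)
      (IsScalarTower.toAlgHom k (h75_ringB k y) Fb)
  have hι : ∀ a : h75_ringB k y × h75_ringB k y, ι a = ((a.1 : Fb), (a.2 : Fb)) := fun a => rfl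
  obtain ⟨Sg, hSg⟩ := h34_frob_nodes φR (T.comap ι)
    (fun b => by
      rw [Subalgebra.mem_comap, hι]
      exact h1 _ ((hregB _).mpr b.2))
    (fun b => by
      rw [Subalgebra.mem_comap, hι]
      exact h2 _ ((hregB _).mpr b.2)) χ hχ π hπ hφχ hrad
  refine ⟨Subtype.val '' Sg, (Set.toFinite Sg).image _, ?_, ?_⟩
  · rintro Q ⟨Q', -, rfl⟩
    exact Q'.2
  · intro a
    constructor
    · intro ha
      obtain ⟨ha1, ha2⟩ := hT a ha
      refine ⟨ha1, ha2, ?_⟩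
      rintro Q ⟨Q', hQ', rfl⟩ c hc
      have hmem : ((⟨a.1, (hregB _).mp ha1⟩, ⟨a.2, (hregB _).mp ha2⟩) :
          h75_ringB k y × h75_ringB k y) ∈ T.comap ι := by
        rw [Subalgebra.mem_comap, hι]
        exact ha
      have e := (hSg _).mp hmem Q' hQ'
      have e1 : χ (π Q') ⟨a.1, (hregB _).mp ha1⟩ = c :=
        h84_evalAt_eq hy (Φ Q'.1) (π Q').2.1 _ hc
      have e2 := h84_evalAt_spec hy Q'.1 Q'.2.1 ⟨a.2, (hregB _).mp ha2⟩
      have e3 : χ Q' ⟨a.2, (hregB _).mp ha2⟩ = c := by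
        rw [← e1]
        exact e.symm
      rw [← e3]
      exact e2
    · rintro ⟨ha1, ha2, ha⟩
      have hmem : ((⟨a.1, (hregB _).mp ha1⟩, ⟨a.2, (hregB _).mp ha2⟩) :
          h75_ringB k y × h75_ringB k y) ∈ T.comap ι := by
        rw [hSg]
        intro Q' hQ'
        have e1 := h84_evalAt_spec hy (Φ Q'.1) (π Q').2.1 ⟨a.1, (hregB _).mp ha1⟩
        have e2 := ha Q'.1 ⟨Q', hQ', rfl⟩ _ e1
        exact (h84_evalAt_eq hy Q'.1 Q'.2.1 ⟨a.2, (hregB _).mp ha2⟩ e2).symm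
      rw [Subalgebra.mem_comap, hι] at hmem
      exact hmem

/-- **FROB-NODES on a `Φ`-stable chart**, stability stated on the function `φ y`: `φ y` and `y`
are regular at the same places; finiteness of the fixed places from one chart `x` with
`φ x = x ^ ℓ`. -/
theorem h31_frob_nodes_stable' [IsAlgClosed k]
    (hφk : ∀ a : k, φ (algebraMap k Fb a) = algebraMap k Fb a)
    (hΦ : ∀ (Q : Place k Fb) (c : Fb), Q.ord (φ c) = (ℓ : ℤ) * (Φ Q).ord c) (hℓ : 2 ≤ ℓ)
    {x : Fb} (hx : h75_IsChart k x) (hφx : φ x = x ^ ℓ)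
    {y : Fb} (hy : h75_IsChart k y)
    (hstab : ∀ Q : Place k Fb, φ y ∈ Q.toValuationSubring ↔ y ∈ Q.toValuationSubring)
    (T : Subalgebra k (Fb × Fb))
    (hT : ∀ a ∈ T, h39_Reg k y a.1 ∧ h39_Reg k y a.2)
    (h1 : ∀ b : Fb, h39_Reg k y b → (b, φ b) ∈ T)
    (h2 : ∀ b : Fb, h39_Reg k y b → (φ b, b) ∈ T) :
    ∃ Sg : Set (Place k Fb), Sg.Finite ∧
      (∀ Q ∈ Sg, y ∈ Q.toValuationSubring ∧ Φ (Φ Q) = Q) ∧
      ∀ a : Fb × Fb, a ∈ T ↔ h39_Reg k y a.1 ∧ h39_Reg k y a.2 ∧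
        ∀ Q ∈ Sg, ∀ c : k, h39_Val (Φ Q) a.1 c → h39_Val Q a.2 c := by
  have hℓ0 : 0 < ℓ := by omega
  have hstab' : ∀ Q : Place k Fb,
      y ∈ (Φ Q).toValuationSubring ↔ y ∈ Q.toValuationSubring := fun Q =>
    (h31_frob_mem_iff φ Φ ℓ hΦ hℓ0 Q y).symm.trans (hstab Q)
  exact h31_frob_nodes_stable φ Φ ℓ hφk hΦ hℓ hy hstab'
    ((h31_fix_finite φ Φ ℓ hφk hΦ hℓ hx hφx).subset fun Q hQ => hQ.2) T hT h1 h2

end stable

section semi

/-- **FROB-NODES on a stable chart, Frobenius-structure form.**  `σ` a semilinear automorphism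
with `φ = (σ⁻¹ ·) ^ q` (as produced by `h84_frob_semi` from a chart `x` with `φ x = x ^ q`),
`y` ANY chart such that `φ y` and `y` are regular at the same places.  A `k`-subalgebra `T` of
`Fb × Fb` of pairs regular on the chart of `y` containing the two graphs of `φ` is cut out by the
node conditions `a.1 (σ • Q) = a.2 (Q)` at a finite set of `σ²`-fixed places of the chart of
`y`. -/
theorem h31_frob_nodes_of_semi [IsAlgClosed k] (q : ℕ) (hq : 2 ≤ q)
    (σ : h57_SemiAut k Fb) (φ : Fb →+* Fb)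
    (hφk : ∀ a : k, φ (algebraMap k Fb a) = algebraMap k Fb a)
    (hφ : ∀ c : Fb, φ c = ((σ : Fb ≃+* Fb).symm c) ^ q)
    {x : Fb} (hx : h75_IsChart k x) (hφx : φ x = x ^ q)
    {y : Fb} (hy : h75_IsChart k y)
    (hstab : ∀ Q : Place k Fb, φ y ∈ Q.toValuationSubring ↔ y ∈ Q.toValuationSubring)
    (T : Subalgebra k (Fb × Fb))
    (hT : ∀ a ∈ T, h39_Reg k y a.1 ∧ h39_Reg k y a.2)
    (h1 : ∀ b : Fb, h39_Reg k y b → (b, φ b) ∈ T)
    (h2 : ∀ b : Fb, h39_Reg k y b → (φ b, b) ∈ T) :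
    ∃ Sg : Set (Place k Fb), Sg.Finite ∧
      (∀ Q ∈ Sg, y ∈ Q.toValuationSubring ∧ σ • σ • Q = Q) ∧
      ∀ a : Fb × Fb, a ∈ T ↔ h39_Reg k y a.1 ∧ h39_Reg k y a.2 ∧
        ∀ Q ∈ Sg, ∀ c : k, h39_Val (σ • Q) a.1 c → h39_Val Q a.2 c :=
  h31_frob_nodes_stable' φ (fun Q => σ • Q) q hφk (h84_frob_semi_ord σ φ q hφ) hq hx hφx hy
    hstab T hT h1 h2

end semi

end Fermat.Agent.S34
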