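import Mathlib
import Fermat.Agent.S34.h31_Graph
import Fermat.Agent.S34.h87_TopMq
import Fermat.Agent.S34.h16_NodeChart
import Fermat.Agent.S34.h16_IntFamily
import Fermat.Agent.S34.h84_FrobMod
import Fermat.Agent.S34.h60_Frame0
import Fermat.Agent.S18.h34_HoloRed
import Fermat.Agent.S18.h54_ModLevel
import Fermat.Agent.S18.h64_RankOneW
import Fermat.Agent.S27.h6w_Sep

/-!
# S34, (INT) (helper31; second route)

Level `M`, `q ∤ M` prime, `A` a valuation ring of `ℚ̄` over `q`, `k` its residue field,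
`D = h87_D M q hqM A hA` (`O = O₁ ∩ O₂`, `red = (red₁, red₂)`), `D0 = (Pinf) + (P0)`,
`Qinf` the cusp of `Fb(M)`.

**(INT)** `h31_int` : `red (L(n D0) ∩ O) ⊆ L(n Qinf) × L(n Qinf)`.

Route: the chart is the unit `x = α(b) β(b)` (`b = b_ν` a cusp function of pole order `ν` prime
to `q`).  Its poles are exactly `Pinf`, `P0` (order `(q+1)ν` each), and both reductions are the
same function `c = b̄ · φ(b̄)`, which is not a `q`-th power, hence a chart of `Fb(M)` with the
single pole `Qinf` of order `(q+1)ν`.  So `[F : K(x)] = 2(q+1)ν ≤ [Fb : k(c)] + [Fb : k(c)]`, the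
integrality transfer `h16_red_reg_family` / `h16_exists_monic_eq_family` applies, and the
`q`-expansion of every `f ∈ O₁ ∩ O₂` regular off `{Pinf, P0}` is `A`-integral.
-/

set_option autoImplicit false
set_option synthInstance.maxHeartbeats 400000

noncomputable section

open AlgebraicCurve ModularCurve IntermediateField

namespace Fermat.Agent.S34

open Fermat.Agent.S18 Fermat.Agent.S24 Fermat.Agent.S37 Fermat.Agent.S27

local notation "Qb" => AlgebraicClosure ℚ

section Generic

variable {K F : Type*} [Field K] [Field F] [Algebra K F]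

/-- The degree of a chart with exactly two poles is the sum of the pole orders. -/
theorem h31_finrank_two_poles [IsAlgClosed K] {x : F} (hx : h75_IsChart K x)
    (P1 P2 : Place K F) (h12 : P1 ≠ P2) (N1 N2 : ℕ) (hN1 : 0 < N1) (hN2 : 0 < N2)
    (h1 : P1.ord x = -(N1 : ℤ)) (h2 : P2.ord x = -(N2 : ℤ))
    (h0 : ∀ P : Place K F, P ≠ P1 → P ≠ P2 → 0 ≤ P.ord x) :
    (Module.finrank K⟮x⟯ F : ℤ) = (N1 : ℤ) + (N2 : ℤ) := by
  classical
  obtain ⟨s, hs, hsum⟩ := h75_fibre_main (h75_isChart_inv hx) 0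
  have hK : K⟮x⁻¹⟯ = K⟮x⟯ := h62_adjoin_inv x
  have hN1' : (0 : ℤ) < (N1 : ℤ) := by exact_mod_cast hN1
  have hN2' : (0 : ℤ) < (N2 : ℤ) := by exact_mod_cast hN2
  have hs' : s = {P1, P2} := by
    ext P
    rw [hs, map_zero, sub_zero, Place.ord_inv, Finset.mem_insert, Finset.mem_singleton]
    constructor
    · intro h
      by_contra hne
      push Not at hne
      have := h0 P hne.1 hne.2
      linarith
    · rintro (rfl | rfl)
      · rw [h1]
        linarith
      · rw [h2]
        linarith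
  rw [hs', Finset.sum_pair h12, map_zero, sub_zero, Place.ord_inv, Place.ord_inv, h1, h2,
    hK] at hsum
  linarith

/-- Membership in `L(n ((P₁) + (P₂)))`, converse of `h31_mem_rr_two`. -/
theorem h31_of_mem_rr_two (P1 P2 : Place K F) (h12 : P1 ≠ P2) (n : ℕ) (f : F) (hf0 : f ≠ 0)
    (hf : f ∈ riemannRochSpace (n • (Finsupp.single P1 (1 : ℤ) + Finsupp.single P2 (1 : ℤ)))) :
    (∀ P : Place K F, P ≠ P1 → P ≠ P2 → 0 ≤ P.ord f) ∧ -(n : ℤ) ≤ P1.ord f ∧
      -(n : ℤ) ≤ P2.ord f := by
  classical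
  rw [mem_riemannRochSpace_iff] at hf
  have key : ∀ P : Place K F, -((n : ℤ) * ((if P1 = P then (1 : ℤ) else 0)
      + (if P2 = P then (1 : ℤ) else 0))) ≤ P.ord f := by
    intro P
    have h := (hf P).resolve_left hf0
    rwa [Finsupp.smul_apply, Finsupp.add_apply, Finsupp.single_apply, Finsupp.single_apply,
      nsmul_eq_mul] at h
  refine ⟨fun P hP1 hP2 => ?_, ?_, ?_⟩
  · have h := key P
    rw [if_neg (Ne.symm hP1), if_neg (Ne.symm hP2)] at h
    simpa using h
  · have h := key P1
    rw [if_pos rfl, if_neg (Ne.symm h12)] at h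
    simpa using h
  · have h := key P2
    rw [if_neg h12, if_pos rfl] at h
    simpa using h

/-- The order of a coefficientwise image is at least the order. -/
theorem h31_order_le_coeffMap {A B : Type} [CommRing A] [CommRing B] (φ : A →+* B)
    (y : LaurentSeries A) (h : coeffMap φ y ≠ 0) : y.order ≤ (coeffMap φ y).order := by
  by_contra hlt
  push Not at hlt
  apply h
  apply HahnSeries.coeff_order_eq_zero.1
  rw [coeffMap_coeff, HahnSeries.coeff_eq_zero_of_lt_order hlt, map_zero]

end Generic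

section Chart

variable (M q : ℕ) [NeZero M] [NeZero q] [Fact q.Prime] (hqM : ¬ q ∣ M)
  (A : ValuationSubring Qb) (hA : A.LiesOverPrime q)

set_option maxHeartbeats 4000000 in
/-- **The chart of (INT)**: a unit `x` of `O₁ ∩ O₂` with `A`-integral `q`-expansion, a chart of
`F(Mq)` whose poles are `Pinf`, `P0`, with both reductions equal to a chart `c` of `Fb(M)` whose
only pole is the cusp, and `[F : K(x)] ≤ [Fb : k(c)] + [Fb : k(c)]`. -/
theorem h31_int_chart (hch : 5 ≤ q ∨ 2 ∣ M ∨ 3 ∣ M)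
    {Pinf P0 : Place Qb ↥(modularFunctionFieldBar (M * q))}
    (hPinf : h10_IsCusp (modularFunctionFieldBar (M * q)) Pinf)
    (hP0 : h10_IsCusp0 M q (h60_w M q hqM) P0) :
    ∃ (x : ↥(modularFunctionFieldBar (M * q)))
      (c : ↥(modularFunctionFieldFullC (IsLocalRing.ResidueField A) M)) (X : LaurentSeries A),
      (x : LaurentSeries Qb) = coeffMap A.subtype X ∧
      x ∈ (h60_R1 M q hqM A hA).O ∧ x ∈ (h60_R2 M q hqM A hA).O ∧
      (h60_R1 M q hqM A hA).redF x = c ∧ (h60_R2 M q hqM A hA).redF x = c ∧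
      h75_IsChart Qb x ∧ h75_IsChart (IsLocalRing.ResidueField A) c ∧
      (∀ P : Place Qb ↥(modularFunctionFieldBar (M * q)),
        x ∈ P.toValuationSubring → P ≠ Pinf ∧ P ≠ P0) ∧
      (∀ Q : Place (IsLocalRing.ResidueField A)
          ↥(modularFunctionFieldFullC (IsLocalRing.ResidueField A) M),
        Q ≠ h11_placeInftyC (IsLocalRing.ResidueField A) M → c ∈ Q.toValuationSubring) ∧
      Module.finrank Qb⟮x⟯ ↥(modularFunctionFieldBar (M * q))
        ≤ Module.finrank (IsLocalRing.ResidueField A)⟮c⟯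
            ↥(modularFunctionFieldFullC (IsLocalRing.ResidueField A) M)
          + Module.finrank (IsLocalRing.ResidueField A)⟮c⟯
            ↥(modularFunctionFieldFullC (IsLocalRing.ResidueField A) M) := by
  classical
  have hq : q.Prime := Fact.out
  have hk : IsAlgClosed (IsLocalRing.ResidueField A) := h19_residueField_isAlgClosed A
  have hc : CharP (IsLocalRing.ResidueField A) q := h19_residueField_charP A q hA
  have hRM := h39_modRed_spec M hqM A hA
  have hPM : h10_IsCusp (modularFunctionFieldBar M) (h11_placeInfty M) :=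
    fun _ hf => h11_placeInfty_ord M hf
  have hQ : h10_IsCusp (modularFunctionFieldFullC (IsLocalRing.ResidueField A) M)
      (h11_placeInftyC (IsLocalRing.ResidueField A) M) :=
    fun _ hf => h11_placeInftyC_ord _ M hf
  have hwα := h60_w_alpha M q hqM
  have hwβ := h60_w_beta M q hqM
  have hww := h60_w_w M q hqM
  have hF := h84_isFrobChart_jk M q hqM A hA
  obtain ⟨ν₀, hν₀⟩ := h11_exists_cusp_fn M hqM A hA hch
  -- a pole order `ν ≥ max ν₀ 1` prime to `q`
  obtain ⟨ν, hνν₀, hν1, hνq⟩ : ∃ ν : ℕ, ν₀ ≤ ν ∧ 1 ≤ ν ∧ ¬ q ∣ ν := by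
    by_cases h : q ∣ max ν₀ 1
    · refine ⟨max ν₀ 1 + 1, (le_max_left _ _).trans (Nat.le_succ _),
        Nat.succ_le_succ (Nat.zero_le _), fun h' => ?_⟩
      have h1 : q ∣ 1 := (Nat.dvd_add_right h).mp h'
      exact hq.one_lt.ne' (Nat.dvd_one.mp h1)
    · exact ⟨max ν₀ 1, le_max_left _ _, le_max_right _ _, h⟩
  obtain ⟨b, ys, hbs, hord, hunit, hbreg, hredreg⟩ := hν₀ ν hνν₀
  -- the reduction of `b`
  have hycoe : (((h39_modRed M hqM A hA).redF b :
      ↥(modularFunctionFieldFullC (IsLocalRing.ResidueField A) M)) :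
      LaurentSeries (IsLocalRing.ResidueField A)) = coeffMap (IsLocalRing.residue A) ys :=
    hRM.redF_of_integral b ys hbs
  have hcoeff : (coeffMap (IsLocalRing.residue A) ys).coeff (-(ν : ℤ)) ≠ 0 := by
    rw [coeffMap_coeff]
    intro h0
    exact ((IsLocalRing.residue_eq_zero_iff _).1 h0) hunit
  have hyne : coeffMap (IsLocalRing.residue A) ys ≠ 0 := by
    intro h0
    rw [h0] at hcoeff
    exact hcoeff rfl
  have hyord : (coeffMap (IsLocalRing.residue A) ys).order = -(ν : ℤ) := by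
    apply le_antisymm
    · exact HahnSeries.order_le_of_coeff_ne_zero hcoeff
    · rw [← hord]
      exact h31_order_le_coeffMap _ ys hyne
  have hr0 : (h39_modRed M hqM A hA).redF b ≠ 0 := by
    intro h0
    apply hyne
    rw [← hycoe, h0]
    rfl
  have hrord : (((h39_modRed M hqM A hA).redF b :
      ↥(modularFunctionFieldFullC (IsLocalRing.ResidueField A) M)) :
      LaurentSeries (IsLocalRing.ResidueField A)).order = -(ν : ℤ) := by
    rw [hycoe, hyord]
  have hbord : (b : LaurentSeries Qb).order = -(ν : ℤ) := by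
    rw [hbs, h64_order_coeffMap A.subtype A.subtype_injective, hord]
  have hbO : b ∈ (h39_modRed M hqM A hA).O := hRM.mem_of_integral b ys hbs
  have hb0 : b ≠ 0 := by
    rintro rfl
    apply hr0
    rw [(h39_modRed M hqM A hA).redF_of_mem (h39_modRed M hqM A hA).O.zero_mem]
    exact map_zero (h39_modRed M hqM A hA).red
  have hbv : ∀ v : Place Qb ↥(modularFunctionFieldBar M), v ≠ h11_placeInfty M →
      0 ≤ v.ord b := fun v hv => (h35_mem_iff_ord_nonneg v hb0).1 (hbreg v hv)
  -- reductions of `α b`, `β b`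
  have e1 : (h60_R1 M q hqM A hA).redF (heckeAlphaBar Qb M q b)
      = (h39_modRed M hqM A hA).redF b := h60_R1_redF_alpha M q hqM A hA hRM b
  have e2 : (h60_R2 M q hqM A hA).redF (heckeBetaBar Qb M q b)
      = (h39_modRed M hqM A hA).redF b := h60_R2_redF_beta M q hqM A hA hRM b
  have e3 : (h60_R1 M q hqM A hA).redF (heckeBetaBar Qb M q b)
      = h60_phi M q (IsLocalRing.ResidueField A) ((h39_modRed M hqM A hA).redF b) :=
    Subtype.ext (h60_R1_redF_beta_coe M q hqM A hA hRM b)
  have e4 : (h60_R2 M q hqM A hA).redF (heckeAlphaBar Qb M q b)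
      = h60_phi M q (IsLocalRing.ResidueField A) ((h39_modRed M hqM A hA).redF b) :=
    Subtype.ext (h60_R2_redF_alpha_coe M q hqM A hA hRM b)
  have m1 := (h60_R1_alpha_mem_iff M q hqM A hA hRM b).mpr hbO
  have m2 := (h60_R2_alpha_mem_iff M q hqM A hA hRM b).mpr hbO
  have m3 := (h60_R1_beta_mem_iff M q hqM A hA hRM b).mpr hbO
  have m4 := (h60_R2_beta_mem_iff M q hqM A hA hRM b).mpr hbO
  have hα0 : heckeAlphaBar Qb M q b ≠ 0 := (map_ne_zero (heckeAlphaBar Qb M q)).mpr hb0
  have hβ0 : heckeBetaBar Qb M q b ≠ 0 := (map_ne_zero (heckeBetaBar Qb M q)).mpr hb0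
  generalize hcdef : (h39_modRed M hqM A hA).redF b = c₀ at *
  have hφ0 : h60_phi M q (IsLocalRing.ResidueField A) c₀ ≠ 0 := (map_ne_zero _).mpr hr0
  have oc : (h11_placeInftyC (IsLocalRing.ResidueField A) M).ord c₀ = -(ν : ℤ) := by
    rw [h11_placeInftyC_ord _ M hr0, hrord]
  have oφ : (h11_placeInftyC (IsLocalRing.ResidueField A) M).ord
      (h60_phi M q (IsLocalRing.ResidueField A) c₀) = (q : ℤ) * (-(ν : ℤ)) := by
    rw [h11_placeInftyC_ord _ M hφ0, h60_coe_phi, h64_order_qExpand, hrord]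
  have rφ : ∀ Q : Place (IsLocalRing.ResidueField A)
      ↥(modularFunctionFieldFullC (IsLocalRing.ResidueField A) M),
      Q ≠ h11_placeInftyC (IsLocalRing.ResidueField A) M →
        h60_phi M q (IsLocalRing.ResidueField A) c₀ ∈ Q.toValuationSubring := by
    intro Q hQ'
    rw [h96_mem_frob hF Q c₀]
    exact hredreg _ fun h => hQ' ((h84_frobPerm_eq_cusp_iff hF hQ Q).mp h)
  have hν1' : (1 : ℤ) ≤ (ν : ℤ) := by exact_mod_cast hν1
  have hq1 : (1 : ℤ) ≤ (q : ℤ) := by exact_mod_cast hq.one_le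
  -- the chart `c` of the special fibre
  have hc0 : c₀ * h60_phi M q (IsLocalRing.ResidueField A) c₀ ≠ 0 := mul_ne_zero hr0 hφ0
  have ocφ : (h11_placeInftyC (IsLocalRing.ResidueField A) M).ord
      (c₀ * h60_phi M q (IsLocalRing.ResidueField A) c₀) = -(((q + 1) * ν : ℕ) : ℤ) := by
    rw [Place.ord_mul _ hr0 hφ0, oc, oφ]
    push_cast
    ring
  have hcchart : h75_IsChart (IsLocalRing.ResidueField A)
      (c₀ * h60_phi M q (IsLocalRing.ResidueField A) c₀) := by
    have hcF : CharP ↥(modularFunctionFieldFullC (IsLocalRing.ResidueField A) M) q :=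
      charP_of_injective_algebraMap
        (algebraMap (IsLocalRing.ResidueField A)
          ↥(modularFunctionFieldFullC (IsLocalRing.ResidueField A) M)).injective q
    have he : ExpChar ↥(modularFunctionFieldFullC (IsLocalRing.ResidueField A) M) q :=
      ExpChar.prime hq
    refine h34_isChart_of_not_mem q hq (h84_isChart_jk M q hqM A hA) _ ?_
    rw [h34_mem_pthPowers]
    rintro ⟨g, hg⟩
    have h1 : (h11_placeInftyC (IsLocalRing.ResidueField A) M).ord (g ^ q)
        = (q : ℤ) * (h11_placeInftyC (IsLocalRing.ResidueField A) M).ord g := by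
      rw [← zpow_natCast, Place.ord_zpow]
    rw [hg, ocφ] at h1
    apply hνq
    have h2 : (q : ℤ) ∣ (ν : ℤ) :=
      ⟨-(h11_placeInftyC (IsLocalRing.ResidueField A) M).ord g - ν, by
        push_cast at h1
        linarith⟩
    exact_mod_cast h2
  -- the chart `x` of the generic fibre
  have hxP : Pinf.ord (heckeAlphaBar Qb M q b * heckeBetaBar Qb M q b)
      = -(((q + 1) * ν : ℕ) : ℤ) := by
    rw [Place.ord_mul _ hα0 hβ0, h10_ord_alpha hPinf b, h10_ord_beta hPinf b, hbord]
    push_cast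
    ring
  have hxP0 : P0.ord (heckeAlphaBar Qb M q b * heckeBetaBar Qb M q b)
      = -(((q + 1) * ν : ℕ) : ℤ) := by
    rw [Place.ord_mul _ hα0 hβ0, h10_ord0_alpha hwα hP0 b, h10_ord0_beta hwβ hP0 b, hbord]
    push_cast
    ring
  have hxreg : ∀ P : Place Qb ↥(modularFunctionFieldBar (M * q)), P ≠ Pinf → P ≠ P0 →
      0 ≤ P.ord (heckeAlphaBar Qb M q b * heckeBetaBar Qb M q b) := by
    intro P hP1 hP2
    rw [Place.ord_mul _ hα0 hβ0]
    exact add_nonneg (h10_polar_alpha hwα hq hqM hPM hPinf hP0 b hbv P hP1 hP2)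
      (h10_polar_beta hwα hq hqM hww hPM hPinf hP0 b hbv P hP1 hP2)
  have hpos : 0 < (q + 1) * ν := Nat.mul_pos (Nat.succ_pos q) hν1
  have hpos' : (0 : ℤ) < (((q + 1) * ν : ℕ) : ℤ) := by exact_mod_cast hpos
  have hx0 : heckeAlphaBar Qb M q b * heckeBetaBar Qb M q b ≠ 0 := mul_ne_zero hα0 hβ0
  have hxtr : Transcendental Qb (heckeAlphaBar Qb M q b * heckeBetaBar Qb M q b) := by
    intro halg
    obtain ⟨a, ha⟩ := h35_exists_algebraMap_eq_of_isAlgebraic _ halg
    have h1 := h35_ord_algebraMap Pinf a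
    rw [ha, hxP] at h1
    linarith
  have hxchart : h75_IsChart Qb (heckeAlphaBar Qb M q b * heckeBetaBar Qb M q b) :=
    h34_isChart_of_transcendental (h54_isChart_jbar (M * q)) _ hxtr
  have hne : Pinf ≠ P0 := h10_cusp_ne_cusp0 hwα hq.two_le hPinf hP0
  have hdegx := h31_finrank_two_poles hxchart Pinf P0 hne ((q + 1) * ν) ((q + 1) * ν) hpos hpos
    hxP hxP0 hxreg
  have hdegc := h34_pole_le_finrank hcchart (h11_placeInftyC (IsLocalRing.ResidueField A) M)
  rw [h62_adjoin_inv, ocφ, neg_neg] at hdegc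
  refine ⟨heckeAlphaBar Qb M q b * heckeBetaBar Qb M q b,
    c₀ * h60_phi M q (IsLocalRing.ResidueField A) c₀, ys * qExpand A q ys, ?_,
    (h60_R1 M q hqM A hA).O.mul_mem _ _ m1 m3, (h60_R2 M q hqM A hA).O.mul_mem _ _ m2 m4, ?_, ?_,
    hxchart, hcchart, fun P hP => ⟨?_, ?_⟩, fun Q hQ' => ?_, ?_⟩
  · rw [map_mul, coeffMap_qExpand, ← hbs]
    rfl
  · rw [h39_redF_mul (h60_R1 M q hqM A hA) m1 m3, e1, e3]
  · rw [h39_redF_mul (h60_R2 M q hqM A hA) m2 m4, e4, e2, mul_comm]
  · rintro rfl
    have := (h35_mem_iff_ord_nonneg _ hx0).1 hP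
    rw [hxP] at this
    linarith
  · rintro rfl
    have := (h35_mem_iff_ord_nonneg _ hx0).1 hP
    rw [hxP0] at this
    linarith
  · exact Q.toValuationSubring.mul_mem _ _ (hredreg Q hQ') (rφ Q hQ')
  · have h1 : ((Module.finrank Qb⟮heckeAlphaBar Qb M q b * heckeBetaBar Qb M q b⟯
        ↥(modularFunctionFieldBar (M * q)) : ℕ) : ℤ)
        ≤ ((Module.finrank (IsLocalRing.ResidueField A)⟮c₀ * h60_phi M q
              (IsLocalRing.ResidueField A) c₀⟯
            ↥(modularFunctionFieldFullC (IsLocalRing.ResidueField A) M)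
          + Module.finrank (IsLocalRing.ResidueField A)⟮c₀ * h60_phi M q
              (IsLocalRing.ResidueField A) c₀⟯
            ↥(modularFunctionFieldFullC (IsLocalRing.ResidueField A) M) : ℕ) : ℤ) := by
      rw [hdegx]
      push_cast at hdegc ⊢
      linarith
    exact_mod_cast h1

set_option maxHeartbeats 4000000 in
/-- **(INT), one coordinate**: for `g ∈ O₁ ∩ O₂` regular off `{Pinf, P0}` with `q`-order
`≥ -n`, the first reduction `red₁ g` lies in `L(n Qinf)`. -/
theorem h31_int_core (hch : 5 ≤ q ∨ 2 ∣ M ∨ 3 ∣ M)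
    {Pinf P0 : Place Qb ↥(modularFunctionFieldBar (M * q))}
    (hPinf : h10_IsCusp (modularFunctionFieldBar (M * q)) Pinf)
    (hP0 : h10_IsCusp0 M q (h60_w M q hqM) P0)
    (g : ↥(modularFunctionFieldBar (M * q))) (hg1 : g ∈ (h60_R1 M q hqM A hA).O)
    (hg2 : g ∈ (h60_R2 M q hqM A hA).O)
    (hgreg : ∀ P : Place Qb ↥(modularFunctionFieldBar (M * q)), P ≠ Pinf → P ≠ P0 →
      g ∈ P.toValuationSubring)
    (n : ℕ) (hgn : -(n : ℤ) ≤ (g : LaurentSeries Qb).order) :
    (h60_R1 M q hqM A hA).redF g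
      ∈ h16_Linf (h11_placeInftyC (IsLocalRing.ResidueField A) M) n := by
  classical
  have hq : q.Prime := Fact.out
  have hk : IsAlgClosed (IsLocalRing.ResidueField A) := h19_residueField_isAlgClosed A
  obtain ⟨x, c, X, hxX, hx1, hx2, hxr1, hxr2, hxchart, hcchart, hxpole, hcreg, hdeg⟩ :=
    h31_int_chart M q hqM A hA hch hPinf hP0
  -- the family `![R₁, R₂]`
  have hRA : ∀ i j, (h60_pair M q hqM A hA i).A = (h60_pair M q hqM A hA j).A := fun i j =>
    ((h60_pair_spec M q hqM A hA).1 i).trans ((h60_pair_spec M q hqM A hA).1 j).symm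
  have hinc : ∀ i j, i ≠ j →
      ¬ (h60_pair M q hqM A hA i).O ≤ (h60_pair M q hqM A hA j).O := by
    intro i j hij
    fin_cases i <;> fin_cases j
    · exact absurd rfl hij
    · exact (h60_not_le M q hqM A hA).1
    · exact (h60_not_le M q hqM A hA).2
    · exact absurd rfl hij
  have hxR : ∀ i, x ∈ (h60_pair M q hqM A hA i).O := by
    intro i
    fin_cases i
    · exact hx1
    · exact hx2
  have hredx : ∀ i, (h60_pair M q hqM A hA i).redF x = c := by
    intro i
    fin_cases i
    · exact hxr1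
    · exact hxr2
  have htr : ∀ i, Transcendental (IsLocalRing.ResidueField A)
      ((h60_pair M q hqM A hA i).redF x) := fun i => by
    rw [hredx i]
    exact hcchart.tr
  have hfin : ∀ i, Module.Finite (IsLocalRing.ResidueField A)⟮(h60_pair M q hqM A hA i).redF x⟯
      ↥(modularFunctionFieldFullC (IsLocalRing.ResidueField A) M) := fun i => by
    rw [hredx i]
    exact hcchart.fin
  have hF : Module.Finite Qb⟮x⟯ ↥(modularFunctionFieldBar (M * q)) := hxchart.fin
  have hdeg' : Module.finrank Qb⟮x⟯ ↥(modularFunctionFieldBar (M * q))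
      ≤ ∑ i, Module.finrank (IsLocalRing.ResidueField A)⟮(h60_pair M q hqM A hA i).redF x⟯
        ↥(modularFunctionFieldFullC (IsLocalRing.ResidueField A) M) := by
    rw [Fin.sum_univ_two, hredx 0, hredx 1]
    exact hdeg
  have hgR : ∀ i, g ∈ (h60_pair M q hqM A hA i).O := by
    intro i
    fin_cases i
    · exact hg1
    · exact hg2
  have hreg : ∀ P : Place Qb ↥(modularFunctionFieldBar (M * q)),
      x ∈ P.toValuationSubring → g ∈ P.toValuationSubring :=
    fun P hP => hgreg P (hxpole P hP).1 (hxpole P hP).2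
  -- regularity of the reduction off the cusp
  have hreg1 := h16_red_reg_family (h60_pair M q hqM A hA) hRA hinc hxR htr hdeg' hxchart.sep
    hgR hreg 0
  have hregQ : ∀ Q : Place (IsLocalRing.ResidueField A)
      ↥(modularFunctionFieldFullC (IsLocalRing.ResidueField A) M),
      Q ≠ h11_placeInftyC (IsLocalRing.ResidueField A) M →
        (h60_R1 M q hqM A hA).redF g ∈ Q.toValuationSubring := by
    intro Q hQ'
    refine hreg1 Q ?_
    rw [hredx 0]
    exact hcreg Q hQ'
  -- the `q`-expansion of `g` is `A`-integral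
  have hint : IsIntegral (Algebra.adjoin Qb {x}) g := (h75_isIntegral_iff hxchart g).2 hreg
  obtain ⟨G, hGm, hG⟩ := h16_exists_monic_eq_family (h60_pair M q hqM A hA) hRA hinc hxR htr
    hdeg' hgR hint 0
  have hA0 : (h60_pair M q hqM A hA 0).A = A := (h60_pair_spec M q hqM A hA).1 0
  obtain ⟨y₁, y₂, hy₂, hgy⟩ := (h60_R1_mem_iff M q hqM A hA g).mp hg1
  let ι : (h60_pair M q hqM A hA 0).A →+* A :=
    ValuationSubring.inclusion (h60_pair M q hqM A hA 0).A A hA0.le
  let ψ : Polynomial (h60_pair M q hqM A hA 0).A →+* LaurentSeries A :=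
    Polynomial.eval₂RingHom ((HahnSeries.C : A →+* LaurentSeries A).comp ι) X
  have hψ : (coeffMap A.subtype).comp ψ
      = (algebraMap ↥(modularFunctionFieldBar (M * q)) (LaurentSeries Qb)).comp
        ((((Polynomial.aeval x : Polynomial Qb →ₐ[Qb] ↥(modularFunctionFieldBar (M * q))) :
            Polynomial Qb →+* ↥(modularFunctionFieldBar (M * q)))).comp
          (Polynomial.mapRingHom (algebraMap (h60_pair M q hqM A hA 0).A Qb))) := by
    apply Polynomial.ringHom_ext
    · intro a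
      simp only [RingHom.comp_apply, ψ, Polynomial.coe_eval₂RingHom, Polynomial.eval₂_C,
        Polynomial.coe_mapRingHom, Polynomial.map_C, RingHom.coe_coe, Polynomial.aeval_C]
      rw [HahnSeries.C_apply, coeffMap_single]
      rw [← IsScalarTower.algebraMap_apply, algebraMap_laurentSeries_eq_single]
      rfl
    · simp only [RingHom.comp_apply, ψ, Polynomial.coe_eval₂RingHom, Polynomial.eval₂_X,
        Polynomial.coe_mapRingHom, Polynomial.map_X, RingHom.coe_coe, Polynomial.aeval_X]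
      exact hxX.symm
  have hy₂' : coeffMap A.subtype y₂ ≠ 0 := by
    intro h0
    apply hy₂
    have : y₂ = 0 := Fermat.Agent.S28.coeffMap_injective A.subtype A.subtype_injective
      (h0.trans (map_zero _).symm)
    rw [this, map_zero]
  obtain ⟨y, hy⟩ := h11_int_of_monic A (h64_rankOne_h39 hq A hA) (g : LaurentSeries Qb)
    (G.map ψ) (hGm.map ψ) (by
      rw [Polynomial.eval₂_map, hψ]
      have := Polynomial.hom_eval₂ G
        ((((Polynomial.aeval x : Polynomial Qb →ₐ[Qb] ↥(modularFunctionFieldBar (M * q))) :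
            Polynomial Qb →+* ↥(modularFunctionFieldBar (M * q)))).comp
          (Polynomial.mapRingHom (algebraMap (h60_pair M q hqM A hA 0).A Qb)))
        (algebraMap ↥(modularFunctionFieldBar (M * q)) (LaurentSeries Qb)) g
      rw [hG, map_zero] at this
      exact this.symm) y₁ y₂ hy₂' hgy
  -- the reduction is the coefficientwise reduction
  have hredy : (((h60_R1 M q hqM A hA).redF g :
      ↥(modularFunctionFieldFullC (IsLocalRing.ResidueField A) M)) :
      LaurentSeries (IsLocalRing.ResidueField A)) = coeffMap (IsLocalRing.residue A) y := by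
    rw [(h60_R1 M q hqM A hA).redF_of_mem hg1]
    have h1 := h60_R1_red_eq M q hqM A hA g hg1 y 1 (by rw [map_one, mul_one, hy])
    rwa [map_one, mul_one] at h1
  rw [h16_mem_Linf]
  by_cases hr0 : (h60_R1 M q hqM A hA).redF g = 0
  · exact Or.inl hr0
  · refine Or.inr ⟨fun P hP => (h35_mem_iff_ord_nonneg P hr0).1 (hregQ P hP), ?_⟩
    have hne : coeffMap (IsLocalRing.residue A) y ≠ 0 := by
      rw [← hredy]
      intro h0
      exact hr0 (Subtype.ext h0)
    rw [h11_placeInftyC_ord _ M hr0, hredy]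
    refine le_trans ?_ (h31_order_le_coeffMap _ y hne)
    have h2 : y.order = (g : LaurentSeries Qb).order := by
      rw [← hy, h64_order_coeffMap A.subtype A.subtype_injective]
    rw [h2]
    exact hgn

set_option maxHeartbeats 2000000 in
/-- **(INT)** `hreg` of `h16_node_chart` / `h51_G_of_frob` / `h87_chartProp_of_rows` for
`D := h87_D M q hqM A hA`, `D0 := (Pinf) + (P0)`, `Qinf := h11_placeInftyC k M`:
`red (L(n D0) ∩ O) ⊆ L(n Qinf) × L(n Qinf)`. -/
theorem h31_int (hch : 5 ≤ q ∨ 2 ∣ M ∨ 3 ∣ M)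
    {Pinf P0 : Place Qb ↥(modularFunctionFieldBar (M * q))}
    (hPinf : h10_IsCusp (modularFunctionFieldBar (M * q)) Pinf)
    (hP0 : h10_IsCusp0 M q (h60_w M q hqM) P0) :
    ∀ n, ∀ a ∈ h51_Rd (h87_D M q hqM A hA)
        (n • (Finsupp.single Pinf (1 : ℤ) + Finsupp.single P0 (1 : ℤ))),
      a.1 ∈ h16_Linf (h11_placeInftyC (IsLocalRing.ResidueField A) M) n ∧
      a.2 ∈ h16_Linf (h11_placeInftyC (IsLocalRing.ResidueField A) M) n := by
  classical
  have hq : q.Prime := Fact.out
  have hwα := h60_w_alpha M q hqM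
  have hwβ := h60_w_beta M q hqM
  have hww := h60_w_w M q hqM
  have hne : Pinf ≠ P0 := h10_cusp_ne_cusp0 hwα hq.two_le hPinf hP0
  rintro n a ⟨f, hfL, hfO, rfl⟩
  have hf1 : f ∈ (h60_R1 M q hqM A hA).O := hfO.1
  have hf2 : f ∈ (h60_R2 M q hqM A hA).O := hfO.2
  rw [h87_D_redF M q hqM A hA hf1 hf2]
  by_cases hf0 : f = 0
  · subst hf0
    rw [h39_redF_zero, h39_redF_zero]
    exact ⟨Submodule.zero_mem _, Submodule.zero_mem _⟩
  obtain ⟨hreg, hn1, hn2⟩ := h31_of_mem_rr_two Pinf P0 hne n f hf0 hfL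
  refine ⟨?_, ?_⟩
  · refine h31_int_core M q hqM A hA hch hPinf hP0 f hf1 hf2
      (fun P h1 h2 => h24_mem_of_ord_nonneg P (hreg P h1 h2)) n ?_
    rw [← hPinf.ord_eq f]
    exact hn1
  · show (h60_R2 M q hqM A hA).redF f ∈ _
    rw [h60_R2_redF]
    refine h31_int_core M q hqM A hA hch hPinf hP0 (h60_w M q hqM f)
      ((h60_R2_mem_iff M q hqM A hA f).mp hf2) ?_ ?_ n ?_
    · rw [h60_R2_mem_iff, hww]
      exact hf1
    · intro P h1 h2
      set σ := h10_swapAut (h10_swap_algebraMap (h60_w M q hqM) hwα) hww with hσ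
      have hσw : ∀ y, σ y = h60_w M q hqM y := fun _ => rfl
      have hP : σ • (σ⁻¹ • P) = P := smul_inv_smul σ P
      have h := Place.ord_smul σ (σ⁻¹ • P) f
      rw [hP, hσw] at h
      apply h24_mem_of_ord_nonneg
      rw [h]
      refine hreg _ ?_ ?_
      · intro h3
        apply h2
        rw [← hP, h3]
        exact (h10_swap_smul_cusp hwα hww hPinf).unique hP0
      · intro h3
        apply h1
        rw [← hP, h3]
        exact (h10_swap_smul_cusp0 hwα hww hP0).unique hPinf
    · rw [← hP0 f hf0]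
      exact hn2

end Chart

end Fermat.Agent.S34

end
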