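import Mathlib

/-!
# S34 — the Goursat / nodal-algebra lemma (Mathlib only)

A subalgebra of a product `R₁ × R₂` of commutative `k`-algebras which contains the ring of
pairs glued along finitely many pairs of points is itself cut out by the gluing conditions at a
SUBSET of these pairs (`h34_glued_ring`).  The Frobenius form `h34_frob_nodes`: a subalgebra of
`R × R` containing the two graphs `(b, φ b)` and `(φ b, b)` is cut out by node conditions at a
subset of the (finitely many) points at which the ideal generated by `b - φ (φ b)` vanishes,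
provided that ideal is radical (hypothesis `hrad`).  `h34_radical_of_not_le_sq` is the Dedekind
criterion for that radicality.
-/

namespace Fermat.Agent.S34

open Function

section Goursat

variable {k : Type*} [Field k]

/-- (G1) INTERMEDIATE RING LEMMA: a subalgebra of `k^S₁ × k^S₂` containing the graph of the
re-indexing along `e : S₁ ≃ S₂` is cut out by the graph conditions at a subset. -/
theorem h34_inter_ring {S1 S2 : Type*} [Finite S1] [Finite S2] (e : S1 ≃ S2)
    (B : Subalgebra k ((S1 → k) × (S2 → k)))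
    (hB : ∀ x : (S1 → k) × (S2 → k), (∀ Q, x.1 Q = x.2 (e Q)) → x ∈ B) :
    ∃ Sg : Set S1, ∀ x : (S1 → k) × (S2 → k), x ∈ B ↔ ∀ Q ∈ Sg, x.1 Q = x.2 (e Q) := by
  classical
  cases nonempty_fintype S1
  refine ⟨{Q | ∀ x ∈ B, x.1 Q = x.2 (e Q)}, fun x => ⟨fun hx Q hQ => hQ x hx, fun hx => ?_⟩⟩
  -- for `Q` outside the subset, `(0, δ_{e Q})` lies in `B`
  have key : ∀ Q : S1, (¬ ∀ y ∈ B, y.1 Q = y.2 (e Q)) →
      ((0 : S1 → k), (Pi.single (e Q) (1 : k) : S2 → k)) ∈ B := by
    intro Q hQ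
    push Not at hQ
    obtain ⟨y, hy, hne⟩ := hQ
    have hd : ((Pi.single Q (1 : k) : S1 → k), (Pi.single (e Q) (1 : k) : S2 → k)) ∈ B := by
      apply hB
      intro Q'
      by_cases h : Q' = Q
      · subst h; simp
      · have h' : e Q' ≠ e Q := e.injective.ne h
        simp [h, h']
    have h1 := B.mul_mem hy hd
    have h2 := B.sub_mem h1 (B.smul_mem hd (y.1 Q))
    have h3 := B.smul_mem h2 ((y.2 (e Q) - y.1 Q)⁻¹)
    have hne' : y.2 (e Q) - y.1 Q ≠ 0 := sub_ne_zero.mpr (Ne.symm hne)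
    convert h3 using 1
    ext s
    · by_cases h : s = Q
      · subst h; simp
      · simp [h]
    · by_cases h : s = e Q
      · subst h
        simp only [Prod.snd_mul, Prod.smul_snd, Prod.snd_sub, Pi.smul_apply, Pi.sub_apply,
          Pi.mul_apply, Pi.single_eq_same, mul_one, smul_eq_mul]
        field_simp
      · simp [h]
  have hx1 : (x.1, fun s => x.1 (e.symm s)) ∈ B := hB _ (by intro Q; simp)
  have hx2 : ((0 : S1 → k), fun s => x.2 s - x.1 (e.symm s)) ∈ B := by
    have hsum : ((0 : S1 → k), fun s => x.2 s - x.1 (e.symm s)) =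
        ∑ Q : S1, (x.2 (e Q) - x.1 Q) • ((0 : S1 → k), (Pi.single (e Q) (1 : k) : S2 → k)) := by
      ext s
      · simp [Prod.fst_sum]
      · rw [Prod.snd_sum, Finset.sum_apply, Finset.sum_eq_single (e.symm s)]
        · simp
        · intro Q _ hQ
          have : s ≠ e Q := fun h => hQ (by simp [h])
          simp [this]
        · intro h; exact absurd (Finset.mem_univ _) h
    rw [hsum]
    refine B.sum_mem fun Q _ => ?_
    by_cases hQ : ∀ y ∈ B, y.1 Q = y.2 (e Q)
    · have : x.2 (e Q) - x.1 Q = 0 := by rw [hx Q hQ, sub_self]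
      rw [this, zero_smul]; exact B.zero_mem
    · exact B.smul_mem (key Q hQ) _
  have := B.add_mem hx1 hx2
  convert this using 1
  ext s <;> simp

variable {R1 R2 : Type*} [CommRing R1] [CommRing R2] [Algebra k R1] [Algebra k R2]

/-- Pairwise distinct `k`-points of a commutative `k`-algebra: a function which is `1` at one
of them and `0` at the others. -/
theorem h34_exists_delta {S : Type*} [Finite S] (χ : S → (R1 →ₐ[k] k)) (hχ : Injective χ)
    (Q : S) : ∃ a : R1, χ Q a = 1 ∧ ∀ Q', Q' ≠ Q → χ Q' a = 0 := by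
  classical
  cases nonempty_fintype S
  have hu : ∀ Q' : S, Q' ≠ Q → ∃ u : R1, χ Q u = 1 ∧ χ Q' u = 0 := by
    intro Q' hQ'
    have hne : χ Q ≠ χ Q' := fun h => hQ' (hχ h).symm
    obtain ⟨r, hr⟩ : ∃ r, χ Q r ≠ χ Q' r := by
      by_contra hcon
      push Not at hcon
      exact hne (AlgHom.ext hcon)
    have hne' : χ Q r - χ Q' r ≠ 0 := sub_ne_zero.mpr hr
    refine ⟨(χ Q r - χ Q' r)⁻¹ • (r - algebraMap k R1 (χ Q' r)), ?_, ?_⟩
    · simp only [map_smul, map_sub, AlgHom.commutes, smul_eq_mul]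
      simp only [Algebra.algebraMap_self_apply]
      field_simp
    · simp only [map_smul, map_sub, AlgHom.commutes, smul_eq_mul]
      simp
  choose! u hu1 hu0 using hu
  refine ⟨∏ Q' ∈ Finset.univ.erase Q, u Q', ?_, ?_⟩
  · rw [map_prod]
    exact Finset.prod_eq_one fun Q' hQ' => hu1 Q' (Finset.ne_of_mem_erase hQ')
  · intro Q' hQ'
    rw [map_prod]
    exact Finset.prod_eq_zero (Finset.mem_erase.mpr ⟨hQ', Finset.mem_univ _⟩) (hu0 Q' hQ')

/-- Pairwise distinct `k`-points of a commutative `k`-algebra: joint evaluation is onto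
(Chinese remainder theorem). -/
theorem h34_exists_eval {S : Type*} [Finite S] (χ : S → (R1 →ₐ[k] k)) (hχ : Injective χ)
    (v : S → k) : ∃ a : R1, ∀ Q, χ Q a = v Q := by
  classical
  cases nonempty_fintype S
  choose d hd1 hd0 using h34_exists_delta χ hχ
  refine ⟨∑ Q, v Q • d Q, fun Q => ?_⟩
  rw [map_sum, Finset.sum_eq_single Q]
  · simp [hd1]
  · intro Q' _ hQ'
    simp [hd0 Q' Q (Ne.symm hQ')]
  · intro h; exact absurd (Finset.mem_univ _) h

/-- (G2) GLUED RING LEMMA: a subalgebra of `R₁ × R₂` containing the ring of pairs glued along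
finitely many pairs of (pairwise distinct) `k`-points is cut out by the gluing conditions at a
subset of the pairs. -/
theorem h34_glued_ring {S : Type*} [Finite S] (χ1 : S → (R1 →ₐ[k] k)) (χ2 : S → (R2 →ₐ[k] k))
    (h1 : Injective χ1) (h2 : Injective χ2) (B : Subalgebra k (R1 × R2))
    (hB : ∀ x : R1 × R2, (∀ Q, χ1 Q x.1 = χ2 Q x.2) → x ∈ B) :
    ∃ Sg : Set S, ∀ x : R1 × R2, x ∈ B ↔ ∀ Q ∈ Sg, χ1 Q x.1 = χ2 Q x.2 := by
  classical
  let ev : R1 × R2 →ₐ[k] (S → k) × (S → k) :=
    AlgHom.prodMap (AlgHom.pi χ1) (AlgHom.pi χ2)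
  have hev1 : ∀ (x : R1 × R2) (Q : S), (ev x).1 Q = χ1 Q x.1 := fun x Q => rfl
  have hev2 : ∀ (x : R1 × R2) (Q : S), (ev x).2 Q = χ2 Q x.2 := fun x Q => rfl
  have hB' : ∀ y : (S → k) × (S → k), (∀ Q, y.1 Q = y.2 (Equiv.refl S Q)) → y ∈ B.map ev := by
    intro y hy
    obtain ⟨a, ha⟩ := h34_exists_eval χ1 h1 y.1
    obtain ⟨b, hb⟩ := h34_exists_eval χ2 h2 y.2
    refine ⟨(a, b), hB (a, b) fun Q => ?_, ?_⟩
    · rw [ha, hb]; exact hy Q
    · ext Q
      · exact (hev1 (a, b) Q).trans (ha Q)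
      · exact (hev2 (a, b) Q).trans (hb Q)
  obtain ⟨Sg, hSg⟩ := h34_inter_ring (Equiv.refl S) (B.map ev) hB'
  refine ⟨Sg, fun x => ?_⟩
  have hmem : x ∈ B ↔ ev x ∈ B.map ev := by
    refine ⟨fun hx => ⟨x, hx, rfl⟩, ?_⟩
    rintro ⟨y, hy, hyx⟩
    have hxy : x - y ∈ B := by
      apply hB
      intro Q
      have e1 : χ1 Q y.1 = χ1 Q x.1 := by rw [← hev1 y Q, ← hev1 x Q]; exact congrArg (fun z => z.1 Q) hyx
      have e2 : χ2 Q y.2 = χ2 Q x.2 := by rw [← hev2 y Q, ← hev2 x Q]; exact congrArg (fun z => z.2 Q) hyx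
      simp [e1, e2]
    have := B.add_mem hxy hy
    simpa using this
  rw [hmem, hSg]
  exact Iff.rfl

variable {R : Type*} [CommRing R] [Algebra k R]

/-- A subalgebra of `R × R` containing the two graphs `(b, φ b)` and `(φ b, b)` of a ring
endomorphism `φ` contains `a × 0` and `0 × a`, `a` the ideal generated by all
`b - φ (φ b)`. -/
theorem h34_frob_ideal (φ : R →+* R) (B : Subalgebra k (R × R))
    (hB1 : ∀ b : R, (b, φ b) ∈ B) (hB2 : ∀ b : R, (φ b, b) ∈ B) (r : R)
    (hr : r ∈ Ideal.span (Set.range fun b : R => b - φ (φ b))) :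
    ((r, 0) : R × R) ∈ B ∧ ((0, r) : R × R) ∈ B := by
  induction hr using Submodule.span_induction with
  | mem x hx =>
    obtain ⟨b, rfl⟩ := hx
    constructor
    · have := B.sub_mem (hB1 b) (hB2 (φ b))
      simpa using this
    · have := B.sub_mem (hB2 b) (hB1 (φ b))
      simpa using this
  | zero => exact ⟨B.zero_mem, B.zero_mem⟩
  | add x y _ _ hx hy =>
    constructor
    · have := B.add_mem hx.1 hy.1
      simpa using this
    · have := B.add_mem hx.2 hy.2
      simpa using this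
  | smul c x _ hx =>
    constructor
    · have := B.mul_mem (hB1 c) hx.1
      simpa using this
    · have := B.mul_mem (hB2 c) hx.2
      simpa using this

/-- (G3) FROBENIUS NODES: `B ⊆ R × R` a subalgebra containing the two graphs `(b, φ b)` and
`(φ b, b)`; `χ Q` (`Q ∈ S`, finite) pairwise distinct `k`-points of `R`, permuted by `φ` through
`π`, such that every function vanishing at all of them lies in the ideal generated by the
`b - φ (φ b)` (that ideal is radical with zero set `S`).  Then `B` is cut out by the node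
conditions `x.1 (π Q) = x.2 Q` at a subset of `S`. -/
theorem h34_frob_nodes (φ : R →+* R) (B : Subalgebra k (R × R))
    (hB1 : ∀ b : R, (b, φ b) ∈ B) (hB2 : ∀ b : R, (φ b, b) ∈ B)
    {S : Type*} [Finite S] (χ : S → (R →ₐ[k] k)) (hχ : Injective χ) (π : S → S)
    (hπ : Injective π) (hφ : ∀ (Q : S) (b : R), χ Q (φ b) = χ (π Q) b)
    (hrad : ∀ r : R, (∀ Q, χ Q r = 0) → r ∈ Ideal.span (Set.range fun b : R => b - φ (φ b))) :
    ∃ Sg : Set S, ∀ x : R × R, x ∈ B ↔ ∀ Q ∈ Sg, χ (π Q) x.1 = χ Q x.2 := by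
  refine h34_glued_ring (fun Q => χ (π Q)) χ (hχ.comp hπ) hχ B fun x hx => ?_
  have h0 : ((0, x.2 - φ x.1) : R × R) ∈ B := by
    refine (h34_frob_ideal φ B hB1 hB2 _ (hrad _ fun Q => ?_)).2
    rw [map_sub, hφ, hx Q, sub_self]
  have := B.add_mem (hB1 x.1) h0
  simpa using this

/-- The node conditions at any family of pairwise distinct points are independent. -/
theorem h34_nodes_onto {S : Type*} [Finite S] (χ1 : S → (R1 →ₐ[k] k)) (χ2 : S → (R2 →ₐ[k] k))
    (h1 : Injective χ1) (v : S → k) :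
    ∃ x : R1 × R2, ∀ Q, χ1 Q x.1 - χ2 Q x.2 = v Q := by
  obtain ⟨a, ha⟩ := h34_exists_eval χ1 h1 v
  exact ⟨(a, 0), fun Q => by simp [ha]⟩

/-- (REG) `B ⊆ Bt` a `k`-subalgebra, `J` an ideal of `Bt` contained in `B` with `Bt ⧸ J`
finite-dimensional, `u ∈ B` a unit modulo `J`.  Then `u` has an inverse modulo `J` INSIDE
`B`. -/
theorem h34_exists_inv_mod {Bt : Type*} [CommRing Bt] [Algebra k Bt] (B : Subalgebra k Bt)
    (J : Ideal Bt) [Module.Finite k (Bt ⧸ J)] (u : Bt) (hu : u ∈ B)
    (hunit : Ideal.span {u} ⊔ J = ⊤) : ∃ v ∈ B, u * v - 1 ∈ J := by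
  -- `u` is a unit of the quotient
  obtain ⟨w, hw⟩ : ∃ w : Bt, u * w - 1 ∈ J := by
    have h1 : (1 : Bt) ∈ Ideal.span {u} ⊔ J := hunit ▸ Submodule.mem_top
    obtain ⟨a, ha, b, hb, hab⟩ := Submodule.mem_sup.mp h1
    obtain ⟨w, rfl⟩ := Ideal.mem_span_singleton'.mp ha
    refine ⟨w, ?_⟩
    have : u * w - 1 = -b := by rw [← hab]; ring
    rw [this]
    exact J.neg_mem hb
  set ub : Bt ⧸ J := Ideal.Quotient.mk J u with hub
  have hubw : ub * Ideal.Quotient.mk J w = 1 := by
    have := Ideal.Quotient.eq.mpr hw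
    simpa [hub] using this
  -- multiplication by `ub` on `k[ub]` is injective, hence surjective
  let T : Subalgebra k (Bt ⧸ J) := Algebra.adjoin k {ub}
  have hubT : ub ∈ T := Algebra.subset_adjoin rfl
  let m : T →ₗ[k] T := LinearMap.mulLeft k (⟨ub, hubT⟩ : T)
  have hminj : Function.Injective m := by
    intro a b hab
    have h1 : ub * (a : Bt ⧸ J) = ub * (b : Bt ⧸ J) := congrArg Subtype.val hab
    have h2 := congrArg (fun z => Ideal.Quotient.mk J w * z) h1
    simp only [← mul_assoc] at h2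
    rw [mul_comm (Ideal.Quotient.mk J w) ub, hubw, one_mul, one_mul] at h2
    exact Subtype.ext h2
  have hmsurj : Function.Surjective m := LinearMap.surjective_of_injective hminj
  obtain ⟨c, hc⟩ := hmsurj 1
  have hc' : ub * (c : Bt ⧸ J) = 1 := congrArg Subtype.val hc
  obtain ⟨p, hp⟩ : ∃ p : Polynomial k, Polynomial.aeval ub p = (c : Bt ⧸ J) := by
    have hcT : (c : Bt ⧸ J) ∈ Algebra.adjoin k {ub} := c.2
    rw [Algebra.adjoin_singleton_eq_range_aeval] at hcT
    exact hcT
  refine ⟨Polynomial.aeval u p, ?_, ?_⟩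
  · have : Polynomial.aeval u p = ((Polynomial.aeval (⟨u, hu⟩ : B) p : B) : Bt) :=
      Subalgebra.aeval_coe B (⟨u, hu⟩ : B) p
    rw [this]
    exact Subtype.coe_prop _
  · apply Ideal.Quotient.eq.mp
    have h3 : Ideal.Quotient.mk J (Polynomial.aeval u p) = Polynomial.aeval ub p := by
      have := Polynomial.aeval_algHom_apply (Ideal.Quotient.mkₐ k J) u p
      simpa [hub] using this.symm
    rw [map_mul, h3, hp, map_one]
    exact hc'

/-- (REG) In the situation of `h34_exists_inv_mod`: `u ^ r * x ∈ B` implies `x ∈ B`, i.e.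
`B ∩ u ^ r Bt = u ^ r B`. -/
theorem h34_reg {Bt : Type*} [CommRing Bt] [Algebra k Bt] (B : Subalgebra k Bt)
    (J : Ideal Bt) (hJB : ∀ x ∈ J, x ∈ B) [Module.Finite k (Bt ⧸ J)] (u : Bt) (hu : u ∈ B)
    (hunit : Ideal.span {u} ⊔ J = ⊤) (r : ℕ) (x : Bt) (hx : u ^ r * x ∈ B) : x ∈ B := by
  obtain ⟨v, hv, hvJ⟩ := h34_exists_inv_mod B J u hu hunit
  -- `(u v)^r - 1 ∈ J`
  have hJr : (u * v) ^ r - 1 ∈ J := by
    have h1 : Ideal.Quotient.mk J (u * v) = 1 := by
      have := Ideal.Quotient.eq.mpr hvJ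
      simpa using this
    apply Ideal.Quotient.eq.mp
    rw [map_pow, h1, one_pow, map_one]
  have h2 : ((u * v) ^ r - 1) * x ∈ B := hJB _ (J.mul_mem_right x hJr)
  have h3 : v ^ r * (u ^ r * x) ∈ B := B.mul_mem (B.pow_mem hv r) hx
  have : x = v ^ r * (u ^ r * x) - ((u * v) ^ r - 1) * x := by
    rw [mul_pow]; ring
  rw [this]
  exact B.sub_mem h3 h2

end Goursat

section Dedekind

variable {R : Type*} [CommRing R] [IsDedekindDomain R]

/-- (G4) Dedekind criterion for radicality: if `a` is contained in the square of no maximal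
ideal, then every element lying in all the maximal ideals above `a` lies in `a`. -/
theorem h34_radical_of_not_le_sq (a : Ideal R)
    (h : ∀ P : Ideal R, P.IsMaximal → a ≤ P → ¬ a ≤ P ^ 2) (r : R)
    (hr : ∀ P : Ideal R, P.IsMaximal → a ≤ P → r ∈ P) : r ∈ a := by
  by_contra hra
  -- the colon ideal `(a : r)` is proper
  let c : Ideal R := a.colon (Ideal.span {r})
  have hc : c ≠ ⊤ := by
    intro htop
    have h1 : (1 : R) ∈ c := htop ▸ Submodule.mem_top
    rw [Submodule.mem_colon] at h1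
    exact hra (by simpa using h1 r (Ideal.subset_span rfl))
  obtain ⟨P, hP, hcP⟩ := Ideal.exists_le_maximal c hc
  have haP : a ≤ P := by
    intro x hx
    apply hcP
    rw [Submodule.mem_colon]
    intro y hy
    simpa [mul_comm] using a.mul_mem_left y hx
  obtain ⟨a', ha'⟩ := Ideal.dvd_iff_le.mpr haP
  have ha'P : ¬ a' ≤ P := by
    intro hle
    apply h P hP haP
    rw [ha', sq]
    exact Ideal.mul_mono_right hle
  obtain ⟨y, hy, hyP⟩ := Set.not_subset.mp ha'P
  apply hyP
  apply hcP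
  rw [Submodule.mem_colon]
  intro z hz
  obtain ⟨t, rfl⟩ := Ideal.mem_span_singleton'.mp hz
  have : r * y ∈ a := by
    rw [ha']
    exact Ideal.mul_mem_mul (hr P hP haP) hy
  have := a.mul_mem_left t this
  simpa [mul_comm, mul_assoc, mul_left_comm] using this

end Dedekind

end Fermat.Agent.S34
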