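import Mathlib
import Fermat.Agent.S34.h34_Goursat

/-!
# S34 — Frobenius nodes on a Dedekind chart ring (Mathlib + `h34_Goursat`)

`R` a Dedekind `k`-algebra all of whose residue fields are `k` (a chart ring of a function field
over an algebraically closed field), `φ : R →ₐ[k] R` an endomorphism such that `φ ∘ φ` is not the
identity and takes values in `n`-th powers (`n ≥ 2`; for the `q`-Frobenius twist `n = q`).
Then every `k`-subalgebra `B` of `R × R` containing the two graphs `(b, φ b)` and `(φ b, b)` is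
cut out by finitely many node conditions `χ (φ x.1) = χ x.2`, `χ` running through a finite set of
`k`-points fixed by `φ ∘ φ` (`h34_frob_nodes_dedekind`).  No radicality hypothesis is left:
it is proved from `h34_radical_of_not_le_sq`.
-/

namespace Fermat.Agent.S34

open Function

variable {k : Type*} [Field k] {R : Type*} [CommRing R] [Algebra k R]

/-- Two `k`-points with comparable kernels are equal. -/
theorem h34_char_eq_of_ker_le (χ χ' : R →ₐ[k] k)
    (h : ∀ r : R, χ r = 0 → χ' r = 0) : χ = χ' := by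
  ext r
  have h0 : χ (r - algebraMap k R (χ r)) = 0 := by
    rw [map_sub, AlgHom.commutes]; simp
  have h1 := h _ h0
  rw [map_sub, AlgHom.commutes] at h1
  have h2 : χ' r = χ r := by simpa [sub_eq_zero] using h1
  exact h2.symm

/-- A maximal ideal with residue field `k` is the kernel of a `k`-point. -/
theorem h34_exists_char (P : Ideal R) (hP : P.IsMaximal)
    (hres : ∀ r : R, ∃ c : k, r - algebraMap k R c ∈ P) :
    ∃ χ : R →ₐ[k] k, ∀ r : R, χ r = 0 ↔ r ∈ P := by
  classical
  have hP1 : (1 : R) ∉ P := P.ne_top_iff_one.mp hP.ne_top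
  have huniq : ∀ (r : R) (c c' : k), r - algebraMap k R c ∈ P → r - algebraMap k R c' ∈ P →
      c = c' := by
    intro r c c' hc hc'
    by_contra hne
    have h1 : algebraMap k R (c' - c) ∈ P := by
      have := P.sub_mem hc hc'
      have e : r - algebraMap k R c - (r - algebraMap k R c') = algebraMap k R (c' - c) := by
        rw [map_sub]; ring
      rwa [e] at this
    have hne' : c' - c ≠ 0 := sub_ne_zero.mpr (Ne.symm hne)
    have h2 : algebraMap k R ((c' - c)⁻¹) * algebraMap k R (c' - c) ∈ P := P.mul_mem_left _ h1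
    rw [← map_mul, inv_mul_cancel₀ hne', map_one] at h2
    exact hP1 h2
  choose f hf using hres
  have hf0 : ∀ r, f r = 0 ↔ r ∈ P := by
    intro r
    constructor
    · intro h
      have := hf r
      rwa [h, map_zero, sub_zero] at this
    · intro h
      exact huniq r _ 0 (hf r) (by simpa using h)
  have hfadd : ∀ r s, f (r + s) = f r + f s := by
    intro r s
    refine huniq (r + s) _ _ (hf _) ?_
    have := P.add_mem (hf r) (hf s)
    have e : r - algebraMap k R (f r) + (s - algebraMap k R (f s)) =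
        r + s - algebraMap k R (f r + f s) := by rw [map_add]; ring
    rwa [e] at this
  have hfmul : ∀ r s, f (r * s) = f r * f s := by
    intro r s
    refine huniq (r * s) _ _ (hf _) ?_
    have h1 := P.mul_mem_right s (hf r)
    have h2 := P.mul_mem_left (algebraMap k R (f r)) (hf s)
    have := P.add_mem h1 h2
    have e : (r - algebraMap k R (f r)) * s + algebraMap k R (f r) * (s - algebraMap k R (f s)) =
        r * s - algebraMap k R (f r * f s) := by rw [map_mul]; ring
    rwa [e] at this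
  have hfalg : ∀ c : k, f (algebraMap k R c) = c := by
    intro c
    exact huniq _ _ _ (hf _) (by simp)
  refine ⟨{ toFun := f
            map_one' := by simpa using hfalg 1
            map_mul' := hfmul
            map_zero' := by simpa using hfalg 0
            map_add' := hfadd
            commutes' := hfalg }, fun r => hf0 r⟩

section Dedekind

variable [IsDedekindDomain R]

/-- If `ψ` takes values in `n`-th powers, `n ≥ 2`, and is not the identity, then the ideal
generated by the `b - ψ b` is contained in the square of no maximal ideal. -/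
theorem h34_not_le_sq_of_pow (ψ : R →+* R) (n : ℕ) (hn : 2 ≤ n) (hpow : ∀ b : R, ∃ d : R, ψ b = d ^ n)
    (hne : ∃ b : R, ψ b ≠ b) (P : Ideal R) (hP : P.IsMaximal)
    (hle : Ideal.span (Set.range fun b : R => b - ψ b) ≤ P) :
    ¬ Ideal.span (Set.range fun b : R => b - ψ b) ≤ P ^ 2 := by
  intro hle2
  have hPbot : P ≠ ⊥ := by
    rintro rfl
    obtain ⟨b, hb⟩ := hne
    have : b - ψ b ∈ (⊥ : Ideal R) := hle (Ideal.subset_span ⟨b, rfl⟩)
    rw [Ideal.mem_bot, sub_eq_zero] at this
    exact hb this.symm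
  have hprime : P.IsPrime := hP.isPrime
  have hlt : P ^ 2 < P := by
    have := Ideal.pow_succ_lt_pow hPbot 1
    simpa using this
  obtain ⟨t, htP, htP2⟩ := Set.exists_of_ssubset hlt
  obtain ⟨d, hd⟩ := hpow t
  have h1 : t - ψ t ∈ P := hle (Ideal.subset_span ⟨t, rfl⟩)
  have h2 : ψ t ∈ P := by
    have := P.sub_mem htP h1
    simpa using this
  have hdP : d ∈ P := by
    rw [hd] at h2
    exact hprime.mem_of_pow_mem n h2
  have h3 : ψ t ∈ P ^ 2 := by
    rw [hd]
    exact Ideal.pow_le_pow_right hn (Ideal.pow_mem_pow hdP n)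
  have h4 : t - ψ t ∈ P ^ 2 := hle2 (Ideal.subset_span ⟨t, rfl⟩)
  apply htP2
  have := (P ^ 2).add_mem h4 h3
  simpa using this

/-- (G5) FROBENIUS NODES ON A DEDEKIND CHART RING.  `R` Dedekind with all residue fields `k`,
`φ` a `k`-algebra endomorphism such that `φ ∘ φ` is not the identity and the ideal generated by
the `b - φ (φ b)` lies in the square of no maximal ideal.  A subalgebra `B` of `R × R`
containing the graphs `(b, φ b)`, `(φ b, b)` is cut out by the node conditions
`χ (φ x.1) = χ x.2` for `χ` in a FINITE set of `k`-points fixed by `φ ∘ φ`. -/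
theorem h34_frob_nodes_dedekind_of
    (hres : ∀ P : Ideal R, P.IsMaximal → ∀ r : R, ∃ c : k, r - algebraMap k R c ∈ P)
    (φ : R →ₐ[k] R) (hne : ∃ b : R, φ (φ b) ≠ b)
    (hsq : ∀ P : Ideal R, P.IsMaximal →
      Ideal.span (Set.range fun b : R => b - φ (φ b)) ≤ P →
      ¬ Ideal.span (Set.range fun b : R => b - φ (φ b)) ≤ P ^ 2)
    (B : Subalgebra k (R × R)) (hB1 : ∀ b : R, (b, φ b) ∈ B) (hB2 : ∀ b : R, (φ b, b) ∈ B) :
    ∃ Sg : Set (R →ₐ[k] k), Sg.Finite ∧ (∀ χ ∈ Sg, ∀ b : R, χ (φ (φ b)) = χ b) ∧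
      ∀ x : R × R, x ∈ B ↔ ∀ χ ∈ Sg, χ (φ x.1) = χ x.2 := by
  classical
  set a : Ideal R := Ideal.span (Set.range fun b : R => b - (φ : R →+* R) ((φ : R →+* R) b))
    with ha
  have ha' : a = Ideal.span (Set.range fun b : R => b - φ (φ b)) := rfl
  have habot : a ≠ ⊥ := by
    obtain ⟨b, hb⟩ := hne
    intro h0
    have : b - φ (φ b) ∈ a := Ideal.subset_span ⟨b, rfl⟩
    rw [h0, Ideal.mem_bot, sub_eq_zero] at this
    exact hb this.symm
  -- the finite set of fixed points
  let S : Type _ := {P : Ideal R // P.IsMaximal ∧ a ≤ P}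
  have hSfin : Finite S := by
    have hsub : {P : Ideal R | P.IsMaximal ∧ a ≤ P} ⊆ a.minimalPrimes := by
      rintro P ⟨hP, haP⟩
      refine ⟨⟨hP.isPrime, haP⟩, ?_⟩
      rintro P' ⟨hP', haP'⟩ hP'P
      have hP'bot : P' ≠ ⊥ := fun h0 => habot (le_bot_iff.mp (h0 ▸ haP'))
      have hP'max : P'.IsMaximal := hP'.isMaximal hP'bot
      exact (hP'max.eq_of_le hP.ne_top hP'P).ge
    exact (Set.Finite.subset (Ideal.finite_minimalPrimes_of_isNoetherianRing R a) hsub).to_subtype
  have hex : ∀ Q : S, ∃ χ : R →ₐ[k] k, ∀ r : R, χ r = 0 ↔ r ∈ Q.1 := fun Q =>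
    h34_exists_char Q.1 Q.2.1 (hres Q.1 Q.2.1)
  choose χ hχ using hex
  have hχinj : Injective χ := by
    intro Q Q' h
    apply Subtype.ext
    ext r
    rw [← hχ Q r, ← hχ Q' r, h]
  -- fixed points are fixed
  have hfix : ∀ (Q : S) (b : R), χ Q (φ (φ b)) = χ Q b := by
    intro Q b
    have h1 : b - φ (φ b) ∈ Q.1 := Q.2.2 (Ideal.subset_span ⟨b, rfl⟩)
    have h2 := (hχ Q _).mpr h1
    rw [map_sub, sub_eq_zero] at h2
    exact h2.symm
  -- the permutation induced by `φ`
  have hπex : ∀ Q : S, ∃ Q' : S, ∀ b : R, χ Q (φ b) = χ Q' b := by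
    intro Q
    let χ' : R →ₐ[k] k := (χ Q).comp φ
    have hker_max : (RingHom.ker (χ' : R →+* k)).IsMaximal :=
      RingHom.ker_isMaximal_of_surjective (χ' : R →+* k) (fun c => ⟨algebraMap k R c, by simp⟩)
    have hker_a : a ≤ RingHom.ker (χ' : R →+* k) := by
      rw [ha']
      apply Ideal.span_le.mpr
      rintro _ ⟨b, rfl⟩
      change χ' (b - φ (φ b)) = 0
      change χ Q (φ (b - φ (φ b))) = 0
      rw [map_sub, map_sub, hfix Q (φ b), sub_self]
    refine ⟨⟨RingHom.ker (χ' : R →+* k), hker_max, hker_a⟩, fun b => ?_⟩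
    have : χ' = χ ⟨RingHom.ker (χ' : R →+* k), hker_max, hker_a⟩ := by
      apply h34_char_eq_of_ker_le
      intro r hr
      exact (hχ _ r).mpr hr
    rw [← this]
    rfl
  choose π hπ using hπex
  have hππ : ∀ Q : S, π (π Q) = Q := by
    intro Q
    apply hχinj
    apply h34_char_eq_of_ker_le
    intro r hr
    rw [← hπ (π Q) r, ← hπ Q (φ r), hfix Q r] at hr
    exact hr
  have hπinj : Injective π := fun Q Q' h => by rw [← hππ Q, ← hππ Q', h]
  -- radicality
  have hrad : ∀ r : R, (∀ Q : S, χ Q r = 0) →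
      r ∈ Ideal.span (Set.range fun b : R => b - (φ : R →+* R) ((φ : R →+* R) b)) := by
    intro r hr
    refine h34_radical_of_not_le_sq a (fun P hP haP => hsq P hP haP) r fun P hP haP => ?_
    exact (hχ ⟨P, hP, haP⟩ r).mp (hr ⟨P, hP, haP⟩)
  obtain ⟨Sg0, hSg0⟩ := h34_frob_nodes (φ : R →+* R) B hB1 hB2 χ hχinj π hπinj
    (fun Q b => hπ Q b) hrad
  refine ⟨χ '' Sg0, (Set.toFinite Sg0).image χ, ?_, fun x => ?_⟩
  · rintro _ ⟨Q, _, rfl⟩ b
    exact hfix Q b
  · rw [hSg0]
    constructor
    · rintro h _ ⟨Q, hQ, rfl⟩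
      rw [hπ Q x.1]
      exact h Q hQ
    · intro h Q hQ
      rw [← hπ Q x.1]
      exact h (χ Q) ⟨Q, hQ, rfl⟩

/-- (G5') The same with the power criterion: `φ ∘ φ` takes values in `n`-th powers, `n ≥ 2`
(for the `q`-Frobenius twist on the chart ring of the residue curve: `n = q`). -/
theorem h34_frob_nodes_dedekind
    (hres : ∀ P : Ideal R, P.IsMaximal → ∀ r : R, ∃ c : k, r - algebraMap k R c ∈ P)
    (φ : R →ₐ[k] R) (n : ℕ) (hn : 2 ≤ n) (hpow : ∀ b : R, ∃ d : R, φ (φ b) = d ^ n)
    (hne : ∃ b : R, φ (φ b) ≠ b)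
    (B : Subalgebra k (R × R)) (hB1 : ∀ b : R, (b, φ b) ∈ B) (hB2 : ∀ b : R, (φ b, b) ∈ B) :
    ∃ Sg : Set (R →ₐ[k] k), Sg.Finite ∧ (∀ χ ∈ Sg, ∀ b : R, χ (φ (φ b)) = χ b) ∧
      ∀ x : R × R, x ∈ B ↔ ∀ χ ∈ Sg, χ (φ x.1) = χ x.2 :=
  h34_frob_nodes_dedekind_of hres φ hne
    (fun P hP hle => h34_not_le_sq_of_pow ((φ : R →+* R).comp (φ : R →+* R)) n hn hpow hne P hP hle)
    B hB1 hB2

end Dedekind

end Fermat.Agent.S34
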