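import Mathlib
import Fermat.Agent.S34.h39_Transport
import Fermat.Agent.S34.h60_R1AB
import Fermat.Agent.S34.h49_SwapInv
import Fermat.Agent.S34.h87_GalMod
import Fermat.Agent.S18.h39_Mod

/-!
# S34 / MOD-B, modular instance (helper39): the second valuation of `F(Mq)`

`M` a level, `q ∤ M` a prime, `A` a valuation ring of `ℚ̄` over `q`, `k = A/𝔪`,
`F = F(Mq)`, `E = F(M)`, `Fb = Fb(M)`, `R₁ = h60_R1 M q hqM A hA` (helper60), `α, β` the two
degeneracy maps, `j_q = β(j)`, `φ = h60_phi` (`h(q) ↦ h(q^q)`).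

* `h39_swap M q hqM` : the swap `w` of `F(Mq)` (S37 `h49_swapF` with chosen Bezout data);
  `h39_swap_alpha`, `h39_swap_beta`, `h39_swap_swap`, `h39_swap_const`, `h39_swap_galois`,
  `h39_swap_eq`;
* **(V2)** `h39_R2 M q hqM A hA := h39_transport R₁ w ..` : `O₂ = w⁻¹ O₁`, `red₂ = red₁ ∘ w`;
  `h39_R2_A`, `h39_R2_mem_iff`, `h39_R2_redF`, `h39_R2_resK`;
* `h39_R1_alpha`, `h39_R1_beta`, `h39_R2_alpha`, `h39_R2_beta` : for `g` in the level-`M`
  valuation ring, `α g, β g ∈ O₁ ∩ O₂` with reductions `(ḡ, φ ḡ)` resp. `(φ ḡ, ḡ)`;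
* **(SEP)** `h39_R12_sep` : separating elements both ways round; `h39_R12_not_le`: the two
  valuation rings are incomparable; `h39_R12_surjective`: `(red₁, red₂)` is onto `Fb × Fb`;
* **(FRAME0)** `h39_R12_frame0` (+ `h39_R12_span`, `h39_R12_li`) : the hypotheses `hO`, `hspan`,
  `hli` of `h22_on_of_pair_tower` for `y i = j_q ^ i`, `i ≤ q`;
* **(GAL)** `h39_R2_inertia` : inertia preserves `O₂` and acts trivially on `red₂`;
* `h39_Rfam : Bool → h39_RedDatum ..` with `h39_Rfam_A`, `h39_Rfam_sep`, `h39_Rfam_gal` : the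
  first three clauses of `h87_unipGeom_of_family` VERBATIM for the family `(R₁, R₂)`.
-/

set_option autoImplicit false
set_option synthInstance.maxHeartbeats 400000

noncomputable section

open ModularCurve AlgebraicCurve IntermediateField

namespace Fermat.Agent.S34

open Fermat.Agent.S18 Fermat.Agent.S37 Fermat.Agent.S24

local notation "Qb" => AlgebraicClosure ℚ

/-! ### Generic: linear independence from (KER) -/

section Generic

variable {K F k : Type*} [Field K] [Field F] [Algebra K F] [Field k]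
variable {E FbE Fb₁ Fb₂ : Type*} [Field E] [Algebra K E] [Field FbE] [Algebra k FbE]
  [Field Fb₁] [Algebra k Fb₁] [Field Fb₂] [Algebra k Fb₂]

/-- Under the hypotheses of `h39_frame0` the family `y` is linearly independent over `α(E)`. -/
theorem h39_frame0_li (RE : h39_RedDatum K E k FbE) (R₁ : h39_RedDatum K F k Fb₁)
    (R₂ : h39_RedDatum K F k Fb₂)
    (α : E →ₐ[K] F) {κ : Type*} [Fintype κ] (y : κ → F)
    (hker : ∀ a : κ → E, (∀ j, a j ∈ RE.O) → R₁.redF (∑ j, α (a j) * y j) = 0 →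
      R₂.redF (∑ j, α (a j) * y j) = 0 → ∀ j, RE.redF (a j) = 0)
    (a : κ → E) (h0 : ∑ j, α (a j) * y j = 0) : ∀ j, a j = 0 := by
  classical
  by_contra hall
  push Not at hall
  obtain ⟨j₁, hj₁⟩ := hall
  obtain ⟨j₀, -, hmax⟩ := Finset.exists_max_image Finset.univ
    (fun j => RE.O.valuation (a j)) ⟨j₁, Finset.mem_univ j₁⟩
  have hj₀ : a j₀ ≠ 0 := by
    intro h
    have h1 := hmax j₁ (Finset.mem_univ j₁)
    rw [h, map_zero] at h1
    exact hj₁ ((map_eq_zero _).mp (le_antisymm h1 zero_le))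
  obtain ⟨c, hc0, hcO, hcinv⟩ := RE.exists_scale (a j₀) hj₀
  have hcE : algebraMap K E c ≠ 0 := by
    rw [Ne, map_eq_zero]
    exact hc0
  have hscaled : ∀ j, algebraMap K E c * a j ∈ RE.O := by
    intro j
    rw [← ValuationSubring.valuation_le_one_iff, map_mul]
    have h1 : RE.O.valuation (algebraMap K E c * a j₀) ≤ 1 :=
      (ValuationSubring.valuation_le_one_iff _ _).mpr hcO
    rw [map_mul] at h1
    exact le_trans (mul_le_mul' le_rfl (hmax j (Finset.mem_univ j))) h1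
  have hsum : ∑ j, α (algebraMap K E c * a j) * y j = 0 := by
    have : ∑ j, α (algebraMap K E c * a j) * y j = algebraMap K F c * ∑ j, α (a j) * y j := by
      rw [Finset.mul_sum]
      refine Finset.sum_congr rfl fun j _ => ?_
      rw [map_mul, AlgHom.commutes, mul_assoc]
    rw [this, h0, mul_zero]
  have h1 := hker (fun j => algebraMap K E c * a j) hscaled
    (by rw [hsum]; exact h39_redF_zero R₁) (by rw [hsum]; exact h39_redF_zero R₂) j₀
  rcases (h39_redF_eq_zero_iff RE hcO).mp h1 with h | h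
  · exact (mul_ne_zero hcE hj₀) h
  · exact h hcinv

end Generic

/-! ### The swap -/

section Swap

variable (M q : ℕ) [NeZero M] [NeZero q] [Fact q.Prime] (hqM : ¬ q ∣ M)

omit [NeZero M] [NeZero q] in
include hqM in
theorem h39_exists_bezout : ∃ p : ℤ × ℤ, (q : ℤ) * p.1 - (M : ℤ) * p.2 = 1 := by
  obtain ⟨a, b, h⟩ := h49_exists_bezout
    ((Nat.Prime.coprime_iff_not_dvd (Fact.out : q.Prime)).mpr hqM)
  exact ⟨(a, b), h⟩

/-- The swap `w` of `F(Mq)`: the involution with `w ∘ α = β`, `w ∘ β = α`. -/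
def h39_swap : ↥(modularFunctionFieldBar (M * q)) →+* ↥(modularFunctionFieldBar (M * q)) :=
  h49_swapF (h39_exists_bezout M q hqM).choose_spec h78_iota (Fact.out : q.Prime)

/-- The swap does not depend on the Bezout data. -/
theorem h39_swap_eq {a b : ℤ} (hab : (q : ℤ) * a - (M : ℤ) * b = 1) (hq : q.Prime) :
    h39_swap M q hqM = h49_swapF hab h78_iota hq :=
  h49_swapF_indep hab h78_iota hq _ h78_iota

theorem h39_swap_alpha (y : ↥(modularFunctionFieldBar M)) :
    h39_swap M q hqM (heckeAlphaBar Qb M q y) = heckeBetaBar Qb M q y :=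
  h49_swapF_alpha _ _ _ y

theorem h39_swap_beta (y : ↥(modularFunctionFieldBar M)) :
    h39_swap M q hqM (heckeBetaBar Qb M q y) = heckeAlphaBar Qb M q y :=
  h49_swapF_beta _ _ _ y

theorem h39_swap_swap (x : ↥(modularFunctionFieldBar (M * q))) :
    h39_swap M q hqM (h39_swap M q hqM x) = x :=
  h49_swapF_swapF _ _ _ x

theorem h39_swap_const (c : Qb) :
    h39_swap M q hqM (algebraMap Qb ↥(modularFunctionFieldBar (M * q)) c)
      = algebraMap Qb ↥(modularFunctionFieldBar (M * q)) c :=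
  h49_swapF_const _ _ _ c

theorem h39_swap_galois (σ : Qb ≃ₐ[ℚ] Qb) (x : ↥(modularFunctionFieldBar (M * q))) :
    h39_swap M q hqM (arithmeticRingAut (modularFunctionFieldFull (M * q)) σ x)
      = arithmeticRingAut (modularFunctionFieldFull (M * q)) σ (h39_swap M q hqM x) :=
  h49_swapF_galois _ _ _ σ x

end Swap

/-! ### (V2): the second reduction datum -/

section R2

variable (M q : ℕ) [NeZero M] [NeZero q] [Fact q.Prime] (hqM : ¬ q ∣ M)
  (A : ValuationSubring Qb) (hA : A.LiesOverPrime q)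

/-- **(V2)** The second `q`-expansion reduction datum of level `Mq`: the transport of
`h60_R1` by the swap, `O₂ = w⁻¹ O₁`, `red₂ = red₁ ∘ w` (the expansion at the cusp `0'`). -/
def h39_R2 : h39_RedDatum Qb ↥(modularFunctionFieldBar (M * q)) (IsLocalRing.ResidueField A)
    ↥(modularFunctionFieldFullC (IsLocalRing.ResidueField A) M) :=
  h39_transport (h60_R1 M q hqM A hA) (h39_swap M q hqM) (h39_swap_const M q hqM)
    (h39_swap_swap M q hqM)

theorem h39_R2_A : (h39_R2 M q hqM A hA).A = A := h60_R1_A M q hqM A hA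

theorem h39_R2_mem_iff (f : ↥(modularFunctionFieldBar (M * q))) :
    f ∈ (h39_R2 M q hqM A hA).O ↔ h39_swap M q hqM f ∈ (h60_R1 M q hqM A hA).O := Iff.rfl

theorem h39_R2_redF (f : ↥(modularFunctionFieldBar (M * q))) :
    (h39_R2 M q hqM A hA).redF f = (h60_R1 M q hqM A hA).redF (h39_swap M q hqM f) :=
  h39_transport_redF _ _ _ _ f

theorem h39_R2_res (a : Qb) (ha : a ∈ (h39_R2 M q hqM A hA).A) (ha' : a ∈ A) :
    (h39_R2 M q hqM A hA).res ⟨a, ha⟩ = IsLocalRing.residue A ⟨a, ha'⟩ :=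
  h60_R1_res M q hqM A hA a ha ha'

/-- `resK` of `R₁` is the residue map of `A` (the hypothesis `hres₁` of `h22_latOfPair`). -/
theorem h39_R1_resK (a : Qb) (ha : a ∈ A) :
    (h60_R1 M q hqM A hA).resK a = IsLocalRing.residue A ⟨a, ha⟩ := by
  have ha' : a ∈ (h60_R1 M q hqM A hA).A := by
    rw [h60_R1_A]
    exact ha
  rw [(h60_R1 M q hqM A hA).resK_of_mem ha']
  exact h60_R1_res M q hqM A hA a ha' ha

/-- `resK` of `R₂` is the residue map of `A` (the hypothesis `hres₂` of `h22_latOfPair`). -/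
theorem h39_R2_resK (a : Qb) (ha : a ∈ A) :
    (h39_R2 M q hqM A hA).resK a = IsLocalRing.residue A ⟨a, ha⟩ :=
  h39_R1_resK M q hqM A hA a ha

/-! ### `α`, `β` and the two reductions -/

section AlphaBeta

variable {RM : h39_RedDatum Qb ↥(modularFunctionFieldBar M) (IsLocalRing.ResidueField A)
      ↥(modularFunctionFieldFullC (IsLocalRing.ResidueField A) M)}
  (hRM : h54_IsModRed M A RM)

include hRM in
/-- `α g ∈ O₁`, `red₁ (α g) = ḡ` (`redF` form of `h60_R1_alpha`). -/
theorem h39_R1_alpha {g : ↥(modularFunctionFieldBar M)} (hg : g ∈ RM.O) :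
    heckeAlphaBar Qb M q g ∈ (h60_R1 M q hqM A hA).O ∧
      (h60_R1 M q hqM A hA).redF (heckeAlphaBar Qb M q g) = RM.redF g := by
  have h1 := h60_R1_alpha_mem M q hqM A hA hRM ⟨g, hg⟩
  refine ⟨h1, ?_⟩
  rw [(h60_R1 M q hqM A hA).redF_of_mem h1, RM.redF_of_mem hg]
  exact h60_R1_alpha M q hqM A hA hRM ⟨g, hg⟩

include hRM in
/-- `β g ∈ O₁`, `red₁ (β g) = φ ḡ` (`redF` form of `h60_R1_beta`). -/
theorem h39_R1_beta [CharP (IsLocalRing.ResidueField A) q]
    [PerfectField (IsLocalRing.ResidueField A)] {g : ↥(modularFunctionFieldBar M)}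
    (hg : g ∈ RM.O) :
    heckeBetaBar Qb M q g ∈ (h60_R1 M q hqM A hA).O ∧
      (h60_R1 M q hqM A hA).redF (heckeBetaBar Qb M q g)
        = h60_phi M q (IsLocalRing.ResidueField A) (RM.redF g) := by
  have h1 := h60_R1_beta_mem M q hqM A hA hRM ⟨g, hg⟩
  refine ⟨h1, ?_⟩
  rw [(h60_R1 M q hqM A hA).redF_of_mem h1, RM.redF_of_mem hg]
  exact h60_R1_beta M q hqM A hA hRM ⟨g, hg⟩

include hRM in
/-- `α g ∈ O₂`, `red₂ (α g) = φ ḡ`. -/
theorem h39_R2_alpha [CharP (IsLocalRing.ResidueField A) q]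
    [PerfectField (IsLocalRing.ResidueField A)] {g : ↥(modularFunctionFieldBar M)}
    (hg : g ∈ RM.O) :
    heckeAlphaBar Qb M q g ∈ (h39_R2 M q hqM A hA).O ∧
      (h39_R2 M q hqM A hA).redF (heckeAlphaBar Qb M q g)
        = h60_phi M q (IsLocalRing.ResidueField A) (RM.redF g) := by
  have h := h39_R1_beta M q hqM A hA hRM hg
  refine ⟨?_, ?_⟩
  · rw [h39_R2_mem_iff, h39_swap_alpha]
    exact h.1
  · rw [h39_R2_redF, h39_swap_alpha]
    exact h.2

include hRM in
/-- `β g ∈ O₂`, `red₂ (β g) = ḡ`. -/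
theorem h39_R2_beta {g : ↥(modularFunctionFieldBar M)} (hg : g ∈ RM.O) :
    heckeBetaBar Qb M q g ∈ (h39_R2 M q hqM A hA).O ∧
      (h39_R2 M q hqM A hA).redF (heckeBetaBar Qb M q g) = RM.redF g := by
  have h := h39_R1_alpha M q hqM A hA hRM hg
  refine ⟨?_, ?_⟩
  · rw [h39_R2_mem_iff, h39_swap_beta]
    exact h.1
  · rw [h39_R2_redF, h39_swap_beta]
    exact h.2

include hRM in
/-- `j ∈ RM.O` and its reduction is `j̄`. -/
theorem h39_RM_jbar : h59_jbar M ∈ RM.O ∧
    ((RM.redF (h59_jbar M) : ↥(modularFunctionFieldFullC (IsLocalRing.ResidueField A) M)) :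
      LaurentSeries (IsLocalRing.ResidueField A)) = jqModC (IsLocalRing.ResidueField A) := by
  refine ⟨hRM.mem_of_integral (h59_jbar M) (jqModC A) (h54_coe_jbar M A), ?_⟩
  rw [hRM.redF_of_integral (h59_jbar M) (jqModC A) (h54_coe_jbar M A), coeffMap_jqModC]

end AlphaBeta

/-! ### (SEP) -/

/-- **(SEP)** separating elements for `(R₁, R₂)`, both ways round. -/
theorem h39_R12_sep :
    (∃ t : ↥(modularFunctionFieldBar (M * q)), t ∈ (h60_R1 M q hqM A hA).O ∧
        t ∈ (h39_R2 M q hqM A hA).O ∧ (h60_R1 M q hqM A hA).redF t = 1 ∧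
        (h39_R2 M q hqM A hA).redF t = 0) ∧
    (∃ t : ↥(modularFunctionFieldBar (M * q)), t ∈ (h60_R1 M q hqM A hA).O ∧
        t ∈ (h39_R2 M q hqM A hA).O ∧ (h60_R1 M q hqM A hA).redF t = 0 ∧
        (h39_R2 M q hqM A hA).redF t = 1) := by
  have hcp : CharP (IsLocalRing.ResidueField A) q := h19_residueField_charP A q hA
  have hac : IsAlgClosed (IsLocalRing.ResidueField A) := h19_residueField_isAlgClosed A
  have hRM := h39_modRed_spec M hqM A hA
  obtain ⟨hj, hjred⟩ := h39_RM_jbar M A hRM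
  obtain ⟨ha, hared⟩ := h39_R1_alpha M q hqM A hA hRM hj
  obtain ⟨hb, hbred⟩ := h39_R1_beta M q hqM A hA hRM hj
  have hφ : ((h60_phi M q (IsLocalRing.ResidueField A)
      ((h39_modRed M hqM A hA).redF (h59_jbar M)) :
        ↥(modularFunctionFieldFullC (IsLocalRing.ResidueField A) M)) :
      LaurentSeries (IsLocalRing.ResidueField A))
      = qExpand (IsLocalRing.ResidueField A) q (jqModC (IsLocalRing.ResidueField A)) := by
    rw [h60_coe_phi, hjred]
  refine h39_sep_transport (h60_R1 M q hqM A hA) (h39_swap M q hqM) (h39_swap_const M q hqM)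
    (h39_swap_swap M q hqM) (h39_swap_alpha M q hqM (h59_jbar M)) ha hb q ?_ ?_
  · rw [hbred, hared]
    apply Subtype.ext
    rw [hφ, SubmonoidClass.coe_pow, hjred]
    exact (h60_jq_pow (IsLocalRing.ResidueField A) q).symm
  · rw [hbred, hared]
    intro h
    have h1 : (((h39_modRed M hqM A hA).redF (h59_jbar M) :
        ↥(modularFunctionFieldFullC (IsLocalRing.ResidueField A) M)) :
          LaurentSeries (IsLocalRing.ResidueField A))
        = ((h60_phi M q (IsLocalRing.ResidueField A)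
            ((h39_modRed M hqM A hA).redF (h59_jbar M)) ^ q :
          ↥(modularFunctionFieldFullC (IsLocalRing.ResidueField A) M)) :
            LaurentSeries (IsLocalRing.ResidueField A)) := congrArg Subtype.val h
    rw [SubmonoidClass.coe_pow, hφ, hjred, h87_pow_char (IsLocalRing.ResidueField A) q] at h1
    exact h60_qExpand_ne_jq (IsLocalRing.ResidueField A) q _ h1.symm

/-- The two valuation rings are incomparable. -/
theorem h39_R12_not_le :
    ¬ (h60_R1 M q hqM A hA).O ≤ (h39_R2 M q hqM A hA).O ∧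
      ¬ (h39_R2 M q hqM A hA).O ≤ (h60_R1 M q hqM A hA).O := by
  obtain ⟨⟨t, ht₁, ht₂, h1, h2⟩, ⟨t', ht'₁, ht'₂, h1', h2'⟩⟩ := h39_R12_sep M q hqM A hA
  constructor
  · intro hle
    have hne : (h60_R1 M q hqM A hA).redF t ≠ 0 := by
      rw [h1]
      exact one_ne_zero
    have hinv := (h39_inv_of_redF_ne_zero _ hne).1
    rcases (h39_redF_eq_zero_iff _ ht₂).mp h2 with h | h
    · rw [h, h39_redF_zero] at h1
      exact zero_ne_one h1
    · exact h (hle hinv)
  · intro hle
    have hne : (h39_R2 M q hqM A hA).redF t' ≠ 0 := by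
      rw [h2']
      exact one_ne_zero
    have hinv := (h39_inv_of_redF_ne_zero _ hne).1
    rcases (h39_redF_eq_zero_iff _ ht'₁).mp h1' with h | h
    · rw [h, h39_redF_zero] at h2'
      exact zero_ne_one h2'
    · exact h (hle hinv)

/-- The simultaneous reduction `O₁ ∩ O₂ → Fb × Fb` is surjective. -/
theorem h39_R12_surjective
    (u v : ↥(modularFunctionFieldFullC (IsLocalRing.ResidueField A) M)) :
    ∃ f : ↥(modularFunctionFieldBar (M * q)), f ∈ (h60_R1 M q hqM A hA).O ∧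
      f ∈ (h39_R2 M q hqM A hA).O ∧ (h60_R1 M q hqM A hA).redF f = u ∧
      (h39_R2 M q hqM A hA).redF f = v :=
  h39_pair_surjective _ _ (h39_R12_sep M q hqM A hA).1 (h39_R12_sep M q hqM A hA).2 u v

/-! ### (FRAME0) -/

section Frame0

variable {RM : h39_RedDatum Qb ↥(modularFunctionFieldBar M) (IsLocalRing.ResidueField A)
      ↥(modularFunctionFieldFullC (IsLocalRing.ResidueField A) M)}
  (hRM : h54_IsModRed M A RM)

include hRM in
/-- **(KER)** in `redF` form, for the power basis `j_q ^ i`. -/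
theorem h39_R12_ker (a : Fin (q + 1) → ↥(modularFunctionFieldBar M)) (ha : ∀ j, a j ∈ RM.O)
    (h1 : (h60_R1 M q hqM A hA).redF
      (∑ j, heckeAlphaBar Qb M q (a j) * heckeBetaBar Qb M q (h59_jbar M) ^ (j : ℕ)) = 0)
    (h2 : (h39_R2 M q hqM A hA).redF
      (∑ j, heckeAlphaBar Qb M q (a j) * heckeBetaBar Qb M q (h59_jbar M) ^ (j : ℕ)) = 0) :
    ∀ j, RM.redF (a j) = 0 := by
  have hcp : CharP (IsLocalRing.ResidueField A) q := h19_residueField_charP A q hA
  have hac : IsAlgClosed (IsLocalRing.ResidueField A) := h19_residueField_isAlgClosed A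
  obtain ⟨hj, -⟩ := h39_RM_jbar M A hRM
  set a' : Fin (q + 1) → RM.O := fun j => ⟨a j, ha j⟩ with ha'
  have hcomb : ∑ j, heckeAlphaBar Qb M q (a j) * heckeBetaBar Qb M q (h59_jbar M) ^ (j : ℕ)
      = h60_comb M q (fun i => (a' i : ↥(modularFunctionFieldBar M))) := rfl
  rw [hcomb] at h1 h2
  -- membership
  have hm1 : h60_comb M q (fun i => (a' i : ↥(modularFunctionFieldBar M))) ∈
      (h60_R1 M q hqM A hA).O := by
    rw [← hcomb]
    exact sum_mem fun j _ => mul_mem (h39_R1_alpha M q hqM A hA hRM (ha j)).1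
      (pow_mem (h39_R1_beta M q hqM A hA hRM hj).1 _)
  have hm2 : h39_swap M q hqM (h60_comb M q (fun i => (a' i : ↥(modularFunctionFieldBar M)))) ∈
      (h60_R1 M q hqM A hA).O := by
    rw [← h39_R2_mem_iff, ← hcomb]
    exact sum_mem fun j _ => mul_mem (h39_R2_alpha M q hqM A hA hRM (ha j)).1
      (pow_mem (h39_R2_beta M q hqM A hA hRM hj).1 _)
  -- first reduction
  have e1 : h60_rs A (h60_bOs A hRM a') = 0 := by
    have e : h60_bOs A hRM a' = ⟨((h60_comb M q (fun i => (a' i : ↥(modularFunctionFieldBar M))) :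
        ↥(modularFunctionFieldBar (M * q))) : LaurentSeries Qb),
        (h60_R1_mem_iff_Os M q hqM A hA _).mp hm1⟩ := Subtype.ext (h60_coe_bOs A hRM a')
    rw [e, ← h60_R1_coe_red M q hqM A hA _ hm1]
    rw [(h60_R1 M q hqM A hA).redF_of_mem hm1] at h1
    rw [h1]
    rfl
  -- second reduction
  have e2 : h60_rs A (h60_sOs A hRM a') = 0 := by
    have e : h60_sOs A hRM a' = ⟨((h39_swap M q hqM
        (h60_comb M q (fun i => (a' i : ↥(modularFunctionFieldBar M)))) :
        ↥(modularFunctionFieldBar (M * q))) : LaurentSeries Qb),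
        (h60_R1_mem_iff_Os M q hqM A hA _).mp hm2⟩ :=
      Subtype.ext (h60_coe_sOs A hRM (h39_exists_bezout M q hqM).choose_spec
        (Fact.out : q.Prime) a')
    rw [e, ← h60_R1_coe_red M q hqM A hA _ hm2]
    rw [h39_R2_redF, (h60_R1 M q hqM A hA).redF_of_mem hm2] at h2
    rw [h2]
    rfl
  intro j
  have h3 := h60_ker A hRM hA a' e1 e2 j
  rw [RM.redF_of_mem (ha j)]
  exact h3

include hRM in
/-- **(FRAME0)** = the hypothesis `hO` of `h22_on_of_pair_tower` for `RE = RM`,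
`α = heckeAlphaBar`, `y i = j_q ^ i` (`i ≤ q`): `O₁ ∩ O₂ = ⊕ α(RM.O) j_q^i`. -/
theorem h39_R12_frame0 (a : Fin (q + 1) → ↥(modularFunctionFieldBar M)) :
    (∑ j, heckeAlphaBar Qb M q (a j) * heckeBetaBar Qb M q (h59_jbar M) ^ (j : ℕ) ∈
        (h60_R1 M q hqM A hA).O ∧
      ∑ j, heckeAlphaBar Qb M q (a j) * heckeBetaBar Qb M q (h59_jbar M) ^ (j : ℕ) ∈
        (h39_R2 M q hqM A hA).O) ↔ ∀ j, a j ∈ RM.O := by
  have hcp : CharP (IsLocalRing.ResidueField A) q := h19_residueField_charP A q hA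
  have hac : IsAlgClosed (IsLocalRing.ResidueField A) := h19_residueField_isAlgClosed A
  obtain ⟨hj, -⟩ := h39_RM_jbar M A hRM
  exact h39_frame0 RM (h60_R1 M q hqM A hA) (h39_R2 M q hqM A hA)
    ((h60_R1_A M q hqM A hA).trans hRM.A_eq.symm) ((h39_R2_A M q hqM A hA).trans hRM.A_eq.symm)
    (heckeAlphaBar Qb M q) (fun j : Fin (q + 1) => heckeBetaBar Qb M q (h59_jbar M) ^ (j : ℕ))
    (fun g hg => (h39_R1_alpha M q hqM A hA hRM hg).1)
    (fun g hg => (h39_R2_alpha M q hqM A hA hRM hg).1)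
    (fun j => pow_mem (h39_R1_beta M q hqM A hA hRM hj).1 _)
    (fun j => pow_mem (h39_R2_beta M q hqM A hA hRM hj).1 _)
    (h39_R12_ker M q hqM A hA hRM) a

include hqM in
/-- The hypothesis `hspan` of `h22_on_of_pair_tower` (helper60's power basis). -/
theorem h39_R12_span (f : ↥(modularFunctionFieldBar (M * q))) :
    ∃ a : Fin (q + 1) → ↥(modularFunctionFieldBar M),
      f = ∑ j, heckeAlphaBar Qb M q (a j) * heckeBetaBar Qb M q (h59_jbar M) ^ (j : ℕ) :=
  h60_powerBasis M q (Fact.out : q.Prime) hqM f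

include hRM hA hqM in
/-- The hypothesis `hli` of `h22_on_of_pair_tower`. -/
theorem h39_R12_li (a : Fin (q + 1) → ↥(modularFunctionFieldBar M))
    (h0 : ∑ j, heckeAlphaBar Qb M q (a j) * heckeBetaBar Qb M q (h59_jbar M) ^ (j : ℕ) = 0) :
    ∀ j, a j = 0 :=
  h39_frame0_li RM (h60_R1 M q hqM A hA) (h39_R2 M q hqM A hA) (heckeAlphaBar Qb M q)
    (fun j : Fin (q + 1) => heckeBetaBar Qb M q (h59_jbar M) ^ (j : ℕ))
    (h39_R12_ker M q hqM A hA hRM) a h0

end Frame0

/-! ### (GAL) -/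

/-- **(GAL) for `R₂`.**  Inertia preserves `O₂` and acts trivially on `red₂`. -/
theorem h39_R2_inertia (τ : Qb ≃ₐ[ℚ] Qb) (hτ : τ ∈ A.inertiaSubgroupIn ℚ)
    (f : ↥(modularFunctionFieldBar (M * q))) (hf : f ∈ (h39_R2 M q hqM A hA).O) :
    arithmeticRingAut (modularFunctionFieldFull (M * q)) τ f ∈ (h39_R2 M q hqM A hA).O ∧
      (h39_R2 M q hqM A hA).redF (arithmeticRingAut (modularFunctionFieldFull (M * q)) τ f) =
        (h39_R2 M q hqM A hA).redF f :=
  h87_gal_transport (h60_R1 M q hqM A hA) (h39_R2 M q hqM A hA) (h39_swap M q hqM)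
    (arithmeticRingAut (modularFunctionFieldFull (M * q)) τ) (fun _ => Iff.rfl)
    (fun f _ => h39_R2_redF M q hqM A hA f) (fun f => h39_swap_galois M q hqM τ f)
    (fun f hf => h87_R1_inertia M q hqM A hA τ hτ f hf) f hf

/-! ### The family `(R₁, R₂)` and the clauses of `h87_unipGeom_of_family` -/

/-- The family `(R₁, R₂)` indexed by `Bool` (`true ↦ R₁`, `false ↦ R₂`). -/
def h39_Rfam (i : Bool) :
    h39_RedDatum Qb ↥(modularFunctionFieldBar (M * q)) (IsLocalRing.ResidueField A)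
      ↥(modularFunctionFieldFullC (IsLocalRing.ResidueField A) M) :=
  match i with
  | true => h60_R1 M q hqM A hA
  | false => h39_R2 M q hqM A hA

theorem h39_Rfam_true : h39_Rfam M q hqM A hA true = h60_R1 M q hqM A hA := rfl

theorem h39_Rfam_false : h39_Rfam M q hqM A hA false = h39_R2 M q hqM A hA := rfl

/-- clause 1 of `h87_unipGeom_of_family` -/
theorem h39_Rfam_A (i : Bool) : (h39_Rfam M q hqM A hA i).A = A := by
  cases i
  · exact h39_R2_A M q hqM A hA
  · exact h60_R1_A M q hqM A hA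

/-- clause 2 (separating elements) of `h87_unipGeom_of_family` -/
theorem h39_Rfam_sep (i : Bool) :
    ∃ t : ↥(modularFunctionFieldBar (M * q)), (∀ j, t ∈ (h39_Rfam M q hqM A hA j).O) ∧
      (h39_Rfam M q hqM A hA i).redF t = 1 ∧
      ∀ j, j ≠ i → (h39_Rfam M q hqM A hA j).redF t = 0 := by
  obtain ⟨⟨t, ht₁, ht₂, h1, h2⟩, ⟨t', ht'₁, ht'₂, h1', h2'⟩⟩ := h39_R12_sep M q hqM A hA
  cases i
  · refine ⟨t', fun j => ?_, h2', fun j hj => ?_⟩
    · cases j
      · exact ht'₂
      · exact ht'₁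
    · cases j
      · exact absurd rfl hj
      · exact h1'
  · refine ⟨t, fun j => ?_, h1, fun j hj => ?_⟩
    · cases j
      · exact ht₂
      · exact ht₁
    · cases j
      · exact h2
      · exact absurd rfl hj

/-- clause 3 (inertia) of `h87_unipGeom_of_family` -/
theorem h39_Rfam_gal (τ : Qb ≃ₐ[ℚ] Qb) (hτ : τ ∈ A.inertiaSubgroupIn ℚ) (i : Bool)
    (f : ↥(modularFunctionFieldBar (M * q))) (hf : f ∈ (h39_Rfam M q hqM A hA i).O) :
    arithmeticRingAut (modularFunctionFieldFull (M * q)) τ f ∈ (h39_Rfam M q hqM A hA i).O ∧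
      (h39_Rfam M q hqM A hA i).redF (arithmeticRingAut (modularFunctionFieldFull (M * q)) τ f)
        = (h39_Rfam M q hqM A hA i).redF f := by
  cases i
  · exact h39_R2_inertia M q hqM A hA τ hτ f hf
  · exact h87_R1_inertia M q hqM A hA τ hτ f hf

end R2

end Fermat.Agent.S34

end
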