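/-
S34 / R85 Step 3 (COV), the algebra of value vectors at a node (helper42).  Mathlib only.

`V` a unital `k`-subalgebra of `k^(Ω₁ ⊔ Ω₂)` such that for every `v ∈ V` the polynomials
`∏_{w ∈ Ω₁} (X - v w)` and `∏_{w ∈ Ω₂} (X - v w)` coincide.  Then `dim V ≤ #Ω₁`, and in case of
equality `V` is cut out by a bijection `σ : Ω₁ ≃ Ω₂` : `V = {v | v (σ w) = v w}`.
-/
import Mathlib

set_option autoImplicit false

namespace Fermat.Agent.S34

open Polynomial

section SW

variable {k : Type*} [Field k] {Ω : Type*}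

/-- The equivalence relation "not separated by `V`". -/
def h42_sep (V : Subalgebra k (Ω → k)) : Setoid Ω where
  r w w' := ∀ v ∈ V, v w = v w'
  iseqv := ⟨fun _ _ _ => rfl, fun h v hv => (h v hv).symm,
    fun h h' v hv => (h v hv).trans (h' v hv)⟩

theorem h42_sep_iff (V : Subalgebra k (Ω → k)) (w w' : Ω) :
    (h42_sep V).r w w' ↔ ∀ v ∈ V, v w = v w' := Iff.rfl

variable [Fintype Ω]

open Classical in
/-- Finite Stone-Weierstrass: the indicator function of a class lies in `V`. -/
theorem h42_indicator_mem (V : Subalgebra k (Ω → k)) (w : Ω) :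
    (fun w' => if (h42_sep V).r w w' then (1 : k) else 0) ∈ V := by
  have hex : ∀ w' : Ω, ∃ u ∈ V, ¬ (h42_sep V).r w w' → u w = 1 ∧ u w' = 0 := by
    intro w'
    by_cases h : (h42_sep V).r w w'
    · exact ⟨1, V.one_mem, fun h' => absurd h h'⟩
    · have h' : ∃ v ∈ V, v w ≠ v w' := by
        by_contra hcon
        push Not at hcon
        exact h hcon
      obtain ⟨v, hv, hne⟩ := h'
      have hne' : v w - v w' ≠ 0 := sub_ne_zero.mpr hne
      refine ⟨(v w - v w')⁻¹ • (v - algebraMap k (Ω → k) (v w')), ?_, fun _ => ⟨?_, ?_⟩⟩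
      · exact V.smul_mem (V.sub_mem hv (V.algebraMap_mem _)) _
      · simp [inv_mul_cancel₀ hne']
      · simp
  choose u hu1 hu2 using hex
  have hP : (∏ w' ∈ Finset.univ.filter (fun w' => ¬ (h42_sep V).r w w'), u w') ∈ V :=
    V.prod_mem fun w' _ => hu1 w'
  convert hP using 1
  funext w''
  rw [Finset.prod_apply]
  by_cases h : (h42_sep V).r w w''
  · rw [if_pos h]
    symm
    apply Finset.prod_eq_one
    intro w' hw'
    rw [Finset.mem_filter] at hw'
    rw [← h (u w') (hu1 w')]
    exact (hu2 w' hw'.2).1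
  · rw [if_neg h]
    symm
    exact Finset.prod_eq_zero (Finset.mem_filter.mpr ⟨Finset.mem_univ _, h⟩) (hu2 w'' h).2

open Classical in
/-- `V` is the algebra of functions constant on the classes. -/
theorem h42_mem_iff (V : Subalgebra k (Ω → k)) (v : Ω → k) :
    v ∈ V ↔ ∀ w w' : Ω, (h42_sep V).r w w' → v w = v w' := by
  constructor
  · intro hv w w' h
    exact h v hv
  · intro hconst
    let _ : Fintype (Quotient (h42_sep V)) := Fintype.ofFinite _
    have hsum : v = ∑ q : Quotient (h42_sep V),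
        v q.out • (fun w' => if (h42_sep V).r q.out w' then (1 : k) else 0) := by
      funext w''
      rw [Finset.sum_apply, Finset.sum_eq_single (Quotient.mk (h42_sep V) w'')]
      · have hr : (h42_sep V).r (Quotient.mk (h42_sep V) w'').out w'' :=
          Quotient.exact (Quotient.out_eq _)
        simp only [Pi.smul_apply, smul_eq_mul]
        rw [if_pos hr, mul_one]
        exact (hconst _ _ hr).symm
      · intro q _ hq
        have hr : ¬ (h42_sep V).r q.out w'' := by
          intro hr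
          apply hq
          rw [← Quotient.out_eq q]
          exact Quotient.sound hr
        simp only [Pi.smul_apply, smul_eq_mul]
        rw [if_neg hr, mul_zero]
      · intro h
        exact absurd (Finset.mem_univ _) h
    rw [hsum]
    exact V.sum_mem fun q _ => V.smul_mem (h42_indicator_mem V q.out) _

/-- The dimension of `V` is the number of classes. -/
theorem h42_finrank_eq (V : Subalgebra k (Ω → k)) [Fintype (Quotient (h42_sep V))] :
    Module.finrank k V = Fintype.card (Quotient (h42_sep V)) := by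
  classical
  let φ : (Quotient (h42_sep V) → k) →ₗ[k] V :=
    { toFun := fun g => ⟨fun w => g (Quotient.mk (h42_sep V) w),
        (h42_mem_iff V _).mpr fun w w' h => congrArg g (Quotient.sound h)⟩
      map_add' := fun g g' => rfl
      map_smul' := fun c g => rfl }
  have hinj : Function.Injective φ := by
    intro g g' h
    funext q
    obtain ⟨w, rfl⟩ := Quotient.exists_rep q
    exact congrFun (congrArg Subtype.val h) w
  have hsurj : Function.Surjective φ := by
    intro v
    refine ⟨fun q => (v : Ω → k) q.out, Subtype.ext ?_⟩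
    funext w
    exact Quotient.exact (Quotient.out_eq (Quotient.mk (h42_sep V) w)) v v.2
  have e : (Quotient (h42_sep V) → k) ≃ₗ[k] V := LinearEquiv.ofBijective φ ⟨hinj, hsurj⟩
  rw [← e.finrank_eq, Module.finrank_fintype_fun_eq_card]

end SW

section Block

variable {k : Type*} [Field k] {Ω₁ Ω₂ : Type*} [Fintype Ω₁] [Fintype Ω₂]

/-- Roots of a split product. -/
theorem h42_roots_prod {ι : Type*} [Fintype ι] (f : ι → k) :
    (∏ w : ι, (X - C (f w))).roots = (Finset.univ : Finset ι).val.map f := by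
  have : (∏ w : ι, (X - C (f w))) =
      (((Finset.univ : Finset ι).val.map f).map fun a => X - C a).prod := by
    rw [Multiset.map_map]; rfl
  rw [this, Polynomial.roots_multiset_prod_X_sub_C]

open Classical in
/-- Counting the value `1` of an indicator. -/
theorem h42_card_filter_indicator {ι : Type*} [Fintype ι] (p : ι → Prop) :
    Multiset.card (Multiset.filter (fun a => (1 : k) = if p a then 1 else 0)
      (Finset.univ : Finset ι).val) = (Finset.univ.filter p).card := by
  rw [← Finset.filter_val, Finset.card_val]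
  congr 1
  ext a
  simp only [Finset.mem_filter, Finset.mem_univ, true_and]
  by_cases hp : p a
  · simp [hp]
  · simp [hp]

/-- The char-poly condition as an equality of multisets of values. -/
theorem h42_block_multiset (V : Subalgebra k (Ω₁ ⊕ Ω₂ → k))
    (hV : ∀ v ∈ V, ∏ w : Ω₁, (X - C (v (Sum.inl w))) = ∏ w : Ω₂, (X - C (v (Sum.inr w))))
    (v : Ω₁ ⊕ Ω₂ → k) (hv : v ∈ V) :
    (Finset.univ : Finset Ω₁).val.map (fun w => v (Sum.inl w)) =
      (Finset.univ : Finset Ω₂).val.map (fun w => v (Sum.inr w)) := by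
  have h := hV v hv
  rw [← h42_roots_prod (fun w => v (Sum.inl w)), ← h42_roots_prod (fun w => v (Sum.inr w)), h]

theorem h42_block_card (V : Subalgebra k (Ω₁ ⊕ Ω₂ → k))
    (hV : ∀ v ∈ V, ∏ w : Ω₁, (X - C (v (Sum.inl w))) = ∏ w : Ω₂, (X - C (v (Sum.inr w)))) :
    Fintype.card Ω₁ = Fintype.card Ω₂ := by
  have h := congrArg Multiset.card (h42_block_multiset V hV 0 V.zero_mem)
  simpa using h

open Classical in
/-- Every class meets `Ω₁` and `Ω₂` in the same number of points. -/
theorem h42_block_count (V : Subalgebra k (Ω₁ ⊕ Ω₂ → k))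
    (hV : ∀ v ∈ V, ∏ w : Ω₁, (X - C (v (Sum.inl w))) = ∏ w : Ω₂, (X - C (v (Sum.inr w))))
    (z : Ω₁ ⊕ Ω₂) :
    (Finset.univ.filter fun w : Ω₁ => (h42_sep V).r z (Sum.inl w)).card =
      (Finset.univ.filter fun w : Ω₂ => (h42_sep V).r z (Sum.inr w)).card := by
  have h := h42_block_multiset V hV _ (h42_indicator_mem V z)
  have h' := congrArg (Multiset.count (1 : k)) h
  rw [Multiset.count_map, Multiset.count_map] at h'
  rw [h42_card_filter_indicator (fun w => (h42_sep V).r z (Sum.inl w)),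
    h42_card_filter_indicator (fun w => (h42_sep V).r z (Sum.inr w))] at h'
  exact h'

/-- Every class contains a point of `Ω₁`. -/
theorem h42_block_surj₁ (V : Subalgebra k (Ω₁ ⊕ Ω₂ → k))
    (hV : ∀ v ∈ V, ∏ w : Ω₁, (X - C (v (Sum.inl w))) = ∏ w : Ω₂, (X - C (v (Sum.inr w)))) :
    Function.Surjective fun w : Ω₁ => Quotient.mk (h42_sep V) (Sum.inl w) := by
  classical
  intro q
  obtain ⟨z, rfl⟩ := Quotient.exists_rep q
  have hc := h42_block_count V hV z
  rcases z with w | w
  · exact ⟨w, rfl⟩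
  · have hpos : 0 < (Finset.univ.filter fun w' : Ω₂ =>
        (h42_sep V).r (Sum.inr w) (Sum.inr w')).card :=
      Finset.card_pos.mpr ⟨w, Finset.mem_filter.mpr ⟨Finset.mem_univ _, (h42_sep V).refl _⟩⟩
    rw [← hc] at hpos
    obtain ⟨w', hw'⟩ := Finset.card_pos.mp hpos
    exact ⟨w', (Quotient.sound (Finset.mem_filter.mp hw').2).symm⟩

/-- Every class contains a point of `Ω₂`. -/
theorem h42_block_surj₂ (V : Subalgebra k (Ω₁ ⊕ Ω₂ → k))
    (hV : ∀ v ∈ V, ∏ w : Ω₁, (X - C (v (Sum.inl w))) = ∏ w : Ω₂, (X - C (v (Sum.inr w)))) :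
    Function.Surjective fun w : Ω₂ => Quotient.mk (h42_sep V) (Sum.inr w) := by
  classical
  intro q
  obtain ⟨z, rfl⟩ := Quotient.exists_rep q
  have hc := h42_block_count V hV z
  rcases z with w | w
  · have hpos : 0 < (Finset.univ.filter fun w' : Ω₁ =>
        (h42_sep V).r (Sum.inl w) (Sum.inl w')).card :=
      Finset.card_pos.mpr ⟨w, Finset.mem_filter.mpr ⟨Finset.mem_univ _, (h42_sep V).refl _⟩⟩
    rw [hc] at hpos
    obtain ⟨w', hw'⟩ := Finset.card_pos.mp hpos
    exact ⟨w', (Quotient.sound (Finset.mem_filter.mp hw').2).symm⟩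
  · exact ⟨w, rfl⟩

/-- **BLOCK, upper bound.** `dim V ≤ #Ω₁`. -/
theorem h42_block_le (V : Subalgebra k (Ω₁ ⊕ Ω₂ → k))
    (hV : ∀ v ∈ V, ∏ w : Ω₁, (X - C (v (Sum.inl w))) = ∏ w : Ω₂, (X - C (v (Sum.inr w)))) :
    Module.finrank k V ≤ Fintype.card Ω₁ := by
  classical
  let _ : Fintype (Quotient (h42_sep V)) := Fintype.ofFinite _
  rw [h42_finrank_eq V]
  exact Fintype.card_le_of_surjective _ (h42_block_surj₁ V hV)

/-- **BLOCK, equality case.** If `#Ω₁ ≤ dim V` then `V` is cut out by a bijection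
`σ : Ω₁ ≃ Ω₂`. -/
theorem h42_block_eq (V : Subalgebra k (Ω₁ ⊕ Ω₂ → k))
    (hV : ∀ v ∈ V, ∏ w : Ω₁, (X - C (v (Sum.inl w))) = ∏ w : Ω₂, (X - C (v (Sum.inr w))))
    (h : Fintype.card Ω₁ ≤ Module.finrank k V) :
    ∃ σ : Ω₁ ≃ Ω₂, ∀ v : Ω₁ ⊕ Ω₂ → k, v ∈ V ↔ ∀ w, v (Sum.inr (σ w)) = v (Sum.inl w) := by
  classical
  let _ : Fintype (Quotient (h42_sep V)) := Fintype.ofFinite _
  rw [h42_finrank_eq V] at h
  have hs₁ := h42_block_surj₁ V hV
  have hs₂ := h42_block_surj₂ V hV
  have hcard₁ : Fintype.card Ω₁ = Fintype.card (Quotient (h42_sep V)) :=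
    le_antisymm h (Fintype.card_le_of_surjective _ hs₁)
  have hcard₂ : Fintype.card Ω₂ = Fintype.card (Quotient (h42_sep V)) := by
    rw [← h42_block_card V hV]; exact hcard₁
  have hb₁ : Function.Bijective fun w : Ω₁ => Quotient.mk (h42_sep V) (Sum.inl w) :=
    (Fintype.bijective_iff_surjective_and_card _).mpr ⟨hs₁, hcard₁⟩
  have hb₂ : Function.Bijective fun w : Ω₂ => Quotient.mk (h42_sep V) (Sum.inr w) :=
    (Fintype.bijective_iff_surjective_and_card _).mpr ⟨hs₂, hcard₂⟩
  let E₁ : Ω₁ ≃ Quotient (h42_sep V) := Equiv.ofBijective _ hb₁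
  let E₂ : Ω₂ ≃ Quotient (h42_sep V) := Equiv.ofBijective _ hb₂
  have hσ : ∀ w : Ω₁, (h42_sep V).r (Sum.inr (E₂.symm (E₁ w))) (Sum.inl w) := by
    intro w
    have : E₂ (E₂.symm (E₁ w)) = E₁ w := E₂.apply_symm_apply _
    exact Quotient.exact this
  refine ⟨E₁.trans E₂.symm, fun v => ⟨fun hv w => hσ w v hv, fun hv => ?_⟩⟩
  rw [h42_mem_iff]
  -- every point is related to a point `inl w`, on which `v` is determined
  have hrep : ∀ z : Ω₁ ⊕ Ω₂, v z = v (Sum.inl (E₁.symm (Quotient.mk (h42_sep V) z))) := by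
    intro z
    rcases z with w | w
    · have : E₁.symm (Quotient.mk (h42_sep V) (Sum.inl w)) = w := E₁.symm_apply_apply w
      rw [this]
    · have h1 := hv (E₁.symm (Quotient.mk (h42_sep V) (Sum.inr w)))
      rw [← h1]
      congr 2
      show w = E₂.symm (E₁ (E₁.symm (Quotient.mk (h42_sep V) (Sum.inr w))))
      rw [E₁.apply_symm_apply]
      exact (E₂.symm_apply_apply w).symm
  intro z z' hzz'
  rw [hrep z, hrep z', Quotient.sound hzz']

end Block

end Fermat.Agent.S34
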