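import Mathlib
import Fermat.Agent.S34.h87_TopMq
import Fermat.Agent.S34.h10_CuspMq
import Fermat.Agent.S34.h16_NodeChart

/-!
# S34 row LEAD, the swap half (helper42)

The swap `w = h60_w M q hqM` of `F(Mq)` exchanges the two valuations (`O₂ = w⁻¹ O₁`,
`red₂ = red₁ ∘ w`) and the two cusps `P∞`, `P0`.  Hence the reductions of
`L(n • (P∞ + P0)) ∩ O` are stable under `Prod.swap`, and the second leading-term statement
`hlead₂` of `h16_node_chart` follows from the first one `hlead₁`.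

* `h42_Rd_map` (generic) : transport of `h51_Rd D E` along an automorphism `σ` of `F/K`
  preserving `D.O` and `E`, acting on reductions through `T`;
* `h42_wAut`, `h42_wAut_apply`, `h42_wAut_smul_cusp`, `h42_wAut_smul_cusp0`, `h42_D0_swap` :
  the swap as an automorphism; it exchanges the cusps and fixes `n • (P∞ + P0)`;
* `h42_D_swap_mem`, `h42_D_swap_redF` : `w` preserves `(h87_D ..).O` and swaps the two
  coordinates of the reduction;
* `h42_Rd_swap` : `a ∈ h51_Rd (h87_D ..) (n • D0) → a.swap ∈ h51_Rd (h87_D ..) (n • D0)`;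
* `h42_lead2_of_swap` (generic), `h42_lead2_of_lead1`, `h42_lead1_of_lead2` : `hlead₁ ⟺ hlead₂`
  in the binder shapes of `h16_node_chart`.
-/

set_option autoImplicit false
set_option synthInstance.maxHeartbeats 400000

noncomputable section

open AlgebraicCurve ModularCurve Module
open Fermat.Agent.S18

namespace Fermat.Agent.S34

section Generic

variable {K F k Rb : Type*} [Field K] [Field F] [Algebra K F] [Field k] [CommRing Rb]
  [Algebra k Rb]

/-- Transport of the reduced Riemann–Roch space along an automorphism `σ` of `F/K` which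
preserves `D.O` and the divisor `E` and acts on reductions through `T`. -/
theorem h42_Rd_map (D : h22_Lat K F k Rb) (σ : F ≃ₐ[K] F) (T : Rb → Rb)
    (hσO : ∀ f, f ∈ D.O → σ f ∈ D.O)
    (hσred : ∀ f, f ∈ D.O → D.redF (σ f) = T (D.redF f))
    (E : Divisor K F) (hσE : ∀ v : Place K F, E (σ • v) = E v)
    (a : Rb) (ha : a ∈ h51_Rd D E) : T a ∈ h51_Rd D E := by
  obtain ⟨f, hfL, hfO, rfl⟩ := ha
  refine ⟨σ f, ?_, hσO f hfO, hσred f hfO⟩
  rw [mem_riemannRochSpace_iff] at hfL ⊢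
  intro v
  rcases hfL (σ⁻¹ • v) with h | h
  · left
    rw [h, map_zero]
  · right
    have h1 := Place.ord_smul σ (σ⁻¹ • v) f
    rw [smul_inv_smul] at h1
    have h2 := hσE (σ⁻¹ • v)
    rw [smul_inv_smul] at h2
    rw [h1, h2]
    exact h

end Generic

section GenericPair

variable {K F k Fb : Type*} [Field K] [Field F] [Algebra K F] [Field k] [Field Fb] [Algebra k Fb]

/-- `hlead₂` from `hlead₁` for a lattice whose reduced spaces are stable under `Prod.swap`. -/
theorem h42_lead2_of_swap (D : h22_Lat K F k (Fb × Fb)) (D0 : Divisor K F)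
    (hsw : ∀ (n : ℕ) (a : Fb × Fb), a ∈ h51_Rd D (n • D0) → a.swap ∈ h51_Rd D (n • D0))
    (Q : Place k Fb) (n₁ : ℕ)
    (hlead₁ : ∀ n, n₁ ≤ n → ∃ x ∈ h51_Rd D ((n + 1) • D0),
      x.1 ∉ h16_Linf Q n ∧ x.2 ∈ h16_Linf Q n) :
    ∀ n, n₁ ≤ n → ∃ y ∈ h51_Rd D ((n + 1) • D0),
      y.1 ∈ h16_Linf Q n ∧ y.2 ∉ h16_Linf Q n := by
  intro n hn
  obtain ⟨x, hx, hx1, hx2⟩ := hlead₁ n hn
  exact ⟨x.swap, hsw (n + 1) x hx, hx2, hx1⟩

/-- `hlead₁` from `hlead₂` for a lattice whose reduced spaces are stable under `Prod.swap`. -/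
theorem h42_lead1_of_swap (D : h22_Lat K F k (Fb × Fb)) (D0 : Divisor K F)
    (hsw : ∀ (n : ℕ) (a : Fb × Fb), a ∈ h51_Rd D (n • D0) → a.swap ∈ h51_Rd D (n • D0))
    (Q : Place k Fb) (n₁ : ℕ)
    (hlead₂ : ∀ n, n₁ ≤ n → ∃ y ∈ h51_Rd D ((n + 1) • D0),
      y.1 ∈ h16_Linf Q n ∧ y.2 ∉ h16_Linf Q n) :
    ∀ n, n₁ ≤ n → ∃ x ∈ h51_Rd D ((n + 1) • D0),
      x.1 ∉ h16_Linf Q n ∧ x.2 ∈ h16_Linf Q n := by
  intro n hn
  obtain ⟨y, hy, hy1, hy2⟩ := hlead₂ n hn
  exact ⟨y.swap, hsw (n + 1) y hy, hy2, hy1⟩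

end GenericPair

local notation "Qb" => AlgebraicClosure ℚ

section Mq

variable (M q : ℕ) [NeZero M] [NeZero q] [Fact q.Prime] (hqM : ¬ q ∣ M)

/-- The swap `h60_w` as a `Qb`-algebra automorphism of `F(Mq)`. -/
def h42_wAut : ↥(modularFunctionFieldBar (M * q)) ≃ₐ[Qb] ↥(modularFunctionFieldBar (M * q)) :=
  h10_swapAut (h10_swap_algebraMap (h60_w M q hqM) (h60_w_alpha M q hqM)) (h60_w_w M q hqM)

theorem h42_wAut_apply (f : ↥(modularFunctionFieldBar (M * q))) :
    h42_wAut M q hqM f = h60_w M q hqM f := rfl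

/-- The swap sends the cusp `P∞` to the cusp `P0`. -/
theorem h42_wAut_smul_cusp {Pinf P0 : Place Qb ↥(modularFunctionFieldBar (M * q))}
    (hPinf : h10_IsCusp (modularFunctionFieldBar (M * q)) Pinf)
    (hP0 : h10_IsCusp0 M q (h60_w M q hqM) P0) : h42_wAut M q hqM • Pinf = P0 :=
  (h10_swap_smul_cusp (h60_w_alpha M q hqM) (h60_w_w M q hqM) hPinf).unique hP0

/-- The swap sends the cusp `P0` to the cusp `P∞`. -/
theorem h42_wAut_smul_cusp0 {Pinf P0 : Place Qb ↥(modularFunctionFieldBar (M * q))}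
    (hPinf : h10_IsCusp (modularFunctionFieldBar (M * q)) Pinf)
    (hP0 : h10_IsCusp0 M q (h60_w M q hqM) P0) : h42_wAut M q hqM • P0 = Pinf :=
  (h10_swap_smul_cusp0 (h60_w_alpha M q hqM) (h60_w_w M q hqM) hP0).unique hPinf

/-- The divisor `n • (P∞ + P0)` is invariant under the swap. -/
theorem h42_D0_swap {Pinf P0 : Place Qb ↥(modularFunctionFieldBar (M * q))}
    (hPinf : h10_IsCusp (modularFunctionFieldBar (M * q)) Pinf)
    (hP0 : h10_IsCusp0 M q (h60_w M q hqM) P0) (n : ℕ)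
    (v : Place Qb ↥(modularFunctionFieldBar (M * q))) :
    (n • (Finsupp.single Pinf (1 : ℤ) + Finsupp.single P0 (1 : ℤ) :
        Divisor Qb ↥(modularFunctionFieldBar (M * q)))) (h42_wAut M q hqM • v)
      = (n • (Finsupp.single Pinf (1 : ℤ) + Finsupp.single P0 (1 : ℤ) :
        Divisor Qb ↥(modularFunctionFieldBar (M * q)))) v := by
  classical
  have h1 : Pinf = h42_wAut M q hqM • v ↔ P0 = v := by
    constructor
    · intro h
      have h' : h42_wAut M q hqM • P0 = h42_wAut M q hqM • v := by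
        rw [h42_wAut_smul_cusp0 M q hqM hPinf hP0]
        exact h
      exact MulAction.injective _ h'
    · intro h
      rw [← h, h42_wAut_smul_cusp0 M q hqM hPinf hP0]
  have h2 : P0 = h42_wAut M q hqM • v ↔ Pinf = v := by
    constructor
    · intro h
      have h' : h42_wAut M q hqM • Pinf = h42_wAut M q hqM • v := by
        rw [h42_wAut_smul_cusp M q hqM hPinf hP0]
        exact h
      exact MulAction.injective _ h'
    · intro h
      rw [← h, h42_wAut_smul_cusp M q hqM hPinf hP0]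
  rw [Finsupp.smul_apply, Finsupp.smul_apply, Finsupp.add_apply, Finsupp.add_apply,
    Finsupp.single_apply, Finsupp.single_apply, Finsupp.single_apply, Finsupp.single_apply]
  simp only [h1, h2]
  rw [add_comm]

variable (A : ValuationSubring Qb) (hA : A.LiesOverPrime q)

/-- The swap preserves `O = O₁ ∩ O₂`. -/
theorem h42_D_swap_mem (f : ↥(modularFunctionFieldBar (M * q)))
    (hf : f ∈ (h87_D M q hqM A hA).O) : h60_w M q hqM f ∈ (h87_D M q hqM A hA).O := by
  have hf' := (h87_D_mem M q hqM A hA).mp hf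
  exact (h87_D_mem M q hqM A hA).mpr
    ⟨(h60_R2_mem_iff M q hqM A hA f).mp hf'.2, (h60_R1_mem_w_iff M q hqM A hA f).mp hf'.1⟩

/-- The swap exchanges the two coordinates of the reduction. -/
theorem h42_D_swap_redF (f : ↥(modularFunctionFieldBar (M * q)))
    (hf : f ∈ (h87_D M q hqM A hA).O) :
    (h87_D M q hqM A hA).redF (h60_w M q hqM f) = ((h87_D M q hqM A hA).redF f).swap := by
  have hf' := (h87_D_mem M q hqM A hA).mp hf
  have hw' := (h87_D_mem M q hqM A hA).mp (h42_D_swap_mem M q hqM A hA f hf)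
  rw [h87_D_redF M q hqM A hA hw'.1 hw'.2, h87_D_redF M q hqM A hA hf'.1 hf'.2, Prod.swap_prod_mk,
    ← h60_R2_redF, ← h60_R1_redF_w]

/-- **Swap symmetry of the reduced Riemann–Roch spaces** of `n • (P∞ + P0)`. -/
theorem h42_Rd_swap {Pinf P0 : Place Qb ↥(modularFunctionFieldBar (M * q))}
    (hPinf : h10_IsCusp (modularFunctionFieldBar (M * q)) Pinf)
    (hP0 : h10_IsCusp0 M q (h60_w M q hqM) P0) (n : ℕ)
    (a : ↥(modularFunctionFieldFullC (IsLocalRing.ResidueField A) M) ×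
      ↥(modularFunctionFieldFullC (IsLocalRing.ResidueField A) M))
    (ha : a ∈ h51_Rd (h87_D M q hqM A hA)
      (n • (Finsupp.single Pinf (1 : ℤ) + Finsupp.single P0 (1 : ℤ) :
        Divisor Qb ↥(modularFunctionFieldBar (M * q))))) :
    a.swap ∈ h51_Rd (h87_D M q hqM A hA)
      (n • (Finsupp.single Pinf (1 : ℤ) + Finsupp.single P0 (1 : ℤ) :
        Divisor Qb ↥(modularFunctionFieldBar (M * q)))) :=
  h42_Rd_map (h87_D M q hqM A hA) (h42_wAut M q hqM) Prod.swap
    (fun f hf => h42_D_swap_mem M q hqM A hA f hf)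
    (fun f hf => h42_D_swap_redF M q hqM A hA f hf) _
    (fun v => h42_D0_swap M q hqM hPinf hP0 n v) a ha

/-- **(LEAD), second half from the first**, in the binder shapes of `h16_node_chart`. -/
theorem h42_lead2_of_lead1 {Pinf P0 : Place Qb ↥(modularFunctionFieldBar (M * q))}
    (hPinf : h10_IsCusp (modularFunctionFieldBar (M * q)) Pinf)
    (hP0 : h10_IsCusp0 M q (h60_w M q hqM) P0)
    (Q : Place (IsLocalRing.ResidueField A)
      ↥(modularFunctionFieldFullC (IsLocalRing.ResidueField A) M)) (n₁ : ℕ)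
    (hlead₁ : ∀ n, n₁ ≤ n → ∃ x ∈ h51_Rd (h87_D M q hqM A hA)
        ((n + 1) • (Finsupp.single Pinf (1 : ℤ) + Finsupp.single P0 (1 : ℤ) :
          Divisor Qb ↥(modularFunctionFieldBar (M * q)))),
      x.1 ∉ h16_Linf Q n ∧ x.2 ∈ h16_Linf Q n) :
    ∀ n, n₁ ≤ n → ∃ y ∈ h51_Rd (h87_D M q hqM A hA)
        ((n + 1) • (Finsupp.single Pinf (1 : ℤ) + Finsupp.single P0 (1 : ℤ) :
          Divisor Qb ↥(modularFunctionFieldBar (M * q)))),
      y.1 ∈ h16_Linf Q n ∧ y.2 ∉ h16_Linf Q n :=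
  h42_lead2_of_swap (h87_D M q hqM A hA) _
    (fun n a ha => h42_Rd_swap M q hqM A hA hPinf hP0 n a ha) Q n₁ hlead₁

/-- **(LEAD), first half from the second**, in the binder shapes of `h16_node_chart`. -/
theorem h42_lead1_of_lead2 {Pinf P0 : Place Qb ↥(modularFunctionFieldBar (M * q))}
    (hPinf : h10_IsCusp (modularFunctionFieldBar (M * q)) Pinf)
    (hP0 : h10_IsCusp0 M q (h60_w M q hqM) P0)
    (Q : Place (IsLocalRing.ResidueField A)
      ↥(modularFunctionFieldFullC (IsLocalRing.ResidueField A) M)) (n₁ : ℕ)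
    (hlead₂ : ∀ n, n₁ ≤ n → ∃ y ∈ h51_Rd (h87_D M q hqM A hA)
        ((n + 1) • (Finsupp.single Pinf (1 : ℤ) + Finsupp.single P0 (1 : ℤ) :
          Divisor Qb ↥(modularFunctionFieldBar (M * q)))),
      y.1 ∈ h16_Linf Q n ∧ y.2 ∉ h16_Linf Q n) :
    ∀ n, n₁ ≤ n → ∃ x ∈ h51_Rd (h87_D M q hqM A hA)
        ((n + 1) • (Finsupp.single Pinf (1 : ℤ) + Finsupp.single P0 (1 : ℤ) :
          Divisor Qb ↥(modularFunctionFieldBar (M * q)))),
      x.1 ∉ h16_Linf Q n ∧ x.2 ∈ h16_Linf Q n :=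
  h42_lead1_of_swap (h87_D M q hqM A hA) _
    (fun n a ha => h42_Rd_swap M q hqM A hA hPinf hP0 n a ha) Q n₁ hlead₂

end Mq

end Fermat.Agent.S34

end
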