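/-
S34 (helper42): ZAR core WITHOUT the hypothesis `R₁ ∩ R₂ = A` (the form consumed by the
CYC-ZAR endgame E53): idempotents of `R₁ / 𝔪 R₁` and `R₂ / 𝔪 R₂` which agree in `R / 𝔪 R`
are the reduction of ONE element of `R₁ ∩ R₂`, provided the `π`-power torsion of
`R / (R₁ + R₂)` has bounded exponent.  Mathlib + h42_ZarCore only.
-/
import Fermat.Agent.S34.h42_ZarCore

set_option autoImplicit false

namespace Fermat.Agent.S34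

/-- **ZAR glue.** Same hypotheses as `h42_zar_core` except `hcap`; the conclusion is a common
element `f ∈ R₁ ∩ R₂` with `f ≡ e₁` modulo `𝔪 R₁` and `f ≡ e₂` modulo `𝔪 R₂`. -/
theorem h42_zar_glue {A R : Type*} [CommRing A] [CommRing R] [Algebra A R]
    (𝔪 : Ideal A) (π : A) (hπ : π ∈ 𝔪)
    (hnil : ∀ a ∈ 𝔪, ∃ n : ℕ, a ^ n ∈ Ideal.span {π})
    (R₁ R₂ : Subalgebra A R)
    (c : ℕ)
    (hBT : ∀ (n : ℕ) (x : R), (∃ g₁ ∈ R₁, ∃ g₂ ∈ R₂, algebraMap A R π ^ n * x = g₁ + g₂) →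
      ∃ g₁ ∈ R₁, ∃ g₂ ∈ R₂, algebraMap A R π ^ c * x = g₁ + g₂)
    (e₁ : R₁) (e₂ : R₂)
    (h₁ : e₁ * e₁ - e₁ ∈ 𝔪.map (algebraMap A R₁))
    (h₂ : e₂ * e₂ - e₂ ∈ 𝔪.map (algebraMap A R₂))
    (h₁₂ : (e₁ : R) - (e₂ : R) ∈ 𝔪.map (algebraMap A R)) :
    ∃ (f₁ : R₁) (f₂ : R₂), (f₁ : R) = (f₂ : R) ∧
      f₁ - e₁ ∈ 𝔪.map (algebraMap A R₁) ∧ f₂ - e₂ ∈ 𝔪.map (algebraMap A R₂) := by
  obtain ⟨f₁, hf₁, hf₁e⟩ := h42_lift_idem 𝔪 π hπ hnil (c + 1) (Nat.succ_pos c) e₁ h₁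
  obtain ⟨f₂, hf₂, hf₂e⟩ := h42_lift_idem 𝔪 π hπ hnil (c + 1) (Nat.succ_pos c) e₂ h₂
  set J : Ideal R := Ideal.span {algebraMap A R π ^ (c + 1)} with hJ
  have hcoe : ∀ (S : Subalgebra A R) (f : S),
      f * f - f ∈ Ideal.span {algebraMap A S π ^ (c + 1)} → (f : R) * (f : R) - (f : R) ∈ J := by
    intro S f hf
    obtain ⟨b, hb⟩ := Ideal.mem_span_singleton'.mp hf
    rw [hJ, Ideal.mem_span_singleton']
    refine ⟨(b : R), ?_⟩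
    have := congrArg (fun z : S => (z : R)) hb
    simpa using this
  have hf₁R := hcoe R₁ f₁ hf₁
  have hf₂R := hcoe R₂ f₂ hf₂
  have hi₁ : IsIdempotentElem (Ideal.Quotient.mk J (f₁ : R)) := by
    rw [IsIdempotentElem, ← map_mul, Ideal.Quotient.eq]; exact hf₁R
  have hi₂ : IsIdempotentElem (Ideal.Quotient.mk J (f₂ : R)) := by
    rw [IsIdempotentElem, ← map_mul, Ideal.Quotient.eq]; exact hf₂R
  have hdiff : (f₁ : R) - (f₂ : R) ∈ 𝔪.map (algebraMap A R) := by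
    have e : (f₁ : R) - (f₂ : R) =
        ((f₁ - e₁ : R₁) : R) + ((e₁ : R) - (e₂ : R)) - ((f₂ - e₂ : R₂) : R) := by
      push_cast; ring
    rw [e]
    exact Ideal.sub_mem _ (Ideal.add_mem _ (h42_coe_mem_map 𝔪 R₁ _ hf₁e) h₁₂)
      (h42_coe_mem_map 𝔪 R₂ _ hf₂e)
  have hnilp : IsNilpotent (Ideal.Quotient.mk J (f₁ : R) - Ideal.Quotient.mk J (f₂ : R)) := by
    obtain ⟨N, hN⟩ := h42_nil_of_mem_map 𝔪 π hnil (c + 1) _ hdiff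
    refine ⟨N, ?_⟩
    rw [← map_sub, ← map_pow, Ideal.Quotient.eq_zero_iff_mem]
    exact hN
  have heq := eq_of_isNilpotent_sub_of_isIdempotentElem hi₁ hi₂ hnilp
  rw [Ideal.Quotient.eq, hJ, Ideal.mem_span_singleton'] at heq
  obtain ⟨x, hx⟩ := heq
  obtain ⟨g₁, hg₁, g₂, hg₂, hg⟩ := hBT (c + 1) x
    ⟨(f₁ : R), f₁.2, -(f₂ : R), R₂.neg_mem f₂.2, by rw [mul_comm, hx]; ring⟩
  have hy : (f₁ : R) - algebraMap A R π * g₁ = (f₂ : R) + algebraMap A R π * g₂ := by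
    have h3 : (f₁ : R) - (f₂ : R) = algebraMap A R π * (g₁ + g₂) := by
      rw [← hg, ← mul_assoc, ← pow_succ', ← hx, mul_comm]
    linear_combination h3
  refine ⟨f₁ - algebraMap A R₁ π * ⟨g₁, hg₁⟩, f₂ + algebraMap A R₂ π * ⟨g₂, hg₂⟩, ?_, ?_, ?_⟩
  · push_cast
    exact hy
  · have e : f₁ - algebraMap A R₁ π * ⟨g₁, hg₁⟩ - e₁ =
        (f₁ - e₁) - algebraMap A R₁ π * ⟨g₁, hg₁⟩ := by ring
    rw [e]
    exact Ideal.sub_mem _ hf₁e (Ideal.mul_mem_right _ _ (Ideal.mem_map_of_mem _ hπ))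
  · have e : f₂ + algebraMap A R₂ π * ⟨g₂, hg₂⟩ - e₂ =
        (f₂ - e₂) + algebraMap A R₂ π * ⟨g₂, hg₂⟩ := by ring
    rw [e]
    exact Ideal.add_mem _ hf₂e (Ideal.mul_mem_right _ _ (Ideal.mem_map_of_mem _ hπ))

end Fermat.Agent.S34
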