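import Mathlib
import Fermat.Agent.S18.Defs

/-!
# Integrality and reduction of a polynomial from its values (helper44)

Lagrange interpolation over a valuation ring: a polynomial of degree `≤ n` whose values at `n + 1`
points with pairwise unit differences are integral has integral coefficients, and its reduction is
determined by the reductions of these values (`h44_kronecker_of_values`).  Intended use: the modular
polynomial `Φ(Y) = N(Y - j_q)` from the norm reduction, giving the Kronecker congruence
`Φ̄ = (Y - j̄^q)(Y^q - j̄)` as input of `h44_splitLinear`.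
-/

set_option autoImplicit false

noncomputable section

namespace Fermat.Agent.S34

open Polynomial Fermat.Agent.S18

/-- A polynomial of degree `≤ n` over the fraction field with values in the valuation ring `V` at
`n + 1` points of `V` with pairwise unit differences has coefficients in `V`. -/
theorem h44_lifts_of_values {F : Type*} [Field F] (V : ValuationSubring F) (n : ℕ)
    (P : Polynomial F) (hP : P.natDegree ≤ n) (a : Fin (n + 1) → F) (ha : ∀ i, a i ∈ V)
    (hinj : Function.Injective a) (hunit : ∀ i j, i ≠ j → (a i - a j)⁻¹ ∈ V)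
    (hval : ∀ i, P.eval (a i) ∈ V) :
    ∃ Φ : Polynomial V, Φ.map V.subtype = P := by
  classical
  have hdeg : P.degree < ((Finset.univ : Finset (Fin (n + 1))).card : WithBot ℕ) := by
    rw [Finset.card_univ, Fintype.card_fin]
    exact lt_of_le_of_lt (degree_le_of_natDegree_le hP) (by exact_mod_cast Nat.lt_succ_self n)
  have h1 := Lagrange.eq_interpolate (v := a) (s := Finset.univ) hinj.injOn hdeg
  rw [← Polynomial.mem_lifts, h1, Lagrange.interpolate_apply]
  refine sum_mem fun i _ => mul_mem ?_ ?_
  · exact C_mem_lifts V.subtype ⟨_, hval i⟩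
  · unfold Lagrange.basis
    refine prod_mem fun j hj => ?_
    unfold Lagrange.basisDivisor
    refine mul_mem (C_mem_lifts V.subtype ⟨_, hunit i j (Finset.ne_of_mem_erase hj).symm⟩) ?_
    rw [Polynomial.mem_lifts]
    refine ⟨X - C ⟨a j, ha j⟩, ?_⟩
    rw [Polynomial.map_sub, Polynomial.map_X, Polynomial.map_C]
    rfl

/-- The reduction of a polynomial of degree `≤ n` is determined by the reductions of its values
at `n + 1` points with distinct residues. -/
theorem h44_map_eq_of_values {V κ : Type*} [CommRing V] [Field κ] (res : V →+* κ) (n : ℕ)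
    (Φ : Polynomial V) (G : Polynomial κ) (hΦ : Φ.natDegree ≤ n) (hG : G.natDegree ≤ n)
    (a : Fin (n + 1) → V) (hinj : Function.Injective (fun i => res (a i)))
    (hval : ∀ i, res (Φ.eval (a i)) = G.eval (res (a i))) : Φ.map res = G := by
  classical
  have hs : (Finset.univ.image (fun i => res (a i))).card = n + 1 := by
    rw [Finset.card_image_of_injective _ hinj, Finset.card_univ, Fintype.card_fin]
  refine Polynomial.eq_of_degrees_lt_of_eval_finset_eq (Finset.univ.image (fun i => res (a i)))
    ?_ ?_ ?_
  · rw [hs]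
    exact lt_of_le_of_lt (degree_le_of_natDegree_le ((natDegree_map_le).trans hΦ))
      (by exact_mod_cast Nat.lt_succ_self n)
  · rw [hs]
    exact lt_of_le_of_lt (degree_le_of_natDegree_le hG) (by exact_mod_cast Nat.lt_succ_self n)
  · intro x hx
    obtain ⟨i, -, rfl⟩ := Finset.mem_image.mp hx
    rw [eval_map, eval₂_at_apply, hval i]

section Datum

variable {K F k Fb : Type*} [Field K] [Field F] [Algebra K F] [Field k] [Field Fb] [Algebra k Fb]

/-- **Kronecker from values.** A monic polynomial `P` of degree `n` over `F` whose values at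
`n + 1` elements of `R.O` with distinct reductions are in `R.O` and reduce to the values of `G`
comes from a monic `Φ ∈ R.O[X]` with `Φ̄ = G`. -/
theorem h44_kronecker_of_values (R : h39_RedDatum K F k Fb) (n : ℕ) (P : Polynomial F)
    (hPmon : P.Monic) (hPdeg : P.natDegree = n) (G : Polynomial Fb) (hG : G.natDegree ≤ n)
    (a : Fin (n + 1) → F) (ha : ∀ i, a i ∈ R.O)
    (hsep : ∀ i j, i ≠ j → R.redF (a i) ≠ R.redF (a j))
    (hval : ∀ i, P.eval (a i) ∈ R.O ∧ R.redF (P.eval (a i)) = G.eval (R.redF (a i))) :
    ∃ Φ : Polynomial R.O, Φ.map R.O.subtype = P ∧ Φ.Monic ∧ Φ.natDegree = n ∧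
      Φ.map R.red = G := by
  classical
  have hinj : Function.Injective a := by
    intro i j hij
    by_contra hne
    exact hsep i j hne (by rw [hij])
  have hunit : ∀ i j, i ≠ j → (a i - a j)⁻¹ ∈ R.O := by
    intro i j hij
    by_contra hcon
    have hmem : a i - a j ∈ R.O := R.O.sub_mem (ha i) (ha j)
    have h1 : (⟨a i - a j, hmem⟩ : R.O) ∈ IsLocalRing.maximalIdeal R.O := by
      have h2 : a i - a j ∈ R.O.nonunits :=
        (ValuationSubring.mem_nonunits_iff_or R.O).mpr (Or.inr hcon)
      exact (ValuationSubring.coe_mem_nonunits_iff (A := R.O) (a := ⟨a i - a j, hmem⟩)).mp h2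
    rw [← IsLocalRing.ker_eq_maximalIdeal R.red R.red_surjective, RingHom.mem_ker] at h1
    have h3 : (⟨a i - a j, hmem⟩ : R.O) = ⟨a i, ha i⟩ - ⟨a j, ha j⟩ := rfl
    rw [h3, map_sub, sub_eq_zero, ← h39_RedDatum.redF_of_mem R (ha i),
      ← h39_RedDatum.redF_of_mem R (ha j)] at h1
    exact hsep i j hij h1
  obtain ⟨Φ, hΦ⟩ := h44_lifts_of_values R.O n P hPdeg.le a ha hinj hunit (fun i => (hval i).1)
  have hsubinj : Function.Injective R.O.subtype := Subtype.val_injective
  have hΦmon : Φ.Monic := by
    apply Polynomial.monic_of_injective hsubinj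
    rw [hΦ]
    exact hPmon
  have hΦdeg : Φ.natDegree = n := by
    rw [← hPdeg, ← hΦ, natDegree_map_eq_of_injective hsubinj]
  refine ⟨Φ, hΦ, hΦmon, hΦdeg, ?_⟩
  refine h44_map_eq_of_values R.red n Φ G hΦdeg.le hG (fun i => ⟨a i, ha i⟩) ?_ ?_
  · intro i j hij
    by_contra hne
    apply hsep i j hne
    rw [h39_RedDatum.redF_of_mem R (ha i), h39_RedDatum.redF_of_mem R (ha j)]
    exact hij
  · intro i
    have h1 : P.eval (a i) = ((Φ.eval ⟨a i, ha i⟩ : R.O) : F) := by
      rw [← hΦ, eval_map]
      exact eval₂_at_apply R.O.subtype ⟨a i, ha i⟩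
    have h2 := (hval i).2
    rw [h39_RedDatum.redF_of_mem R (ha i)] at h2
    rw [← h2]
    have h3 : R.redF (P.eval (a i)) = R.red (Φ.eval ⟨a i, ha i⟩) := by
      rw [h39_RedDatum.redF_of_mem R (hval i).1]
      congr 1
      exact Subtype.ext h1
    rw [h3]

end Datum

end Fermat.Agent.S34
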