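import Mathlib
import Fermat.Agent.S18.Defs
import Fermat.Agent.S34.h44_KummerSplit

/-!
# Split extensions with one linear factor (helper44)

`R : h39_RedDatum K F k Fb` with rank-one constants, `F' = F(y)` with power basis `1, …, y^(n-1)`,
`Φ ∈ R.O[X]` monic of degree `n`, `Φ(y) = 0`, `Φ̄ = ∏ q i` pairwise coprime irreducibles, one of
them linear: `q i₀ = X - C β`.  Then (`h44_splitLinear`) the extension `O i₀` of `R.O` is a
reduction datum `R₁` on `F'` with the SAME residue field (`red y = β`), the `O i` are all the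
extensions of `R.O`, `⋂ O i = ⊕ R.O y^l` (frame), each `O i` has the value group of the constants,
`p(y)` is a unit of `O i` iff `q i ∤ p̄`, and every element of `O i₀` is a ratio `p₁(y) / p₂(y)`
with `p̄₂(β) ≠ 0`.

Intended use: `F = F(M)`, `F' = F(Mq)` via `α`, `y = j_q`, `Φ` the modular polynomial,
`Φ̄ = (Y - j̄^q)(Y^q - j̄)` (Kronecker).
-/

set_option autoImplicit false

noncomputable section

namespace Fermat.Agent.S34

open Polynomial Fermat.Agent.S18

section SplitLinear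

variable {K F F' k Fb : Type*} [Field K] [Field F] [Algebra K F] [Field F'] [Algebra K F']
  [Algebra F F'] [IsScalarTower K F F'] [Field k] [Field Fb] [Algebra k Fb]

/-- Rank one for a valuation ring with the value group of rank-one constants. -/
theorem h44_rankOne_of_scale (A : ValuationSubring K) (hA1 : h39_RankOne A)
    (O : ValuationSubring F') (hmem : ∀ a : K, a ∈ A ↔ algebraMap K F' a ∈ O)
    (hscale : ∀ f : F', f ≠ 0 → ∃ c : K, c ≠ 0 ∧ algebraMap K F' c * f ∈ O ∧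
      (algebraMap K F' c * f)⁻¹ ∈ O) :
    ∀ a : F', a ∈ O → a⁻¹ ∉ O → ∀ δ : F', δ ≠ 0 → ∃ N : ℕ, a ^ N * δ⁻¹ ∈ O := by
  intro a ha hainv δ hδ
  have ha0 : a ≠ 0 := by
    rintro rfl
    apply hainv
    rw [inv_zero]
    exact O.zero_mem
  obtain ⟨c, hc0, hc1, hc2⟩ := hscale a ha0
  obtain ⟨e, he0, he1, he2⟩ := hscale δ hδ
  have hcF : algebraMap K F' c ≠ 0 := by
    rw [Ne, map_eq_zero]
    exact hc0
  have heF : algebraMap K F' e ≠ 0 := by
    rw [Ne, map_eq_zero]
    exact he0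
  have hcinv : c⁻¹ ∈ A := by
    rw [hmem, map_inv₀]
    have e1 : (algebraMap K F' c)⁻¹ = a * (algebraMap K F' c * a)⁻¹ := by
      field_simp
    rw [e1]
    exact O.mul_mem _ _ ha hc2
  have hcnot : (c⁻¹)⁻¹ ∉ A := by
    rw [inv_inv]
    intro hcA
    apply hainv
    have e1 : a⁻¹ = algebraMap K F' c * (algebraMap K F' c * a)⁻¹ := by
      field_simp
    rw [e1]
    exact O.mul_mem _ _ ((hmem c).mp hcA) hc2
  obtain ⟨N, hN⟩ := hA1 c⁻¹ hcinv hcnot e⁻¹ (inv_ne_zero he0)
  refine ⟨N, ?_⟩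
  rw [inv_inv] at hN
  have e1 : a ^ N * δ⁻¹ = (algebraMap K F' c * a) ^ N * (algebraMap K F' e * δ)⁻¹ *
      algebraMap K F' (c⁻¹ ^ N * e) := by
    rw [map_mul, map_pow, map_inv₀, mul_pow, inv_pow]
    field_simp
  rw [e1]
  exact O.mul_mem _ _ (O.mul_mem _ _ (O.pow_mem hc1 N) he2) ((hmem _).mp hN)

/-- **Split extension with a linear factor.** -/
theorem h44_splitLinear (R : h39_RedDatum K F k Fb) (hA1 : h39_RankOne R.A)
    (y : F') (n : ℕ) (Φ : Polynomial R.O) (hmon : Φ.Monic) (hdeg : Φ.natDegree = n)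
    (hroot : Φ.eval₂ ((algebraMap F F').comp R.O.subtype) y = 0)
    (hspan : ∀ f : F', ∃ c : Fin n → F, f = ∑ l, algebraMap F F' (c l) * y ^ (l : ℕ))
    (hli : ∀ c : Fin n → F, ∑ l, algebraMap F F' (c l) * y ^ (l : ℕ) = 0 → ∀ l, c l = 0)
    {ι : Type*} [Fintype ι] (q : ι → Polynomial Fb) (hq : ∀ i, Irreducible (q i))
    (hcop : ∀ i j, i ≠ j → IsCoprime (q i) (q j)) (hprod : Φ.map R.red = ∏ i, q i)
    (i₀ : ι) (β : Fb) (hi₀ : q i₀ = X - C β) :
    ∃ (O : ι → ValuationSubring F') (R₁ : h39_RedDatum K F' k Fb),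
      R₁.O = O i₀ ∧ R₁.A = R.A ∧ (∀ a, R₁.resK a = R.resK a) ∧
      (∀ f : F, R₁.redF (algebraMap F F' f) = R.redF f) ∧
      (∀ p : Polynomial R.O,
        R₁.redF (p.eval₂ ((algebraMap F F').comp R.O.subtype) y) = (p.map R.red).eval β) ∧
      (∀ i (f : F), algebraMap F F' f ∈ O i ↔ f ∈ R.O) ∧
      (∀ i (p : Polynomial R.O), p.eval₂ ((algebraMap F F').comp R.O.subtype) y ∈ O i) ∧
      (∀ i (p : Polynomial R.O), ¬ q i ∣ p.map R.red →
        (p.eval₂ ((algebraMap F F').comp R.O.subtype) y)⁻¹ ∈ O i) ∧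
      (∀ i (p : Polynomial R.O), q i ∣ p.map R.red →
        p.eval₂ ((algebraMap F F').comp R.O.subtype) y = 0 ∨
          (p.eval₂ ((algebraMap F F').comp R.O.subtype) y)⁻¹ ∉ O i) ∧
      (∀ i (f : F'), f ≠ 0 → ∃ c : K, c ≠ 0 ∧ algebraMap K F' c * f ∈ O i ∧
        (algebraMap K F' c * f)⁻¹ ∈ O i) ∧
      (∀ i j, i ≠ j → ¬ O i ≤ O j) ∧
      (∀ O' : ValuationSubring F', (∀ f : F, algebraMap F F' f ∈ O' ↔ f ∈ R.O) →
        ∃ i, O' = O i) ∧
      (∀ c : Fin n → F, (∀ i, ∑ l, algebraMap F F' (c l) * y ^ (l : ℕ) ∈ O i) ↔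
        ∀ l, c l ∈ R.O) ∧
      (∀ f : F', (∀ i, f ∈ O i) ↔
        ∃ p : Polynomial R.O, p.eval₂ ((algebraMap F F').comp R.O.subtype) y = f) ∧
      (∀ f : F', f ∈ O i₀ → ∃ p₁ p₂ : Polynomial R.O, (p₂.map R.red).eval β ≠ 0 ∧
        f * p₂.eval₂ ((algebraMap F F').comp R.O.subtype) y =
          p₁.eval₂ ((algebraMap F F').comp R.O.subtype) y) := by
  classical
  obtain ⟨O, red, hredsurj, hcap, hframe, hredp, hconst, hscale, hinc, hall⟩ :=
    h44_splitExt R.O (h44_rankOne_O R hA1) y n Φ hmon hdeg hroot hspan hli R.red R.red_surjective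
      q hq hcop hprod
  -- units of `O i`
  have hker : ∀ i (z : F') (hz : z ∈ O i), red i ⟨z, hz⟩ = 0 ↔ z = 0 ∨ z⁻¹ ∉ O i := by
    intro i z hz
    have : Fact (Irreducible (q i)) := ⟨hq i⟩
    rw [← ValuationSubring.mem_nonunits_iff_or]
    have h1 := IsLocalRing.ker_eq_maximalIdeal (red i) (hredsurj i)
    rw [← RingHom.mem_ker, h1]
    exact (ValuationSubring.coe_mem_nonunits_iff (A := O i) (a := ⟨z, hz⟩)).symm
  have hpmem : ∀ i (p : Polynomial R.O),
      p.eval₂ ((algebraMap F F').comp R.O.subtype) y ∈ O i := fun i p => (hredp i p).1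
  have hunit : ∀ i (p : Polynomial R.O), ¬ q i ∣ p.map R.red →
      (p.eval₂ ((algebraMap F F').comp R.O.subtype) y)⁻¹ ∈ O i := by
    intro i p hndvd
    by_contra hcon
    obtain ⟨h, hh⟩ := hredp i p
    have h0 : red i ⟨_, h⟩ = 0 := (hker i _ h).mpr (Or.inr hcon)
    rw [hh, AdjoinRoot.mk_eq_zero] at h0
    exact hndvd h0
  have hnonunit : ∀ i (p : Polynomial R.O), q i ∣ p.map R.red →
      p.eval₂ ((algebraMap F F').comp R.O.subtype) y = 0 ∨
        (p.eval₂ ((algebraMap F F').comp R.O.subtype) y)⁻¹ ∉ O i := by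
    intro i p hdvd
    obtain ⟨h, hh⟩ := hredp i p
    apply (hker i _ h).mp
    rw [hh, AdjoinRoot.mk_eq_zero]
    exact hdvd
  -- the datum at `i₀`
  have hev0 : (q i₀).eval₂ (RingHom.id Fb) β = 0 := by
    rw [hi₀, eval₂_sub, eval₂_X, eval₂_C, RingHom.id_apply, sub_self]
  let ev : AdjoinRoot (q i₀) →+* Fb := AdjoinRoot.lift (RingHom.id Fb) β hev0
  let red' : O i₀ →+* Fb := ev.comp (red i₀)
  have hred' : ∀ (p : Polynomial R.O) (z : F') (hz : z ∈ O i₀),
      z = p.eval₂ ((algebraMap F F').comp R.O.subtype) y →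
      red' ⟨z, hz⟩ = (p.map R.red).eval β := by
    intro p z hz hzp
    subst hzp
    obtain ⟨h, hh⟩ := hredp i₀ p
    change ev (red i₀ ⟨_, hz⟩) = _
    rw [hh]
    change AdjoinRoot.lift (RingHom.id Fb) β hev0 (AdjoinRoot.mk _ (p.map R.red)) = _
    rw [AdjoinRoot.lift_mk]
    rfl
  have hredc : ∀ (f : F) (hf : f ∈ R.O) (z : F') (hz : z ∈ O i₀), z = algebraMap F F' f →
      red' ⟨z, hz⟩ = R.red ⟨f, hf⟩ := by
    intro f hf z hz hzf
    rw [hred' (C ⟨f, hf⟩) z hz (by rw [eval₂_C, hzf]; rfl), Polynomial.map_C, eval_C]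
  have hsurj : Function.Surjective red' := by
    intro b
    obtain ⟨f, hf⟩ := R.red_surjective b
    refine ⟨⟨algebraMap F F' f.1, (hconst i₀ f.1).mpr f.2⟩, ?_⟩
    rw [hredc f.1 f.2 _ _ rfl]
    exact hf
  have hmem : ∀ i (a : K), a ∈ R.A ↔ algebraMap K F' a ∈ O i := by
    intro i a
    rw [IsScalarTower.algebraMap_apply K F F', hconst i, R.mem_iff]
  have hredalg : ∀ (a : K) (ha : a ∈ R.A) (ha' : algebraMap K F' a ∈ O i₀),
      red' ⟨algebraMap K F' a, ha'⟩ = algebraMap k Fb (R.res ⟨a, ha⟩) := by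
    intro a ha ha'
    rw [hredc (algebraMap K F a) ((R.mem_iff a).mp ha) _ _
      (IsScalarTower.algebraMap_apply K F F' a)]
    exact R.red_algebraMap a ha _
  have hsc : ∀ i (f : F'), f ≠ 0 → ∃ c : K, c ≠ 0 ∧ algebraMap K F' c * f ∈ O i ∧
      (algebraMap K F' c * f)⁻¹ ∈ O i := by
    intro i f hf
    obtain ⟨c, hc0, hc1, hc2⟩ := hscale i f hf
    obtain ⟨e, he0, he1, he2⟩ := R.exists_scale c hc0
    have hcF : algebraMap F F' c ≠ 0 := by
      rw [Ne, map_eq_zero]
      exact hc0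
    have heF : algebraMap F F' (algebraMap K F e) ≠ 0 := by
      rw [Ne, map_eq_zero, map_eq_zero]
      exact he0
    refine ⟨e⁻¹, inv_ne_zero he0, ?_, ?_⟩
    · have e1 : algebraMap K F' e⁻¹ * f = algebraMap F F' (algebraMap K F e * c)⁻¹ *
          (algebraMap F F' c * f) := by
        rw [IsScalarTower.algebraMap_apply K F F', map_inv₀, map_inv₀, map_inv₀, map_mul]
        field_simp
      rw [e1]
      exact (O i).mul_mem _ _ ((hconst i _).mpr he2) hc1
    · have e1 : (algebraMap K F' e⁻¹ * f)⁻¹ = algebraMap F F' (algebraMap K F e * c) *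
          (algebraMap F F' c * f)⁻¹ := by
        rw [IsScalarTower.algebraMap_apply K F F', map_inv₀, map_inv₀, map_mul]
        field_simp
      rw [e1]
      exact (O i).mul_mem _ _ ((hconst i _).mpr he1) hc2
  let R₁ : h39_RedDatum K F' k Fb :=
    { A := R.A
      O := O i₀
      res := R.res
      red := red'
      res_surjective := R.res_surjective
      red_surjective := hsurj
      mem_iff := hmem i₀
      red_algebraMap := hredalg
      exists_scale := hsc i₀ }
  have hR₁p : ∀ p : Polynomial R.O,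
      R₁.redF (p.eval₂ ((algebraMap F F').comp R.O.subtype) y) = (p.map R.red).eval β := by
    intro p
    rw [h39_RedDatum.redF_of_mem R₁ (hpmem i₀ p)]
    exact hred' p _ _ rfl
  -- the ratio form
  have hratio : ∀ f : F', f ∈ O i₀ → ∃ p₁ p₂ : Polynomial R.O, (p₂.map R.red).eval β ≠ 0 ∧
      f * p₂.eval₂ ((algebraMap F F').comp R.O.subtype) y =
        p₁.eval₂ ((algebraMap F F').comp R.O.subtype) y := by
    intro f hf
    by_cases hf0 : f = 0
    · refine ⟨0, 1, ?_, ?_⟩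
      · rw [Polynomial.map_one, eval_one]
        exact one_ne_zero
      · rw [hf0, zero_mul, eval₂_zero]
    -- the complementary factor
    obtain ⟨P₂, hP₂⟩ := Polynomial.map_surjective R.red R.red_surjective
      (∏ i ∈ Finset.univ.erase i₀, q i)
    set s : F' := P₂.eval₂ ((algebraMap F F').comp R.O.subtype) y with hs
    have hndvd : ¬ q i₀ ∣ P₂.map R.red := by
      rw [hP₂]
      intro hdvd
      have hcop' : IsCoprime (q i₀) (∏ i ∈ Finset.univ.erase i₀, q i) :=
        IsCoprime.prod_right fun i hi => hcop i₀ i (Finset.ne_of_mem_erase hi).symm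
      exact (hq i₀).not_isUnit (hcop'.isUnit_of_dvd' dvd_rfl hdvd)
    have hsβ : (P₂.map R.red).eval β ≠ 0 := by
      intro h0
      apply hndvd
      rw [hi₀]
      exact dvd_iff_isRoot.mpr h0
    have hsmem : ∀ i, s ∈ O i := fun i => hpmem i P₂
    have hsmall : ∀ i, i ≠ i₀ → s = 0 ∨ s⁻¹ ∉ O i := by
      intro i hi
      apply hnonunit i P₂
      rw [hP₂]
      exact Finset.dvd_prod_of_mem q (Finset.mem_erase.mpr ⟨hi, Finset.mem_univ i⟩)
    have hs0 : s ≠ 0 := by
      intro h0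
      have h1 := hR₁p P₂
      rw [← hs, h0] at h1
      have h2 : R₁.redF 0 = 0 := by
        rw [h39_RedDatum.redF_of_mem R₁ R₁.O.zero_mem]
        exact map_zero _
      rw [h2] at h1
      exact hsβ h1.symm
    -- exponents
    have hexp : ∀ i, ∃ N : ℕ, ∀ M : ℕ, N ≤ M → f * s ^ M ∈ O i := by
      intro i
      by_cases hi : i = i₀
      · refine ⟨0, fun M _ => ?_⟩
        rw [hi]
        exact (O i₀).mul_mem _ _ hf ((O i₀).pow_mem (hsmem i₀) M)
      · have hsi : s⁻¹ ∉ O i := by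
          rcases hsmall i hi with h | h
          · exact absurd h hs0
          · exact h
        obtain ⟨N, hN⟩ := h44_rankOne_of_scale R.A hA1 (O i) (hmem i) (hsc i) s (hsmem i) hsi
          f⁻¹ (inv_ne_zero hf0)
        rw [inv_inv] at hN
        refine ⟨N, fun M hM => ?_⟩
        obtain ⟨e, rfl⟩ := Nat.exists_eq_add_of_le hM
        have e1 : f * s ^ (N + e) = s ^ N * f * s ^ e := by
          rw [pow_add]
          ring
        rw [e1]
        exact (O i).mul_mem _ _ hN ((O i).pow_mem (hsmem i) e)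
    choose N hN using hexp
    have hall' : ∀ i, f * s ^ (Finset.univ.sup N) ∈ O i :=
      fun i => hN i _ (Finset.le_sup (Finset.mem_univ i))
    obtain ⟨p₁, hp₁⟩ := (hcap _).mp hall'
    refine ⟨p₁, P₂ ^ (Finset.univ.sup N), ?_, ?_⟩
    · rw [Polynomial.map_pow, eval_pow]
      exact pow_ne_zero _ hsβ
    · rw [eval₂_pow, hp₁]
  refine ⟨O, R₁, rfl, rfl, fun a => rfl, ?_, hR₁p, hconst, hpmem, hunit, hnonunit, hsc, hinc,
    hall, hframe, hcap, hratio⟩
  intro f
  by_cases hf : f ∈ R.O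
  · rw [h39_RedDatum.redF_of_mem R₁ ((hconst i₀ f).mpr hf), h39_RedDatum.redF_of_mem _ hf]
    exact hredc f hf _ _ rfl
  · have hf' : algebraMap F F' f ∉ O i₀ := fun h => hf ((hconst i₀ f).mp h)
    unfold h39_RedDatum.redF
    rw [dif_neg hf, dif_neg hf']

end SplitLinear

end Fermat.Agent.S34
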