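import Fermat.Agent.S34.h50_Core2Finish

/-!
# S34 abstract CORE theorem for a lattice structure with a subring `O`

`h50_Lat.core`: let `R : h50_Lat K F B` (constants `A` of rank one, integral functions `O`,
reduction `red : O →+* B` with kernel `𝔪_A O`), let `T i` be any family of sets of places, and let
`u ∈ O` with `red u = 1` and `div u = m • D`, `m` a unit of `B`.  Assume, for one effective `E`:

* `L(E - D) ∩ O`, `L((m+1)E - D) ∩ O`, `L(m(E - D)) ∩ O` have orthonormal bases;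
* every `T i` carries a local generator `w` of `D` (`red w = 1`, `ord_P w = D P` on `T i`);
* (`hlift`) an element of `O` with nonzero reduction which, on every `T i`, has the same reduction
  as an element of `O` with poles bounded by `E - D` on `T i`, has the same reduction as an
  element of `L(E - D) ∩ O`;
* some `g₀ ∈ L(E - D) ∩ O` has `red g₀ = 1`.

Then `u` is an `m`-th power in `F`, so `D` is principal.

This is the S18 CORE (`h53_core`) with the valuation ring replaced by a subring, the reduction of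
places replaced by an arbitrary family of sets of places, and `Liftable` by `hlift`.
-/

set_option autoImplicit false

namespace Fermat.Agent.S34

open AlgebraicCurve Fermat.Agent.S24 Fermat.Agent.S18

variable {K F B : Type*} [Field K] [Field F] [Algebra K F] [CommRing B]

/-- **Abstract CORE theorem** (several valuations, covering sets of places). -/
theorem h50_Lat.core [IsAlgClosed K] [Nontrivial B] (R : h50_Lat K F B)
    (hrank : ∀ a d : K, a ≠ 0 → a ∈ R.A.nonunits → d ≠ 0 → ∃ n : ℕ, d * (a ^ n)⁻¹ ∉ R.A)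
    {ι : Type*} (T : ι → Set (Place K F))
    (m : ℕ) (hm : IsUnit ((m : ℕ) : B)) (D E : Divisor K F) (hE : 0 ≤ E)
    (u : R.O) (hu1 : R.red u = 1) (hu : ∀ P : Place K F, P.ord (u : F) = m * D P)
    (hL1 : R.HasON (E - D)) (hL2 : R.HasON ((m + 1) • E - D)) (hL3 : R.HasON (m • (E - D)))
    (hgen : ∀ i : ι, ∃ w : R.O, R.red w = 1 ∧ ∀ P : Place K F, P ∈ T i → P.ord (w : F) = D P)
    (hlift : ∀ y : R.O, R.red y ≠ 0 →
      (∀ i : ι, ∃ y' : R.O, R.red y' = R.red y ∧ h64_InS (T i) (E - D) (y' : F)) →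
      ∃ c : R.O, h53_InL (E - D) (c : F) ∧ R.red c = R.red y)
    (g₀ : R.O) (hg₀L : h53_InL (E - D) (g₀ : F)) (hg₀1 : R.red g₀ = 1) :
    ∃ g : F, g ^ m = (u : F) ∧ g ≠ 0 ∧ ∀ P : Place K F, D P = P.ord g := by
  classical
  have hm0 : m ≠ 0 := by
    rintro rfl
    simp at hm
  have huF : (u : F) ≠ 0 := R.coe_ne_zero_of_red_ne_zero (by rw [hu1]; exact one_ne_zero)
  -- it suffices to find an `m`-th root
  suffices h : ∃ g : F, g ^ m = (u : F) by
    obtain ⟨g, hg⟩ := h
    have hg0 : g ≠ 0 := by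
      rintro rfl
      rw [zero_pow hm0] at hg
      exact huF hg.symm
    refine ⟨g, hg, hg0, fun P => ?_⟩
    have := hu P
    rw [← hg, ← zpow_natCast, P.ord_zpow] at this
    exact (mul_left_cancel₀ (by exact_mod_cast hm0) this).symm
  obtain ⟨uinv, huinv⟩ := (R.isUnit_of_red_eq_one hu1).exists_right_inv
  have huinv1 : R.red uinv = 1 := by
    have := congrArg R.red huinv
    rwa [map_mul, hu1, one_mul, map_one] at this
  by_cases hx0 : g₀ ^ m = u
  · exact ⟨(g₀ : F), by have := congrArg Subtype.val hx0; push_cast at this; exact this⟩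
  obtain ⟨x₀, hx₀⟩ : ∃ x₀ : R.O, x₀ = g₀ ^ m * uinv - 1 := ⟨_, rfl⟩
  have hx₀red : R.red x₀ = 0 := by
    rw [hx₀, map_sub, map_mul, map_pow, hg₀1, huinv1]; simp
  have hx₀eq : g₀ ^ m = u * (1 + x₀) := by
    rw [hx₀]
    calc g₀ ^ m = g₀ ^ m * (u * uinv) := by rw [huinv, mul_one]
      _ = _ := by ring
  have hx₀ne : (x₀ : F) ≠ 0 := by
    intro h
    apply hx0
    have : x₀ = 0 := Subtype.ext h
    rw [hx₀eq, this, add_zero, mul_one]
  obtain ⟨c, hc0, hcx, hcred⟩ := R.exists_const (x₀ : F) hx₀ne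
  have hcF : algebraMap K F c ≠ 0 := by simpa using hc0
  -- `c ∉ A`, hence `c⁻¹` is a small constant
  have hcA : c ∉ R.A := by
    intro hcA
    apply hcred
    have h1 : (⟨algebraMap K F c * (x₀ : F), hcx⟩ : R.O) = ⟨algebraMap K F c, R.const_mem hcA⟩ * x₀ :=
      rfl
    rw [h1, map_mul, hx₀red, mul_zero]
  have ha'nu : c⁻¹ ∈ R.A.nonunits := by
    rw [ValuationSubring.mem_nonunits_iff_or]
    right
    rwa [inv_inv]
  obtain ⟨a, ha⟩ : ∃ a : R.O, (a : F) = algebraMap K F c⁻¹ :=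
    ⟨⟨_, R.const_mem (R.A.nonunits_subset ha'nu)⟩, rfl⟩
  have hared : R.red a = 0 := by
    have := (R.small_const (F := F) ha'nu).2
    have e : a = ⟨algebraMap K F c⁻¹, (R.small_const (F := F) ha'nu).1⟩ := Subtype.ext ha
    rw [e]; exact this
  obtain ⟨h₀, hh₀⟩ : ∃ h₀ : R.O, (h₀ : F) = algebraMap K F c * (x₀ : F) := ⟨⟨_, hcx⟩, rfl⟩
  have hah₀ : a * h₀ = x₀ := by
    apply Subtype.ext
    push_cast
    rw [ha, hh₀, map_inv₀]
    field_simp
  have hgh₀ : g₀ ^ m = u * (1 + a * h₀) := by rw [hah₀]; exact hx₀eq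
  -- iterate and finish
  have hiter := R.iter hrank T hm hm0 D E hE u hu1 hu hgen hL1 hL2 hlift g₀ hg₀1 hg₀L
    a c⁻¹ ha (inv_ne_zero hc0) hared h₀ hgh₀
  refine R.finish D E hE (u : F) u.2 hu hL1 hL3 c⁻¹ (inv_ne_zero hc0)
    (R.A.nonunits_subset ha'nu)
    (fun d hd => hrank c⁻¹ d (inv_ne_zero hc0) ha'nu hd) (fun j => ?_)
  obtain ⟨g, h, -, hgL, hgh⟩ := hiter j
  refine ⟨g, h, g.2, h.2, hgL, ?_⟩
  have := congrArg Subtype.val hgh
  push_cast at this
  rw [this, map_pow, ha]

end Fermat.Agent.S34
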