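import Mathlib
import Fermat.Prelude.Def_AlgebraicCurve_DivisorClassGroup
import Fermat.Agent.S24.h35_PlaceBasic
import Fermat.Agent.S18.h53_CoreBasic

/-!
# S34: abstract CORE for a lattice structure with a SUBRING `O` (several valuations)

This is the interface of the port of the S18 CORE (`h53_core`, `h64_sat_core`) from a valuation
ring `Ov` to an arbitrary subring `O` of the function field `F` (in the application
`O = O₁ ∩ O₂`, the intersection of two valuation rings, `red : O → κ × κ`).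

* `h50_Lat K F B` : constants `A` (a valuation ring of `K`), the subring `O`, a reduction map
  `red : O →+* B` into an arbitrary commutative ring whose kernel is `𝔪_A O`, norms attained by
  constants (`exists_const`), and `red y` a unit implies `y` a unit.
* `h50_Lat.Small` : membership in the kernel of `red`, as a predicate on `F`.
* `h50_Lat.HasON D'` : `L(D') ∩ O` has a finite orthonormal `A`-basis.
-/

set_option autoImplicit false

namespace Fermat.Agent.S34

open AlgebraicCurve Fermat.Agent.S24 Fermat.Agent.S18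

/-- Abstract integral structure on a function field `F / K`: a valuation ring `A` of the constants,
a subring `O` of `F` with `O ∩ K = A`, and a reduction `red : O →+* B` with kernel `𝔪_A O`. -/
structure h50_Lat (K F B : Type*) [Field K] [Field F] [Algebra K F] [CommRing B] where
  /-- the valuation ring of constants -/
  A : ValuationSubring K
  /-- the ring of integral functions -/
  O : Subring F
  /-- reduction -/
  red : O →+* B
  mem_A : ∀ c : K, algebraMap K F c ∈ O ↔ c ∈ A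
  /-- the kernel of the reduction is `𝔪_A O` -/
  red_eq_zero : ∀ y : O, red y = 0 ↔
    ∃ c : K, c ∈ A.nonunits ∧ ∃ z : F, z ∈ O ∧ (y : F) = algebraMap K F c * z
  /-- norms are attained by constants -/
  exists_const : ∀ y : F, y ≠ 0 →
    ∃ c : K, c ≠ 0 ∧ ∃ h : algebraMap K F c * y ∈ O, red ⟨_, h⟩ ≠ 0
  /-- elements with unit reduction are units -/
  isUnit_of_red : ∀ y : O, IsUnit (red y) → IsUnit y

variable {K F B : Type*} [Field K] [Field F] [Algebra K F] [CommRing B]

namespace h50_Lat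

variable (R : h50_Lat K F B)

/-- `y ∈ 𝔪_A O`, i.e. `y ∈ O` and `red y = 0`. -/
def Small (y : F) : Prop := ∃ h : y ∈ R.O, R.red ⟨y, h⟩ = 0

theorem Small.mem {R : h50_Lat K F B} {y : F} (h : R.Small y) : y ∈ R.O := h.1

theorem small_coe_iff (y : R.O) : R.Small (y : F) ↔ R.red y = 0 :=
  ⟨fun ⟨_, h⟩ => h, fun h => ⟨y.2, h⟩⟩

theorem small_zero : R.Small (0 : F) :=
  ⟨R.O.zero_mem, by
    have : (⟨0, R.O.zero_mem⟩ : R.O) = 0 := rfl
    rw [this, map_zero]⟩

theorem Small.add {R : h50_Lat K F B} {x y : F} (hx : R.Small x) (hy : R.Small y) :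
    R.Small (x + y) := by
  obtain ⟨hx, hx0⟩ := hx
  obtain ⟨hy, hy0⟩ := hy
  refine ⟨R.O.add_mem hx hy, ?_⟩
  have : (⟨x + y, R.O.add_mem hx hy⟩ : R.O) = ⟨x, hx⟩ + ⟨y, hy⟩ := rfl
  rw [this, map_add, hx0, hy0, add_zero]

theorem Small.neg {R : h50_Lat K F B} {x : F} (hx : R.Small x) : R.Small (-x) := by
  obtain ⟨hx, hx0⟩ := hx
  refine ⟨R.O.neg_mem hx, ?_⟩
  have : (⟨-x, R.O.neg_mem hx⟩ : R.O) = -⟨x, hx⟩ := rfl
  rw [this, map_neg, hx0, neg_zero]

theorem Small.sub {R : h50_Lat K F B} {x y : F} (hx : R.Small x) (hy : R.Small y) :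
    R.Small (x - y) := by
  rw [sub_eq_add_neg]; exact hx.add hy.neg

theorem Small.mul_mem {R : h50_Lat K F B} {x y : F} (hx : R.Small x) (hy : y ∈ R.O) :
    R.Small (x * y) := by
  obtain ⟨hx, hx0⟩ := hx
  refine ⟨R.O.mul_mem hx hy, ?_⟩
  have : (⟨x * y, R.O.mul_mem hx hy⟩ : R.O) = ⟨x, hx⟩ * ⟨y, hy⟩ := rfl
  rw [this, map_mul, hx0, zero_mul]

theorem Small.mem_mul {R : h50_Lat K F B} {x y : F} (hx : x ∈ R.O) (hy : R.Small y) :
    R.Small (x * y) := by
  rw [mul_comm]; exact hy.mul_mem hx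

theorem small_sum {ι : Type*} (s : Finset ι) (f : ι → F) (h : ∀ i ∈ s, R.Small (f i)) :
    R.Small (∑ i ∈ s, f i) := by
  classical
  induction s using Finset.induction_on with
  | empty => simpa using R.small_zero
  | insert a s ha ih =>
    rw [Finset.sum_insert ha]
    exact (h a (Finset.mem_insert_self a s)).add
      (ih fun i hi => h i (Finset.mem_insert_of_mem hi))

theorem const_mem {c : K} (hc : c ∈ R.A) : algebraMap K F c ∈ R.O := (R.mem_A c).2 hc

/-- Small constants are small. -/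
theorem small_const {c : K} (hc : c ∈ R.A.nonunits) : R.Small (algebraMap K F c) := by
  have hcO : algebraMap K F c ∈ R.O := R.const_mem (R.A.nonunits_subset hc)
  refine ⟨hcO, (R.red_eq_zero ⟨_, hcO⟩).2 ⟨c, hc, 1, R.O.one_mem, by simp⟩⟩

theorem small_const_mul {c : K} (hc : c ∈ R.A.nonunits) {y : F} (hy : y ∈ R.O) :
    R.Small (algebraMap K F c * y) := (R.small_const hc).mul_mem hy

theorem small_iff_exists {y : F} :
    R.Small y ↔ ∃ c : K, c ∈ R.A.nonunits ∧ ∃ z : F, z ∈ R.O ∧ y = algebraMap K F c * z := by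
  constructor
  · rintro ⟨hy, h0⟩
    exact (R.red_eq_zero ⟨y, hy⟩).1 h0
  · rintro ⟨c, hc, z, hz, rfl⟩
    exact R.small_const_mul hc hz

theorem one_not_small [Nontrivial B] : ¬ R.Small (1 : F) := by
  rintro ⟨h, h0⟩
  have : (⟨1, h⟩ : R.O) = 1 := rfl
  rw [this, map_one] at h0
  exact one_ne_zero h0

theorem isUnit_of_red_eq_one {y : R.O} (hy : R.red y = 1) : IsUnit y :=
  R.isUnit_of_red y (by rw [hy]; exact isUnit_one)

theorem coe_ne_zero_of_red_ne_zero {y : R.O} (hy : R.red y ≠ 0) : (y : F) ≠ 0 := by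
  intro h
  apply hy
  have : y = 0 := Subtype.ext h
  rw [this, map_zero]

/-- A natural number which is a unit in `B` is a unit of `O`. -/
theorem isUnit_natCast {m : ℕ} (hm : IsUnit ((m : ℕ) : B)) : IsUnit ((m : ℕ) : R.O) :=
  R.isUnit_of_red _ (by rwa [map_natCast])

/-- Rank one: a power of a small element is divisible by any nonzero constant. -/
theorem exists_pow_eq_const_mul
    (hrank : ∀ a d : K, a ≠ 0 → a ∈ R.A.nonunits → d ≠ 0 → ∃ n : ℕ, d * (a ^ n)⁻¹ ∉ R.A)
    {x : F} (hx : R.Small x) {d : K} (hd : d ≠ 0) :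
    ∃ (N : ℕ) (z : F), z ∈ R.O ∧ x ^ N = algebraMap K F d * z := by
  obtain ⟨c, hc, z₀, hz₀, rfl⟩ := R.small_iff_exists.1 hx
  by_cases hc0 : c = 0
  · exact ⟨1, 0, R.O.zero_mem, by rw [hc0]; simp⟩
  obtain ⟨n, hn⟩ := hrank c d hc0 hc hd
  have hmem : c ^ n * d⁻¹ ∈ R.A := by
    rcases R.A.mem_or_inv_mem (d * (c ^ n)⁻¹) with h | h
    · exact absurd h hn
    · have e : (d * (c ^ n)⁻¹)⁻¹ = c ^ n * d⁻¹ := by
        rw [mul_inv, inv_inv, mul_comm]
      rwa [e] at h
  refine ⟨n, algebraMap K F (c ^ n * d⁻¹) * z₀ ^ n,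
    R.O.mul_mem (R.const_mem hmem) (R.O.pow_mem hz₀ n), ?_⟩
  have hdF : algebraMap K F d ≠ 0 := by simpa using hd
  rw [map_mul, map_pow, map_inv₀, mul_pow]
  field_simp

/-- `L(D') ∩ O` has a finite orthonormal basis over `A`. -/
def HasON (D' : Divisor K F) : Prop :=
  ∃ (n : ℕ) (b : Fin n → F), (∀ i, b i ∈ R.O ∧ h53_InL D' (b i)) ∧
    (∀ y : F, y ∈ R.O → h53_InL D' y →
      ∃ x : Fin n → K, (∀ i, x i ∈ R.A) ∧ y = ∑ i, x i • b i) ∧
    (∀ x : Fin n → K, (∀ i, x i ∈ R.A) → R.Small (∑ i, x i • b i) → ∀ i, x i ∈ R.A.nonunits)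

/-- Integral combinations of integral functions are integral. -/
theorem comb_mem {n : ℕ} (b : Fin n → F) (hb : ∀ j, b j ∈ R.O) (x : Fin n → K)
    (hx : ∀ j, x j ∈ R.A) : ∑ j, x j • b j ∈ R.O := by
  refine R.O.sum_mem fun j _ => ?_
  rw [Algebra.smul_def]
  exact R.O.mul_mem (R.const_mem (hx j)) (hb j)

/-- Small combinations of integral functions are small. -/
theorem comb_small {n : ℕ} (b : Fin n → F) (hb : ∀ j, b j ∈ R.O) (x : Fin n → K)
    (hx : ∀ j, x j ∈ R.A.nonunits) : R.Small (∑ j, x j • b j) := by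
  refine R.small_sum _ _ fun j _ => ?_
  rw [Algebra.smul_def]
  exact R.small_const_mul (hx j) (hb j)

end h50_Lat

end Fermat.Agent.S34
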