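import Fermat.Agent.S34.h50_Core2Defs
import Fermat.Agent.S18.h64_SatCore

/-!
# S34 abstract CORE: the saturation lemma for a subring `O`

Port of `h64_sat_core` (S18).  The tube inequality and the lifting of reductions are replaced by
one "upstairs" hypothesis `hlift`: an element of `O` whose reduction is, on every member `T i`
of a covering family of sets of places, also the reduction of an element of `O` with poles
bounded by `D1` on `T i`, has the same reduction as an element of `L(D1) ∩ O`.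
-/

set_option autoImplicit false

namespace Fermat.Agent.S34

open Finset AlgebraicCurve Fermat.Agent.S24 Fermat.Agent.S18

variable {K F B : Type*} [Field K] [Field F] [Algebra K F] [CommRing B]

/-- **Saturation lemma** for a lattice structure with a subring `O`. -/
theorem h50_Lat.sat (R : h50_Lat K F B) {ι : Type*} (T : ι → Set (Place K F))
    {D1 D2 : Divisor K F} (hle : D1 ≤ D2) (h1 : R.HasON D1) (h2 : R.HasON D2)
    (hlift : ∀ y : R.O, R.red y ≠ 0 →
      (∀ i : ι, ∃ y' : R.O, R.red y' = R.red y ∧ h64_InS (T i) D1 (y' : F)) →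
      ∃ c : R.O, h53_InL D1 (c : F) ∧ R.red c = R.red y)
    (t : F) (htO : t ∈ R.O) (ht : h53_InL D2 t) (a : K)
    (hloc : ∀ i : ι, ∃ l z : F, l ∈ R.O ∧ z ∈ R.O ∧ t - l = algebraMap K F a * z ∧
      h64_InS (T i) D1 l) :
    ∃ c z : F, c ∈ R.O ∧ h53_InL D1 c ∧ z ∈ R.O ∧ t - c = algebraMap K F a * z := by
  classical
  obtain ⟨n₁, b₁, hb₁, hspan₁, hon₁⟩ := h1
  obtain ⟨n₂, b₂, hb₂', hspan₂, hon₂⟩ := h2
  have hb₂ : ∀ j, b₂ j ∈ R.O := fun j => (hb₂' j).1
  set A : ValuationSubring K := R.A with hA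
  have hb₁O : ∀ i, b₁ i ∈ R.O := fun i => (hb₁ i).1
  -- 1. the matrix of `b₁` in `b₂`
  have hM : ∀ i, ∃ Mi : Fin n₂ → K, (∀ j, Mi j ∈ A) ∧ b₁ i = ∑ j, Mi j • b₂ j := fun i =>
    hspan₂ (b₁ i) (hb₁ i).1
      ((h64_InS_univ_iff D2 _).mp (h64_InS_mono hle ((h64_InS_univ_iff D1 _).mpr (hb₁ i).2)))
  choose M hMint hMeq using hM
  -- 2. coordinates of `t`
  obtain ⟨x, hxint, hxeq⟩ := hspan₂ t htO ht
  -- 3. integral retraction
  have hind : ∀ lam : Fin n₁ → K, (∀ i, lam i ∈ A) →
      (∀ j, ∑ i, lam i * M i j ∈ A.nonunits) → ∀ i, lam i ∈ A.nonunits := by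
    intro lam hlam hsum i
    apply hon₁ lam hlam
    rw [h64_comb_eq b₁ b₂ M hMeq lam]
    exact R.comb_small b₂ hb₂ _ hsum
  obtain ⟨ρ, hρint, hρdual⟩ := h64_exists_retract A n₁ M hMint hind
  -- 4. the candidate `c`
  set c : F := ∑ i, ρ i x • b₁ i with hc
  have hcO : c ∈ R.O := R.comb_mem b₁ hb₁O _ (fun i => hρint i x hxint)
  have hcL : h64_InS Set.univ D1 c := by
    apply h64_InS_sum
    intro i _
    exact h64_InS_smul _ ((h64_InS_univ_iff D1 _).mpr (hb₁ i).2)
  set x'' : Fin n₂ → K := fun j => x j - ∑ i, ρ i x * M i j with hx''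
  have hx''int : ∀ j, x'' j ∈ A := fun j =>
    sub_mem (hxint j) (sum_mem fun i _ => A.mul_mem _ _ (hρint i x hxint) (hMint i j))
  have htc : t - c = ∑ j, x'' j • b₂ j := by
    rw [hc, h64_comb_eq b₁ b₂ M hMeq, hxeq, ← Finset.sum_sub_distrib]
    apply Finset.sum_congr rfl
    intro j _
    rw [hx'', sub_smul]
  have hx''fun : x'' = x - ∑ i, ρ i x • M i := by
    funext j
    simp [hx'']
  have hρx'' : ∀ i', ρ i' x'' = 0 := by
    intro i'
    rw [hx''fun, map_sub, map_sum]
    simp only [map_smul, hρdual, smul_eq_mul, mul_ite, mul_one, mul_zero, Finset.sum_ite_eq,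
      Finset.mem_univ, if_true, sub_self]
  -- 5. case distinction
  by_cases hall : ∀ j, ∃ y : K, y ∈ A ∧ x'' j = a * y
  · choose y hyA hy using hall
    refine ⟨c, ∑ j, y j • b₂ j, hcO, (h64_InS_univ_iff D1 c).mp hcL, R.comb_mem b₂ hb₂ y hyA, ?_⟩
    rw [htc, Finset.mul_sum]
    apply Finset.sum_congr rfl
    intro j _
    rw [hy j, Algebra.smul_def, Algebra.smul_def, map_mul, mul_assoc]
  exfalso
  push Not at hall
  obtain ⟨j₁, hj₁⟩ := hall
  set v := A.valuation with hv
  have hlt₁ : v a < v (x'' j₁) := by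
    by_contra hle'
    push Not at hle'
    by_cases ha0 : a = 0
    · have hx0 : x'' j₁ = 0 := by
        rw [ha0, map_zero] at hle'
        have := le_antisymm hle' zero_le
        rwa [Valuation.zero_iff] at this
      exact hj₁ 0 A.zero_mem (by rw [hx0, mul_zero])
    · refine hj₁ (x'' j₁ / a) ?_ (by field_simp)
      rw [← ValuationSubring.valuation_le_one_iff, map_div₀]
      have hapos : 0 < v a :=
        lt_of_le_of_ne zero_le (Ne.symm ((Valuation.ne_zero_iff _).mpr ha0))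
      exact (div_le_one₀ hapos).mpr hle'
  obtain ⟨j₀, -, hj₀⟩ := Finset.exists_max_image (Finset.univ : Finset (Fin n₂))
    (fun j => v (x'' j)) ⟨j₁, Finset.mem_univ _⟩
  set β := x'' j₀ with hβ
  have hltβ : v a < v β := lt_of_lt_of_le hlt₁ (hj₀ j₁ (Finset.mem_univ _))
  have hβpos : 0 < v β := lt_of_le_of_lt zero_le hltβ
  have hβ0 : β ≠ 0 := by
    intro h0
    rw [h0, map_zero] at hβpos
    exact lt_irrefl _ hβpos
  have haβ : a / β ∈ A.nonunits := by
    rw [ValuationSubring.mem_nonunits_iff, map_div₀]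
    exact (div_lt_one₀ hβpos).mpr hltβ
  set yv : Fin n₂ → K := fun j => x'' j / β with hyv
  have hyvint : ∀ j, yv j ∈ A := by
    intro j
    rw [← ValuationSubring.valuation_le_one_iff, hyv, map_div₀]
    exact (div_le_one₀ hβpos).mpr (hj₀ j (Finset.mem_univ _))
  have hyv0 : yv j₀ = 1 := by rw [hyv]; exact div_self hβ0
  set τ : F := ∑ j, yv j • b₂ j with hτ
  have hτO : τ ∈ R.O := R.comb_mem b₂ hb₂ yv hyvint
  have hβτ : algebraMap K F β * τ = t - c := by
    rw [htc, hτ, Finset.mul_sum]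
    apply Finset.sum_congr rfl
    intro j _
    rw [hyv, Algebra.smul_def, Algebra.smul_def, ← mul_assoc, ← map_mul, mul_div_cancel₀ _ hβ0]
  have hτunit : ¬ R.Small τ := by
    intro hnon
    have := hon₂ yv hyvint hnon j₀
    rw [hyv0] at this
    exact h64_one_not_nonunits A this
  have hredτ : R.red ⟨τ, hτO⟩ ≠ 0 := fun h0 => hτunit ⟨hτO, h0⟩
  have hρyv : ∀ i', ρ i' yv = 0 := by
    intro i'
    have : yv = β⁻¹ • x'' := by
      funext j
      simp [hyv, div_eq_inv_mul]
    rw [this, map_smul, hρx'', smul_zero]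
  -- on every tube the reduction of `τ` is the reduction of an element with poles bounded by `D1`
  have hτloc : ∀ i : ι, ∃ y' : R.O, R.red y' = R.red ⟨τ, hτO⟩ ∧ h64_InS (T i) D1 (y' : F) := by
    intro i
    obtain ⟨l, z, hlO, hzO, hEq, hltube⟩ := hloc i
    have hsmall : R.Small (algebraMap K F (a / β) * z) := R.small_const_mul haβ hzO
    have hτ'O : τ - algebraMap K F (a / β) * z ∈ R.O := sub_mem hτO hsmall.mem
    have hredeq : R.red ⟨τ - algebraMap K F (a / β) * z, hτ'O⟩ = R.red ⟨τ, hτO⟩ := by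
      have h1 : (⟨τ - algebraMap K F (a / β) * z, hτ'O⟩ : R.O)
          = ⟨τ, hτO⟩ - ⟨algebraMap K F (a / β) * z, hsmall.mem⟩ := rfl
      rw [h1, map_sub, hsmall.2, sub_zero]
    have hτ'eq : τ - algebraMap K F (a / β) * z = β⁻¹ • (l - c) := by
      have hβF : algebraMap K F β ≠ 0 := by simpa using hβ0
      have h2 : l - c = (t - c) - (t - l) := by ring
      rw [h2, ← hβτ, hEq, Algebra.smul_def, map_div₀, map_inv₀]
      field_simp
    refine ⟨⟨_, hτ'O⟩, hredeq, ?_⟩
    show h64_InS (T i) D1 (τ - algebraMap K F (a / β) * z)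
    rw [hτ'eq]
    apply h64_InS_smul
    exact h64_InS_sub hltube (h64_InS_subset (Set.subset_univ _) hcL)
  -- lift the reduction of `τ` into `L(D1) ∩ O`
  obtain ⟨c', hc'L, hc'red⟩ := hlift ⟨τ, hτO⟩ hredτ hτloc
  have hdiffnon : R.Small (τ - (c' : F)) := by
    refine ⟨sub_mem hτO c'.2, ?_⟩
    have h1 : (⟨τ - (c' : F), sub_mem hτO c'.2⟩ : R.O) = ⟨τ, hτO⟩ - c' := rfl
    rw [h1, map_sub, hc'red, sub_self]
  obtain ⟨lam, hlamint, hlameq⟩ := hspan₁ (c' : F) c'.2 hc'L
  set w : Fin n₂ → K := fun j => yv j - ∑ i, lam i * M i j with hw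
  have hwint : ∀ j, w j ∈ A := fun j =>
    sub_mem (hyvint j) (sum_mem fun i _ => A.mul_mem _ _ (hlamint i) (hMint i j))
  have hweq : τ - (c' : F) = ∑ j, w j • b₂ j := by
    rw [hlameq, h64_comb_eq b₁ b₂ M hMeq, hτ, ← Finset.sum_sub_distrib]
    apply Finset.sum_congr rfl
    intro j _
    rw [hw, sub_smul]
  have hwnon : ∀ j, w j ∈ A.nonunits := by
    intro j
    apply hon₂ w hwint
    rw [← hweq]
    exact hdiffnon
  have hwfun : w = yv - ∑ i, lam i • M i := by
    funext j
    simp [hw]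
  have hρw : ∀ i', ρ i' w = -lam i' := by
    intro i'
    rw [hwfun, map_sub, map_sum, hρyv]
    simp only [map_smul, hρdual, smul_eq_mul, mul_ite, mul_one, mul_zero, Finset.sum_ite_eq,
      Finset.mem_univ, if_true, zero_sub]
  have hlamnon : ∀ i', lam i' ∈ A.nonunits := by
    intro i'
    have h1 := h64_functional_nonunits A (ρ i') (hρint i') w hwnon
    rw [hρw] at h1
    have := h64_nonunits_neg A h1
    rwa [neg_neg] at this
  have hfin : yv j₀ ∈ A.nonunits := by
    have h1 : yv j₀ = w j₀ + ∑ i, lam i * M i j₀ := by rw [hw]; ring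
    rw [h1]
    apply h64_nonunits_add A (hwnon j₀)
    apply h64_nonunits_sum
    intro i _
    exact h64_nonunits_mul_mem A (hlamnon i) (hMint i j₀)
  rw [hyv0] at hfin
  exact h64_one_not_nonunits A hfin

end Fermat.Agent.S34
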