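import Fermat.Agent.S34.h50_Core2Loc
import Fermat.Agent.S34.h50_Core2Sat

/-!
# S34 abstract CORE: the quadratic Newton iteration (port of `h53_RedDatum.step/iter`)
-/

set_option autoImplicit false

namespace Fermat.Agent.S34

open AlgebraicCurve Fermat.Agent.S24 Fermat.Agent.S18

variable {K F B : Type*} [Field K] [Field F] [Algebra K F] [CommRing B]

namespace h50_Lat

variable (R : h50_Lat K F B)

/-- **(STEP)**: one quadratic Newton step inside the lattice `L(E - D) ∩ O`. -/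
theorem step
    (hrank : ∀ a d : K, a ≠ 0 → a ∈ R.A.nonunits → d ≠ 0 → ∃ n : ℕ, d * (a ^ n)⁻¹ ∉ R.A)
    {ι : Type*} (T : ι → Set (Place K F))
    {m : ℕ} (hm : IsUnit ((m : ℕ) : B)) (hm0 : m ≠ 0) (D E : Divisor K F) (hE : 0 ≤ E)
    (u : R.O) (hu1 : R.red u = 1) (hu : ∀ P : Place K F, P.ord (u : F) = m * D P)
    (hgen : ∀ i : ι, ∃ w : R.O, R.red w = 1 ∧ ∀ P : Place K F, P ∈ T i → P.ord (w : F) = D P)
    (hL1 : R.HasON (E - D)) (hL2 : R.HasON ((m + 1) • E - D))
    (hlift : ∀ y : R.O, R.red y ≠ 0 →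
      (∀ i : ι, ∃ y' : R.O, R.red y' = R.red y ∧ h64_InS (T i) (E - D) (y' : F)) →
      ∃ c : R.O, h53_InL (E - D) (c : F) ∧ R.red c = R.red y)
    (g : R.O) (hg1 : R.red g = 1) (hgL : h53_InL (E - D) (g : F))
    (a : R.O) (a' : K) (haa' : (a : F) = algebraMap K F a') (ha0 : a' ≠ 0)
    (hanu : R.red a = 0)
    (h : R.O) (hgh : g ^ m = u * (1 + a * h)) :
    ∃ g' h' : R.O, R.red g' = 1 ∧ h53_InL (E - D) (g' : F) ∧
      g' ^ m = u * (1 + a ^ 2 * h') := by
  obtain ⟨minv, hminv⟩ := (R.isUnit_natCast hm).exists_right_inv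
  obtain ⟨uinv, huinv⟩ := (R.isUnit_of_red_eq_one hu1).exists_right_inv
  have huF : (u : F) ≠ 0 := by
    intro h0
    have := congrArg (Subtype.val) huinv
    push_cast at this
    rw [h0, zero_mul] at this
    exact zero_ne_one this
  have haF : (a : F) ≠ 0 := by rw [haa']; simpa using ha0
  have hminvF : (minv : F) = algebraMap K F ((m : K)⁻¹) := by
    have := congrArg (Subtype.val) hminv
    push_cast at this
    rw [map_inv₀, map_natCast]
    exact eq_inv_of_mul_eq_one_right this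
  -- `t = h g / m` lies in `L((m+1)E - D)`
  have hghF : (g : F) ^ m = (u : F) * (1 + (a : F) * (h : F)) := by
    have := congrArg (Subtype.val) hgh
    push_cast at this
    exact this
  have hhF : (h : F) = ((g : F) ^ m / (u : F) - 1) * algebraMap K F a'⁻¹ := by
    rw [hghF, map_inv₀, ← haa']
    field_simp
    ring
  have htL : h53_InL ((m + 1) • E - D) ((h * g * minv : R.O) : F) := by
    rw [h53_inL_iff]
    intro P
    have h1 : h53_OrdGE P ((g : F) ^ m / (u : F)) (-(m * E P)) := by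
      have := ((h53_inL_iff.1 hgL P).pow m).div_of_ord_eq (g := (u : F))
      rw [hu P] at this
      refine this.mono ?_
      have e : (E - D) P = E P - D P := Finsupp.sub_apply ..
      rw [e]; ring_nf; exact le_rfl
    have h2 : h53_OrdGE P (1 : F) (-(m * E P)) :=
      h53_OrdGE.one.mono (by
        have := hE P
        simp only [Finsupp.coe_zero, Pi.zero_apply] at this
        exact neg_nonpos.2 (mul_nonneg (Nat.cast_nonneg m) this))
    have h3 : h53_OrdGE P (h : F) (-(m * E P)) := by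
      rw [hhF]
      have := (h1.sub h2).mul (h53_OrdGE.const (P := P) a'⁻¹)
      rwa [add_zero] at this
    have h4 := (h3.mul (h53_inL_iff.1 hgL P)).mul (h53_OrdGE.const (P := P) ((m : K)⁻¹))
    have e1 : ((h * g * minv : R.O) : F) = (h : F) * (g : F) * algebraMap K F ((m : K)⁻¹) := by
      rw [← hminvF]; rfl
    rw [e1]
    refine h4.mono ?_
    have e : (E - D) P = E P - D P := Finsupp.sub_apply ..
    have e' : ((m + 1) • E - D) P = (m + 1) * E P - D P := by
      rw [Finsupp.sub_apply, Finsupp.smul_apply]; simp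
    rw [e, e']; ring_nf; exact le_rfl
  -- local congruences
  have hloc : ∀ i : ι, ∃ l z : F, l ∈ R.O ∧ z ∈ R.O ∧
      ((h * g * minv : R.O) : F) - l = algebraMap K F a' * z ∧ h64_InS (T i) (E - D) l := by
    intro i
    obtain ⟨w, hw1, hw⟩ := hgen i
    obtain ⟨l, z, hlz, hl⟩ := R.loc hrank hm D E hE u hu1 hu (T i) w hw1 hw g hg1 hgL a a' haa'
      ha0 minv hminv h hgh
    refine ⟨l, z, l.2, z.2, ?_, hl⟩
    have := congrArg (Subtype.val) hlz
    push_cast at this
    rw [← haa']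
    push_cast
    exact this
  have hle : E - D ≤ (m + 1) • E - D := by
    intro P
    have e : (E - D) P = E P - D P := Finsupp.sub_apply ..
    have e' : ((m + 1) • E - D) P = (m + 1) * E P - D P := by
      rw [Finsupp.sub_apply, Finsupp.smul_apply]; simp
    rw [e, e']
    have := hE P
    simp only [Finsupp.coe_zero, Pi.zero_apply] at this
    nlinarith
  obtain ⟨c, z, hcO, hcL, hzO, hcz⟩ := R.sat T hle hL1 hL2 hlift _ (h * g * minv : R.O).2 htL a'
    hloc
  -- Newton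
  have hc : h * g * minv = (⟨c, hcO⟩ : R.O) + a * (⟨z, hzO⟩ : R.O) := by
    apply Subtype.ext
    have hcz' : (h : F) * (g : F) * (minv : F) - c = algebraMap K F a' * z := hcz
    push_cast
    rw [haa']
    linear_combination hcz'
  obtain ⟨h', hh'⟩ := h53_newton_alg m hm0 a g u uinv minv h ⟨c, hcO⟩ ⟨z, hzO⟩ huinv hminv hgh hc
  refine ⟨g - a * ⟨c, hcO⟩, h', ?_, ?_, hh'⟩
  · rw [map_sub, map_mul, hg1, hanu, zero_mul, sub_zero]
  · have : ((g - a * ⟨c, hcO⟩ : R.O) : F) = (g : F) - algebraMap K F a' * c := by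
      push_cast; rw [haa']
    rw [this]
    exact hgL.sub (hcL.const_mul a')

/-- **Iteration**: errors `a, a², a⁴, …` in the same lattice. -/
theorem iter
    (hrank : ∀ a d : K, a ≠ 0 → a ∈ R.A.nonunits → d ≠ 0 → ∃ n : ℕ, d * (a ^ n)⁻¹ ∉ R.A)
    {ι : Type*} (T : ι → Set (Place K F))
    {m : ℕ} (hm : IsUnit ((m : ℕ) : B)) (hm0 : m ≠ 0) (D E : Divisor K F) (hE : 0 ≤ E)
    (u : R.O) (hu1 : R.red u = 1) (hu : ∀ P : Place K F, P.ord (u : F) = m * D P)
    (hgen : ∀ i : ι, ∃ w : R.O, R.red w = 1 ∧ ∀ P : Place K F, P ∈ T i → P.ord (w : F) = D P)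
    (hL1 : R.HasON (E - D)) (hL2 : R.HasON ((m + 1) • E - D))
    (hlift : ∀ y : R.O, R.red y ≠ 0 →
      (∀ i : ι, ∃ y' : R.O, R.red y' = R.red y ∧ h64_InS (T i) (E - D) (y' : F)) →
      ∃ c : R.O, h53_InL (E - D) (c : F) ∧ R.red c = R.red y)
    (g₀ : R.O) (hg₀1 : R.red g₀ = 1) (hg₀L : h53_InL (E - D) (g₀ : F))
    (a : R.O) (a' : K) (haa' : (a : F) = algebraMap K F a') (ha0 : a' ≠ 0)
    (hanu : R.red a = 0)
    (h₀ : R.O) (hgh₀ : g₀ ^ m = u * (1 + a * h₀)) (n : ℕ) :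
    ∃ g h : R.O, R.red g = 1 ∧ h53_InL (E - D) (g : F) ∧
      g ^ m = u * (1 + a ^ (2 ^ n) * h) := by
  induction n with
  | zero => exact ⟨g₀, h₀, hg₀1, hg₀L, by simpa using hgh₀⟩
  | succ n ih =>
    obtain ⟨g, h, hg1, hgL, hgh⟩ := ih
    have hnu : R.red (a ^ (2 ^ n)) = 0 := by
      have h2 : 2 ^ n ≠ 0 := by positivity
      rw [map_pow, hanu, zero_pow h2]
    obtain ⟨g', h', hg'1, hg'L, hg'h⟩ := R.step hrank T hm hm0 D E hE u hu1 hu hgen hL1 hL2 hlift
      g hg1 hgL (a ^ (2 ^ n)) (a' ^ (2 ^ n)) (by rw [map_pow, ← haa']; rfl) (pow_ne_zero _ ha0)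
      hnu h hgh
    refine ⟨g', h', hg'1, hg'L, ?_⟩
    rw [hg'h, ← pow_mul, pow_succ]

end h50_Lat

end Fermat.Agent.S34
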