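import Fermat.Agent.S34.h50_Core2Defs
import Fermat.Agent.S18.h53_CoreAlg
import Fermat.Agent.S18.h53_RootApprox
import Fermat.Agent.S18.h64_SatCore

/-!
# S34 abstract CORE: the local congruence (LOC) on a set of places

Port of `h53_RedDatum.loc` (S18): the tube of a place of the reduction is replaced by an
arbitrary set `S` of places carrying a local generator `w` of `D` with `red w = 1`.
-/

set_option autoImplicit false

namespace Fermat.Agent.S34

open AlgebraicCurve Fermat.Agent.S24 Fermat.Agent.S18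

variable {K F B : Type*} [Field K] [Field F] [Algebra K F] [CommRing B]

namespace h50_Lat

variable (R : h50_Lat K F B)

/-- The ring of integral functions which are regular at all places of `S`. -/
def tubeRing (S : Set (Place K F)) : Subring F :=
  R.O ⊓ ⨅ P : {P : Place K F // P ∈ S}, P.1.toValuationSubring.toSubring

theorem mem_tubeRing {S : Set (Place K F)} {y : F} :
    y ∈ R.tubeRing S ↔ y ∈ R.O ∧ ∀ P : Place K F, P ∈ S → y ∈ P.toValuationSubring := by
  simp only [tubeRing, Subring.mem_inf, Subring.mem_iInf, Subtype.forall]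
  rfl

/-- **(LOC)**: local congruence modulo `a` on a set `S` of places with a local generator. -/
theorem loc
    (hrank : ∀ a d : K, a ≠ 0 → a ∈ R.A.nonunits → d ≠ 0 → ∃ n : ℕ, d * (a ^ n)⁻¹ ∉ R.A)
    {m : ℕ} (hm : IsUnit ((m : ℕ) : B)) (D E : Divisor K F) (hE : 0 ≤ E)
    (u : R.O) (hu1 : R.red u = 1) (hu : ∀ P : Place K F, P.ord (u : F) = m * D P)
    (S : Set (Place K F)) (w : R.O) (hw1 : R.red w = 1)
    (hw : ∀ P : Place K F, P ∈ S → P.ord (w : F) = D P)
    (g : R.O) (hg1 : R.red g = 1) (hgL : h53_InL (E - D) (g : F))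
    (a : R.O) (a' : K) (haa' : (a : F) = algebraMap K F a') (ha0 : a' ≠ 0)
    (minv : R.O) (hminv : ((m : ℕ) : R.O) * minv = 1)
    (h : R.O) (hgh : g ^ m = u * (1 + a * h)) :
    ∃ l z : R.O, h * g * minv - l = a * z ∧ h64_InS S (E - D) (l : F) := by
  classical
  -- units
  obtain ⟨winv, hwinv⟩ := (R.isUnit_of_red_eq_one hw1).exists_right_inv
  obtain ⟨uinv, huinv⟩ := (R.isUnit_of_red_eq_one hu1).exists_right_inv
  have hwinv1 : R.red winv = 1 := by
    have := congrArg R.red hwinv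
    rwa [map_mul, hw1, one_mul, map_one] at this
  have hwF : (w : F) ≠ 0 := by
    intro h0
    have := congrArg (Subtype.val) hwinv
    push_cast at this
    rw [h0, zero_mul] at this
    exact zero_ne_one this
  have huF : (u : F) ≠ 0 := by
    intro h0
    have := congrArg (Subtype.val) huinv
    push_cast at this
    rw [h0, zero_mul] at this
    exact zero_ne_one this
  have hwinvF : (winv : F) = (w : F)⁻¹ := by
    have := congrArg (Subtype.val) hwinv
    push_cast at this
    exact eq_inv_of_mul_eq_one_right this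
  have hmF : ((m : ℕ) : F) ≠ 0 := by
    intro h0
    have := congrArg (Subtype.val) hminv
    push_cast at this
    rw [h0, zero_mul] at this
    exact zero_ne_one this
  have hminvF : (minv : F) = ((m : ℕ) : F)⁻¹ := by
    have := congrArg (Subtype.val) hminv
    push_cast at this
    exact eq_inv_of_mul_eq_one_right this
  obtain ⟨x, hx⟩ : ∃ x : R.O, x = u * winv ^ m - 1 := ⟨_, rfl⟩
  have hxred : R.red x = 0 := by
    rw [hx, map_sub, map_mul, map_pow, hu1, hwinv1]; simp
  have hxnu : R.Small (x : F) := (R.small_coe_iff x).2 hxred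
  -- rank one
  obtain ⟨N, z₀', hz₀', hN'⟩ :=
    R.exists_pow_eq_const_mul hrank hxnu (d := a' ^ 2) (pow_ne_zero 2 ha0)
  obtain ⟨z₀, hz₀⟩ : ∃ z₀ : R.O, (z₀ : F) = z₀' := ⟨⟨z₀', hz₀'⟩, rfl⟩
  have hN : x ^ N = a ^ 2 * z₀ := by
    apply Subtype.ext
    push_cast
    rw [hN', haa', hz₀, map_pow]
  -- the tube ring
  have hUT : ∀ P : Place K F, P ∈ S → (u : F) * (winv : F) ^ m ∈ P.toValuationSubring := by
    intro P hP
    have hne : (u : F) * (winv : F) ^ m ≠ 0 := by
      rw [hwinvF]; exact mul_ne_zero huF (pow_ne_zero _ (inv_ne_zero hwF))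
    rw [h35_mem_iff_ord_nonneg P hne, hwinvF, P.ord_mul huF (pow_ne_zero _ (inv_ne_zero hwF)),
      hu P, ← zpow_natCast, P.ord_zpow, P.ord_inv, hw P hP]
    simp
  have hxT : (x : F) ∈ R.tubeRing S := by
    rw [R.mem_tubeRing]
    refine ⟨x.2, fun P hP => ?_⟩
    rw [hx]
    push_cast
    exact sub_mem (hUT P hP) P.toValuationSubring.one_mem
  have hminvT : (minv : F) ∈ R.tubeRing S := by
    rw [R.mem_tubeRing]
    refine ⟨minv.2, fun P _ => ?_⟩
    rw [hminvF]
    have : ((m : ℕ) : F)⁻¹ = algebraMap K F ((m : K)⁻¹) := by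
      rw [map_inv₀, map_natCast]
    rw [this]
    exact P.algebraMap_mem' _
  have hmT : IsUnit ((m : ℕ) : R.tubeRing S) := by
    refine IsUnit.of_mul_eq_one (⟨(minv : F), hminvT⟩ : R.tubeRing S) ?_
    apply Subtype.ext
    have := congrArg (Subtype.val) hminv
    push_cast at this ⊢
    exact this
  obtain ⟨v, ρ, -, -, hvρ⟩ := h53_root_approx_eval (R := R.tubeRing S) (S := R.tubeRing S) m hmT N
    (⟨(x : F), hxT⟩ : R.tubeRing S)
  obtain ⟨vv, hvv⟩ : ∃ vv : R.O, (vv : F) = (v : F) := ⟨⟨(v : F), (R.mem_tubeRing.1 v.2).1⟩, rfl⟩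
  obtain ⟨ρO, hρO⟩ : ∃ ρO : R.O, (ρO : F) = (ρ : F) := ⟨⟨(ρ : F), (R.mem_tubeRing.1 ρ.2).1⟩, rfl⟩
  have hvρF : (1 + (x : F) * (v : F)) ^ m = 1 + (x : F) + (x : F) ^ N * (ρ : F) := by
    have := congrArg (Subtype.val) hvρ
    push_cast at this
    exact this
  have hV : (1 + x * vv) ^ m = 1 + x + x ^ N * ρO := by
    apply Subtype.ext
    push_cast
    rw [hvv, hρO]
    exact hvρF
  have hVT : ∀ P : Place K F, P ∈ S → 1 + (x : F) * (vv : F) ∈ P.toValuationSubring := by
    intro P hP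
    rw [hvv]
    exact P.toValuationSubring.add_mem _ _ P.toValuationSubring.one_mem
      (P.toValuationSubring.mul_mem _ _ ((R.mem_tubeRing.1 hxT).2 P hP)
        ((R.mem_tubeRing.1 v.2).2 P hP))
  -- the geometric sum is a unit
  obtain ⟨Sg, hS⟩ : ∃ Sg : R.O,
      Sg = ∑ i ∈ Finset.range m, (g * winv) ^ i * (1 + x * vv) ^ (m - 1 - i) := ⟨_, rfl⟩
  have hSred : R.red Sg = ((m : ℕ) : B) := by
    rw [hS, map_sum]
    have : ∀ i ∈ Finset.range m, R.red ((g * winv) ^ i * (1 + x * vv) ^ (m - 1 - i)) = 1 := by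
      intro i _
      rw [map_mul, map_pow, map_pow, map_mul, map_add, map_mul, hg1, hwinv1, hxred]
      simp
    rw [Finset.sum_congr rfl this]
    simp
  obtain ⟨sinv, hsinv⟩ := (R.isUnit_of_red Sg (by rw [hSred]; exact hm)).exists_right_inv
  -- ring-level LOC
  have hV' : (1 + (u * winv ^ m - 1) * vv) ^ m =
      1 + (u * winv ^ m - 1) + (u * winv ^ m - 1) ^ N * ρO := by rw [← hx]; exact hV
  have hN'' : (u * winv ^ m - 1) ^ N = a ^ 2 * z₀ := by rw [← hx]; exact hN
  have hs' : (∑ i ∈ Finset.range m, (g * winv) ^ i * (1 + (u * winv ^ m - 1) * vv) ^ (m - 1 - i))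
      * sinv = 1 := by rw [← hx, ← hS]; exact hsinv
  obtain ⟨h_i, z, hz⟩ := h53_loc_alg m N a g u w h winv uinv minv vv ρO z₀ sinv hwinv huinv hminv
    hgh hV' hN'' hs'
  rw [← hx] at h_i
  obtain ⟨h1, hh1⟩ : ∃ h1 : R.O, h1 = sinv * (u * winv ^ m * h - a * z₀ * ρO) := ⟨_, rfl⟩
  rw [← hh1] at h_i hz
  refine ⟨h1 * w, z, hz, ?_⟩
  by_cases hl : ((h1 * w : R.O) : F) = 0
  · exact Or.inl hl
  refine Or.inr fun P hP => ?_
  have haF : (a : F) ≠ 0 := by rw [haa']; simpa using ha0
  -- orders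
  have hG : h53_OrdGE P ((g : F) * (winv : F)) (-E P) := by
    have := (h53_inL_iff.1 hgL P).div_of_ord_eq (g := (w : F))
    rw [hw P hP, Finsupp.sub_apply, div_eq_mul_inv, ← hwinvF] at this
    exact this.mono (by omega)
  have hVo : h53_OrdGE P (1 + (x : F) * (vv : F)) (-E P) :=
    (h53_OrdGE.mem_iff.2 (hVT P hP)).mono (by have := hE P; simpa using this)
  have hh1F : (h1 : F) = ((g : F) * (winv : F) - (1 + (x : F) * (vv : F))) * (a : F)⁻¹ := by
    have := congrArg (Subtype.val) h_i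
    push_cast at this
    rw [this]
    field_simp
  have hainv : (a : F)⁻¹ = algebraMap K F a'⁻¹ := by rw [haa', map_inv₀]
  have h1o : h53_OrdGE P (h1 : F) (-E P) := by
    rw [hh1F, hainv]
    have := (hG.sub hVo).mul (h53_OrdGE.const (P := P) a'⁻¹)
    rwa [add_zero] at this
  have hlo : h53_OrdGE P ((h1 : F) * (w : F)) (-E P + D P) :=
    h1o.mul (Or.inr (hw P hP).ge)
  have hl' : (h1 : F) * (w : F) ≠ 0 := by
    intro h0; apply hl; push_cast; exact h0
  have := (h53_OrdGE.of_ne hl').1 hlo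
  have e : (E - D) P = E P - D P := Finsupp.sub_apply ..
  have hcoe : ((h1 * w : R.O) : F) = (h1 : F) * (w : F) := by push_cast; rfl
  rw [e, hcoe]
  omega

end h50_Lat

end Fermat.Agent.S34
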