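import Fermat.Agent.S34.h50_EShortChart

/-!
# S34 E-short: trivial gluing ⟹ trivial class

`h50_Lat.eshort`: let `R : h50_Lat K F B` have orthonormal bases for all `L(D') ∩ O`, let `x` be a
balanced chart function (`x, x⁻¹ ∈ O`) with polar divisor `D0`, and assume

* (EV) on the charts of `x` and `x⁻¹`: elements of the chart ring take values in `A` at places
  where the chart function takes a value in `A`;
* (STRICT) for `n ≥ n2`: a reduction which lies in `red (chart ring of x)` and in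
  `x̄ⁿ · red (chart ring of x⁻¹)` is the reduction of an element of `L(n D0) ∩ O`;
* a toric witness `(E, u)`: `u ∈ O`, `red u = 1`, `div u = m E`, `m` a unit of `B`;
* (TRIVIAL GLUING) for `n ≥ n3`: every reduction of an element of `L(n D0) ∩ O` is the reduction
  of an element of `L(n D0 - E) ∩ O`.

Then `E` is principal.

Proof: normalisation of `E` into `{x(P) ∈ 𝔪_A}`, then the abstract CORE `h50_Lat.core` with the
two covering sets `T_a = {v | x(v) ∈ A}` and its complement.
-/

set_option autoImplicit false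

namespace Fermat.Agent.S34

open AlgebraicCurve Fermat.Agent.S24 Fermat.Agent.S18

variable {K F B : Type*} [Field K] [Field F] [Algebra K F] [CommRing B]

/-- **E-short: trivial gluing implies trivial class.** -/
theorem h50_Lat.eshort [IsAlgClosed K] [HasPrincipalDivisors K F] [Nontrivial B]
    (R : h50_Lat K F B)
    (hrank : ∀ a d : K, a ≠ 0 → a ∈ R.A.nonunits → d ≠ 0 → ∃ n : ℕ, d * (a ^ n)⁻¹ ∉ R.A)
    (hON : ∀ D' : Divisor K F, R.HasON D')
    (x xi : R.O) (hxxi : x * xi = 1)
    (hval : ∀ v : Place K F, 0 ≤ v.ord (x : F) → ∃ c : K, 0 < v.ord ((x : F) - algebraMap K F c))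
    (D0 : Divisor K F) (hD0 : ∀ v : Place K F, D0 v = max 0 (-v.ord (x : F)))
    (hEVx : ∀ f : R.O, (∀ v : Place K F, 0 ≤ v.ord (x : F) → 0 ≤ v.ord (f : F)) →
        ∀ (v : Place K F) (c : K), c ∈ R.A → 0 < v.ord ((x : F) - algebraMap K F c) →
        ∃ d : K, d ∈ R.A ∧ h53_OrdGE v ((f : F) - algebraMap K F d) 1)
    (hEVxi : ∀ f : R.O, (∀ v : Place K F, 0 ≤ v.ord (xi : F) → 0 ≤ v.ord (f : F)) →
        ∀ (v : Place K F) (c : K), c ∈ R.A → 0 < v.ord ((xi : F) - algebraMap K F c) →
        ∃ d : K, d ∈ R.A ∧ h53_OrdGE v ((f : F) - algebraMap K F d) 1)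
    (n2 : ℕ) (hstrict : ∀ n, n2 ≤ n → ∀ a b : R.O,
        (∀ v : Place K F, 0 ≤ v.ord (x : F) → 0 ≤ v.ord (a : F)) →
        (∀ v : Place K F, 0 ≤ v.ord (xi : F) → 0 ≤ v.ord (b : F)) →
        R.red a = R.red x ^ n * R.red b →
        ∃ f : R.O, h53_InL (n • D0) (f : F) ∧ R.red f = R.red a)
    {m : ℕ} (hm : IsUnit ((m : ℕ) : B))
    (E : Divisor K F) (u : R.O) (hu1 : R.red u = 1)
    (hu : ∀ P : Place K F, P.ord (u : F) = m * E P)
    (n3 : ℕ) (htg : ∀ n, n3 ≤ n → ∀ s0 : R.O, h53_InL (n • D0) (s0 : F) →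
        ∃ g0 : R.O, h53_InL (n • D0 - E) (g0 : F) ∧ R.red g0 = R.red s0) :
    ∃ g : F, g ≠ 0 ∧ ∀ v : Place K F, E v = v.ord g := by
  classical
  have hm0 : m ≠ 0 := by
    rintro rfl
    simp at hm
  have hmZ : (m : ℤ) ≠ 0 := by exact_mod_cast hm0
  -- facts about `x`
  have hxF : (x : F) * (xi : F) = 1 := by
    have := congrArg Subtype.val hxxi
    push_cast at this
    exact this
  have hx0 : (x : F) ≠ 0 := left_ne_zero_of_mul_eq_one hxF
  have hxi0 : (xi : F) ≠ 0 := right_ne_zero_of_mul_eq_one hxF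
  have hordxi : ∀ v : Place K F, v.ord (xi : F) = -v.ord (x : F) := by
    intro v
    have := v.ord_mul hx0 hxi0
    rw [hxF, Place.ord_one] at this
    omega
  have hredx : R.red x * R.red xi = 1 := by rw [← map_mul, hxxi, map_one]
  have hD0nn : ∀ v : Place K F, 0 ≤ D0 v := fun v => by rw [hD0]; exact le_max_left _ _
  have hD0x : ∀ v : Place K F, -v.ord (x : F) ≤ D0 v := fun v => by
    rw [hD0]; exact le_max_right _ _
  have hsmul : ∀ (n : ℕ) (v : Place K F), (n • D0) v = n * D0 v := fun n v => by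
    rw [Finsupp.smul_apply, nsmul_eq_mul]
  -- `1` and `x ^ n` lie in `L(n D0)`
  have honeL : ∀ n : ℕ, h53_InL (n • D0) ((1 : R.O) : F) := by
    intro n
    refine Or.inr fun P => ?_
    have e : ((1 : R.O) : F) = 1 := rfl
    rw [e, Place.ord_one, hsmul]
    have := hD0nn P
    have hn : (0 : ℤ) ≤ n := Int.natCast_nonneg n
    nlinarith
  have hxpowL : ∀ n : ℕ, h53_InL (n • D0) ((x ^ n : R.O) : F) := by
    intro n
    refine Or.inr fun P => ?_
    have e : ((x ^ n : R.O) : F) = (x : F) ^ n := rfl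
    rw [e, ← zpow_natCast, P.ord_zpow, hsmul]
    have := hD0x P
    have hn : (0 : ℤ) ≤ n := Int.natCast_nonneg n
    nlinarith
  set t := max n2 n3 with ht
  have htn2 : n2 ≤ t := le_max_left _ _
  have htn3 : n3 ≤ t := le_max_right _ _
  -- ### Step 1: normalisation
  obtain ⟨g1, hg1L, hg1red⟩ := htg t htn3 (x ^ t) (hxpowL t)
  obtain ⟨h, hh⟩ : ∃ h : R.O, h = g1 * xi ^ t := ⟨_, rfl⟩
  have hh1 : R.red h = 1 := by
    rw [hh, map_mul, hg1red, map_pow, map_pow, ← mul_pow, hredx, one_pow]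
  obtain ⟨hinv, hhinv⟩ := (R.isUnit_of_red_eq_one hh1).exists_right_inv
  have hhF' : (h : F) * (hinv : F) = 1 := by
    have := congrArg Subtype.val hhinv
    push_cast at this
    exact this
  have hhF : (h : F) ≠ 0 := left_ne_zero_of_mul_eq_one hhF'
  have hhinvF : (hinv : F) ≠ 0 := right_ne_zero_of_mul_eq_one hhF'
  have hordhinv : ∀ v : Place K F, v.ord (hinv : F) = -v.ord (h : F) := by
    intro v
    have := v.ord_mul hhF hhinvF
    rw [hhF', Place.ord_one] at this
    omega
  have hhinv1 : R.red hinv = 1 := by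
    have := congrArg R.red hhinv
    rwa [map_mul, hh1, one_mul, map_one] at this
  have hg1F : (g1 : F) ≠ 0 := by
    intro h0
    apply hhF
    rw [hh]; push_cast; rw [h0, zero_mul]
  have hordh : ∀ v : Place K F, v.ord (h : F) = v.ord (g1 : F) - t * v.ord (x : F) := by
    intro v
    rw [hh]
    push_cast
    rw [v.ord_mul hg1F (pow_ne_zero t hxi0), ← zpow_natCast, v.ord_zpow, hordxi]
    ring
  obtain ⟨Dh, hDh, -⟩ := HasPrincipalDivisors.exists_divisor (K := K) (h : F) hhF
  obtain ⟨D, hDdef⟩ : ∃ D : Divisor K F, D = E - Dh := ⟨_, rfl⟩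
  have hDv : ∀ v : Place K F, D v = E v - v.ord (h : F) := by
    intro v
    rw [hDdef, Finsupp.sub_apply, hDh]
  obtain ⟨u', hu'def⟩ : ∃ u' : R.O, u' = u * hinv ^ m := ⟨_, rfl⟩
  have hu'1 : R.red u' = 1 := by
    rw [hu'def, map_mul, map_pow, hu1, hhinv1, one_pow, one_mul]
  have huF : (u : F) ≠ 0 := R.coe_ne_zero_of_red_ne_zero (by rw [hu1]; exact one_ne_zero)
  have hu' : ∀ P : Place K F, P.ord (u' : F) = m * D P := by
    intro P
    rw [hu'def]
    push_cast
    rw [P.ord_mul huF (pow_ne_zero m hhinvF), ← zpow_natCast, P.ord_zpow, hordhinv, hu P, hDv]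
    ring
  obtain ⟨uinv, huinv⟩ := (R.isUnit_of_red_eq_one hu1).exists_right_inv
  have huinvF' : (u : F) * (uinv : F) = 1 := by
    have := congrArg Subtype.val huinv
    push_cast at this
    exact this
  have huinvF : (uinv : F) ≠ 0 := right_ne_zero_of_mul_eq_one huinvF'
  have horduinv : ∀ v : Place K F, v.ord (uinv : F) = -v.ord (u : F) := by
    intro v
    have := v.ord_mul huF huinvF
    rw [huinvF', Place.ord_one] at this
    omega
  have huinv1 : R.red uinv = 1 := by
    have := congrArg R.red huinv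
    rwa [map_mul, hu1, one_mul, map_one] at this
  -- the order of `g1`
  have hg1ord : ∀ v : Place K F, -(t * D0 v) + E v ≤ v.ord (g1 : F) := by
    intro v
    have := (hg1L.resolve_left hg1F) v
    rw [Finsupp.sub_apply, hsmul] at this
    omega
  -- `D` vanishes where `x⁻¹` takes a value in `A`
  have hDsupp : ∀ v : Place K F,
      (∃ c : K, c ∈ R.A ∧ 0 < v.ord ((xi : F) - algebraMap K F c)) → D v = 0 := by
    rintro v ⟨c, hc, hcv⟩
    obtain ⟨φ, hφ⟩ : ∃ φ : R.O, φ = g1 ^ m * uinv * xi ^ (m * t) := ⟨_, rfl⟩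
    have hφ1 : R.red φ = 1 := by
      rw [hφ, map_mul, map_mul, map_pow, map_pow, hg1red, huinv1, mul_one, map_pow, ← pow_mul,
        mul_comm t m, ← mul_pow, hredx, one_pow]
    have hφord : ∀ w : Place K F, w.ord (φ : F) = m * (w.ord (g1 : F) - E w - t * w.ord (x : F)) := by
      intro w
      rw [hφ]
      push_cast
      rw [w.ord_mul (mul_ne_zero (pow_ne_zero m hg1F) huinvF) (pow_ne_zero _ hxi0),
        w.ord_mul (pow_ne_zero m hg1F) huinvF, ← zpow_natCast, w.ord_zpow, ← zpow_natCast,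
        w.ord_zpow, horduinv, hu w, hordxi]
      push_cast
      ring
    have hφreg : ∀ w : Place K F, 0 ≤ w.ord (xi : F) → 0 ≤ w.ord (φ : F) := by
      intro w hw
      rw [hordxi] at hw
      have h1 := hg1ord w
      have h2 : D0 w = -w.ord (x : F) := by rw [hD0]; exact max_eq_right (by omega)
      rw [h2] at h1
      rw [hφord]
      have h3 : 0 ≤ w.ord (g1 : F) - E w - t * w.ord (x : F) := by linarith
      positivity
    have h0 := R.ord_eq_zero_of_red_eq_one (xi : F) hEVxi φ hφ1 hφreg v c hc hcv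
    rw [hφord] at h0
    have h1 : v.ord (g1 : F) - E v - t * v.ord (x : F) = 0 := by
      rcases mul_eq_zero.1 h0 with h | h
      · exact absurd h hmZ
      · exact h
    rw [hDv, hordh]
    omega
  -- trivial gluing for `D`
  have htgD : ∀ n, n3 ≤ n → ∀ s0 : R.O, h53_InL (n • D0) (s0 : F) →
      ∃ g0 : R.O, h53_InL (n • D0 - D) (g0 : F) ∧ R.red g0 = R.red s0 := by
    intro n hn s0 hs0
    obtain ⟨g', hg'L, hg'red⟩ := htg n hn s0 hs0
    refine ⟨g' * hinv, ?_, by rw [map_mul, hg'red, hhinv1, mul_one]⟩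
    rw [h53_inL_iff]
    intro P
    have h1 := h53_inL_iff.1 hg'L P
    have h2 : h53_OrdGE P (hinv : F) (-P.ord (h : F)) := Or.inr (hordhinv P).ge
    have h3 := h1.mul h2
    have e : ((g' * hinv : R.O) : F) = (g' : F) * (hinv : F) := rfl
    rw [e]
    refine h3.mono ?_
    rw [Finsupp.sub_apply, Finsupp.sub_apply, hDv]
    omega
  -- ### Step 2: the starting point
  obtain ⟨g₀, hg₀L, hg₀red⟩ := htgD t htn3 1 (honeL t)
  have hg₀1 : R.red g₀ = 1 := by rw [hg₀red, map_one]
  have hg₀F : (g₀ : F) ≠ 0 := R.coe_ne_zero_of_red_ne_zero (by rw [hg₀1]; exact one_ne_zero)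
  obtain ⟨g₀inv, hg₀inv⟩ := (R.isUnit_of_red_eq_one hg₀1).exists_right_inv
  have hg₀invF' : (g₀ : F) * (g₀inv : F) = 1 := by
    have := congrArg Subtype.val hg₀inv
    push_cast at this
    exact this
  have hg₀invF : (g₀inv : F) ≠ 0 := right_ne_zero_of_mul_eq_one hg₀invF'
  have hordg₀inv : ∀ v : Place K F, v.ord (g₀inv : F) = -v.ord (g₀ : F) := by
    intro v
    have := v.ord_mul hg₀F hg₀invF
    rw [hg₀invF', Place.ord_one] at this
    omega
  have hg₀inv1 : R.red g₀inv = 1 := by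
    have := congrArg R.red hg₀inv
    rwa [map_mul, hg₀1, one_mul, map_one] at this
  have hg₀ord : ∀ v : Place K F, -(t * D0 v) + D v ≤ v.ord (g₀ : F) := by
    intro v
    have := (hg₀L.resolve_left hg₀F) v
    rw [Finsupp.sub_apply, hsmul] at this
    omega
  obtain ⟨u'inv, hu'inv⟩ := (R.isUnit_of_red_eq_one hu'1).exists_right_inv
  have hu'F : (u' : F) ≠ 0 := R.coe_ne_zero_of_red_ne_zero (by rw [hu'1]; exact one_ne_zero)
  have hu'invF' : (u' : F) * (u'inv : F) = 1 := by
    have := congrArg Subtype.val hu'inv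
    push_cast at this
    exact this
  have hu'invF : (u'inv : F) ≠ 0 := right_ne_zero_of_mul_eq_one hu'invF'
  have hordu'inv : ∀ v : Place K F, v.ord (u'inv : F) = -v.ord (u' : F) := by
    intro v
    have := v.ord_mul hu'F hu'invF
    rw [hu'invF', Place.ord_one] at this
    omega
  have hu'inv1 : R.red u'inv = 1 := by
    have := congrArg R.red hu'inv
    rwa [map_mul, hu'1, one_mul, map_one] at this
  -- ### Step 3: the two covering sets
  obtain ⟨Ta, hTa⟩ : ∃ Ta : Set (Place K F),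
      Ta = {v | ∃ c : K, c ∈ R.A ∧ 0 < v.ord ((x : F) - algebraMap K F c)} := ⟨_, rfl⟩
  have hTa_mem : ∀ v : Place K F,
      v ∈ Ta ↔ ∃ c : K, c ∈ R.A ∧ 0 < v.ord ((x : F) - algebraMap K F c) := by
    intro v; rw [hTa]; rfl
  -- on `T_a` the function `x` is regular
  have hTa_reg : ∀ v ∈ Ta, 0 ≤ v.ord (x : F) := by
    intro v hv
    obtain ⟨c, -, hcv⟩ := (hTa_mem v).1 hv
    have h1 : h53_OrdGE v (x : F) 0 := by
      have := (h50_ordGE_one_of_pos v hcv).mono (show (0 : ℤ) ≤ 1 by norm_num)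
      have h2 := this.add (h53_OrdGE.const (P := v) c)
      rwa [sub_add_cancel] at h2
    exact (h50_ordGE_zero_iff v _).1 h1
  have hTa_D0 : ∀ v ∈ Ta, D0 v = 0 := by
    intro v hv
    rw [hD0]
    exact max_eq_left (by have := hTa_reg v hv; omega)
  -- off `T_a`: `x` has order `≤ 0` and `D` vanishes
  have hTb : ∀ v : Place K F, v ∉ Ta → v.ord (x : F) ≤ 0 ∧ D v = 0 := by
    intro v hv
    by_cases hpole : v.ord (x : F) < 0
    · refine ⟨hpole.le, hDsupp v ⟨0, R.A.zero_mem, ?_⟩⟩
      rw [map_zero, sub_zero, hordxi]; omega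
    · obtain ⟨c, hcv⟩ := hval v (by omega)
      have hcA : c ∉ R.A := fun hA => hv ((hTa_mem v).2 ⟨c, hA, hcv⟩)
      have hc0 : c ≠ 0 := by
        rintro rfl
        exact hcA R.A.zero_mem
      have hcF : algebraMap K F c ≠ 0 := by simpa using hc0
      have hx0v : v.ord (x : F) = 0 := by
        have h1 := h50_ord_const_add v hc0 (h50_ordGE_one_of_pos v hcv)
        rwa [add_sub_cancel] at h1
      refine ⟨hx0v.le, hDsupp v ⟨c⁻¹, ?_, ?_⟩⟩
      · rcases R.A.mem_or_inv_mem c with h | h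
        · exact absurd h hcA
        · exact h
      · have hne : (x : F) - algebraMap K F c ≠ 0 := h50_ne_zero_of_ord_pos v hcv
        have e : (xi : F) - algebraMap K F c⁻¹
            = algebraMap K F (-c⁻¹) * (((x : F) - algebraMap K F c) * (xi : F)) := by
          rw [map_neg, map_inv₀, sub_mul, hxF]
          field_simp
          ring
        have hne' : algebraMap K F (-c⁻¹) ≠ 0 := by
          rw [map_neg, map_inv₀]; exact neg_ne_zero.2 (inv_ne_zero hcF)
        rw [e, v.ord_mul hne' (mul_ne_zero hne hxi0), h35_ord_algebraMap, v.ord_mul hne hxi0,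
          hordxi, hx0v]
        omega
  -- the local generator on `T_a`
  have hg₀Ta : ∀ P ∈ Ta, P.ord (g₀ : F) = D P := by
    intro P hP
    obtain ⟨c, hc, hcv⟩ := (hTa_mem P).1 hP
    obtain ⟨f, hf⟩ : ∃ f : R.O, f = g₀ ^ m * u'inv := ⟨_, rfl⟩
    have hf1 : R.red f = 1 := by rw [hf, map_mul, map_pow, hg₀1, hu'inv1, one_pow, one_mul]
    have hford : ∀ w : Place K F, w.ord (f : F) = m * (w.ord (g₀ : F) - D w) := by
      intro w
      rw [hf]
      push_cast
      rw [w.ord_mul (pow_ne_zero m hg₀F) hu'invF, ← zpow_natCast, w.ord_zpow, hordu'inv, hu' w]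
      ring
    have hfreg : ∀ w : Place K F, 0 ≤ w.ord (x : F) → 0 ≤ w.ord (f : F) := by
      intro w hw
      have h1 := hg₀ord w
      have h2 : D0 w = 0 := by rw [hD0]; exact max_eq_left (by omega)
      rw [h2] at h1
      rw [hford]
      have h3 : 0 ≤ w.ord (g₀ : F) - D w := by linarith
      positivity
    have h0 := R.ord_eq_zero_of_red_eq_one (x : F) hEVx f hf1 hfreg P c hc hcv
    rw [hford] at h0
    rcases mul_eq_zero.1 h0 with h | h
    · exact absurd h hmZ
    · omega
  let T : Bool → Set (Place K F) := fun b => if b then Ta else Taᶜ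
  have hgen : ∀ b : Bool, ∃ w : R.O, R.red w = 1 ∧
      ∀ P : Place K F, P ∈ T b → P.ord (w : F) = D P := by
    intro b
    cases b
    · refine ⟨1, map_one _, fun P hP => ?_⟩
      have hP' : P ∉ Ta := hP
      push_cast
      rw [Place.ord_one, (hTb P hP').2]
    · exact ⟨g₀, hg₀1, fun P hP => hg₀Ta P hP⟩
  -- ### Step 4: the lifting property
  have hlift : ∀ y : R.O, R.red y ≠ 0 →
      (∀ b : Bool, ∃ y' : R.O, R.red y' = R.red y ∧ h64_InS (T b) (t • D0 - D) (y' : F)) →
      ∃ c : R.O, h53_InL (t • D0 - D) (c : F) ∧ R.red c = R.red y := by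
    intro y hy hloc
    -- part a: the chart of `x`
    obtain ⟨ya, hyared, hyaL⟩ := hloc true
    have hyaF : (ya : F) ≠ 0 := R.coe_ne_zero_of_red_ne_zero (by rw [hyared]; exact hy)
    obtain ⟨Y, hYred, hYreg⟩ := R.exists_chart_rep x hval (ya * g₀inv)
      (by push_cast; exact mul_ne_zero hyaF hg₀invF) (by
        intro v hv
        have hvTa : v ∈ Ta := (hTa_mem v).2 hv
        have h1 := (hyaL.resolve_left hyaF) v hvTa
        rw [Finsupp.sub_apply, hsmul, hTa_D0 v hvTa] at h1
        push_cast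
        rw [v.ord_mul hyaF hg₀invF, hordg₀inv, hg₀Ta v hvTa]
        omega)
    have hYred' : R.red Y = R.red y := by
      rw [hYred, map_mul, hyared, hg₀inv1, mul_one]
    -- part b: the chart of `x⁻¹`
    obtain ⟨yb, hybred, hybL⟩ := hloc false
    have hybF : (yb : F) ≠ 0 := R.coe_ne_zero_of_red_ne_zero (by rw [hybred]; exact hy)
    obtain ⟨Y', hY'reg, Γ, hΓ, hY'red⟩ := R.exists_chart_rep_inv x xi hxxi (yb * xi ^ t)
      (by push_cast; exact mul_ne_zero hybF (pow_ne_zero t hxi0)) (by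
        intro v hv
        have hvTa : v ∉ Ta := fun h => hv ((hTa_mem v).1 h)
        have h1 := (hybL.resolve_left hybF) v hvTa
        obtain ⟨hxle, hD0v⟩ := hTb v hvTa
        rw [Finsupp.sub_apply, hsmul, hD0v] at h1
        have h2 : D0 v = -v.ord (x : F) := by rw [hD0]; exact max_eq_right (by omega)
        push_cast
        rw [v.ord_mul hybF (pow_ne_zero t hxi0), ← zpow_natCast, v.ord_zpow, hordxi]
        rw [h2] at h1
        linarith)
    -- `x⁻ʳ Y` in the chart ring of `x⁻¹`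
    obtain ⟨r, htr, hrreg⟩ := R.exists_pow_mul_regular x xi hxxi Y hYreg t
    -- peel
    have hs : R.red xi ∈ R.chartRed (xi : F) := R.mem_chartRed.2 ⟨xi, fun v hv => hv, rfl⟩
    have hb : R.red y * R.red xi ^ t ∈ R.chartRed (xi : F) := by
      refine h50_peel (R.chartRed (xi : F)) hs hΓ ?_ (r - t) ?_
      · refine R.mem_chartRed.2 ⟨Y', hY'reg, ?_⟩
        rw [hY'red, map_mul, map_pow, hybred]
      · refine R.mem_chartRed.2 ⟨xi ^ r * Y, hrreg, ?_⟩
        rw [map_mul, map_pow, hYred']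
        have e : r = (r - t) + t := by omega
        conv_lhs => rw [e, pow_add]
        ring
    obtain ⟨W, hWreg, hWred⟩ := R.mem_chartRed.1 hb
    -- strictness, then trivial gluing
    obtain ⟨f, hfL, hfred⟩ := hstrict t htn2 Y W hYreg hWreg (by
      rw [hWred, hYred']
      have e : R.red x ^ t * (R.red y * R.red xi ^ t) = R.red y * (R.red x * R.red xi) ^ t := by
        rw [mul_pow]; ring
      rw [e, hredx, one_pow, mul_one])
    obtain ⟨c, hcL, hcred⟩ := htgD t htn3 f hfL
    exact ⟨c, hcL, by rw [hcred, hfred, hYred']⟩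
  -- ### Step 5: the abstract CORE
  have hE0 : (0 : Divisor K F) ≤ t • D0 := by
    intro P
    rw [hsmul]
    have := hD0nn P
    simp only [Finsupp.coe_zero, Pi.zero_apply]
    positivity
  obtain ⟨g, -, hg0, hgD⟩ := R.core hrank T m hm D (t • D0) hE0 u' hu'1 hu' (hON _) (hON _)
    (hON _) hgen hlift g₀ hg₀L hg₀1
  refine ⟨g * (h : F), mul_ne_zero hg0 hhF, fun v => ?_⟩
  rw [v.ord_mul hg0 hhF, ← hgD v, hDv]
  ring

end Fermat.Agent.S34
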