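import Fermat.Agent.S34.h50_Core2

/-!
# S34 E-short: auxiliary lemmas for the instantiation of the abstract CORE

* `h50_ord_const_add` : a nonzero constant plus an element of positive order has order `0`.
* `h50_Lat.ord_eq_zero_of_red_eq_one` : (EV) ⟹ an element of a chart ring with reduction `1`
  has no zero at a place where the chart function takes an integral value.
* `h50_kill_poles` : clearing finitely many poles with multipliers.
* `h50_peel` : `s ^ M * b ∈ N`, `(1 - s * Γ) * b ∈ N` ⟹ `b ∈ N`.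
-/

set_option autoImplicit false

namespace Fermat.Agent.S34

open AlgebraicCurve Fermat.Agent.S24 Fermat.Agent.S18

variable {K F B : Type*} [Field K] [Field F] [Algebra K F] [CommRing B]

/-- Regularity in terms of `ord` (recall `ord 0 = 0`). -/
theorem h50_ordGE_zero_iff (v : Place K F) (f : F) : h53_OrdGE v f 0 ↔ 0 ≤ v.ord f := by
  constructor
  · rintro (rfl | h)
    · simp
    · exact h
  · exact fun h => Or.inr h

theorem h50_ordGE_one_of_pos (v : Place K F) {f : F} (h : 0 < v.ord f) : h53_OrdGE v f 1 :=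
  Or.inr (by omega)

theorem h50_ne_zero_of_ord_pos (v : Place K F) {f : F} (h : 0 < v.ord f) : f ≠ 0 := by
  rintro rfl
  simp at h

/-- A nonzero constant plus an element of positive order has order `0`. -/
theorem h50_ord_const_add (v : Place K F) {c : K} (hc : c ≠ 0) {δ : F} (hδ : h53_OrdGE v δ 1) :
    v.ord (algebraMap K F c + δ) = 0 := by
  have hcF : algebraMap K F c ≠ 0 := by simpa using hc
  have hc0 : v.ord (algebraMap K F c) = 0 := h35_ord_algebraMap v c
  have hne : algebraMap K F c + δ ≠ 0 := by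
    intro h0
    have hδeq : δ = -algebraMap K F c := by linear_combination h0
    rcases hδ with h | h
    · rw [h, add_zero] at h0; exact hcF h0
    · rw [hδeq, h35_ord_neg, hc0] at h; omega
  have h1 : h53_OrdGE v (algebraMap K F c + δ) 0 :=
    (h53_OrdGE.const c).add (hδ.mono (by norm_num))
  have h1' := (h53_OrdGE.of_ne hne).1 h1
  by_contra hne0
  have hpos : h53_OrdGE v (algebraMap K F c + δ) 1 := Or.inr (by omega)
  have h2 := hpos.sub hδ
  rw [add_sub_cancel_right] at h2
  have h3 := (h53_OrdGE.of_ne hcF).1 h2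
  omega

/-- **(EV) ⟹ no zeros.**  An element `f` of the chart ring of `y` with `red f = 1` has order `0`
at every place where `y` takes a value in `A`. -/
theorem h50_Lat.ord_eq_zero_of_red_eq_one (R : h50_Lat K F B) (y : F)
    (hEV : ∀ f : R.O, (∀ v : Place K F, 0 ≤ v.ord y → 0 ≤ v.ord (f : F)) →
        ∀ (v : Place K F) (c : K), c ∈ R.A → 0 < v.ord (y - algebraMap K F c) →
        ∃ d : K, d ∈ R.A ∧ h53_OrdGE v ((f : F) - algebraMap K F d) 1)
    (f : R.O) (hf1 : R.red f = 1) (hfreg : ∀ v : Place K F, 0 ≤ v.ord y → 0 ≤ v.ord (f : F))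
    (v : Place K F) (c : K) (hc : c ∈ R.A) (hv : 0 < v.ord (y - algebraMap K F c)) :
    v.ord (f : F) = 0 := by
  have h0 : R.red (f - 1) = 0 := by rw [map_sub, hf1, map_one, sub_self]
  obtain ⟨a, ha, z, hz, hfz⟩ := (R.red_eq_zero (f - 1)).1 h0
  have hfz' : (f : F) = 1 + algebraMap K F a * z := by
    push_cast at hfz
    linear_combination hfz
  by_cases ha0 : a = 0
  · rw [hfz', ha0]; simp
  have haF : algebraMap K F a ≠ 0 := by simpa using ha0
  -- `z` is regular where `y` is
  have hzreg : ∀ w : Place K F, 0 ≤ w.ord y → 0 ≤ w.ord z := by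
    intro w hw
    have h1 := (h50_ordGE_zero_iff w _).2 (hfreg w hw)
    have h2 : h53_OrdGE w ((f : F) - 1) 0 := h1.sub h53_OrdGE.one
    have h3 : z = algebraMap K F a⁻¹ * ((f : F) - 1) := by
      rw [hfz', map_inv₀]; field_simp; ring
    rw [h3]
    have h4 := (h53_OrdGE.const (P := w) a⁻¹).mul h2
    rw [zero_add] at h4
    exact (h50_ordGE_zero_iff w _).1 h4
  obtain ⟨d, hd, hzd⟩ := hEV ⟨z, hz⟩ hzreg v c hc hv
  have hunit : (1 + a * d) ≠ 0 := by
    intro h
    have h1 : a * d ∈ R.A.nonunits := h64_nonunits_mul_mem R.A ha hd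
    have h2 : (1 : K) = -(a * d) := by linear_combination h
    have h3 : (1 : K) ∈ R.A.nonunits := by rw [h2]; exact h64_nonunits_neg R.A h1
    exact h64_one_not_nonunits R.A h3
  have hsplit : (f : F) = algebraMap K F (1 + a * d)
      + algebraMap K F a * (z - algebraMap K F d) := by
    rw [hfz', map_add, map_mul, map_one]; ring
  rw [hsplit]
  refine h50_ord_const_add v hunit ?_
  have h5 := (h53_OrdGE.const (P := v) a).mul hzd
  rwa [zero_add] at h5

/-- **Clearing poles.**  If every pole of `Y₀` inside the region `C` is a zero of the multiplier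
attached to it, and all multipliers are regular on `C`, then `Y₀` times a product of powers of
multipliers is regular on `C`. -/
theorem h50_kill_poles [HasPrincipalDivisors K F] (C : Set (Place K F)) (Y₀ : F) (hY₀ : Y₀ ≠ 0)
    (μ : Place K F → F) (hμC : ∀ v w : Place K F, w ∈ C → h53_OrdGE w (μ v) 0)
    (hμ : ∀ v : Place K F, v ∈ C → v.ord Y₀ < 0 → 0 < v.ord (μ v)) :
    ∃ (S : Finset (Place K F)) (N : ℕ), ∀ w : Place K F, w ∈ C →
      h53_OrdGE w (Y₀ * ∏ v ∈ S, μ v ^ N) 0 := by
  classical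
  obtain ⟨DY, hDY, -⟩ := HasPrincipalDivisors.exists_divisor (K := K) Y₀ hY₀
  refine ⟨DY.support, ∑ v ∈ DY.support, (DY v).natAbs, fun w hw => ?_⟩
  set N := ∑ v ∈ DY.support, (DY v).natAbs with hN
  have hprodC : ∀ S' : Finset (Place K F), h53_OrdGE w (∏ v ∈ S', μ v ^ N) 0 := by
    intro S'
    induction S' using Finset.induction_on with
    | empty => simpa using (h53_OrdGE.one : h53_OrdGE w (1 : F) 0)
    | insert a s ha ih =>
      rw [Finset.prod_insert ha]
      have h1 := ((hμC a w hw).pow N).mul ih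
      simpa using h1
  by_cases hneg : w.ord Y₀ < 0
  · have hwS : w ∈ DY.support := by
      rw [Finsupp.mem_support_iff, hDY w]; omega
    have hμw := hμ w hw hneg
    have hμw0 : μ w ≠ 0 := h50_ne_zero_of_ord_pos w hμw
    rw [← Finset.mul_prod_erase _ _ hwS, ← mul_assoc]
    have h1 : h53_OrdGE w (Y₀ * μ w ^ N) 0 := by
      refine Or.inr ?_
      rw [w.ord_mul hY₀ (pow_ne_zero N hμw0), ← zpow_natCast, w.ord_zpow]
      have hle : (DY w).natAbs ≤ N :=
        Finset.single_le_sum (f := fun v => (DY v).natAbs) (fun _ _ => Nat.zero_le _) hwS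
      have h2 : -(w.ord Y₀) ≤ ((DY w).natAbs : ℤ) := by rw [hDY w]; omega
      have h3 : ((DY w).natAbs : ℤ) ≤ (N : ℤ) := by exact_mod_cast hle
      nlinarith
    have h2 := h1.mul (hprodC (DY.support.erase w))
    simpa using h2
  · have h1 : h53_OrdGE w Y₀ 0 := Or.inr (by omega)
    have h2 := h1.mul (hprodC DY.support)
    simpa using h2

/-- **Peeling.** -/
theorem h50_peel (N : Subring B) {s Γ b : B} (hs : s ∈ N) (hΓ : Γ ∈ N)
    (hP : (1 - s * Γ) * b ∈ N) (M : ℕ) (hM : s ^ M * b ∈ N) : b ∈ N := by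
  induction M with
  | zero => simpa using hM
  | succ M ih =>
    apply ih
    have e : s ^ M * b = s ^ M * ((1 - s * Γ) * b) + Γ * (s ^ (M + 1) * b) := by ring
    rw [e]
    exact N.add_mem (N.mul_mem (N.pow_mem hs M) hP) (N.mul_mem hΓ hM)

/-- Products of powers of elements of the form `1 - s * γ`, `γ ∈ N`, are of this form. -/
theorem h50_one_sub_prod (N : Subring B) {s : B} (hs : s ∈ N) {ι : Type*} (S : Finset ι)
    (p : ι → B) (hp : ∀ i ∈ S, ∃ γ ∈ N, p i = 1 - s * γ) (n : ℕ) :
    ∃ Γ ∈ N, ∏ i ∈ S, p i ^ n = 1 - s * Γ := by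
  classical
  have hmul : ∀ a b : B, (∃ γ ∈ N, a = 1 - s * γ) → (∃ γ ∈ N, b = 1 - s * γ) →
      ∃ γ ∈ N, a * b = 1 - s * γ := by
    rintro a b ⟨γ, hγ, rfl⟩ ⟨γ', hγ', rfl⟩
    exact ⟨γ + γ' - s * γ * γ', N.sub_mem (N.add_mem hγ hγ') (N.mul_mem (N.mul_mem hs hγ) hγ'),
      by ring⟩
  have hpow : ∀ i ∈ S, ∃ γ ∈ N, p i ^ n = 1 - s * γ := by
    intro i hi
    induction n with
    | zero => exact ⟨0, N.zero_mem, by simp⟩
    | succ n ih =>
      rw [pow_succ]
      exact hmul _ _ ih (hp i hi)
  clear hp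
  induction S using Finset.induction_on with
  | empty => exact ⟨0, N.zero_mem, by simp⟩
  | insert a S ha ih =>
    rw [Finset.prod_insert ha]
    exact hmul _ _ (hpow a (Finset.mem_insert_self a S))
      (ih fun i hi => hpow i (Finset.mem_insert_of_mem hi))

end Fermat.Agent.S34
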