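import Fermat.Agent.S34.h50_EShortAux

/-!
# S34 E-short: chart representatives

For a balanced chart function `x` (`x, x⁻¹ ∈ O`) the places split into
`T_a = {v | x(v) ∈ A}` and its complement (poles of `x` and values outside `A`).

* `h50_Lat.exists_chart_rep` : an element of `O` which is regular on `T_a` has the same reduction
  as an element of the chart ring of `x` (multipliers `1 - x / c`, `c ∉ A`, of reduction `1`).
* `h50_Lat.exists_chart_rep_inv` : an element `Y₁` of `O` which is regular off `T_a` satisfies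
  `(1 - s Γ) · red Y₁ ∈ red (chart ring of x⁻¹)`, `s = red x⁻¹`, `Γ ∈ red (chart ring of x⁻¹)`
  (multipliers `1 - c / x`, `c ∈ A`).
* `h50_Lat.exists_pow_mul_regular` : `x⁻ʳ Y` lies in the chart ring of `x⁻¹` for `r` large.
-/

set_option autoImplicit false

namespace Fermat.Agent.S34

open AlgebraicCurve Fermat.Agent.S24 Fermat.Agent.S18

variable {K F B : Type*} [Field K] [Field F] [Algebra K F] [CommRing B]

namespace h50_Lat

variable (R : h50_Lat K F B)

/-- Integral constants as elements of `O` (zero outside `A`). -/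
noncomputable def cst (c : K) : R.O :=
  letI := Classical.propDecidable
  if hc : c ∈ R.A then ⟨algebraMap K F c, R.const_mem hc⟩ else 0

theorem cst_coe {c : K} (hc : c ∈ R.A) : (R.cst c : F) = algebraMap K F c := by
  unfold cst
  rw [dif_pos hc]

theorem red_cst_of_nonunit {c : K} (hc : c ∈ R.A.nonunits) : R.red (R.cst c) = 0 := by
  have h := R.small_const (F := F) hc
  have e : R.cst c = ⟨algebraMap K F c, h.1⟩ := Subtype.ext (R.cst_coe (R.A.nonunits_subset hc))
  rw [e]
  exact h.2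

theorem cst_regular (c : K) (v : Place K F) : h53_OrdGE v (R.cst c : F) 0 := by
  by_cases hc : c ∈ R.A
  · rw [R.cst_coe hc]; exact h53_OrdGE.const c
  · unfold cst
    rw [dif_neg hc]
    exact Or.inl rfl

/-- The reduction of the chart ring of `y`: reductions of the integral functions which are
regular wherever `y` is. -/
def chartRed (y : F) : Subring B :=
  ((R.tubeRing {v : Place K F | 0 ≤ v.ord y}).comap R.O.subtype).map R.red

theorem mem_chartRed {y : F} {b : B} :
    b ∈ R.chartRed y ↔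
      ∃ f : R.O, (∀ v : Place K F, 0 ≤ v.ord y → 0 ≤ v.ord (f : F)) ∧ R.red f = b := by
  unfold chartRed
  rw [Subring.mem_map]
  constructor
  · rintro ⟨f, hf, rfl⟩
    rw [Subring.mem_comap, R.mem_tubeRing] at hf
    exact ⟨f, fun v hv => (h50_ordGE_zero_iff v _).1 (h53_OrdGE.mem_iff.2 (hf.2 v hv)), rfl⟩
  · rintro ⟨f, hf, rfl⟩
    refine ⟨f, ?_, rfl⟩
    rw [Subring.mem_comap, R.mem_tubeRing]
    exact ⟨f.2, fun v hv => h53_OrdGE.mem_iff.1 ((h50_ordGE_zero_iff v _).2 (hf v hv))⟩

/-- **Chart representative** on the chart of `x`. -/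
theorem exists_chart_rep [HasPrincipalDivisors K F] (x : R.O)
    (hval : ∀ v : Place K F, 0 ≤ v.ord (x : F) → ∃ c : K, 0 < v.ord ((x : F) - algebraMap K F c))
    (Y₀ : R.O) (hY₀ : (Y₀ : F) ≠ 0)
    (hreg : ∀ v : Place K F, (∃ c : K, c ∈ R.A ∧ 0 < v.ord ((x : F) - algebraMap K F c)) →
      0 ≤ v.ord (Y₀ : F)) :
    ∃ Y : R.O, R.red Y = R.red Y₀ ∧ ∀ v : Place K F, 0 ≤ v.ord (x : F) → 0 ≤ v.ord (Y : F) := by
  classical
  -- the multipliers
  let P : Place K F → Prop := fun v =>
    ∃ c : K, c ∉ R.A ∧ 0 < v.ord ((x : F) - algebraMap K F c)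
  let μ : Place K F → R.O := fun v =>
    if h : P v then 1 - R.cst (Classical.choose h)⁻¹ * x else 1
  have hinvnu : ∀ c : K, c ∉ R.A → c⁻¹ ∈ R.A.nonunits := by
    intro c hc
    rw [ValuationSubring.mem_nonunits_iff_or]
    right
    rwa [inv_inv]
  have hμred : ∀ v, R.red (μ v) = 1 := by
    intro v
    by_cases h : P v
    · have hc := (Classical.choose_spec h).1
      simp only [μ, dif_pos h]
      rw [map_sub, map_mul, map_one, R.red_cst_of_nonunit (hinvnu _ hc), zero_mul, sub_zero]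
    · simp only [μ, dif_neg h]
      exact map_one _
  have hμC : ∀ v w : Place K F, w ∈ {w : Place K F | 0 ≤ w.ord (x : F)} →
      h53_OrdGE w ((μ v : R.O) : F) 0 := by
    intro v w hw
    have hxw : h53_OrdGE w (x : F) 0 := (h50_ordGE_zero_iff w _).2 hw
    by_cases h : P v
    · simp only [μ, dif_pos h]
      push_cast
      have h1 := (R.cst_regular (Classical.choose h)⁻¹ w).mul hxw
      rw [zero_add] at h1
      exact h53_OrdGE.one.sub h1
    · simp only [μ, dif_neg h]
      push_cast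
      exact h53_OrdGE.one
  have hμ : ∀ v : Place K F, v ∈ {w : Place K F | 0 ≤ w.ord (x : F)} → v.ord (Y₀ : F) < 0 →
      0 < v.ord ((μ v : R.O) : F) := by
    intro v hv hneg
    obtain ⟨c₀, hc₀⟩ := hval v hv
    have hc₀A : c₀ ∉ R.A := by
      intro hA
      have := hreg v ⟨c₀, hA, hc₀⟩
      omega
    have h : P v := ⟨c₀, hc₀A, hc₀⟩
    obtain ⟨hcA, hcv⟩ := Classical.choose_spec h
    set c := Classical.choose h with hcdef
    have hc0 : c ≠ 0 := by
      rintro h0
      exact hcA (h0 ▸ R.A.zero_mem)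
    have hcF : algebraMap K F c ≠ 0 := by simpa using hc0
    simp only [μ, dif_pos h]
    push_cast
    rw [R.cst_coe (R.A.nonunits_subset (hinvnu c hcA))]
    have e : (1 : F) - algebraMap K F c⁻¹ * (x : F)
        = algebraMap K F (-c⁻¹) * ((x : F) - algebraMap K F c) := by
      rw [map_neg, map_inv₀]; field_simp; ring
    have hne : (x : F) - algebraMap K F c ≠ 0 := h50_ne_zero_of_ord_pos v hcv
    have hne' : algebraMap K F (-c⁻¹) ≠ 0 := by
      rw [map_neg, map_inv₀]; exact neg_ne_zero.2 (inv_ne_zero hcF)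
    rw [e, v.ord_mul hne' hne, h35_ord_algebraMap, zero_add]
    exact hcv
  obtain ⟨S, N, hSN⟩ := h50_kill_poles {w : Place K F | 0 ≤ w.ord (x : F)} (Y₀ : F) hY₀
    (fun v => ((μ v : R.O) : F)) hμC hμ
  refine ⟨Y₀ * ∏ v ∈ S, μ v ^ N, ?_, fun v hv => ?_⟩
  · rw [map_mul, map_prod]
    have : ∀ v ∈ S, R.red (μ v ^ N) = 1 := fun v _ => by rw [map_pow, hμred, one_pow]
    rw [Finset.prod_congr rfl this, Finset.prod_const_one, mul_one]
  · have h1 := hSN v hv
    have e : ((Y₀ * ∏ v ∈ S, μ v ^ N : R.O) : F) = (Y₀ : F) * ∏ v ∈ S, ((μ v : R.O) : F) ^ N := by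
      push_cast; rfl
    rw [e]
    exact (h50_ordGE_zero_iff v _).1 h1

/-- **Chart representative** on the chart of `x⁻¹`, up to a factor `1 - s Γ`. -/
theorem exists_chart_rep_inv [HasPrincipalDivisors K F] (x xi : R.O) (hxxi : x * xi = 1)
    (Y₁ : R.O) (hY₁ : (Y₁ : F) ≠ 0)
    (hreg : ∀ v : Place K F, (¬ ∃ c : K, c ∈ R.A ∧ 0 < v.ord ((x : F) - algebraMap K F c)) →
      0 ≤ v.ord (Y₁ : F)) :
    ∃ Y' : R.O, (∀ v : Place K F, 0 ≤ v.ord (xi : F) → 0 ≤ v.ord (Y' : F)) ∧
      ∃ Γ : B, Γ ∈ R.chartRed (xi : F) ∧ R.red Y' = (1 - R.red xi * Γ) * R.red Y₁ := by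
  classical
  have hxF : (x : F) * (xi : F) = 1 := by
    have := congrArg Subtype.val hxxi
    push_cast at this
    exact this
  have hx0 : (x : F) ≠ 0 := left_ne_zero_of_mul_eq_one hxF
  have hxi0 : (xi : F) ≠ 0 := right_ne_zero_of_mul_eq_one hxF
  have hordxi : ∀ v : Place K F, v.ord (xi : F) = -v.ord (x : F) := by
    intro v
    have := v.ord_mul hx0 hxi0
    rw [hxF, Place.ord_one] at this
    omega
  let P : Place K F → Prop := fun v =>
    ∃ c : K, c ∈ R.A ∧ c ≠ 0 ∧ 0 < v.ord ((x : F) - algebraMap K F c)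
  let ν : Place K F → R.O := fun v =>
    if h : P v then 1 - R.cst (Classical.choose h) * xi else 1
  have hνC : ∀ v w : Place K F, w ∈ {w : Place K F | 0 ≤ w.ord (xi : F)} →
      h53_OrdGE w ((ν v : R.O) : F) 0 := by
    intro v w hw
    have hxw : h53_OrdGE w (xi : F) 0 := (h50_ordGE_zero_iff w _).2 hw
    by_cases h : P v
    · simp only [ν, dif_pos h]
      push_cast
      have h1 := (R.cst_regular (Classical.choose h) w).mul hxw
      rw [zero_add] at h1
      exact h53_OrdGE.one.sub h1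
    · simp only [ν, dif_neg h]
      push_cast
      exact h53_OrdGE.one
  have hν : ∀ v : Place K F, v ∈ {w : Place K F | 0 ≤ w.ord (xi : F)} → v.ord (Y₁ : F) < 0 →
      0 < v.ord ((ν v : R.O) : F) := by
    intro v hv hneg
    have hv' : v.ord (x : F) ≤ 0 := by
      have h1 : 0 ≤ v.ord (xi : F) := hv
      rw [hordxi] at h1; omega
    have hTa : ∃ c : K, c ∈ R.A ∧ 0 < v.ord ((x : F) - algebraMap K F c) := by
      by_contra hcon
      have := hreg v hcon
      omega
    obtain ⟨c₀, hc₀A, hc₀⟩ := hTa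
    have hc₀0 : c₀ ≠ 0 := by
      rintro rfl
      rw [map_zero, sub_zero] at hc₀
      omega
    have h : P v := ⟨c₀, hc₀A, hc₀0, hc₀⟩
    obtain ⟨hcA, hc0, hcv⟩ := Classical.choose_spec h
    set c := Classical.choose h with hcdef
    simp only [ν, dif_pos h]
    push_cast
    rw [R.cst_coe hcA]
    have e : (1 : F) - algebraMap K F c * (xi : F) = ((x : F) - algebraMap K F c) * (xi : F) := by
      rw [sub_mul, hxF]
    have hne : (x : F) - algebraMap K F c ≠ 0 := h50_ne_zero_of_ord_pos v hcv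
    -- `ord_v x = 0`
    have hx0v : v.ord (x : F) = 0 := by
      have h1 := h50_ord_const_add v hc0 (h50_ordGE_one_of_pos v hcv)
      rwa [add_sub_cancel] at h1
    rw [e, v.ord_mul hne hxi0, hordxi, hx0v]
    omega
  obtain ⟨S, N, hSN⟩ := h50_kill_poles {w : Place K F | 0 ≤ w.ord (xi : F)} (Y₁ : F) hY₁
    (fun v => ((ν v : R.O) : F)) hνC hν
  refine ⟨Y₁ * ∏ v ∈ S, ν v ^ N, fun v hv => ?_, ?_⟩
  · have h1 := hSN v hv
    have e : ((Y₁ * ∏ v ∈ S, ν v ^ N : R.O) : F) = (Y₁ : F) * ∏ v ∈ S, ((ν v : R.O) : F) ^ N := by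
      push_cast; rfl
    rw [e]
    exact (h50_ordGE_zero_iff v _).1 h1
  · -- the reduction of the product of the multipliers is `1 - s Γ`
    have hs : R.red xi ∈ R.chartRed (xi : F) := R.mem_chartRed.2 ⟨xi, fun v hv => hv, rfl⟩
    have hform : ∀ v ∈ S, ∃ γ ∈ R.chartRed (xi : F), R.red (ν v) = 1 - R.red xi * γ := by
      intro v _
      by_cases h : P v
      · refine ⟨R.red (R.cst (Classical.choose h)), R.mem_chartRed.2 ⟨R.cst (Classical.choose h),
          fun w _ => (h50_ordGE_zero_iff w _).1 (R.cst_regular _ w), rfl⟩, ?_⟩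
        simp only [ν, dif_pos h]
        rw [map_sub, map_mul, map_one, mul_comm]
      · refine ⟨0, Subring.zero_mem _, ?_⟩
        simp only [ν, dif_neg h]
        rw [map_one, mul_zero, sub_zero]
    obtain ⟨Γ, hΓ, hprod⟩ := h50_one_sub_prod (R.chartRed (xi : F)) hs S (fun v => R.red (ν v))
      hform N
    refine ⟨Γ, hΓ, ?_⟩
    rw [map_mul, map_prod]
    have : ∀ v ∈ S, R.red (ν v ^ N) = R.red (ν v) ^ N := fun v _ => map_pow _ _ _
    rw [Finset.prod_congr rfl this, hprod, mul_comm]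

/-- `x⁻ʳ Y` lies in the chart ring of `x⁻¹` for `r` large, if `Y` is in the chart ring of `x`. -/
theorem exists_pow_mul_regular [HasPrincipalDivisors K F] (x xi : R.O) (hxxi : x * xi = 1)
    (Y : R.O) (hY : ∀ v : Place K F, 0 ≤ v.ord (x : F) → 0 ≤ v.ord (Y : F)) (t : ℕ) :
    ∃ r : ℕ, t ≤ r ∧ ∀ v : Place K F, 0 ≤ v.ord (xi : F) →
      0 ≤ v.ord ((xi ^ r * Y : R.O) : F) := by
  classical
  have hxF : (x : F) * (xi : F) = 1 := by
    have := congrArg Subtype.val hxxi
    push_cast at this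
    exact this
  have hx0 : (x : F) ≠ 0 := left_ne_zero_of_mul_eq_one hxF
  have hxi0 : (xi : F) ≠ 0 := right_ne_zero_of_mul_eq_one hxF
  have hordxi : ∀ v : Place K F, v.ord (xi : F) = -v.ord (x : F) := by
    intro v
    have := v.ord_mul hx0 hxi0
    rw [hxF, Place.ord_one] at this
    omega
  by_cases hY0 : (Y : F) = 0
  · refine ⟨t, le_rfl, fun v _ => ?_⟩
    push_cast
    rw [hY0, mul_zero]
    simp
  obtain ⟨DY, hDY, -⟩ := HasPrincipalDivisors.exists_divisor (K := K) (Y : F) hY0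
  refine ⟨t + ∑ v ∈ DY.support, (DY v).natAbs, Nat.le_add_right _ _, fun v hv => ?_⟩
  set r := t + ∑ v ∈ DY.support, (DY v).natAbs with hr
  push_cast
  rw [v.ord_mul (pow_ne_zero r hxi0) hY0, ← zpow_natCast, v.ord_zpow]
  have hxi_nonneg : 0 ≤ v.ord (xi : F) := hv
  by_cases hx : v.ord (x : F) = 0
  · have h1 := hY v (by omega)
    have h2 : v.ord (xi : F) = 0 := by rw [hordxi]; omega
    rw [h2]; omega
  · have h2 : 1 ≤ v.ord (xi : F) := by
      have := hordxi v
      omega
    by_cases hvS : v ∈ DY.support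
    · have hle : (DY v).natAbs ≤ ∑ v ∈ DY.support, (DY v).natAbs :=
        Finset.single_le_sum (f := fun v => (DY v).natAbs) (fun _ _ => Nat.zero_le _) hvS
      have h3 : -(v.ord (Y : F)) ≤ ((DY v).natAbs : ℤ) := by rw [hDY v]; omega
      have h4 : ((DY v).natAbs : ℤ) ≤ (r : ℤ) := by
        have : (DY v).natAbs ≤ r := by omega
        exact_mod_cast this
      nlinarith
    · have h3 : v.ord (Y : F) = 0 := by
        rw [← hDY v]
        exact Finsupp.notMem_support_iff.1 hvS
      rw [h3]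
      positivity

end h50_Lat

end Fermat.Agent.S34
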