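import Fermat.Agent.S34.h50_EShort
import Fermat.Agent.S34.h22_LatON
import Fermat.Prelude.Def_AlgebraicCurve_Repartitions

/-!
# S34 E-short in the `h22_Lat` / `riemannRochSpace` language

* `h50_latOfH22` : a lattice datum `h22_Lat` in which elements with unit reduction are invertible
  is an `h50_Lat`.
* `h50_hasON_of_h22` : (ON) of `h22_LatON` gives orthonormal bases of all `L(D') ∩ O`.
* `h50_eshort_h22` : **trivial gluing ⟹ trivial class**, stated on the interface produced by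
  `h22_LatON` (lattice datum, (ON)) and `h51_Glue` (`h51_exists_lift_trivial`).
-/

set_option autoImplicit false

namespace Fermat.Agent.S34

open AlgebraicCurve Fermat.Agent.S24 Fermat.Agent.S18

variable {K F k Rb : Type*} [Field K] [Field F] [Algebra K F] [Field k] [CommRing Rb]
  [Algebra k Rb]

theorem h50_inL_iff_mem_rr (D' : Divisor K F) (f : F) :
    h53_InL D' f ↔ f ∈ riemannRochSpace D' := by
  rw [mem_riemannRochSpace_iff]
  constructor
  · rintro (h | h) v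
    · exact Or.inl h
    · exact Or.inr (h v)
  · intro h
    by_cases hf : f = 0
    · exact Or.inl hf
    · exact Or.inr fun v => (h v).resolve_left hf

/-- A lattice datum of `h22_LatON` in which elements with unit reduction are invertible, as an
`h50_Lat`. -/
def h50_latOfH22 [Nontrivial Rb] (D : h22_Lat K F k Rb)
    (hinv : ∀ (f : F) (hf : f ∈ D.O), IsUnit (D.red ⟨f, hf⟩) → f⁻¹ ∈ D.O) : h50_Lat K F Rb where
  A := D.A
  O := D.O
  red := D.red
  mem_A := fun c => (D.mem_iff c).symm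
  red_eq_zero := fun y => by
    have h := h22_redF_eq_zero_iff D y.2
    rw [D.redF_of_mem y.2] at h
    exact h
  exists_const := D.exists_scale
  isUnit_of_red := fun y hy => by
    have hy0 : (y : F) ≠ 0 := by
      intro h0
      have : y = 0 := Subtype.ext h0
      rw [this, map_zero] at hy
      exact not_isUnit_zero hy
    have hyi : (y : F)⁻¹ ∈ D.O := hinv (y : F) y.2 hy
    refine IsUnit.of_mul_eq_one (⟨(y : F)⁻¹, hyi⟩ : D.O) ?_
    apply Subtype.ext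
    show (y : F) * (y : F)⁻¹ = 1
    exact mul_inv_cancel₀ hy0

/-- (ON) gives orthonormal bases of all Riemann–Roch lattices. -/
theorem h50_hasON_of_h22 [Nontrivial Rb] (D : h22_Lat K F k Rb) (hON : h22_ON D)
    (hinv : ∀ (f : F) (hf : f ∈ D.O), IsUnit (D.red ⟨f, hf⟩) → f⁻¹ ∈ D.O)
    (D' : Divisor K F) [Module.Finite K (riemannRochSpace D')] :
    (h50_latOfH22 D hinv).HasON D' := by
  obtain ⟨e, heV, heO, hind⟩ := hON (riemannRochSpace D') inferInstance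
  refine ⟨_, e, fun i => ⟨heO i, (h50_inL_iff_mem_rr D' _).2 (heV i)⟩, ?_, ?_⟩
  · intro y hyO hyL
    obtain ⟨c, hc, hcA⟩ := h22_on_span D (riemannRochSpace D') e heV heO hind y
      ((h50_inL_iff_mem_rr D' y).1 hyL)
    exact ⟨c, hcA hyO, hc⟩
  · rintro c hc ⟨hmem, h0⟩
    have h1 : D.redF (∑ i, c i • e i) = 0 := by
      rw [D.redF_of_mem hmem]
      exact h0
    exact (h22_on_redF_eq_zero_iff D e heO hind c hc).1 h1

/-- **E-short: trivial gluing implies trivial class** (interface of `h22_LatON` / `h51_Glue`). -/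
theorem h50_eshort_h22 [IsAlgClosed K] [HasPrincipalDivisors K F] [Nontrivial Rb]
    (D : h22_Lat K F k Rb) (hON : h22_ON D)
    (hinv : ∀ (f : F) (hf : f ∈ D.O), IsUnit (D.red ⟨f, hf⟩) → f⁻¹ ∈ D.O)
    (hrank : ∀ a d : K, a ≠ 0 → a ∈ D.A.nonunits → d ≠ 0 → ∃ n : ℕ, d * (a ^ n)⁻¹ ∉ D.A)
    (hfin : ∀ E' : Divisor K F, Module.Finite K (riemannRochSpace E'))
    (x : F) (hx0 : x ≠ 0) (hxO : x ∈ D.O) (hxiO : x⁻¹ ∈ D.O)
    (hval : ∀ v : Place K F, 0 ≤ v.ord x → ∃ c : K, 0 < v.ord (x - algebraMap K F c))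
    (D0 : Divisor K F) (hD0 : ∀ v : Place K F, D0 v = max 0 (-v.ord x))
    (hEV : ∀ y : F, (y = x ∨ y = x⁻¹) → ∀ f : F, f ∈ D.O →
        (∀ v : Place K F, 0 ≤ v.ord y → 0 ≤ v.ord f) →
        ∀ (v : Place K F) (c : K), c ∈ D.A → 0 < v.ord (y - algebraMap K F c) →
        ∃ d : K, d ∈ D.A ∧ (f = algebraMap K F d ∨ 0 < v.ord (f - algebraMap K F d)))
    (n2 : ℕ) (hstrict : ∀ n, n2 ≤ n → ∀ a b : F, a ∈ D.O → b ∈ D.O →
        (∀ v : Place K F, 0 ≤ v.ord x → 0 ≤ v.ord a) →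
        (∀ v : Place K F, v.ord x ≤ 0 → 0 ≤ v.ord b) →
        D.redF a = D.redF x ^ n * D.redF b →
        ∃ f : F, f ∈ riemannRochSpace (n • D0) ∧ f ∈ D.O ∧ D.redF f = D.redF a)
    {m : ℕ} (hm : IsUnit ((m : ℕ) : Rb))
    (E : Divisor K F) (u : F) (hdiv : ∀ v : Place K F, (m : ℤ) * E v = v.ord u)
    (huO : u ∈ D.O) (hured : D.red ⟨u, huO⟩ = 1)
    (n3 : ℕ) (htg : ∀ n, n3 ≤ n → ∀ s0 : F, s0 ∈ riemannRochSpace (n • D0) → s0 ∈ D.O →
        ∃ g0 : F, g0 ∈ riemannRochSpace (n • D0 - E) ∧ g0 ∈ D.O ∧ D.redF g0 = D.redF s0) :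
    ∃ g : F, g ≠ 0 ∧ ∀ v : Place K F, E v = v.ord g := by
  classical
  set R : h50_Lat K F Rb := h50_latOfH22 D hinv with hR
  have hRO : R.O = D.O := rfl
  have hRA : R.A = D.A := rfl
  have hred : ∀ f : R.O, R.red f = D.redF (f : F) := fun f => (D.redF_of_mem f.2).symm
  have hordinv : ∀ v : Place K F, v.ord x⁻¹ = -v.ord x := fun v => v.ord_inv x
  have hEV' : ∀ y : F, (y = x ∨ y = x⁻¹) → ∀ f : R.O,
      (∀ v : Place K F, 0 ≤ v.ord y → 0 ≤ v.ord (f : F)) →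
      ∀ (v : Place K F) (c : K), c ∈ R.A → 0 < v.ord (y - algebraMap K F c) →
      ∃ d : K, d ∈ R.A ∧ h53_OrdGE v ((f : F) - algebraMap K F d) 1 := by
    intro y hy f hf v c hc hv
    obtain ⟨d, hd, h⟩ := hEV y hy (f : F) f.2 hf v c hc hv
    refine ⟨d, hd, ?_⟩
    rcases h with h | h
    · exact Or.inl (sub_eq_zero.2 h)
    · exact Or.inr (by omega)
  refine R.eshort hrank (fun D' => by have := hfin D'; exact h50_hasON_of_h22 D hON hinv D')
    ⟨x, hxO⟩ ⟨x⁻¹, hxiO⟩ (Subtype.ext (mul_inv_cancel₀ hx0)) hval D0 hD0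
    (hEV' x (Or.inl rfl)) (hEV' x⁻¹ (Or.inr rfl)) n2 ?_ hm E ⟨u, huO⟩ hured
    (fun P => (hdiv P).symm) n3 ?_
  · intro n hn a b ha hb hab
    obtain ⟨f, hfL, hfO, hfred⟩ := hstrict n hn (a : F) (b : F) a.2 b.2 ha
      (fun v hv => hb v (by rw [hordinv]; omega)) (by
        have h1 := hab
        rw [hred a, hred b, hred ⟨x, hxO⟩] at h1
        exact h1)
    refine ⟨⟨f, hfO⟩, (h50_inL_iff_mem_rr _ _).2 hfL, ?_⟩
    rw [hred a, hred ⟨f, hfO⟩]
    exact hfred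
  · intro n hn s0 hs0
    obtain ⟨g0, hg0L, hg0O, hg0red⟩ := htg n hn (s0 : F) ((h50_inL_iff_mem_rr _ _).1 hs0) s0.2
    refine ⟨⟨g0, hg0O⟩, (h50_inL_iff_mem_rr _ _).2 hg0L, ?_⟩
    rw [hred s0, hred ⟨g0, hg0O⟩]
    exact hg0red

end Fermat.Agent.S34
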