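import Fermat.Agent.S34.h50_LastGen

/-!
# S34 LAST-50, part 2: (EV) from upstairs generation

If `L((n+1) E) ∩ O = L(n E) ∩ O + y (L(n E) ∩ O)` for `n ≥ N0` (`E` the polar divisor of the chart
function `y`), then every element of `O` regular off the poles of `y` takes a value in `A` at
every place where `y` takes a value in `A` (`h50_ev_of_gen`).
-/

set_option autoImplicit false

namespace Fermat.Agent.S34

open AlgebraicCurve Fermat.Agent.S24 Fermat.Agent.S18

variable {K F k Rb : Type*} [Field K] [Field F] [Algebra K F] [Field k] [CommRing Rb]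
  [Algebra k Rb]

theorem h50_mem_rr_iff (E : Divisor K F) (f : F) :
    f ∈ riemannRochSpace E ↔ ∀ v : Place K F, h53_OrdGE v f (-E v) := by
  rw [← h50_inL_iff_mem_rr, h53_inL_iff]

/-- A function regular off the support of `Ey` lies in `L(N Ey)` for `N` large. -/
theorem h50_exists_level [HasPrincipalDivisors K F] (y : F) (Ey : Divisor K F)
    (hEy0 : ∀ v : Place K F, 0 ≤ Ey v) (hyE' : ∀ v : Place K F, Ey v = 0 → 0 ≤ v.ord y)
    (f : F) (hreg : ∀ v : Place K F, 0 ≤ v.ord y → 0 ≤ v.ord f) (N0 : ℕ) :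
    ∃ r : ℕ, f ∈ riemannRochSpace ((N0 + r) • Ey) := by
  classical
  by_cases hf : f = 0
  · exact ⟨0, by rw [hf]; exact zero_mem _⟩
  obtain ⟨Df, hDf, -⟩ := HasPrincipalDivisors.exists_divisor (K := K) f hf
  obtain ⟨B, hB⟩ : ∃ B : ℕ, B = ∑ v ∈ Df.support, (Df v).natAbs := ⟨_, rfl⟩
  refine ⟨B, ?_⟩
  rw [h50_mem_rr_iff]
  intro w
  refine Or.inr ?_
  rw [Finsupp.smul_apply, nsmul_eq_mul]
  have h4 : (0 : ℤ) ≤ (N0 : ℤ) := Int.natCast_nonneg N0
  have h5 : (0 : ℤ) ≤ (B : ℤ) := Int.natCast_nonneg B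
  by_cases hw : Ey w = 0
  · rw [hw, mul_zero, neg_zero]; exact hreg w (hyE' w hw)
  · have h1 : 1 ≤ Ey w := by have := hEy0 w; omega
    by_cases hwS : w ∈ Df.support
    · have hle : (Df w).natAbs ≤ B := by
        rw [hB]
        exact Finset.single_le_sum (f := fun v => (Df v).natAbs) (fun _ _ => Nat.zero_le _) hwS
      have h2 : -(w.ord f) ≤ ((Df w).natAbs : ℤ) := by rw [hDf w]; omega
      have h3 : ((Df w).natAbs : ℤ) ≤ (B : ℤ) := by exact_mod_cast hle
      push_cast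
      nlinarith [mul_nonneg h4 (hEy0 w), mul_nonneg h5 (sub_nonneg.2 h1)]
    · have h0 : w.ord f = 0 := by
        rw [← hDf w]
        simpa using hwS
      rw [h0]
      push_cast
      nlinarith [mul_nonneg h4 (hEy0 w), mul_nonneg h5 (hEy0 w)]

/-- Values of `L((N0 + r) E) ∩ O` at `v` are values of `L(N0 E) ∩ O`. -/
theorem h50_value_reduce (D : h22_Lat K F k Rb) (y : F) (Ey : Divisor K F) (N0 : ℕ)
    (hgenup : ∀ n, N0 ≤ n → ∀ f : F, f ∈ riemannRochSpace ((n + 1) • Ey) → f ∈ D.O →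
      ∃ b c : F, b ∈ riemannRochSpace (n • Ey) ∧ b ∈ D.O ∧ c ∈ riemannRochSpace (n • Ey) ∧
        c ∈ D.O ∧ f = b + y * c)
    (v : Place K F) (hEv : Ey v = 0) (c : K) (hc : c ∈ D.A)
    (hv : h53_OrdGE v (y - algebraMap K F c) 1) (r : ℕ) :
    ∀ f : F, f ∈ riemannRochSpace ((N0 + r) • Ey) → f ∈ D.O →
      ∃ g : F, g ∈ riemannRochSpace (N0 • Ey) ∧ g ∈ D.O ∧ h53_OrdGE v (f - g) 1 := by
  induction r with
  | zero =>
    intro f hfL hfO
    exact ⟨f, hfL, hfO, by rw [sub_self]; exact h53_OrdGE.zero⟩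
  | succ r ih =>
    intro f hfL hfO
    obtain ⟨b, c', hbL, hbO, hcL, hcO, rfl⟩ := hgenup (N0 + r) (Nat.le_add_right _ _) f hfL hfO
    obtain ⟨gb, hgbL, hgbO, hgb⟩ := ih b hbL hbO
    obtain ⟨gc, hgcL, hgcO, hgc⟩ := ih c' hcL hcO
    refine ⟨gb + algebraMap K F c * gc, ?_, ?_, ?_⟩
    · exact add_mem hgbL (by rw [← Algebra.smul_def]; exact Submodule.smul_mem _ _ hgcL)
    · exact D.O.add_mem hgbO (D.O.mul_mem ((D.mem_iff c).1 hc) hgcO)
    · have hy0 : h53_OrdGE v y 0 := by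
        have := (hv.mono (show (0 : ℤ) ≤ 1 by norm_num)).add (h53_OrdGE.const (P := v) c)
        rwa [sub_add_cancel] at this
      have hgc0 : h53_OrdGE v gc 0 := by
        have := (h50_mem_rr_iff _ _).1 hgcL v
        rwa [Finsupp.smul_apply, hEv, smul_zero, neg_zero] at this
      have e : b + y * c' - (gb + algebraMap K F c * gc)
          = (b - gb) + (y * (c' - gc) + (y - algebraMap K F c) * gc) := by ring
      rw [e]
      refine hgb.add ((?_ : h53_OrdGE v (y * (c' - gc)) 1).add ?_)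
      · have := hy0.mul hgc
        rwa [zero_add] at this
      · have := hv.mul hgc0
        rwa [add_zero] at this

/-- The values of `L(N0 E) ∩ O` at a place where `y` takes a value in `A` lie in `A`. -/
theorem h50_values_mem (D : h22_Lat K F k Rb) (hON : h22_ON D)
    (hfin : ∀ E' : Divisor K F, Module.Finite K (riemannRochSpace E'))
    (y : F) (Ey : Divisor K F) (N0 : ℕ)
    (hgenup : ∀ n, N0 ≤ n → ∀ f : F, f ∈ riemannRochSpace ((n + 1) • Ey) → f ∈ D.O →
      ∃ b c : F, b ∈ riemannRochSpace (n • Ey) ∧ b ∈ D.O ∧ c ∈ riemannRochSpace (n • Ey) ∧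
        c ∈ D.O ∧ f = b + y * c)
    (hvalue : ∀ (v : Place K F) (f : F), h53_OrdGE v f 0 →
      ∃ a : K, h53_OrdGE v (f - algebraMap K F a) 1)
    (v : Place K F) (hEv : Ey v = 0) (c : K) (hc : c ∈ D.A)
    (hv : h53_OrdGE v (y - algebraMap K F c) 1)
    (g : F) (hgL : g ∈ riemannRochSpace (N0 • Ey)) (hgO : g ∈ D.O) :
    ∃ d : K, d ∈ D.A ∧ h53_OrdGE v (g - algebraMap K F d) 1 := by
  classical
  have hfinN := hfin (N0 • Ey)
  obtain ⟨e, heV, heO, hind⟩ := hON (riemannRochSpace (N0 • Ey)) inferInstance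
  have hreg : ∀ g : F, g ∈ riemannRochSpace (N0 • Ey) → h53_OrdGE v g 0 := by
    intro g hg
    have := (h50_mem_rr_iff _ _).1 hg v
    rwa [Finsupp.smul_apply, hEv, smul_zero, neg_zero] at this
  choose d hd using fun i => hvalue v (e i) (hreg _ (heV i))
  -- the value of a combination
  have hcomb : ∀ c' : Fin (Module.finrank K (riemannRochSpace (N0 • Ey))) → K,
      h53_OrdGE v ((∑ i, c' i • e i) - algebraMap K F (∑ i, c' i * d i)) 1 := by
    intro c'
    have e1 : (∑ i, c' i • e i) - algebraMap K F (∑ i, c' i * d i)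
        = ∑ i, c' i • (e i - algebraMap K F (d i)) := by
      rw [map_sum, ← Finset.sum_sub_distrib]
      refine Finset.sum_congr rfl fun i _ => ?_
      rw [smul_sub, map_mul, Algebra.smul_def (c' i) (algebraMap K F (d i))]
    rw [e1]
    exact h53_OrdGE.sum _ _ fun i _ => (hd i).smul (c' i)
  -- uniqueness of values
  have huniq : ∀ (z : F) (d1 d2 : K), h53_OrdGE v (z - algebraMap K F d1) 1 →
      h53_OrdGE v (z - algebraMap K F d2) 1 → d1 = d2 := by
    intro z d1 d2 h1 h2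
    have h3 := h2.sub h1
    have e : z - algebraMap K F d2 - (z - algebraMap K F d1) = algebraMap K F (d1 - d2) := by
      rw [map_sub]; ring
    rw [e] at h3
    rcases h3 with h3 | h3
    · have h4 : d1 - d2 = 0 := (algebraMap K F).injective (by rw [h3, map_zero])
      exact sub_eq_zero.1 h4
    · rw [h35_ord_algebraMap] at h3
      omega
  -- all values of the basis lie in `A`
  have hdA : ∀ i, d i ∈ D.A := by
    intro i₁
    obtain ⟨i₀, hi₀⟩ := h22_exists_pivot D.A d i₁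
    by_contra hcon
    have hd0A : d i₀ ∉ D.A := by
      intro h
      apply hcon
      rw [← D.A.valuation_le_one_iff] at h ⊢
      exact (hi₀ i₁).trans h
    have hd0 : d i₀ ≠ 0 := fun h => hd0A (by rw [h]; exact D.A.zero_mem)
    have hquot : ∀ i, d i * (d i₀)⁻¹ ∈ D.A := by
      intro i
      rw [← D.A.valuation_le_one_iff, map_mul, map_inv₀]
      have hv0 : D.A.valuation (d i₀) ≠ 0 := by simpa using hd0
      rw [mul_inv_le_iff₀ (zero_lt_iff.2 hv0), one_mul]
      exact hi₀ i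
    have hsqL : e i₀ * e i₀ ∈ riemannRochSpace ((N0 + N0) • Ey) := by
      rw [add_nsmul]
      exact h51_mul_mem_rr (heV i₀) (heV i₀)
    obtain ⟨g', hg'L, hg'O, hg'⟩ := h50_value_reduce D y Ey N0 hgenup v hEv c hc hv N0 _ hsqL
      (D.O.mul_mem (heO i₀) (heO i₀))
    obtain ⟨c', hc', hc'A⟩ := h22_on_span D (riemannRochSpace (N0 • Ey)) e heV heO hind g' hg'L
    have hval1 : h53_OrdGE v (e i₀ * e i₀ - algebraMap K F (∑ i, c' i * d i)) 1 := by
      have h1 := hcomb c'
      rw [← hc'] at h1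
      have := hg'.add h1
      rwa [sub_add_sub_cancel] at this
    have hval2 : h53_OrdGE v (e i₀ * e i₀ - algebraMap K F (d i₀ * d i₀)) 1 := by
      have e2 : e i₀ * e i₀ - algebraMap K F (d i₀ * d i₀)
          = (e i₀ - algebraMap K F (d i₀)) * (e i₀ + algebraMap K F (d i₀)) := by
        rw [map_mul]; ring
      rw [e2]
      have h1 : h53_OrdGE v (e i₀ + algebraMap K F (d i₀)) 0 :=
        (hreg _ (heV i₀)).add (h53_OrdGE.const _)
      have := (hd i₀).mul h1
      rwa [add_zero] at this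
    have heq := huniq _ _ _ hval2 hval1
    apply hd0A
    have e3 : d i₀ = ∑ i, c' i * (d i * (d i₀)⁻¹) := by
      have h5 : d i₀ * d i₀ = (∑ i, c' i * (d i * (d i₀)⁻¹)) * d i₀ := by
        rw [heq, Finset.sum_mul]
        refine Finset.sum_congr rfl fun i _ => ?_
        field_simp
      exact mul_right_cancel₀ hd0 h5
    rw [e3]
    exact sum_mem fun i _ => D.A.mul_mem _ _ (hc'A hg'O i) (hquot i)
  obtain ⟨c', hc', hc'A⟩ := h22_on_span D (riemannRochSpace (N0 • Ey)) e heV heO hind g hgL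
  refine ⟨∑ i, c' i * d i, sum_mem fun i _ => D.A.mul_mem _ _ (hc'A hgO i) (hdA i), ?_⟩
  have := hcomb c'
  rwa [← hc'] at this

/-- **(EV) from upstairs generation.** -/
theorem h50_ev_of_gen [HasPrincipalDivisors K F] (D : h22_Lat K F k Rb) (hON : h22_ON D)
    (hfin : ∀ E' : Divisor K F, Module.Finite K (riemannRochSpace E'))
    (y : F) (Ey : Divisor K F) (hEy0 : ∀ v : Place K F, 0 ≤ Ey v)
    (hyE : ∀ v : Place K F, 0 ≤ v.ord y → Ey v = 0)
    (hyE' : ∀ v : Place K F, Ey v = 0 → 0 ≤ v.ord y) (N0 : ℕ)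
    (hgenup : ∀ n, N0 ≤ n → ∀ f : F, f ∈ riemannRochSpace ((n + 1) • Ey) → f ∈ D.O →
      ∃ b c : F, b ∈ riemannRochSpace (n • Ey) ∧ b ∈ D.O ∧ c ∈ riemannRochSpace (n • Ey) ∧
        c ∈ D.O ∧ f = b + y * c)
    (hvalue : ∀ (v : Place K F) (f : F), h53_OrdGE v f 0 →
      ∃ a : K, h53_OrdGE v (f - algebraMap K F a) 1)
    (f : F) (hfO : f ∈ D.O) (hreg : ∀ v : Place K F, 0 ≤ v.ord y → 0 ≤ v.ord f)
    (v : Place K F) (c : K) (hc : c ∈ D.A) (hv : 0 < v.ord (y - algebraMap K F c)) :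
    ∃ d : K, d ∈ D.A ∧ (f = algebraMap K F d ∨ 0 < v.ord (f - algebraMap K F d)) := by
  have hv1 : h53_OrdGE v (y - algebraMap K F c) 1 := Or.inr (by omega)
  have hy0 : 0 ≤ v.ord y := by
    have := (hv1.mono (show (0 : ℤ) ≤ 1 by norm_num)).add (h53_OrdGE.const (P := v) c)
    rw [sub_add_cancel] at this
    exact (h50_ordGE_zero_iff v y).1 this
  have hEv := hyE v hy0
  obtain ⟨r, hr⟩ := h50_exists_level y Ey hEy0 hyE' f hreg N0
  obtain ⟨g, hgL, hgO, hg⟩ := h50_value_reduce D y Ey N0 hgenup v hEv c hc hv1 r f hr hfO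
  obtain ⟨d, hd, hgd⟩ := h50_values_mem D hON hfin y Ey N0 hgenup hvalue v hEv c hc hv1 g hgL hgO
  refine ⟨d, hd, ?_⟩
  have := hg.add hgd
  rw [sub_add_sub_cancel] at this
  rcases this with h | h
  · exact Or.inl (sub_eq_zero.1 h)
  · exact Or.inr (by omega)

end Fermat.Agent.S34
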