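import Fermat.Agent.S34.h50_EShortH22
import Fermat.Agent.S34.h51_Last

/-!
# S34 LAST-50, part 1: the lattices `L(E) ∩ O` and upstairs generation

* `h50_Lam D E` : `L(E) ∩ O` as a submodule of `F` over the valuation ring `A` of the constants.
* `h50_Lam_fg` : (ON) ⟹ `L(E) ∩ O` is finitely generated over `A`.
* `h50_gen_up` : Nakayama: generation of the reductions `G^(n+1) = G^n + x̄ G^n` lifts to
  `L((n+1) E1) ∩ O = L(n E1) ∩ O + x (L(n E1) ∩ O)`.
* `h50_exists_value_of_deg` : a function regular at a place of degree one takes a value in `K`.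
-/

set_option autoImplicit false

namespace Fermat.Agent.S34

open AlgebraicCurve Fermat.Agent.S24 Fermat.Agent.S18

variable {K F k Rb : Type*} [Field K] [Field F] [Algebra K F] [Field k] [CommRing Rb]
  [Algebra k Rb]

/-- `L(E) ∩ O` as an `A`-submodule of `F`. -/
def h50_Lam (D : h22_Lat K F k Rb) (E : Divisor K F) : Submodule D.A F where
  carrier := {f | f ∈ riemannRochSpace E ∧ f ∈ D.O}
  add_mem' := fun ha hb => ⟨add_mem ha.1 hb.1, D.O.add_mem ha.2 hb.2⟩
  zero_mem' := ⟨zero_mem _, D.O.zero_mem⟩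
  smul_mem' := fun a f hf => by
    have e : a • f = (a : K) • f := rfl
    refine ⟨?_, ?_⟩
    · rw [e]; exact Submodule.smul_mem _ _ hf.1
    · rw [e, Algebra.smul_def]; exact D.O.mul_mem ((D.mem_iff _).1 a.2) hf.2

theorem h50_mem_Lam (D : h22_Lat K F k Rb) (E : Divisor K F) (f : F) :
    f ∈ h50_Lam D E ↔ f ∈ riemannRochSpace E ∧ f ∈ D.O := Iff.rfl

/-- (ON) ⟹ `L(E) ∩ O` is a finitely generated `A`-module. -/
theorem h50_Lam_fg (D : h22_Lat K F k Rb) (hON : h22_ON D) (E : Divisor K F)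
    [Module.Finite K (riemannRochSpace E)] : (h50_Lam D E).FG := by
  classical
  obtain ⟨e, heV, heO, hind⟩ := hON (riemannRochSpace E) inferInstance
  refine ⟨Finset.univ.image e, ?_⟩
  apply le_antisymm
  · rw [Submodule.span_le]
    intro f hf
    simp only [Finset.coe_image, Finset.coe_univ, Set.image_univ, Set.mem_range] at hf
    obtain ⟨i, rfl⟩ := hf
    exact ⟨heV i, heO i⟩
  · intro f hf
    obtain ⟨c, hc, hcA⟩ := h22_on_span D (riemannRochSpace E) e heV heO hind f hf.1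
    rw [hc]
    refine Submodule.sum_mem _ fun i _ => ?_
    have e1 : c i • e i = (⟨c i, hcA hf.2 i⟩ : D.A) • e i := rfl
    rw [e1]
    refine Submodule.smul_mem _ _ (Submodule.subset_span ?_)
    simp

/-- `Λ + x Λ` as an `A`-submodule. -/
def h50_LamX (D : h22_Lat K F k Rb) (E : Divisor K F) (x : F) : Submodule D.A F where
  carrier := {f | ∃ b ∈ h50_Lam D E, ∃ c ∈ h50_Lam D E, f = b + x * c}
  add_mem' := by
    rintro _ _ ⟨b, hb, c, hc, rfl⟩ ⟨b', hb', c', hc', rfl⟩
    exact ⟨b + b', add_mem hb hb', c + c', add_mem hc hc', by ring⟩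
  zero_mem' := ⟨0, zero_mem _, 0, zero_mem _, by simp⟩
  smul_mem' := by
    rintro a _ ⟨b, hb, c, hc, rfl⟩
    exact ⟨a • b, Submodule.smul_mem _ a hb, a • c, Submodule.smul_mem _ a hc, by
      rw [smul_add, mul_smul_comm]⟩

theorem h50_redF_sub (D : h22_Lat K F k Rb) {f g : F} (hf : f ∈ D.O) (hg : g ∈ D.O) :
    D.redF (f - g) = D.redF f - D.redF g := by
  rw [D.redF_of_mem (D.O.sub_mem hf hg), D.redF_of_mem hf, D.redF_of_mem hg, ← map_sub]
  rfl

theorem h50_redF_const_mul (D : h22_Lat K F k Rb) {a : K} (ha : a ∈ D.A.nonunits) {g : F}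
    (hg : g ∈ D.O) : D.redF (algebraMap K F a * g) = 0 :=
  (h22_redF_eq_zero_iff D (D.O.mul_mem ((D.mem_iff a).1 (D.A.nonunits_le ha)) hg)).2
    ⟨a, ha, g, hg, rfl⟩

/-- **Upstairs generation (Nakayama).** -/
theorem h50_gen_up (D : h22_Lat K F k Rb) (hON : h22_ON D)
    (hfin : ∀ E' : Divisor K F, Module.Finite K (riemannRochSpace E'))
    (x : F) (hxO : x ∈ D.O) (E1 : Divisor K F) (hE1 : ∀ v, 0 ≤ E1 v)
    (hxL : x ∈ riemannRochSpace E1) (n : ℕ)
    (hgen : ∀ a ∈ h51_Rd D ((n + 1) • E1), ∃ b ∈ h51_Rd D (n • E1), ∃ c ∈ h51_Rd D (n • E1),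
      a = b + D.redF x * c)
    (f : F) (hfL : f ∈ riemannRochSpace ((n + 1) • E1)) (hfO : f ∈ D.O) :
    ∃ b c : F, b ∈ riemannRochSpace (n • E1) ∧ b ∈ D.O ∧ c ∈ riemannRochSpace (n • E1) ∧
      c ∈ D.O ∧ f = b + x * c := by
  have hfinn := hfin ((n + 1) • E1)
  -- `Λ_n + x Λ_n ⊆ Λ_(n+1)`
  have hstep : ∀ g : F, g ∈ riemannRochSpace (n • E1) → g ∈ riemannRochSpace ((n + 1) • E1) := by
    intro g hg
    refine h51_rr_mono (fun v => ?_) hg
    rw [Finsupp.smul_apply, Finsupp.smul_apply, nsmul_eq_mul, nsmul_eq_mul]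
    have := hE1 v
    push_cast
    nlinarith
  have hle : h50_Lam D ((n + 1) • E1) ≤ h50_LamX D (n • E1) x := by
    refine Submodule.le_of_le_smul_of_le_jacobson_bot (I := IsLocalRing.maximalIdeal D.A)
      (h50_Lam_fg D hON _) ?_ ?_
    · rw [IsLocalRing.jacobson_eq_maximalIdeal ⊥ bot_ne_top]
    · intro g hg
      obtain ⟨b', ⟨b, hbL, hbO, rfl⟩, c', ⟨c, hcL, hcO, rfl⟩, hred⟩ :=
        hgen (D.redF g) ⟨g, hg.1, hg.2, rfl⟩
      have hxc : x * c ∈ D.O := D.O.mul_mem hxO hcO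
      have hzO : g - (b + x * c) ∈ D.O := D.O.sub_mem hg.2 (D.O.add_mem hbO hxc)
      have hz0 : D.redF (g - (b + x * c)) = 0 := by
        rw [h50_redF_sub D hg.2 (D.O.add_mem hbO hxc), h51_redF_add D hbO hxc,
          h51_redF_mul D hxO hcO, hred, sub_self]
      obtain ⟨a, ha, g', hg'O, hg'⟩ := (h22_redF_eq_zero_iff D hzO).1 hz0
      rw [Submodule.mem_sup]
      refine ⟨b + x * c, ⟨b, ⟨hbL, hbO⟩, c, ⟨hcL, hcO⟩, rfl⟩, g - (b + x * c), ?_, by ring⟩
      have hzL : g - (b + x * c) ∈ riemannRochSpace ((n + 1) • E1) := by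
        refine sub_mem hg.1 (add_mem (hstep b hbL) ?_)
        have e : (n + 1) • E1 = E1 + n • E1 := by rw [succ_nsmul, add_comm]
        rw [e]
        exact h51_mul_mem_rr hxL hcL
      have haA : a ∈ D.A := D.A.nonunits_le ha
      have ham : (⟨a, haA⟩ : D.A) ∈ IsLocalRing.maximalIdeal D.A := by
        rw [← ValuationSubring.coe_mem_nonunits_iff]
        exact ha
      by_cases ha0 : a = 0
      · have h0 : g - (b + x * c) = 0 := by rw [hg', ha0, map_zero, zero_mul]
        rw [h0]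
        exact zero_mem _
      · have hg'L : g' ∈ riemannRochSpace ((n + 1) • E1) := by
          have e : g' = a⁻¹ • (g - (b + x * c)) := by
            rw [hg', Algebra.smul_def, map_inv₀, ← mul_assoc, inv_mul_cancel₀, one_mul]
            simpa using ha0
          rw [e]
          exact Submodule.smul_mem _ _ hzL
        have e : g - (b + x * c) = (⟨a, haA⟩ : D.A) • g' := by
          rw [hg']
          show algebraMap K F a * g' = a • g'
          rw [Algebra.smul_def]
        rw [e]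
        exact Submodule.smul_mem_smul ham ⟨hg'L, hg'O⟩
  obtain ⟨b, hb, c, hc, hfbc⟩ := hle ⟨hfL, hfO⟩
  exact ⟨b, c, hb.1, hb.2, hc.1, hc.2, hfbc⟩

/-- A function regular at a place of degree one takes a value in `K` there. -/
theorem h50_exists_value_of_deg (v : Place K F) (hdeg : v.deg = 1) (f : F)
    (hf : h53_OrdGE v f 0) : ∃ a : K, h53_OrdGE v (f - algebraMap K F a) 1 := by
  have hfv : f ∈ v.toValuationSubring := h53_OrdGE.mem_iff.1 hf
  have h1 : Module.finrank K v.ResidueField = 1 := hdeg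
  have hne : (1 : v.ResidueField) ≠ 0 := one_ne_zero
  obtain ⟨c, hc⟩ := (finrank_eq_one_iff_of_nonzero' (1 : v.ResidueField) hne).1 h1
    (IsLocalRing.residue v.toValuationSubring ⟨f, hfv⟩)
  refine ⟨c, ?_⟩
  by_cases h0 : f - algebraMap K F c = 0
  · exact Or.inl h0
  refine Or.inr ?_
  have hmem : f - algebraMap K F c ∈ v.toValuationSubring :=
    v.toValuationSubring.sub_mem hfv (v.algebraMap_mem' c)
  have h2 := h35_ord_pos_of_residue_eq_zero v ⟨f - algebraMap K F c, hmem⟩ h0 (by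
    have e : (⟨f - algebraMap K F c, hmem⟩ : v.toValuationSubring)
        = ⟨f, hfv⟩ - algebraMap K v.toValuationSubring c := rfl
    rw [e, map_sub, ← hc, sub_eq_zero, Algebra.smul_def, mul_one]
    rfl)
  have h3 : 0 < v.ord (f - algebraMap K F c) := h2
  omega

end Fermat.Agent.S34
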