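import Fermat.Agent.S34.h50_LastStrict

/-!
# S34 LAST-50: the last-step statement `h51_LastStep` from the list (L)

`h50_lastStep`: for a lattice datum with (ON), a balanced chart function `x` (`x, x⁻¹ ∈ O`) with
polar divisor `E1` and zero divisor `E2`, and generation `G^(n+1) = G^n + x̄ G^n` of the reductions
`G^n = red (L(n E1) ∩ O)` for `n ≥ N0`: every toric witness `(Ez, uz)` with trivial gluing along
`E1` has a nonzero section of `L(Ez)`.

Proof: E-short (`h50_eshort_h22`).  Its two inputs (EV) and two-chart (STRICT) follow from the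
generation hypothesis by Nakayama (`h50_gen_up`, `h50_ev_of_gen`, `h50_strict_of_gen`); only the
trivial gluing for `j = -1` (and `j = 1` in the degenerate case of a constant `x`) is used.
-/

set_option autoImplicit false

namespace Fermat.Agent.S34

open AlgebraicCurve Fermat.Agent.S24 Fermat.Agent.S18

variable {K F k Rb : Type*} [Field K] [Field F] [Algebra K F] [Field k] [CommRing Rb]
  [Algebra k Rb]

/-- **LAST-50: the last-step statement from the list (L).** -/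
theorem h50_lastStep [IsAlgClosed K] [HasPrincipalDivisors K F] [Nontrivial Rb]
    (D : h22_Lat K F k Rb) (hON : h22_ON D)
    (hinv : ∀ (f : F) (hf : f ∈ D.O), IsUnit (D.red ⟨f, hf⟩) → f⁻¹ ∈ D.O)
    (hrank : h39_RankOne D.A)
    (hfin : ∀ D' : Divisor K F, FiniteDimensional K (riemannRochSpace D'))
    (hdeg1 : ∀ P : Place K F, P.deg = 1)
    (x : F) (hx0 : x ≠ 0) (hx : x ∈ D.O) (hxi : x⁻¹ ∈ D.O)
    (E1 E2 : Divisor K F) (hE1 : ∀ v : Place K F, 0 ≤ E1 v) (hE2 : ∀ v : Place K F, 0 ≤ E2 v)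
    (hdisj : ∀ v : Place K F, E1 v = 0 ∨ E2 v = 0)
    (hdivx : ∀ v : Place K F, v.ord x = E2 v - E1 v) (N0 : ℕ)
    (hstrict : ∀ n, N0 ≤ n → ∀ a ∈ h51_Rd D ((n + 1) • E1), ∃ b ∈ h51_Rd D (n • E1),
      ∃ c ∈ h51_Rd D (n • E1), a = b + D.redF x * c)
    (m : ℕ) (hm : (m : k) ≠ 0) : h51_LastStep D E1 N0 m := by
  intro Ez uz _ _ hdivz huz htriv
  obtain ⟨huzO, huzred⟩ := huz
  -- the degenerate case: `x` constant
  by_cases hconst : ∃ c : K, x = algebraMap K F c
  · obtain ⟨c, rfl⟩ := hconst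
    have hE1zero : E1 = 0 := by
      refine Finsupp.ext fun v => ?_
      have h1 := hdivx v
      rw [h35_ord_algebraMap] at h1
      rw [Finsupp.zero_apply]
      rcases hdisj v with h | h
      · exact h
      · omega
    have hone : (1 : F) ∈ riemannRochSpace (N0 • E1) := by
      rw [hE1zero, smul_zero, h50_mem_rr_iff]
      intro v
      exact Or.inr (by simp)
    have hmem : D.redF 1 ∈ h51_Rd D (N0 • E1) := ⟨1, hone, D.O.one_mem, rfl⟩
    rw [← htriv 1 N0 le_rfl] at hmem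
    obtain ⟨e, heL, heO, hered⟩ := hmem
    refine ⟨e, ?_, ?_⟩
    · rintro rfl
      rw [h51_redF_one, D.redF_of_mem D.O.zero_mem] at hered
      have h0 : D.red (⟨0, D.O.zero_mem⟩ : D.O) = 0 := map_zero D.red
      rw [h0] at hered
      exact zero_ne_one hered
    · rw [hE1zero, smul_zero, zero_add, one_zsmul] at heL
      exact heL
  -- rank one in the strict form
  have hrank' : ∀ a d : K, a ≠ 0 → a ∈ D.A.nonunits → d ≠ 0 →
      ∃ n : ℕ, d * (a ^ n)⁻¹ ∉ D.A := by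
    intro a d ha0 ha hd
    have haA : a ∈ D.A := D.A.nonunits_le ha
    have hainv : a⁻¹ ∉ D.A := by
      rcases (ValuationSubring.mem_nonunits_iff_or D.A).1 ha with h1 | h1
      · exact absurd h1 ha0
      · exact h1
    obtain ⟨n, hn⟩ := hrank a haA hainv d hd
    refine ⟨n + 1, fun hmem => hainv ?_⟩
    have e : a⁻¹ = (a ^ n * d⁻¹) * (d * (a ^ (n + 1))⁻¹) := by
      rw [pow_succ]; field_simp
    rw [e]
    exact D.A.mul_mem _ _ hn hmem
  -- values
  have hvalue : ∀ (v : Place K F) (f : F), h53_OrdGE v f 0 →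
      ∃ a : K, h53_OrdGE v (f - algebraMap K F a) 1 :=
    fun v f hf => h50_exists_value_of_deg v (hdeg1 v) f hf
  have hval : ∀ v : Place K F, 0 ≤ v.ord x → ∃ c : K, 0 < v.ord (x - algebraMap K F c) := by
    intro v hv
    obtain ⟨c, hc⟩ := hvalue v x (Or.inr hv)
    rcases hc with hc | hc
    · exact absurd ⟨c, sub_eq_zero.1 hc⟩ hconst
    · exact ⟨c, by omega⟩
  -- the divisor of `x`
  have hD0 : ∀ v : Place K F, E1 v = max 0 (-v.ord x) := by
    intro v
    rw [hdivx v]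
    rcases hdisj v with h | h
    · rw [h]
      have := hE2 v
      rw [max_eq_left (by omega)]
    · rw [h]
      have := hE1 v
      rw [max_eq_right (by omega)]
      ring
  have hE1z : ∀ v : Place K F, 0 ≤ v.ord x → E1 v = 0 := by
    intro v hv
    rw [hdivx v] at hv
    rcases hdisj v with h | h
    · exact h
    · have := hE1 v
      omega
  have hE1z' : ∀ v : Place K F, E1 v = 0 → 0 ≤ v.ord x := by
    intro v hv
    rw [hdivx v, hv]
    have := hE2 v
    omega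
  have hE2z : ∀ v : Place K F, 0 ≤ v.ord x⁻¹ → E2 v = 0 := by
    intro v hv
    rw [v.ord_inv, hdivx v] at hv
    rcases hdisj v with h | h
    · have := hE2 v
      omega
    · exact h
  have hE2z' : ∀ v : Place K F, E2 v = 0 → 0 ≤ v.ord x⁻¹ := by
    intro v hv
    rw [v.ord_inv, hdivx v, hv]
    have := hE1 v
    omega
  have hxL : x ∈ riemannRochSpace E1 := by
    rw [h50_mem_rr_iff]
    intro v
    refine Or.inr ?_
    rw [hdivx v]
    have := hE2 v
    omega
  -- upstairs generation for `(x, E1)` and `(x⁻¹, E2)`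
  have hgenup : ∀ n, N0 ≤ n → ∀ f : F, f ∈ riemannRochSpace ((n + 1) • E1) → f ∈ D.O →
      ∃ b c : F, b ∈ riemannRochSpace (n • E1) ∧ b ∈ D.O ∧ c ∈ riemannRochSpace (n • E1) ∧
        c ∈ D.O ∧ f = b + x * c :=
    fun n hn f hfL hfO => h50_gen_up D hON hfin x hx E1 hE1 hxL n (hstrict n hn) f hfL hfO
  have hshift1 : ∀ (n : ℕ) (g : F), g ∈ riemannRochSpace (n • E1) →
      x⁻¹ ^ n * g ∈ riemannRochSpace (n • E2) := by
    intro n g hg
    rw [h50_mem_rr_iff] at hg ⊢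
    intro v
    have h1 : h53_OrdGE v (x⁻¹) (-v.ord x) := Or.inr (v.ord_inv x).ge
    have h2 := (h1.pow n).mul (hg v)
    refine h2.mono ?_
    rw [Finsupp.smul_apply, Finsupp.smul_apply, nsmul_eq_mul, nsmul_eq_mul, hdivx v]
    linarith
  have hshift2 : ∀ (n : ℕ) (f : F), f ∈ riemannRochSpace (n • E2) →
      x ^ n * f ∈ riemannRochSpace (n • E1) := by
    intro n f hf
    rw [h50_mem_rr_iff] at hf ⊢
    intro v
    have h1 : h53_OrdGE v x (v.ord x) := Or.inr le_rfl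
    have h2 := (h1.pow n).mul (hf v)
    refine h2.mono ?_
    rw [Finsupp.smul_apply, Finsupp.smul_apply, nsmul_eq_mul, nsmul_eq_mul, hdivx v]
    linarith
  have hgenup' : ∀ n, N0 ≤ n → ∀ f : F, f ∈ riemannRochSpace ((n + 1) • E2) → f ∈ D.O →
      ∃ b c : F, b ∈ riemannRochSpace (n • E2) ∧ b ∈ D.O ∧ c ∈ riemannRochSpace (n • E2) ∧
        c ∈ D.O ∧ f = b + x⁻¹ * c := by
    intro n hn f hfL hfO
    obtain ⟨b, c, hbL, hbO, hcL, hcO, e⟩ := hgenup n hn (x ^ (n + 1) * f)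
      (hshift2 (n + 1) f hfL) (D.O.mul_mem (D.O.pow_mem hx _) hfO)
    refine ⟨x⁻¹ ^ n * c, x⁻¹ ^ n * b, hshift1 n c hcL, D.O.mul_mem (D.O.pow_mem hxi n) hcO,
      hshift1 n b hbL, D.O.mul_mem (D.O.pow_mem hxi n) hbO, ?_⟩
    have hxn : x ^ (n + 1) ≠ 0 := pow_ne_zero _ hx0
    apply mul_left_cancel₀ hxn
    rw [e]
    have h1 : x ^ n * x⁻¹ ^ n = 1 := by rw [← mul_pow, mul_inv_cancel₀ hx0, one_pow]
    have h2 : x * x⁻¹ = 1 := mul_inv_cancel₀ hx0
    linear_combination (-(x * c) - b * (x * x⁻¹)) * h1 - b * h2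
  -- (EV)
  have hEV : ∀ y : F, (y = x ∨ y = x⁻¹) → ∀ f : F, f ∈ D.O →
      (∀ v : Place K F, 0 ≤ v.ord y → 0 ≤ v.ord f) →
      ∀ (v : Place K F) (c : K), c ∈ D.A → 0 < v.ord (y - algebraMap K F c) →
      ∃ d : K, d ∈ D.A ∧ (f = algebraMap K F d ∨ 0 < v.ord (f - algebraMap K F d)) := by
    intro y hy
    rcases hy with hy | hy
    · rw [hy]
      exact fun f hfO hreg v c hc hv =>
        h50_ev_of_gen D hON hfin x E1 hE1 hE1z hE1z' N0 hgenup hvalue f hfO hreg v c hc hv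
    · rw [hy]
      exact fun f hfO hreg v c hc hv =>
        h50_ev_of_gen D hON hfin x⁻¹ E2 hE2 hE2z hE2z' N0 hgenup' hvalue f hfO hreg v c hc hv
  -- `m` is a unit of `Rb`
  have hmU : IsUnit ((m : ℕ) : Rb) := by
    have e : ((m : ℕ) : Rb) = algebraMap k Rb (m : k) := (map_natCast (algebraMap k Rb) m).symm
    rw [e]
    exact (IsUnit.mk0 _ hm).map (algebraMap k Rb)
  -- trivial gluing at `j = -1`
  have htg : ∀ n, N0 ≤ n → ∀ s0 : F, s0 ∈ riemannRochSpace (n • E1) → s0 ∈ D.O →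
      ∃ g0 : F, g0 ∈ riemannRochSpace (n • E1 - Ez) ∧ g0 ∈ D.O ∧ D.redF g0 = D.redF s0 := by
    intro n hn s0 hs0 hs0O
    have hmem : D.redF s0 ∈ h51_Rd D (n • E1) := ⟨s0, hs0, hs0O, rfl⟩
    rw [← htriv (-1) n hn] at hmem
    obtain ⟨g0, hg0, hg0O, hg0red⟩ := hmem
    refine ⟨g0, ?_, hg0O, hg0red⟩
    have e : n • E1 + (-1 : ℤ) • Ez = n • E1 - Ez := by
      rw [neg_one_zsmul, sub_eq_add_neg]
    rwa [e] at hg0
  obtain ⟨g, hg0, hg⟩ := h50_eshort_h22 D hON hinv hrank' hfin x hx0 hx hxi hval E1 hD0 hEV N0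
    (fun n hn a b haO hbO ha hb hred => h50_strict_of_gen D x hx0 hx hxi E1 E2 hE1 hE2 hdisj
      hdivx N0 hgenup n hn a b haO hbO ha hb hred)
    hmU Ez uz hdivz huzO huzred N0 htg
  refine ⟨g⁻¹, inv_ne_zero hg0, ?_⟩
  rw [h50_mem_rr_iff]
  intro v
  refine Or.inr ?_
  rw [v.ord_inv, ← hg v]

end Fermat.Agent.S34
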