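import Fermat.Agent.S34.h50_LastEV

/-!
# S34 LAST-50, part 3: two-chart (STRICT) from upstairs generation

* `h50_dec_up` : upstairs decomposition `x^-N L((N0 + r) E1) ∩ O ⊆ R_x ∩ O + x^n (R_{1/x} ∩ O)`
  for `n ≥ N0`.
* `h50_strict_of_gen` : a reduction lying in `red (R_x ∩ O)` and in `x̄^n red (R_{1/x} ∩ O)` is the
  reduction of an element of `L(n E1) ∩ O` (the flat base change chase).
-/

set_option autoImplicit false

namespace Fermat.Agent.S34

open AlgebraicCurve Fermat.Agent.S24 Fermat.Agent.S18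

variable {K F k Rb : Type*} [Field K] [Field F] [Algebra K F] [Field k] [CommRing Rb]
  [Algebra k Rb]

/-- **Upstairs decomposition.** -/
theorem h50_dec_up (D : h22_Lat K F k Rb) (x : F) (hx0 : x ≠ 0) (hxiO : x⁻¹ ∈ D.O)
    (E1 E2 : Divisor K F) (hE1 : ∀ v : Place K F, 0 ≤ E1 v) (hE2 : ∀ v : Place K F, 0 ≤ E2 v)
    (hdisj : ∀ v : Place K F, E1 v = 0 ∨ E2 v = 0)
    (hdivx : ∀ v : Place K F, v.ord x = E2 v - E1 v) (N0 : ℕ)
    (hgenup : ∀ n, N0 ≤ n → ∀ f : F, f ∈ riemannRochSpace ((n + 1) • E1) → f ∈ D.O →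
      ∃ b c : F, b ∈ riemannRochSpace (n • E1) ∧ b ∈ D.O ∧ c ∈ riemannRochSpace (n • E1) ∧
        c ∈ D.O ∧ f = b + x * c)
    (n : ℕ) (hn : N0 ≤ n) (r : ℕ) :
    ∀ (N : ℕ) (h : F), h ∈ riemannRochSpace ((N0 + r) • E1) → h ∈ D.O →
      ∃ a' b' : F, a' ∈ D.O ∧ (∀ v : Place K F, 0 ≤ v.ord x → h53_OrdGE v a' 0) ∧
        b' ∈ D.O ∧ (∀ v : Place K F, v.ord x ≤ 0 → h53_OrdGE v b' 0) ∧
        h = x ^ N * a' + x ^ N * x ^ n * b' := by
  have hE1z : ∀ v : Place K F, 0 ≤ v.ord x → E1 v = 0 := by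
    intro v hv
    rw [hdivx v] at hv
    rcases hdisj v with h | h
    · exact h
    · have := hE1 v
      omega
  have hregL : ∀ (M : ℕ) (h : F), h ∈ riemannRochSpace (M • E1) →
      ∀ v : Place K F, 0 ≤ v.ord x → h53_OrdGE v h 0 := by
    intro M h hL v hv
    have := (h50_mem_rr_iff _ _).1 hL v
    rwa [Finsupp.smul_apply, hE1z v hv, smul_zero, neg_zero] at this
  induction r with
  | zero =>
    intro N h hL hO
    refine ⟨0, x⁻¹ ^ (N + n) * h, D.O.zero_mem, fun v _ => h53_OrdGE.zero,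
      D.O.mul_mem (D.O.pow_mem hxiO _) hO, ?_, ?_⟩
    · intro v hv
      have h1 : h53_OrdGE v (x⁻¹) (-v.ord x) := Or.inr (v.ord_inv x).ge
      have h2 := (h1.pow (N + n)).mul ((h50_mem_rr_iff _ _).1 hL v)
      refine h2.mono ?_
      rw [Finsupp.smul_apply, nsmul_eq_mul]
      rw [hdivx v] at hv ⊢
      have hN0 : (N0 : ℤ) ≤ (N : ℤ) + (n : ℤ) := by
        have : N0 ≤ N + n := hn.trans (Nat.le_add_left n N)
        exact_mod_cast this
      have h0N : (0 : ℤ) ≤ (N0 : ℤ) := Int.natCast_nonneg N0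
      push_cast
      rcases hdisj v with h0 | h0
      · have h3 : E2 v = 0 := by have := hE2 v; omega
        rw [h0, h3]
        simp
      · rw [h0]
        have h3 := hE1 v
        nlinarith [mul_nonneg (sub_nonneg.2 hN0) h3]
    · rw [mul_zero, zero_add, ← pow_add, ← mul_assoc, ← mul_pow, mul_inv_cancel₀ hx0, one_pow,
        one_mul]
  | succ r ih =>
    intro N h hL hO
    cases N with
    | zero =>
      exact ⟨h, 0, hO, hregL _ h hL, D.O.zero_mem, fun v _ => h53_OrdGE.zero, by simp⟩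
    | succ N =>
      obtain ⟨h1, h2, h1L, h1O, h2L, h2O, rfl⟩ :=
        hgenup (N0 + r) (Nat.le_add_right _ _) h hL hO
      obtain ⟨a1, b1, ha1O, ha1, hb1O, hb1, e1⟩ := ih (N + 1) h1 h1L h1O
      obtain ⟨a2, b2, ha2O, ha2, hb2O, hb2, e2⟩ := ih N h2 h2L h2O
      refine ⟨a1 + a2, b1 + b2, D.O.add_mem ha1O ha2O, fun v hv => (ha1 v hv).add (ha2 v hv),
        D.O.add_mem hb1O hb2O, fun v hv => (hb1 v hv).add (hb2 v hv), ?_⟩
      linear_combination e1 + x * e2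

/-- An element regular on `{ord x ≥ 0}` which is `x^n` times an element regular on
`{ord x ≤ 0}` lies in `L(n E1)`. -/
theorem h50_mem_of_two (x : F) (E1 E2 : Divisor K F) (hE1 : ∀ v : Place K F, 0 ≤ E1 v)
    (hE2 : ∀ v : Place K F, 0 ≤ E2 v) (hdivx : ∀ v : Place K F, v.ord x = E2 v - E1 v) (n : ℕ)
    (f b₁ : F) (hf : ∀ v : Place K F, 0 ≤ v.ord x → h53_OrdGE v f 0)
    (hb : ∀ v : Place K F, v.ord x ≤ 0 → h53_OrdGE v b₁ 0) (hfb : f = x ^ n * b₁) :
    f ∈ riemannRochSpace (n • E1) := by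
  rw [h50_mem_rr_iff]
  intro v
  rw [Finsupp.smul_apply, nsmul_eq_mul]
  have hn0 : (0 : ℤ) ≤ (n : ℤ) := Int.natCast_nonneg n
  by_cases hv : 0 ≤ v.ord x
  · refine (hf v hv).mono ?_
    nlinarith [mul_nonneg hn0 (hE1 v)]
  · have hxn : h53_OrdGE v (x ^ n) (n * v.ord x) :=
      h53_OrdGE.pow (P := v) (f := x) (n := v.ord x) (Or.inr le_rfl) n
    have h1 := hxn.mul (hb v (by omega))
    rw [hfb]
    refine h1.mono ?_
    rw [hdivx v]
    nlinarith [mul_nonneg hn0 (hE2 v)]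

/-- **Two-chart (STRICT) from upstairs generation.** -/
theorem h50_strict_of_gen [HasPrincipalDivisors K F] (D : h22_Lat K F k Rb) (x : F)
    (hx0 : x ≠ 0) (hxO : x ∈ D.O) (hxiO : x⁻¹ ∈ D.O)
    (E1 E2 : Divisor K F) (hE1 : ∀ v : Place K F, 0 ≤ E1 v) (hE2 : ∀ v : Place K F, 0 ≤ E2 v)
    (hdisj : ∀ v : Place K F, E1 v = 0 ∨ E2 v = 0)
    (hdivx : ∀ v : Place K F, v.ord x = E2 v - E1 v) (N0 : ℕ)
    (hgenup : ∀ n, N0 ≤ n → ∀ f : F, f ∈ riemannRochSpace ((n + 1) • E1) → f ∈ D.O →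
      ∃ b c : F, b ∈ riemannRochSpace (n • E1) ∧ b ∈ D.O ∧ c ∈ riemannRochSpace (n • E1) ∧
        c ∈ D.O ∧ f = b + x * c)
    (n : ℕ) (hn : N0 ≤ n) (a b : F) (haO : a ∈ D.O) (hbO : b ∈ D.O)
    (ha : ∀ v : Place K F, 0 ≤ v.ord x → 0 ≤ v.ord a)
    (hb : ∀ v : Place K F, v.ord x ≤ 0 → 0 ≤ v.ord b)
    (hred : D.redF a = D.redF x ^ n * D.redF b) :
    ∃ f : F, f ∈ riemannRochSpace (n • E1) ∧ f ∈ D.O ∧ D.redF f = D.redF a := by
  classical
  have ha' : ∀ v : Place K F, 0 ≤ v.ord x → h53_OrdGE v a 0 := fun v hv => Or.inr (ha v hv)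
  have hb' : ∀ v : Place K F, v.ord x ≤ 0 → h53_OrdGE v b 0 := fun v hv => Or.inr (hb v hv)
  have hxnO : x ^ n ∈ D.O := D.O.pow_mem hxO n
  have hxnb : x ^ n * b ∈ D.O := D.O.mul_mem hxnO hbO
  by_cases hz : a - x ^ n * b = 0
  · exact ⟨a, h50_mem_of_two x E1 E2 hE1 hE2 hdivx n a b ha' hb' (sub_eq_zero.1 hz), haO, rfl⟩
  have hzO : a - x ^ n * b ∈ D.O := D.O.sub_mem haO hxnb
  have hz0 : D.redF (a - x ^ n * b) = 0 := by
    rw [h50_redF_sub D haO hxnb, h51_redF_mul D hxnO hbO, h51_redF_pow D hxO, hred, sub_self]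
  obtain ⟨π, hπ, c, hcO, hc⟩ := (h22_redF_eq_zero_iff D hzO).1 hz0
  have hπ0 : π ≠ 0 := by
    rintro rfl
    apply hz
    rw [hc, map_zero, zero_mul]
  have hπF : algebraMap K F π ≠ 0 := by simpa using hπ0
  have hc0 : c ≠ 0 := by
    rintro rfl
    apply hz
    rw [hc, mul_zero]
  -- `c` is regular where `ord x = 0`
  have hcreg : ∀ v : Place K F, v.ord x = 0 → h53_OrdGE v c 0 := by
    intro v hv
    have h1 : h53_OrdGE v (a - x ^ n * b) 0 := by
      refine (ha' v hv.ge).sub ?_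
      have hxn : h53_OrdGE v (x ^ n) (n * v.ord x) :=
        h53_OrdGE.pow (P := v) (f := x) (n := v.ord x) (Or.inr le_rfl) n
      have := hxn.mul (hb' v hv.le)
      rwa [hv, mul_zero, add_zero] at this
    have e : c = algebraMap K F π⁻¹ * (a - x ^ n * b) := by
      rw [hc, map_inv₀, ← mul_assoc, inv_mul_cancel₀ hπF, one_mul]
    rw [e]
    have := (h53_OrdGE.const (P := v) π⁻¹).mul h1
    rwa [zero_add] at this
  -- a bound for the pole orders of `c`
  obtain ⟨Dc, hDc, -⟩ := HasPrincipalDivisors.exists_divisor (K := K) c hc0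
  obtain ⟨B, hB⟩ : ∃ B : ℕ, B = ∑ v ∈ Dc.support, (Dc v).natAbs := ⟨_, rfl⟩
  have hB0 : (0 : ℤ) ≤ (B : ℤ) := Int.natCast_nonneg B
  have hBle : ∀ v : Place K F, -(B : ℤ) ≤ v.ord c := by
    intro v
    by_cases hvS : v ∈ Dc.support
    · have hle : (Dc v).natAbs ≤ B := by
        rw [hB]
        exact Finset.single_le_sum (f := fun v => (Dc v).natAbs) (fun _ _ => Nat.zero_le _) hvS
      have h3 : ((Dc v).natAbs : ℤ) ≤ (B : ℤ) := by exact_mod_cast hle
      rw [← hDc v]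
      omega
    · have h0 : v.ord c = 0 := by
        rw [← hDc v]
        simpa using hvS
      rw [h0]
      omega
  have hxBc : x ^ B * c ∈ riemannRochSpace ((N0 + 2 * B) • E1) := by
    rw [h50_mem_rr_iff]
    intro v
    refine Or.inr ?_
    rw [v.ord_mul (pow_ne_zero B hx0) hc0, ← zpow_natCast, v.ord_zpow, Finsupp.smul_apply,
      nsmul_eq_mul]
    have h1 := hBle v
    have h0N : (0 : ℤ) ≤ (N0 : ℤ) := Int.natCast_nonneg N0
    by_cases hx : v.ord x = 0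
    · have h3 := (h53_OrdGE.of_ne hc0).1 (hcreg v hx)
      have hE1v : E1 v = 0 := by
        have h4 := hdivx v
        rcases hdisj v with h | h
        · exact h
        · have := hE1 v
          omega
      rw [hx, hE1v]
      simpa using h3
    · rw [hdivx v] at hx ⊢
      push_cast
      rcases hdisj v with h0 | h0
      · have h3 : 1 ≤ E2 v := by have := hE2 v; omega
        rw [h0]
        nlinarith [mul_nonneg hB0 (sub_nonneg.2 h3)]
      · have h3 : 1 ≤ E1 v := by have := hE1 v; omega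
        rw [h0]
        nlinarith [mul_nonneg hB0 (sub_nonneg.2 h3), mul_nonneg h0N (hE1 v)]
  obtain ⟨a', b', ha'O, ha'reg, hb'O, hb'reg, hdec⟩ := h50_dec_up D x hx0 hxiO E1 E2 hE1 hE2
    hdisj hdivx N0 hgenup n hn (2 * B) B (x ^ B * c) hxBc (D.O.mul_mem (D.O.pow_mem hxO B) hcO)
  have hcdec : c = a' + x ^ n * b' := by
    have hxB : x ^ B ≠ 0 := pow_ne_zero B hx0
    apply mul_left_cancel₀ hxB
    rw [hdec]
    ring
  have hπO : algebraMap K F π ∈ D.O := (D.mem_iff π).1 (D.A.nonunits_le hπ)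
  refine ⟨a - algebraMap K F π * a', ?_, D.O.sub_mem haO (D.O.mul_mem hπO ha'O), ?_⟩
  · refine h50_mem_of_two x E1 E2 hE1 hE2 hdivx n _ (b + algebraMap K F π * b') ?_ ?_ ?_
    · intro v hv
      refine (ha' v hv).sub ?_
      have := (h53_OrdGE.const (P := v) π).mul (ha'reg v hv)
      rwa [zero_add] at this
    · intro v hv
      refine (hb' v hv).add ?_
      have := (h53_OrdGE.const (P := v) π).mul (hb'reg v hv)
      rwa [zero_add] at this
    · have h5 : a - x ^ n * b = algebraMap K F π * (a' + x ^ n * b') := by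
        rw [← hcdec]
        exact hc
      linear_combination h5
  · rw [h50_redF_sub D haO (D.O.mul_mem hπO ha'O), h50_redF_const_mul D hπ ha'O, sub_zero]

end Fermat.Agent.S34
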