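import Mathlib

/-!
# S34 foundation, row STRICT (helper50): the graded strictness lemma

Abstract form of "a finitely generated graded `k[T₀,T₁]`-module with both localisations zero is
finite-dimensional", used to show that the reductions of the lattices
`Λⁿ = L(n (x)_∞) ∩ O` fill the whole glued space `Gⁿ` for large `n`
(`T₀` = inclusion, `T₁` = multiplication by `x̄`).

* `h50_strict` : `S n ≤ G n` filtered families of subspaces of a `k`-algebra `R`, `x : R`,
  with `S n ≤ S (n+1)`, `x • S n ≤ S (n+1)`, `G (n+1) ≤ G n ⊔ x • G n` for `n ≥ n₀`,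
  `G n₀` finite-dimensional, and every `a ∈ G n₀` eventually in `S` along both directions.
  Then `G n ≤ S n` for all large `n`.
-/

set_option autoImplicit false

namespace Fermat.Agent.S34

open Submodule

variable {k R : Type*} [Field k] [CommRing R] [Algebra k R]

/-- Multiplication by `x ^ j` maps `S n` into `S (n + j)`. -/
theorem h50_pow_mul_mem (S : ℕ → Submodule k R) (x : R)
    (hmul : ∀ n, ∀ a ∈ S n, x * a ∈ S (n + 1)) (n j : ℕ) {a : R} (ha : a ∈ S n) :
    x ^ j * a ∈ S (n + j) := by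
  induction j with
  | zero => simpa using ha
  | succ j ih =>
    have := hmul (n + j) _ ih
    have e : x ^ (j + 1) * a = x * (x ^ j * a) := by ring
    rw [e]
    exact this

/-- Monotonicity of `S` from the one-step inclusions. -/
theorem h50_mono (S : ℕ → Submodule k R) (hinc : ∀ n, S n ≤ S (n + 1)) {m n : ℕ} (h : m ≤ n) :
    S m ≤ S n := by
  induction n, h using Nat.le_induction with
  | base => exact le_rfl
  | succ n _ ih => exact ih.trans (hinc n)

/-- `G (n₀ + i)` is spanned by the `x ^ j * a`, `a ∈ G n₀`, `j ≤ i`. -/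
theorem h50_gen (G : ℕ → Submodule k R) (x : R) (n₀ : ℕ)
    (hgen : ∀ n, n₀ ≤ n → ∀ a ∈ G (n + 1), ∃ b ∈ G n, ∃ c ∈ G n, a = b + x * c) (i : ℕ) :
    ∀ a ∈ G (n₀ + i), a ∈ Submodule.span k {y : R | ∃ j ≤ i, ∃ b ∈ G n₀, y = x ^ j * b} := by
  induction i with
  | zero =>
    intro a ha
    exact Submodule.subset_span ⟨0, le_rfl, a, ha, by simp⟩
  | succ i ih =>
    intro a ha
    obtain ⟨b, hb, c, hc, rfl⟩ := hgen (n₀ + i) (Nat.le_add_right _ _) a ha
    have hmono : Submodule.span k {y : R | ∃ j ≤ i, ∃ b ∈ G n₀, y = x ^ j * b} ≤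
        Submodule.span k {y : R | ∃ j ≤ i + 1, ∃ b ∈ G n₀, y = x ^ j * b} := by
      apply Submodule.span_mono
      rintro y ⟨j, hj, b, hb, rfl⟩
      exact ⟨j, hj.trans (Nat.le_succ i), b, hb, rfl⟩
    refine Submodule.add_mem _ (hmono (ih b hb)) ?_
    -- `x * c` with `c` in the span for `i`
    have hc' := ih c hc
    refine Submodule.span_induction (p := fun y _ => x * y ∈
      Submodule.span k {y : R | ∃ j ≤ i + 1, ∃ b ∈ G n₀, y = x ^ j * b}) ?_ ?_ ?_ ?_ hc'
    · rintro y ⟨j, hj, b, hb, rfl⟩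
      refine Submodule.subset_span ⟨j + 1, Nat.succ_le_succ hj, b, hb, ?_⟩
      ring
    · simp
    · intro y z _ _ hy hz
      rw [mul_add]
      exact Submodule.add_mem _ hy hz
    · intro r y _ hy
      rw [mul_smul_comm]
      exact Submodule.smul_mem _ r hy

/-- **Graded strictness.** -/
theorem h50_strict (S G : ℕ → Submodule k R) (x : R)
    (hinc : ∀ n, S n ≤ S (n + 1))
    (hmul : ∀ n, ∀ a ∈ S n, x * a ∈ S (n + 1))
    (n₀ : ℕ) [FiniteDimensional k (G n₀)]
    (hgen : ∀ n, n₀ ≤ n → ∀ a ∈ G (n + 1), ∃ b ∈ G n, ∃ c ∈ G n, a = b + x * c)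
    (h0 : ∀ a ∈ G n₀, ∃ r, a ∈ S (n₀ + r))
    (h1 : ∀ a ∈ G n₀, ∃ r, x ^ r * a ∈ S (n₀ + r)) :
    ∃ n₂, ∀ n, n₂ ≤ n → G n ≤ S n := by
  classical
  -- a finite basis of `G n₀` and uniform bounds `s`, `t`
  obtain ⟨ι, _, bas⟩ : ∃ (ι : Type _) (_ : Fintype ι), Nonempty (Module.Basis ι k (G n₀)) :=
    ⟨_, inferInstance, ⟨Module.finBasis k (G n₀)⟩⟩
  obtain ⟨bas⟩ := bas
  choose r0 hr0 using fun i => h0 (bas i : R) (bas i).2
  choose r1 hr1 using fun i => h1 (bas i : R) (bas i).2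
  set s := Finset.univ.sup r0 with hs
  set t := Finset.univ.sup r1 with ht
  have hs0 : ∀ a ∈ G n₀, a ∈ S (n₀ + s) := by
    intro a ha
    have hrepr : a = ∑ i, (bas.repr ⟨a, ha⟩ i) • (bas i : R) := by
      have := congrArg (Subtype.val) (bas.sum_repr ⟨a, ha⟩)
      simp only [Submodule.coe_sum, Submodule.coe_smul] at this
      exact this.symm
    rw [hrepr]
    refine Submodule.sum_mem _ fun i _ => Submodule.smul_mem _ _ ?_
    exact h50_mono S hinc (Nat.add_le_add_left (Finset.le_sup (Finset.mem_univ i)) n₀) (hr0 i)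
  have hs1 : ∀ a ∈ G n₀, x ^ t * a ∈ S (n₀ + t) := by
    intro a ha
    have hrepr : a = ∑ i, (bas.repr ⟨a, ha⟩ i) • (bas i : R) := by
      have := congrArg (Subtype.val) (bas.sum_repr ⟨a, ha⟩)
      simp only [Submodule.coe_sum, Submodule.coe_smul] at this
      exact this.symm
    rw [hrepr, Finset.mul_sum]
    refine Submodule.sum_mem _ fun i _ => ?_
    rw [mul_smul_comm]
    refine Submodule.smul_mem _ _ ?_
    have hle : r1 i ≤ t := Finset.le_sup (Finset.mem_univ i)
    obtain ⟨e, he⟩ := Nat.exists_eq_add_of_le hle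
    have h2 := h50_pow_mul_mem S x hmul (n₀ + r1 i) e (hr1 i)
    have e1 : x ^ t * (bas i : R) = x ^ e * (x ^ r1 i * (bas i : R)) := by
      rw [he, pow_add]; ring
    rw [e1]
    have e2 : n₀ + r1 i + e = n₀ + t := by omega
    rw [e2] at h2
    exact h2
  refine ⟨n₀ + s + t, fun n hn a ha => ?_⟩
  obtain ⟨i, rfl⟩ := Nat.exists_eq_add_of_le ((Nat.le_add_right n₀ (s + t)).trans (by omega : n₀ + (s + t) ≤ n))
  have hi : s + t ≤ i := by omega
  have hspan := h50_gen G x n₀ hgen i a ha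
  refine Submodule.span_le.2 ?_ hspan
  rintro y ⟨j, hj, b, hb, rfl⟩
  by_cases hjt : t ≤ j
  · -- `x ^ j b = x ^ (j - t) (x ^ t b)`
    obtain ⟨e, he⟩ := Nat.exists_eq_add_of_le hjt
    have h2 := h50_pow_mul_mem S x hmul (n₀ + t) e (hs1 b hb)
    have e1 : x ^ j * b = x ^ e * (x ^ t * b) := by rw [he, pow_add]; ring
    show x ^ j * b ∈ S (n₀ + i)
    rw [e1]
    exact h50_mono S hinc (by omega) h2
  · -- `j < t`, so `i - j ≥ s`
    have h2 := h50_pow_mul_mem S x hmul (n₀ + s) j (hs0 b hb)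
    exact h50_mono S hinc (by omega) h2

end Fermat.Agent.S34
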