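import Mathlib
import Fermat.Agent.S34.h10_XMod
import Fermat.Agent.S34.h84_FrobMod
import Fermat.Agent.S27.h6w_Sep

/-!
# S34 / (y-CHART) (helper51): a chart of the reduced level-`M` field whose only pole is the cusp

* `h51_isChart_of_pole` (generic): in characteristic `p`, a function with a pole of order prime
  to `p` at some place is a chart;
* `h51_pole_iff` (generic): a function regular off `Qinf` with a pole at `Qinf` is regular exactly
  at the places different from `Qinf`;
* `h51_exists_ychart` : at chart levels (`5 ≤ q ∨ 2 ∣ M ∨ 3 ∣ M`) there is a chart `y` of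
  `modularFunctionFieldFullC k M`, `k` the residue field of `A` over `q ∤ M`, with
  `y ∈ O_Q ↔ Q ≠ h11_placeInftyC k M`: the hypotheses `hy`, `hpole` of `h98_frob_nodes_off`,
  `h20_node_final`, `h51_node_of_frob`, `h51_G_of_frob`.
-/

set_option autoImplicit false
set_option synthInstance.maxHeartbeats 400000

noncomputable section

open ModularCurve AlgebraicCurve IntermediateField

namespace Fermat.Agent.S34

open Fermat.Agent.S18 Fermat.Agent.S37 Fermat.Agent.S24 Fermat.Agent.S27

local notation "Qb" => AlgebraicClosure ℚ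

/-- In characteristic `p`, a function with a pole of order prime to `p` is a chart. -/
theorem h51_isChart_of_pole {k Fb : Type*} [Field k] [Field Fb] [Algebra k Fb] [IsAlgClosed k]
    (p : ℕ) (hp : p.Prime) [ExpChar Fb p] {x' : Fb} (hx' : h75_IsChart k x') (Qinf : Place k Fb)
    (y : Fb) (ν : ℕ) (hν : ¬ p ∣ ν) (hord : Qinf.ord y = -(ν : ℤ)) : h75_IsChart k y := by
  refine h34_isChart_of_not_mem p hp hx' y (fun hmem => hν ?_)
  obtain ⟨g, rfl⟩ := (h34_mem_pthPowers p y).mp hmem
  have h1 : Qinf.ord (g ^ p) = (p : ℤ) * Qinf.ord g := by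
    rw [← zpow_natCast, Qinf.ord_zpow]
  rw [h1] at hord
  have h2 : (p : ℤ) ∣ (ν : ℤ) := ⟨-(Qinf.ord g), by linarith⟩
  exact_mod_cast h2

/-- A function regular off `Qinf` with a pole at `Qinf` is regular exactly off `Qinf`. -/
theorem h51_pole_iff {k Fb : Type*} [Field k] [Field Fb] [Algebra k Fb] (Qinf : Place k Fb)
    (y : Fb) (ν : ℕ) (hν : 0 < ν) (hord : Qinf.ord y = -(ν : ℤ))
    (hreg : ∀ Q : Place k Fb, Q ≠ Qinf → 0 ≤ Q.ord y) :
    ∀ Q : Place k Fb, y ∈ Q.toValuationSubring ↔ Q ≠ Qinf := by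
  intro Q
  constructor
  · rintro h rfl
    have h1 := h24_ord_nonneg_of_mem Q h
    rw [hord] at h1
    have h2 : (0 : ℤ) < ν := by exact_mod_cast hν
    linarith
  · intro h
    exact h24_mem_of_ord_nonneg Q (hreg Q h)

/-- **(y-CHART)**: a chart of the reduced level-`M` field whose only pole is the cusp. -/
theorem h51_exists_ychart (M q : ℕ) [NeZero M] [Fact q.Prime] (hqM : ¬ q ∣ M)
    (A : ValuationSubring Qb) (hA : A.LiesOverPrime q) (hch : 5 ≤ q ∨ 2 ∣ M ∨ 3 ∣ M) :
    ∃ y : ↥(modularFunctionFieldFullC (IsLocalRing.ResidueField A) M),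
      h75_IsChart (IsLocalRing.ResidueField A) y ∧
      ∀ Q : Place (IsLocalRing.ResidueField A)
          ↥(modularFunctionFieldFullC (IsLocalRing.ResidueField A) M),
        y ∈ Q.toValuationSubring ↔ Q ≠ h11_placeInftyC (IsLocalRing.ResidueField A) M := by
  have hk : IsAlgClosed (IsLocalRing.ResidueField A) := h19_residueField_isAlgClosed A
  have hchar : CharP (IsLocalRing.ResidueField A) q := h19_residueField_charP A q hA
  have hcharF : CharP ↥(modularFunctionFieldFullC (IsLocalRing.ResidueField A) M) q :=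
    charP_of_injective_algebraMap (algebraMap (IsLocalRing.ResidueField A)
      ↥(modularFunctionFieldFullC (IsLocalRing.ResidueField A) M)).injective q
  have hexp : ExpChar ↥(modularFunctionFieldFullC (IsLocalRing.ResidueField A) M) q :=
    ExpChar.prime Fact.out
  have hq : q.Prime := Fact.out
  have hPM : h10_IsCusp (modularFunctionFieldBar M) (h11_placeInfty M) :=
    fun _ hf => h11_placeInfty_ord M hf
  obtain ⟨ν₀, hν₀⟩ := h10_exists_b M hqM A hA hch hPM
    (h84_isCusp_placeInftyC (M := M) (k := IsLocalRing.ResidueField A))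
  obtain ⟨b, hb, -, -, -, -, -, -, hord, hreg⟩ := hν₀ (q * ν₀ + 1)
    (le_trans (Nat.le_mul_of_pos_left ν₀ hq.pos) (Nat.le_succ _))
  have hndvd : ¬ q ∣ q * ν₀ + 1 := by
    intro h
    have h1 : q ∣ 1 := (Nat.dvd_add_right (dvd_mul_right q ν₀)).mp h
    exact hq.one_lt.ne' (Nat.dvd_one.mp h1)
  exact ⟨(h39_modRed M hqM A hA).red ⟨b, hb⟩,
    h51_isChart_of_pole q hq (h84_isChart_jk M q hqM A hA) _ _ (q * ν₀ + 1) hndvd hord,
    h51_pole_iff _ _ (q * ν₀ + 1) (Nat.succ_pos _) hord hreg⟩

end Fermat.Agent.S34
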