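import Mathlib
import Fermat.Agent.S34.h87_ChartRows
import Fermat.Agent.S34.h20_NodeFinal

/-!
# S34 row TOP / CHART-INSTANCE, generic half with Frobenius nodes

`h87_chartProp_of_frob` : the chart package `h87_ChartProp D m G` from

* (LAT)     `hON`, `hinv`, `hrank`;
* (CUSP)    `D0 ≥ 0` of degree `2`, the place `Qinf`, `g' • D0 = D0` for `g' ∈ G`;
* (INT)     `hreg`;  (LEAD) `hlead₁`, `hlead₂`;
* (FROB)    a Frobenius chart `(x, φ)` of `Fb` whose place permutation fixes `Qinf`;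
* (y-CHART) a chart `y` of `Fb` whose only pole is `Qinf`;
* (GRAPH)   the graphs `(b, φ b)`, `(φ b, b)` of the functions `b` regular off `Qinf` lie in
  `⋃ₙ red (L(n D0) ∩ O)`;
* (X-MOD)   the chart unit;  `m` invertible in `k`.

The node set is produced by `h98_frob_nodes_off` (helper98) applied to `h20_unionAlg D D0`
(helper20); everything else is `h87_chartProp_of_rows`.
-/

set_option autoImplicit false

noncomputable section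

open AlgebraicCurve Module
open Fermat.Agent.S18 Fermat.Agent.S24 Fermat.Agent.S27

namespace Fermat.Agent.S34

/-- **The chart package from the rows, with Frobenius nodes** (generic). -/
theorem h87_chartProp_of_frob {K F k Fb : Type} [Field K] [Field F] [Algebra K F] [Field k]
    [Field Fb] [Algebra k Fb] [IsAlgClosed K] [IsAlgClosed k] {q : ℕ} [Fact q.Prime] [CharP k q]
    {xF : F} (hxF : h75_IsChart K xF) {xb : Fb} (hxb : h75_IsChart k xb)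
    (D : h22_Lat K F k (Fb × Fb)) (hON : h22_ON D)
    (hinv : ∀ (f : F) (hf : f ∈ D.O), IsUnit (D.red ⟨f, hf⟩) → f⁻¹ ∈ D.O)
    (hrank : h39_RankOne D.A)
    (D0 : Divisor K F) (hD0 : 0 ≤ D0) (hdeg : Divisor.degree D0 = 2) (Qinf : Place k Fb)
    (hreg : ∀ n, ∀ a ∈ h51_Rd D (n • D0), a.1 ∈ h16_Linf Qinf n ∧ a.2 ∈ h16_Linf Qinf n)
    (n₁ : ℕ)
    (hlead₁ : ∀ n, n₁ ≤ n → ∃ x ∈ h51_Rd D ((n + 1) • D0),
      x.1 ∉ h16_Linf Qinf n ∧ x.2 ∈ h16_Linf Qinf n)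
    (hlead₂ : ∀ n, n₁ ≤ n → ∃ y ∈ h51_Rd D ((n + 1) • D0),
      y.1 ∈ h16_Linf Qinf n ∧ y.2 ∉ h16_Linf Qinf n)
    {x₀ : Fb} {φ : Fb →+* Fb} (h : h96_IsFrobChart k q x₀ φ) {y : Fb} (hy : h75_IsChart k y)
    (hpole : ∀ Q : Place k Fb, y ∈ Q.toValuationSubring ↔ Q ≠ Qinf)
    (hfix : h96_frobPerm h Qinf = Qinf)
    (hG1 : ∀ b : Fb, (∀ Q : Place k Fb, Q ≠ Qinf → b ∈ Q.toValuationSubring) →
      ∃ n : ℕ, (b, φ b) ∈ h51_Rd D (n • D0))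
    (hG2 : ∀ b : Fb, (∀ Q : Place k Fb, Q ≠ Qinf → b ∈ Q.toValuationSubring) →
      ∃ n : ℕ, (φ b, b) ∈ h51_Rd D (n • D0))
    (c : ℕ) (hc : 0 < c) (x : F) (hx0 : x ≠ 0) (hxO : x ∈ D.O) (hxi : x⁻¹ ∈ D.O)
    (E2 : Divisor K F) (hE2 : ∀ v, 0 ≤ E2 v) (hdisj : ∀ v, (c • D0) v = 0 ∨ E2 v = 0)
    (hdivx : ∀ v : Place K F, v.ord x = E2 v - (c • D0) v)
    (hx1 : (D.redF x).1 ≠ 0) (hx2 : (D.redF x).2 ≠ 0)
    (ho1 : Qinf.ord (D.redF x).1 = -(c : ℤ)) (ho2 : Qinf.ord (D.redF x).2 = -(c : ℤ))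
    (m : ℕ) (hm : (m : k) ≠ 0)
    (G : Set (SemilinearAut K F)) (hG : ∀ g' ∈ G, g' • D0 = D0) :
    h87_ChartProp D m G := by
  obtain ⟨Sg, hSg1, hSg2⟩ := h98_frob_nodes_off h hy Qinf hpole hfix (h20_unionAlg D D0 hD0)
    (fun a ha Q hQ => by
      obtain ⟨n, hn⟩ := ha
      have h12 := hreg n a hn
      exact ⟨h20_rr_Dinf_le_regOff Qinf n h12.1 Q hQ, h20_rr_Dinf_le_regOff Qinf n h12.2 Q hQ⟩)
    hG1 hG2
  have hSg : ∀ Q ∈ Sg, Q ≠ Qinf ∧ h96_frobPerm h Q ≠ Qinf :=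
    fun Q hQ => ⟨(hSg1 Q hQ).1, (hSg1 Q hQ).2.1⟩
  refine h87_chartProp_of_rows hxF hxb D hON hinv hrank D0 hD0 hdeg Qinf hreg n₁ hlead₁ hlead₂
    Sg (h96_frobPerm h) (h96_frobPerm h).injective hSg (fun a => ?_) c hc x hx0 hxO hxi E2 hE2
    hdisj hdivx hx1 hx2 ho1 ho2 m hm G hG
  rw [h20_exists_P_iff Qinf a]
  exact hSg2 a

end Fermat.Agent.S34

end
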