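import Mathlib
import Fermat.Agent.S34.h87_ChartFrob
import Fermat.Agent.S34.h87_TopMq
import Fermat.Agent.S34.h22_LatMqFinal
import Fermat.Agent.S34.h10_XMod
import Fermat.Agent.S34.h84_FrobMod
import Fermat.Agent.S18.h54_ModLevel

/-!
# S34 row TOP / CHART-INSTANCE at level `Mq`

`q ∤ M` prime, `A` a valuation ring of `ℚ̄` over `q`, `k` its residue field,
`F = F(Mq)`, `Fb = modularFunctionFieldFullC k M`, `D = h87_D M q hqM A hA` (`= h22_DMq ..`).

* `h87_P0 M q hqM` : the cusp `0'` of `F(Mq)` (order function `f ↦ ord_q (w f)`, `w = h60_w`);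
  `h87_D0 M q hqM := (∞) + (0')` with `∞ = h11_placeInfty (M * q)`;
* the four modular rows still to be proved, as `Prop`s about `D`, `D0` and
  `Qinf = h11_placeInftyC k M`: `h87_RowINT`, `h87_RowLEAD`, `h87_RowGRAPH`, `h87_RowYCHART`;
* `h87_chart_instance` : **the CHART-INSTANCE** `h22_ON D ∧ h87_ChartProp D m (inertia)` from the
  four rows (everything else — LAT, X-MOD, the Frobenius chart, the Galois invariance of `D0`,
  the special-fibre package, NODE assembly, STRICT, LAST — is consumed from main);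
* `h87_geom_of_rows` : the target `<geom>` of `Fermat/Agent/S34.lean` from the four rows at all
  charted levels.
-/

set_option autoImplicit false
set_option synthInstance.maxHeartbeats 400000

noncomputable section

open AlgebraicCurve ModularCurve Module HahnSeries
open Fermat.Agent.S18 Fermat.Agent.S24 Fermat.Agent.S27 Fermat.Agent.S37

namespace Fermat.Agent.S34

local notation "Qb" => AlgebraicClosure ℚ

section Inst

variable (M q : ℕ) [NeZero M] [NeZero q] [Fact q.Prime] (hqM : ¬ q ∣ M)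

/-- The cusp `0'` of `F(Mq)`: the place with order function `f ↦ ord_q (w f)`. -/
def h87_P0 : Place Qb ↥(modularFunctionFieldBar (M * q)) :=
  (h10_exists_cusp0 (h60_w M q hqM) (h60_w_alpha M q hqM) (h60_w_beta M q hqM)).choose

theorem h87_P0_spec : h10_IsCusp0 M q (h60_w M q hqM) (h87_P0 M q hqM) :=
  (h10_exists_cusp0 (h60_w M q hqM) (h60_w_alpha M q hqM) (h60_w_beta M q hqM)).choose_spec

theorem h87_Pinf_spec (N : ℕ) [NeZero N] :
    h10_IsCusp (modularFunctionFieldBar N) (h11_placeInfty N) :=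
  fun _ hf => h11_placeInfty_ord N hf

/-- The cuspidal divisor `(∞) + (0')` of `F(Mq)`. -/
def h87_D0 : Divisor Qb ↥(modularFunctionFieldBar (M * q)) :=
  Finsupp.single (h11_placeInfty (M * q)) (1 : ℤ) + Finsupp.single (h87_P0 M q hqM) (1 : ℤ)

variable (A : ValuationSubring Qb) (hA : A.LiesOverPrime q)

/-- **Row (INT)**: `red (L(n D0) ∩ O) ⊆ L(n Qinf) × L(n Qinf)`. -/
def h87_RowINT : Prop :=
  ∀ n : ℕ, ∀ a ∈ h51_Rd (h87_D M q hqM A hA) (n • h87_D0 M q hqM),
    a.1 ∈ h16_Linf (h11_placeInftyC (IsLocalRing.ResidueField A) M) n ∧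
      a.2 ∈ h16_Linf (h11_placeInftyC (IsLocalRing.ResidueField A) M) n

/-- **Row (LEAD)**: for all large `n` there are elements of `red (L((n+1) D0) ∩ O)` with a pole
of order `n + 1` at `Qinf` in exactly one coordinate. -/
def h87_RowLEAD : Prop :=
  ∃ n₁ : ℕ,
    (∀ n, n₁ ≤ n → ∃ x ∈ h51_Rd (h87_D M q hqM A hA) ((n + 1) • h87_D0 M q hqM),
      x.1 ∉ h16_Linf (h11_placeInftyC (IsLocalRing.ResidueField A) M) n ∧
        x.2 ∈ h16_Linf (h11_placeInftyC (IsLocalRing.ResidueField A) M) n) ∧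
    (∀ n, n₁ ≤ n → ∃ y ∈ h51_Rd (h87_D M q hqM A hA) ((n + 1) • h87_D0 M q hqM),
      y.1 ∈ h16_Linf (h11_placeInftyC (IsLocalRing.ResidueField A) M) n ∧
        y.2 ∉ h16_Linf (h11_placeInftyC (IsLocalRing.ResidueField A) M) n)

/-- **Row (GRAPH)**: the two Frobenius graphs of the functions regular off `Qinf` lie in
`⋃ₙ red (L(n D0) ∩ O)`. -/
def h87_RowGRAPH [CharP (IsLocalRing.ResidueField A) q]
    [PerfectField (IsLocalRing.ResidueField A)] : Prop :=
  (∀ b : ↥(modularFunctionFieldFullC (IsLocalRing.ResidueField A) M),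
    (∀ Q : Place (IsLocalRing.ResidueField A)
        ↥(modularFunctionFieldFullC (IsLocalRing.ResidueField A) M),
      Q ≠ h11_placeInftyC (IsLocalRing.ResidueField A) M → b ∈ Q.toValuationSubring) →
    ∃ n : ℕ, (b, h60_phi M q (IsLocalRing.ResidueField A) b) ∈
      h51_Rd (h87_D M q hqM A hA) (n • h87_D0 M q hqM)) ∧
  (∀ b : ↥(modularFunctionFieldFullC (IsLocalRing.ResidueField A) M),
    (∀ Q : Place (IsLocalRing.ResidueField A)
        ↥(modularFunctionFieldFullC (IsLocalRing.ResidueField A) M),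
      Q ≠ h11_placeInftyC (IsLocalRing.ResidueField A) M → b ∈ Q.toValuationSubring) →
    ∃ n : ℕ, (h60_phi M q (IsLocalRing.ResidueField A) b, b) ∈
      h51_Rd (h87_D M q hqM A hA) (n • h87_D0 M q hqM))

/-- **Row (y-CHART)**: a chart of `Fb` whose only pole is `Qinf`. -/
def h87_RowYCHART : Prop :=
  ∃ y : ↥(modularFunctionFieldFullC (IsLocalRing.ResidueField A) M),
    h75_IsChart (IsLocalRing.ResidueField A) y ∧
      ∀ Q : Place (IsLocalRing.ResidueField A)
          ↥(modularFunctionFieldFullC (IsLocalRing.ResidueField A) M),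
        y ∈ Q.toValuationSubring ↔ Q ≠ h11_placeInftyC (IsLocalRing.ResidueField A) M

/-- `h87_D` is helper22's `h22_DMq`. -/
theorem h87_D_eq_DMq : h87_D M q hqM A hA = h22_DMq M q hqM A hA := rfl

/-- **[G1]** for `h87_D`. -/
theorem h87_D_on : h22_ON (h87_D M q hqM A hA) := h22_DMq_on M q hqM A hA

/-- The degree of the cuspidal divisor is `2`. -/
theorem h87_D0_degree : Divisor.degree (h87_D0 M q hqM) = 2 := by
  have h1 : ∀ P : Place Qb ↥(modularFunctionFieldBar (M * q)), P.deg = 1 :=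
    h73_deg_eq_one (h88_isFF (M * q))
  rw [h87_D0, map_add, Divisor.degree_single, Divisor.degree_single, h1, h1]
  norm_num

/-- The inertia group fixes the cuspidal divisor. -/
theorem h87_D0_gal (σ : Qb ≃ₐ[ℚ] Qb) :
    arithmeticGalois (modularFunctionFieldFull (M * q)) σ • h87_D0 M q hqM = h87_D0 M q hqM :=
  h10_hgD0 (h60_w M q hqM) (fun σ x => h60_w_galois M q hqM σ x) σ (h87_Pinf_spec (M * q))
    (h87_P0_spec M q hqM)

/-- The cuspidal divisor is effective. -/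
theorem h87_D0_nonneg : 0 ≤ h87_D0 M q hqM := by
  classical
  intro v
  have h1 : (0 : ℤ) ≤ (Finsupp.single (h11_placeInfty (M * q)) (1 : ℤ)) v := by
    rw [Finsupp.single_apply]
    split_ifs <;> norm_num
  have h2 : (0 : ℤ) ≤ (Finsupp.single (h87_P0 M q hqM) (1 : ℤ)) v := by
    rw [Finsupp.single_apply]
    split_ifs <;> norm_num
  show (0 : ℤ) ≤ (Finsupp.single (h11_placeInfty (M * q)) (1 : ℤ) +
    Finsupp.single (h87_P0 M q hqM) (1 : ℤ)) v
  rw [Finsupp.add_apply]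
  exact add_nonneg h1 h2

set_option maxHeartbeats 1600000 in
/-- **The chart unit (X-MOD) for `h87_D`** (helper10's `x = α(b) β(b)`, `c = (q + 1) ν`). -/
theorem h87_chart_unit [CharP (IsLocalRing.ResidueField A) q]
    [PerfectField (IsLocalRing.ResidueField A)] (hch : 5 ≤ q ∨ 2 ∣ M ∨ 3 ∣ M) :
    ∃ (c : ℕ) (x : ↥(modularFunctionFieldBar (M * q)))
      (E2 : Divisor Qb ↥(modularFunctionFieldBar (M * q))),
      0 < c ∧ x ≠ 0 ∧ x ∈ (h87_D M q hqM A hA).O ∧ x⁻¹ ∈ (h87_D M q hqM A hA).O ∧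
      (∀ v, 0 ≤ E2 v) ∧ (∀ v, (c • h87_D0 M q hqM) v = 0 ∨ E2 v = 0) ∧
      (∀ v : Place Qb ↥(modularFunctionFieldBar (M * q)),
        v.ord x = E2 v - (c • h87_D0 M q hqM) v) ∧
      ((h87_D M q hqM A hA).redF x).1 ≠ 0 ∧ ((h87_D M q hqM A hA).redF x).2 ≠ 0 ∧
      (h11_placeInftyC (IsLocalRing.ResidueField A) M).ord ((h87_D M q hqM A hA).redF x).1 =
        -(c : ℤ) ∧
      (h11_placeInftyC (IsLocalRing.ResidueField A) M).ord ((h87_D M q hqM A hA).redF x).2 =
        -(c : ℤ) := by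
  classical
  have hq : q.Prime := Fact.out
  -- cusps
  have hPM : h10_IsCusp (modularFunctionFieldBar M) (h11_placeInfty M) := h87_Pinf_spec M
  have hPinf : h10_IsCusp (modularFunctionFieldBar (M * q)) (h11_placeInfty (M * q)) :=
    h87_Pinf_spec (M * q)
  have hP0 := h87_P0_spec M q hqM
  have hQ : h10_IsCusp (modularFunctionFieldFullC (IsLocalRing.ResidueField A) M)
      (h11_placeInftyC (IsLocalRing.ResidueField A) M) := h84_isCusp_placeInftyC
  -- the chart unit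
  obtain ⟨ν₀, hν⟩ := h10_exists_b M hqM A hA hch hPM hQ
  obtain ⟨b, hb, hb0, hbi, hbord, hbreg, -, hrne, hQord, -⟩ := hν (ν₀ + 1) (Nat.le_succ ν₀)
  have hRM := h39_modRed_spec M hqM A hA
  obtain ⟨-, hx0, -, E2, hE2, hdisj, hdivx⟩ :=
    h10_xmod_div (h60_w M q hqM) (h60_w_alpha M q hqM) (h60_w_beta M q hqM) (h60_w_w M q hqM)
      hq hqM hPM hPinf hP0 b hb0 (ν₀ + 1) hbord hbreg
  obtain ⟨hxO, hxi⟩ := h10_xmod_mem q hqM hA hRM (h60_w M q hqM) (h60_w_alpha M q hqM)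
    (h60_w_beta M q hqM) (h60_R2 M q hqM A hA) (fun f => h60_R2_mem_iff M q hqM A hA f) b hb hbi
  obtain ⟨hr1, hr2⟩ := h10_xmod_red q hqM hA hRM (h60_w M q hqM) (h60_w_alpha M q hqM)
    (h60_w_beta M q hqM) (h60_R2 M q hqM A hA) (fun f => h60_R2_mem_iff M q hqM A hA f)
    (fun f _ => h60_R2_redF M q hqM A hA f) b hb
  have hred := h87_D_redF M q hqM A hA hxO.1 hxO.2
  rw [hr1, hr2] at hred
  have hxb0 : (h39_modRed M hqM A hA).red ⟨b, hb⟩ *
      h60_phi M q (IsLocalRing.ResidueField A) ((h39_modRed M hqM A hA).red ⟨b, hb⟩) ≠ 0 :=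
    mul_ne_zero hrne ((map_ne_zero _).mpr hrne)
  have hxbord : (h11_placeInftyC (IsLocalRing.ResidueField A) M).ord
      ((h39_modRed M hqM A hA).red ⟨b, hb⟩ *
        h60_phi M q (IsLocalRing.ResidueField A) ((h39_modRed M hqM A hA).red ⟨b, hb⟩)) =
      -(((q + 1) * (ν₀ + 1) : ℕ) : ℤ) := by
    rw [h10_xbar_ord q hQ _ hrne, ← hQ _ hrne, hQord]
    push_cast
    ring
  refine ⟨(q + 1) * (ν₀ + 1), heckeAlphaBar Qb M q b * heckeBetaBar Qb M q b, E2,
    Nat.mul_pos (Nat.succ_pos q) (Nat.succ_pos ν₀), hx0, hxO, hxi, hE2, hdisj, hdivx, ?_, ?_, ?_,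
    ?_⟩
  · rw [hred]
    exact hxb0
  · rw [hred]
    exact hxb0
  · rw [hred]
    exact hxbord
  · rw [hred]
    exact hxbord

/-- **The CHART-INSTANCE at level `Mq`** from the four modular rows. -/
theorem h87_chart_instance [CharP (IsLocalRing.ResidueField A) q]
    [PerfectField (IsLocalRing.ResidueField A)] (hch : 5 ≤ q ∨ 2 ∣ M ∨ 3 ∣ M)
    (hINT : h87_RowINT M q hqM A hA) (hLEAD : h87_RowLEAD M q hqM A hA)
    (hGRAPH : h87_RowGRAPH M q hqM A hA) (hY : h87_RowYCHART M A)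
    (m : ℕ) (hm : ¬ q ∣ m) :
    h22_ON (h87_D M q hqM A hA) ∧
      h87_ChartProp (h87_D M q hqM A hA) m (h87_inertiaSet (M * q) A) := by
  refine ⟨h87_D_on M q hqM A hA, ?_⟩
  have : IsAlgClosed (IsLocalRing.ResidueField A) := h19_residueField_isAlgClosed A
  obtain ⟨c, x, E2, hc, hx0, hxO, hxi, hE2, hdisj, hdivx, hx1, hx2, ho1, ho2⟩ :=
    h87_chart_unit M q hqM A hA hch
  have hF := h84_isFrobChart_jk M q hqM A hA
  obtain ⟨y, hy, hpole⟩ := hY
  obtain ⟨n₁, hlead₁, hlead₂⟩ := hLEAD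
  have hmk : (m : IsLocalRing.ResidueField A) ≠ 0 := by
    rw [Ne, CharP.cast_eq_zero_iff (IsLocalRing.ResidueField A) q]
    exact hm
  have hG : ∀ g' ∈ h87_inertiaSet (M * q) A, g' • h87_D0 M q hqM = h87_D0 M q hqM := by
    rintro g' ⟨τ, -, rfl⟩
    exact h87_D0_gal M q hqM τ
  exact h87_chartProp_of_frob (h54_isChart_jbar (M * q)) (h84_isChart_jk M q hqM A hA)
    (h87_D M q hqM A hA) (h87_D_on M q hqM A hA) (h87_D_hinv M q hqM A hA)
    (h22_DMq_rankOne M q hqM A hA) (h87_D0 M q hqM) (h87_D0_nonneg M q hqM)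
    (h87_D0_degree M q hqM) (h11_placeInftyC (IsLocalRing.ResidueField A) M) hINT n₁ hlead₁
    hlead₂ hF hy hpole (h84_frobPerm_placeInftyC hF) hGRAPH.1 hGRAPH.2 c hc x hx0 hxO hxi E2 hE2
    hdisj hdivx hx1 hx2 ho1 ho2 m hmk (h87_inertiaSet (M * q) A) hG

end Inst

/-- **S34: the target `<geom>` from the four modular rows at the charted levels.** -/
theorem h87_geom_of_rows
    (hINT : ∀ (M q : ℕ) [NeZero M] [NeZero q] [Fact q.Prime] (hqM : ¬ q ∣ M),
      (5 ≤ q ∨ 2 ∣ M ∨ 3 ∣ M) → ∀ (A : ValuationSubring Qb) (hA : A.LiesOverPrime q),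
        h87_RowINT M q hqM A hA)
    (hLEAD : ∀ (M q : ℕ) [NeZero M] [NeZero q] [Fact q.Prime] (hqM : ¬ q ∣ M),
      (5 ≤ q ∨ 2 ∣ M ∨ 3 ∣ M) → ∀ (A : ValuationSubring Qb) (hA : A.LiesOverPrime q),
        h87_RowLEAD M q hqM A hA)
    (hGRAPH : ∀ (M q : ℕ) [NeZero M] [NeZero q] [Fact q.Prime] (hqM : ¬ q ∣ M),
      (5 ≤ q ∨ 2 ∣ M ∨ 3 ∣ M) → ∀ (A : ValuationSubring Qb) (hA : A.LiesOverPrime q)
        [CharP (IsLocalRing.ResidueField A) q] [PerfectField (IsLocalRing.ResidueField A)],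
        h87_RowGRAPH M q hqM A hA)
    (hY : ∀ (M q : ℕ) [NeZero M] [NeZero q] [Fact q.Prime], ¬ q ∣ M →
      (5 ≤ q ∨ 2 ∣ M ∨ 3 ∣ M) → ∀ A : ValuationSubring Qb, A.LiesOverPrime q →
        h87_RowYCHART M A)
    (N q : ℕ) [NeZero N] (hq : q.Prime) (hqN : q ∣ N) (hq2 : ¬ q ^ 2 ∣ N) :
    h29_UnipGeom N q := by
  refine h87_geom_of_chart (fun M q _ _ _ hqM hch A hA m hm => ?_) N q hq hqN hq2
  have : CharP (IsLocalRing.ResidueField A) q := h19_residueField_charP A q hA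
  have : IsAlgClosed (IsLocalRing.ResidueField A) := h19_residueField_isAlgClosed A
  exact h87_chart_instance M q hqM A hA hch (hINT M q hqM hch A hA) (hLEAD M q hqM hch A hA)
    (hGRAPH M q hqM hch A hA) (hY M q hqM hch A hA) m hm

end Fermat.Agent.S34

end
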