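import Mathlib
import Fermat.Agent.S34.h87_ChartInst
import Fermat.Agent.S34.h17_IntModInst
import Fermat.Agent.S34.h31_Lead
import Fermat.Agent.S34.h31_GraphInst
import Fermat.Agent.S34.h31_YChart

/-!
# S34: the four modular rows of `h87_geom_of_rows`, and the closed `<geom>` (helper60)

* `h60_rowINT`    : `h87_RowINT`    from `h17_int_mod`;
* `h60_rowLEAD`   : `h87_RowLEAD`   from `h31_lead`;
* `h60_rowGRAPH`  : `h87_RowGRAPH`  from `h31_graph_D₁` / `h31_graph_D₂`;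
* `h60_rowYCHART` : `h87_RowYCHART` from `h31_ychart`;
* `h60_unipGeom`  : `h29_UnipGeom N q` for every prime `q ∥ N` — the `<geom>` input of
  `h29_S34_of_geom`.
-/

set_option autoImplicit false
set_option synthInstance.maxHeartbeats 400000

noncomputable section

open AlgebraicCurve ModularCurve Module HahnSeries
open Fermat.Agent.S18 Fermat.Agent.S24 Fermat.Agent.S27 Fermat.Agent.S37

namespace Fermat.Agent.S34

local notation "Qb" => AlgebraicClosure ℚ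

/-- **Row (INT)**, closed. -/
theorem h60_rowINT (M q : ℕ) [NeZero M] [NeZero q] [Fact q.Prime] (hqM : ¬ q ∣ M)
    (hch : 5 ≤ q ∨ 2 ∣ M ∨ 3 ∣ M) (A : ValuationSubring Qb) (hA : A.LiesOverPrime q) :
    h87_RowINT M q hqM A hA :=
  h17_int_mod M q hqM A hA hch (h87_Pinf_spec (M * q)) (h87_P0_spec M q hqM)

/-- **Row (LEAD)**, closed. -/
theorem h60_rowLEAD (M q : ℕ) [NeZero M] [NeZero q] [Fact q.Prime] (hqM : ¬ q ∣ M)
    (hch : 5 ≤ q ∨ 2 ∣ M ∨ 3 ∣ M) (A : ValuationSubring Qb) (hA : A.LiesOverPrime q) :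
    h87_RowLEAD M q hqM A hA :=
  h31_lead M q hqM A hA hch (h87_Pinf_spec (M * q)) (h87_P0_spec M q hqM)

/-- **Row (GRAPH)**, closed. -/
theorem h60_rowGRAPH (M q : ℕ) [NeZero M] [NeZero q] [Fact q.Prime] (hqM : ¬ q ∣ M)
    (hch : 5 ≤ q ∨ 2 ∣ M ∨ 3 ∣ M) (A : ValuationSubring Qb) (hA : A.LiesOverPrime q)
    [CharP (IsLocalRing.ResidueField A) q] [PerfectField (IsLocalRing.ResidueField A)] :
    h87_RowGRAPH M q hqM A hA :=
  ⟨h31_graph_D₁ M q hqM A hA hch (h87_Pinf_spec (M * q)) (h87_P0_spec M q hqM),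
    h31_graph_D₂ M q hqM A hA hch (h87_Pinf_spec (M * q)) (h87_P0_spec M q hqM)⟩

/-- **Row (y-CHART)**, closed. -/
theorem h60_rowYCHART (M q : ℕ) [NeZero M] [NeZero q] [Fact q.Prime] (hqM : ¬ q ∣ M)
    (hch : 5 ≤ q ∨ 2 ∣ M ∨ 3 ∣ M) (A : ValuationSubring Qb) (hA : A.LiesOverPrime q) :
    h87_RowYCHART M A :=
  h31_ychart M q hqM A hA hch

/-- **S34 `<geom>`, closed**: the unipotent geometry at every prime `q ∥ N`. -/
theorem h60_unipGeom (N q : ℕ) [NeZero N] (hq : q.Prime) (hqN : q ∣ N) (hq2 : ¬ q ^ 2 ∣ N) :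
    h29_UnipGeom N q :=
  h87_geom_of_rows
    (fun M q _ _ _ hqM hch A hA => h60_rowINT M q hqM hch A hA)
    (fun M q _ _ _ hqM hch A hA => h60_rowLEAD M q hqM hch A hA)
    (fun M q _ _ _ hqM hch A hA _ _ => h60_rowGRAPH M q hqM hch A hA)
    (fun M q _ _ _ hqM hch A hA => h60_rowYCHART M q hqM hch A hA)
    N q hq hqN hq2

end Fermat.Agent.S34

end
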