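import Mathlib
import Fermat.Agent.S34.h51_Last
import Fermat.Agent.S34.h63_PatchFinal

/-!
# S34: the last-step statement `h51_LastStep` from the list (L)  (LAST-63)

`h63_lastStep` : the canonical last-step statement `h51_LastStep D E1 N0 m` of `h51_Last.lean`
(board #2671 (S3)) from EXACTLY the list (L) of the project lead, plus a nonzero nonunit `π` of
the valuation ring (amendment #2747 (2)): a lattice datum with (ON), rank one, a chart unit `x`
with `div x = E2 - E1`, strictness of the reductions along `E1`, and `m` invertible in the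
residue field.  Proof: `h63_exists_section` (two-chart patching of an `m`-th root, `h63_patch_fg`).

Consumer: `h51_G_of_last` (chart data + `h51_LastStep` + Galois invariance ⟹ clause (G)).
-/

set_option autoImplicit false

noncomputable section

open AlgebraicCurve Module
open Fermat.Agent.S18

namespace Fermat.Agent.S34

variable {K F k Rb : Type*} [Field K] [Field F] [Algebra K F] [Field k] [CommRing Rb]
  [Algebra k Rb]

/-- **LAST-63**: `h51_LastStep` from the list (L). -/
theorem h63_lastStep (D : h22_Lat K F k Rb) (hON : h22_ON D) [Nontrivial Rb]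
    (hinv : ∀ (f : F) (hf : f ∈ D.O), IsUnit (D.red ⟨f, hf⟩) → f⁻¹ ∈ D.O)
    (hrank : h39_RankOne D.A) (π : K) (hπ : π ∈ D.A.nonunits) (hπ0 : π ≠ 0)
    (hfin : ∀ D' : Divisor K F, FiniteDimensional K (riemannRochSpace D'))
    (x : F) (hx0 : x ≠ 0) (hx : x ∈ D.O) (hxi : x⁻¹ ∈ D.O)
    (E1 E2 : Divisor K F) (hE1 : ∀ v, 0 ≤ E1 v) (hE2 : ∀ v, 0 ≤ E2 v)
    (hdisj : ∀ v, E1 v = 0 ∨ E2 v = 0) (hdivx : ∀ v : Place K F, v.ord x = E2 v - E1 v)
    (N0 : ℕ)
    (hstrict : ∀ n, N0 ≤ n → ∀ a ∈ h51_Rd D ((n + 1) • E1),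
      ∃ b ∈ h51_Rd D (n • E1), ∃ c ∈ h51_Rd D (n • E1), a = b + D.redF x * c)
    (m : ℕ) (hm : (m : k) ≠ 0) : h51_LastStep D E1 N0 m := by
  rintro Ez uz - huz hdiv ⟨huO, hured⟩ htriv
  -- `m` is a unit of `A`
  have hmA : (m : K) ∈ D.A := natCast_mem D.A m
  have hres : D.res ⟨(m : K), hmA⟩ = (m : k) := by
    have h1 : (⟨(m : K), hmA⟩ : D.A) = ((m : ℕ) : D.A) := Subtype.ext rfl
    rw [h1, map_natCast]
  have hnon : (m : K) ∉ D.A.nonunits := fun h =>
    hm (by rw [← hres]; exact (h22_res_eq_zero_iff D ⟨_, hmA⟩).mpr h)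
  have hval : D.A.valuation (m : K) = 1 := by
    apply le_antisymm ((D.A.valuation_le_one_iff _).mpr hmA)
    by_contra hlt
    exact hnon (D.A.mem_nonunits_iff.mpr (not_le.mp hlt))
  have hmK : (m : K) ≠ 0 := by
    intro h0
    rw [h0, map_zero] at hval
    exact zero_ne_one hval
  have hminv : ((m : K))⁻¹ ∈ D.A := by
    rw [← D.A.valuation_le_one_iff, map_inv₀, hval, inv_one]
  obtain ⟨e, he, -, hered⟩ := h63_exists_section D hON hinv hrank π hπ hπ0 m hmK hminv hfin E1 E2
    hE1 hE2 hdisj x hx0 hx hxi hdivx Ez uz huz hdiv huO hured N0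
    (fun n hn => by
      have h := htriv 1 n hn
      rwa [one_smul] at h)
    hstrict
  refine ⟨e, ?_, he⟩
  rintro rfl
  have h1 : D.redF (0 : F) = 0 := by
    rw [D.redF_of_mem D.O.zero_mem]
    exact map_zero D.red
  rw [h1] at hered
  exact zero_ne_one hered

end Fermat.Agent.S34

end
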