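import Mathlib
import Fermat.Agent.S34.h51_Glue

/-!
# S34 (route R63): strictness of the reductions on a chart, by counting

`G n := red (L(n D1) ∩ O)` for a lattice datum `D : h22_Lat K F k Rb` with (ON), `x` a unit of
`O` with polar divisor `D1`.  The hypothesis `hstr` of `h63_exists_section` /
`h63_principal_of_trivial_gluing`,

  `G (n+1) ⊆ G n + x̄ G n`  for large `n`,

follows from the Riemann–Roch dimension formula `dim L(n D1) = n d + χ` on `F` and the pole-order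
statement

  (DIVX)  `b ∈ G (n+1)`, `x̄ b ∈ G (n+1)` ⟹ `b ∈ G n`

(`h63_strict_of_count`): `dim (G n + x̄ G n) = 2 dim G n - dim (G n ∩ x̄ G n)
≥ 2 dim G n - dim G (n-1) = dim G (n+1)`.

(DIVX) in turn follows from helper51's `(NODE)` description of `G` and the pole-order statement
for the chart spaces `P` on the special fibre (`h63_divx_of_node`): `a ∈ P`, `x̄ a ∈ P` at level
`n+1` ⟹ `a ∈ P` at level `n` (i.e. `x̄` has exact polar divisor the reduction of `D1`).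
-/

set_option autoImplicit false

noncomputable section

open AlgebraicCurve Module

namespace Fermat.Agent.S34

variable {K F k Rb : Type*} [Field K] [Field F] [Algebra K F] [Field k] [CommRing Rb]
  [Algebra k Rb]

/-- `red (L(E) ∩ O)` is finite-dimensional. -/
theorem h63_Rd_finite (D : h22_Lat K F k Rb) (hON : h22_ON D) (E : Divisor K F)
    [Module.Finite K (riemannRochSpace E)] : Module.Finite k (h51_Rd D E) := by
  obtain ⟨e, heV, heO, hind⟩ := hON (riemannRochSpace E) inferInstance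
  have hle : h51_Rd D E ≤ Submodule.span k (Set.range fun i => D.redF (e i)) := by
    rintro a ⟨f, hf, hfO, rfl⟩
    obtain ⟨c, hc, hcA⟩ := h22_on_span D (riemannRochSpace E) e heV heO hind f hf
    rw [hc, h22_redF_sum_smul D Finset.univ c e (hcA hfO) heO]
    exact Submodule.sum_mem _ fun i _ =>
      Submodule.smul_mem _ _ (Submodule.subset_span ⟨i, rfl⟩)
  have hfin : Module.Finite k (Submodule.span k (Set.range fun i => D.redF (e i))) :=
    FiniteDimensional.span_of_finite k (Set.finite_range _)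
  exact Submodule.finiteDimensional_of_le hle

/-- Monotonicity of `red (L(B) ∩ O)` in the divisor. -/
theorem h63_Rd_mono (D : h22_Lat K F k Rb) {B B' : Divisor K F} (h : ∀ v, B v ≤ B' v) :
    h51_Rd D B ≤ h51_Rd D B' := by
  rintro a ⟨f, hf, hfO, rfl⟩
  refine ⟨f, ?_, hfO, rfl⟩
  rw [mem_riemannRochSpace_iff] at hf ⊢
  intro v
  rcases hf v with h0 | h0
  · left; exact h0
  · right
    have := h v
    linarith

/-- **Strictness by counting.**  See the file header. -/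
theorem h63_strict_of_count (D : h22_Lat K F k Rb) (hON : h22_ON D)
    (D1 D2 : Divisor K F) (hD1 : ∀ v, 0 ≤ D1 v) (hD2 : ∀ v, 0 ≤ D2 v)
    (hfin : ∀ n : ℕ, Module.Finite K (riemannRochSpace (n • D1)))
    (x : F) (hx0 : x ≠ 0) (hxO : x ∈ D.O) (hxinvO : x⁻¹ ∈ D.O)
    (hxdiv : ∀ v : Place K F, v.ord x = D2 v - D1 v)
    (d χ : ℤ) (n0 : ℕ)
    (hdim : ∀ n, n0 ≤ n → (Module.finrank K (riemannRochSpace (n • D1)) : ℤ) = n * d + χ)
    (hdivx : ∀ n, n0 ≤ n → ∀ b ∈ h51_Rd D ((n + 1) • D1),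
      D.redF x * b ∈ h51_Rd D ((n + 1) • D1) → b ∈ h51_Rd D (n • D1)) :
    ∀ n, n0 + 1 ≤ n → ∀ a ∈ h51_Rd D ((n + 1) • D1),
      ∃ b ∈ h51_Rd D (n • D1), ∃ c ∈ h51_Rd D (n • D1), a = b + D.redF x * c := by
  intro n hn a ha
  obtain ⟨n', rfl⟩ : ∃ n', n = n' + 1 := ⟨n - 1, by omega⟩
  have hn' : n0 ≤ n' := by omega
  have hfinG : ∀ j : ℕ, Module.Finite k (h51_Rd D (j • D1)) := fun j => by
    have := hfin j
    exact h63_Rd_finite D hON _
  have hGdim : ∀ j : ℕ, n0 ≤ j → (Module.finrank k (h51_Rd D (j • D1)) : ℤ) = j * d + χ := by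
    intro j hj
    have := hfin j
    rw [h51_finrank_Rd D hON]
    exact hdim j hj
  have hxD1 : x ∈ riemannRochSpace D1 := by
    rw [mem_riemannRochSpace_iff]
    intro v
    right
    rw [hxdiv v]
    have := hD2 v
    linarith
  have hxx : D.redF x⁻¹ * D.redF x = 1 := by
    rw [← h51_redF_mul D hxinvO hxO, inv_mul_cancel₀ hx0, h51_redF_one]
  let μ : Rb →ₗ[k] Rb := LinearMap.mulLeft k (D.redF x)
  have hμ : ∀ y : Rb, μ y = D.redF x * y := fun y => rfl
  have hμinj : Function.Injective μ := by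
    intro y z hyz
    rw [hμ, hμ] at hyz
    have h1 : D.redF x⁻¹ * (D.redF x * y) = D.redF x⁻¹ * (D.redF x * z) := by rw [hyz]
    rwa [← mul_assoc, ← mul_assoc, hxx, one_mul, one_mul] at h1
  have hU : h51_Rd D ((n' + 1) • D1) ≤ h51_Rd D ((n' + 1 + 1) • D1) := by
    apply h63_Rd_mono D
    intro v
    rw [Finsupp.smul_apply, Finsupp.smul_apply, nsmul_eq_mul, nsmul_eq_mul]
    have := hD1 v
    push_cast
    nlinarith
  have hV : (h51_Rd D ((n' + 1) • D1)).map μ ≤ h51_Rd D ((n' + 1 + 1) • D1) := by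
    rintro _ ⟨b, ⟨f, hf, hfO, rfl⟩, rfl⟩
    refine ⟨x * f, ?_, D.O.mul_mem hxO hfO, h51_redF_mul D hxO hfO⟩
    have h1 := h51_mul_mem_rr hxD1 hf
    rwa [← succ_nsmul'] at h1
  have hcap : h51_Rd D ((n' + 1) • D1) ⊓ (h51_Rd D ((n' + 1) • D1)).map μ ≤
      (h51_Rd D (n' • D1)).map μ := by
    rintro y ⟨hyU, b, hb, rfl⟩
    exact ⟨b, hdivx n' hn' b hb hyU, rfl⟩
  have hmapdim : ∀ j : ℕ, Module.finrank k ((h51_Rd D (j • D1)).map μ) =
      Module.finrank k (h51_Rd D (j • D1)) := fun j =>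
    (Submodule.equivMapOfInjective μ hμinj (h51_Rd D (j • D1))).finrank_eq.symm
  have hfinV : Module.Finite k ((h51_Rd D (n' • D1)).map μ) :=
    Module.Finite.equiv (Submodule.equivMapOfInjective μ hμinj (h51_Rd D (n' • D1)))
  have hdimcap : Module.finrank k
      ↥(h51_Rd D ((n' + 1) • D1) ⊓ (h51_Rd D ((n' + 1) • D1)).map μ) ≤
      Module.finrank k (h51_Rd D (n' • D1)) := by
    rw [← hmapdim n']
    exact Submodule.finrank_mono hcap
  have hsum := Submodule.finrank_sup_add_finrank_inf_eq (h51_Rd D ((n' + 1) • D1))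
    ((h51_Rd D ((n' + 1) • D1)).map μ)
  rw [hmapdim (n' + 1)] at hsum
  have hle : h51_Rd D ((n' + 1) • D1) ⊔ (h51_Rd D ((n' + 1) • D1)).map μ ≤
      h51_Rd D ((n' + 1 + 1) • D1) := sup_le hU hV
  have hge : Module.finrank k (h51_Rd D ((n' + 1 + 1) • D1)) ≤
      Module.finrank k ↥(h51_Rd D ((n' + 1) • D1) ⊔ (h51_Rd D ((n' + 1) • D1)).map μ) := by
    have h1 := hGdim (n' + 1) (by omega)
    have h2 := hGdim n' hn'
    have h3 := hGdim (n' + 1 + 1) (by omega)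
    have h4 : (Module.finrank k
        ↥(h51_Rd D ((n' + 1) • D1) ⊔ (h51_Rd D ((n' + 1) • D1)).map μ) : ℤ) +
        Module.finrank k ↥(h51_Rd D ((n' + 1) • D1) ⊓ (h51_Rd D ((n' + 1) • D1)).map μ) =
        Module.finrank k (h51_Rd D ((n' + 1) • D1)) +
          Module.finrank k (h51_Rd D ((n' + 1) • D1)) := by exact_mod_cast hsum
    have h5 : (Module.finrank k
        ↥(h51_Rd D ((n' + 1) • D1) ⊓ (h51_Rd D ((n' + 1) • D1)).map μ) : ℤ) ≤
        Module.finrank k (h51_Rd D (n' • D1)) := by exact_mod_cast hdimcap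
    have h6 : (Module.finrank k (h51_Rd D ((n' + 1 + 1) • D1)) : ℤ) ≤
        Module.finrank k ↥(h51_Rd D ((n' + 1) • D1) ⊔ (h51_Rd D ((n' + 1) • D1)).map μ) := by
      push_cast at h1 h2 h3
      linarith
    exact_mod_cast h6
  have hfinT := hfinG (n' + 1 + 1)
  have heq := Submodule.eq_of_le_of_finrank_le hle hge
  rw [← heq] at ha
  obtain ⟨b, hb, y, ⟨c, hc, rfl⟩, rfl⟩ := Submodule.mem_sup.mp ha
  exact ⟨b, hb, c, hc, rfl⟩

/-- (DIVX) from helper51's `(NODE)` for `D0` (with `D1 = N • D0`) and the pole-order statement on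
the chart spaces `P` of the special fibre. -/
theorem h63_divx_of_node (D : h22_Lat K F k Rb) (D0 D1 : Divisor K F) (N : ℕ) (hN : 1 ≤ N)
    (hD10 : D1 = N • D0) (P : ℕ → Submodule k Rb)
    (Bs : Subalgebra k Rb) (hPB : ∀ n, ∀ a ∈ P n, a ∈ Bs)
    {Z : Type*} (e1 e2 : Z → (Bs →ₐ[k] k)) (n0 : ℕ)
    (hnode : ∀ n, n0 ≤ n → ∀ a : Rb, a ∈ h51_Rd D (n • D0) ↔
        ∃ h : a ∈ P n, ∀ ν, e2 ν ⟨a, hPB n a h⟩ = e1 ν ⟨a, hPB n a h⟩)
    (xb : Rb)
    (hPdiv : ∀ n, n0 ≤ n → ∀ a ∈ P ((n + 1) * N), xb * a ∈ P ((n + 1) * N) → a ∈ P (n * N)) :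
    ∀ n, n0 ≤ n → ∀ b ∈ h51_Rd D ((n + 1) • D1),
      xb * b ∈ h51_Rd D ((n + 1) • D1) → b ∈ h51_Rd D (n • D1) := by
  intro n hn b hb hxb
  rw [hD10, smul_smul] at hb hxb ⊢
  have h1 : n0 ≤ (n + 1) * N := (hn.trans (Nat.le_succ n)).trans (Nat.le_mul_of_pos_right _ hN)
  have h2 : n0 ≤ n * N := hn.trans (Nat.le_mul_of_pos_right _ hN)
  obtain ⟨hbP, hbν⟩ := (hnode _ h1 b).mp hb
  obtain ⟨hxP, -⟩ := (hnode _ h1 _).mp hxb
  have hbPn := hPdiv n hn b hbP hxP
  exact (hnode _ h2 b).mpr ⟨hbPn, fun ν => hbν ν⟩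

end Fermat.Agent.S34

end
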