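import Mathlib

/-!
# S34 (route R85, Step 4): the decomposition (DEC)  `Λ(a,b) = Λ(a,0) + Λ(0,b) + Λ(n₀,n₀)`

Two charts ("poles on the first fibre" / "poles on the second fibre").

* `h98_dec_count` : a monotone bifiltration `G a b` of a `k`-vector space with
  `G a b ⊓ G a' b' ≤ G (min a a') (min b b')` (pole orders) and
  `dim G a b = (a + b) D + χ` for `a + b ≥ n₀` (Riemann–Roch on the special fibre) satisfies
  `G a b = G a 0 ⊔ G 0 b ⊔ G n₀ n₀` for `a, b ≥ n₀`.  (No statement about `G 0 0` is needed: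
  its dimension cancels.)
* `h98_nakayama_dec` : Nakayama lift of such a decomposition to finitely generated lattices.
* `h98_dec` : the two combined.
* `h98_hdec_of_dec` : the union form `∀ x ∈ ⋃ Λ a b, x ∈ Λ a 0 + Λ 0 b + Λ n₀ n₀` for suitable
  `a, b`, which is the hypothesis `hdec` of `h98_zariski_fg`.
-/

set_option autoImplicit false

namespace Fermat.Agent.S34

open IsLocalRing Module

section Count

variable {k W : Type*} [Field k] [AddCommGroup W] [Module k W]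

/-- **Two-chart count.**  See the file header. -/
theorem h98_dec_count (G : ℕ → ℕ → Submodule k W)
    (hmono : ∀ a b a' b', a ≤ a' → b ≤ b' → G a b ≤ G a' b')
    (hinf : ∀ a b a' b', G a b ⊓ G a' b' ≤ G (min a a') (min b b'))
    (hfin : ∀ a b, FiniteDimensional k (G a b))
    (D : ℤ) (χ : ℤ) (n₀ : ℕ)
    (hdim : ∀ a b, n₀ ≤ a + b → (finrank k (G a b) : ℤ) = ((a : ℤ) + b) * D + χ)
    (a b : ℕ) (ha : n₀ ≤ a) (hb : n₀ ≤ b) :
    G a b = G a 0 ⊔ G 0 b ⊔ G n₀ n₀ := by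
  have hfin' := hfin
  -- the intersection of the two one-chart pieces is `G 0 0`, for all `a, b`
  have hcap : ∀ a b, G a 0 ⊓ G 0 b = G 0 0 := by
    intro a b
    apply le_antisymm
    · have := hinf a 0 0 b
      simpa using this
    · exact le_inf (hmono 0 0 a 0 (Nat.zero_le _) le_rfl) (hmono 0 0 0 b le_rfl (Nat.zero_le _))
  -- dimension of the sum of the two one-chart pieces
  have hS : ∀ a b, n₀ ≤ a → n₀ ≤ b →
      (finrank k (G a 0 ⊔ G 0 b : Submodule k W) : ℤ) =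
        ((a : ℤ) + b) * D + 2 * χ - finrank k (G 0 0) := by
    intro a b ha hb
    have h1 := Submodule.finrank_sup_add_finrank_inf_eq (G a 0) (G 0 b)
    rw [hcap] at h1
    have h2 := hdim a 0 (by omega)
    have h3 := hdim 0 b (by omega)
    have h1' : (finrank k (G a 0 ⊔ G 0 b : Submodule k W) : ℤ) + finrank k (G 0 0) =
        finrank k (G a 0) + finrank k (G 0 b) := by exact_mod_cast h1
    rw [h2, h3] at h1'
    push_cast at h1' ⊢
    linarith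
  -- `G n₀ n₀ ⊓ (G a 0 ⊔ G 0 b) = G n₀ 0 ⊔ G 0 n₀`
  have hmeet : (G a 0 ⊔ G 0 b) ⊓ G n₀ n₀ = G n₀ 0 ⊔ G 0 n₀ := by
    apply le_antisymm
    · rintro f ⟨hf1, hf2⟩
      obtain ⟨g, hg, h, hh, rfl⟩ := Submodule.mem_sup.mp hf1
      have hg' : g ∈ G n₀ 0 := by
        have h1 : g ∈ G n₀ b := by
          have : g = (g + h) - h := by abel
          rw [this]
          exact Submodule.sub_mem _ (hmono n₀ n₀ n₀ b le_rfl hb hf2)
            (hmono 0 b n₀ b (Nat.zero_le _) le_rfl hh)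
        have h2 := hinf n₀ b a 0 ⟨h1, hg⟩
        simpa [min_eq_left ha] using h2
      have hh' : h ∈ G 0 n₀ := by
        have h1 : h ∈ G a n₀ := by
          have : h = (g + h) - g := by abel
          rw [this]
          exact Submodule.sub_mem _ (hmono n₀ n₀ a n₀ ha le_rfl hf2)
            (hmono a 0 a n₀ le_rfl (Nat.zero_le _) hg)
        have h2 := hinf a n₀ 0 b ⟨h1, hh⟩
        simpa [min_eq_left hb] using h2
      exact Submodule.add_mem _ (Submodule.mem_sup_left hg') (Submodule.mem_sup_right hh')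
    · refine le_inf (sup_le_sup (hmono _ _ _ _ ha le_rfl) (hmono _ _ _ _ le_rfl hb)) ?_
      exact sup_le (hmono _ _ _ _ le_rfl (Nat.zero_le _)) (hmono _ _ _ _ (Nat.zero_le _) le_rfl)
  -- the sum is contained in `G a b`
  have hle : G a 0 ⊔ G 0 b ⊔ G n₀ n₀ ≤ G a b :=
    sup_le (sup_le (hmono _ _ _ _ le_rfl (Nat.zero_le _)) (hmono _ _ _ _ (Nat.zero_le _) le_rfl))
      (hmono _ _ _ _ ha hb)
  -- dimension count
  have h4 := Submodule.finrank_sup_add_finrank_inf_eq (G a 0 ⊔ G 0 b) (G n₀ n₀)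
  rw [hmeet] at h4
  have h4' : (finrank k (G a 0 ⊔ G 0 b ⊔ G n₀ n₀ : Submodule k W) : ℤ) +
      finrank k (G n₀ 0 ⊔ G 0 n₀ : Submodule k W) =
      finrank k (G a 0 ⊔ G 0 b : Submodule k W) + finrank k (G n₀ n₀) := by exact_mod_cast h4
  rw [hS a b ha hb, hS n₀ n₀ le_rfl le_rfl, hdim n₀ n₀ (by omega)] at h4'
  have h5 := hdim a b (by omega)
  symm
  apply Submodule.eq_of_le_of_finrank_eq hle
  have : (finrank k (G a 0 ⊔ G 0 b ⊔ G n₀ n₀ : Submodule k W) : ℤ) = finrank k (G a b) := by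
    rw [h5]
    linarith
  exact_mod_cast this

end Count

section Nakayama

variable {A M : Type*} [CommRing A] [IsLocalRing A] [AddCommGroup M] [Module A M]

/-- **Nakayama lift of a decomposition.**  `red` is any additive map whose kernel on `Λ` is
`𝔪 Λ`; if the reduction of `Λ` is covered by the reductions of three sublattices, then `Λ` is
their sum (`Λ` finitely generated). -/
theorem h98_nakayama_dec {W : Type*} [AddCommGroup W] (red : M →+ W)
    (L L₁ L₂ L₃ : Submodule A M) (hfg : L.FG)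
    (h₁ : L₁ ≤ L) (h₂ : L₂ ≤ L) (h₃ : L₃ ≤ L)
    (hker : ∀ x ∈ L, red x = 0 → x ∈ maximalIdeal A • L)
    (hred : ∀ x ∈ L, ∃ x₁ ∈ L₁, ∃ x₂ ∈ L₂, ∃ x₃ ∈ L₃, red x = red x₁ + red x₂ + red x₃) :
    L = L₁ ⊔ L₂ ⊔ L₃ := by
  apply le_antisymm
  · apply Submodule.le_of_le_smul_of_le_jacobson_bot hfg (IsLocalRing.maximalIdeal_le_jacobson ⊥)
    intro x hx
    obtain ⟨x₁, hx₁, x₂, hx₂, x₃, hx₃, hx123⟩ := hred x hx
    have hmem : x₁ + x₂ + x₃ ∈ L₁ ⊔ L₂ ⊔ L₃ :=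
      Submodule.add_mem _ (Submodule.add_mem _
        (Submodule.mem_sup_left (Submodule.mem_sup_left hx₁))
        (Submodule.mem_sup_left (Submodule.mem_sup_right hx₂)))
        (Submodule.mem_sup_right hx₃)
    have hdiff : x - (x₁ + x₂ + x₃) ∈ maximalIdeal A • L := by
      apply hker
      · exact Submodule.sub_mem _ hx (Submodule.add_mem _ (Submodule.add_mem _ (h₁ hx₁) (h₂ hx₂))
          (h₃ hx₃))
      · rw [map_sub, map_add, map_add, hx123, sub_self]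
    have : x = (x₁ + x₂ + x₃) + (x - (x₁ + x₂ + x₃)) := by abel
    rw [this]
    exact Submodule.add_mem _ (Submodule.mem_sup_left hmem) (Submodule.mem_sup_right hdiff)
  · exact sup_le (sup_le h₁ h₂) h₃

/-- **(DEC) for lattices.**  `Λ a b` a monotone family of finitely generated `A`-lattices,
`red` additive with kernel `𝔪 Λ a b` on `Λ a b`; `G a b` a bifiltration of a `k`-vector space as
in `h98_dec_count`, equal to `red (Λ a b)` as soon as `a + b ≥ n₀`.  Then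
`Λ a b = Λ a 0 + Λ 0 b + Λ n₀ n₀` for `a, b ≥ n₀`. -/
theorem h98_dec {k W : Type*} [Field k] [AddCommGroup W] [Module k W] (red : M →+ W)
    (Λ : ℕ → ℕ → Submodule A M)
    (hΛmono : ∀ a b a' b', a ≤ a' → b ≤ b' → Λ a b ≤ Λ a' b')
    (hΛfg : ∀ a b, (Λ a b).FG)
    (hker : ∀ a b, ∀ x ∈ Λ a b, red x = 0 → x ∈ maximalIdeal A • Λ a b)
    (G : ℕ → ℕ → Submodule k W)
    (hmono : ∀ a b a' b', a ≤ a' → b ≤ b' → G a b ≤ G a' b')
    (hinf : ∀ a b a' b', G a b ⊓ G a' b' ≤ G (min a a') (min b b'))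
    (hfin : ∀ a b, FiniteDimensional k (G a b))
    (D : ℤ) (χ : ℤ) (n₀ : ℕ)
    (hdim : ∀ a b, n₀ ≤ a + b → (finrank k (G a b) : ℤ) = ((a : ℤ) + b) * D + χ)
    (hG : ∀ a b, n₀ ≤ a + b → ∀ w : W, w ∈ G a b ↔ ∃ x ∈ Λ a b, red x = w)
    (a b : ℕ) (ha : n₀ ≤ a) (hb : n₀ ≤ b) :
    Λ a b = Λ a 0 ⊔ Λ 0 b ⊔ Λ n₀ n₀ := by
  apply h98_nakayama_dec red (Λ a b) (Λ a 0) (Λ 0 b) (Λ n₀ n₀) (hΛfg a b)
    (hΛmono _ _ _ _ le_rfl (Nat.zero_le _)) (hΛmono _ _ _ _ (Nat.zero_le _) le_rfl)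
    (hΛmono _ _ _ _ ha hb) (hker a b)
  intro x hx
  have h1 : red x ∈ G a b := (hG a b (by omega) _).2 ⟨x, hx, rfl⟩
  rw [h98_dec_count G hmono hinf hfin D χ n₀ hdim a b ha hb] at h1
  obtain ⟨u, hu, w₃, hw₃, huw⟩ := Submodule.mem_sup.mp h1
  obtain ⟨w₁, hw₁, w₂, hw₂, hw12⟩ := Submodule.mem_sup.mp hu
  obtain ⟨x₁, hx₁, rfl⟩ := (hG a 0 (by omega) _).1 hw₁
  obtain ⟨x₂, hx₂, rfl⟩ := (hG 0 b (by omega) _).1 hw₂
  obtain ⟨x₃, hx₃, rfl⟩ := (hG n₀ n₀ (by omega) _).1 hw₃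
  exact ⟨x₁, hx₁, x₂, hx₂, x₃, hx₃, by rw [← huw, ← hw12]⟩

/-- Union form of `h98_dec`: every element of `⋃ Λ a b` is a sum of an element of `⋃ Λ a 0`, an
element of `⋃ Λ 0 b` and an element of the single lattice `Λ n₀ n₀`. -/
theorem h98_hdec_of_dec {k W : Type*} [Field k] [AddCommGroup W] [Module k W] (red : M →+ W)
    (Λ : ℕ → ℕ → Submodule A M)
    (hΛmono : ∀ a b a' b', a ≤ a' → b ≤ b' → Λ a b ≤ Λ a' b')
    (hΛfg : ∀ a b, (Λ a b).FG)
    (hker : ∀ a b, ∀ x ∈ Λ a b, red x = 0 → x ∈ maximalIdeal A • Λ a b)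
    (G : ℕ → ℕ → Submodule k W)
    (hmono : ∀ a b a' b', a ≤ a' → b ≤ b' → G a b ≤ G a' b')
    (hinf : ∀ a b a' b', G a b ⊓ G a' b' ≤ G (min a a') (min b b'))
    (hfin : ∀ a b, FiniteDimensional k (G a b))
    (D : ℤ) (χ : ℤ) (n₀ : ℕ)
    (hdim : ∀ a b, n₀ ≤ a + b → (finrank k (G a b) : ℤ) = ((a : ℤ) + b) * D + χ)
    (hG : ∀ a b, n₀ ≤ a + b → ∀ w : W, w ∈ G a b ↔ ∃ x ∈ Λ a b, red x = w)
    (x : M) (a b : ℕ) (hx : x ∈ Λ a b) :
    ∃ a' b', ∃ y ∈ Λ a' 0, ∃ z ∈ Λ 0 b', x - y - z ∈ Λ n₀ n₀ := by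
  have hx' : x ∈ Λ (max a n₀) (max b n₀) :=
    hΛmono _ _ _ _ (le_max_left _ _) (le_max_left _ _) hx
  rw [h98_dec red Λ hΛmono hΛfg hker G hmono hinf hfin D χ n₀ hdim hG (max a n₀) (max b n₀)
    (le_max_right _ _) (le_max_right _ _)] at hx'
  obtain ⟨u, hu, l, hl, hul⟩ := Submodule.mem_sup.mp hx'
  obtain ⟨y, hy, z, hz, hyz⟩ := Submodule.mem_sup.mp hu
  refine ⟨_, _, y, hy, z, hz, ?_⟩
  have : x - y - z = l := by
    rw [← hul, ← hyz]; abel
  rw [this]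
  exact hl

end Nakayama

end Fermat.Agent.S34
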