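import Mathlib
import Fermat.Agent.S34.h51_Glue
import Fermat.Agent.S34.h98_DecCount

/-!
# S34: the `x`-adic two-chart layer

Generic (no modular input).  `D : h22_Lat K F k Rb` a lattice datum (`O = O₁ ∩ O₂`,
`Rb = κ₁ × κ₂` in the application), `x` a unit of `O` with polar divisor `D0` and zero divisor
`D2`.  Every mixed Riemann–Roch space is a translate of a one-chart space,
`L(a D0 + b D2 + E') = x⁻ᵇ L((a+b) D0 + E')`, so helper51's `(CHART)` package for the single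
divisor `D0` controls both charts `D0`, `D2` and all mixed pole orders.

* `h65_Lint D E` : `L(E) ∩ O` as an `A`-submodule of `F`;
* `h65_lint_fg`, `h65_lint_ker` : these lattices are finitely generated, and the kernel of the
  reduction on them is `𝔪_A · lattice`;
* `h65_xadic`, `h65_cap` : the `x`-adic translation and `L(a D0 + E') ∩ L(b D2 + E') = L(E')`;
* `h65_G` : the special-fibre bifiltration `G a b = {w | x̄ᵇ w ∈ P (a+b), node conditions}`;
* `h65_dec` : **(DEC)** `L^int(a D0 + b D2 + E') ⊆ L^int(a' D0 + E') + L^int(b' D2 + E') +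
  L^int(2n₀ D0 + 2n₀ D2 + E')` for every degree-zero `E'` with trivial gluing.
-/

set_option autoImplicit false

noncomputable section

open AlgebraicCurve Module IsLocalRing

namespace Fermat.Agent.S34

variable {K F k Rb : Type*} [Field K] [Field F] [Algebra K F] [Field k] [CommRing Rb]
  [Algebra k Rb]

/-! ### The lattices `L(E) ∩ O` -/

/-- `L(E) ∩ O` as an `A`-submodule of `F`. -/
def h65_Lint (D : h22_Lat K F k Rb) (E : Divisor K F) : Submodule D.A F where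
  carrier := {f | f ∈ riemannRochSpace E ∧ f ∈ D.O}
  zero_mem' := ⟨Submodule.zero_mem _, D.O.zero_mem⟩
  add_mem' := fun ha hb => ⟨Submodule.add_mem _ ha.1 hb.1, D.O.add_mem ha.2 hb.2⟩
  smul_mem' := by
    rintro c f ⟨hf, hfO⟩
    have hc : c • f = (c : K) • f := rfl
    refine ⟨?_, ?_⟩
    · show c • f ∈ riemannRochSpace E
      rw [hc]
      exact Submodule.smul_mem _ _ hf
    · show c • f ∈ D.O
      rw [hc, Algebra.smul_def]
      exact D.O.mul_mem ((D.mem_iff _).mp c.2) hfO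

theorem h65_mem_lint (D : h22_Lat K F k Rb) (E : Divisor K F) (f : F) :
    f ∈ h65_Lint D E ↔ f ∈ riemannRochSpace E ∧ f ∈ D.O := Iff.rfl

theorem h65_smul_def (D : h22_Lat K F k Rb) (c : D.A) (f : F) :
    c • f = algebraMap K F (c : K) * f := by
  rw [Algebra.smul_def]
  rfl

theorem h65_lint_mono (D : h22_Lat K F k Rb) {E E' : Divisor K F} (h : E ≤ E') :
    h65_Lint D E ≤ h65_Lint D E' := by
  rintro f ⟨hf, hfO⟩
  refine ⟨?_, hfO⟩
  rw [mem_riemannRochSpace_iff] at hf ⊢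
  intro v
  rcases hf v with h0 | h1
  · exact Or.inl h0
  · exact Or.inr (le_trans (neg_le_neg (h v)) h1)

/-- The lattices `L(E) ∩ O` are finitely generated (orthonormal bases). -/
theorem h65_lint_fg (D : h22_Lat K F k Rb) (hON : h22_ON D) (E : Divisor K F)
    [Module.Finite K (riemannRochSpace E)] : (h65_Lint D E).FG := by
  classical
  obtain ⟨e, heV, heO, hind⟩ := hON (riemannRochSpace E) inferInstance
  have hspan : h65_Lint D E = Submodule.span D.A (Set.range e) := by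
    apply le_antisymm
    · rintro f ⟨hf, hfO⟩
      obtain ⟨c, hc, hcA⟩ := h22_on_span D (riemannRochSpace E) e heV heO hind f hf
      have hcA' := hcA hfO
      rw [hc]
      refine Submodule.sum_mem _ fun i _ => ?_
      have : c i • e i = (⟨c i, hcA' i⟩ : D.A) • e i := rfl
      rw [this]
      exact Submodule.smul_mem _ _ (Submodule.subset_span ⟨i, rfl⟩)
    · rw [Submodule.span_le]
      rintro _ ⟨i, rfl⟩
      exact ⟨heV i, heO i⟩
  rw [hspan]
  exact Submodule.fg_span (Set.finite_range e)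

/-- On `L(E) ∩ O` the kernel of the reduction is `𝔪_A (L(E) ∩ O)`. -/
theorem h65_lint_ker (D : h22_Lat K F k Rb) (E : Divisor K F) {f : F}
    (hf : f ∈ h65_Lint D E) (h0 : D.redF f = 0) :
    f ∈ maximalIdeal D.A • h65_Lint D E := by
  obtain ⟨hfL, hfO⟩ := hf
  rw [D.redF_of_mem hfO] at h0
  obtain ⟨a, ha, g, hgO, rfl⟩ := D.ker f hfO h0
  have haA : a ∈ D.A := D.A.nonunits_subset ha
  rcases eq_or_ne a 0 with rfl | ha0
  · rw [map_zero, zero_mul]
    exact Submodule.zero_mem _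
  · have hgL : g ∈ riemannRochSpace E := by
      have h1 : g = a⁻¹ • (algebraMap K F a * g) := by
        rw [Algebra.smul_def, ← mul_assoc, ← map_mul, inv_mul_cancel₀ ha0, map_one, one_mul]
      rw [h1]
      exact Submodule.smul_mem _ _ hfL
    have h2 : algebraMap K F a * g = (⟨a, haA⟩ : D.A) • g := (h65_smul_def D ⟨a, haA⟩ g).symm
    rw [h2]
    refine Submodule.smul_mem_smul ?_ ⟨hgL, hgO⟩
    exact (ValuationSubring.coe_mem_nonunits_iff (A := D.A) (a := ⟨a, haA⟩)).mp ha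

/-! ### The `x`-adic translation -/

/-- `L(a D0 + b D2 + E') = x⁻ᵇ L((a + b) D0 + E')` for `div x = D2 - D0`. -/
theorem h65_xadic {x : F} (hx : x ≠ 0) {D0 D2 : Divisor K F}
    (hxdiv : ∀ v : Place K F, v.ord x = D2 v - D0 v) (E' : Divisor K F) (a b : ℕ) (f : F) :
    f ∈ riemannRochSpace (a • D0 + b • D2 + E') ↔
      x ^ b * f ∈ riemannRochSpace ((a + b) • D0 + E') := by
  rw [mem_riemannRochSpace_iff, mem_riemannRochSpace_iff]
  have key : ∀ v : Place K F, f ≠ 0 →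
      (-(a • D0 + b • D2 + E') v ≤ v.ord f ↔ -((a + b) • D0 + E') v ≤ v.ord (x ^ b * f)) := by
    intro v hf
    rw [v.ord_mul (pow_ne_zero b hx) hf]
    have hpow : v.ord (x ^ b) = (b : ℤ) * v.ord x := by
      rw [← zpow_natCast, v.ord_zpow]
    rw [hpow, hxdiv v]
    have e1 : (a • D0 + b • D2 + E') v = (a : ℤ) * D0 v + (b : ℤ) * D2 v + E' v := by
      simp only [Finsupp.add_apply, Finsupp.smul_apply, nsmul_eq_mul]
    have e2 : ((a + b) • D0 + E') v = (a : ℤ) * D0 v + (b : ℤ) * D0 v + E' v := by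
      simp only [Finsupp.add_apply, Finsupp.smul_apply, nsmul_eq_mul]
      push_cast
      ring
    rw [e1, e2]
    constructor <;> intro h <;> linarith
  constructor
  · intro h v
    rcases eq_or_ne f 0 with rfl | hf
    · left
      rw [mul_zero]
    · right
      exact (key v hf).mp ((h v).resolve_left hf)
  · intro h v
    rcases eq_or_ne f 0 with rfl | hf
    · left
      rfl
    · right
      exact (key v hf).mpr ((h v).resolve_left (mul_ne_zero (pow_ne_zero b hx) hf))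

/-- `L(a D0 + E') ∩ L(b D2 + E') = L(E')` when `D0`, `D2` have disjoint supports. -/
theorem h65_cap {D0 D2 : Divisor K F} (hdisj : ∀ v : Place K F, D0 v = 0 ∨ D2 v = 0)
    (E' : Divisor K F) (a b : ℕ) {f : F} (h1 : f ∈ riemannRochSpace (a • D0 + E'))
    (h2 : f ∈ riemannRochSpace (b • D2 + E')) : f ∈ riemannRochSpace E' := by
  rw [mem_riemannRochSpace_iff] at h1 h2 ⊢
  intro v
  rcases eq_or_ne f 0 with rfl | hf
  · left
    rfl
  · right
    rcases hdisj v with h | h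
    · have := (h1 v).resolve_left hf
      simpa [Finsupp.add_apply, Finsupp.smul_apply, h] using this
    · have := (h2 v).resolve_left hf
      simpa [Finsupp.add_apply, Finsupp.smul_apply, h] using this

/-- `xⁿ ∈ L(n D0)` for `div x = D2 - D0`, `D2 ≥ 0`. -/
theorem h65_pow_mem_rr {x : F} {D0 D2 : Divisor K F}
    (hxdiv : ∀ v : Place K F, v.ord x = D2 v - D0 v) (hD2 : 0 ≤ D2) (n : ℕ) :
    x ^ n ∈ riemannRochSpace (n • D0) := by
  rw [mem_riemannRochSpace_iff]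
  intro v
  right
  have hpow : v.ord (x ^ n) = (n : ℤ) * v.ord x := by
    rw [← zpow_natCast, v.ord_zpow]
  rw [hpow, hxdiv v, Finsupp.smul_apply, nsmul_eq_mul]
  have h2 : 0 ≤ D2 v := hD2 v
  have h3 : (0 : ℤ) ≤ (n : ℤ) * D2 v := mul_nonneg (Int.natCast_nonneg n) h2
  linarith

/-! ### The special-fibre bifiltration -/

/-- The node space: elements of `P n` satisfying the node conditions. -/
def h65_Gn (P : ℕ → Submodule k Rb) (Bs : Subalgebra k Rb) (hPB : ∀ n, ∀ a ∈ P n, a ∈ Bs)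
    {Z : Type*} (e1 e2 : Z → (Bs →ₐ[k] k)) (n : ℕ) : Submodule k Rb where
  carrier := {a | ∃ h : a ∈ P n, ∀ ν, e2 ν ⟨a, hPB n a h⟩ = e1 ν ⟨a, hPB n a h⟩}
  zero_mem' := ⟨Submodule.zero_mem _, fun ν => by
    have : (⟨0, hPB n 0 (Submodule.zero_mem _)⟩ : Bs) = 0 := rfl
    rw [this, map_zero, map_zero]⟩
  add_mem' := by
    rintro a b ⟨ha, ha'⟩ ⟨hb, hb'⟩
    refine ⟨Submodule.add_mem _ ha hb, fun ν => ?_⟩
    have : (⟨a + b, hPB n _ (Submodule.add_mem _ ha hb)⟩ : Bs) =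
        ⟨a, hPB n a ha⟩ + ⟨b, hPB n b hb⟩ := rfl
    rw [this, map_add, map_add, ha' ν, hb' ν]
  smul_mem' := by
    rintro c a ⟨ha, ha'⟩
    refine ⟨Submodule.smul_mem _ c ha, fun ν => ?_⟩
    have : (⟨c • a, hPB n _ (Submodule.smul_mem _ c ha)⟩ : Bs) = c • ⟨a, hPB n a ha⟩ := rfl
    rw [this, map_smul, map_smul, ha' ν]

section Gn

variable (P : ℕ → Submodule k Rb) (Bs : Subalgebra k Rb) (hPB : ∀ n, ∀ a ∈ P n, a ∈ Bs)
  {Z : Type*} (e1 e2 : Z → (Bs →ₐ[k] k))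

theorem h65_mem_Gn_iff (n : ℕ) (a : Rb) :
    a ∈ h65_Gn P Bs hPB e1 e2 n ↔
      a ∈ P n ∧ ∀ (hB : a ∈ Bs) (ν : Z), e2 ν ⟨a, hB⟩ = e1 ν ⟨a, hB⟩ :=
  ⟨fun ⟨h, h'⟩ => ⟨h, fun _ ν => h' ν⟩, fun ⟨h, h'⟩ => ⟨h, fun ν => h' _ ν⟩⟩

theorem h65_Gn_le (n : ℕ) : h65_Gn P Bs hPB e1 e2 n ≤ P n := fun _ h => h.1

theorem h65_Gn_mono (hPmono : ∀ n, P n ≤ P (n + 1)) {n n' : ℕ} (h : n ≤ n') :
    h65_Gn P Bs hPB e1 e2 n ≤ h65_Gn P Bs hPB e1 e2 n' := by
  have hP : P n ≤ P n' := by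
    induction h with
    | refl => exact le_rfl
    | step _ ih => exact le_trans ih (hPmono _)
  intro a ha
  rw [h65_mem_Gn_iff] at ha ⊢
  exact ⟨hP ha.1, ha.2⟩

theorem h65_Gn_mul (xb : Rb) (hxB : xb ∈ Bs)
    (hxe : ∀ ν, e2 ν ⟨xb, hxB⟩ = e1 ν ⟨xb, hxB⟩)
    (hxP : ∀ n, ∀ a ∈ P n, xb * a ∈ P (n + 1)) (c : ℕ) {n : ℕ} {a : Rb}
    (ha : a ∈ h65_Gn P Bs hPB e1 e2 n) : xb ^ c * a ∈ h65_Gn P Bs hPB e1 e2 (n + c) := by
  induction c with
  | zero => simpa using ha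
  | succ c ih =>
    rw [h65_mem_Gn_iff] at ih ⊢
    have hmem : xb ^ (c + 1) * a ∈ P (n + (c + 1)) := by
      have := hxP _ _ ih.1
      rw [← mul_assoc, ← pow_succ'] at this
      exact this
    refine ⟨hmem, fun hB ν => ?_⟩
    have hB' : xb ^ c * a ∈ Bs := hPB _ _ ih.1
    have : (⟨xb ^ (c + 1) * a, hB⟩ : Bs) = ⟨xb, hxB⟩ * ⟨xb ^ c * a, hB'⟩ := by
      apply Subtype.ext
      show xb ^ (c + 1) * a = xb * (xb ^ c * a)
      rw [pow_succ']
      ring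
    rw [this, map_mul, map_mul, hxe ν, ih.2 hB' ν]

/-- multiplication by a unit as a linear equivalence -/
def h65_mulEquiv (u v : Rb) (huv : u * v = 1) : Rb ≃ₗ[k] Rb :=
  LinearEquiv.ofLinearMap (LinearMap.mulLeft k u) (LinearMap.mulLeft k v)
    (by
      ext w
      simp only [LinearMap.coe_comp, Function.comp_apply, LinearMap.mulLeft_apply,
        LinearMap.id_coe, id_eq]
      rw [← mul_assoc, huv, one_mul])
    (by
      ext w
      simp only [LinearMap.coe_comp, Function.comp_apply, LinearMap.mulLeft_apply,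
        LinearMap.id_coe, id_eq]
      rw [← mul_assoc, mul_comm v u, huv, one_mul])

/-- The special-fibre bifiltration: `w ∈ G a b ↔ x̄ᵇ w ∈ Gn (a + b)`. -/
def h65_G (xb : Rb) (a b : ℕ) : Submodule k Rb :=
  (h65_Gn P Bs hPB e1 e2 (a + b)).comap (LinearMap.mulLeft k (xb ^ b))

theorem h65_mem_G_iff (xb : Rb) (a b : ℕ) (w : Rb) :
    w ∈ h65_G P Bs hPB e1 e2 xb a b ↔ xb ^ b * w ∈ h65_Gn P Bs hPB e1 e2 (a + b) := Iff.rfl

theorem h65_G_eq_map (xb xbi : Rb) (hxx : xb * xbi = 1) (a b : ℕ) :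
    h65_G P Bs hPB e1 e2 xb a b =
      (h65_Gn P Bs hPB e1 e2 (a + b)).map
        ((h65_mulEquiv (k := k) (xb ^ b) (xbi ^ b) (by rw [← mul_pow, hxx, one_pow])).symm :
          Rb →ₗ[k] Rb) := by
  ext w
  rw [h65_mem_G_iff, Submodule.mem_map_equiv, LinearEquiv.symm_symm]
  rfl

theorem h65_G_mono (xb : Rb) (hxB : xb ∈ Bs)
    (hxe : ∀ ν, e2 ν ⟨xb, hxB⟩ = e1 ν ⟨xb, hxB⟩)
    (hPmono : ∀ n, P n ≤ P (n + 1)) (hxP : ∀ n, ∀ a ∈ P n, xb * a ∈ P (n + 1))
    (a b a' b' : ℕ) (ha : a ≤ a') (hb : b ≤ b') :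
    h65_G P Bs hPB e1 e2 xb a b ≤ h65_G P Bs hPB e1 e2 xb a' b' := by
  intro w hw
  rw [h65_mem_G_iff] at hw ⊢
  have h1 := h65_Gn_mul P Bs hPB e1 e2 xb hxB hxe hxP (b' - b) hw
  have h2 : xb ^ (b' - b) * (xb ^ b * w) = xb ^ b' * w := by
    rw [← mul_assoc, ← pow_add, Nat.sub_add_cancel hb]
  rw [h2] at h1
  exact h65_Gn_mono P Bs hPB e1 e2 hPmono (by omega) h1

theorem h65_G_inf (xb : Rb)
    (hinfP : ∀ (a b a' b' : ℕ) (w : Rb), xb ^ b * w ∈ P (a + b) →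
      xb ^ b' * w ∈ P (a' + b') → xb ^ (min b b') * w ∈ P (min a a' + min b b'))
    (a b a' b' : ℕ) :
    h65_G P Bs hPB e1 e2 xb a b ⊓ h65_G P Bs hPB e1 e2 xb a' b' ≤
      h65_G P Bs hPB e1 e2 xb (min a a') (min b b') := by
  intro w hw
  obtain ⟨h1, h2⟩ := Submodule.mem_inf.mp hw
  rw [h65_mem_G_iff, h65_mem_Gn_iff] at h1 h2 ⊢
  refine ⟨hinfP a b a' b' w h1.1 h2.1, fun hB ν => ?_⟩
  rcases le_total b b' with hbb | hbb
  · have key : ∀ c, c = b → ∀ hB : xb ^ c * w ∈ Bs, e2 ν ⟨xb ^ c * w, hB⟩ =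
        e1 ν ⟨xb ^ c * w, hB⟩ := by
      rintro c rfl hB
      exact h1.2 hB ν
    exact key _ (min_eq_left hbb) hB
  · have key : ∀ c, c = b' → ∀ hB : xb ^ c * w ∈ Bs, e2 ν ⟨xb ^ c * w, hB⟩ =
        e1 ν ⟨xb ^ c * w, hB⟩ := by
      rintro c rfl hB
      exact h2.2 hB ν
    exact key _ (min_eq_right hbb) hB

end Gn

/-! ### (DEC) -/

theorem h65_redF_sub (D : h22_Lat K F k Rb) {f g : F} (hf : f ∈ D.O) (hg : g ∈ D.O) :
    D.redF (f - g) = D.redF f - D.redF g := by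
  rw [D.redF_of_mem (D.O.sub_mem hf hg), D.redF_of_mem hf, D.redF_of_mem hg, ← map_sub]
  rfl

/-- Finite-dimensionality of the mixed spaces from the one-chart spaces. -/
theorem h65_finite_mixed {x : F} (hx : x ≠ 0) {D0 D2 : Divisor K F}
    (hxdiv : ∀ v : Place K F, v.ord x = D2 v - D0 v) (E' : Divisor K F) (a b : ℕ)
    [Module.Finite K (riemannRochSpace ((a + b) • D0 + E'))] :
    Module.Finite K (riemannRochSpace (a • D0 + b • D2 + E')) := by
  let g : riemannRochSpace (a • D0 + b • D2 + E') →ₗ[K]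
      riemannRochSpace ((a + b) • D0 + E') :=
    (LinearMap.mulLeft K (x ^ b)).restrict
      (fun f hf => (h65_xadic hx hxdiv E' a b f).mp hf)
  have hinj : Function.Injective g := by
    intro f₁ f₂ h
    have h' : x ^ b * (f₁ : F) = x ^ b * (f₂ : F) := congrArg Subtype.val h
    exact Subtype.ext (mul_left_cancel₀ (pow_ne_zero b hx) h')
  exact Module.Finite.of_injective g hinj

/-- **(DEC)** for the `x`-adic two-chart lattices, for every degree-zero twist `E'` with trivial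
gluing (`hTG`).  `(CHART)` = helper51's binders for the single divisor `D0 = (x)_∞`. -/
theorem h65_dec (D : h22_Lat K F k Rb) (hON : h22_ON D)
    (D0 : Divisor K F) (P : ℕ → Submodule k Rb) [∀ n, FiniteDimensional k (P n)]
    (Bs : Subalgebra k Rb) (hPB : ∀ n, ∀ a ∈ P n, a ∈ Bs)
    {Z : Type*} (e1 e2 : Z → (Bs →ₐ[k] k)) (n0 : ℕ)
    (hnode : ∀ n, n0 ≤ n → ∀ a : Rb, a ∈ h51_Rd D (n • D0) ↔
        ∃ h : a ∈ P n, ∀ ν, e2 ν ⟨a, hPB n a h⟩ = e1 ν ⟨a, hPB n a h⟩)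
    (hRR : ∀ n, n0 ≤ n → ∀ E : Divisor K F, Divisor.degree E = 0 →
        Module.Finite K (riemannRochSpace (n • D0 + E)) ∧
        Module.finrank K (riemannRochSpace (n • D0 + E)) =
          Module.finrank K (riemannRochSpace (n • D0)))
    (x : F) (hx0 : x ≠ 0) (hxO : x ∈ D.O) (hxinv : x⁻¹ ∈ D.O) (D2 : Divisor K F)
    (hxdiv : ∀ v : Place K F, v.ord x = D2 v - D0 v) (hD0 : 0 ≤ D0) (hD2 : 0 ≤ D2)
    (hPmono : ∀ n, P n ≤ P (n + 1)) (hx1 : D.redF x ∈ P 1)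
    (hxP : ∀ n, ∀ a ∈ P n, D.redF x * a ∈ P (n + 1))
    (hinfP : ∀ (a b a' b' : ℕ) (w : Rb), D.redF x ^ b * w ∈ P (a + b) →
      D.redF x ^ b' * w ∈ P (a' + b') → D.redF x ^ (min b b') * w ∈ P (min a a' + min b b'))
    (d χ : ℤ) (hdim : ∀ n, n0 ≤ n →
      (Module.finrank K (riemannRochSpace (n • D0)) : ℤ) = n * d + χ)
    (E' : Divisor K F) (hE' : Divisor.degree E' = 0)
    (hTG : ∀ n, 2 * n0 ≤ n → h51_Rd D (n • D0 + E') = h51_Rd D (n • D0))
    (a b : ℕ) (f : F) (hf : f ∈ h65_Lint D (a • D0 + b • D2 + E')) :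
    ∃ a' b' : ℕ, ∃ y ∈ h65_Lint D (a' • D0 + E'), ∃ z ∈ h65_Lint D (b' • D2 + E'),
      f - y - z ∈ h65_Lint D ((2 * n0) • D0 + (2 * n0) • D2 + E') := by
  classical
  set xb := D.redF x with hxb
  set xbi := D.redF x⁻¹ with hxbi
  have hxx : xb * xbi = 1 := by
    rw [hxb, hxbi, ← h51_redF_mul D hxO hxinv, mul_inv_cancel₀ hx0, h51_redF_one]
  have hxB : xb ∈ Bs := hPB 1 _ hx1
  have hpowO : ∀ n : ℕ, x ^ n ∈ D.O := fun n => D.O.pow_mem hxO n
  have hipowO : ∀ n : ℕ, x⁻¹ ^ n ∈ D.O := fun n => D.O.pow_mem hxinv n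
  have hredpow : ∀ n : ℕ, D.redF (x ^ n) = xb ^ n := fun n => h51_redF_pow D hxO n
  have hredipow : ∀ n : ℕ, D.redF (x⁻¹ ^ n) = xbi ^ n := fun n => h51_redF_pow D hxinv n
  -- the node space is the reduction of `L(n D0) ∩ O`
  have hGn : ∀ n, n0 ≤ n → h65_Gn P Bs hPB e1 e2 n = h51_Rd D (n • D0) := by
    intro n hn
    ext a
    exact (hnode n hn a).symm
  -- node compatibility of `x̄`
  have hxe : ∀ ν, e2 ν ⟨xb, hxB⟩ = e1 ν ⟨xb, hxB⟩ := by
    intro ν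
    have hpw : ∀ n, n0 ≤ n → e2 ν ⟨xb, hxB⟩ ^ n = e1 ν ⟨xb, hxB⟩ ^ n := by
      intro n hn
      have hmem : xb ^ n ∈ h65_Gn P Bs hPB e1 e2 n := by
        rw [hGn n hn]
        exact ⟨x ^ n, h65_pow_mem_rr hxdiv hD2 n, hpowO n, hredpow n⟩
      rw [h65_mem_Gn_iff] at hmem
      have hB : xb ^ n ∈ Bs := Bs.pow_mem hxB n
      have h := hmem.2 hB ν
      have e : (⟨xb ^ n, hB⟩ : Bs) = ⟨xb, hxB⟩ ^ n := rfl
      rw [e, map_pow, map_pow] at h
      exact h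
    have h1 := hpw (n0 + 1) (by omega)
    have h2 := hpw (n0 + 2) (by omega)
    by_cases hz : e1 ν ⟨xb, hxB⟩ = 0
    · rw [hz, zero_pow (by omega)] at h1
      rw [hz]
      exact pow_eq_zero_iff (n := n0 + 1) (by omega) |>.mp h1
    · have h3 : e1 ν ⟨xb, hxB⟩ ^ (n0 + 1) * e2 ν ⟨xb, hxB⟩ =
          e1 ν ⟨xb, hxB⟩ ^ (n0 + 1) * e1 ν ⟨xb, hxB⟩ := by
        calc e1 ν ⟨xb, hxB⟩ ^ (n0 + 1) * e2 ν ⟨xb, hxB⟩
            = e2 ν ⟨xb, hxB⟩ ^ (n0 + 2) := by rw [← h1, ← pow_succ]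
          _ = e1 ν ⟨xb, hxB⟩ ^ (n0 + 2) := h2
          _ = e1 ν ⟨xb, hxB⟩ ^ (n0 + 1) * e1 ν ⟨xb, hxB⟩ := by rw [← pow_succ]
      exact mul_left_cancel₀ (pow_ne_zero _ hz) h3
  -- the bifiltration
  set G := h65_G P Bs hPB e1 e2 xb with hG
  have hmono := h65_G_mono P Bs hPB e1 e2 xb hxB hxe hPmono hxP
  have hinf := h65_G_inf P Bs hPB e1 e2 xb hinfP
  have hfin : ∀ a b, FiniteDimensional k (G a b) := by
    intro a b
    rw [hG, h65_G_eq_map P Bs hPB e1 e2 xb xbi hxx a b]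
    have : FiniteDimensional k (h65_Gn P Bs hPB e1 e2 (a + b)) :=
      Submodule.finiteDimensional_of_le (h65_Gn_le P Bs hPB e1 e2 (a + b))
    infer_instance
  have hdimG : ∀ a b, 2 * n0 ≤ a + b →
      (finrank k (G a b) : ℤ) = ((a : ℤ) + b) * d + χ := by
    intro a b hab
    have hn : n0 ≤ a + b := by omega
    rw [hG, h65_G_eq_map P Bs hPB e1 e2 xb xbi hxx a b, LinearEquiv.finrank_map_eq, hGn _ hn]
    have : FiniteDimensional K (riemannRochSpace ((a + b) • D0)) := by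
      have := (hRR (a + b) hn 0 (map_zero _)).1
      rwa [add_zero] at this
    rw [h51_finrank_Rd D hON, hdim _ hn]
    push_cast
    ring
  -- the lattices
  set Λ : ℕ → ℕ → Submodule D.A F := fun a b => h65_Lint D (a • D0 + b • D2 + E') with hΛ
  have hΛmono : ∀ a b a' b', a ≤ a' → b ≤ b' → Λ a b ≤ Λ a' b' := by
    intro a b a' b' ha hb
    apply h65_lint_mono
    intro v
    have h1 : (a : ℤ) * D0 v ≤ (a' : ℤ) * D0 v :=
      mul_le_mul_of_nonneg_right (Nat.cast_le.mpr ha) (hD0 v)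
    have h2 : (b : ℤ) * D2 v ≤ (b' : ℤ) * D2 v :=
      mul_le_mul_of_nonneg_right (Nat.cast_le.mpr hb) (hD2 v)
    simp only [Finsupp.add_apply, Finsupp.smul_apply, nsmul_eq_mul]
    linarith
  have hGiff : ∀ a b, 2 * n0 ≤ a + b → ∀ w : Rb, w ∈ G a b ↔ ∃ f ∈ Λ a b, D.redF f = w := by
    intro a b hab w
    have hn : n0 ≤ a + b := by omega
    rw [hG, h65_mem_G_iff, hGn _ hn, ← hTG _ hab]
    constructor
    · rintro ⟨f', hf'L, hf'O, hf'red⟩
      refine ⟨x⁻¹ ^ b * f', ⟨?_, D.O.mul_mem (hipowO b) hf'O⟩, ?_⟩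
      · rw [h65_xadic hx0 hxdiv E' a b, ← mul_assoc, ← mul_pow, mul_inv_cancel₀ hx0, one_pow,
          one_mul]
        exact hf'L
      · rw [h51_redF_mul D (hipowO b) hf'O, hredipow, hf'red, ← mul_assoc, ← mul_pow,
          mul_comm xbi xb, hxx, one_pow, one_mul]
    · rintro ⟨f, ⟨hfL, hfO⟩, rfl⟩
      refine ⟨x ^ b * f, (h65_xadic hx0 hxdiv E' a b f).mp hfL, D.O.mul_mem (hpowO b) hfO, ?_⟩
      rw [h51_redF_mul D (hpowO b) hfO, hredpow]
  have hcount : ∀ a b, 2 * n0 ≤ a → 2 * n0 ≤ b →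
      G a b = G a 0 ⊔ G 0 b ⊔ G (2 * n0) (2 * n0) :=
    fun a b ha hb => h98_dec_count G hmono hinf hfin d χ (2 * n0) hdimG a b ha hb
  -- Nakayama
  have hmain : ∀ a b, 2 * n0 ≤ a → 2 * n0 ≤ b →
      Λ a b ≤ Λ a 0 ⊔ Λ 0 b ⊔ Λ (2 * n0) (2 * n0) := by
    intro a b ha hb
    have hfg : (Λ a b).FG := by
      have : Module.Finite K (riemannRochSpace ((a + b) • D0 + E')) :=
        (hRR (a + b) (by omega) E' hE').1
      have := h65_finite_mixed hx0 hxdiv E' a b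
      exact h65_lint_fg D hON _
    apply Submodule.le_of_le_smul_of_le_jacobson_bot hfg (IsLocalRing.maximalIdeal_le_jacobson ⊥)
    intro f hf
    have h1 : D.redF f ∈ G a b := (hGiff a b (by omega) _).2 ⟨f, hf, rfl⟩
    rw [hcount a b ha hb] at h1
    obtain ⟨u, hu, w₃, hw₃, huw⟩ := Submodule.mem_sup.mp h1
    obtain ⟨w₁, hw₁, w₂, hw₂, hw12⟩ := Submodule.mem_sup.mp hu
    obtain ⟨f₁, hf₁, rfl⟩ := (hGiff a 0 (by omega) _).1 hw₁
    obtain ⟨f₂, hf₂, rfl⟩ := (hGiff 0 b (by omega) _).1 hw₂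
    obtain ⟨f₃, hf₃, rfl⟩ := (hGiff (2 * n0) (2 * n0) (by omega) _).1 hw₃
    have hsum : f₁ + f₂ + f₃ ∈ Λ a 0 ⊔ Λ 0 b ⊔ Λ (2 * n0) (2 * n0) :=
      Submodule.add_mem _ (Submodule.add_mem _
        (Submodule.mem_sup_left (Submodule.mem_sup_left hf₁))
        (Submodule.mem_sup_left (Submodule.mem_sup_right hf₂)))
        (Submodule.mem_sup_right hf₃)
    have hf₁' : f₁ ∈ Λ a b := hΛmono _ _ _ _ le_rfl (Nat.zero_le _) hf₁
    have hf₂' : f₂ ∈ Λ a b := hΛmono _ _ _ _ (Nat.zero_le _) le_rfl hf₂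
    have hf₃' : f₃ ∈ Λ a b := hΛmono _ _ _ _ ha hb hf₃
    have hs' : f₁ + f₂ + f₃ ∈ Λ a b :=
      Submodule.add_mem _ (Submodule.add_mem _ hf₁' hf₂') hf₃'
    have hdiff : f - (f₁ + f₂ + f₃) ∈ maximalIdeal D.A • Λ a b := by
      apply h65_lint_ker D _ (Submodule.sub_mem _ hf hs')
      rw [h65_redF_sub D hf.2 hs'.2, h51_redF_add D (D.O.add_mem hf₁'.2 hf₂'.2) hf₃'.2,
        h51_redF_add D hf₁'.2 hf₂'.2, ← huw, ← hw12, sub_self]
    have hdec : f = (f₁ + f₂ + f₃) + (f - (f₁ + f₂ + f₃)) := by abel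
    rw [hdec]
    exact Submodule.add_mem _ (Submodule.mem_sup_left hsum) (Submodule.mem_sup_right hdiff)
  -- the union form
  have hf' : f ∈ Λ (max a (2 * n0)) (max b (2 * n0)) :=
    hΛmono _ _ _ _ (le_max_left _ _) (le_max_left _ _) hf
  have hf'' := hmain _ _ (le_max_right _ _) (le_max_right _ _) hf'
  obtain ⟨u, hu, l, hl, hul⟩ := Submodule.mem_sup.mp hf''
  obtain ⟨y, hy, z, hz, hyz⟩ := Submodule.mem_sup.mp hu
  refine ⟨max a (2 * n0), max b (2 * n0), y, ?_, z, ?_, ?_⟩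
  · have h := hy
    simp only [hΛ, zero_smul, add_zero] at h
    exact h
  · have h := hz
    simp only [hΛ, zero_smul, zero_add] at h
    exact h
  · have : f - y - z = l := by
      rw [← hul, ← hyz]
      abel
    rw [this]
    exact hl

end Fermat.Agent.S34

end
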