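import Mathlib
import Fermat.Agent.S34.h65_TwoChart

/-!
# S34: (DEC) from the strictness hypothesis of the last step

`h65_dec_strict` : the decomposition
`L^int(a E1 + b E2 + E') ⊆ L^int(a' E1 + E') + L^int(b' E2 + E') + L^int(N0 E1 + N0 E2 + E')`
from exactly the hypotheses of helper51's list (L): a balanced chart function `x`
(`div x = E2 - E1`, `x, x⁻¹ ∈ O`), strictness `G^(n+1) = G^n + x̄ G^n` for
`G^n = red (L(n E1) ∩ O)`, `n ≥ N0`, and trivial gluing of the twist `E'`.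

Proof: `red L^int(a E1 + b E2 + E') = x̄⁻ᵇ G^(a+b)` (`h65_red_mixed`); strictness gives the one-step
decomposition of reductions (`h65_red_step`), Nakayama lifts it to the lattices (`h65_dec_step`),
and a strong induction on `a + b` finishes.
-/

set_option autoImplicit false

noncomputable section

open AlgebraicCurve Module IsLocalRing

namespace Fermat.Agent.S34

variable {K F k Rb : Type*} [Field K] [Field F] [Algebra K F] [Field k] [CommRing Rb]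
  [Algebra k Rb]

/-- `red L^int(a E1 + b E2 + E') = x̄⁻ᵇ red L^int((a+b) E1)` when the twist `E'` has trivial
gluing at level `a + b`. -/
theorem h65_red_mixed (D : h22_Lat K F k Rb)
    (x : F) (hx0 : x ≠ 0) (hx : x ∈ D.O) (hxi : x⁻¹ ∈ D.O)
    (E1 E2 : Divisor K F) (hdivx : ∀ v : Place K F, v.ord x = E2 v - E1 v)
    (E' : Divisor K F) (a b : ℕ)
    (htriv : h51_Rd D ((a + b) • E1 + E') = h51_Rd D ((a + b) • E1)) (w : Rb) :
    (∃ f ∈ h65_Lint D (a • E1 + b • E2 + E'), D.redF f = w) ↔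
      D.redF x ^ b * w ∈ h51_Rd D ((a + b) • E1) := by
  have hxx : D.redF x * D.redF x⁻¹ = 1 := by
    rw [← h51_redF_mul D hx hxi, mul_inv_cancel₀ hx0, h51_redF_one]
  rw [← htriv]
  constructor
  · rintro ⟨f, ⟨hfL, hfO⟩, rfl⟩
    refine ⟨x ^ b * f, (h65_xadic hx0 hdivx E' a b f).mp hfL,
      D.O.mul_mem (D.O.pow_mem hx b) hfO, ?_⟩
    rw [h51_redF_mul D (D.O.pow_mem hx b) hfO, h51_redF_pow D hx]
  · rintro ⟨f', hf'L, hf'O, hf'red⟩
    refine ⟨x⁻¹ ^ b * f', ⟨?_, D.O.mul_mem (D.O.pow_mem hxi b) hf'O⟩, ?_⟩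
    · rw [h65_xadic hx0 hdivx E' a b, ← mul_assoc, ← mul_pow, mul_inv_cancel₀ hx0, one_pow,
        one_mul]
      exact hf'L
    · rw [h51_redF_mul D (D.O.pow_mem hxi b) hf'O, h51_redF_pow D hxi, hf'red, ← mul_assoc,
        ← mul_pow, mul_comm (D.redF x⁻¹) (D.redF x), hxx, one_pow, one_mul]

/-- Monotonicity of the mixed lattices. -/
theorem h65_mixed_mono (D : h22_Lat K F k Rb) (E1 E2 : Divisor K F)
    (hE1 : ∀ v, 0 ≤ E1 v) (hE2 : ∀ v, 0 ≤ E2 v) (E' : Divisor K F)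
    {a b a' b' : ℕ} (ha : a ≤ a') (hb : b ≤ b') :
    h65_Lint D (a • E1 + b • E2 + E') ≤ h65_Lint D (a' • E1 + b' • E2 + E') := by
  apply h65_lint_mono
  intro v
  have h1 : (a : ℤ) * E1 v ≤ (a' : ℤ) * E1 v :=
    mul_le_mul_of_nonneg_right (Nat.cast_le.mpr ha) (hE1 v)
  have h2 : (b : ℤ) * E2 v ≤ (b' : ℤ) * E2 v :=
    mul_le_mul_of_nonneg_right (Nat.cast_le.mpr hb) (hE2 v)
  simp only [Finsupp.add_apply, Finsupp.smul_apply, nsmul_eq_mul]
  linarith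

/-- One step of (DEC) on reductions. -/
theorem h65_red_step (D : h22_Lat K F k Rb)
    (x : F) (hx0 : x ≠ 0) (hx : x ∈ D.O) (hxi : x⁻¹ ∈ D.O)
    (E1 E2 : Divisor K F) (hdivx : ∀ v : Place K F, v.ord x = E2 v - E1 v) (N0 : ℕ)
    (hstrict : ∀ n, N0 ≤ n → ∀ a ∈ h51_Rd D ((n + 1) • E1), ∃ b ∈ h51_Rd D (n • E1),
      ∃ c ∈ h51_Rd D (n • E1), a = b + D.redF x * c)
    (E' : Divisor K F) (htriv : ∀ n, N0 ≤ n → h51_Rd D (n • E1 + E') = h51_Rd D (n • E1))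
    (a b : ℕ) (hab : N0 ≤ a + b) (f : F)
    (hf : f ∈ h65_Lint D ((a + 1) • E1 + (b + 1) • E2 + E')) :
    ∃ f₁ ∈ h65_Lint D (a • E1 + (b + 1) • E2 + E'),
      ∃ f₂ ∈ h65_Lint D ((a + 1) • E1 + b • E2 + E'), D.redF f = D.redF f₁ + D.redF f₂ := by
  have hxx : D.redF x * D.redF x⁻¹ = 1 := by
    rw [← h51_redF_mul D hx hxi, mul_inv_cancel₀ hx0, h51_redF_one]
  set xb := D.redF x with hxb
  set xbi := D.redF x⁻¹ with hxbi
  have hpp : ∀ n : ℕ, xb ^ n * xbi ^ n = 1 := fun n => by rw [← mul_pow, hxx, one_pow]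
  have e1 : a + 1 + (b + 1) = (a + b + 1) + 1 := by omega
  have e2 : a + (b + 1) = a + b + 1 := by omega
  have e3 : a + 1 + b = a + b + 1 := by omega
  have h1 := (h65_red_mixed D x hx0 hx hxi E1 E2 hdivx E' (a + 1) (b + 1)
    (htriv _ (by omega)) (D.redF f)).mp ⟨f, hf, rfl⟩
  rw [e1] at h1
  obtain ⟨β, hβ, γ, hγ, hβγ⟩ := hstrict (a + b + 1) (by omega) _ h1
  -- the two pieces
  have hw1 : ∃ f₁ ∈ h65_Lint D (a • E1 + (b + 1) • E2 + E'), D.redF f₁ = xbi ^ (b + 1) * β := by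
    apply (h65_red_mixed D x hx0 hx hxi E1 E2 hdivx E' a (b + 1) (htriv _ (by omega)) _).mpr
    rw [← mul_assoc, hpp, one_mul, e2]
    exact hβ
  have hw2 : ∃ f₂ ∈ h65_Lint D ((a + 1) • E1 + b • E2 + E'), D.redF f₂ = xbi ^ b * γ := by
    apply (h65_red_mixed D x hx0 hx hxi E1 E2 hdivx E' (a + 1) b (htriv _ (by omega)) _).mpr
    rw [← mul_assoc, hpp, one_mul, e3]
    exact hγ
  obtain ⟨f₁, hf₁, hr₁⟩ := hw1
  obtain ⟨f₂, hf₂, hr₂⟩ := hw2
  refine ⟨f₁, hf₁, f₂, hf₂, ?_⟩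
  rw [hr₁, hr₂]
  have h3 : D.redF f = xbi ^ (b + 1) * (xb ^ (b + 1) * D.redF f) := by
    rw [← mul_assoc, mul_comm (xbi ^ (b + 1)), hpp, one_mul]
  rw [h3, hβγ, mul_add]
  congr 1
  rw [← mul_assoc, pow_succ, mul_assoc (xbi ^ b), mul_comm xbi xb, hxx, mul_one]

/-- One step of (DEC) on the lattices (Nakayama). -/
theorem h65_dec_step (D : h22_Lat K F k Rb) (hON : h22_ON D)
    (hfin : ∀ D' : Divisor K F, FiniteDimensional K (riemannRochSpace D'))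
    (x : F) (hx0 : x ≠ 0) (hx : x ∈ D.O) (hxi : x⁻¹ ∈ D.O)
    (E1 E2 : Divisor K F) (hE1 : ∀ v, 0 ≤ E1 v) (hE2 : ∀ v, 0 ≤ E2 v)
    (hdivx : ∀ v : Place K F, v.ord x = E2 v - E1 v) (N0 : ℕ)
    (hstrict : ∀ n, N0 ≤ n → ∀ a ∈ h51_Rd D ((n + 1) • E1), ∃ b ∈ h51_Rd D (n • E1),
      ∃ c ∈ h51_Rd D (n • E1), a = b + D.redF x * c)
    (E' : Divisor K F) (htriv : ∀ n, N0 ≤ n → h51_Rd D (n • E1 + E') = h51_Rd D (n • E1))
    (a b : ℕ) (hab : N0 ≤ a + b) :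
    h65_Lint D ((a + 1) • E1 + (b + 1) • E2 + E') ≤
      h65_Lint D (a • E1 + (b + 1) • E2 + E') ⊔ h65_Lint D ((a + 1) • E1 + b • E2 + E') := by
  have hfg : (h65_Lint D ((a + 1) • E1 + (b + 1) • E2 + E')).FG := by
    have : FiniteDimensional K (riemannRochSpace ((a + 1) • E1 + (b + 1) • E2 + E')) :=
      hfin _
    exact h65_lint_fg D hON _
  apply Submodule.le_of_le_smul_of_le_jacobson_bot hfg (IsLocalRing.maximalIdeal_le_jacobson ⊥)
  intro f hf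
  obtain ⟨f₁, hf₁, f₂, hf₂, hred⟩ := h65_red_step D x hx0 hx hxi E1 E2 hdivx N0 hstrict E' htriv
    a b hab f hf
  have hf₁' : f₁ ∈ h65_Lint D ((a + 1) • E1 + (b + 1) • E2 + E') :=
    h65_mixed_mono D E1 E2 hE1 hE2 E' (Nat.le_succ a) le_rfl hf₁
  have hf₂' : f₂ ∈ h65_Lint D ((a + 1) • E1 + (b + 1) • E2 + E') :=
    h65_mixed_mono D E1 E2 hE1 hE2 E' le_rfl (Nat.le_succ b) hf₂
  have hs' : f₁ + f₂ ∈ h65_Lint D ((a + 1) • E1 + (b + 1) • E2 + E') :=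
    Submodule.add_mem _ hf₁' hf₂'
  have hdiff : f - (f₁ + f₂) ∈
      maximalIdeal D.A • h65_Lint D ((a + 1) • E1 + (b + 1) • E2 + E') := by
    apply h65_lint_ker D _ (Submodule.sub_mem _ hf hs')
    rw [h65_redF_sub D hf.2 hs'.2, h51_redF_add D hf₁'.2 hf₂'.2, hred, sub_self]
  have hdec : f = (f₁ + f₂) + (f - (f₁ + f₂)) := by abel
  rw [hdec]
  exact Submodule.add_mem _
    (Submodule.mem_sup_left (Submodule.add_mem _ (Submodule.mem_sup_left hf₁)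
      (Submodule.mem_sup_right hf₂)))
    (Submodule.mem_sup_right hdiff)

/-- **(DEC) from strictness** (helper51's list (L)), union form, for a twist `E'` with trivial
gluing. -/
theorem h65_dec_strict (D : h22_Lat K F k Rb) (hON : h22_ON D)
    (hfin : ∀ D' : Divisor K F, FiniteDimensional K (riemannRochSpace D'))
    (x : F) (hx0 : x ≠ 0) (hx : x ∈ D.O) (hxi : x⁻¹ ∈ D.O)
    (E1 E2 : Divisor K F) (hE1 : ∀ v, 0 ≤ E1 v) (hE2 : ∀ v, 0 ≤ E2 v)
    (hdivx : ∀ v : Place K F, v.ord x = E2 v - E1 v) (N0 : ℕ)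
    (hstrict : ∀ n, N0 ≤ n → ∀ a ∈ h51_Rd D ((n + 1) • E1), ∃ b ∈ h51_Rd D (n • E1),
      ∃ c ∈ h51_Rd D (n • E1), a = b + D.redF x * c)
    (E' : Divisor K F) (htriv : ∀ n, N0 ≤ n → h51_Rd D (n • E1 + E') = h51_Rd D (n • E1))
    (a b : ℕ) (f : F) (hf : f ∈ h65_Lint D (a • E1 + b • E2 + E')) :
    ∃ a' b' : ℕ, ∃ y ∈ h65_Lint D (a' • E1 + E'), ∃ z ∈ h65_Lint D (b' • E2 + E'),
      f - y - z ∈ h65_Lint D (N0 • E1 + N0 • E2 + E') := by
  -- strong induction on `a + b`, with the chart lattices written as mixed lattices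
  have key : ∀ s a b : ℕ, a + b ≤ s → ∀ f ∈ h65_Lint D (a • E1 + b • E2 + E'),
      ∃ a' b' : ℕ, ∃ y ∈ h65_Lint D (a' • E1 + (0 : ℕ) • E2 + E'),
        ∃ z ∈ h65_Lint D ((0 : ℕ) • E1 + b' • E2 + E'),
        f - y - z ∈ h65_Lint D (N0 • E1 + N0 • E2 + E') := by
    intro s
    induction s with
    | zero =>
      intro a b hab f hf
      have ha : a = 0 := by omega
      have hb : b = 0 := by omega
      subst ha hb
      exact ⟨0, 0, f, hf, 0, Submodule.zero_mem _, by simp⟩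
    | succ s ih =>
      intro a b hab f hf
      rcases Nat.eq_zero_or_pos a with ha | ha
      · subst ha
        exact ⟨0, b, 0, Submodule.zero_mem _, f, hf, by simp⟩
      rcases Nat.eq_zero_or_pos b with hb | hb
      · subst hb
        exact ⟨a, 0, f, hf, 0, Submodule.zero_mem _, by simp⟩
      by_cases hsmall : a ≤ N0 ∧ b ≤ N0
      · refine ⟨0, 0, 0, Submodule.zero_mem _, 0, Submodule.zero_mem _, ?_⟩
        rw [sub_zero, sub_zero]
        exact h65_mixed_mono D E1 E2 hE1 hE2 E' hsmall.1 hsmall.2 hf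
      · obtain ⟨a, rfl⟩ : ∃ a₀, a = a₀ + 1 := ⟨a - 1, by omega⟩
        obtain ⟨b, rfl⟩ : ∃ b₀, b = b₀ + 1 := ⟨b - 1, by omega⟩
        have hab' : N0 ≤ a + b := by
          rw [not_and_or] at hsmall
          omega
        have hstep := h65_dec_step D hON hfin x hx0 hx hxi E1 E2 hE1 hE2 hdivx N0 hstrict E'
          htriv a b hab' hf
        obtain ⟨f₁, hf₁, f₂, hf₂, hsum⟩ := Submodule.mem_sup.mp hstep
        obtain ⟨a₁, b₁, y₁, hy₁, z₁, hz₁, h₁⟩ := ih a (b + 1) (by omega) f₁ hf₁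
        obtain ⟨a₂, b₂, y₂, hy₂, z₂, hz₂, h₂⟩ := ih (a + 1) b (by omega) f₂ hf₂
        refine ⟨max a₁ a₂, max b₁ b₂, y₁ + y₂, ?_, z₁ + z₂, ?_, ?_⟩
        · exact Submodule.add_mem _
            (h65_mixed_mono D E1 E2 hE1 hE2 E' (le_max_left _ _) le_rfl hy₁)
            (h65_mixed_mono D E1 E2 hE1 hE2 E' (le_max_right _ _) le_rfl hy₂)
        · exact Submodule.add_mem _
            (h65_mixed_mono D E1 E2 hE1 hE2 E' le_rfl (le_max_left _ _) hz₁)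
            (h65_mixed_mono D E1 E2 hE1 hE2 E' le_rfl (le_max_right _ _) hz₂)
        · have : f - (y₁ + y₂) - (z₁ + z₂) = (f₁ - y₁ - z₁) + (f₂ - y₂ - z₂) := by
            rw [← hsum]
            abel
          rw [this]
          exact Submodule.add_mem _ h₁ h₂
  obtain ⟨a', b', y, hy, z, hz, h⟩ := key (a + b) a b le_rfl f hf
  refine ⟨a', b', y, ?_, z, ?_, h⟩
  · simpa only [zero_smul, add_zero] using hy
  · simpa only [zero_smul, zero_add] using hz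

end Fermat.Agent.S34

end
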