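import Mathlib
import Fermat.Agent.GAL.h65_LevelGlue
import Fermat.Agent.GAL.Theta
import Fermat.Agent.S37.h60_Final

/-!
# S34: the GAL-side endgame

The frozen statement S34 (`H.ρ` is unipotent on inertia at a prime `q ≠ p`) from ONE geometric
hypothesis on the prelude Jacobian `JZero N = J₀(N)(ℚ̄)` with its arithmetic Galois action:

(UNIP) for every `n`, every place `A` of `ℚ̄` over `q`, every `τ` in the inertia group of `A`
and every `x : JZero N` with `p ^ n • x = 0`:  `d • (τ • (τ • x - x)) = d • (τ • x - x)`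
(`d ≠ 0` a fixed natural number; `d = 1` is the exact statement "`(τ - 1)² = 0` on
`J₀(N)[p ^ n]`").

* `h65_charpoly_of_traces` : a rank-two endomorphism `f` with `tr f = 2 = tr (f * f)` over a ring
  without `2`-torsion has characteristic polynomial `(X - 1) ^ 2`;
* `h65_HasLevelU` : the weak level predicate of the S31 endgame with the unipotent clause at `q`;
* `h65_trace_unip` : `d * (tr ρ(τ) - 2) = 0` from the levels (trace rigidity: the Hecke element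
  attached to `τ` acts on every level as `τ + τ⁻¹ = 2`);
* `h65_S34_of_levelsU` : the abstract endgame;
* `h65_levelsU` : the levels on `M = J₀(N)[p ^ n]` from THETA, the S37 reduction interface and
  (UNIP);
* `h65_S34_of_unip` : **the frozen S34 from (UNIP)**; `h65_S34_of_unip_exact` is the case `d = 1`.
-/

set_option autoImplicit false

open Polynomial CongruenceSubgroup ModularCurve ModularCurve.Period

namespace Fermat.Agent.S34

open Fermat.Agent.GAL Fermat.Agent.S16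

section rankTwo

/-- `2 det M = (tr M)² - tr (M²)` for a `2 × 2` matrix. -/
theorem h65_two_det_matrix {R : Type*} [CommRing R] (M : Matrix (Fin 2) (Fin 2) R) :
    2 * M.det = M.trace ^ 2 - (M * M).trace := by
  rw [Matrix.det_fin_two, Matrix.trace_fin_two, Matrix.trace_fin_two]
  simp only [Matrix.mul_apply, Fin.sum_univ_two]
  ring

/-- A rank-two endomorphism with `tr f = 2 = tr (f * f)` over a ring without `2`-torsion has
characteristic polynomial `(X - 1) ^ 2`. -/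
theorem h65_charpoly_of_traces {R : Type*} [CommRing R] [Nontrivial R] {V : Type*}
    [AddCommGroup V] [Module R V] [Module.Free R V] [Module.Finite R V]
    (hV : Module.finrank R V = 2) (f : Module.End R V)
    (h2 : ∀ x : R, 2 * x = 0 → x = 0)
    (h1 : LinearMap.trace R V f = 2) (h1' : LinearMap.trace R V (f * f) = 2) :
    LinearMap.charpoly f = (X - 1) ^ 2 := by
  let bas : Module.Basis (Fin 2) R V := Module.finBasisOfFinrankEq R V hV
  set M := LinearMap.toMatrix bas bas f with hM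
  have e1 : M.trace = 2 := by rw [← h1, LinearMap.trace_eq_matrix_trace R bas]
  have e2 : (M * M).trace = 2 := by
    rw [← h1', LinearMap.trace_eq_matrix_trace R bas, LinearMap.toMatrix_mul]
  have e3 : M.det = 1 := by
    have h := h65_two_det_matrix M
    rw [e1, e2] at h
    apply sub_eq_zero.1 (h2 _ ?_)
    rw [mul_sub, h]
    ring
  rw [← LinearMap.charpoly_toMatrix f bas, Matrix.charpoly_fin_two, e1, e3]
  simp only [map_ofNat, map_one]
  ring

/-- A nonzero natural number is a non-zero-divisor on a free module over a domain of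
characteristic zero. -/
theorem h65_natCast_mul_eq_zero {𝒪 T : Type} [CommRing 𝒪] [IsDomain 𝒪] [CharZero 𝒪] [CommRing T]
    [Algebra 𝒪 T] [Module.Free 𝒪 T] (d : ℕ) (hd : d ≠ 0) (t : T) (h : (d : T) * t = 0) :
    t = 0 := by
  have e : (d : T) * t = (d : 𝒪) • t := by
    rw [Algebra.smul_def, map_natCast]
  rw [e] at h
  rcases smul_eq_zero.1 h with h | h
  · exact absurd (Nat.cast_eq_zero.1 h) hd
  · exact h

/-- `d (a - b) = d (b - c)` implies `d (a + c) = d (2 b)`. -/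
theorem h65_unip_rearrange {J : Type*} [AddCommGroup J] (d : ℕ) (a b c : J)
    (h : d • (a - b) = d • (b - c)) : d • (a + c) = d • (2 • b) := by
  have h' : d • (a + c) - d • (2 • b) = d • (a - b) - d • (b - c) := by
    simp only [nsmul_sub, nsmul_add, two_nsmul]
    abel
  rw [h, sub_self] at h'
  exact sub_eq_zero.1 h'

end rankTwo

/-- A weak level `n` structure on the Hecke lattice `(Λ, ι)` (as in `h65_HasLevelW`, without the
clause on inertia outside `S`) with the UNIPOTENT clause at the prime `q`: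
`d • ((τ - 1)² m) = 0` for every `τ` in an inertia group at `q` and every `m : M`. -/
def h65_HasLevelU (p N : ℕ) [NeZero N] (S : Finset ℕ) {Λ : Type} [AddCommGroup Λ]
    (ι : CuspForm.heckeAlgebra N 2 (↑S : Set ℕ) →+* Module.End ℤ Λ) (q d n : ℕ) : Prop :=
  ∃ (M : Type) (_ : AddCommGroup M) (qM : Λ →+ M)
    (r : (AlgebraicClosure ℚ ≃ₐ[ℚ] AlgebraicClosure ℚ) →* AddMonoid.End M)
    (tM : Nat.Primes → M →+ M),
    (∀ x : Λ, qM x = 0 → ∃ y : Λ, x = (p ^ n : ℤ) • y) ∧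
    (∀ m : M, p ^ n • m = 0) ∧
    (∀ x : Λ, ∃ L : IntermediateField ℚ (AlgebraicClosure ℚ), FiniteDimensional ℚ L ∧
      ∀ σ : AlgebraicClosure ℚ ≃ₐ[ℚ] AlgebraicClosure ℚ, (∀ y ∈ L, σ y = y) →
        r σ (qM x) = qM x) ∧
    (∀ (ℓ : ℕ) (hℓ : ℓ.Prime) (hℓN : ¬ ℓ ∣ N) (hℓS : ℓ ∉ (↑S : Set ℕ)) (x : Λ),
      qM (ι (CuspForm.heckeAlgebra.T hℓ hℓN hℓS) x) = tM ⟨ℓ, hℓ⟩ (qM x)) ∧
    (∀ (ℓ : ℕ) (hℓ : ℓ.Prime), ¬ ℓ ∣ N → ℓ ∉ (↑S : Set ℕ) →
      ∀ A : ValuationSubring (AlgebraicClosure ℚ), A.LiesOverPrime ℓ →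
      ∀ σ : AlgebraicClosure ℚ ≃ₐ[ℚ] AlgebraicClosure ℚ, A.IsFrobeniusAt σ ℓ →
        ∀ m : M, r σ (r σ m) + ℓ • m = tM ⟨ℓ, hℓ⟩ (r σ m)) ∧
    (∀ A : ValuationSubring (AlgebraicClosure ℚ), A.LiesOverPrime q →
      ∀ τ ∈ A.inertiaSubgroupIn ℚ, ∀ m : M, d • (r τ (r τ m) + m) = d • (2 • r τ m))

section main

variable {p : ℕ} {N : ℕ} [NeZero N] {S : Finset ℕ}
  {𝒪 : Type} [CommRing 𝒪] [IsDomain 𝒪] [IsDiscreteValuationRing 𝒪]
  [IsAdicComplete (IsLocalRing.maximalIdeal 𝒪) 𝒪]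
  {θ : CuspForm.heckeAlgebra N 2 (↑S : Set ℕ) →+* IsLocalRing.ResidueField 𝒪}
  {T : Type} [CommRing T] [IsLocalRing T] [IsNoetherianRing T]
  [IsAdicComplete (IsLocalRing.maximalIdeal T) T] [Algebra 𝒪 T] [IsLocalHom (algebraMap 𝒪 T)]
  [Module.Finite 𝒪 T] [Module.Free 𝒪 T]

set_option maxHeartbeats 1600000 in
/-- **Trace rigidity at a unipotent prime.** From the levels with the unipotent clause:
`d * (tr ρ(τ) - 2) = 0` for `τ` in an inertia group at `q ≠ p`. -/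
theorem h65_trace_unip (hp : p.Prime)
    (hp𝒪 : (p : 𝒪) ∈ IsLocalRing.maximalIdeal 𝒪) (hpS : p ∈ S)
    (hNS : ∀ q : ℕ, q.Prime → q ∣ N → q ∈ S)
    (H : CuspForm.HeckeGaloisRepDatum N (↑S : Set ℕ) 𝒪 θ T)
    {Λ : Type} [AddCommGroup Λ] [Module.Free ℤ Λ] [Module.Finite ℤ Λ]
    (ι : CuspForm.heckeAlgebra N 2 (↑S : Set ℕ) →+* Module.End ℤ Λ)
    (hι : Function.Injective ι)
    (q d : ℕ) (hq : q.Prime) (hqp : q ≠ p)
    (hlev : ∀ n : ℕ, h65_HasLevelU p N S ι q d n)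
    (hcheb : h65_WCheb)
    (P : ValuationSubring (AlgebraicClosure ℚ)) (hP : P.LiesOverPrime q)
    (τ : AlgebraicClosure ℚ ≃ₐ[ℚ] AlgebraicClosure ℚ) (hτ : τ ∈ P.inertiaSubgroupIn ℚ) :
    (d : T) * (LinearMap.trace T H.ρ.V (H.ρ.ρ τ) - 2) = 0 := by
  obtain ⟨c, hc⟩ := h65_saturation ι hι p
  have hpT : (p : T) ∈ IsLocalRing.maximalIdeal T := by
    have e : (p : T) = algebraMap 𝒪 T (p : 𝒪) := (map_natCast _ _).symm
    rw [e, IsLocalRing.mem_maximalIdeal, mem_nonunits_iff]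
    intro hu
    exact hp𝒪 (isUnit_of_map_unit (algebraMap 𝒪 T) _ hu)
  have key : ∀ k : ℕ, (d : T) * (LinearMap.trace T H.ρ.V (H.ρ.ρ τ) - 2) ∈
      IsLocalRing.maximalIdeal T ^ k := by
    intro k
    set n := k + c with hn
    obtain ⟨M, _, qM, r, tM, hker, htors, hstab, hhecke, hfrob, hunip⟩ := hlev n
    obtain ⟨L₁, hL₁fin, hL₁⟩ := h65_exists_common_level qM r hstab
    obtain ⟨L₂, hL₂fin, hL₂⟩ := H.ρ.isAdicContinuous n
    have : NeZero (p ^ n) := ⟨pow_ne_zero n hp.ne_zero⟩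
    obtain ⟨ζ, hζ⟩ := HasEnoughRootsOfUnity.exists_primitiveRoot (AlgebraicClosure ℚ) (p ^ n)
    obtain ⟨L, hLfin, hLgal, hL₁L, hL₂L, hζL⟩ :=
      h65_exists_galois_level L₁ L₂ hL₁fin hL₂fin ζ
    have hLnor : Normal ℚ L := hLgal.to_normal
    have halg : Algebra.IsAlgebraic ℚ (AlgebraicClosure ℚ) := AlgebraicClosure.isAlgebraic ℚ
    have hclo : IsAlgClosure ℚ (AlgebraicClosure ℚ) := ⟨inferInstance, inferInstance⟩
    have hnorQ : Normal ℚ (AlgebraicClosure ℚ) := IsAlgClosure.normal ℚ (AlgebraicClosure ℚ)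
    -- the Hecke element attached to `τ` (as in the S31 endgame)
    have fact : ∃ (D : CuspForm.heckeAlgebra N 2 (↑S : Set ℕ)) (a : ℕ),
          LinearMap.trace T H.ρ.V (H.ρ.ρ τ) - H.π D ∈ IsLocalRing.maximalIdeal T ^ n ∧
          (∀ x : Λ, qM (ι D x) = r τ (qM x) + a • r τ⁻¹ (qM x)) ∧ τ ζ = ζ ^ a := by
      obtain ⟨ℓ, A, σ, b, hℓ, hℓS, hA, hσ, hσg⟩ := hcheb L hLfin hLgal τ S
      have hℓN : ¬ ℓ ∣ N := fun h => hℓS (hNS ℓ hℓ h)
      have hℓS' : ℓ ∉ (↑S : Set ℕ) := by simpa using hℓS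
      have hℓp : ℓ ≠ p := fun h => hℓS (h ▸ hpS)
      set t := CuspForm.heckeAlgebra.T hℓ hℓN hℓS' with ht
      refine ⟨Polynomial.aeval t (Polynomial.dickson 1 (ℓ : ℤ) b), ℓ ^ b, ?_, ?_, ?_⟩
      · have e1 := h65_trace_frob_pow H.ρ σ (H.π t) ℓ
          (H.charpoly_frob ℓ hℓ hℓN hℓS' A hA σ hσ) b
        have e2 : H.π (Polynomial.aeval t (Polynomial.dickson 1 (ℓ : ℤ) b)) =
            Polynomial.aeval (H.π t) (Polynomial.dickson 1 (ℓ : ℤ) b) :=
          (Polynomial.aeval_algHom_apply H.π.toIntAlgHom t _).symm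
        rw [e2, ← e1]
        exact h65_trace_congr H.ρ n L₂ hL₂ τ (σ ^ b) (fun x hx => hσg x (hL₂L hx))
      · intro x
        have e := h65_level_sideW ι qM r t (tM ⟨ℓ, hℓ⟩) ℓ σ (hhecke ℓ hℓ hℓN hℓS')
          (hfrob ℓ hℓ hℓN hℓS' A hA σ hσ) b x
        have hfix1 : ∀ y ∈ L, (τ⁻¹ * σ ^ b) y = y := by
          intro y hy
          show τ⁻¹ ((σ ^ b) y) = y
          rw [hσg y hy]
          exact τ.symm_apply_apply y
        have hfix2 : ∀ y ∈ L, (τ * (σ ^ b)⁻¹) y = y := by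
          intro y hy
          have hz : (σ ^ b)⁻¹ y ∈ L := by
            have hmap := (IntermediateField.normal_iff_forall_map_le'.mp hLnor) (σ ^ b)⁻¹
            exact hmap ⟨y, hy, rfl⟩
          show τ ((σ ^ b)⁻¹ y) = y
          rw [← hσg _ hz]
          exact (σ ^ b).apply_symm_apply y
        have hr : r (σ ^ b) (qM x) = r τ (qM x) := by
          have h1 := hL₁ _ (fun y hy => hfix1 y (hL₁L hy)) x
          have h2 : r (σ ^ b) = r τ * r (τ⁻¹ * σ ^ b) := by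
            rw [← map_mul, mul_inv_cancel_left]
          rw [h2]
          show r τ (r (τ⁻¹ * σ ^ b) (qM x)) = r τ (qM x)
          rw [h1]
        have hr' : r ((σ ^ b)⁻¹) (qM x) = r τ⁻¹ (qM x) := by
          have h1 := hL₁ _ (fun y hy => hfix2 y (hL₁L hy)) x
          have h2 : r ((σ ^ b)⁻¹) = r τ⁻¹ * r (τ * (σ ^ b)⁻¹) := by
            rw [← map_mul, inv_mul_cancel_left]
          rw [h2]
          show r τ⁻¹ (r (τ * (σ ^ b)⁻¹) (qM x)) = r τ⁻¹ (qM x)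
          rw [h1]
        rw [e, hr, hr']
      · have hℓpn : ¬ ℓ ∣ p ^ n := fun h =>
          hℓp ((Nat.prime_dvd_prime_iff_eq hℓ hp).mp (hℓ.dvd_of_dvd_pow h))
        have h1 : σ ζ = ζ ^ ℓ := h65_frob_root A hℓ hA hσ hℓpn hζ.pow_eq_one
        have h2 : ∀ j : ℕ, (σ ^ j) ζ = ζ ^ (ℓ ^ j) := by
          intro j
          induction j with
          | zero => simp
          | succ j ih =>
            rw [pow_succ', AlgEquiv.mul_apply, ih, map_pow, h1, ← pow_mul, pow_succ']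
        rw [← hσg ζ hζL, h2]
    obtain ⟨D, a, hD1, hD2, hD3⟩ := fact
    have hqpn : ¬ q ∣ p ^ n := fun h =>
      hqp ((Nat.prime_dvd_prime_iff_eq hq hp).mp (hq.dvd_of_dvd_pow h))
    have hτζ : τ ζ = ζ := h65_inertia_root P hq hP hτ hqpn hζ.pow_eq_one
    have hmod : a ≡ 1 [MOD p ^ n] := by
      have hζ0 : ζ ≠ 0 := hζ.ne_zero (NeZero.ne _)
      have haa : ζ ^ a = ζ ^ 1 := by rw [← hD3, hτζ, pow_one]
      have h1 : ζ ^ ((1 : ℤ) - a) = 1 := by
        rw [zpow_sub₀ hζ0, zpow_natCast, haa, zpow_one, pow_one, div_self hζ0]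
      have h2 := (hζ.zpow_eq_one_iff_dvd _).mp h1
      have h3 : (a : ℤ) ≡ ((1 : ℕ) : ℤ) [ZMOD ((p ^ n : ℕ) : ℤ)] := by
        rw [Nat.cast_one]
        exact Int.modEq_iff_dvd.mpr h2
      exact Int.natCast_modEq_iff.mp h3
    -- `r τ (r τ⁻¹ m) = m`
    have hinv : ∀ m : M, r τ (r τ⁻¹ m) = m := by
      intro m
      have h := map_mul r τ τ⁻¹
      rw [mul_inv_cancel, map_one] at h
      have h' := congrArg (fun f : AddMonoid.End M => f m) h
      exact h'.symm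
    -- the Hecke element acts as `τ + τ⁻¹`, and `d (τ + τ⁻¹) = 2 d`
    have hact : ∀ x : Λ, d • qM (ι D x) = d • (2 • qM x) := by
      intro x
      rw [hD2, h65_nsmul_eq_of_modEq hmod _ (htors _), one_nsmul]
      have h := hunip P hP τ hτ (r τ⁻¹ (qM x))
      rw [hinv] at h
      exact h
    -- the element `d D - 2 d` of the Hecke algebra kills the level
    set E : CuspForm.heckeAlgebra N 2 (↑S : Set ℕ) := (d : ℤ) • D - ((2 * d : ℕ) : ℤ) • 1 with hE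
    have hzero : ∀ x : Λ, qM (ι E x) = 0 := by
      intro x
      have e1 : ι E x = (d : ℤ) • ι D x - ((2 * d : ℕ) : ℤ) • x := by
        rw [hE, map_sub, map_zsmul, map_zsmul, map_one, LinearMap.sub_apply, LinearMap.smul_apply,
          LinearMap.smul_apply, Module.End.one_apply]
      rw [e1, map_sub, map_zsmul, map_zsmul, natCast_zsmul, natCast_zsmul, hact x, mul_nsmul,
        sub_self]
    obtain ⟨y, hy⟩ := hc n E (fun v => hker _ (hzero v))
    have hπ : (d : T) * H.π D - 2 * (d : T) ∈ IsLocalRing.maximalIdeal T ^ k := by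
      have e2 : H.π E = (d : T) * H.π D - 2 * (d : T) := by
        rw [hE, map_sub, map_zsmul, map_zsmul, map_one, zsmul_eq_mul, zsmul_eq_mul, mul_one]
        push_cast
        ring
      rw [← e2, hy, show n - c = k by omega, zsmul_eq_mul, map_mul, map_intCast]
      push_cast
      exact Ideal.mul_mem_right _ _ (Ideal.pow_mem_pow hpT k)
    have hle : IsLocalRing.maximalIdeal T ^ n ≤ IsLocalRing.maximalIdeal T ^ k :=
      Ideal.pow_le_pow_right (by omega)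
    have e : (d : T) * (LinearMap.trace T H.ρ.V (H.ρ.ρ τ) - 2) =
        (d : T) * (LinearMap.trace T H.ρ.V (H.ρ.ρ τ) - H.π D) +
          ((d : T) * H.π D - 2 * (d : T)) := by ring
    rw [e]
    exact Ideal.add_mem _ (Ideal.mul_mem_left _ _ (hle hD1)) hπ
  have hbot := Ideal.iInf_pow_eq_bot_of_isLocalRing (IsLocalRing.maximalIdeal T)
    Ideal.IsPrime.ne_top'
  have hmem : (d : T) * (LinearMap.trace T H.ρ.V (H.ρ.ρ τ) - 2) ∈
      (⨅ i : ℕ, IsLocalRing.maximalIdeal T ^ i) := by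
    rw [Ideal.mem_iInf]
    exact key
  rw [hbot] at hmem
  exact hmem

/-- **The S34 endgame, abstract version.** The frozen statement S34 from a Hecke lattice with
level structures carrying the unipotent clause at `q`, and the weak Chebotarev statement. -/
theorem h65_S34_of_levelsU [CharZero 𝒪] (hp : p.Prime)
    (hp𝒪 : (p : 𝒪) ∈ IsLocalRing.maximalIdeal 𝒪) (hpS : p ∈ S)
    (hNS : ∀ q : ℕ, q.Prime → q ∣ N → q ∈ S)
    (H : CuspForm.HeckeGaloisRepDatum N (↑S : Set ℕ) 𝒪 θ T)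
    {Λ : Type} [AddCommGroup Λ] [Module.Free ℤ Λ] [Module.Finite ℤ Λ]
    (ι : CuspForm.heckeAlgebra N 2 (↑S : Set ℕ) →+* Module.End ℤ Λ)
    (hι : Function.Injective ι)
    (q d : ℕ) (hq : q.Prime) (hqp : q ≠ p) (hd : d ≠ 0)
    (hlev : ∀ n : ℕ, h65_HasLevelU p N S ι q d n)
    (hcheb : h65_WCheb) :
    H.ρ.IsUnipotentOnInertiaAt q := by
  intro P hP τ hτ
  have htr : ∀ σ ∈ P.inertiaSubgroupIn ℚ, LinearMap.trace T H.ρ.V (H.ρ.ρ σ) = 2 := by
    intro σ hσ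
    have h := h65_trace_unip hp hp𝒪 hpS hNS H ι hι q d hq hqp hlev hcheb P hP σ hσ
    exact sub_eq_zero.1 (h65_natCast_mul_eq_zero (𝒪 := 𝒪) d hd _ h)
  have h2 : ∀ x : T, 2 * x = 0 → x = 0 := by
    intro x hx
    refine h65_natCast_mul_eq_zero (𝒪 := 𝒪) 2 two_ne_zero x ?_
    rw [Nat.cast_ofNat]
    exact hx
  refine h65_charpoly_of_traces H.ρ.finrank_eq (H.ρ.ρ τ) h2 (htr τ hτ) ?_
  rw [← map_mul]
  exact htr (τ * τ) (mul_mem hτ hτ)

end main

section levels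

variable {p : ℕ} {N : ℕ} [NeZero N] {S : Finset ℕ}

set_option maxHeartbeats 1600000 in
/-- **The levels with the unipotent clause** on `M = J₀(N)[p ^ n]` from THETA, the reduction
interface of S37 and the geometric hypothesis (UNIP). -/
theorem h65_levelsU (hp : p.Prime) (hpS : p ∈ S)
    (hNS : ∀ q : ℕ, q.Prime → q ∣ N → q ∈ (↑S : Set ℕ))
    (hTheta : ∀ n : ℕ, gal_ThetaProp N (p ^ n))
    (hred : ∀ (ℓ : ℕ) (hℓ : ℓ.Prime), ¬ ℓ ∣ N * p →
      ∀ A : ValuationSubring (AlgebraicClosure ℚ), A.LiesOverPrime ℓ →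
        Fermat.Agent.S37.h87_RedData N p ℓ hℓ A)
    (q d : ℕ)
    (hunip : ∀ (n : ℕ) (A : ValuationSubring (AlgebraicClosure ℚ)), A.LiesOverPrime q →
      ∀ τ ∈ A.inertiaSubgroupIn ℚ, ∀ x : JZero N, p ^ n • x = 0 →
        d • (τ • (τ • x - x)) = d • (τ • x - x))
    (n : ℕ) : h65_HasLevelU p N S (h65_iota N (↑S : Set ℕ) hNS) q d n := by
  obtain ⟨Θ, hΘinj, hΘhecke⟩ := hTheta n
  have hNp : ∀ ℓ : ℕ, ℓ.Prime → ℓ ∉ S → ¬ ℓ ∣ N * p := by
    intro ℓ hℓ hℓS hdvd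
    rcases (Nat.Prime.dvd_mul hℓ).1 hdvd with h | h
    · exact hℓS (Finset.mem_coe.1 (hNS ℓ hℓ h))
    · rw [(Nat.prime_dvd_prime_iff_eq hℓ hp).1 h] at hℓS
      exact hℓS hpS
  have hmem : ∀ φ : h65_Lam N, Θ (h65_redHom N (p ^ n) φ) ∈ h65_tors (JZero N) (p ^ n) := by
    intro φ
    show p ^ n • Θ (h65_redHom N (p ^ n) φ) = 0
    rw [← map_nsmul, h65_Hpe_torsion, map_zero]
  let qΛ : h65_Lam N →+ ↥(h65_tors (JZero N) (p ^ n)) :=
    { toFun := fun φ => ⟨Θ (h65_redHom N (p ^ n) φ), hmem φ⟩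
      map_zero' := by
        apply Subtype.ext
        show Θ (h65_redHom N (p ^ n) 0) = 0
        rw [map_zero, map_zero]
      map_add' := fun φ ψ => by
        apply Subtype.ext
        show Θ (h65_redHom N (p ^ n) (φ + ψ)) =
          Θ (h65_redHom N (p ^ n) φ) + Θ (h65_redHom N (p ^ n) ψ)
        rw [map_add, map_add] }
  have hqΛ : ∀ φ : h65_Lam N, ((qΛ φ : ↥(h65_tors (JZero N) (p ^ n))) : JZero N) =
      Θ (h65_redHom N (p ^ n) φ) := fun _ => rfl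
  refine ⟨↥(h65_tors (JZero N) (p ^ n)), inferInstance, qΛ,
    h65_torsRep (AlgebraicClosure ℚ ≃ₐ[ℚ] AlgebraicClosure ℚ) (JZero N) (p ^ n),
    fun ℓ => h65_torsEnd (p ^ n) (heckeOperatorBar N ℓ).toAddMonoidHom, ?_, ?_, ?_, ?_, ?_, ?_⟩
  · -- KER
    intro φ hφ
    have h1 : Θ (h65_redHom N (p ^ n) φ) = 0 := by
      rw [← hqΛ φ, hφ, AddSubgroup.coe_zero]
    have h2 : h65_redHom N (p ^ n) φ = 0 := hΘinj (by rw [h1, map_zero])
    obtain ⟨ψ, hψ⟩ := h65_redHom_ker N (p ^ n) φ h2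
    exact ⟨ψ, by rw [hψ]; push_cast; rfl⟩
  · -- TORS
    intro m
    exact h65_tors_nsmul (p ^ n) m
  · -- STAB
    intro φ
    obtain ⟨E, hE, hfix⟩ := h67_torsion_stabiliser N (p ^ n) (pow_pos hp.pos n)
      (qΛ φ : JZero N) (qΛ φ).2
    refine ⟨E, hE, fun σ hσ => ?_⟩
    apply Subtype.ext
    exact hfix σ hσ
  · -- HECKE
    intro ℓ hℓ hℓN hℓS φ
    have : Fact ℓ.Prime := ⟨hℓ⟩
    apply Subtype.ext
    have hℓp : ¬ ℓ ∣ p ^ n := by
      intro h
      have h' := (Nat.prime_dvd_prime_iff_eq hℓ hp).1 (hℓ.dvd_of_dvd_pow h)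
      rw [h'] at hℓS
      exact hℓS (Finset.mem_coe.2 hpS)
    exact (hΘhecke ℓ hℓN hℓp (h65_redHom N (p ^ n) φ) _
      (h65_redHom_hecke N (p ^ n) (↑S : Set ℕ) hNS hℓ hℓN hℓS φ)).symm
  · -- ES
    intro ℓ hℓ hℓN hℓS A hA σ hσ m
    obtain ⟨Jbar, _, red, φ, hI, hF, hT, hinj⟩ :=
      hred ℓ hℓ (hNp ℓ hℓ (fun h => hℓS (Finset.mem_coe.2 h))) A hA
    exact h65_tors_es (AlgebraicClosure ℚ ≃ₐ[ℚ] AlgebraicClosure ℚ) p ℓ red φ hinj σ (hF σ hσ)
      (heckeOperatorBar N ⟨ℓ, hℓ⟩).toAddMonoidHom hT n m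
  · -- UNIP
    intro A hA τ hτ m
    apply Subtype.ext
    have h := hunip n A hA τ hτ (m : JZero N) m.2
    have h2 : τ • (τ • (m : JZero N) - (m : JZero N)) = τ • τ • (m : JZero N) - τ • (m : JZero N) :=
      smul_sub _ _ _
    rw [h2] at h
    rw [AddSubgroup.coe_nsmul, AddSubgroup.coe_nsmul, AddSubgroup.coe_add, AddSubgroup.coe_nsmul,
      h65_torsRep_coe, h65_torsRep_coe]
    exact h65_unip_rearrange d _ _ _ h

end levels

section final

variable {p : ℕ} {N : ℕ} [NeZero N] {S : Finset ℕ}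
  {𝒪 : Type} [CommRing 𝒪] [IsDomain 𝒪] [IsDiscreteValuationRing 𝒪]
  [IsAdicComplete (IsLocalRing.maximalIdeal 𝒪) 𝒪]
  {θ : CuspForm.heckeAlgebra N 2 (↑S : Set ℕ) →+* IsLocalRing.ResidueField 𝒪}
  {T : Type} [CommRing T] [IsLocalRing T] [IsNoetherianRing T]
  [IsAdicComplete (IsLocalRing.maximalIdeal T) T] [Algebra 𝒪 T] [IsLocalHom (algebraMap 𝒪 T)]
  [Module.Finite 𝒪 T] [Module.Free 𝒪 T]

/-- **S34 from (UNIP).** If for some `d ≠ 0` every `τ` in an inertia group at `q ≠ p` satisfies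
`d • (τ • (τ • x - x)) = d • (τ • x - x)` on the `p`-power torsion of `J₀(N)(ℚ̄)`, then `H.ρ` is
unipotent on inertia at `q`. -/
theorem h65_S34_of_unip [CharZero 𝒪] (hp : p.Prime)
    (hp𝒪 : (p : 𝒪) ∈ IsLocalRing.maximalIdeal 𝒪) (hpS : p ∈ S)
    (hNS : ∀ q : ℕ, q.Prime → q ∣ N → q ∈ S)
    (H : CuspForm.HeckeGaloisRepDatum N (↑S : Set ℕ) 𝒪 θ T)
    (q : ℕ) (hq : q.Prime) (hqp : q ≠ p) (d : ℕ) (hd : d ≠ 0)
    (hunip : ∀ (n : ℕ) (A : ValuationSubring (AlgebraicClosure ℚ)), A.LiesOverPrime q →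
      ∀ τ ∈ A.inertiaSubgroupIn ℚ, ∀ x : JZero N, p ^ n • x = 0 →
        d • (τ • (τ • x - x)) = d • (τ • x - x)) :
    H.ρ.IsUnipotentOnInertiaAt q :=
  h65_S34_of_levelsU hp hp𝒪 hpS hNS H
    (h65_iota N (↑S : Set ℕ) (fun q hq hqN => Finset.mem_coe.2 (hNS q hq hqN)))
    (h65_iota_injective N (↑S : Set ℕ) _) q d hq hqp hd
    (h65_levelsU hp hpS _
      (fun n => haveI : NeZero (p ^ n) := ⟨pow_ne_zero n hp.ne_zero⟩; gal_thetaProp N (p ^ n))
      (fun ℓ hℓ h A hA => Fermat.Agent.S37.h60_redData N p ℓ hℓ h A hA) q d hunip)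
    h65_wcheb

/-- **S34 from the exact (UNIP)**: `(τ - 1)² = 0` on `J₀(N)[p ^ n]` for all `n` and all `τ` in the
inertia groups at `q`. -/
theorem h65_S34_of_unip_exact [CharZero 𝒪] (hp : p.Prime)
    (hp𝒪 : (p : 𝒪) ∈ IsLocalRing.maximalIdeal 𝒪) (hpS : p ∈ S)
    (hNS : ∀ q : ℕ, q.Prime → q ∣ N → q ∈ S)
    (H : CuspForm.HeckeGaloisRepDatum N (↑S : Set ℕ) 𝒪 θ T)
    (q : ℕ) (hq : q.Prime) (hqp : q ≠ p)
    (hunip : ∀ (n : ℕ) (A : ValuationSubring (AlgebraicClosure ℚ)), A.LiesOverPrime q →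
      ∀ τ ∈ A.inertiaSubgroupIn ℚ, ∀ x : JZero N, p ^ n • x = 0 →
        τ • (τ • x - x) = τ • x - x) :
    H.ρ.IsUnipotentOnInertiaAt q :=
  h65_S34_of_unip hp hp𝒪 hpS hNS H q hq hqp 1 one_ne_zero
    (fun n A hA τ hτ x hx => by rw [one_nsmul, one_nsmul]; exact hunip n A hA τ hτ x hx)

/-- **S34 from the geometric statement in its natural form**: for every `m` prime to `q`, any two
elements `τ, τ'` of an inertia group at `q` satisfy `(τ' - 1)(τ - 1) = 0` on `J₀(N)[m]`. -/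
theorem h65_S34_of_unip_coprime [CharZero 𝒪] (hp : p.Prime)
    (hp𝒪 : (p : 𝒪) ∈ IsLocalRing.maximalIdeal 𝒪) (hpS : p ∈ S)
    (hNS : ∀ q : ℕ, q.Prime → q ∣ N → q ∈ S)
    (H : CuspForm.HeckeGaloisRepDatum N (↑S : Set ℕ) 𝒪 θ T)
    (q : ℕ) (hq : q.Prime) (hqp : q ≠ p)
    (hunip : ∀ m : ℕ, m.Coprime q → ∀ A : ValuationSubring (AlgebraicClosure ℚ),
      A.LiesOverPrime q → ∀ τ ∈ A.inertiaSubgroupIn ℚ, ∀ τ' ∈ A.inertiaSubgroupIn ℚ,
        ∀ x : JZero N, m • x = 0 → τ' • (τ • x - x) = τ • x - x) :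
    H.ρ.IsUnipotentOnInertiaAt q :=
  h65_S34_of_unip_exact hp hp𝒪 hpS hNS H q hq hqp
    (fun n A hA τ hτ x hx => hunip (p ^ n)
      (Nat.Coprime.pow_left n ((Nat.coprime_primes hp hq).2 (Ne.symm hqp))) A hA τ hτ τ hτ x hx)

end final

end Fermat.Agent.S34
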