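import Mathlib
import Fermat.Agent.S34.h75_ONFamily

/-!
# S34 foundation: the orthonormal layer for TWO reduction data with the same residue field
(helper75)

Pair wrapper of `h75_ONFamily` (family indexed by `Bool`), in the shape used for `F(Mq)` with
its two valuations `v₁`, `v₂` over `q`: `R₁ R₂ : h39_RedDatum K F k Fb` with the same constants
(`hA : R₁.A = R₂.A`, `hres : R₁.resK = R₂.resK`), incomparable valuation rings, a function `x`
in `O₁ ∩ O₂` with transcendental reductions and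
`[F : K(x)] ≤ [Fb : k(x̄₁)] + [Fb : k(x̄₂)]`.

* `h75_pair_inc_of_sep` : incomparability from an element `t` with `red₁ t = 1`, `red₂ t = 0`;
* `h75_exists_on_pair` : **(ON)** every finite-dimensional `K`-subspace `V` of `F` has a
  `K`-basis `e` in `V ∩ O₁ ∩ O₂` with `V ∩ O₁ ∩ O₂ = ⊕ A eⱼ` and the pairs
  `(red₁ eⱼ, red₂ eⱼ) ∈ Fb × Fb` are `k`-linearly independent;
* `h75_redPair`, `h75_mem_redPair`, `h75_finrank_redPair` : **(G1)**
  `dim_k red(V ∩ O₁ ∩ O₂) = dim_K V` for the reduction `red = (red₁, red₂)` into `Fb × Fb`;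
* `h75_redPair_eq_of_le` : if `red(V ∩ O₁ ∩ O₂) ⊆ W` and `dim_k W ≤ dim_K V` then equality
  (lifting of every element of `W`).
-/

set_option autoImplicit false

noncomputable section

open IntermediateField Polynomial Module

namespace Fermat.Agent.S34

open Fermat.Agent.S18

section Pair

variable {K F k Fb : Type*} [Field K] [Field F] [Algebra K F] [Field k] [Field Fb] [Algebra k Fb]
variable (R₁ R₂ : h39_RedDatum K F k Fb)

/-- Incomparability of the two valuation rings from a separating element. -/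
theorem h75_pair_inc_of_sep {t : F} (ht1 : R₁.redF t = 1) (ht2 : t ∈ R₂.O)
    (ht2' : R₂.redF t = 0) : ¬ R₁.O ≤ R₂.O ∧ ¬ R₂.O ≤ R₁.O := by
  have h1ne : R₁.redF t ≠ 0 := by
    rw [ht1]
    exact one_ne_zero
  have ht1O : t ∈ R₁.O := h39_mem_of_redF_ne_zero R₁ h1ne
  have ht0 : t ≠ 0 := by
    rintro rfl
    exact h1ne (h39_redF_zero R₁)
  constructor
  · intro hle
    have hinv : t⁻¹ ∈ R₁.O := (h39_inv_of_redF_ne_zero R₁ h1ne).1
    rcases (h39_redF_eq_zero_iff R₂ ht2).mp ht2' with h | h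
    · exact ht0 h
    · exact h (hle hinv)
  · intro hle
    have hs2 : R₂.redF (1 - t) = 1 := by
      rw [h39_redF_sub R₂ R₂.O.one_mem ht2, h39_redF_one, ht2', sub_zero]
    have hs1 : R₁.redF (1 - t) = 0 := by
      rw [h39_redF_sub R₁ R₁.O.one_mem ht1O, h39_redF_one, ht1, sub_self]
    have h2ne : R₂.redF (1 - t) ≠ 0 := by
      rw [hs2]
      exact one_ne_zero
    have hs0 : (1 - t) ≠ 0 := by
      intro h
      rw [h] at h2ne
      exact h2ne (h39_redF_zero R₂)
    have hinv : (1 - t)⁻¹ ∈ R₂.O := (h39_inv_of_redF_ne_zero R₂ h2ne).1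
    rcases (h39_redF_eq_zero_iff R₁ (sub_mem R₁.O.one_mem ht1O)).mp hs1 with h | h
    · exact hs0 h
    · exact h (hle hinv)

/-- **(ON) for two reduction data.** -/
theorem h75_exists_on_pair (hA : R₁.A = R₂.A) (hres : R₁.resK = R₂.resK)
    (hinc : ¬ R₁.O ≤ R₂.O ∧ ¬ R₂.O ≤ R₁.O) {x : F}
    (hx1 : x ∈ R₁.O) (hx2 : x ∈ R₂.O)
    (htr1 : Transcendental k (R₁.redF x)) (htr2 : Transcendental k (R₂.redF x))
    [hfin1 : Module.Finite k⟮R₁.redF x⟯ Fb] [hfin2 : Module.Finite k⟮R₂.redF x⟯ Fb]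
    [hF : Module.Finite K⟮x⟯ F]
    (hdeg : Module.finrank K⟮x⟯ F ≤
      Module.finrank k⟮R₁.redF x⟯ Fb + Module.finrank k⟮R₂.redF x⟯ Fb)
    (V : Submodule K F) [FiniteDimensional K V] :
    ∃ e : Fin (Module.finrank K V) → F, (∀ j, e j ∈ V) ∧ (∀ j, e j ∈ R₁.O) ∧ (∀ j, e j ∈ R₂.O) ∧
      LinearIndependent K e ∧
      (∀ a : Fin (Module.finrank K V) → K, ∑ j, a j • e j ∈ R₁.O → ∑ j, a j • e j ∈ R₂.O →
        ∀ j, a j ∈ R₁.A) ∧
      (∀ f ∈ V, f ∈ R₁.O → f ∈ R₂.O → ∃ a : Fin (Module.finrank K V) → K,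
        (∀ j, a j ∈ R₁.A) ∧ f = ∑ j, a j • e j) ∧
      LinearIndependent k (fun j => (R₁.redF (e j), R₂.redF (e j))) := by
  classical
  let R : Bool → h39_RedDatum K F k Fb := fun b => cond b R₁ R₂
  have hRA : ∀ i j : Bool, (R i).A = (R j).A := by
    intro i j
    cases i <;> cases j
    · rfl
    · exact hA.symm
    · exact hA
    · rfl
  have hRres : ∀ i j : Bool, (R i).resK = (R j).resK := by
    intro i j
    cases i <;> cases j
    · rfl
    · exact hres.symm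
    · exact hres
    · rfl
  have hRinc : ∀ i j : Bool, i ≠ j → ¬ (R i).O ≤ (R j).O := by
    intro i j hij
    cases i <;> cases j
    · exact absurd rfl hij
    · exact hinc.2
    · exact hinc.1
    · exact absurd rfl hij
  have hRx : ∀ i : Bool, x ∈ (R i).O := by
    intro i
    cases i
    · exact hx2
    · exact hx1
  have hRtr : ∀ i : Bool, Transcendental k ((R i).redF x) := by
    intro i
    cases i
    · exact htr2
    · exact htr1
  have hRfin : ∀ i : Bool, Module.Finite k⟮(R i).redF x⟯ Fb := by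
    intro i
    cases i
    · exact hfin2
    · exact hfin1
  have hRdeg : Module.finrank K⟮x⟯ F ≤ ∑ i : Bool, Module.finrank k⟮(R i).redF x⟯ Fb := by
    rw [Fintype.sum_bool]
    exact hdeg
  obtain ⟨e, heV, heO, hind, hon, hspan, hli⟩ :=
    h75_exists_on_family (ι := Bool) (Fb := fun _ => Fb) R hRA hRres hRinc hRx hRtr
      (hfin := hRfin) hRdeg V
  refine ⟨e, heV, fun j => heO j true, fun j => heO j false, hind, ?_, ?_, ?_⟩
  · intro a h1 h2 j
    refine hon a (fun i => ?_) j true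
    cases i
    · exact h2
    · exact h1
  · intro f hfV h1 h2
    obtain ⟨a, ha, hf⟩ := hspan f hfV (fun i => by
      cases i
      · exact h2
      · exact h1)
    exact ⟨a, fun j => ha j true, hf⟩
  · let L : (Bool → Fb) →ₗ[k] Fb × Fb :=
      LinearMap.prod (LinearMap.proj true) (LinearMap.proj false)
    have hL : LinearMap.ker L = ⊥ := by
      rw [eq_bot_iff]
      intro φ hφ
      rw [LinearMap.mem_ker] at hφ
      have h1 : φ true = 0 := congrArg Prod.fst hφ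
      have h2 : φ false = 0 := congrArg Prod.snd hφ
      rw [Submodule.mem_bot]
      funext b
      cases b
      · exact h2
      · exact h1
    exact hli.map' L hL

/-- **(G1)** the reduction of `V ∩ O₁ ∩ O₂`, as a `k`-subspace of `Fb × Fb`. -/
def h75_redPair (V : Submodule K F) : Submodule k (Fb × Fb) :=
  Submodule.span k {φ | ∃ f ∈ V, f ∈ R₁.O ∧ f ∈ R₂.O ∧ R₁.redF f = φ.1 ∧ R₂.redF f = φ.2}

theorem h75_mem_redPair (hA : R₁.A = R₂.A) (hres : R₁.resK = R₂.resK) (V : Submodule K F)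
    (φ : Fb × Fb) :
    φ ∈ h75_redPair R₁ R₂ V ↔
      ∃ f ∈ V, f ∈ R₁.O ∧ f ∈ R₂.O ∧ R₁.redF f = φ.1 ∧ R₂.redF f = φ.2 := by
  constructor
  · intro h
    unfold h75_redPair at h
    induction h using Submodule.span_induction with
    | mem φ h => exact h
    | zero =>
      exact ⟨0, V.zero_mem, R₁.O.zero_mem, R₂.O.zero_mem, h39_redF_zero R₁, h39_redF_zero R₂⟩
    | add φ ψ _ _ h1 h2 =>
      obtain ⟨f, hfV, hf1, hf2, hfr1, hfr2⟩ := h1
      obtain ⟨g, hgV, hg1, hg2, hgr1, hgr2⟩ := h2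
      refine ⟨f + g, V.add_mem hfV hgV, R₁.O.add_mem _ _ hf1 hg1, R₂.O.add_mem _ _ hf2 hg2, ?_, ?_⟩
      · rw [h39_redF_add R₁ hf1 hg1, hfr1, hgr1]
        rfl
      · rw [h39_redF_add R₂ hf2 hg2, hfr2, hgr2]
        rfl
    | smul c φ _ h1 =>
      obtain ⟨f, hfV, hf1, hf2, hfr1, hfr2⟩ := h1
      obtain ⟨a, haA, har⟩ := h39_resK_surjective R₁ c
      have haA2 : a ∈ R₂.A := hA ▸ haA
      have ha1 : algebraMap K F a ∈ R₁.O := (R₁.mem_iff a).mp haA
      have ha2 : algebraMap K F a ∈ R₂.O := (R₂.mem_iff a).mp haA2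
      refine ⟨a • f, V.smul_mem a hfV, ?_, ?_, ?_, ?_⟩
      · rw [Algebra.smul_def]
        exact R₁.O.mul_mem _ _ ha1 hf1
      · rw [Algebra.smul_def]
        exact R₂.O.mul_mem _ _ ha2 hf2
      · rw [Algebra.smul_def, h39_redF_mul R₁ ha1 hf1, h39_redF_algebraMap R₁ haA, har, hfr1,
          Prod.smul_fst, Algebra.smul_def]
      · rw [Algebra.smul_def, h39_redF_mul R₂ ha2 hf2, h39_redF_algebraMap R₂ haA2, ← hres, har,
          hfr2, Prod.smul_snd, Algebra.smul_def]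
  · intro h
    exact Submodule.subset_span h

theorem h75_redPair_mono {V W : Submodule K F} (h : V ≤ W) :
    h75_redPair R₁ R₂ V ≤ h75_redPair R₁ R₂ W := by
  unfold h75_redPair
  apply Submodule.span_mono
  rintro φ ⟨f, hfV, hf⟩
  exact ⟨f, h hfV, hf⟩

/-- **(G1)** `dim_k red(V ∩ O₁ ∩ O₂) = dim_K V`. -/
theorem h75_finrank_redPair (hA : R₁.A = R₂.A) (hres : R₁.resK = R₂.resK)
    (hinc : ¬ R₁.O ≤ R₂.O ∧ ¬ R₂.O ≤ R₁.O) {x : F}
    (hx1 : x ∈ R₁.O) (hx2 : x ∈ R₂.O)
    (htr1 : Transcendental k (R₁.redF x)) (htr2 : Transcendental k (R₂.redF x))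
    [hfin1 : Module.Finite k⟮R₁.redF x⟯ Fb] [hfin2 : Module.Finite k⟮R₂.redF x⟯ Fb]
    [hF : Module.Finite K⟮x⟯ F]
    (hdeg : Module.finrank K⟮x⟯ F ≤
      Module.finrank k⟮R₁.redF x⟯ Fb + Module.finrank k⟮R₂.redF x⟯ Fb)
    (V : Submodule K F) [FiniteDimensional K V] :
    Module.finrank k (h75_redPair R₁ R₂ V) = Module.finrank K V := by
  classical
  obtain ⟨e, heV, he1, he2, -, -, hspan, hli⟩ :=
    h75_exists_on_pair R₁ R₂ hA hres hinc hx1 hx2 htr1 htr2 hdeg V
  have heq : h75_redPair R₁ R₂ V =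
      Submodule.span k (Set.range fun j => (R₁.redF (e j), R₂.redF (e j))) := by
    apply le_antisymm
    · unfold h75_redPair
      rw [Submodule.span_le]
      rintro φ ⟨f, hfV, hf1, hf2, hfr1, hfr2⟩
      obtain ⟨a, haA, rfl⟩ := hspan f hfV hf1 hf2
      have haA2 : ∀ j, a j ∈ R₂.A := fun j => hA ▸ haA j
      rw [SetLike.mem_coe, Submodule.mem_span_range_iff_exists_fun]
      refine ⟨fun j => R₁.resK (a j), ?_⟩
      apply Prod.ext
      · rw [← hfr1, h20_redF_sum_smul R₁ Finset.univ a e haA he1, Prod.fst_sum]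
        rfl
      · rw [← hfr2, h20_redF_sum_smul R₂ Finset.univ a e haA2 he2, Prod.snd_sum, ← hres]
        rfl
    · rw [Submodule.span_le]
      rintro _ ⟨j, rfl⟩
      exact Submodule.subset_span ⟨e j, heV j, he1 j, he2 j, rfl, rfl⟩
  rw [heq, finrank_span_eq_card hli, Fintype.card_fin]

/-- **(G1), lifting form.**  If the reduction of `V ∩ O₁ ∩ O₂` lies in a `k`-subspace `W` of
`Fb × Fb` with `dim_k W ≤ dim_K V`, then every element of `W` is the reduction of an element of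
`V ∩ O₁ ∩ O₂`. -/
theorem h75_redPair_eq_of_le (hA : R₁.A = R₂.A) (hres : R₁.resK = R₂.resK)
    (hinc : ¬ R₁.O ≤ R₂.O ∧ ¬ R₂.O ≤ R₁.O) {x : F}
    (hx1 : x ∈ R₁.O) (hx2 : x ∈ R₂.O)
    (htr1 : Transcendental k (R₁.redF x)) (htr2 : Transcendental k (R₂.redF x))
    [hfin1 : Module.Finite k⟮R₁.redF x⟯ Fb] [hfin2 : Module.Finite k⟮R₂.redF x⟯ Fb]
    [hF : Module.Finite K⟮x⟯ F]
    (hdeg : Module.finrank K⟮x⟯ F ≤
      Module.finrank k⟮R₁.redF x⟯ Fb + Module.finrank k⟮R₂.redF x⟯ Fb)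
    (V : Submodule K F) [FiniteDimensional K V]
    (W : Submodule k (Fb × Fb)) [FiniteDimensional k W]
    (hle : h75_redPair R₁ R₂ V ≤ W) (hd : Module.finrank k W ≤ Module.finrank K V) :
    h75_redPair R₁ R₂ V = W := by
  apply Submodule.eq_of_le_of_finrank_le hle
  rw [h75_finrank_redPair R₁ R₂ hA hres hinc hx1 hx2 htr1 htr2 hdeg V]
  exact hd

end Pair

end Fermat.Agent.S34

end
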