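import Fermat.Agent.S18.GR_ChartPt
import Fermat.Agent.S18.h34_HoloCore
import Fermat.Agent.S27.h57_SemiAct
import Fermat.Agent.S34.h34_Goursat

/-!
# S34 — FROB-CHART: Frobenius-type endomorphisms of a function field and the nodes of the
two graphs (generic; no modular input)

`k` algebraically closed, `Fb / k` a function field with a chart `x` (`h75_IsChart k x`),
`φ : Fb →+* Fb` a `k`-linear ring endomorphism, `Φ` a self-map of the places and `ℓ ≥ 2` with

  `Q.ord (φ c) = ℓ * (Φ Q).ord c`   and   `φ x = x ^ ℓ`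

(think: `φ` = the `V`-operator `g(q) ↦ g(q^ℓ)` on the reduction of a modular function field in
characteristic `ℓ`, `Φ` = the Frobenius correspondence on places).

* `h84_frob_val`, `h84_frob_reg`, `h84_frob_chart`, `h84_frob_xval` : transport of values,
  regularity, the chart and the `x`-coordinate along `(φ, Φ)`;
* `h84_fix_finite` : the places of the chart fixed by `Φ ∘ Φ` are finitely many;
* `h84_frob_radical` : an element of the chart ring vanishing at all of them lies in the ideal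
  generated by the `b - φ (φ b)` (transversality of the graph of Frobenius and its transpose);
* `h84_frob_nodes_chart` : a `k`-subalgebra `T` of `Fb × Fb` consisting of pairs of functions
  regular on the chart and containing the two graphs `(b, φ b)`, `(φ b, b)` is cut out by the
  node conditions `y.1 (Φ Q) = y.2 (Q)` at a (finite) set of `Φ ∘ Φ`-fixed places of the chart;
* `h84_frob_semi` : in characteristic `q`, ANY `k`-linear ring endomorphism `φ` of `Fb` with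
  `φ x = x ^ q` on a chart `x` is `c ↦ (σ⁻¹ c) ^ q` for a `q`-Frobenius structure `σ`
  (`h57_SemiAut`, S27) fixing `x`; hence `Φ Q = σ • Q` (`h84_frob_semi_ord`);
* `h84_frob_nodes_of_V` : the node description in this characteristic-`q` form.
-/

set_option autoImplicit false

noncomputable section

open AlgebraicCurve IsDedekindDomain
open Fermat.Agent.S18 Fermat.Agent.S24 Fermat.Agent.S27
open scoped IntermediateField

namespace Fermat.Agent.S34

variable {k Fb : Type*} [Field k] [Field Fb] [Algebra k Fb]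

section abstract

variable (φ : Fb →+* Fb) (Φ : Place k Fb → Place k Fb) (ℓ : ℕ)

theorem h84_val_pow (Q : Place k Fb) {f : Fb} {a : k} (h : h39_Val Q f a) (n : ℕ) :
    h39_Val Q (f ^ n) (a ^ n) := by
  induction n with
  | zero =>
    rw [pow_zero, pow_zero]
    have := h39_val_algebraMap Q (1 : k)
    rwa [map_one] at this
  | succ n ih =>
    rw [pow_succ, pow_succ]
    exact h39_val_mul Q ih h

/-- Values are transported: `(φ b)(Q) = b(Φ Q)`. -/
theorem h84_frob_val (hφk : ∀ a : k, φ (algebraMap k Fb a) = algebraMap k Fb a)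
    (hΦ : ∀ (Q : Place k Fb) (c : Fb), Q.ord (φ c) = (ℓ : ℤ) * (Φ Q).ord c) (hℓ : 0 < ℓ)
    (Q : Place k Fb) {b : Fb} {c : k} (h : h39_Val (Φ Q) b c) : h39_Val Q (φ b) c := by
  rcases h with h | h
  · left
    rw [h, hφk]
  · right
    rw [← hφk c, ← map_sub, hΦ]
    exact mul_pos (by exact_mod_cast hℓ) h

theorem h84_frob_mem
    (hΦ : ∀ (Q : Place k Fb) (c : Fb), Q.ord (φ c) = (ℓ : ℤ) * (Φ Q).ord c)
    (Q : Place k Fb) {c : Fb} (h : c ∈ (Φ Q).toValuationSubring) :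
    φ c ∈ Q.toValuationSubring := by
  apply h24_mem_of_ord_nonneg
  rw [hΦ]
  exact mul_nonneg (Int.natCast_nonneg ℓ) (h24_ord_nonneg_of_mem _ h)

/-- `Φ` preserves the chart of `x` when `φ x = x ^ ℓ`. -/
theorem h84_frob_chart
    (hΦ : ∀ (Q : Place k Fb) (c : Fb), Q.ord (φ c) = (ℓ : ℤ) * (Φ Q).ord c) (hℓ : 0 < ℓ)
    {x : Fb} (hx0 : x ≠ 0) (hφx : φ x = x ^ ℓ) (Q : Place k Fb) :
    x ∈ (Φ Q).toValuationSubring ↔ x ∈ Q.toValuationSubring := by
  have h1 : (ℓ : ℤ) * (Φ Q).ord x = (ℓ : ℤ) * Q.ord x := by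
    rw [← hΦ, hφx, h34_ord_pow]
  have hℓ' : (ℓ : ℤ) ≠ 0 := by exact_mod_cast hℓ.ne'
  have h2 : (Φ Q).ord x = Q.ord x := mul_left_cancel₀ hℓ' h1
  rw [h35_mem_iff_ord_nonneg _ hx0, h35_mem_iff_ord_nonneg _ hx0, h2]

/-- `φ` preserves regularity on the chart of `x`. -/
theorem h84_frob_reg
    (hΦ : ∀ (Q : Place k Fb) (c : Fb), Q.ord (φ c) = (ℓ : ℤ) * (Φ Q).ord c) (hℓ : 0 < ℓ)
    {x : Fb} (hx0 : x ≠ 0) (hφx : φ x = x ^ ℓ) {b : Fb} (hb : h39_Reg k x b) :
    h39_Reg k x (φ b) := by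
  intro Q hQ
  exact h84_frob_mem φ Φ ℓ hΦ Q (hb (Φ Q) ((h84_frob_chart φ Φ ℓ hΦ hℓ hx0 hφx Q).mpr hQ))

/-- The `x`-coordinate of `Φ Q` is the `ℓ`-th power of the `x`-coordinate of `Q`. -/
theorem h84_frob_xval (hφk : ∀ a : k, φ (algebraMap k Fb a) = algebraMap k Fb a)
    (hΦ : ∀ (Q : Place k Fb) (c : Fb), Q.ord (φ c) = (ℓ : ℤ) * (Φ Q).ord c) (hℓ : 0 < ℓ)
    {x : Fb} (hφx : φ x = x ^ ℓ) (Q : Place k Fb) {a c : k} (ha : h39_Val Q x a)
    (hc : h39_Val (Φ Q) x c) : c = a ^ ℓ := by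
  have h1 : h39_Val Q (φ x) c := h84_frob_val φ Φ ℓ hφk hΦ hℓ Q hc
  rw [hφx] at h1
  exact h39_val_unique Q h1 (h84_val_pow Q ha ℓ)

/-- The places of the chart fixed by `Φ ∘ Φ` are finitely many. -/
theorem h84_fix_finite [IsAlgClosed k]
    (hφk : ∀ a : k, φ (algebraMap k Fb a) = algebraMap k Fb a)
    (hΦ : ∀ (Q : Place k Fb) (c : Fb), Q.ord (φ c) = (ℓ : ℤ) * (Φ Q).ord c) (hℓ : 2 ≤ ℓ)
    {x : Fb} (hx : h75_IsChart k x) (hφx : φ x = x ^ ℓ) :
    {Q : Place k Fb | x ∈ Q.toValuationSubring ∧ Φ (Φ Q) = Q}.Finite := by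
  classical
  have hℓ0 : 0 < ℓ := by omega
  have hx0 := hx.ne_zero
  set p : Polynomial k := Polynomial.X ^ (ℓ ^ 2) - Polynomial.X with hp
  have hp0 : p ≠ 0 := FiniteField.X_pow_card_sub_X_ne_zero k (by nlinarith)
  have hfin : (⋃ a ∈ (p.roots.toFinset : Set k),
      {Q : Place k Fb | 0 < Q.ord (x - algebraMap k Fb a)}).Finite :=
    Set.Finite.biUnion (Finset.finite_toSet _) (fun a _ => h75_fibre_finite hx a)
  refine hfin.subset ?_
  rintro Q ⟨hQx, hQfix⟩
  obtain ⟨a, ha⟩ := h39_exists_val hx Q hQx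
  have hQ1 : x ∈ (Φ Q).toValuationSubring := (h84_frob_chart φ Φ ℓ hΦ hℓ0 hx0 hφx Q).mpr hQx
  obtain ⟨c, hc⟩ := h39_exists_val hx (Φ Q) hQ1
  have e1 : c = a ^ ℓ := h84_frob_xval φ Φ ℓ hφk hΦ hℓ0 hφx Q ha hc
  have ha' : h39_Val (Φ (Φ Q)) x a := by rw [hQfix]; exact ha
  have e2 : a = c ^ ℓ := h84_frob_xval φ Φ ℓ hφk hΦ hℓ0 hφx (Φ Q) hc ha'
  have hroot : a ∈ p.roots.toFinset := by
    rw [Multiset.mem_toFinset, Polynomial.mem_roots hp0, Polynomial.IsRoot, hp]
    simp only [Polynomial.eval_sub, Polynomial.eval_pow, Polynomial.eval_X]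
    rw [sub_eq_zero, pow_two, pow_mul, ← e1, ← e2]
  refine Set.mem_biUnion (Finset.mem_coe.mpr hroot) ?_
  rcases ha with h | h
  · exact absurd (h ▸ isAlgebraic_algebraMap (R := k) (A := Fb) a) hx.tr
  · exact h

/-- **Radicality.** An element of the chart ring vanishing at all `Φ ∘ Φ`-fixed places of the
chart lies in the ideal generated by the `b - φ (φ b)`. -/
theorem h84_frob_radical [IsAlgClosed k]
    (hφk : ∀ a : k, φ (algebraMap k Fb a) = algebraMap k Fb a)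
    (hΦ : ∀ (Q : Place k Fb) (c : Fb), Q.ord (φ c) = (ℓ : ℤ) * (Φ Q).ord c) (hℓ : 2 ≤ ℓ)
    {x : Fb} (hx : h75_IsChart k x) (hφx : φ x = x ^ ℓ)
    (φR : h75_ringB k x →+* h75_ringB k x)
    (hφR : ∀ b : h75_ringB k x, ((φR b : h75_ringB k x) : Fb) = φ (b : Fb))
    (r : h75_ringB k x)
    (hr : ∀ Q : Place k Fb, x ∈ Q.toValuationSubring → Φ (Φ Q) = Q → h39_Val Q (r : Fb) 0) :
    r ∈ Ideal.span (Set.range fun b : h75_ringB k x => b - φR (φR b)) := by
  classical
  have := h75_ringB_isDedekindDomain hx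
  have := h75_ringB_isFractionRing hx
  have hℓ0 : 0 < ℓ := by omega
  have hx0 := hx.ne_zero
  set a : Ideal (h75_ringB k x) :=
    Ideal.span (Set.range fun b : h75_ringB k x => b - φR (φR b)) with ha
  have hmem : ∀ b : h75_ringB k x, b - φR (φR b) ∈ a := fun b => Ideal.subset_span ⟨b, rfl⟩
  have hcoe : ∀ b : h75_ringB k x,
      ((b - φR (φR b) : h75_ringB k x) : Fb) = (b : Fb) - φ (φ (b : Fb)) := by
    intro b
    rw [← hφR b, ← hφR (φR b)]
    rfl
  -- the maximal ideals above `a` are `Φ ∘ Φ`-fixed places of the chart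
  have key : ∀ P : Ideal (h75_ringB k x), P.IsMaximal → a ≤ P →
      ∃ w : HeightOneSpectrum (h75_ringB k x), w.asIdeal = P ∧
        Φ (Φ (Place.ofHeightOneSpectrum (K := k) (F := Fb) w)) =
          Place.ofHeightOneSpectrum (K := k) (F := Fb) w := by
    intro P hP haP
    have hne : P ≠ ⊥ := by
      rintro rfl
      have h1 := haP (hmem ⟨x, h75_self_mem_ringB x⟩)
      rw [Ideal.mem_bot] at h1
      have h2 : x - φ (φ x) = 0 := by
        have h3 := congrArg (Subtype.val) h1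
        rw [hcoe] at h3
        exact h3
      rw [hφx, map_pow, hφx, ← pow_mul] at h2
      apply hx.tr
      refine ⟨Polynomial.X ^ (ℓ * ℓ) - Polynomial.X,
        FiniteField.X_pow_card_sub_X_ne_zero k (by nlinarith), ?_⟩
      have h2' : x ^ (ℓ * ℓ) = x := (sub_eq_zero.mp h2).symm
      simp only [map_sub, map_pow, Polynomial.aeval_X]
      rw [h2', sub_self]
    let w : HeightOneSpectrum (h75_ringB k x) := ⟨P, hP.isPrime, hne⟩
    refine ⟨w, rfl, ?_⟩
    set Q := Place.ofHeightOneSpectrum (K := k) (F := Fb) w with hQ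
    have hQx : x ∈ Q.toValuationSubring := h75_self_mem_ofHeightOneSpectrum w
    by_contra hfix
    have hQ1 : x ∈ (Φ Q).toValuationSubring :=
      (h84_frob_chart φ Φ ℓ hΦ hℓ0 hx0 hφx Q).mpr hQx
    have hQ2 : x ∈ (Φ (Φ Q)).toValuationSubring :=
      (h84_frob_chart φ Φ ℓ hΦ hℓ0 hx0 hφx (Φ Q)).mpr hQ1
    obtain ⟨h, hreg, hv1, hv0⟩ := h39_exists_separating hx Q (Φ (Φ Q)) hQx hQ2 (Ne.symm hfix)
    let hb : h75_ringB k x := ⟨h, (h64_reg_iff_mem_ringB hx h).mp hreg⟩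
    have h1 : hb - φR (φR hb) ∈ w.asIdeal := haP (hmem hb)
    rw [h64_mem_prime_iff, hcoe] at h1
    have h2 : h39_Val Q (h - φ (φ h)) 0 := (h39_val_zero_iff Q).mpr h1
    have h3 : h39_Val Q (φ (φ h)) 0 :=
      h84_frob_val φ Φ ℓ hφk hΦ hℓ0 Q (h84_frob_val φ Φ ℓ hφk hΦ hℓ0 (Φ Q) hv0)
    have h4 : h39_Val Q (h - φ (φ h) + φ (φ h)) (0 + 0) := h39_val_add Q h2 h3
    rw [sub_add_cancel, add_zero] at h4
    exact one_ne_zero (h39_val_unique Q hv1 h4)
  refine h34_radical_of_not_le_sq a ?_ r ?_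
  · intro P hP haP haP2
    obtain ⟨w, rfl, hfix⟩ := key P hP haP
    set Q := Place.ofHeightOneSpectrum (K := k) (F := Fb) w with hQ
    have hQx : x ∈ Q.toValuationSubring := h75_self_mem_ofHeightOneSpectrum w
    obtain ⟨a0, ha0⟩ := h39_exists_val hx Q hQx
    obtain ⟨π, hπreg, hπord, -⟩ := h39_exists_uniformizer hx Q a0 ha0
    let t : h75_ringB k x := ⟨π, (h64_reg_iff_mem_ringB hx π).mp hπreg⟩
    have hπ0 : π ≠ 0 := by
      rintro rfl
      simp at hπord
    have hφφ0 : φ (φ π) ≠ 0 := (map_ne_zero φ).mpr ((map_ne_zero φ).mpr hπ0)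
    have hord2 : Q.ord (φ (φ π)) = (ℓ : ℤ) * ℓ := by
      rw [hΦ, hΦ, hfix, hπord, mul_one]
    have hlt : Q.ord π < Q.ord (-(φ (φ π))) := by
      rw [h35_ord_neg, hord2, hπord]
      have : (2 : ℤ) ≤ ℓ := by exact_mod_cast hℓ
      nlinarith
    have hy : Q.ord (π - φ (φ π)) = 1 := by
      rw [sub_eq_add_neg, h34_ord_add_eq_of_lt Q hπ0 (neg_ne_zero.mpr hφφ0) hlt, hπord]
    have hy0 : π - φ (φ π) ≠ 0 := by
      intro h0
      rw [h0] at hy
      simp at hy
    have h1 : t - φR (φR t) ∈ w.asIdeal ^ 2 := haP2 (hmem t)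
    rw [← HeightOneSpectrum.intValuation_le_pow_iff_mem] at h1
    have h3 : w.valuation Fb (algebraMap (h75_ringB k x) Fb (t - φR (φR t))) =
        w.intValuation (t - φR (φR t)) :=
      w.valuation_of_algebraMap (K := Fb) (t - φR (φR t))
    have e3 : algebraMap (h75_ringB k x) Fb (t - φR (φR t)) = π - φ (φ π) := hcoe t
    rw [e3] at h3
    have h2 := h24_ofHeightOneSpectrum_ord (K := k) (F := Fb) w (π - φ (φ π))
    rw [← hQ, hy] at h2
    have hv0 : w.valuation Fb (π - φ (φ π)) ≠ 0 := (Valuation.ne_zero_iff _).mpr hy0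
    have hval : w.valuation Fb (π - φ (φ π)) ≤ WithZero.exp (-(2 : ℤ)) := by
      rw [h3]
      exact_mod_cast h1
    rw [← WithZero.exp_log hv0, WithZero.exp_le_exp] at hval
    omega
  · intro P hP haP
    obtain ⟨w, rfl, hfix⟩ := key P hP haP
    rw [h64_mem_prime_iff]
    exact (h39_val_zero_iff _).mp (hr _ (h75_self_mem_ofHeightOneSpectrum w) hfix)

end abstract

section eval

variable [IsAlgClosed k] {x : Fb} (hx : h75_IsChart k x) (Q : Place k Fb)
  (hQ : x ∈ Q.toValuationSubring)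

/-- The value at a place of the chart of an element of the chart ring. -/
def h84_evalFun (b : h75_ringB k x) : k :=
  Classical.choose (h39_exists_val hx Q (h75_ringB_le Q hQ b))

theorem h84_evalFun_spec (b : h75_ringB k x) : h39_Val Q (b : Fb) (h84_evalFun hx Q hQ b) :=
  Classical.choose_spec (h39_exists_val hx Q (h75_ringB_le Q hQ b))

theorem h84_evalFun_eq (b : h75_ringB k x) {c : k} (h : h39_Val Q (b : Fb) c) :
    h84_evalFun hx Q hQ b = c :=
  h39_val_unique Q (h84_evalFun_spec hx Q hQ b) h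

/-- Evaluation at a place of the chart, as a `k`-algebra homomorphism of the chart ring. -/
def h84_evalAt : h75_ringB k x →ₐ[k] k where
  toFun := h84_evalFun hx Q hQ
  map_one' := h84_evalFun_eq hx Q hQ 1 (by
    have := h39_val_algebraMap Q (1 : k)
    rwa [map_one] at this)
  map_mul' a b := h84_evalFun_eq hx Q hQ (a * b)
    (h39_val_mul Q (h84_evalFun_spec hx Q hQ a) (h84_evalFun_spec hx Q hQ b))
  map_zero' := h84_evalFun_eq hx Q hQ 0 (by
    have := h39_val_algebraMap Q (0 : k)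
    rwa [map_zero] at this)
  map_add' a b := h84_evalFun_eq hx Q hQ (a + b)
    (h39_val_add Q (h84_evalFun_spec hx Q hQ a) (h84_evalFun_spec hx Q hQ b))
  commutes' a := h84_evalFun_eq hx Q hQ (algebraMap k (h75_ringB k x) a) (h39_val_algebraMap Q a)

theorem h84_evalAt_spec (b : h75_ringB k x) : h39_Val Q (b : Fb) (h84_evalAt hx Q hQ b) :=
  h84_evalFun_spec hx Q hQ b

theorem h84_evalAt_eq (b : h75_ringB k x) {c : k} (h : h39_Val Q (b : Fb) c) :
    h84_evalAt hx Q hQ b = c :=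
  h84_evalFun_eq hx Q hQ b h

end eval

section nodes

variable (φ : Fb →+* Fb) (Φ : Place k Fb → Place k Fb) (ℓ : ℕ)

/-- **FROB-NODES on a chart.** A `k`-subalgebra `T` of `Fb × Fb` whose elements are pairs of
functions regular on the chart of `x` and which contains the two graphs `(b, φ b)` and
`(φ b, b)` (`b` regular on the chart) is cut out by the node conditions
`y.1 (Φ Q) = y.2 (Q)` at a finite set `Sg` of places of the chart fixed by `Φ ∘ Φ`. -/
theorem h84_frob_nodes_chart [IsAlgClosed k]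
    (hφk : ∀ a : k, φ (algebraMap k Fb a) = algebraMap k Fb a)
    (hΦ : ∀ (Q : Place k Fb) (c : Fb), Q.ord (φ c) = (ℓ : ℤ) * (Φ Q).ord c) (hℓ : 2 ≤ ℓ)
    {x : Fb} (hx : h75_IsChart k x) (hφx : φ x = x ^ ℓ)
    (T : Subalgebra k (Fb × Fb))
    (hT : ∀ y ∈ T, h39_Reg k x y.1 ∧ h39_Reg k x y.2)
    (h1 : ∀ b : Fb, h39_Reg k x b → (b, φ b) ∈ T)
    (h2 : ∀ b : Fb, h39_Reg k x b → (φ b, b) ∈ T) :
    ∃ Sg : Set (Place k Fb), Sg.Finite ∧
      (∀ Q ∈ Sg, x ∈ Q.toValuationSubring ∧ Φ (Φ Q) = Q) ∧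
      ∀ y : Fb × Fb, y ∈ T ↔ h39_Reg k x y.1 ∧ h39_Reg k x y.2 ∧
        ∀ Q ∈ Sg, ∀ c : k, h39_Val (Φ Q) y.1 c → h39_Val Q y.2 c := by
  classical
  have := h75_ringB_isDedekindDomain hx
  have := h75_ringB_isFractionRing hx
  have hℓ0 : 0 < ℓ := by omega
  have hx0 := hx.ne_zero
  have hregB : ∀ b : Fb, h39_Reg k x b ↔ b ∈ h75_ringB k x := h64_reg_iff_mem_ringB hx
  -- the restriction of `φ` to the chart ring
  let φR : h75_ringB k x →+* h75_ringB k x :=
    { toFun := fun b => ⟨φ (b : Fb),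
        (hregB _).mp (h84_frob_reg φ Φ ℓ hΦ hℓ0 hx0 hφx ((hregB _).mpr b.2))⟩
      map_one' := Subtype.ext (map_one φ)
      map_mul' := fun a b => Subtype.ext (map_mul φ _ _)
      map_zero' := Subtype.ext (map_zero φ)
      map_add' := fun a b => Subtype.ext (map_add φ _ _) }
  have hφR : ∀ b : h75_ringB k x, ((φR b : h75_ringB k x) : Fb) = φ (b : Fb) := fun b => rfl
  -- the fixed places of the chart
  let S : Type _ := {Q : Place k Fb // x ∈ Q.toValuationSubring ∧ Φ (Φ Q) = Q}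
  have hSfin : Finite S := (h84_fix_finite φ Φ ℓ hφk hΦ hℓ hx hφx).to_subtype
  let χ : S → (h75_ringB k x →ₐ[k] k) := fun Q => h84_evalAt hx Q.1 Q.2.1
  have hχ : Function.Injective χ := by
    intro Q Q' h
    apply Subtype.ext
    apply h39_place_eq_of_val hx Q.1 Q'.1 Q.2.1 Q'.2.1
    intro f hf b hb
    have e1 : χ Q ⟨f, (hregB f).mp hf⟩ = b := h84_evalAt_eq hx Q.1 Q.2.1 _ hb
    have e2 := h84_evalAt_spec hx Q'.1 Q'.2.1 ⟨f, (hregB f).mp hf⟩
    have e3 : χ Q' ⟨f, (hregB f).mp hf⟩ = b := by rw [← h, e1]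
    rw [← e3]
    exact e2
  let π : S → S := fun Q =>
    ⟨Φ Q.1, (h84_frob_chart φ Φ ℓ hΦ hℓ0 hx0 hφx Q.1).mpr Q.2.1, by rw [Q.2.2]⟩
  have hπ : Function.Injective π := by
    intro Q Q' h
    have h' : Φ Q.1 = Φ Q'.1 := congrArg Subtype.val h
    apply Subtype.ext
    rw [← Q.2.2, ← Q'.2.2, h']
  have hφχ : ∀ (Q : S) (b : h75_ringB k x), χ Q (φR b) = χ (π Q) b := by
    intro Q b
    apply h84_evalAt_eq
    exact h84_frob_val φ Φ ℓ hφk hΦ hℓ0 Q.1 (h84_evalAt_spec hx (Φ Q.1) (π Q).2.1 b)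
  have hrad : ∀ r : h75_ringB k x, (∀ Q, χ Q r = 0) →
      r ∈ Ideal.span (Set.range fun b : h75_ringB k x => b - φR (φR b)) := by
    intro r hr
    apply h84_frob_radical φ Φ ℓ hφk hΦ hℓ hx hφx φR hφR r
    intro Q hQx hQfix
    have e1 := h84_evalAt_spec hx Q hQx r
    have e2 : χ ⟨Q, hQx, hQfix⟩ r = 0 := hr _
    rw [← e2]
    exact e1
  -- the subalgebra of `R × R`
  let ι : (h75_ringB k x × h75_ringB k x) →ₐ[k] Fb × Fb :=
    AlgHom.prodMap (IsScalarTower.toAlgHom k (h75_ringB k x) Fb)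
      (IsScalarTower.toAlgHom k (h75_ringB k x) Fb)
  have hι : ∀ y : h75_ringB k x × h75_ringB k x, ι y = ((y.1 : Fb), (y.2 : Fb)) := fun y => rfl
  obtain ⟨Sg, hSg⟩ := h34_frob_nodes φR (T.comap ι)
    (fun b => by
      rw [Subalgebra.mem_comap, hι]
      exact h1 _ ((hregB _).mpr b.2))
    (fun b => by
      rw [Subalgebra.mem_comap, hι]
      exact h2 _ ((hregB _).mpr b.2)) χ hχ π hπ hφχ hrad
  refine ⟨Subtype.val '' Sg, (Set.toFinite Sg).image _, ?_, ?_⟩
  · rintro Q ⟨Q', -, rfl⟩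
    exact Q'.2
  · intro y
    constructor
    · intro hy
      obtain ⟨hy1, hy2⟩ := hT y hy
      refine ⟨hy1, hy2, ?_⟩
      rintro Q ⟨Q', hQ', rfl⟩ c hc
      have hmem : ((⟨y.1, (hregB _).mp hy1⟩, ⟨y.2, (hregB _).mp hy2⟩) :
          h75_ringB k x × h75_ringB k x) ∈ T.comap ι := by
        rw [Subalgebra.mem_comap, hι]
        exact hy
      have e := (hSg _).mp hmem Q' hQ'
      have e1 : χ (π Q') ⟨y.1, (hregB _).mp hy1⟩ = c :=
        h84_evalAt_eq hx (Φ Q'.1) (π Q').2.1 _ hc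
      have e2 := h84_evalAt_spec hx Q'.1 Q'.2.1 ⟨y.2, (hregB _).mp hy2⟩
      have e3 : χ Q' ⟨y.2, (hregB _).mp hy2⟩ = c := by
        rw [← e1]
        exact e.symm
      rw [← e3]
      exact e2
    · rintro ⟨hy1, hy2, hy⟩
      have hmem : ((⟨y.1, (hregB _).mp hy1⟩, ⟨y.2, (hregB _).mp hy2⟩) :
          h75_ringB k x × h75_ringB k x) ∈ T.comap ι := by
        rw [hSg]
        intro Q' hQ'
        have e1 := h84_evalAt_spec hx (Φ Q'.1) (π Q').2.1 ⟨y.1, (hregB _).mp hy1⟩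
        have e2 := hy Q'.1 ⟨Q', hQ', rfl⟩ _ e1
        exact (h84_evalAt_eq hx Q'.1 Q'.2.1 ⟨y.2, (hregB _).mp hy2⟩ e2).symm
      rw [Subalgebra.mem_comap, hι] at hmem
      exact hmem

end nodes

section semi

variable [IsAlgClosed k] (q : ℕ) [Fact q.Prime] [CharP k q]

/-- In characteristic `q`: a `k`-linear ring endomorphism `φ` of `Fb` with `φ x = x ^ q` for a
(separable) chart `x` has its image inside the `q`-th powers. -/
theorem h84_frob_pow_mem {x : Fb} (hx : h75_IsChart k x) (φ : Fb →+* Fb)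
    (hφk : ∀ a : k, φ (algebraMap k Fb a) = algebraMap k Fb a) (hφx : φ x = x ^ q) (c : Fb) :
    ∃ d : Fb, d ^ q = φ c := by
  have hq : q.Prime := Fact.out
  have : CharP Fb q := charP_of_injective_algebraMap (algebraMap k Fb).injective q
  have : ExpChar Fb q := ExpChar.prime hq
  let G : Subfield Fb := (frobenius Fb q).fieldRange
  have hGmem : ∀ y : Fb, y ^ q ∈ G := fun y => RingHom.mem_fieldRange.mpr ⟨y, rfl⟩
  have : ExpChar G q := RingHom.expChar (algebraMap G Fb) (algebraMap G Fb).injective q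
  -- `Fb / G` is purely inseparable
  have hpi : IsPurelyInseparable G Fb := by
    rw [isPurelyInseparable_iff_pow_mem G q]
    intro y
    exact ⟨1, ⟨⟨y ^ q, hGmem y⟩, by rw [pow_one]; rfl⟩⟩
  -- `φ` maps `k(x)` into `G`
  have hL : ∀ z : Fb, z ∈ k⟮x⟯ → φ z ∈ G := by
    intro z hz
    induction hz using IntermediateField.adjoin_induction with
    | mem z hz =>
      rw [Set.mem_singleton_iff] at hz
      rw [hz, hφx]
      exact hGmem x
    | algebraMap a =>
      obtain ⟨r, hr⟩ := IsAlgClosed.exists_pow_nat_eq a hq.pos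
      rw [hφk, ← hr, map_pow]
      exact hGmem _
    | add z w _ _ hz hw =>
      rw [map_add]
      exact G.add_mem hz hw
    | inv z _ hz =>
      rw [map_inv₀]
      exact G.inv_mem hz
    | mul z w _ _ hz hw =>
      rw [map_mul]
      exact G.mul_mem hz hw
  let ψ : k⟮x⟯ →+* G :=
    { toFun := fun z => ⟨φ (z : Fb), hL _ z.2⟩
      map_one' := Subtype.ext (map_one φ)
      map_mul' := fun a b => Subtype.ext (map_mul φ _ _)
      map_zero' := Subtype.ext (map_zero φ)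
      map_add' := fun a b => Subtype.ext (map_add φ _ _) }
  have hψ : (algebraMap G Fb).comp ψ = φ.comp (algebraMap k⟮x⟯ Fb) := RingHom.ext fun z => rfl
  -- `φ c` is separable over `G`
  have := hx.sep
  have hsep0 : (minpoly k⟮x⟯ c).Separable := Algebra.IsSeparable.isSeparable k⟮x⟯ c
  have hroot : Polynomial.aeval (φ c) ((minpoly k⟮x⟯ c).map ψ) = 0 := by
    rw [Polynomial.aeval_def, Polynomial.eval₂_map, hψ, ← Polynomial.hom_eval₂,
      ← Polynomial.aeval_def, minpoly.aeval, map_zero]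
  have hsep : IsSeparable G (φ c) :=
    (hsep0.map (f := ψ)).of_dvd (minpoly.dvd G (φ c) hroot)
  obtain ⟨g, hg⟩ := IsPurelyInseparable.inseparable G (φ c) hsep
  obtain ⟨d, hd⟩ := RingHom.mem_fieldRange.mp g.2
  refine ⟨d, ?_⟩
  rw [← hg]
  exact hd

/-- **FROB-SEMI.** In characteristic `q`, a `k`-linear ring endomorphism `φ` of `Fb` with
`φ x = x ^ q` for a chart `x` is `c ↦ (σ⁻¹ c) ^ q` for a `q`-Frobenius structure `σ`
(a ring automorphism of `Fb` acting on the constants by `a ↦ a ^ q`) fixing `x`. -/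
theorem h84_frob_semi {x : Fb} (hx : h75_IsChart k x) (φ : Fb →+* Fb)
    (hφk : ∀ a : k, φ (algebraMap k Fb a) = algebraMap k Fb a) (hφx : φ x = x ^ q) :
    ∃ σ : h57_SemiAut k Fb, h57_IsFrob q σ ∧ (σ : Fb ≃+* Fb) x = x ∧
      ∀ c : Fb, φ c = ((σ : Fb ≃+* Fb).symm c) ^ q := by
  classical
  have hq : q.Prime := Fact.out
  have : CharP Fb q := charP_of_injective_algebraMap (algebraMap k Fb).injective q
  have : ExpChar Fb q := ExpChar.prime hq
  have hinj : ∀ a b : Fb, a ^ q = b ^ q → a = b := fun a b h => frobenius_inj Fb q h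
  choose θf hθf using h84_frob_pow_mem q hx φ hφk hφx
  let θ : Fb →+* Fb :=
    { toFun := θf
      map_one' := hinj _ _ (by rw [hθf, map_one, one_pow])
      map_mul' := fun a b => hinj _ _ (by rw [hθf, map_mul, mul_pow, hθf, hθf])
      map_zero' := hinj _ _ (by rw [hθf, map_zero, zero_pow hq.ne_zero])
      map_add' := fun a b => hinj _ _ (by rw [hθf, map_add, add_pow_char, hθf, hθf]) }
  have hθ : ∀ c : Fb, θ c ^ q = φ c := hθf
  have hθx : θ x = x := hinj _ _ (by rw [hθ, hφx])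
  have hθk : ∀ r : k, θ (algebraMap k Fb (r ^ q)) = algebraMap k Fb r := by
    intro r
    apply hinj
    rw [hθ, hφk, map_pow]
  -- `θ` preserves `k(x)` and maps it onto itself
  have hL1 : ∀ z : Fb, z ∈ k⟮x⟯ → θ z ∈ k⟮x⟯ := by
    intro z hz
    induction hz using IntermediateField.adjoin_induction with
    | mem z hz =>
      rw [Set.mem_singleton_iff] at hz
      rw [hz, hθx]
      exact IntermediateField.mem_adjoin_simple_self k x
    | algebraMap a =>
      obtain ⟨r, hr⟩ := IsAlgClosed.exists_pow_nat_eq a hq.pos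
      rw [← hr, hθk]
      exact k⟮x⟯.algebraMap_mem r
    | add z w _ _ hz hw =>
      rw [map_add]
      exact k⟮x⟯.add_mem hz hw
    | inv z _ hz =>
      rw [map_inv₀]
      exact k⟮x⟯.inv_mem hz
    | mul z w _ _ hz hw =>
      rw [map_mul]
      exact k⟮x⟯.mul_mem hz hw
  have hL2 : ∀ z : Fb, z ∈ k⟮x⟯ → ∃ z' ∈ k⟮x⟯, θ z' = z := by
    intro z hz
    induction hz using IntermediateField.adjoin_induction with
    | mem z hz =>
      rw [Set.mem_singleton_iff] at hz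
      rw [hz]
      exact ⟨x, IntermediateField.mem_adjoin_simple_self k x, hθx⟩
    | algebraMap a =>
      exact ⟨algebraMap k Fb (a ^ q), k⟮x⟯.algebraMap_mem _, hθk a⟩
    | add z w _ _ hz hw =>
      obtain ⟨z', hz', rfl⟩ := hz
      obtain ⟨w', hw', rfl⟩ := hw
      exact ⟨z' + w', k⟮x⟯.add_mem hz' hw', map_add θ _ _⟩
    | inv z _ hz =>
      obtain ⟨z', hz', rfl⟩ := hz
      exact ⟨z'⁻¹, k⟮x⟯.inv_mem hz', map_inv₀ θ _⟩
    | mul z w _ _ hz hw =>
      obtain ⟨z', hz', rfl⟩ := hz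
      obtain ⟨w', hw', rfl⟩ := hw
      exact ⟨z' * w', k⟮x⟯.mul_mem hz' hw', map_mul θ _ _⟩
  -- surjectivity of `θ`
  have := hx.fin
  let b := Module.finBasis k⟮x⟯ Fb
  have hsum : ∀ g : Fin (Module.finrank k⟮x⟯ Fb) → k⟮x⟯,
      ∃ g' : Fin (Module.finrank k⟮x⟯ Fb) → k⟮x⟯, (∀ i, θ (g' i : Fb) = (g i : Fb)) ∧
        ∑ i, g i • θ (b i) = θ (∑ i, g' i • b i) := by
    intro g
    choose g0 hg0 hg0' using fun i => hL2 (g i : Fb) (g i).2
    refine ⟨fun i => ⟨g0 i, hg0 i⟩, fun i => hg0' i, ?_⟩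
    rw [map_sum]
    refine Finset.sum_congr rfl fun i _ => ?_
    rw [IntermediateField.smul_def, IntermediateField.smul_def, smul_eq_mul, smul_eq_mul,
      map_mul]
    show (g i : Fb) * θ (b i) = θ (g0 i) * θ (b i)
    rw [hg0' i]
  have hli : LinearIndependent k⟮x⟯ (fun i => θ (b i)) := by
    rw [Fintype.linearIndependent_iff]
    intro g hg i
    obtain ⟨g', hg', hsum'⟩ := hsum g
    rw [hsum'] at hg
    have h0 : ∑ i, g' i • b i = 0 := θ.injective (by rw [hg, map_zero])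
    have h1 := (Fintype.linearIndependent_iff.mp b.linearIndependent) g' h0 i
    apply Subtype.ext
    rw [← hg' i, h1]
    simp
  have hspan := hli.span_eq_top_of_card_eq_finrank' (by simp)
  have hsurj : Function.Surjective θ := by
    intro f
    have hf : f ∈ Submodule.span k⟮x⟯ (Set.range fun i => θ (b i)) := by
      rw [hspan]
      exact Submodule.mem_top
    obtain ⟨g, hg⟩ := (Submodule.mem_span_range_iff_exists_fun k⟮x⟯).mp hf
    obtain ⟨g', -, hsum'⟩ := hsum g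
    exact ⟨_, by rw [← hsum', hg]⟩
  let θe : Fb ≃+* Fb := RingEquiv.ofBijective θ ⟨θ.injective, hsurj⟩
  have hθe : ∀ c : Fb, θe c = θ c := fun c => rfl
  have hσk : ∀ a : k, θe.symm (algebraMap k Fb a) = algebraMap k Fb (a ^ q) := by
    intro a
    rw [RingEquiv.symm_apply_eq, hθe, hθk]
  have hqsurj : Function.Surjective (fun c : k => c ^ q) := fun a =>
    IsAlgClosed.exists_pow_nat_eq a hq.pos
  refine ⟨h57_SemiAut.ofFrob θe.symm q hqsurj hσk,
    h57_SemiAut.isFrob_ofFrob θe.symm q hqsurj hσk, ?_, ?_⟩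
  · show θe.symm x = x
    rw [RingEquiv.symm_apply_eq, hθe, hθx]
  · intro c
    show φ c = (θe.symm.symm c) ^ q
    rw [RingEquiv.symm_symm, hθe, hθ]

omit [IsAlgClosed k] in
/-- The order relation for `φ = (σ⁻¹ ·) ^ n`. -/
theorem h84_frob_semi_ord (σ : h57_SemiAut k Fb) (φ : Fb →+* Fb) (n : ℕ)
    (hφ : ∀ c : Fb, φ c = ((σ : Fb ≃+* Fb).symm c) ^ n) (Q : Place k Fb) (c : Fb) :
    Q.ord (φ c) = (n : ℤ) * (σ • Q).ord c := by
  rw [hφ, h34_ord_pow, h57_ord_smul']

/-- **FROB-NODES on a chart, characteristic `q` form.**  `φ` a `k`-linear ring endomorphism of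
`Fb` with `φ x = x ^ q` on the chart `x` (the `V`-operator); `T` a `k`-subalgebra of `Fb × Fb`
of pairs regular on the chart containing the two graphs of `φ`.  Then there are a `q`-Frobenius
structure `σ` with `φ = (σ⁻¹ ·) ^ q` and a finite set `Sg` of `σ²`-fixed places of the chart such
that `T` is cut out by the node conditions `y.1 (σ • Q) = y.2 (Q)`, `Q ∈ Sg`. -/
theorem h84_frob_nodes_of_V {x : Fb} (hx : h75_IsChart k x) (φ : Fb →+* Fb)
    (hφk : ∀ a : k, φ (algebraMap k Fb a) = algebraMap k Fb a) (hφx : φ x = x ^ q)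
    (T : Subalgebra k (Fb × Fb))
    (hT : ∀ y ∈ T, h39_Reg k x y.1 ∧ h39_Reg k x y.2)
    (h1 : ∀ b : Fb, h39_Reg k x b → (b, φ b) ∈ T)
    (h2 : ∀ b : Fb, h39_Reg k x b → (φ b, b) ∈ T) :
    ∃ σ : h57_SemiAut k Fb, h57_IsFrob q σ ∧ (σ : Fb ≃+* Fb) x = x ∧
      (∀ c : Fb, φ c = ((σ : Fb ≃+* Fb).symm c) ^ q) ∧
      ∃ Sg : Set (Place k Fb), Sg.Finite ∧
        (∀ Q ∈ Sg, x ∈ Q.toValuationSubring ∧ σ • σ • Q = Q) ∧
        ∀ y : Fb × Fb, y ∈ T ↔ h39_Reg k x y.1 ∧ h39_Reg k x y.2 ∧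
          ∀ Q ∈ Sg, ∀ c : k, h39_Val (σ • Q) y.1 c → h39_Val Q y.2 c := by
  have hq : q.Prime := Fact.out
  obtain ⟨σ, hσ, hσx, hφ⟩ := h84_frob_semi q hx φ hφk hφx
  exact ⟨σ, hσ, hσx, hφ, h84_frob_nodes_chart φ (fun Q => σ • Q) q hφk
    (h84_frob_semi_ord σ φ q hφ) hq.two_le hx hφx T hT h1 h2⟩

end semi

end Fermat.Agent.S34
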