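import Mathlib
import Fermat.Agent.S34.h87_ChartInst
import Fermat.Agent.S34.h17_IntModInst
import Fermat.Agent.S34.h31_Lead
import Fermat.Agent.S34.h31_GraphInst
import Fermat.Agent.S34.h31_YChart

/-!
# S34: the geometric target `<geom>`, unconditional

The four modular rows of `h87_ChartInst.lean` are theorems on main:

* `h87_rowINT`    := `h17_int_mod`   (helper17, landed by helper60);
* `h87_rowLEAD`   := `h31_lead`      (helper31);
* `h87_rowGRAPH`  := `h31_graph_D₁`, `h31_graph_D₂` (helper31);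
* `h87_rowYCHART` := `h31_ychart`    (helper31; twin `h84_exists_yChart` of helper84).

Hence:

* `h87_chart_closed` : the CHART-INSTANCE `h22_ON D ∧ h87_ChartProp D m (inertia)` for
  `D = h87_D M q hqM A hA` at every charted level (`5 ≤ q ∨ 2 ∣ M ∨ 3 ∣ M`);
* `h87_geom` : **`∀ N q, q.Prime → q ∣ N → ¬ q ^ 2 ∣ N → h29_UnipGeom N q`**, the hypothesis
  `<geom>` of `h29_S34_of_geom`.
-/

set_option autoImplicit false
set_option synthInstance.maxHeartbeats 400000

noncomputable section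

open AlgebraicCurve ModularCurve Module
open Fermat.Agent.S18 Fermat.Agent.S24 Fermat.Agent.S27 Fermat.Agent.S37

namespace Fermat.Agent.S34

local notation "Qb" => AlgebraicClosure ℚ

section Rows

variable (M q : ℕ) [NeZero M] [NeZero q] [Fact q.Prime] (hqM : ¬ q ∣ M)
  (A : ValuationSubring Qb) (hA : A.LiesOverPrime q)

/-- Row (INT). -/
theorem h87_rowINT (hch : 5 ≤ q ∨ 2 ∣ M ∨ 3 ∣ M) : h87_RowINT M q hqM A hA :=
  h17_int_mod M q hqM A hA hch (h87_Pinf_spec (M * q)) (h87_P0_spec M q hqM)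

/-- Row (LEAD). -/
theorem h87_rowLEAD (hch : 5 ≤ q ∨ 2 ∣ M ∨ 3 ∣ M) : h87_RowLEAD M q hqM A hA :=
  h31_lead M q hqM A hA hch (h87_Pinf_spec (M * q)) (h87_P0_spec M q hqM)

/-- Row (GRAPH). -/
theorem h87_rowGRAPH [CharP (IsLocalRing.ResidueField A) q]
    [PerfectField (IsLocalRing.ResidueField A)] (hch : 5 ≤ q ∨ 2 ∣ M ∨ 3 ∣ M) :
    h87_RowGRAPH M q hqM A hA :=
  ⟨h31_graph_D₁ M q hqM A hA hch (h87_Pinf_spec (M * q)) (h87_P0_spec M q hqM),
    h31_graph_D₂ M q hqM A hA hch (h87_Pinf_spec (M * q)) (h87_P0_spec M q hqM)⟩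

include hqM hA in
/-- Row (y-CHART). -/
theorem h87_rowYCHART (hch : 5 ≤ q ∨ 2 ∣ M ∨ 3 ∣ M) : h87_RowYCHART M A :=
  h31_ychart M q hqM A hA hch

/-- **The CHART-INSTANCE at level `Mq`, unconditional.** -/
theorem h87_chart_closed (hch : 5 ≤ q ∨ 2 ∣ M ∨ 3 ∣ M) (m : ℕ) (hm : ¬ q ∣ m) :
    h22_ON (h87_D M q hqM A hA) ∧
      h87_ChartProp (h87_D M q hqM A hA) m (h87_inertiaSet (M * q) A) := by
  have : CharP (IsLocalRing.ResidueField A) q := h19_residueField_charP A q hA
  have : IsAlgClosed (IsLocalRing.ResidueField A) := h19_residueField_isAlgClosed A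
  exact h87_chart_instance M q hqM A hA hch (h87_rowINT M q hqM A hA hch)
    (h87_rowLEAD M q hqM A hA hch) (h87_rowGRAPH M q hqM A hA hch)
    (h87_rowYCHART M q hqM A hA hch) m hm

end Rows

/-- **S34, the geometric target**: for every level `N` and every prime `q` exactly dividing
`N`, inertia at `q` acts unipotently on the prime-to-`q` torsion of `J₀(N)`. -/
theorem h87_geom (N q : ℕ) [NeZero N] (hq : q.Prime) (hqN : q ∣ N) (hq2 : ¬ q ^ 2 ∣ N) :
    h29_UnipGeom N q :=
  h87_geom_of_chart (fun M q _ _ _ hqM hch A hA m hm => h87_chart_closed M q hqM A hA hch m hm)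
    N q hq hqN hq2

end Fermat.Agent.S34

end
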