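import Mathlib
import Fermat.Agent.S34.h87_Geom
import Fermat.Agent.S34.h51_NodeAsm

/-!
# The chart data of `h87_D` with no condition on the exponent (for S33 / S35 consumers)

`q ∤ M` prime (charted level), `A` over `q`, `k` the residue field, `Fb = Fb(M)`,
`D = h87_D M q hqM A hA`, `D0 = h87_D0 M q hqM = (∞) + (0')`, `Qinf = h11_placeInftyC k M`,
`Φ = h96_frobPerm (h84_isFrobChart_jk M q hqM A hA)`.

Nothing below mentions the exponent `m` of the torsion: the four modular rows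
(INT)/(LEAD)/(GRAPH)/(y-CHART), the chart unit `h87_chart_unit`, `h87_D_on`, `h87_D0_*` hold for
every prime `q ∤ M` with `5 ≤ q ∨ 2 ∣ M ∨ 3 ∣ M`; only the last step (`h42_last_of_L`, inside
`h87_chart_instance`) needs `m` prime to `q`.

* `h87_node_closed` : **(NODE), closed**: the node set `Sg` (nodes `Q`, partners `Φ Q`, both
  `≠ Qinf`, `Φ (Φ Q) = Q`) and a threshold `n0` with
  `a ∈ red (L(n D0) ∩ O) ↔ a ∈ L(n Qinf) × L(n Qinf) ∧ ∀ Q ∈ Sg, a.1(Φ Q) = a.2(Q)` for `n ≥ n0`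
  (the natural shape `hnode` of `h51_G_of_sf`);
* `h87_sf_data` : the same packaged in the binder shape of `h51_G_of_sf`
  (`Z := {Q // Q ∈ Sg}`, `Q1 ν := Φ ν`, `Q2 ν := ν`, `h1`, `h2`, `hinj1`, `hinj2`, `hn0F`,
  `hn0b`, `hnode`).
-/

set_option autoImplicit false
set_option synthInstance.maxHeartbeats 400000

noncomputable section

open AlgebraicCurve ModularCurve Module
open Fermat.Agent.S18 Fermat.Agent.S24 Fermat.Agent.S27 Fermat.Agent.S37

namespace Fermat.Agent.S34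

local notation "Qb" => AlgebraicClosure ℚ

section NodeInst

variable (M q : ℕ) [NeZero M] [NeZero q] [Fact q.Prime] (hqM : ¬ q ∣ M)
  (A : ValuationSubring Qb) (hA : A.LiesOverPrime q)
  [CharP (IsLocalRing.ResidueField A) q] [IsAlgClosed (IsLocalRing.ResidueField A)]

set_option maxHeartbeats 1600000 in
/-- **(NODE) for `h87_D`, closed** (no condition on the torsion exponent). -/
theorem h87_node_closed (hch : 5 ≤ q ∨ 2 ∣ M ∨ 3 ∣ M) :
    ∃ Sg : Finset (Place (IsLocalRing.ResidueField A)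
        ↥(modularFunctionFieldFullC (IsLocalRing.ResidueField A) M)),
      (∀ Q ∈ Sg, Q ≠ h11_placeInftyC (IsLocalRing.ResidueField A) M ∧
        h96_frobPerm (h84_isFrobChart_jk M q hqM A hA) Q ≠
          h11_placeInftyC (IsLocalRing.ResidueField A) M ∧
        h96_frobPerm (h84_isFrobChart_jk M q hqM A hA)
          (h96_frobPerm (h84_isFrobChart_jk M q hqM A hA) Q) = Q) ∧
      ∃ n0 : ℕ, 2 * h75_genus Qb (h59_jbar (M * q)) ≤ n0 ∧
        2 * h75_genus (IsLocalRing.ResidueField A) (h54_jk (IsLocalRing.ResidueField A) M) +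
          Sg.card ≤ n0 ∧
        ∀ n, n0 ≤ n → ∀ a : ↥(modularFunctionFieldFullC (IsLocalRing.ResidueField A) M) ×
            ↥(modularFunctionFieldFullC (IsLocalRing.ResidueField A) M),
          a ∈ h51_Rd (h87_D M q hqM A hA) (n • h87_D0 M q hqM) ↔
            (a ∈ h20_P (h11_placeInftyC (IsLocalRing.ResidueField A) M) n ∧
              ∀ Q ∈ Sg, ∃ c : IsLocalRing.ResidueField A,
                h39_Val (h96_frobPerm (h84_isFrobChart_jk M q hqM A hA) Q) a.1 c ∧
                  h39_Val Q a.2 c) := by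
  obtain ⟨y, hy, hpole⟩ := h87_rowYCHART M q hqM A hA hch
  obtain ⟨n₁, hlead₁, hlead₂⟩ := h87_rowLEAD M q hqM A hA hch
  have hG := h87_rowGRAPH M q hqM A hA hch
  obtain ⟨Sg, hSg, hnode⟩ := h51_node_of_frob (h54_isChart_jbar (M * q))
    (h84_isFrobChart_jk M q hqM A hA) hy (h11_placeInftyC (IsLocalRing.ResidueField A) M) hpole
    (h84_frobPerm_placeInftyC (h84_isFrobChart_jk M q hqM A hA))
    (h87_D M q hqM A hA) (h87_D_on M q hqM A hA) (h87_D0 M q hqM)
    (fun v => h87_D0_nonneg M q hqM v) (h87_D0_degree M q hqM)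
    (h87_rowINT M q hqM A hA hch) n₁ hlead₁ hlead₂ hG.1 hG.2
  refine ⟨Sg, hSg, n₁ + 2 * h75_genus Qb (h59_jbar (M * q)) +
    2 * h75_genus (IsLocalRing.ResidueField A) (h54_jk (IsLocalRing.ResidueField A) M) +
    Sg.card, by omega, by omega, fun n hn a => hnode n ?_ a⟩
  rw [max_le_iff]
  constructor <;> omega

/-- **The special-fibre chart data of `h87_D`** in the binder shape of `h51_G_of_sf`
(`Z`, `Q1`, `Q2`, `h1`, `h2`, `hinj1`, `hinj2`, `n0`, `hn0F`, `hn0b`, `hnode`), closed. -/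
theorem h87_sf_data (hch : 5 ≤ q ∨ 2 ∣ M ∨ 3 ∣ M) :
    ∃ (Z : Type) (_ : Fintype Z)
      (Q1 Q2 : Z → Place (IsLocalRing.ResidueField A)
        ↥(modularFunctionFieldFullC (IsLocalRing.ResidueField A) M)) (n0 : ℕ),
      (∀ ν, Q1 ν ≠ h11_placeInftyC (IsLocalRing.ResidueField A) M) ∧
      (∀ ν, Q2 ν ≠ h11_placeInftyC (IsLocalRing.ResidueField A) M) ∧
      Function.Injective Q1 ∧ Function.Injective Q2 ∧
      2 * h75_genus Qb (h59_jbar (M * q)) ≤ n0 ∧
      2 * h75_genus (IsLocalRing.ResidueField A) (h54_jk (IsLocalRing.ResidueField A) M) +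
        Fintype.card Z ≤ n0 ∧
      ∀ n, n0 ≤ n → ∀ a : ↥(modularFunctionFieldFullC (IsLocalRing.ResidueField A) M) ×
          ↥(modularFunctionFieldFullC (IsLocalRing.ResidueField A) M),
        a ∈ h51_Rd (h87_D M q hqM A hA) (n • h87_D0 M q hqM) ↔
          (a ∈ h20_P (h11_placeInftyC (IsLocalRing.ResidueField A) M) n ∧
            ∀ ν, ∃ c : IsLocalRing.ResidueField A,
              h39_Val (Q1 ν) a.1 c ∧ h39_Val (Q2 ν) a.2 c) := by
  obtain ⟨Sg, hSg, n0, h1, h2, hnode⟩ := h87_node_closed M q hqM A hA hch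
  refine ⟨{Q // Q ∈ Sg}, inferInstance,
    fun ν => h96_frobPerm (h84_isFrobChart_jk M q hqM A hA) ν.1, fun ν => ν.1, n0,
    fun ν => (hSg ν.1 ν.2).2.1, fun ν => (hSg ν.1 ν.2).1,
    fun ν ν' h => Subtype.ext ((h96_frobPerm (h84_isFrobChart_jk M q hqM A hA)).injective h),
    Subtype.val_injective, h1, ?_, fun n hn a => ?_⟩
  · rw [Fintype.card_coe]
    exact h2
  · rw [hnode n hn a]
    exact and_congr Iff.rfl ⟨fun h ν => h ν.1 ν.2, fun h Q hQ => h ⟨Q, hQ⟩⟩

end NodeInst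

end Fermat.Agent.S34

end
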