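import Fermat.Agent.S34.h96_FrobPlaces
import Fermat.Agent.S34.h34_FrobNodes

/-!
# S34 — FROB-PLACES (P4): the Frobenius node theorem in PLACE language

Setting of `h96_FrobPlaces`: `Fb / k` a function field over an algebraically closed field of
characteristic `q`, `x` a chart, `φ` the identity on `k` with `φ x = x ^ q`, `Φ` the induced
permutation of the places.

`h96_frob_nodes_places`: a `k`-subalgebra `B` of `Fb × Fb` consisting of pairs of functions
regular on the chart of `x` and containing the two graphs `(b, φ b)`, `(φ b, b)` (`b` regular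
on the chart) is cut out, inside the pairs of regular functions, by the node conditions
`a.1 (Φ Q) = a.2 (Q)` for `Q` in a FINITE set of places of the chart fixed by `Φ ∘ Φ`.

This is `h34_frob_nodes_dedekind` for the S18 chart ring `h75_ringB k x`: its hypotheses
`hres` (residue fields `= k`), `hpow` (`φ (φ b)` is a `q`-th power IN the chart ring) and `hne`
are discharged here, and its `k`-points are translated into places.
-/

set_option autoImplicit false

noncomputable section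

open AlgebraicCurve IntermediateField IsDedekindDomain
open Fermat.Agent.S24 Fermat.Agent.S18 Fermat.Agent.S27

namespace Fermat.Agent.S34

open scoped IntermediateField.algebraAdjoinAdjoin

variable {k Fb : Type*} [Field k] [Field Fb] [Algebra k Fb]

/-- A root of a function regular on the chart is regular on the chart. -/
theorem h96_reg_of_pow {x d : Fb} {n : ℕ} (hn : n ≠ 0) (hd : h39_Reg k x (d ^ n)) :
    h39_Reg k x d := by
  intro P hP
  rcases eq_or_ne d 0 with rfl | hd0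
  · exact zero_mem _
  have h1 : 0 ≤ P.ord (d ^ n) := h24_ord_nonneg_of_mem P (hd P hP)
  rw [← zpow_natCast, Place.ord_zpow] at h1
  apply h24_mem_of_ord_nonneg
  by_contra h2
  have h3 : P.ord d < 0 := not_le.mp h2
  have h4 : (0 : ℤ) < n := by exact_mod_cast Nat.pos_of_ne_zero hn
  nlinarith

variable [IsAlgClosed k]

/-- There is a place of the chart at which `x` vanishes. -/
theorem h96_exists_zero {x : Fb} (hx : h75_IsChart k x) :
    ∃ P : Place k Fb, 0 < P.ord x := by
  have := hx.fin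
  obtain ⟨s, hs, hsum⟩ := h75_fibre_main hx (0 : k)
  have hpos : 0 < Module.finrank k⟮x⟯ Fb := Module.finrank_pos
  have hne : s.Nonempty := by
    by_contra h0
    rw [Finset.not_nonempty_iff_eq_empty] at h0
    rw [h0, Finset.sum_empty] at hsum
    have : (0 : ℤ) < (Module.finrank k⟮x⟯ Fb : ℤ) := by exact_mod_cast hpos
    omega
  obtain ⟨P, hP⟩ := hne
  have := (hs P).mp hP
  rw [map_zero, sub_zero] at this
  exact ⟨P, this⟩

/-- The chart ring is not a field: no maximal ideal is zero. -/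
theorem h96_maximal_ne_bot {x : Fb} (hx : h75_IsChart k x) (P : Ideal (h75_ringB k x))
    (hP : P.IsMaximal) : P ≠ ⊥ := by
  rintro rfl
  have hfield : IsField (h75_ringB k x) := Ring.isField_iff_maximal_bot.mpr hP
  let xR : h75_ringB k x := ⟨x, h75_self_mem_ringB x⟩
  have hxR : xR ≠ 0 := by
    intro h0
    exact hx.ne_zero (congrArg Subtype.val h0)
  obtain ⟨y, hy⟩ := hfield.mul_inv_cancel hxR
  have hy' : x * (y : Fb) = 1 := congrArg Subtype.val hy
  obtain ⟨P0, hP0⟩ := h96_exists_zero hx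
  have hxP0 : x ∈ P0.toValuationSubring := h24_mem_of_ord_nonneg P0 hP0.le
  have hyP0 : (y : Fb) ∈ P0.toValuationSubring := h75_ringB_le P0 hxP0 y
  have h1 : 0 ≤ P0.ord (y : Fb) := h24_ord_nonneg_of_mem P0 hyP0
  have hy0 : (y : Fb) ≠ 0 := by
    intro h0
    rw [h0, mul_zero] at hy'
    exact zero_ne_one hy'
  have h2 := P0.ord_mul hx.ne_zero hy0
  rw [hy', Place.ord_one] at h2
  omega

/-- Residue fields of the chart ring are `k`. -/
theorem h96_chart_res {x : Fb} (hx : h75_IsChart k x) (P : Ideal (h75_ringB k x))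
    (hP : P.IsMaximal) (r : h75_ringB k x) :
    ∃ c : k, r - algebraMap k (h75_ringB k x) c ∈ P := by
  have := h75_ringB_isDedekindDomain hx
  have := h75_ringB_isFractionRing hx
  let w : HeightOneSpectrum (h75_ringB k x) := ⟨P, hP.isPrime, h96_maximal_ne_bot hx P hP⟩
  obtain ⟨c, hc⟩ := h39_exists_val hx (Place.ofHeightOneSpectrum (K := k) (F := Fb) w)
    (h75_mem_ofHeightOneSpectrum w r)
  refine ⟨c, ?_⟩
  show r - algebraMap k (h75_ringB k x) c ∈ w.asIdeal
  rw [h64_mem_prime_iff]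
  have hcoe : ((r - algebraMap k (h75_ringB k x) c : h75_ringB k x) : Fb)
      = (r : Fb) - algebraMap k Fb c := rfl
  rw [hcoe]
  rcases hc with hc | hc
  · exact Or.inl (sub_eq_zero.mpr hc)
  · exact Or.inr hc

variable {q : ℕ} [Fact q.Prime] [CharP k q] {x : Fb} {φ : Fb →+* Fb}

/-- `φ` restricted to the chart ring, as a `k`-algebra endomorphism. -/
def h96_frobChart (h : h96_IsFrobChart k q x φ) : h75_ringB k x →ₐ[k] h75_ringB k x where
  toFun b := ⟨φ (b : Fb), (h64_reg_iff_mem_ringB h.chart _).mp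
    (h96_reg_frob h ((h64_reg_iff_mem_ringB h.chart _).mpr b.2))⟩
  map_one' := Subtype.ext (map_one φ)
  map_mul' _ _ := Subtype.ext (map_mul φ _ _)
  map_zero' := Subtype.ext (map_zero φ)
  map_add' _ _ := Subtype.ext (map_add φ _ _)
  commutes' c := Subtype.ext (h.const c)

theorem h96_coe_frobChart (h : h96_IsFrobChart k q x φ) (b : h75_ringB k x) :
    ((h96_frobChart h b : h75_ringB k x) : Fb) = φ (b : Fb) := rfl

/-- `φ (φ b)` is a `q`-th power IN the chart ring. -/
theorem h96_frobChart_pow (h : h96_IsFrobChart k q x φ) (b : h75_ringB k x) :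
    ∃ d : h75_ringB k x, h96_frobChart h (h96_frobChart h b) = d ^ q := by
  have hreg : ∀ b : h75_ringB k x, h39_Reg k x (b : Fb) :=
    fun b => (h64_reg_iff_mem_ringB h.chart _).mpr b.2
  let d : Fb := ((h96_frobSemi h : h57_SemiAut k Fb) : Fb ≃+* Fb) (φ (b : Fb))
  have hd : d ^ q = φ (φ (b : Fb)) := h96_frobSemi_pow h _
  have hdreg : h39_Reg k x d :=
    h96_reg_of_pow (Fact.out : q.Prime).ne_zero
      (by rw [hd]; exact hreg (h96_frobChart h (h96_frobChart h b)))
  exact ⟨⟨d, (h64_reg_iff_mem_ringB h.chart _).mp hdreg⟩, Subtype.ext hd.symm⟩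

omit [IsAlgClosed k] [CharP k q] in
/-- `φ ∘ φ` moves `x`. -/
theorem h96_frob_frob_x_ne (h : h96_IsFrobChart k q x φ) : φ (φ x) ≠ x := by
  intro h1
  have h3 : φ (φ x) = x ^ (q ^ 2) := by rw [h.map_x, map_pow, h.map_x, ← pow_mul, sq]
  rw [h3] at h1
  apply h.chart.tr
  refine ⟨Polynomial.X ^ (q ^ 2) - Polynomial.X,
    FiniteField.X_pow_card_sub_X_ne_zero k
      (Nat.one_lt_pow (by norm_num) (Fact.out : q.Prime).one_lt), ?_⟩
  simp [h1]

/-- (P4) FROBENIUS NODES IN PLACE LANGUAGE. -/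
theorem h96_frob_nodes_places (h : h96_IsFrobChart k q x φ)
    (B : Subalgebra k (Fb × Fb)) (hBR : ∀ a ∈ B, h39_Reg k x a.1 ∧ h39_Reg k x a.2)
    (hB1 : ∀ b : Fb, h39_Reg k x b → (b, φ b) ∈ B)
    (hB2 : ∀ b : Fb, h39_Reg k x b → (φ b, b) ∈ B) :
    ∃ Sg : Finset (Place k Fb),
      (∀ Q ∈ Sg, x ∈ Q.toValuationSubring ∧ h96_frobPerm h (h96_frobPerm h Q) = Q) ∧
      ∀ a : Fb × Fb, a ∈ B ↔ h39_Reg k x a.1 ∧ h39_Reg k x a.2 ∧
        ∀ Q ∈ Sg, ∃ c : k, h39_Val (h96_frobPerm h Q) a.1 c ∧ h39_Val Q a.2 c := by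
  classical
  have hx := h.chart
  have := h75_ringB_isDedekindDomain hx
  have := h75_ringB_isFractionRing hx
  let ι : h75_ringB k x →ₐ[k] Fb := IsScalarTower.toAlgHom k (h75_ringB k x) Fb
  let φR := h96_frobChart h
  let B' : Subalgebra k (h75_ringB k x × h75_ringB k x) := B.comap (AlgHom.prodMap ι ι)
  have hB' : ∀ a : h75_ringB k x × h75_ringB k x, a ∈ B' ↔ ((a.1 : Fb), (a.2 : Fb)) ∈ B :=
    fun a => Iff.rfl
  have hreg : ∀ b : h75_ringB k x, h39_Reg k x (b : Fb) :=
    fun b => (h64_reg_iff_mem_ringB hx _).mpr b.2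
  have hmk : ∀ f : Fb, h39_Reg k x f → f ∈ h75_ringB k x :=
    fun f hf => (h64_reg_iff_mem_ringB hx _).mp hf
  have hq2 : 2 ≤ q := (Fact.out : q.Prime).two_le
  have hne : ∃ b : h75_ringB k x, φR (φR b) ≠ b :=
    ⟨⟨x, h75_self_mem_ringB x⟩, fun h0 => h96_frob_frob_x_ne h (congrArg Subtype.val h0)⟩
  obtain ⟨Sg, hSgfin, hSgfix, hSg⟩ := h34_frob_nodes_dedekind
    (fun P hP r => h96_chart_res hx P hP r) φR q hq2 (h96_frobChart_pow h) hne B'
    (fun b => (hB' _).mpr (hB1 _ (hreg b))) (fun b => (hB' _).mpr (hB2 _ (hreg b)))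
  -- the place of a `k`-point of the chart ring
  have hpl : ∀ χ : h75_ringB k x →ₐ[k] k, ∃ P : Place k Fb, x ∈ P.toValuationSubring ∧
      ∀ b : h75_ringB k x, h39_Val P (b : Fb) (χ b) := by
    intro χ
    let j : h39_chartRing k x →ₐ[k] h75_ringB k x :=
      { toFun := fun f => ⟨(f : Fb), hmk _ f.2⟩
        map_one' := rfl
        map_mul' := fun _ _ => rfl
        map_zero' := rfl
        map_add' := fun _ _ => rfl
        commutes' := fun c => rfl }
    obtain ⟨P, hP, hv⟩ := h39_exists_place_of_algHom hx (χ.comp j)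
    exact ⟨P, hP, fun b => hv ⟨(b : Fb), hreg b⟩⟩
  choose pl hplx hplv using hpl
  refine ⟨hSgfin.toFinset.image pl, ?_, ?_⟩
  · intro Q hQ
    rw [Finset.mem_image] at hQ
    obtain ⟨χ, hχ, rfl⟩ := hQ
    rw [Set.Finite.mem_toFinset] at hχ
    refine ⟨hplx χ, ?_⟩
    have hx2 : x ∈ (h96_frobPerm h (h96_frobPerm h (pl χ))).toValuationSubring :=
      (h96_chart_frob h _).mpr ((h96_chart_frob h _).mpr (hplx χ))
    refine h39_place_eq_of_val hx _ _ hx2 (hplx χ) fun f hf b hb => ?_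
    have h2 : h39_Val (pl χ) (φ (φ f)) b := h96_val_frob h _ (h96_val_frob h _ hb)
    have h3 : h39_Val (pl χ) (φ (φ f)) (χ (φR (φR ⟨f, hmk f hf⟩))) :=
      hplv χ (φR (φR ⟨f, hmk f hf⟩))
    have h4 : b = χ ⟨f, hmk f hf⟩ := by rw [h39_val_unique _ h2 h3, hSgfix χ hχ]
    rw [h4]
    exact hplv χ ⟨f, hmk f hf⟩
  · intro a
    constructor
    · intro ha
      obtain ⟨h1, h2⟩ := hBR a ha
      refine ⟨h1, h2, fun Q hQ => ?_⟩
      rw [Finset.mem_image] at hQ
      obtain ⟨χ, hχ, rfl⟩ := hQ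
      rw [Set.Finite.mem_toFinset] at hχ
      let a' : h75_ringB k x × h75_ringB k x := (⟨a.1, hmk _ h1⟩, ⟨a.2, hmk _ h2⟩)
      have ha' : a' ∈ B' := (hB' a').mpr ha
      have h3 := (hSg a').mp ha' χ hχ
      refine ⟨χ a'.2, ?_, hplv χ a'.2⟩
      have h4 : h39_Val (pl χ) (φ a.1) (χ (φR a'.1)) := hplv χ (φR a'.1)
      rw [h3] at h4
      have h5 : a.1 ∈ (h96_frobPerm h (pl χ)).toValuationSubring :=
        h1 _ ((h96_chart_frob h _).mpr (hplx χ))
      exact (h96_val_frob_iff h (pl χ) h5 _).mp h4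
    · rintro ⟨h1, h2, h3⟩
      let a' : h75_ringB k x × h75_ringB k x := (⟨a.1, hmk _ h1⟩, ⟨a.2, hmk _ h2⟩)
      have ha' : a' ∈ B' := by
        rw [hSg]
        intro χ hχ
        obtain ⟨c, hc1, hc2⟩ := h3 (pl χ)
          (Finset.mem_image.mpr ⟨χ, (Set.Finite.mem_toFinset _).mpr hχ, rfl⟩)
        have h4 : χ a'.2 = c := h39_val_unique _ (hplv χ a'.2) hc2
        have h5 : χ (φR a'.1) = c :=
          h39_val_unique _ (hplv χ (φR a'.1)) (h96_val_frob h _ hc1)
        rw [h4, h5]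
      exact (hB' a').mp ha'

end Fermat.Agent.S34

end
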