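import Mathlib

/-!
# S34 — FROB-PLACES (P1), (P2): the `V`-operator lands in the `q`-th powers (Mathlib only)

`Fb / k` a field extension in characteristic `q`, `k` perfect, `x : Fb` with `Fb / k(x)`
separable, and `φ : Fb →+* Fb` a ring endomorphism which is the identity on `k` and maps `x` to
`x ^ q` (for the level-`M` residue field of the modular curve: `φ` is the operator
`q ↦ q^q` on `q`-expansions, `x = j̄`).

* `h96_frob_root` : every `φ f` is a `q`-th power in `Fb`  (`φ f` is separable over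
  `φ (k(x)) = k(x^q) ⊆ Fb^q` and purely inseparable over `Fb^q`).
* `h96_exists_psi` : if moreover `Fb / k(x)` is finite, then `ψ := Frob⁻¹ ∘ φ` is a ring
  AUTOMORPHISM of `Fb` (it fixes `x`, maps `k(x)` onto itself, and is injective and semilinear
  on the finite-dimensional `k(x)`-space `Fb`).
-/

open IntermediateField Polynomial

namespace Fermat.Agent.S34

section Root

variable {k Fb : Type*} [Field k] [Field Fb] [Algebra k Fb]

/-- (P1) `φ (Fb) ⊆ Fb ^ q`. -/
theorem h96_frob_root (q : ℕ) [Fact q.Prime] [CharP k q]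
    (hperf : ∀ c : k, ∃ d : k, d ^ q = c) {x : Fb} (hsep : Algebra.IsSeparable k⟮x⟯ Fb)
    (φ : Fb →+* Fb) (hk : ∀ c : k, φ (algebraMap k Fb c) = algebraMap k Fb c)
    (hφx : φ x = x ^ q) (f : Fb) : ∃ g : Fb, φ f = g ^ q := by
  have : CharP Fb q := charP_of_injective_algebraMap (algebraMap k Fb).injective q
  have : ExpChar Fb q := ExpChar.prime Fact.out
  -- the field of `q`-th powers
  let E₀ : Subfield Fb := (frobenius Fb q).fieldRange
  have hE₀ : ∀ y : Fb, y ∈ E₀ ↔ ∃ g : Fb, g ^ q = y := by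
    intro y
    show y ∈ (frobenius Fb q).fieldRange ↔ _
    rw [RingHom.mem_fieldRange]
    rfl
  have : ExpChar E₀ q := RingHom.expChar E₀.subtype E₀.subtype.injective q
  -- the subfield of all `e` with `φ e ∈ Fb^q` contains `k(x)`
  let T : IntermediateField k Fb :=
    (E₀.comap φ).toIntermediateField (fun c => by
      show φ (algebraMap k Fb c) ∈ E₀
      rw [hk, hE₀]
      obtain ⟨d, rfl⟩ := hperf c
      exact ⟨algebraMap k Fb d, by rw [map_pow]⟩)
  have hT' : ∀ y : Fb, y ∈ T → φ y ∈ E₀ := fun y hy => hy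
  have hxT : x ∈ T := by
    show φ x ∈ E₀
    rw [hφx, hE₀]
    exact ⟨x, rfl⟩
  have hT : k⟮x⟯ ≤ T := by
    rw [IntermediateField.adjoin_le_iff]
    intro y hy
    rw [Set.mem_singleton_iff] at hy
    rw [hy]
    exact hxT
  -- `φ` restricted to `k(x)`, with values in `Fb^q`
  let ι : k⟮x⟯ →+* E₀ :=
    (φ.comp (algebraMap k⟮x⟯ Fb)).codRestrict E₀ (fun e => hT' _ (hT e.2))
  have hι : (algebraMap E₀ Fb).comp ι = φ.comp (algebraMap k⟮x⟯ Fb) := by
    ext e
    rfl
  -- `φ f` is a root of the separable polynomial `P.map ι`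
  have hPsep : (minpoly k⟮x⟯ f).Separable := hsep.isSeparable _ f
  have hroot : Polynomial.aeval (φ f) ((minpoly k⟮x⟯ f).map ι) = 0 := by
    rw [Polynomial.aeval_def, Polynomial.eval₂_map, hι, ← Polynomial.hom_eval₂,
      ← Polynomial.aeval_def, minpoly.aeval, map_zero]
  have hsepφ : IsSeparable E₀ (φ f) :=
    Polynomial.Separable.of_dvd (hPsep.map (f := ι)) (minpoly.dvd E₀ (φ f) hroot)
  -- `Fb / Fb^q` is purely inseparable
  have : IsPurelyInseparable E₀ Fb := by
    rw [isPurelyInseparable_iff_pow_mem E₀ q]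
    intro y
    refine ⟨1, ⟨⟨y ^ q, (hE₀ _).mpr ⟨y, rfl⟩⟩, ?_⟩⟩
    rw [pow_one]
    rfl
  obtain ⟨e, he⟩ := IsPurelyInseparable.inseparable E₀ (φ f) hsepφ
  obtain ⟨g, hg⟩ := (hE₀ (e : Fb)).mp e.2
  exact ⟨g, by rw [hg]; exact he.symm⟩

/-- (P2) `ψ := Frob⁻¹ ∘ φ` is a ring automorphism of `Fb`. -/
theorem h96_exists_psi (q : ℕ) [Fact q.Prime] [CharP k q]
    (hperf : ∀ c : k, ∃ d : k, d ^ q = c) {x : Fb} [FiniteDimensional k⟮x⟯ Fb]
    (hsep : Algebra.IsSeparable k⟮x⟯ Fb)
    (φ : Fb →+* Fb) (hk : ∀ c : k, φ (algebraMap k Fb c) = algebraMap k Fb c)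
    (hφx : φ x = x ^ q) : ∃ ψ : Fb ≃+* Fb, ∀ f : Fb, ψ f ^ q = φ f := by
  classical
  have : CharP Fb q := charP_of_injective_algebraMap (algebraMap k Fb).injective q
  have : ExpChar Fb q := ExpChar.prime Fact.out
  have hinj : ∀ a b : Fb, a ^ q = b ^ q → a = b := fun a b h => frobenius_inj Fb q h
  choose g hg using h96_frob_root q hperf hsep φ hk hφx
  -- the ring homomorphism `ψ₀`
  let ψ₀ : Fb →+* Fb :=
    { toFun := g
      map_one' := hinj _ _ (by rw [← hg, map_one, one_pow])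
      map_mul' := fun a b => hinj _ _ (by rw [← hg, map_mul, hg a, hg b, mul_pow])
      map_zero' := hinj _ _ (by rw [← hg, map_zero, zero_pow (Fact.out : q.Prime).ne_zero])
      map_add' := fun a b => hinj _ _ (by rw [← hg, map_add, hg a, hg b, add_pow_char]) }
  have hψ : ∀ f : Fb, ψ₀ f ^ q = φ f := fun f => (hg f).symm
  have hψx : ψ₀ x = x := hinj _ _ (by rw [hψ, hφx])
  have hψk : ∀ d : k, ψ₀ (algebraMap k Fb (d ^ q)) = algebraMap k Fb d := fun d =>
    hinj _ _ (by rw [hψ, hk, map_pow])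
  -- `ψ₀` maps `k(x)` into itself
  let T1 : IntermediateField k Fb :=
    ((k⟮x⟯).toSubfield.comap ψ₀).toIntermediateField (fun c => by
      show ψ₀ (algebraMap k Fb c) ∈ k⟮x⟯
      obtain ⟨d, rfl⟩ := hperf c
      rw [hψk]
      exact (k⟮x⟯).algebraMap_mem d)
  have hT1' : ∀ y : Fb, y ∈ T1 → ψ₀ y ∈ k⟮x⟯ := fun y hy => hy
  have hT1 : k⟮x⟯ ≤ T1 := by
    rw [IntermediateField.adjoin_le_iff]
    intro y hy
    rw [Set.mem_singleton_iff] at hy
    rw [hy]
    show ψ₀ x ∈ k⟮x⟯
    rw [hψx]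
    exact IntermediateField.mem_adjoin_simple_self k x
  -- and onto itself
  let T2 : IntermediateField k Fb :=
    ((k⟮x⟯).toSubfield.map ψ₀).toIntermediateField (fun c => by
      show algebraMap k Fb c ∈ (k⟮x⟯).toSubfield.map ψ₀
      rw [Subfield.mem_map]
      exact ⟨algebraMap k Fb (c ^ q), (k⟮x⟯).algebraMap_mem _, hψk c⟩)
  have hT2' : ∀ y : Fb, y ∈ T2 → ∃ e : Fb, e ∈ k⟮x⟯ ∧ ψ₀ e = y := fun y hy => by
    have hy' : y ∈ (k⟮x⟯).toSubfield.map ψ₀ := hy
    rw [Subfield.mem_map] at hy'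
    exact hy'
  have hT2 : k⟮x⟯ ≤ T2 := by
    rw [IntermediateField.adjoin_le_iff]
    intro y hy
    rw [Set.mem_singleton_iff] at hy
    rw [hy]
    show x ∈ (k⟮x⟯).toSubfield.map ψ₀
    rw [Subfield.mem_map]
    exact ⟨x, IntermediateField.mem_adjoin_simple_self k x, hψx⟩
  have hlift : ∀ e : k⟮x⟯, ∃ e' : k⟮x⟯, ψ₀ (e' : Fb) = (e : Fb) := fun e => by
    obtain ⟨e', he', h⟩ := hT2' _ (hT2 e.2)
    exact ⟨⟨e', he'⟩, h⟩
  -- surjectivity through a basis of `Fb` over `k(x)`
  have hsurj : Function.Surjective ψ₀ := by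
    let b := Module.finBasis k⟮x⟯ Fb
    have hli : LinearIndependent k⟮x⟯ (fun i => ψ₀ (b i)) := by
      rw [Fintype.linearIndependent_iff]
      intro c hc i
      choose c' hc' using fun i => hlift (c i)
      have h1 : ψ₀ (∑ i, c' i • b i) = 0 := by
        rw [map_sum, ← hc]
        refine Finset.sum_congr rfl fun i _ => ?_
        rw [Algebra.smul_def, Algebra.smul_def, map_mul]
        congr 1
        exact hc' i
      have h2 : ∑ i, c' i • b i = 0 := ψ₀.injective (by rw [h1, map_zero])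
      have h3 := (Fintype.linearIndependent_iff.mp b.linearIndependent) c' h2 i
      have h4 : (c i : Fb) = 0 := by
        rw [← hc' i, h3]
        exact map_zero ψ₀
      exact_mod_cast h4
    have hspan : Submodule.span k⟮x⟯ (Set.range fun i => ψ₀ (b i)) = ⊤ :=
      hli.span_eq_top_of_card_eq_finrank' (by simp)
    intro y
    have hy : y ∈ Submodule.span k⟮x⟯ (Set.range fun i => ψ₀ (b i)) := by
      rw [hspan]
      exact Submodule.mem_top
    rw [Submodule.mem_span_range_iff_exists_fun] at hy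
    obtain ⟨c, hc⟩ := hy
    choose c' hc' using fun i => hlift (c i)
    refine ⟨∑ i, c' i • b i, ?_⟩
    rw [map_sum, ← hc]
    refine Finset.sum_congr rfl fun i _ => ?_
    rw [Algebra.smul_def, Algebra.smul_def, map_mul]
    congr 1
    exact hc' i
  exact ⟨RingEquiv.ofBijective ψ₀ ⟨ψ₀.injective, hsurj⟩, hψ⟩

end Root

end Fermat.Agent.S34
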