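import Mathlib

/-!
# S34 (endgame E53, "CYC-ZAR"): the cyclic algebra `F[θ]/(θ^m - u)` and its graded subalgebras

`F` a field, `u : F`, `m ≠ 0`, `R := AdjoinRoot (X ^ m - C u)`.

* `h98_cycCoord hm u x j` : the `θ^j`-coordinate of `x : R` (zero for `j ≥ m`).
* `h98_cycMod hm u Λ` : for a family `Λ : ℕ → Submodule A F`, the `A`-submodule
  `{x | ∀ j < m, coord x j ∈ Λ j} = ⊕_{j<m} Λ j θ^j` of `R`.
* `h98_cycSub hm u Λ hone hmul` : the same as an `A`-subalgebra, when `Λ` is closed under the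
  twisted multiplication (`Λ i * Λ j ⊆ Λ (i + j)` resp. `Λ i * Λ j * u ⊆ Λ (i + j - m)`).
* `h98_cyc_mem_map_iff` : `x ∈ I · (cycSub Λ)` iff all coordinates lie in `I • Λ j`.
-/

set_option autoImplicit false

noncomputable section

namespace Fermat.Agent.S34

open Polynomial

section Coord

variable {F : Type*} [Field F] {m : ℕ} (hm : m ≠ 0) (u : F)

/-- The cyclic algebra `F[θ]/(θ^m - u)`. -/
abbrev h98_Cyc (m : ℕ) (u : F) : Type _ := AdjoinRoot (X ^ m - C u : F[X])

/-- The `θ^j`-coordinate of an element of the cyclic algebra. -/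
def h98_cycCoord (x : h98_Cyc m u) (j : ℕ) : F :=
  (AdjoinRoot.modByMonicHom (monic_X_pow_sub_C u hm) x).coeff j

theorem h98_cycCoord_add (x y : h98_Cyc m u) (j : ℕ) :
    h98_cycCoord hm u (x + y) j = h98_cycCoord hm u x j + h98_cycCoord hm u y j := by
  unfold h98_cycCoord
  rw [map_add, coeff_add]

theorem h98_cycCoord_sub (x y : h98_Cyc m u) (j : ℕ) :
    h98_cycCoord hm u (x - y) j = h98_cycCoord hm u x j - h98_cycCoord hm u y j := by
  unfold h98_cycCoord
  rw [map_sub, coeff_sub]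

theorem h98_cycCoord_zero (j : ℕ) : h98_cycCoord hm u (0 : h98_Cyc m u) j = 0 := by
  unfold h98_cycCoord
  rw [map_zero, coeff_zero]

theorem h98_cycCoord_smul (c : F) (x : h98_Cyc m u) (j : ℕ) :
    h98_cycCoord hm u (c • x) j = c * h98_cycCoord hm u x j := by
  unfold h98_cycCoord
  rw [map_smul, coeff_smul, smul_eq_mul]

theorem h98_cycCoord_sum {ι : Type*} (s : Finset ι) (f : ι → h98_Cyc m u) (j : ℕ) :
    h98_cycCoord hm u (∑ i ∈ s, f i) j = ∑ i ∈ s, h98_cycCoord hm u (f i) j := by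
  unfold h98_cycCoord
  rw [map_sum, finsetSum_coeff]

/-- The monomial `c θ^n`. -/
def h98_cycMono (c : F) (n : ℕ) : h98_Cyc m u :=
  AdjoinRoot.of (X ^ m - C u) c * AdjoinRoot.root (X ^ m - C u) ^ n

theorem h98_cycMono_eq_mk (c : F) (n : ℕ) :
    h98_cycMono u c n = AdjoinRoot.mk (X ^ m - C u) (C c * X ^ n) := by
  unfold h98_cycMono
  rw [map_mul, map_pow, AdjoinRoot.mk_C, AdjoinRoot.mk_X]

theorem h98_cycCoord_mono (c : F) {n : ℕ} (hn : n < m) (j : ℕ) :
    h98_cycCoord hm u (h98_cycMono u c n) j = if j = n then c else 0 := by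
  unfold h98_cycCoord
  rw [h98_cycMono_eq_mk, AdjoinRoot.modByMonicHom_mk]
  have hdeg : (C c * X ^ n : F[X]).degree < (X ^ m - C u : F[X]).degree := by
    rw [degree_X_pow_sub_C (Nat.pos_of_ne_zero hm)]
    calc (C c * X ^ n : F[X]).degree ≤ (n : WithBot ℕ) := degree_C_mul_X_pow_le n c
      _ < m := by exact_mod_cast hn
  rw [(modByMonic_eq_self_iff (monic_X_pow_sub_C u hm)).mpr hdeg, coeff_C_mul_X_pow]

theorem h98_cycCoord_ge (x : h98_Cyc m u) {j : ℕ} (hj : m ≤ j) : h98_cycCoord hm u x j = 0 := by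
  unfold h98_cycCoord
  apply coeff_eq_zero_of_degree_lt
  calc (AdjoinRoot.modByMonicHom (monic_X_pow_sub_C u hm) x).degree
      < (X ^ m - C u : F[X]).degree := by
        obtain ⟨p, rfl⟩ := AdjoinRoot.mk_surjective x
        rw [AdjoinRoot.modByMonicHom_mk]
        exact degree_modByMonic_lt _ (monic_X_pow_sub_C u hm)
    _ = m := degree_X_pow_sub_C (Nat.pos_of_ne_zero hm) u
    _ ≤ j := by exact_mod_cast hj

/-- Every element is the sum of its monomials. -/
theorem h98_cyc_repr (x : h98_Cyc m u) :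
    x = ∑ j ∈ Finset.range m, h98_cycMono u (h98_cycCoord hm u x j) j := by
  have h1 := AdjoinRoot.mk_leftInverse (monic_X_pow_sub_C u hm) x
  have hdeg : (AdjoinRoot.modByMonicHom (monic_X_pow_sub_C u hm) x).natDegree < m := by
    by_cases hp0 : AdjoinRoot.modByMonicHom (monic_X_pow_sub_C u hm) x = 0
    · rw [hp0, natDegree_zero]; exact Nat.pos_of_ne_zero hm
    · rw [natDegree_lt_iff_degree_lt hp0]
      obtain ⟨r, rfl⟩ := AdjoinRoot.mk_surjective x
      rw [AdjoinRoot.modByMonicHom_mk]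
      have := degree_modByMonic_lt r (monic_X_pow_sub_C u hm)
      rwa [degree_X_pow_sub_C (Nat.pos_of_ne_zero hm)] at this
  have h2 := as_sum_range' _ m hdeg
  have h3 : x = ∑ j ∈ Finset.range m, AdjoinRoot.mk (X ^ m - C u)
      (monomial j ((AdjoinRoot.modByMonicHom (monic_X_pow_sub_C u hm) x).coeff j)) := by
    rw [← map_sum, ← h2]
    exact h1.symm
  rw [h3]
  refine Finset.sum_congr rfl fun j _ => ?_
  rw [h98_cycMono_eq_mk, ← C_mul_X_pow_eq_monomial]
  congr 3
  unfold h98_cycCoord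
  rw [← h3]

theorem h98_cyc_ext {x y : h98_Cyc m u}
    (h : ∀ j < m, h98_cycCoord hm u x j = h98_cycCoord hm u y j) : x = y := by
  rw [h98_cyc_repr hm u x, h98_cyc_repr hm u y]
  refine Finset.sum_congr rfl fun j hj => ?_
  rw [h j (Finset.mem_range.mp hj)]

/-- `θ^m = u`. -/
theorem h98_cyc_root_pow :
    AdjoinRoot.root (X ^ m - C u : F[X]) ^ m = AdjoinRoot.of (X ^ m - C u) u := by
  have h := AdjoinRoot.eval₂_root (X ^ m - C u : F[X])
  rw [eval₂_sub, eval₂_pow, eval₂_X, eval₂_C, sub_eq_zero] at h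
  exact h

theorem h98_cycMono_mul (c c' : F) (i j : ℕ) :
    h98_cycMono u c i * h98_cycMono u c' j = h98_cycMono (m := m) u (c * c') (i + j) := by
  unfold h98_cycMono
  rw [map_mul, pow_add]
  ring

theorem h98_cycMono_add_m (c : F) (n : ℕ) :
    h98_cycMono (m := m) u c (n + m) = h98_cycMono u (c * u) n := by
  unfold h98_cycMono
  rw [pow_add, h98_cyc_root_pow, map_mul]
  ring

theorem h98_cycMono_add (c c' : F) (n : ℕ) :
    h98_cycMono (m := m) u (c + c') n = h98_cycMono u c n + h98_cycMono u c' n := by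
  unfold h98_cycMono
  rw [map_add, add_mul]

theorem h98_cycMono_sub (c c' : F) (n : ℕ) :
    h98_cycMono (m := m) u (c - c') n = h98_cycMono u c n - h98_cycMono u c' n := by
  unfold h98_cycMono
  rw [map_sub, sub_mul]

theorem h98_cycMono_one_zero : h98_cycMono (m := m) u 1 0 = 1 := by
  unfold h98_cycMono
  rw [map_one, pow_zero, mul_one]

end Coord

section Graded

variable {A F : Type*} [CommRing A] [Field F] [Algebra A F] {m : ℕ} (hm : m ≠ 0) (u : F)

theorem h98_cycCoord_smulA (a : A) (x : h98_Cyc m u) (j : ℕ) :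
    h98_cycCoord hm u (a • x) j = a • h98_cycCoord hm u x j := by
  rw [← algebraMap_smul F a x, h98_cycCoord_smul, Algebra.smul_def]

theorem h98_cycMono_smulA (a : A) (c : F) (n : ℕ) :
    h98_cycMono (m := m) u (a • c) n = a • h98_cycMono u c n := by
  unfold h98_cycMono
  rw [Algebra.smul_def, map_mul, mul_assoc, ← algebraMap_smul F a, Algebra.smul_def,
    AdjoinRoot.algebraMap_eq]

/-- `⊕_{j<m} Λ j θ^j` as an `A`-submodule of the cyclic algebra. -/
def h98_cycMod (Λ : ℕ → Submodule A F) : Submodule A (h98_Cyc m u) where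
  carrier := {x | ∀ j < m, h98_cycCoord hm u x j ∈ Λ j}
  add_mem' := by
    intro x y hx hy j hj
    rw [h98_cycCoord_add]
    exact Submodule.add_mem _ (hx j hj) (hy j hj)
  zero_mem' := by
    intro j _
    rw [h98_cycCoord_zero]
    exact Submodule.zero_mem _
  smul_mem' := by
    intro a x hx j hj
    rw [h98_cycCoord_smulA]
    exact Submodule.smul_mem _ _ (hx j hj)

theorem h98_mem_cycMod (Λ : ℕ → Submodule A F) (x : h98_Cyc m u) :
    x ∈ h98_cycMod hm u Λ ↔ ∀ j < m, h98_cycCoord hm u x j ∈ Λ j := Iff.rfl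

theorem h98_cycMod_mono {Λ Λ' : ℕ → Submodule A F} (h : ∀ j < m, Λ j ≤ Λ' j) :
    h98_cycMod hm u Λ ≤ h98_cycMod hm u Λ' :=
  fun _ hx j hj => h j hj (hx j hj)

theorem h98_cycMono_mem (Λ : ℕ → Submodule A F) {n : ℕ} (hn : n < m) {c : F} (hc : c ∈ Λ n) :
    h98_cycMono u c n ∈ h98_cycMod hm u Λ := by
  intro j _
  rw [h98_cycCoord_mono hm u c hn]
  split_ifs with h
  · rw [h]; exact hc
  · exact Submodule.zero_mem _

/-- Closure of `⊕ Λ j θ^j` under multiplication, for a family closed under the twisted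
multiplication. -/
theorem h98_cycMod_mul_mem (Λ : ℕ → Submodule A F)
    (hmul : ∀ i j, i < m → j < m → ∀ a ∈ Λ i, ∀ b ∈ Λ j,
      (i + j < m → a * b ∈ Λ (i + j)) ∧ (m ≤ i + j → a * b * u ∈ Λ (i + j - m)))
    (x y : h98_Cyc m u) (hx : x ∈ h98_cycMod hm u Λ) (hy : y ∈ h98_cycMod hm u Λ) :
    x * y ∈ h98_cycMod hm u Λ := by
  rw [h98_cyc_repr hm u x, h98_cyc_repr hm u y, Finset.sum_mul_sum]
  refine Submodule.sum_mem _ fun i hi => Submodule.sum_mem _ fun j hj => ?_
  rw [Finset.mem_range] at hi hj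
  rw [h98_cycMono_mul]
  obtain ⟨h1, h2⟩ := hmul i j hi hj _ (hx i hi) _ (hy j hj)
  by_cases hij : i + j < m
  · exact h98_cycMono_mem hm u Λ hij (h1 hij)
  · rw [not_lt] at hij
    have h3 : i + j = (i + j - m) + m := by omega
    rw [h3, h98_cycMono_add_m]
    exact h98_cycMono_mem hm u Λ (by omega) (h2 hij)

theorem h98_cycMod_one_mem (Λ : ℕ → Submodule A F) (hone : (1 : F) ∈ Λ 0) :
    (1 : h98_Cyc m u) ∈ h98_cycMod hm u Λ := by
  rw [← h98_cycMono_one_zero u]
  exact h98_cycMono_mem hm u Λ (Nat.pos_of_ne_zero hm) hone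

/-- `⊕_{j<m} Λ j θ^j` as an `A`-subalgebra of the cyclic algebra. -/
def h98_cycSub (Λ : ℕ → Submodule A F) (hone : (1 : F) ∈ Λ 0)
    (hmul : ∀ i j, i < m → j < m → ∀ a ∈ Λ i, ∀ b ∈ Λ j,
      (i + j < m → a * b ∈ Λ (i + j)) ∧ (m ≤ i + j → a * b * u ∈ Λ (i + j - m))) :
    Subalgebra A (h98_Cyc m u) :=
  (h98_cycMod hm u Λ).toSubalgebra (h98_cycMod_one_mem hm u Λ hone)
    (h98_cycMod_mul_mem hm u Λ hmul)

theorem h98_mem_cycSub (Λ : ℕ → Submodule A F) (hone : (1 : F) ∈ Λ 0)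
    (hmul : ∀ i j, i < m → j < m → ∀ a ∈ Λ i, ∀ b ∈ Λ j,
      (i + j < m → a * b ∈ Λ (i + j)) ∧ (m ≤ i + j → a * b * u ∈ Λ (i + j - m)))
    (x : h98_Cyc m u) :
    x ∈ h98_cycSub hm u Λ hone hmul ↔ ∀ j < m, h98_cycCoord hm u x j ∈ Λ j := Iff.rfl

/-- `x ∈ I · (⊕ Λ j θ^j)` iff all coordinates of `x` lie in `I • Λ j`. -/
theorem h98_cyc_mem_map_iff (Λ : ℕ → Submodule A F) (hone : (1 : F) ∈ Λ 0)
    (hmul : ∀ i j, i < m → j < m → ∀ a ∈ Λ i, ∀ b ∈ Λ j,
      (i + j < m → a * b ∈ Λ (i + j)) ∧ (m ≤ i + j → a * b * u ∈ Λ (i + j - m)))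
    (I : Ideal A) (x : h98_cycSub hm u Λ hone hmul) :
    x ∈ I.map (algebraMap A (h98_cycSub hm u Λ hone hmul)) ↔
      ∀ j < m, h98_cycCoord hm u (x : h98_Cyc m u) j ∈ I • Λ j := by
  have hmap : ∀ y : h98_cycSub hm u Λ hone hmul,
      y ∈ I.map (algebraMap A (h98_cycSub hm u Λ hone hmul)) ↔
        y ∈ I • (⊤ : Submodule A (h98_cycSub hm u Λ hone hmul)) := by
    intro y
    rw [Ideal.smul_top_eq_map, Submodule.restrictScalars_mem]
  rw [hmap]
  constructor
  · intro hx j hj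
    refine Submodule.smul_induction_on hx ?_ ?_
    · intro r hr n _
      have : ((r • n : h98_cycSub hm u Λ hone hmul) : h98_Cyc m u) = r • (n : h98_Cyc m u) := rfl
      rw [this, h98_cycCoord_smulA]
      exact Submodule.smul_mem_smul hr (n.2 j hj)
    · intro y z hy hz
      have : ((y + z : h98_cycSub hm u Λ hone hmul) : h98_Cyc m u) =
          (y : h98_Cyc m u) + (z : h98_Cyc m u) := rfl
      rw [this, h98_cycCoord_add]
      exact Submodule.add_mem _ hy hz
  · intro hx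
    -- the image of `I • ⊤` in the cyclic algebra
    let N' : Submodule A (h98_Cyc m u) :=
      Submodule.map (h98_cycSub hm u Λ hone hmul).val.toLinearMap
        (I • (⊤ : Submodule A (h98_cycSub hm u Λ hone hmul)))
    have hmono : ∀ j < m, ∀ c ∈ I • Λ j, h98_cycMono u c j ∈ N' := by
      intro j hj c hc
      refine Submodule.smul_induction_on hc ?_ ?_
      · intro r hr n hn
        rw [h98_cycMono_smulA]
        refine ⟨r • (⟨h98_cycMono u n j, h98_cycMono_mem hm u Λ hj hn⟩ :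
          h98_cycSub hm u Λ hone hmul), Submodule.smul_mem_smul hr Submodule.mem_top, rfl⟩
      · intro c c' hc hc'
        rw [h98_cycMono_add]
        exact Submodule.add_mem _ hc hc'
    have hxN : (x : h98_Cyc m u) ∈ N' := by
      rw [h98_cyc_repr hm u (x : h98_Cyc m u)]
      exact Submodule.sum_mem _ fun j hj =>
        hmono j (Finset.mem_range.mp hj) _ (hx j (Finset.mem_range.mp hj))
    obtain ⟨y, hy, hyx⟩ := hxN
    have : y = x := Subtype.ext hyx
    rw [← this]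
    exact hy

end Graded

section More

variable {A F : Type*} [CommRing A] [Field F] [Algebra A F] {m : ℕ} (hm : m ≠ 0) (u : F)

theorem h98_cycCoord_sum_mono (c : ℕ → F) {j : ℕ} (hj : j < m) :
    h98_cycCoord hm u (∑ i ∈ Finset.range m, h98_cycMono u (c i) i) j = c j := by
  classical
  rw [h98_cycCoord_sum,
    Finset.sum_congr rfl (fun i hi => h98_cycCoord_mono hm u (c i) (Finset.mem_range.mp hi) j),
    Finset.sum_ite_eq]
  simp [hj]

theorem h98_sum_mono_mem (Λ : ℕ → Submodule A F) (c : ℕ → F) (hc : ∀ j < m, c j ∈ Λ j) :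
    ∑ i ∈ Finset.range m, h98_cycMono u (c i) i ∈ h98_cycMod hm u Λ :=
  Submodule.sum_mem _ fun i hi =>
    h98_cycMono_mem hm u Λ (Finset.mem_range.mp hi) (hc i (Finset.mem_range.mp hi))

/-- The monomial map `c ↦ c θ^n` as an `A`-linear map. -/
def h98_cycMonoL (n : ℕ) : F →ₗ[A] h98_Cyc m u where
  toFun c := h98_cycMono u c n
  map_add' c c' := h98_cycMono_add u c c' n
  map_smul' a c := h98_cycMono_smulA u a c n

/-- `⊕_{j<m} Λ j θ^j` is finitely generated if every `Λ j` is. -/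
theorem h98_cycMod_fg (Λ : ℕ → Submodule A F) (hfg : ∀ j < m, (Λ j).FG) :
    (h98_cycMod hm u Λ).FG := by
  have h : h98_cycMod hm u Λ =
      ⨆ j ∈ Finset.range m, (Λ j).map (h98_cycMonoL (A := A) (m := m) u j) := by
    apply le_antisymm
    · intro x hx
      rw [h98_cyc_repr hm u x]
      refine Submodule.sum_mem _ fun j hj => ?_
      exact Submodule.mem_iSup_of_mem j (Submodule.mem_iSup_of_mem hj
        ⟨_, hx j (Finset.mem_range.mp hj), rfl⟩)
    · refine iSup₂_le fun j hj => ?_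
      rintro _ ⟨c, hc, rfl⟩
      exact h98_cycMono_mem hm u Λ (Finset.mem_range.mp hj) hc
  rw [h]
  exact Submodule.fg_biSup _ _ fun j hj => (hfg j (Finset.mem_range.mp hj)).map _

include hm in
/-- Reindexing `j ↦ (i + j) % m` of a sum over `range m`. -/
theorem h98_sum_range_add_mod {M : Type*} [AddCommMonoid M] (T : ℕ → M) {i : ℕ} (hi : i < m) :
    ∑ j ∈ Finset.range m, T ((i + j) % m) = ∑ l ∈ Finset.range m, T l := by
  have : NeZero m := ⟨hm⟩
  rw [Finset.sum_range, Finset.sum_range]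
  have h1 : ∀ j : Fin m, T ((i + (j : ℕ)) % m) = (fun l : Fin m => T (l : ℕ)) ((⟨i, hi⟩ : Fin m) + j) := by
    intro j
    simp only [Fin.val_add]
  rw [Finset.sum_congr rfl (fun j _ => h1 j)]
  exact Equiv.sum_comp (Equiv.addLeft (⟨i, hi⟩ : Fin m)) (fun l : Fin m => T (l : ℕ))

/-- **The idempotent congruence.**  If `g i * g j ≡ g (i + j)` resp. `g i * g j * u ≡ g (i + j - m)`
modulo `I • Λ`, then `s := ∑_j g j θ^j` satisfies `s * s ≡ m • s` modulo `⊕ (I • Λ j) θ^j`. -/
theorem h98_cyc_sq_sub (Λ : ℕ → Submodule A F) (I : Ideal A) (g : ℕ → F)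
    (hgmul : ∀ i j, i < m → j < m →
      (i + j < m → g i * g j - g (i + j) ∈ I • Λ (i + j)) ∧
      (m ≤ i + j → g i * g j * u - g (i + j - m) ∈ I • Λ (i + j - m))) :
    (∑ j ∈ Finset.range m, h98_cycMono u (g j) j) * (∑ j ∈ Finset.range m, h98_cycMono u (g j) j)
      - (m : A) • ∑ j ∈ Finset.range m, h98_cycMono (m := m) u (g j) j ∈
        h98_cycMod hm u (fun j => I • Λ j) := by
  have hB : (m : A) • ∑ j ∈ Finset.range m, h98_cycMono (m := m) u (g j) j =
      ∑ i ∈ Finset.range m, ∑ j ∈ Finset.range m,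
        h98_cycMono (m := m) u (g ((i + j) % m)) ((i + j) % m) := by
    rw [Finset.sum_congr rfl (fun i hi => h98_sum_range_add_mod hm
      (fun l => h98_cycMono (m := m) u (g l) l) (Finset.mem_range.mp hi))]
    rw [Finset.sum_const, Finset.card_range, Nat.cast_smul_eq_nsmul]
  rw [hB, Finset.sum_mul_sum, ← Finset.sum_sub_distrib]
  refine Submodule.sum_mem _ fun i hi => ?_
  rw [← Finset.sum_sub_distrib]
  refine Submodule.sum_mem _ fun j hj => ?_
  rw [Finset.mem_range] at hi hj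
  rw [h98_cycMono_mul]
  obtain ⟨h1, h2⟩ := hgmul i j hi hj
  by_cases hij : i + j < m
  · rw [Nat.mod_eq_of_lt hij, ← h98_cycMono_sub]
    exact h98_cycMono_mem hm u _ hij (h1 hij)
  · rw [not_lt] at hij
    have h3 : (i + j) % m = i + j - m := by
      rw [Nat.mod_eq_sub_mod hij, Nat.mod_eq_of_lt (by omega)]
    have h4 : i + j = (i + j - m) + m := by omega
    have h5 : h98_cycMono (m := m) u (g i * g j) (i + j) =
        h98_cycMono u (g i * g j * u) (i + j - m) := by
      conv_lhs => rw [h4, h98_cycMono_add_m]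
    rw [h3, h5, ← h98_cycMono_sub]
    exact h98_cycMono_mem hm u _ (by omega) (h2 hij)

end More

end Fermat.Agent.S34
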