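import Fermat.Agent.S34.h98_BoundedTorsion

/-!
# S34: the Zariski core WITHOUT the hypothesis `R₁ ∩ R₂ = A` (glue form)

Same setting as `h98_zariski_core` (`R₁ → R ← R₂`, an ideal `I` of `A`, `q ∈ I`, `I S` nil
modulo `q S`, bounded `q`-torsion of `R / (R₁ + R₂)`), but no hypothesis on `R₁ ∩ R₂`.

* `h98_zariski_glue` : a pair of idempotents modulo `I` of `R₁`, `R₂` that agree in `R` modulo
  `I` comes from ONE element of `R₁ ∩ R₂`: there are `x₁ : R₁`, `x₂ : R₂` with `ι₁ x₁ = ι₂ x₂`,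
  `x₁ ≡ e₁`, `x₂ ≡ e₂` modulo `I`.
* `h98_zariski_glue_fg` : the same over a valuation ring of rank one, with the bounded torsion
  hypothesis replaced by `R = R₁ + R₂ + Λ₀`, `Λ₀` a finitely generated `A`-submodule.

(Used by the "cyclic algebra" endgame E53: `R_S = ⊕_j Λ_S(j) θ^j`, `e = (1/m) ∑_j g_j θ^j`.)
-/

set_option autoImplicit false

namespace Fermat.Agent.S34

open IsLocalRing

section Glue

variable {A : Type*} [CommRing A]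
  {R₁ R₂ R : Type*} [CommRing R₁] [CommRing R₂] [CommRing R]
  [Algebra A R₁] [Algebra A R₂] [Algebra A R]

/-- **Zariski core, glue form** (any commutative ring `A`, any ideal `I`). -/
theorem h98_zariski_glue (I : Ideal A) (q : A) (hq : q ∈ I)
    (ι₁ : R₁ →ₐ[A] R) (ι₂ : R₂ →ₐ[A] R) (c : ℕ)
    (htor : ∀ (n : ℕ) (x : R) (y : R₁) (z : R₂), algebraMap A R (q ^ n) * x = ι₁ y - ι₂ z →
      ∃ (y' : R₁) (z' : R₂), algebraMap A R (q ^ c) * x = ι₁ y' - ι₂ z')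
    (hnil₁ : ∀ x ∈ I.map (algebraMap A R₁), ∃ N : ℕ, x ^ N ∈ Ideal.span {algebraMap A R₁ q})
    (hnil₂ : ∀ x ∈ I.map (algebraMap A R₂), ∃ N : ℕ, x ^ N ∈ Ideal.span {algebraMap A R₂ q})
    (hnil : ∀ x ∈ I.map (algebraMap A R), ∃ N : ℕ, x ^ N ∈ Ideal.span {algebraMap A R q})
    (e₁ : R₁) (e₂ : R₂)
    (he₁ : e₁ * e₁ - e₁ ∈ I.map (algebraMap A R₁))
    (he₂ : e₂ * e₂ - e₂ ∈ I.map (algebraMap A R₂))
    (he : ι₁ e₁ - ι₂ e₂ ∈ I.map (algebraMap A R)) :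
    ∃ (x₁ : R₁) (x₂ : R₂), ι₁ x₁ = ι₂ x₂ ∧ x₁ - e₁ ∈ I.map (algebraMap A R₁) ∧
      x₂ - e₂ ∈ I.map (algebraMap A R₂) := by
  have hn : c + 1 ≠ 0 := Nat.succ_ne_zero c
  -- lift to idempotents modulo `q ^ (c + 1)`
  obtain ⟨f₁, hf₁, hf₁e⟩ := h98_lift_idem (Ideal.span {algebraMap A R₁ (q ^ (c + 1))})
    (I.map (algebraMap A R₁)) (h98_span_pow_le _ q hq _ hn)
    (h98_nil_pow _ q hnil₁ _) e₁ he₁
  obtain ⟨f₂, hf₂, hf₂e⟩ := h98_lift_idem (Ideal.span {algebraMap A R₂ (q ^ (c + 1))})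
    (I.map (algebraMap A R₂)) (h98_span_pow_le _ q hq _ hn)
    (h98_nil_pow _ q hnil₂ _) e₂ he₂
  -- their images in `R` agree modulo `q ^ (c + 1)`
  have hJ₁ : ι₁ f₁ * ι₁ f₁ - ι₁ f₁ ∈ Ideal.span {algebraMap A R (q ^ (c + 1))} := by
    obtain ⟨s, hs⟩ := Ideal.mem_span_singleton'.mp hf₁
    refine Ideal.mem_span_singleton'.mpr ⟨ι₁ s, ?_⟩
    rw [← map_mul, ← map_sub, ← hs, map_mul, AlgHom.commutes]
  have hJ₂ : ι₂ f₂ * ι₂ f₂ - ι₂ f₂ ∈ Ideal.span {algebraMap A R (q ^ (c + 1))} := by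
    obtain ⟨s, hs⟩ := Ideal.mem_span_singleton'.mp hf₂
    refine Ideal.mem_span_singleton'.mpr ⟨ι₂ s, ?_⟩
    rw [← map_mul, ← map_sub, ← hs, map_mul, AlgHom.commutes]
  have hM : ι₁ f₁ - ι₂ f₂ ∈ I.map (algebraMap A R) := by
    have h1 : ι₁ f₁ - ι₂ f₂ = ι₁ (f₁ - e₁) + (ι₁ e₁ - ι₂ e₂) - ι₂ (f₂ - e₂) := by
      rw [map_sub, map_sub]; ring
    rw [h1]
    exact Ideal.sub_mem _ (Ideal.add_mem _ (h98_map_mem _ ι₁ hf₁e) he) (h98_map_mem _ ι₂ hf₂e)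
  have hJ := h98_idem_unique (Ideal.span {algebraMap A R (q ^ (c + 1))})
    (I.map (algebraMap A R)) (h98_nil_pow _ q hnil _) _ _ hJ₁ hJ₂ hM
  obtain ⟨x, hx⟩ := Ideal.mem_span_singleton'.mp hJ
  -- bounded torsion
  obtain ⟨y', z', hyz⟩ := htor (c + 1) x f₁ f₂ (by rw [mul_comm, hx])
  refine ⟨f₁ - algebraMap A R₁ q * y', f₂ - algebraMap A R₂ q * z', ?_, ?_, ?_⟩
  · rw [map_sub, map_sub, map_mul, map_mul, AlgHom.commutes, AlgHom.commutes]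
    have h3 : ι₁ f₁ - ι₂ f₂ = algebraMap A R q * (ι₁ y' - ι₂ z') := by
      rw [← hyz, ← mul_assoc, ← map_mul, ← pow_succ', ← hx, mul_comm]
    linear_combination h3
  · have h4 : f₁ - algebraMap A R₁ q * y' - e₁ = (f₁ - e₁) - algebraMap A R₁ q * y' := by ring
    rw [h4]
    exact Ideal.sub_mem _ hf₁e (Ideal.mul_mem_right _ _ (Ideal.mem_map_of_mem _ hq))
  · have h4 : f₂ - algebraMap A R₂ q * z' - e₂ = (f₂ - e₂) - algebraMap A R₂ q * z' := by ring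
    rw [h4]
    exact Ideal.sub_mem _ hf₂e (Ideal.mul_mem_right _ _ (Ideal.mem_map_of_mem _ hq))

end Glue

section GlueFG

variable {A : Type*} [CommRing A] [IsDomain A] [ValuationRing A]
  {R₁ R₂ R : Type*} [CommRing R₁] [CommRing R₂] [CommRing R]
  [Algebra A R₁] [Algebra A R₂] [Algebra A R]

/-- **Zariski core, glue form, over a rank-one valuation ring**: bounded torsion from
`R = R₁ + R₂ + Λ₀` with `Λ₀` finitely generated. -/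
theorem h98_zariski_glue_fg (q : A) (hq : q ∈ maximalIdeal A) (hq0 : q ≠ 0)
    (hrk : ∀ a ∈ maximalIdeal A, a ≠ 0 → ∃ n : ℕ, a ∣ q ^ n)
    (hrk' : ∀ a ∈ maximalIdeal A, ∃ n : ℕ, q ∣ a ^ n)
    (ι₁ : R₁ →ₐ[A] R) (ι₂ : R₂ →ₐ[A] R)
    (Λ₀ : Submodule A R) (hfg : Λ₀.FG)
    (hdec : ∀ x : R, ∃ (y : R₁) (z : R₂), x - ι₁ y - ι₂ z ∈ Λ₀)
    (e₁ : R₁) (e₂ : R₂)
    (he₁ : e₁ * e₁ - e₁ ∈ (maximalIdeal A).map (algebraMap A R₁))
    (he₂ : e₂ * e₂ - e₂ ∈ (maximalIdeal A).map (algebraMap A R₂))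
    (he : ι₁ e₁ - ι₂ e₂ ∈ (maximalIdeal A).map (algebraMap A R)) :
    ∃ (x₁ : R₁) (x₂ : R₂), ι₁ x₁ = ι₂ x₂ ∧
      x₁ - e₁ ∈ (maximalIdeal A).map (algebraMap A R₁) ∧
      x₂ - e₂ ∈ (maximalIdeal A).map (algebraMap A R₂) := by
  have hrk'' : ∀ a : A, a ≠ 0 → ∃ n : ℕ, a ∣ q ^ n := by
    intro a ha0
    by_cases ha : a ∈ maximalIdeal A
    · exact hrk a ha ha0
    · refine ⟨0, ?_⟩
      have hu : IsUnit a := by
        by_contra hu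
        exact ha ((IsLocalRing.mem_maximalIdeal a).2 hu)
      exact hu.dvd
  obtain ⟨c, hc⟩ := h98_htor_of_fg q hq0 hrk'' ι₁ ι₂ Λ₀ hfg hdec
  exact h98_zariski_glue (maximalIdeal A) q hq ι₁ ι₂ c hc
    (h98_hnil_of_dvd_pow _ q hrk') (h98_hnil_of_dvd_pow _ q hrk') (h98_hnil_of_dvd_pow _ q hrk')
    e₁ e₂ he₁ he₂ he

end GlueFG

end Fermat.Agent.S34
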