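import Fermat.Agent.S34.h98_CycAlg
import Fermat.Agent.S34.h98_ZariskiGlue

/-!
# S34, endgame E53 ("CYC-ZAR", helper53 #2485): the abstract theorem

`A` a valuation ring of rank one (relative to `q`), `F` a field with `Algebra A F`, `u : F`,
`m` invertible in `A`.  Three graded families of `A`-lattices `L1 j`, `L2 j ≤ L j` (`j < m`;
"poles on the first chart / second chart / both, twisted by `j D`"), closed under the twisted
multiplication of the cyclic algebra `F[θ]/(θ^m - u)`, with `L j ≤ L1 j + L2 j + L0 j`, `L0 j`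
finitely generated.  Elements `g1 j ∈ L1 j`, `g2 j ∈ L2 j` ("reduction 1") with
`g1 i * g1 j ≡ g1 (i + j)` resp. `g1 i * g1 j * u ≡ g1 (i + j - m)` modulo `𝔪 L1`, same for `g2`,
and `g1 j ≡ g2 j` modulo `𝔪 L j`.

Conclusion: for every `j < m` there is `f ∈ L1 j ∩ L2 j` with `f ≡ (1/m) g1 j` modulo `𝔪 L1 j`.
(For `j = 1`: a nonzero element of `L(D)`, so `D` is principal.)

Proof: `e_S := (1/m) ∑_j g_S j θ^j` are idempotents modulo `𝔪` of the graded subalgebras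
`⊕ L_S j θ^j`; apply `h98_zariski_glue_fg` and read off the `θ^j`-coordinate.
-/

set_option autoImplicit false

noncomputable section

namespace Fermat.Agent.S34

open IsLocalRing Polynomial

variable {A F : Type*} [CommRing A] [IsDomain A] [ValuationRing A] [Field F] [Algebra A F]

/-- **E53, abstract CYC-ZAR theorem.** -/
theorem h98_cyc_zar (q : A) (hq : q ∈ maximalIdeal A) (hq0 : q ≠ 0)
    (hrk : ∀ a ∈ maximalIdeal A, a ≠ 0 → ∃ n : ℕ, a ∣ q ^ n)
    (hrk' : ∀ a ∈ maximalIdeal A, ∃ n : ℕ, q ∣ a ^ n)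
    (m : ℕ) (hm : m ≠ 0) (minv : A) (hminv : (m : A) * minv = 1) (u : F)
    (L1 L2 L L0 : ℕ → Submodule A F)
    (h1 : ∀ j < m, L1 j ≤ L j) (h2 : ∀ j < m, L2 j ≤ L j)
    (hfg : ∀ j < m, (L0 j).FG) (h0 : ∀ j < m, L0 j ≤ L j)
    (hdec : ∀ j < m, L j ≤ L1 j ⊔ L2 j ⊔ L0 j)
    (hone1 : (1 : F) ∈ L1 0) (hone2 : (1 : F) ∈ L2 0)
    (hmul1 : ∀ i j, i < m → j < m → ∀ a ∈ L1 i, ∀ b ∈ L1 j,
      (i + j < m → a * b ∈ L1 (i + j)) ∧ (m ≤ i + j → a * b * u ∈ L1 (i + j - m)))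
    (hmul2 : ∀ i j, i < m → j < m → ∀ a ∈ L2 i, ∀ b ∈ L2 j,
      (i + j < m → a * b ∈ L2 (i + j)) ∧ (m ≤ i + j → a * b * u ∈ L2 (i + j - m)))
    (hmul : ∀ i j, i < m → j < m → ∀ a ∈ L i, ∀ b ∈ L j,
      (i + j < m → a * b ∈ L (i + j)) ∧ (m ≤ i + j → a * b * u ∈ L (i + j - m)))
    (g1 g2 : ℕ → F) (hg1 : ∀ j < m, g1 j ∈ L1 j) (hg2 : ∀ j < m, g2 j ∈ L2 j)
    (hg1mul : ∀ i j, i < m → j < m →
      (i + j < m → g1 i * g1 j - g1 (i + j) ∈ maximalIdeal A • L1 (i + j)) ∧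
      (m ≤ i + j → g1 i * g1 j * u - g1 (i + j - m) ∈ maximalIdeal A • L1 (i + j - m)))
    (hg2mul : ∀ i j, i < m → j < m →
      (i + j < m → g2 i * g2 j - g2 (i + j) ∈ maximalIdeal A • L2 (i + j)) ∧
      (m ≤ i + j → g2 i * g2 j * u - g2 (i + j - m) ∈ maximalIdeal A • L2 (i + j - m)))
    (hg12 : ∀ j < m, g1 j - g2 j ∈ maximalIdeal A • L j) :
    ∀ j < m, ∃ f : F, f ∈ L1 j ∧ f ∈ L2 j ∧ f - minv • g1 j ∈ maximalIdeal A • L1 j := by
  have hm0 : 0 < m := Nat.pos_of_ne_zero hm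
  have hone : (1 : F) ∈ L 0 := h1 0 hm0 hone1
  -- the three graded subalgebras
  let S1 := h98_cycSub hm u L1 hone1 hmul1
  let S2 := h98_cycSub hm u L2 hone2 hmul2
  let S := h98_cycSub hm u L hone hmul
  have hS1 : S1 ≤ S := fun x hx => h98_cycMod_mono hm u h1 hx
  have hS2 : S2 ≤ S := fun x hx => h98_cycMod_mono hm u h2 hx
  let ι₁ : S1 →ₐ[A] S := Subalgebra.inclusion hS1
  let ι₂ : S2 →ₐ[A] S := Subalgebra.inclusion hS2
  -- the finitely generated piece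
  let Λ₀ : Submodule A S := Submodule.comap S.val.toLinearMap (h98_cycMod hm u L0)
  have hΛ₀fg : Λ₀.FG := by
    apply Submodule.fg_of_fg_map_injective S.val.toLinearMap Subtype.val_injective
    have h : Submodule.map S.val.toLinearMap Λ₀ = h98_cycMod hm u L0 := by
      rw [Submodule.map_comap_eq, inf_eq_right]
      intro x hx
      exact ⟨⟨x, h98_cycMod_mono hm u h0 hx⟩, rfl⟩
    rw [h]
    exact h98_cycMod_fg hm u L0 hfg
  -- decomposition
  have hdec' : ∀ x : S, ∃ (y : S1) (z : S2), x - ι₁ y - ι₂ z ∈ Λ₀ := by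
    intro x
    have hx : ∀ j, ∃ y z : F, (j < m → y ∈ L1 j ∧ z ∈ L2 j ∧
        h98_cycCoord hm u (x : h98_Cyc m u) j - y - z ∈ L0 j) := by
      intro j
      by_cases hj : j < m
      · have h3 := hdec j hj (x.2 j hj)
        obtain ⟨w, hw, l, hl, hwl⟩ := Submodule.mem_sup.mp h3
        obtain ⟨y, hy, z, hz, hyz⟩ := Submodule.mem_sup.mp hw
        refine ⟨y, z, fun _ => ⟨hy, hz, ?_⟩⟩
        have : h98_cycCoord hm u (x : h98_Cyc m u) j - y - z = l := by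
          rw [← hwl, ← hyz]; ring
        rw [this]
        exact hl
      · exact ⟨0, 0, fun h => absurd h hj⟩
    choose y z hyz using hx
    refine ⟨⟨∑ i ∈ Finset.range m, h98_cycMono u (y i) i,
        h98_sum_mono_mem hm u L1 y fun j hj => (hyz j hj).1⟩,
      ⟨∑ i ∈ Finset.range m, h98_cycMono u (z i) i,
        h98_sum_mono_mem hm u L2 z fun j hj => (hyz j hj).2.1⟩, ?_⟩
    intro j hj
    show h98_cycCoord hm u ((x : h98_Cyc m u) - (∑ i ∈ Finset.range m, h98_cycMono u (y i) i)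
      - ∑ i ∈ Finset.range m, h98_cycMono u (z i) i) j ∈ L0 j
    rw [h98_cycCoord_sub, h98_cycCoord_sub, h98_cycCoord_sum_mono hm u y hj,
      h98_cycCoord_sum_mono hm u z hj]
    exact (hyz j hj).2.2
  -- the idempotents
  let s1 : h98_Cyc m u := ∑ i ∈ Finset.range m, h98_cycMono u (g1 i) i
  let s2 : h98_Cyc m u := ∑ i ∈ Finset.range m, h98_cycMono u (g2 i) i
  have hs1 : s1 ∈ S1 := h98_sum_mono_mem hm u L1 g1 hg1
  have hs2 : s2 ∈ S2 := h98_sum_mono_mem hm u L2 g2 hg2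
  let e₁ : S1 := minv • ⟨s1, hs1⟩
  let e₂ : S2 := minv • ⟨s2, hs2⟩
  have hcoe₁ : (e₁ : h98_Cyc m u) = minv • s1 := rfl
  have hcoe₂ : (e₂ : h98_Cyc m u) = minv • s2 := rfl
  have hidem : ∀ (Λ : ℕ → Submodule A F) (s : h98_Cyc m u),
      s * s - (m : A) • s ∈ h98_cycMod hm u (fun j => maximalIdeal A • Λ j) →
      (minv • s) * (minv • s) - minv • s ∈ h98_cycMod hm u (fun j => maximalIdeal A • Λ j) := by
    intro Λ s hs
    have h3 : (minv • s) * (minv • s) - minv • s = (minv * minv) • (s * s - (m : A) • s) := by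
      rw [smul_sub, smul_smul, smul_mul_smul_comm]
      have h4 : minv * minv * (m : A) = minv := by
        rw [mul_assoc, mul_comm minv (m : A), hminv, mul_one]
      rw [h4]
    rw [h3]
    exact Submodule.smul_mem _ _ hs
  have he₁ : e₁ * e₁ - e₁ ∈ (maximalIdeal A).map (algebraMap A S1) := by
    rw [h98_cyc_mem_map_iff hm u L1 hone1 hmul1]
    exact hidem L1 s1 (h98_cyc_sq_sub hm u L1 (maximalIdeal A) g1 hg1mul)
  have he₂ : e₂ * e₂ - e₂ ∈ (maximalIdeal A).map (algebraMap A S2) := by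
    rw [h98_cyc_mem_map_iff hm u L2 hone2 hmul2]
    exact hidem L2 s2 (h98_cyc_sq_sub hm u L2 (maximalIdeal A) g2 hg2mul)
  have he : ι₁ e₁ - ι₂ e₂ ∈ (maximalIdeal A).map (algebraMap A S) := by
    rw [h98_cyc_mem_map_iff hm u L hone hmul]
    intro j hj
    show h98_cycCoord hm u (minv • s1 - minv • s2) j ∈ maximalIdeal A • L j
    rw [h98_cycCoord_sub, h98_cycCoord_smulA, h98_cycCoord_smulA,
      h98_cycCoord_sum_mono hm u g1 hj, h98_cycCoord_sum_mono hm u g2 hj, ← smul_sub]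
    exact Submodule.smul_mem _ _ (hg12 j hj)
  -- glue
  obtain ⟨x₁, x₂, hx12, hx₁, -⟩ := h98_zariski_glue_fg q hq hq0 hrk hrk' ι₁ ι₂ Λ₀ hΛ₀fg hdec'
    e₁ e₂ he₁ he₂ he
  have hx12' : (x₁ : h98_Cyc m u) = (x₂ : h98_Cyc m u) := congrArg Subtype.val hx12
  intro j hj
  refine ⟨h98_cycCoord hm u (x₁ : h98_Cyc m u) j, x₁.2 j hj, ?_, ?_⟩
  · rw [hx12']
    exact x₂.2 j hj
  · have h5 := (h98_cyc_mem_map_iff hm u L1 hone1 hmul1 (maximalIdeal A) (x₁ - e₁)).mp hx₁ j hj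
    have h6 : ((x₁ - e₁ : S1) : h98_Cyc m u) = (x₁ : h98_Cyc m u) - minv • s1 := rfl
    rw [h6, h98_cycCoord_sub, h98_cycCoord_smulA, h98_cycCoord_sum_mono hm u g1 hj] at h5
    exact h5

end Fermat.Agent.S34
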