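import Mathlib

/-!
# S34 (route R85, Step 4, algebraic core): Zariski connectedness on two charts

`A` a local ring, `q` in its maximal ideal `m`.  `R₁`, `R₂` ("integral functions with poles on the
first resp. second fibre") map to `R` ("poles on both fibres").  Hypotheses:

* `hint` : `R₁ ∩ R₂ = A` (a function without poles is a constant);
* `htor` : the `q`-power torsion of `R / (R₁ + R₂)` has bounded exponent `c`;
* `hnil` : `m S` is nil modulo `q S` for `S = R₁, R₂, R`.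

Conclusion: a pair of idempotents modulo `m` of `R₁`, `R₂` that agree in `R` modulo `m` is a
constant idempotent, i.e. `0` or `1` modulo `m R₁`.  Mathlib only.
-/

set_option autoImplicit false

namespace Fermat.Agent.S34

open IsLocalRing

section Lift

variable {S : Type*} [CommRing S]

/-- Idempotents modulo `M` lift to idempotents modulo `J` when `M` is nil modulo `J`. -/
theorem h98_lift_idem (J M : Ideal S) (hJM : J ≤ M) (hnil : ∀ x ∈ M, ∃ N : ℕ, x ^ N ∈ J)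
    (e : S) (he : e * e - e ∈ M) : ∃ f : S, f * f - f ∈ J ∧ f - e ∈ M := by
  let φ : S ⧸ J →+* S ⧸ M := Ideal.Quotient.factor hJM
  have hφ : ∀ x : S, φ (Ideal.Quotient.mk J x) = Ideal.Quotient.mk M x := fun x => rfl
  have hker : ∀ x ∈ RingHom.ker φ, IsNilpotent x := by
    intro x hx
    obtain ⟨y, rfl⟩ := Ideal.Quotient.mk_surjective x
    rw [RingHom.mem_ker, hφ, Ideal.Quotient.eq_zero_iff_mem] at hx
    obtain ⟨N, hN⟩ := hnil y hx
    refine ⟨N, ?_⟩
    rw [← map_pow, Ideal.Quotient.eq_zero_iff_mem]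
    exact hN
  have hidem : IsIdempotentElem (Ideal.Quotient.mk M e) := by
    unfold IsIdempotentElem
    rw [← map_mul, ← sub_eq_zero, ← map_sub, Ideal.Quotient.eq_zero_iff_mem]
    exact he
  obtain ⟨e', he', he'e⟩ := exists_isIdempotentElem_eq_of_ker_isNilpotent φ hker
    (Ideal.Quotient.mk M e) ⟨Ideal.Quotient.mk J e, hφ e⟩ hidem
  obtain ⟨f, rfl⟩ := Ideal.Quotient.mk_surjective e'
  refine ⟨f, ?_, ?_⟩
  · rw [← Ideal.Quotient.eq_zero_iff_mem, map_sub, map_mul, sub_eq_zero]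
    exact he'
  · rw [← Ideal.Quotient.eq_zero_iff_mem, map_sub, sub_eq_zero, ← hφ f]
    exact he'e

/-- Two idempotents modulo `J` that agree modulo `M` agree modulo `J` (`M` nil modulo `J`). -/
theorem h98_idem_unique (J M : Ideal S) (hnil : ∀ x ∈ M, ∃ N : ℕ, x ^ N ∈ J)
    (f g : S) (hf : f * f - f ∈ J) (hg : g * g - g ∈ J) (hfg : f - g ∈ M) : f - g ∈ J := by
  have h1 : IsIdempotentElem (Ideal.Quotient.mk J f) := by
    unfold IsIdempotentElem
    rw [← map_mul, ← sub_eq_zero, ← map_sub, Ideal.Quotient.eq_zero_iff_mem]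
    exact hf
  have h2 : IsIdempotentElem (Ideal.Quotient.mk J g) := by
    unfold IsIdempotentElem
    rw [← map_mul, ← sub_eq_zero, ← map_sub, Ideal.Quotient.eq_zero_iff_mem]
    exact hg
  have h3 : IsNilpotent (Ideal.Quotient.mk J f - Ideal.Quotient.mk J g) := by
    obtain ⟨N, hN⟩ := hnil _ hfg
    refine ⟨N, ?_⟩
    rw [← map_sub, ← map_pow, Ideal.Quotient.eq_zero_iff_mem]
    exact hN
  have h4 := eq_of_isNilpotent_sub_of_isIdempotentElem h1 h2 h3
  rw [← Ideal.Quotient.eq_zero_iff_mem, map_sub, sub_eq_zero]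
  exact h4

end Lift

section Zariski

variable {A : Type*} [CommRing A] [IsLocalRing A]
  {R₁ R₂ R : Type*} [CommRing R₁] [CommRing R₂] [CommRing R]
  [Algebra A R₁] [Algebra A R₂] [Algebra A R]

omit [IsLocalRing A] in
theorem h98_span_pow_le {S : Type*} [CommRing S] [Algebra A S] (I : Ideal A) (q : A) (hq : q ∈ I)
    (n : ℕ) (hn : n ≠ 0) :
    Ideal.span {algebraMap A S (q ^ n)} ≤ I.map (algebraMap A S) := by
  rw [Ideal.span_le, Set.singleton_subset_iff]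
  exact Ideal.mem_map_of_mem _ (Ideal.pow_mem_of_mem I hq n (Nat.pos_of_ne_zero hn))

omit [IsLocalRing A] in
theorem h98_nil_pow {S : Type*} [CommRing S] [Algebra A S] (I : Ideal A) (q : A)
    (hnil : ∀ x ∈ I.map (algebraMap A S), ∃ N : ℕ, x ^ N ∈ Ideal.span {algebraMap A S q})
    (n : ℕ) :
    ∀ x ∈ I.map (algebraMap A S), ∃ N : ℕ, x ^ N ∈ Ideal.span {algebraMap A S (q ^ n)} := by
  intro x hx
  obtain ⟨N, hN⟩ := hnil x hx
  obtain ⟨s, hs⟩ := Ideal.mem_span_singleton'.mp hN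
  refine ⟨N * n, Ideal.mem_span_singleton'.mpr ⟨s ^ n, ?_⟩⟩
  rw [pow_mul, ← hs, mul_pow, map_pow]

omit [IsLocalRing A] in
theorem h98_map_mem (I : Ideal A) (ι₁ : R₁ →ₐ[A] R) {x : R₁}
    (hx : x ∈ I.map (algebraMap A R₁)) : ι₁ x ∈ I.map (algebraMap A R) := by
  have h1 : (I.map (algebraMap A R₁)).map (ι₁ : R₁ →+* R) = I.map (algebraMap A R) := by
    rw [Ideal.map_map]
    congr 1
    exact ι₁.comp_algebraMap
  rw [← h1]
  exact Ideal.mem_map_of_mem _ hx

/-- **Zariski connectedness on two charts, algebraic core.** -/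
theorem h98_zariski_core (q : A) (hq : q ∈ maximalIdeal A)
    (ι₁ : R₁ →ₐ[A] R) (ι₂ : R₂ →ₐ[A] R)
    (hint : ∀ (x₁ : R₁) (x₂ : R₂), ι₁ x₁ = ι₂ x₂ → ∃ a : A, algebraMap A R₁ a = x₁)
    (c : ℕ)
    (htor : ∀ (n : ℕ) (x : R) (y : R₁) (z : R₂), algebraMap A R (q ^ n) * x = ι₁ y - ι₂ z →
      ∃ (y' : R₁) (z' : R₂), algebraMap A R (q ^ c) * x = ι₁ y' - ι₂ z')
    (hnil₁ : ∀ x ∈ (maximalIdeal A).map (algebraMap A R₁),
      ∃ N : ℕ, x ^ N ∈ Ideal.span {algebraMap A R₁ q})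
    (hnil₂ : ∀ x ∈ (maximalIdeal A).map (algebraMap A R₂),
      ∃ N : ℕ, x ^ N ∈ Ideal.span {algebraMap A R₂ q})
    (hnil : ∀ x ∈ (maximalIdeal A).map (algebraMap A R),
      ∃ N : ℕ, x ^ N ∈ Ideal.span {algebraMap A R q})
    (e₁ : R₁) (e₂ : R₂)
    (he₁ : e₁ * e₁ - e₁ ∈ (maximalIdeal A).map (algebraMap A R₁))
    (he₂ : e₂ * e₂ - e₂ ∈ (maximalIdeal A).map (algebraMap A R₂))
    (he : ι₁ e₁ - ι₂ e₂ ∈ (maximalIdeal A).map (algebraMap A R)) :
    e₁ ∈ (maximalIdeal A).map (algebraMap A R₁) ∨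
      1 - e₁ ∈ (maximalIdeal A).map (algebraMap A R₁) := by
  have hn : c + 1 ≠ 0 := Nat.succ_ne_zero c
  -- lift to idempotents modulo `q ^ (c + 1)`
  obtain ⟨f₁, hf₁, hf₁e⟩ := h98_lift_idem (Ideal.span {algebraMap A R₁ (q ^ (c + 1))})
    ((maximalIdeal A).map (algebraMap A R₁)) (h98_span_pow_le _ q hq _ hn)
    (h98_nil_pow _ q hnil₁ _) e₁ he₁
  obtain ⟨f₂, hf₂, hf₂e⟩ := h98_lift_idem (Ideal.span {algebraMap A R₂ (q ^ (c + 1))})
    ((maximalIdeal A).map (algebraMap A R₂)) (h98_span_pow_le _ q hq _ hn)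
    (h98_nil_pow _ q hnil₂ _) e₂ he₂
  -- their images in `R` agree modulo `q ^ (c + 1)`
  have hJ₁ : ι₁ f₁ * ι₁ f₁ - ι₁ f₁ ∈ Ideal.span {algebraMap A R (q ^ (c + 1))} := by
    obtain ⟨s, hs⟩ := Ideal.mem_span_singleton'.mp hf₁
    refine Ideal.mem_span_singleton'.mpr ⟨ι₁ s, ?_⟩
    rw [← map_mul, ← map_sub, ← hs, map_mul, AlgHom.commutes]
  have hJ₂ : ι₂ f₂ * ι₂ f₂ - ι₂ f₂ ∈ Ideal.span {algebraMap A R (q ^ (c + 1))} := by
    obtain ⟨s, hs⟩ := Ideal.mem_span_singleton'.mp hf₂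
    refine Ideal.mem_span_singleton'.mpr ⟨ι₂ s, ?_⟩
    rw [← map_mul, ← map_sub, ← hs, map_mul, AlgHom.commutes]
  have hM : ι₁ f₁ - ι₂ f₂ ∈ (maximalIdeal A).map (algebraMap A R) := by
    have h1 : ι₁ f₁ - ι₂ f₂ = ι₁ (f₁ - e₁) + (ι₁ e₁ - ι₂ e₂) - ι₂ (f₂ - e₂) := by
      rw [map_sub, map_sub]; ring
    rw [h1]
    exact Ideal.sub_mem _ (Ideal.add_mem _ (h98_map_mem _ ι₁ hf₁e) he) (h98_map_mem _ ι₂ hf₂e)
  have hJ := h98_idem_unique (Ideal.span {algebraMap A R (q ^ (c + 1))})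
    ((maximalIdeal A).map (algebraMap A R)) (h98_nil_pow _ q hnil _) _ _ hJ₁ hJ₂ hM
  obtain ⟨x, hx⟩ := Ideal.mem_span_singleton'.mp hJ
  -- bounded torsion
  obtain ⟨y', z', hyz⟩ := htor (c + 1) x f₁ f₂ (by rw [mul_comm, hx])
  -- a function without poles
  have h2 : ι₁ (f₁ - algebraMap A R₁ q * y') = ι₂ (f₂ - algebraMap A R₂ q * z') := by
    rw [map_sub, map_sub, map_mul, map_mul, AlgHom.commutes, AlgHom.commutes]
    have h3 : ι₁ f₁ - ι₂ f₂ = algebraMap A R q * (ι₁ y' - ι₂ z') := by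
      rw [← hyz, ← mul_assoc, ← map_mul, ← pow_succ', ← hx, mul_comm]
    linear_combination h3
  obtain ⟨a, ha⟩ := hint _ _ h2
  -- `e₁ - a ∈ m R₁`
  have hea : e₁ - algebraMap A R₁ a ∈ (maximalIdeal A).map (algebraMap A R₁) := by
    have h4 : e₁ - algebraMap A R₁ a = algebraMap A R₁ q * y' - (f₁ - e₁) := by
      rw [ha]; ring
    rw [h4]
    exact Ideal.sub_mem _ (Ideal.mul_mem_right _ _ (Ideal.mem_map_of_mem _ hq)) hf₁e
  by_cases ha0 : a ∈ maximalIdeal A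
  · left
    have h5 : e₁ = (e₁ - algebraMap A R₁ a) + algebraMap A R₁ a := by ring
    rw [h5]
    exact Ideal.add_mem _ hea (Ideal.mem_map_of_mem _ ha0)
  · by_cases ha1 : 1 - a ∈ maximalIdeal A
    · right
      have h5 : 1 - e₁ = algebraMap A R₁ (1 - a) - (e₁ - algebraMap A R₁ a) := by
        rw [map_sub, map_one]; ring
      rw [h5]
      exact Ideal.sub_mem _ (Ideal.mem_map_of_mem _ ha1) hea
    · left
      -- `a (a - 1)` is a unit and lies in `m R₁`, so `m R₁ = ⊤`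
      have hu0 : IsUnit a := by
        by_contra h
        exact ha0 ((IsLocalRing.mem_maximalIdeal a).mpr h)
      have hu1 : IsUnit (1 - a) := by
        by_contra h
        exact ha1 ((IsLocalRing.mem_maximalIdeal (1 - a)).mpr h)
      have h6 : algebraMap A R₁ (a * (1 - a)) ∈ (maximalIdeal A).map (algebraMap A R₁) := by
        have h7 : algebraMap A R₁ (a * (1 - a)) =
            -(e₁ * e₁ - e₁) + (e₁ - algebraMap A R₁ a) * (e₁ + algebraMap A R₁ a - 1) := by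
          rw [map_mul, map_sub, map_one]; ring
        rw [h7]
        exact Ideal.add_mem _ (neg_mem he₁) (Ideal.mul_mem_right _ _ hea)
      have h8 : IsUnit (algebraMap A R₁ (a * (1 - a))) := (hu0.mul hu1).map _
      have h9 : (maximalIdeal A).map (algebraMap A R₁) = ⊤ :=
        Ideal.eq_top_of_isUnit_mem _ h6 h8
      rw [h9]
      exact Submodule.mem_top

end Zariski

end Fermat.Agent.S34
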